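/-
S35 — AbsTopWB.lean (helper9; B-copy of the [AbsTopF] row, A = helper44).  GENERIC top of the abstract block, for an ARBITRARY function `w`.

`S34/AbsTop.lean` builds the Čech-bis setting `Cech2Plan.Setting` for `w = secondDiff τ τ' f`
from `LocPlan.{Hw, LocA, LocAdapter}Statement`.  For S35 the function is `w = Σ G / G ^ Q`
(`G` the normalised Kummer generator), and the local input comes from the `[LocF]` block.  This
file is agnostic of how `w`, its congruence `w ≡ 1` and its local form are obtained: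

* `HypW π m j R0 Rinf V w` — the chart-side fields of `Cech2Plan.Setting` (verbatim), the chart
  hypotheses `LocPlan.ChartHyp` on both charts, `hw : w ≡ 1` modulo `π (V i)` for both `i`, and
  the LOCAL FORM of `w` at every closed point `n` of the special fibre of either chart, in the
  shape of the CONCLUSION of `LocPlan.LocAStatement` (with `w` for the second difference):
  `∃ a ≡ 1 mod π (V i)` (both `i`), `∃ s ∉ n`, `s (w a ^ m - 1) ∈ π R`;
* `settingW` — the complete `Cech2Plan.Setting O E` with `w` as given, `V = V 0 ⊓ V 1`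
  (`LocPlan.LocAdapterStatement` converts the local form into `loc0` / `locInf`);
* `exists_rootW` — the Čech-bis conclusion: `w * h ^ m ∈ R0 ∩ Rinf` for some `h ≡ 1`.
-/
import Mathlib
import Fermat.Agent.S34.LocPlan
import Fermat.Agent.S34.Cech2
import Fermat.Agent.S34.AbsTop

set_option autoImplicit false

namespace Fermat.Agent.S35.AbsTopWB

open Fermat.Agent.S34 Fermat.Agent.S34.LocPlan

section Top

variable {O : Type} [CommRing O] [IsDomain O] [IsDiscreteValuationRing O]
  {E : Type} [Field E] [Algebra O E]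

/-- The local form of `w` at the closed point `n` of the chart `R` (= the conclusion of
`LocPlan.LocAStatement` with `w` in place of the second difference). -/
def LocForm (R : Subalgebra O E) (π : O) (V : Fin 2 → ValuationSubring E) (w : E) (m : ℕ)
    (n : Ideal R) : Prop :=
  ∃ a : E, (∀ i : Fin 2, ∃ v ∈ V i, a - 1 = algebraMap R E (algebraMap O R π) * v) ∧
    ∃ s : R, s ∉ n ∧ ∃ r : R,
      algebraMap R E s * (w * a ^ m - 1) =
        algebraMap R E (algebraMap O R π) * algebraMap R E r

omit [IsDomain O] [IsDiscreteValuationRing O] in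
/-- The `loc0` / `locInf` field of `Cech2Plan.Setting` for one chart, from the local form. -/
theorem loc_of_locForm (hAd : LocAdapterStatement) (R : Subalgebra O E) {π : O}
    {V : Fin 2 → ValuationSubring E} {P : Fin 2 → Ideal R} (hC : ChartHyp π V P) {w : E}
    {m : ℕ} (hm : 0 < m) (n : Ideal R) (h : LocForm R π V w m n) :
    ∃ g : E, w * g ^ m ∈ R ∧
      ∃ r : R, r ∉ n ∧ ∃ z ∈ AbsTop.vSub V, g - (r : E) = algebraMap O E π * z := by
  obtain ⟨a, ha, s, hs, r, hr⟩ := h
  obtain ⟨⟨x, hx⟩, hz⟩ :=
    hAd R E (algebraMap O R π) V w a m s r hm (fun i x => hC.le i x) ha hr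
  refine ⟨(s : E) * a, ?_, s, hs, ?_⟩
  · have : w * ((s : E) * a) ^ m = (x : E) := hx.symm
    rw [this]
    exact x.2
  · exact AbsTop.exists_vSub R hC _ hz

/-- The complete input of the abstract block on two charts `R0`, `Rinf ⊆ E`, for a general
function `w`. -/
structure HypW (π : O) (m : ℕ) (j : E) (R0 Rinf : Subalgebra O E)
    (V : Fin 2 → ValuationSubring E) (w : E) : Prop where
  inj : Function.Injective (algebraMap O E)
  irr : Irreducible π
  hm : IsUnit (m : O)
  j_ne : j ≠ 0
  j_mem : j ∈ R0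
  jinv_mem : j⁻¹ ∈ Rinf
  /-- `R0 ⊆ Rinf[j]` -/
  glue0 : ∀ x ∈ R0, ∃ n : ℕ, x * j⁻¹ ^ n ∈ Rinf
  /-- `Rinf ⊆ R0[1/j]` -/
  glueInf : ∀ x ∈ Rinf, ∃ n : ℕ, x * j ^ n ∈ R0
  root0 : ∀ x : E, x ^ m ∈ R0 → x ∈ R0
  rootInf : ∀ x : E, x ^ m ∈ Rinf → x ∈ Rinf
  /-- `R0` is contained in a finitely generated `O[j]`-submodule of `E` -/
  fin0 : ∃ s : Finset E, (R0 : Set E) ⊆ Submodule.span (Algebra.adjoin O {j}) (s : Set E)
  /-- the vertical primes of the two charts and the chart hypotheses -/
  chart0 : ∃ P : Fin 2 → Ideal R0, ChartHyp π V P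
  chartInf : ∃ P : Fin 2 → Ideal Rinf, ChartHyp π V P
  /-- `w ≡ 1` modulo `π (V i)`, both `i` -/
  hw : ∀ i : Fin 2, ∃ z ∈ V i, w - 1 = algebraMap O E π * z
  /-- the local form of `w` at the closed points of the special fibre of `R0` -/
  loc0 : ∀ n : Ideal R0, n.IsMaximal → algebraMap O R0 π ∈ n → LocForm R0 π V w m n
  /-- the local form of `w` at the closed points of the special fibre of `Rinf` -/
  locInf : ∀ n : Ideal Rinf, n.IsMaximal → algebraMap O Rinf π ∈ n → LocForm Rinf π V w m n

variable {π : O} {m : ℕ} {j : E} {R0 Rinf : Subalgebra O E}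
  {V : Fin 2 → ValuationSubring E} {w : E}

theorem HypW.m_pos (H : HypW π m j R0 Rinf V w) : 0 < m := by
  rcases Nat.eq_zero_or_pos m with h | h
  · exfalso
    have h0 := H.hm
    rw [h, Nat.cast_zero] at h0
    exact not_isUnit_zero h0
  · exact h

/-- **The Čech-bis setting of the abstract block, for a general `w`.** -/
noncomputable def settingW (hAd : LocAdapterStatement) (H : HypW π m j R0 Rinf V w) :
    Cech2Plan.Setting O E where
  π := π
  m := m
  j := j
  w := w
  R0 := R0
  Rinf := Rinf
  V := AbsTop.vSub V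
  inj := H.inj
  irr := H.irr
  hm := H.hm
  j_ne := H.j_ne
  j_mem := H.j_mem
  jinv_mem := H.jinv_mem
  glue0 := H.glue0
  glueInf := H.glueInf
  root0 := H.root0
  rootInf := H.rootInf
  fin0 := H.fin0
  R0_le := by
    obtain ⟨P, hC⟩ := H.chart0
    exact AbsTop.le_vSub R0 hC
  Rinf_le := by
    obtain ⟨P, hC⟩ := H.chartInf
    exact AbsTop.le_vSub Rinf hC
  rootV := by
    intro x hx
    rw [AbsTop.mem_vSub] at hx ⊢
    intro i
    exact AbsTop.mem_of_pow_mem (V i) H.m_pos x (hx i)
  one_not := by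
    obtain ⟨P, hC⟩ := H.chart0
    exact AbsTop.one_not R0 hC
  invV := by
    obtain ⟨P, hC⟩ := H.chart0
    exact AbsTop.invV R0 hC
  desc0 := by
    obtain ⟨P, hC⟩ := H.chart0
    exact AbsTop.desc R0 hC
  descInf := by
    obtain ⟨P, hC⟩ := H.chartInf
    exact AbsTop.desc Rinf hC
  hw := by
    obtain ⟨P, hC⟩ := H.chart0
    exact AbsTop.exists_vSub R0 hC _ H.hw
  loc0 := by
    intro n hn hπn
    obtain ⟨P, hC⟩ := H.chart0
    exact loc_of_locForm hAd R0 hC H.m_pos n (H.loc0 n hn hπn)
  locInf := by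
    intro n hn hπn
    obtain ⟨P, hC⟩ := H.chartInf
    exact loc_of_locForm hAd Rinf hC H.m_pos n (H.locInf n hn hπn)

section Simp

variable (hAd : LocAdapterStatement) (H : HypW π m j R0 Rinf V w)

@[simp] theorem settingW_π : (settingW hAd H).π = π := rfl
@[simp] theorem settingW_m : (settingW hAd H).m = m := rfl
@[simp] theorem settingW_j : (settingW hAd H).j = j := rfl
@[simp] theorem settingW_w : (settingW hAd H).w = w := rfl
@[simp] theorem settingW_R0 : (settingW hAd H).R0 = R0 := rfl
@[simp] theorem settingW_Rinf : (settingW hAd H).Rinf = Rinf := rfl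
@[simp] theorem settingW_V : (settingW hAd H).V = AbsTop.vSub V := rfl

end Simp

/-- **Top of the abstract block, general `w`**: `w` times an `m`-th power is a global function
(lies in both charts), the root being `≡ 1` modulo `π (V 0 ⊓ V 1)`. -/
theorem exists_rootW (hAd : LocAdapterStatement) (H : HypW π m j R0 Rinf V w) :
    ∃ h : E, h ≠ 0 ∧ w * h ^ m ∈ R0 ∧ w * h ^ m ∈ Rinf ∧
      ∃ z ∈ AbsTop.vSub V, h - 1 = algebraMap O E π * z :=
  Cech2.exists_root (settingW hAd H)

end Top

end Fermat.Agent.S35.AbsTopWB
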