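/-
S35 — ModelFPlan.lean (helper5, [E]-modular architect).  BINDING interface between the MODULAR
block and the ABSTRACT block of the Frobenius statement
`(σ² - q²)(σ² - 1)² = 0` on `ker α_* ∩ ker β_* ⊆ J₀(M q)[m]`   (blueprint #2585, block [E]).
Definitions and `Prop`s only (no proof obligations).  The S34 twin is `S34/ModelPlan2.lean`.

Notation: `N = M q`, `A` a valuation ring of `ℚ̄` over `q`, `σs` a Frobenius lift at `A`,
`τ = σs * σs`, `Σ` = the action of `τ` on `F_K`, `Q = q ^ 2`, `ϖ` = the image of a uniformizer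
`π` of `O = A ∩ K`.

* `FrobHyp π V Q σ`   — what the modular block knows about `Σ` on ONE chart `R`: `Σ R = R`,
                        `Σ (V i) = V i`, `Σ c ≡ c ^ Q` modulo `π O` on constants, `Σ π = π · unit`;
* `ChartModelF …`     — per chart: the S34 `ChartModel` fields `noeth`, `frac`, `intcl`, `P`,
                        `hyp`, `branch`, `trans`, `hor` VERBATIM, plus `frob : FrobHyp`,
                        `res` (closed points of the special fibre are `O`-rational) and
                        `node` (`Σ n = n` at every crossing point);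
* `ModelF N A m Q τ f` — base, coordinate, `f` and `Σ` descended to `F_K`, the two component
                        valuation rings, the CORRECTOR `H` (`(Σ²f · f / (Σf)²) · H ^ m ≡ 1` modulo
                        `π (V 0 ∩ V 1)`, from the two norm relations + weak approximation) and
                        the two charts;
* `NormCond M q m f`  — the J-side input: `N_α f = c · h ^ m` and `N_β f = c' · h' ^ m`
                        (norms along `heckeAlphaBar`, `heckeBetaBar`);
* `ModelFStatement M q m` — the TARGET of the modular block.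
-/
import Mathlib
import Fermat.Agent.S34.ModelPlan2

set_option autoImplicit false

open ModularCurve AlgebraicCurve HahnSeries

namespace Fermat.Agent.S35.ModelFPlan

open Fermat.Agent.S18.Arith Fermat.Agent.S34

noncomputable section

section Hyp

variable {O : Type*} [CommRing O] {R : Type*} [CommRing R] [Algebra O R]
  {E : Type*} [Field E] [Algebra R E]

/-- Hypotheses on an automorphism `σ` of `E` ("square of a Frobenius lift", `Q = q²`) relative
to one chart `R`: it stabilises `R` and both component valuation rings, is `c ↦ c ^ Q` modulo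
`π` on the constants `O`, and multiplies `π` by a unit of `O`. -/
structure FrobHyp (π : O) (V : Fin 2 → ValuationSubring E) (Q : ℕ) (σ : E ≃+* E) : Prop where
  map_R : ∀ r : R, ∃ r' : R, σ (algebraMap R E r) = algebraMap R E r'
  symm_R : ∀ r : R, ∃ r' : R, σ.symm (algebraMap R E r) = algebraMap R E r'
  map_V : ∀ (i : Fin 2), ∀ x ∈ V i, σ x ∈ V i
  symm_V : ∀ (i : Fin 2), ∀ x ∈ V i, σ.symm x ∈ V i
  /-- `σ c ≡ c ^ Q` modulo `π O` for every constant `c : O` (in particular `σ O ⊆ O`) -/
  frob : ∀ c : O, ∃ c' : O,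
    σ (algebraMap R E (algebraMap O R c)) - algebraMap R E (algebraMap O R c) ^ Q =
      algebraMap R E (algebraMap O R π) * algebraMap R E (algebraMap O R c')
  /-- `σ π = π * unit of O` -/
  pi : ∃ u : O, IsUnit u ∧
    σ (algebraMap R E (algebraMap O R π)) =
      algebraMap R E (algebraMap O R π) * algebraMap R E (algebraMap O R u)

end Hyp

/-- What the modular block supplies about ONE chart `R` (in the application `R = chart t` or
`R = chart t⁻¹`, `t = J`).  Fields `noeth … hor` are those of `S34.ModelPlan2.ChartModel`. -/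
structure ChartModelF (N : ℕ) [NeZero N] (A : ValuationSubring Qb) (K : IntermediateField ℚ Qb)
    (π : OK A K) (m Q : ℕ) (V : Fin 2 → ValuationSubring (FK N K))
    (σ : FK N K ≃+* FK N K) (fK : FK N K) (R : Subalgebra (OK A K) (FK N K)) where
  /-- `R` is noetherian -/
  noeth : IsNoetherianRing R
  /-- `F_K = Frac R` -/
  frac : IsFractionRing R (FK N K)
  /-- `R` is integrally closed -/
  intcl : IsIntegrallyClosed R
  /-- the two vertical primes `P i = R ∩ π (V i)` -/
  P : Fin 2 → Ideal R
  /-- `R ⊆ V i`, `π` a uniformizer of `V i`, `P i = R ∩ π (V i)`, `P 0 ∩ P 1 = π R` -/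
  hyp : LocPlan.ChartHyp π V P
  /-- `σ R = R`, `σ (V i) = V i`, `σ c ≡ c ^ Q` on constants, `σ π = π · unit` -/
  frob : FrobHyp (R := R) π V Q σ
  /-- each branch through a closed point `n` of the special fibre is regular of dimension one
  there: `P i ≠ n` and `n / P i` is locally principal -/
  branch : ∀ n : Ideal R, n.IsMaximal → algebraMap (OK A K) R π ∈ n → ∀ i : Fin 2, P i ≤ n →
    (∃ x ∈ n, x ∉ P i) ∧
      ∃ u ∈ n, ∀ x ∈ n, ∃ s : R, s ∉ n ∧ ∃ c : R, s * x - c * u ∈ P i
  /-- the two branches are transversal where they cross: `P 0 + P 1 = n` locally at `n` -/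
  trans : ∀ n : Ideal R, n.IsMaximal → algebraMap (OK A K) R π ∈ n → P 0 ≤ n → P 1 ≤ n →
    ∀ x ∈ n, ∃ s : R, s ∉ n ∧ s * x ∈ P 0 ⊔ P 1
  /-- at every horizontal prime `𝔮` with `R_𝔮` a DVR specialising into the special fibre,
  either `f` is a unit, or `𝔮` is `O`-rational and `f` is a unit times an `m`-th power -/
  hor : ∀ n : Ideal R, n.IsMaximal → algebraMap (OK A K) R π ∈ n →
    ∀ 𝔮 : Ideal R, 𝔮.IsPrime → 𝔮 ≤ n → algebraMap (OK A K) R π ∉ 𝔮 → LocPlan.PrincAt 𝔮 →
      LocPlan.UnitAt 𝔮 fK ∨
        ((∀ r : R, ∃ c : OK A K, r - algebraMap (OK A K) R c ∈ 𝔮) ∧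
          ∃ x : FK N K, x ≠ 0 ∧ LocPlan.UnitAt 𝔮 (fK * x ^ m))
  /-- closed points of the special fibre are `O`-rational: `R / n = O / π` -/
  res : ∀ n : Ideal R, n.IsMaximal → algebraMap (OK A K) R π ∈ n →
    ∀ r : R, ∃ c : OK A K, r - algebraMap (OK A K) R c ∈ n
  /-- `σ n = n` at every crossing point `n` of the two branches -/
  node : ∀ n : Ideal R, n.IsMaximal → algebraMap (OK A K) R π ∈ n → P 0 ≤ n → P 1 ≤ n →
    ∀ r r' : R, σ (algebraMap R (FK N K) r) = algebraMap R (FK N K) r' → (r ∈ n ↔ r' ∈ n)

/-- **The Frobenius model at level `N`** for one function `f` and one element `τ` of the Galois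
group (in the application `τ = σs * σs`, `σs` a Frobenius lift at `A`, `Q = q ^ 2`). -/
structure ModelF (N : ℕ) [NeZero N] (A : ValuationSubring Qb) (m Q : ℕ) (τ : Qb ≃ₐ[ℚ] Qb)
    (f : modularFunctionFieldBar N) where
  /-- the base field -/
  K : IntermediateField ℚ Qb
  dvr : IsDiscreteValuationRing (OK A K)
  /-- a uniformizer of `O = A ∩ K` -/
  π : OK A K
  irr : Irreducible π
  hm : IsUnit ((m : ℕ) : OK A K)
  /-- the coordinate gluing the two charts `chart t`, `chart t⁻¹` -/
  t : FK N K
  t_ne : t ≠ 0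
  /-- `chart t` lies in a finitely generated `O[t]`-submodule of `F_K` -/
  fin0 : ∃ s : Finset (FK N K), (chart N A K t : Set (FK N K)) ⊆
    Submodule.span (Algebra.adjoin (OK A K) {t}) (s : Set (FK N K))
  /-- `f`, descended to `F_K` -/
  fK : FK N K
  fK_coe : Fermat.Agent.S18.Glob.toBar N K fK = f
  /-- the action `Σ` of `τ` on `F_K` -/
  σ : FK N K ≃+* FK N K
  σ_coe : ∀ x : FK N K, Fermat.Agent.S18.Glob.toBar N K (σ x) =
    UPlan.gal N τ • Fermat.Agent.S18.Glob.toBar N K x
  /-- the valuation rings of the two components of the special fibre -/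
  V : Fin 2 → ValuationSubring (FK N K)
  /-- the corrector: a unit of both `V i` with `(Σ²f · f / (Σf)²) · H ^ m ≡ 1` mod `π (V i)` -/
  H : FK N K
  H_unit : ∀ i : Fin 2, H ∈ V i ∧ H⁻¹ ∈ V i
  H_cong : ∀ i : Fin 2, ∃ z ∈ V i,
    LocPlan.secondDiff σ σ fK * H ^ m - 1 = algebraMap (OK A K) (FK N K) π * z
  /-- the chart `t ≠ ∞` -/
  c0 : ChartModelF N A K π m Q V σ fK (chart N A K t)
  /-- the chart `t ≠ 0` -/
  cInf : ChartModelF N A K π m Q V σ fK (chart N A K t⁻¹)

/-- The norm of `F̄_{M q}` over `F̄_M` along the degeneracy map `α` (`f ↦ f`). -/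
def alphaNm (M q : ℕ) [NeZero M] [NeZero q] (f : modularFunctionFieldBar (M * q)) :
    modularFunctionFieldBar M :=
  letI := algebraAlong (heckeAlphaBar Qb M q)
  Algebra.norm (modularFunctionFieldBar M) f

/-- The norm of `F̄_{M q}` over `F̄_M` along the degeneracy map `β` (`f ↦ f(q τ)`). -/
def betaNm (M q : ℕ) [NeZero M] [NeZero q] (f : modularFunctionFieldBar (M * q)) :
    modularFunctionFieldBar M :=
  letI := algebraAlong (heckeBetaBar Qb M q)
  Algebra.norm (modularFunctionFieldBar M) f

/-- **The norm conditions** (J-side input: the class of `D`, `m • D = div f`, is killed by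
`α_*` and by `β_*`): both norms of `f` are constants times `m`-th powers. -/
def NormCond (M q m : ℕ) [NeZero M] [NeZero q] (f : modularFunctionFieldBar (M * q)) : Prop :=
  (∃ (h : modularFunctionFieldBar M) (c : Qb), h ≠ 0 ∧ c ≠ 0 ∧
    alphaNm M q f = algebraMap Qb (modularFunctionFieldBar M) c * h ^ m) ∧
  (∃ (h : modularFunctionFieldBar M) (c : Qb), h ≠ 0 ∧ c ≠ 0 ∧
    betaNm M q f = algebraMap Qb (modularFunctionFieldBar M) c * h ^ m)

/-- **[ModelF]** (target of the modular block): a Frobenius model for every `f` all of whose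
orders are divisible by `m` and whose two norms are `m`-th powers up to constants, and every
Frobenius lift `σs` at `A` (`τ = σs * σs`, `Q = q ^ 2`). -/
def ModelFStatement (M q m : ℕ) [NeZero M] [NeZero q] [NeZero (M * q)] : Prop :=
  ∀ A : ValuationSubring Qb, A.LiesOverPrime q →
  ∀ σs : Qb ≃ₐ[ℚ] Qb, A.IsFrobeniusAt σs q →
  ∀ f : modularFunctionFieldBar (M * q), f ≠ 0 →
    (∀ P : Place Qb (modularFunctionFieldBar (M * q)), (m : ℤ) ∣ P.ord f) →
    NormCond M q m f →
    Nonempty (ModelF (M * q) A m (q ^ 2) (σs * σs) f)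

end

end Fermat.Agent.S35.ModelFPlan
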