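/-
S35 — PushPic.lean (helper30).  The `J`-side of block [E] / step (E2) of the S35 blueprint
(board #2585): push-forward of divisor classes along a map of function fields and its norm
description.

Generic part (`φ : F →ₐ[K] F'` integral and finite with the push-forward norm formula):

* `pushPic0 φ hφ hfin hN : Pic0 K F' →+ Pic0 K F`   — `φ_*` on degree-zero classes;
* `pushPic0_smul`                                   — equivariance for intertwined semilinear
                                                      automorphisms;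
* `normAlong φ : F' →* F`                           — the norm of `F' / φ(F)`;
* `exists_norm_eq_of_pushPic0_eq_zero`              — if `x = [D]`, `m D = div f` and `φ_* x = 0`
                                                      then `Nm f = c · h ^ m`.

Modular instance (`α = heckeAlphaBar ℚ̄ M q : F̄_M → F̄_{M q}`, the inclusion):

* `alphaPush M q : JZero (M * q) →+ JZero M`        — `α_*`;
* `galois_smul_alphaPush`                           — `α_*` commutes with `Gal(ℚ̄/ℚ)`;
* `exists_norm_eq_of_alphaPush_eq_zero`             — `α_* x = 0 ⇒ Nm_α f = c · h ^ m`.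
-/
import Mathlib
import Fermat.Prelude.Def_AlgebraicCurve_Correspondence
import Fermat.Prelude.Def_ModularCurve_HeckeModule
import Fermat.Agent.S29.GalHecke
import Fermat.Agent.S29.KTheta
import Fermat.Agent.S37.HeckeInputs

set_option autoImplicit false
set_option linter.style.haveILetI false

open AlgebraicCurve ModularCurve

namespace Fermat.Agent.S35.PushPic

noncomputable section

/-! ### Generic part -/

section Generic

variable {K F F' : Type*} [Field K] [Field F] [Field F'] [Algebra K F] [Algebra K F']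
variable (φ : F →ₐ[K] F') (hφ : φ.toRingHom.IsIntegral)

/-- Push-forward of degree-zero divisors along `φ`. -/
def degZeroPush : Divisor.degZero (K := K) (F := F') →+ Divisor.degZero (K := K) (F := F) :=
  ((Divisor.pushforwardAlong φ hφ).domRestrict (Divisor.degZero (K := K) (F := F'))).codRestrict _
    (fun D => Divisor.pushforwardAlong_mem_degZero φ hφ D.2)

@[simp]
theorem coe_degZeroPush (D : Divisor.degZero (K := K) (F := F')) :
    (degZeroPush φ hφ D : Divisor K F) = Divisor.pushforwardAlong φ hφ (D : Divisor K F') :=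
  rfl

variable (hfin : FiniteAlong K φ) (hN : NormFormulaAlong K φ hfin)

/-- **`φ_*` on `Pic⁰`.** -/
def pushPic0 : Pic0 K F' →+ Pic0 K F :=
  QuotientAddGroup.map _ _ (degZeroPush φ hφ) (by
    rintro ⟨D, hD0⟩ hD
    simp only [AddSubgroup.mem_addSubgroupOf] at hD ⊢
    exact Divisor.isPrincipal_pushforwardAlong φ hφ hfin hN hD)

theorem pushPic0_mk (D : Divisor.degZero (K := K) (F := F')) :
    pushPic0 φ hφ hfin hN (Pic0.mk D) = Pic0.mk (degZeroPush φ hφ D) :=
  rfl

/-- `φ_*` is equivariant for semilinear automorphisms intertwined along `φ`. -/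
theorem pushPic0_smul {g : SemilinearAut K F} {g' : SemilinearAut K F'}
    (h : SemilinearAut.IntertwinesAlong (φ : F →+* F') g g')
    (hdeg : ∀ v : Place K F, v.deg ≠ 0) (x : Pic0 K F') :
    pushPic0 φ hφ hfin hN (g' • x) = g • pushPic0 φ hφ hfin hN x := by
  obtain ⟨D, rfl⟩ := Pic0.mk_surjective x
  rw [SemilinearAut.pic0_smul_mk, pushPic0_mk, pushPic0_mk, SemilinearAut.pic0_smul_mk]
  refine congrArg Pic0.mk (Subtype.ext ?_)
  rw [coe_degZeroPush, SemilinearAut.coe_degZeroSMulHom, SemilinearAut.coe_degZeroSMulHom,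
    coe_degZeroPush]
  exact Fermat.Agent.S29.GalHecke.pushforwardAlong_smul φ hφ h hdeg _

/-- The norm of `F'` over `φ(F)`. -/
def normAlong : F' →* F :=
  letI := algebraAlong φ
  Algebra.norm F

include hfin in
theorem normAlong_ne_zero {f : F'} (hf : f ≠ 0) : normAlong φ f ≠ 0 := by
  letI := algebraAlong φ
  haveI : Module.Finite F F' := hfin
  exact Algebra.norm_ne_zero_iff.mpr hf

include hN in
/-- The norm formula: `φ_* (div f) = div (Nm f)`. -/
theorem pushforwardAlong_eq_ord_normAlong {f : F'} (hf : f ≠ 0) {E : Divisor K F'}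
    (hE : ∀ w : Place K F', E w = w.ord f) (v : Place K F) :
    Divisor.pushforwardAlong φ hφ E v = v.ord (normAlong φ f) := by
  letI := algebraAlong φ
  haveI := isScalarTower_along φ
  haveI := isIntegral_along φ hφ
  haveI : Module.Finite F F' := hfin
  exact hN f hf E hE v

/-- **`φ_* x = 0 ⇒ Nm f = c · h ^ m`** for a Kummer generator `f` of `x` (`x = [D]`,
`m D = div f`).  `hconst`: functions of `F` without zeros and poles are constants. -/
theorem exists_norm_eq_of_pushPic0_eq_zero
    (hconst : ∀ g : F, g ≠ 0 → (∀ v : Place K F, v.ord g = 0) → ∃ c : K, g = algebraMap K F c)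
    {m : ℕ} (D : Divisor.degZero (K := K) (F := F')) (f : F') (hf : f ≠ 0)
    (hD : ∀ w : Place K F', (m : ℤ) * (D : Divisor K F') w = w.ord f)
    (h0 : pushPic0 φ hφ hfin hN (Pic0.mk D) = 0) :
    ∃ (h : F) (c : K), h ≠ 0 ∧ c ≠ 0 ∧ normAlong φ f = algebraMap K F c * h ^ m := by
  rw [pushPic0_mk] at h0
  have h1 := (QuotientAddGroup.eq_zero_iff _).mp h0
  rw [AddSubgroup.mem_addSubgroupOf] at h1
  obtain ⟨h, hh, hDh⟩ := h1
  rw [coe_degZeroPush] at hDh
  have hNf : normAlong φ f ≠ 0 := normAlong_ne_zero φ hfin hf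
  -- the divisor of `f` is `m • D`
  have hE : ∀ w : Place K F', ((m : ℤ) • (D : Divisor K F')) w = w.ord f := by
    intro w
    rw [Finsupp.smul_apply, smul_eq_mul]
    exact hD w
  have hkey : ∀ v : Place K F, v.ord (normAlong φ f) = (m : ℤ) * v.ord h := by
    intro v
    rw [← pushforwardAlong_eq_ord_normAlong φ hφ hfin hN hf hE v, map_zsmul, Finsupp.smul_apply,
      smul_eq_mul, hDh v]
  have hhm : h ^ m ≠ 0 := pow_ne_zero m hh
  have hg0 : normAlong φ f / h ^ m ≠ 0 := div_ne_zero hNf hhm
  have hgord : ∀ v : Place K F, v.ord (normAlong φ f / h ^ m) = 0 := by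
    intro v
    rw [div_eq_mul_inv, v.ord_mul hNf (inv_ne_zero hhm), v.ord_inv, hkey v, ← zpow_natCast h m,
      v.ord_zpow]
    ring
  obtain ⟨c, hc⟩ := hconst _ hg0 hgord
  refine ⟨h, c, hh, ?_, ?_⟩
  · rintro rfl
    rw [map_zero] at hc
    exact hg0 hc
  · rw [← hc, div_mul_cancel₀ _ hhm]

end Generic

/-! ### The modular instance -/

section Modular

set_option synthInstance.maxHeartbeats 400000

/-- `ℚ̄`. -/
local notation "Qb" => AlgebraicClosure ℚ

/-- `Gal(ℚ̄/ℚ)`. -/
local notation "GQ" => (AlgebraicClosure ℚ ≃ₐ[ℚ] AlgebraicClosure ℚ)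

variable (M q : ℕ) [NeZero M] [NeZero q]

theorem alpha_isIntegral : (heckeAlphaBar Qb M q).toRingHom.IsIntegral :=
  (Fermat.Agent.S37.HI.heckeInputsAlong_of_neZero M q).1

theorem alpha_finiteAlong : FiniteAlong Qb (heckeAlphaBar Qb M q) :=
  (Fermat.Agent.S37.HI.heckeInputsAlong_of_neZero M q).2.2.2.1

theorem alpha_normFormulaAlong :
    NormFormulaAlong Qb (heckeAlphaBar Qb M q) (alpha_finiteAlong M q) :=
  (Fermat.Agent.S37.HI.heckeInputsAlong_of_neZero M q).2.2.2.2.2

/-- **`α_* : J₀(M q) → J₀(M)`**, the push-forward along the inclusion `F̄_M ⊆ F̄_{M q}`. -/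
def alphaPush : JZero (M * q) →+ JZero M :=
  pushPic0 (heckeAlphaBar Qb M q) (alpha_isIntegral M q) (alpha_finiteAlong M q)
    (alpha_normFormulaAlong M q)

/-- The norm of `F̄_{M q}` over `F̄_M`. -/
def alphaNorm : modularFunctionFieldBar (M * q) →* modularFunctionFieldBar M :=
  normAlong (heckeAlphaBar Qb M q)

theorem alphaPush_mk (D : Divisor.degZero (K := Qb) (F := modularFunctionFieldBar (M * q))) :
    alphaPush M q (Pic0.mk D) =
      Pic0.mk (degZeroPush (heckeAlphaBar Qb M q) (alpha_isIntegral M q) D) :=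
  rfl

/-- `α_*` commutes with the Galois action. -/
theorem galois_smul_alphaPush (σ : GQ) (x : JZero (M * q)) :
    alphaPush M q (σ • x) = σ • alphaPush M q x := by
  rw [galois_smul_pic0_def, galois_smul_pic0_def]
  exact pushPic0_smul (heckeAlphaBar Qb M q) (alpha_isIntegral M q) (alpha_finiteAlong M q)
    (alpha_normFormulaAlong M q) (Fermat.Agent.S29.GalHecke.intertwines_heckeAlphaBar M q σ)
    (Fermat.Agent.S29.GalHecke.deg_ne_zero M) x

theorem beta_isIntegral : (heckeBetaBar Qb M q).toRingHom.IsIntegral :=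
  (Fermat.Agent.S37.HI.heckeInputsAlong_of_neZero M q).2.1

theorem beta_finiteAlong : FiniteAlong Qb (heckeBetaBar Qb M q) := by
  haveI : NeZero (M * q) := ⟨mul_ne_zero (NeZero.ne M) (NeZero.ne q)⟩
  exact Fermat.Agent.S37.HI.finiteAlong_of_isFF1 (Fermat.Agent.S37.HI.isFF1_modular M)
    (Fermat.Agent.S37.HI.isFF1_modular (M * q)) _

theorem beta_normFormulaAlong :
    NormFormulaAlong Qb (heckeBetaBar Qb M q) (beta_finiteAlong M q) := by
  haveI : NeZero (M * q) := ⟨mul_ne_zero (NeZero.ne M) (NeZero.ne q)⟩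
  exact Fermat.Agent.S37.HI.normFormulaAlong_of_isFF1 (Fermat.Agent.S37.HI.isFF1_modular M)
    (Fermat.Agent.S37.HI.isFF1_modular (M * q)) _ _

/-- **`β_* : J₀(M q) → J₀(M)`**, the push-forward along `q ↦ q ^ q : F̄_M → F̄_{M q}`. -/
def betaPush : JZero (M * q) →+ JZero M :=
  pushPic0 (heckeBetaBar Qb M q) (beta_isIntegral M q) (beta_finiteAlong M q)
    (beta_normFormulaAlong M q)

/-- The norm of `F̄_{M q}` over `β(F̄_M)`. -/
def betaNorm : modularFunctionFieldBar (M * q) →* modularFunctionFieldBar M :=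
  normAlong (heckeBetaBar Qb M q)

theorem betaPush_mk (D : Divisor.degZero (K := Qb) (F := modularFunctionFieldBar (M * q))) :
    betaPush M q (Pic0.mk D) =
      Pic0.mk (degZeroPush (heckeBetaBar Qb M q) (beta_isIntegral M q) D) :=
  rfl

/-- `β_*` commutes with the Galois action. -/
theorem galois_smul_betaPush (σ : GQ) (x : JZero (M * q)) :
    betaPush M q (σ • x) = σ • betaPush M q x := by
  rw [galois_smul_pic0_def, galois_smul_pic0_def]
  exact pushPic0_smul (heckeBetaBar Qb M q) (beta_isIntegral M q) (beta_finiteAlong M q)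
    (beta_normFormulaAlong M q) (Fermat.Agent.S29.GalHecke.intertwines_heckeBetaBar M q σ)
    (Fermat.Agent.S29.GalHecke.deg_ne_zero M) x

/-- **The `q`-new classes**: `ker α_* ∩ ker β_*`. -/
def newKer : AddSubgroup (JZero (M * q)) :=
  (alphaPush M q).ker ⊓ (betaPush M q).ker

theorem mem_newKer {x : JZero (M * q)} :
    x ∈ newKer M q ↔ alphaPush M q x = 0 ∧ betaPush M q x = 0 := by
  rw [newKer, AddSubgroup.mem_inf, AddMonoidHom.mem_ker, AddMonoidHom.mem_ker]

/-- The `q`-new classes are Galois-stable. -/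
theorem galois_smul_mem_newKer (σ : GQ) {x : JZero (M * q)} (hx : x ∈ newKer M q) :
    σ • x ∈ newKer M q := by
  rw [mem_newKer] at hx ⊢
  rw [galois_smul_alphaPush, galois_smul_betaPush, hx.1, hx.2]
  exact ⟨smul_zero (A := JZero M) σ, smul_zero (A := JZero M) σ⟩

/-- `α_*` maps `m`-torsion to `m`-torsion. -/
theorem alphaPush_nsmul_eq_zero {m : ℕ} {x : JZero (M * q)} (hx : m • x = 0) :
    m • alphaPush M q x = 0 := by
  rw [← map_nsmul, hx, map_zero]

/-- **`α_* x = 0 ⇒ Nm_α f = c · h ^ m`** for a Kummer generator `f` of `x`. -/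
theorem exists_norm_eq_of_alphaPush_eq_zero {m : ℕ}
    (D : Divisor.degZero (K := Qb) (F := modularFunctionFieldBar (M * q)))
    (f : modularFunctionFieldBar (M * q)) (hf : f ≠ 0)
    (hD : ∀ w : Place Qb (modularFunctionFieldBar (M * q)),
      (m : ℤ) * (D : Divisor Qb (modularFunctionFieldBar (M * q))) w = w.ord f)
    (h0 : alphaPush M q (Pic0.mk D) = 0) :
    ∃ (h : modularFunctionFieldBar M) (c : Qb), h ≠ 0 ∧ c ≠ 0 ∧
      alphaNorm M q f = algebraMap Qb (modularFunctionFieldBar M) c * h ^ m := by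
  have hF : Fermat.Agent.S24.IsFF1 Fermat.Agent.S24.Kb (Fermat.Agent.S24.FN M) :=
    Fermat.Agent.S37.HI.isFF1_modular M
  refine exists_norm_eq_of_pushPic0_eq_zero (heckeAlphaBar Qb M q) (alpha_isIntegral M q)
    (alpha_finiteAlong M q) (alpha_normFormulaAlong M q) ?_ D f hf hD h0
  intro g _ hg
  obtain ⟨c, hc⟩ := Fermat.Agent.S29.KTheta.mem_range_of_ord_eq_zero hF g hg
  exact ⟨c, hc.symm⟩

/-- **`β_* x = 0 ⇒ Nm_β f = c · h ^ m`** for a Kummer generator `f` of `x`. -/
theorem exists_norm_eq_of_betaPush_eq_zero {m : ℕ}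
    (D : Divisor.degZero (K := Qb) (F := modularFunctionFieldBar (M * q)))
    (f : modularFunctionFieldBar (M * q)) (hf : f ≠ 0)
    (hD : ∀ w : Place Qb (modularFunctionFieldBar (M * q)),
      (m : ℤ) * (D : Divisor Qb (modularFunctionFieldBar (M * q))) w = w.ord f)
    (h0 : betaPush M q (Pic0.mk D) = 0) :
    ∃ (h : modularFunctionFieldBar M) (c : Qb), h ≠ 0 ∧ c ≠ 0 ∧
      betaNorm M q f = algebraMap Qb (modularFunctionFieldBar M) c * h ^ m := by
  have hF : Fermat.Agent.S24.IsFF1 Fermat.Agent.S24.Kb (Fermat.Agent.S24.FN M) :=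
    Fermat.Agent.S37.HI.isFF1_modular M
  refine exists_norm_eq_of_pushPic0_eq_zero (heckeBetaBar Qb M q) (beta_isIntegral M q)
    (beta_finiteAlong M q) (beta_normFormulaAlong M q) ?_ D f hf hD h0
  intro g _ hg
  obtain ⟨c, hc⟩ := Fermat.Agent.S29.KTheta.mem_range_of_ord_eq_zero hF g hg
  exact ⟨c, hc.symm⟩

/-- **(E2), `J`-side**: a Kummer generator `f` of a `q`-new class has both norms of the form
`c · h ^ m`. -/
theorem exists_norms_of_mem_newKer {m : ℕ}
    (D : Divisor.degZero (K := Qb) (F := modularFunctionFieldBar (M * q)))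
    (f : modularFunctionFieldBar (M * q)) (hf : f ≠ 0)
    (hD : ∀ w : Place Qb (modularFunctionFieldBar (M * q)),
      (m : ℤ) * (D : Divisor Qb (modularFunctionFieldBar (M * q))) w = w.ord f)
    (hx : Pic0.mk D ∈ newKer M q) :
    (∃ (h : modularFunctionFieldBar M) (c : Qb), h ≠ 0 ∧ c ≠ 0 ∧
      alphaNorm M q f = algebraMap Qb (modularFunctionFieldBar M) c * h ^ m) ∧
    (∃ (h : modularFunctionFieldBar M) (c : Qb), h ≠ 0 ∧ c ≠ 0 ∧
      betaNorm M q f = algebraMap Qb (modularFunctionFieldBar M) c * h ^ m) := by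
  rw [mem_newKer] at hx
  exact ⟨exists_norm_eq_of_alphaPush_eq_zero M q D f hf hD hx.1,
    exists_norm_eq_of_betaPush_eq_zero M q D f hf hD hx.2⟩

end Modular

end

end Fermat.Agent.S35.PushPic
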