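/-
S35 — FCorePlan.lean (helper5, [E]-modular architect).  BINDING J-side plan of block [E]
(blueprint #2585): `(τ - q²)(τ - 1)² = 0` on the `m`-torsion of `ker α_* ∩ ker β_*`, `τ = σs²`
for a Frobenius lift `σs` at `q ∥ M q`.  Definitions and `Prop`s only.  The S34 twin is
`S34/UPlan.lean` (`CoreStatement`, `SDStatement`, `U2Statement`).

Chain (each arrow one kernel-checked hypothesis-form theorem, owners on the board):

    FrobTorsStatement ⇐ FrobDivStatement                      (PushPic norm criterion, [FTors])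
    FrobDivStatement  ⇐ FrobCoreStatement + Cech2Statement    (generic [Glob], [FGlob])
    FrobCoreStatement ⇐ ModelFPlan.ModelFStatement + abstract leaves of LocFPlan   ([CoreAsmF])

* `gBar N τ m f H`      — `G = (τ²f · f / (τf)²) · H ^ m` (`UPlan.sdFun N τ τ f * H ^ m`);
* `wBar N τ Q m f H`    — `w = τ G / G ^ Q`;
* `fDiv N τ Q D`        — the divisor `(τ - Q)(τ - 1)² D = τ (sdDiv τ τ D) - Q • sdDiv τ τ D`;
* `FrobCoreStatement`   — INTERFACE to the assembly: a complete Čech-bis setting on the charts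
                          `chart t`, `chart t⁻¹` with exponent `m` and `w = wBar … f H` for some
                          corrector `H ≠ 0`;
* `FrobDivStatement`    — if `div f = m • D` and both norms of `f` are `m`-th powers up to
                          constants then `(τ - q²)(τ - 1)² D` is principal;
* `FrobTorsStatement`   — `(τ - q²)(τ - 1)² x = 0` for `x ∈ newKer M q`, `m • x = 0`.
-/
import Mathlib
import Fermat.Agent.S35.ModelFPlan
import Fermat.Agent.S35.PushPic

set_option autoImplicit false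

open ModularCurve AlgebraicCurve HahnSeries

namespace Fermat.Agent.S35.FCorePlan

open Fermat.Agent.S18.Arith Fermat.Agent.S34

noncomputable section

/-- `G = (τ²f · f / (τf)²) · H ^ m`. -/
def gBar (N : ℕ) (τ : Qb ≃ₐ[ℚ] Qb) (m : ℕ) (f H : modularFunctionFieldBar N) :
    modularFunctionFieldBar N :=
  UPlan.sdFun N τ τ f * H ^ m

/-- `w = τ G / G ^ Q`, `G = gBar N τ m f H`. -/
def wBar (N : ℕ) (τ : Qb ≃ₐ[ℚ] Qb) (Q m : ℕ) (f H : modularFunctionFieldBar N) :
    modularFunctionFieldBar N :=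
  (UPlan.gal N τ • gBar N τ m f H) / gBar N τ m f H ^ Q

/-- The divisor `(τ - Q)(τ - 1)² D`. -/
def fDiv (N : ℕ) (τ : Qb ≃ₐ[ℚ] Qb) (Q : ℕ) (D : Divisor Qb (modularFunctionFieldBar N)) :
    Divisor Qb (modularFunctionFieldBar N) :=
  UPlan.gal N τ • UPlan.sdDiv N τ τ D - Q • UPlan.sdDiv N τ τ D

/-- **[FrobCore]** (interface to the assembly of block [E]): for every `f ≠ 0` of `F̄_{M q}` with
`m ∣ div f` whose norms along `α` and `β` are `m`-th powers up to constants, and every Frobenius
lift `σs` at `A ∣ q`, there are a base field `K` with `O = A ∩ K` a discrete valuation ring, a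
coordinate `t ∈ F_K`, a corrector `H ≠ 0` and a Čech-bis setting on the charts `chart t`,
`chart t⁻¹` with exponent `m` whose function `w` is `τ G / G ^ (q²)`,
`G = (τ²f · f / (τf)²) · H ^ m`, `τ = σs²`. -/
def FrobCoreStatement (M q m : ℕ) [NeZero M] [NeZero q] [NeZero (M * q)] : Prop :=
  ∀ A : ValuationSubring Qb, A.LiesOverPrime q →
  ∀ σs : Qb ≃ₐ[ℚ] Qb, A.IsFrobeniusAt σs q →
  ∀ f : modularFunctionFieldBar (M * q), f ≠ 0 →
    (∀ P : Place Qb (modularFunctionFieldBar (M * q)), (m : ℤ) ∣ P.ord f) →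
    ModelFPlan.NormCond M q m f →
    ∃ (K : IntermediateField ℚ Qb) (_ : IsDiscreteValuationRing (OK A K))
      (S : Cech2Plan.Setting (OK A K) (FK (M * q) K)) (t : FK (M * q) K)
      (H : modularFunctionFieldBar (M * q)),
      H ≠ 0 ∧ S.m = m ∧ S.R0 = chart (M * q) A K t ∧ S.Rinf = chart (M * q) A K t⁻¹ ∧
        ((S.w : FK (M * q) K) : LaurentSeries Qb) =
          ((wBar (M * q) (σs * σs) (q ^ 2) m f H : modularFunctionFieldBar (M * q)) :
            LaurentSeries Qb)

/-- **(FD)** if `div f = m • D` and both norms of `f` are `m`-th powers up to constants, then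
`(τ - q²)(τ - 1)² D` is principal, `τ = σs²` for a Frobenius lift `σs` at `q`. -/
def FrobDivStatement (M q m : ℕ) [NeZero M] [NeZero q] [NeZero (M * q)] : Prop :=
  ∀ A : ValuationSubring Qb, A.LiesOverPrime q →
  ∀ σs : Qb ≃ₐ[ℚ] Qb, A.IsFrobeniusAt σs q →
  ∀ f : modularFunctionFieldBar (M * q), f ≠ 0 →
  ∀ D : Divisor Qb (modularFunctionFieldBar (M * q)),
    (∀ P : Place Qb (modularFunctionFieldBar (M * q)), (m : ℤ) * D P = P.ord f) →
    ModelFPlan.NormCond M q m f →
    Divisor.IsPrincipal (fDiv (M * q) (σs * σs) (q ^ 2) D)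

/-- **(FT)** the target of block [E]: `(τ - q²)(τ - 1)²` kills the `m`-torsion of
`ker α_* ∩ ker β_*` in `J₀(M q)`, `τ = σs²` for a Frobenius lift `σs` at `q`. -/
def FrobTorsStatement (M q m : ℕ) [NeZero M] [NeZero q] [NeZero (M * q)] : Prop :=
  ∀ A : ValuationSubring Qb, A.LiesOverPrime q →
  ∀ σs : Qb ≃ₐ[ℚ] Qb, A.IsFrobeniusAt σs q →
  ∀ x : JZero (M * q), m • x = 0 → x ∈ PushPic.newKer M q →
    (σs * σs) • ((σs * σs) • (σs * σs) • x + x - ((σs * σs) • x + (σs * σs) • x)) -
      (q ^ 2) • ((σs * σs) • (σs * σs) • x + x - ((σs * σs) • x + (σs * σs) • x)) = 0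

end

end Fermat.Agent.S35.FCorePlan
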