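import Mathlib
import Fermat.Agent.S34.LocPlan

/-!
# S35, ABSTRACT block of [E]: vocabulary and exact leaf statements (no proofs)

Architect file (helper25) of the abstract (commutative algebra) part of block [E] of S35:
`(Σ - Q)(Σ - 1)² = 0` on the `q`-new torsion, `Σ = σ²` for a Frobenius lift `σ`, `Q = q²`.
Same picture and vocabulary as `S34/LocPlan.lean` (helper41): `O` a discrete valuation ring with
uniformizer `π`, `R` a chart with fraction field `E`, `V 0`, `V 1` the valuation rings of the two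
components of the special fibre, `P i = R ∩ π (V i)`, `n` a closed point of the special fibre.

New here: an automorphism `Sg` of `E` which is NOT trivial on the special fibre (`FrobHyp`: it
stabilises `R` and each `V i`, multiplies `π` by a unit and satisfies `Sg c ≡ c ^ Q` modulo `π`
on the constants `c ∈ O`); a function `f` with the horizontal hypothesis of `LocAStatement` at
every closed point; `G = gFun Sg f H m = secondDiff Sg Sg f · H ^ m`, assumed `≡ 1` modulo
`π (V i)` for both `i`; and `w = wFun Sg Q G = Σ G / G ^ Q`.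

Target: `LocFStatement` — the conclusion of `LocPlan.LocAStatement` verbatim for `w` (so that
`LocPlan.LocAdapterStatement` applies unchanged and gives the `loc0`/`locInf` fields of
`Cech2Plan.Setting`), and `HwFStatement` (`w ≡ 1` modulo `π (V i)`).

Leaves: `VertPrincStatement`, `VertUnitStatement`, `DecompStatement`, `YGStatement`,
`BranchUnitStatement`, `LocGStatement`, `LocF0Statement`, `SmoothFixStatement`, `LocFStatement`,
`HwFStatement`.
-/

set_option autoImplicit false

namespace Fermat.Agent.S35.LocFPlan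

open Fermat.Agent.S34.LocPlan

/-! ### Vocabulary -/

section Fun

variable {E : Type*} [Field E]

/-- The first difference `Σ f / f`. -/
def firstDiff (Sg : E ≃+* E) (f : E) : E := Sg f / f

/-- `G = Σ²f · f / (Σf)² · H ^ m`: the second difference of `f` under `Σ`
(`LocPlan.secondDiff Sg Sg f`, equal to `firstDiff Sg (firstDiff Sg f)`), corrected by the `m`-th
power of `H`. -/
def gFun (Sg : E ≃+* E) (f H : E) (m : ℕ) : E := secondDiff Sg Sg f * H ^ m

/-- `w = Σ G / G ^ Q`. -/
def wFun (Sg : E ≃+* E) (Q : ℕ) (G : E) : E := Sg G / G ^ Q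

end Fun

section Hyp

variable {O : Type*} [CommRing O] {R : Type*} [CommRing R] [Algebra O R]
  {E : Type*} [Field E] [Algebra R E]

/-- Hypotheses on an automorphism `Sg` of `E` ("square of a Frobenius lift", `Q = q²`): it
stabilises `R` and the two component valuation rings, multiplies `π` by a unit, and is the `Q`-th
power map modulo `π` on the constants `c ∈ O`.  (NO triviality on `V i / π`.) -/
structure FrobHyp (π : O) (V : Fin 2 → ValuationSubring E) (Sg : E ≃+* E) (Q : ℕ) : Prop where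
  map_R : ∀ r : R, ∃ r' : R, Sg (algebraMap R E r) = algebraMap R E r'
  symm_R : ∀ r : R, ∃ r' : R, Sg.symm (algebraMap R E r) = algebraMap R E r'
  /-- `Sg (V i) ⊆ V i` -/
  map_V : ∀ (i : Fin 2), ∀ x ∈ V i, Sg x ∈ V i
  /-- `Sg⁻¹ (V i) ⊆ V i` -/
  symm_V : ∀ (i : Fin 2), ∀ x ∈ V i, Sg.symm x ∈ V i
  /-- `Sg π = π * unit` -/
  pi : ∀ i : Fin 2, ∃ u ∈ V i, u⁻¹ ∈ V i ∧
    Sg (algebraMap R E (algebraMap O R π)) = algebraMap R E (algebraMap O R π) * u
  /-- `Sg c ≡ c ^ Q` modulo `π (V i)` for the constants `c ∈ O` -/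
  const : ∀ (c : O) (i : Fin 2), ∃ y ∈ V i,
    Sg (algebraMap R E (algebraMap O R c)) - algebraMap R E (algebraMap O R c) ^ Q =
      algebraMap R E (algebraMap O R π) * y

/-- The horizontal hypothesis of `LocPlan.LocAStatement` for `f` at the closed point `n`: at
every horizontal prime `𝔮 ≤ n` with `PrincAt 𝔮` either `f` is a unit, or `f` is a unit times an
`m`-th power and `𝔮` has a cut function at `n`. -/
def HorHyp (π : O) (f : E) (m : ℕ) (n : Ideal R) : Prop :=
  ∀ 𝔮 : Ideal R, 𝔮.IsPrime → 𝔮 ≤ n → algebraMap O R π ∉ 𝔮 → PrincAt 𝔮 →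
    UnitAt 𝔮 f ∨
      ((∃ x : E, x ≠ 0 ∧ UnitAt 𝔮 (f * x ^ m)) ∧ ∃ e : R, Cut (algebraMap O R π) n 𝔮 e)

/-- Every branch through `n` is regular of dimension one at `n` (the `branch` field of
`S34/ModelPlan2.ChartModel` at `n`). -/
def BranchAt (P : Fin 2 → Ideal R) (n : Ideal R) : Prop :=
  ∀ i : Fin 2, P i ≤ n → (∃ x ∈ n, x ∉ P i) ∧
    ∃ t ∈ n, ∀ x ∈ n, ∃ s : R, s ∉ n ∧ ∃ c : R, s * x - c * t ∈ P i

/-- The two branches are transversal at `n` if both pass through `n` (the `trans` field of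
`S34/ModelPlan2.ChartModel` at `n`). -/
def TransAt (P : Fin 2 → Ideal R) (n : Ideal R) : Prop :=
  P 0 ≤ n → P 1 ≤ n → ∀ x ∈ n, ∃ s : R, s ∉ n ∧ s * x ∈ P 0 ⊔ P 1

/-- `n' = Σ⁻¹ n` (as ideals of `R`). -/
def IsPre (Sg : E ≃+* E) (n' n : Ideal R) : Prop :=
  ∀ r r' : R, Sg (algebraMap R E r) = algebraMap R E r' → (r ∈ n' ↔ r' ∈ n)

/-- `n` is `Σ`-stable. -/
def FixedBy (Sg : E ≃+* E) (n : Ideal R) : Prop := IsPre Sg n n

end Hyp

/-! ### Vertical primes -/

/-- **[VertPrinc]**: a vertical prime through a closed point with regular branches (transversal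
if both pass) is locally principal at itself, generated by `π` (`R_{P i}` is a DVR). -/
def VertPrincStatement : Prop :=
  ∀ (O : Type) [CommRing O] (R : Type) [CommRing R] [IsDomain R] [Algebra O R]
    (E : Type) [Field E] [Algebra R E] [IsFractionRing R E]
    (π : O) (V : Fin 2 → ValuationSubring E) (P : Fin 2 → Ideal R) (n : Ideal R) (i : Fin 2),
    n.IsPrime → ChartHyp π V P → BranchAt P n → TransAt P n → P i ≤ n → PrincAt (P i)

/-- **[VertUnit]**: `V i = R_{P i}` on units, if `P i` is locally principal at itself. -/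
def VertUnitStatement : Prop :=
  ∀ (O : Type) [CommRing O] (R : Type) [CommRing R] [IsDomain R] [IsNoetherianRing R]
    [Algebra O R] (E : Type) [Field E] [Algebra R E] [IsFractionRing R E]
    (π : O) (V : Fin 2 → ValuationSubring E) (P : Fin 2 → Ideal R) (i : Fin 2) (x : E),
    ChartHyp π V P → PrincAt (P i) → x ∈ V i → x⁻¹ ∈ V i → UnitAt (P i) x

/-! ### The first difference at a closed point -/

/-- **[Decomp]**: at a closed point `n` of the special fibre, with `n' = Σ⁻¹ n` (equal to `n` if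
both branches pass through `n`), the first difference `Σ f / f` is an `m`-th power times a unit
of `R_n`.  (Cut products `e`, `e'` of `f` at `n`, `n'`: `Σf/f = (Σe'/e)^m · ε`; at a crossing
point `e' = e` and `ε` is a unit at both vertical primes; at a one-branch point a power of `π^m`
is moved into the `m`-th power; then `KrullUnit`.) -/
def DecompStatement : Prop :=
  ∀ (O : Type) [CommRing O] [IsDomain O] [IsDiscreteValuationRing O]
    (R : Type) [CommRing R] [IsDomain R] [IsNoetherianRing R] [IsIntegrallyClosed R] [Algebra O R]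
    (E : Type) [Field E] [Algebra R E] [IsFractionRing R E]
    (π : O) (V : Fin 2 → ValuationSubring E) (P : Fin 2 → Ideal R) (Sg : E ≃+* E) (Q : ℕ) (f : E)
    (m : ℕ) (n n' : Ideal R),
    Irreducible π → n.IsMaximal → n'.IsMaximal → algebraMap O R π ∈ n → f ≠ 0 → 0 < m →
    ChartHyp π V P → FrobHyp (R := R) π V Sg Q → IsPre Sg n' n →
    (P 0 ≤ n → P 1 ≤ n → n' = n) →
    HorHyp π f m n → HorHyp π f m n' →
    ∃ g ε : E, g ≠ 0 ∧ firstDiff Sg f = g ^ m * ε ∧ UnitAt n ε

/-! ### The normal form of `G` at a closed point -/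

/-- **[BranchUnit]**: if `g ^ m * u ≡ 1` modulo `π (V i)` with `u` a unit of `R_n`, and the
branch `P i` through `n` is regular at `n` (and `R_{P i} = V i`), then `g` is congruent modulo
`π (V i)` to a unit of `R_n`.  (`(R / P i)_n` is a DVR, hence integrally closed.) -/
def BranchUnitStatement : Prop :=
  ∀ (O : Type) [CommRing O] (R : Type) [CommRing R] [IsDomain R] [IsNoetherianRing R]
    [Algebra O R] (E : Type) [Field E] [Algebra R E] [IsFractionRing R E]
    (π : O) (V : Fin 2 → ValuationSubring E) (P : Fin 2 → Ideal R) (i : Fin 2) (n : Ideal R)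
    (g u : E) (m : ℕ),
    n.IsMaximal → 0 < m → ChartHyp π V P → P i ≤ n → PrincAt (P i) →
    (∃ x ∈ n, x ∉ P i) →
    (∃ t ∈ n, ∀ x ∈ n, ∃ s : R, s ∉ n ∧ ∃ c : R, s * x - c * t ∈ P i) →
    UnitAt n u →
    (∃ z ∈ V i, g ^ m * u - 1 = algebraMap R E (algebraMap O R π) * z) →
    ∃ v : E, UnitAt n v ∧ ∃ z ∈ V i, g - v = algebraMap R E (algebraMap O R π) * z

/-- **[LocG]** (static normal form; no automorphism): if `G = g ^ m * u` with `u` a unit of `R_n`
and `G ≡ 1` modulo `π (V i)` on the branches through `n`, then `G = g₀ ^ m * u₀` with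
`u₀ ∈ 1 + π R_n`, `g₀ ≡ 1` modulo `π (V 0)` and `g₀ ≡ γ` modulo `π (V 1)` (on the branches
through `n`) for a CONSTANT `γ ∈ O` with `γ ^ m ≡ 1` modulo `π`, and `γ = 1` unless both branches
pass through `n`.  (`R_n / π = D₀ ×_{κ(n)} D₁`; the hypothesis `hroot` — the `m`-th roots of
unity of `R / n` at a crossing point are represented by constants — holds if `n` is `O`-rational
or if `O` contains a primitive `m`-th root of unity.) -/
def LocGStatement : Prop :=
  ∀ (O : Type) [CommRing O] [IsDomain O] [IsDiscreteValuationRing O]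
    (R : Type) [CommRing R] [IsDomain R] [IsNoetherianRing R] [IsIntegrallyClosed R] [Algebra O R]
    (E : Type) [Field E] [Algebra R E] [IsFractionRing R E]
    (π : O) (V : Fin 2 → ValuationSubring E) (P : Fin 2 → Ideal R) (m : ℕ) (n : Ideal R)
    (G g u : E),
    Irreducible π → n.IsMaximal → algebraMap O R π ∈ n → 0 < m →
    ChartHyp π V P → BranchAt P n → TransAt P n →
    (P 0 ≤ n → P 1 ≤ n → ∀ x : R, x ^ m - 1 ∈ n → ∃ c : O, x - algebraMap O R c ∈ n) →
    G = g ^ m * u → UnitAt n u →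
    (∀ i : Fin 2, P i ≤ n → ∃ z ∈ V i, G - 1 = algebraMap R E (algebraMap O R π) * z) →
    ∃ (g₀ : E) (γ : O), g₀ ≠ 0 ∧ (∃ c : O, γ ^ m - 1 = π * c) ∧
      (¬ (P 0 ≤ n ∧ P 1 ≤ n) → γ = 1) ∧
      (P 0 ≤ n → ∃ z ∈ V 0, g₀ - 1 = algebraMap R E (algebraMap O R π) * z) ∧
      (P 1 ≤ n → ∃ z ∈ V 1,
        g₀ - algebraMap R E (algebraMap O R γ) = algebraMap R E (algebraMap O R π) * z) ∧
      ∃ s : R, s ∉ n ∧ ∃ r : R,
        algebraMap R E s * (G / g₀ ^ m - 1) =
          algebraMap R E (algebraMap O R π) * algebraMap R E r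

/-! ### The local input of the Čech block for `w = Σ G / G ^ Q` -/

/-- The common hypotheses of `YGStatement` / `LocF0Statement` / `LocFStatement` on one chart:
chart and Frobenius hypotheses, regular transversal branches, `Σ`-stable crossing points with
constant roots of unity, the horizontal hypothesis for `f` at EVERY closed point of the special
fibre, and `G ≡ 1` modulo `π (V i)`. -/
structure LocFHyp {O : Type*} [CommRing O] {R : Type*} [CommRing R] [Algebra O R]
    {E : Type*} [Field E] [Algebra R E]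
    (π : O) (V : Fin 2 → ValuationSubring E) (P : Fin 2 → Ideal R) (Sg : E ≃+* E) (Q : ℕ)
    (f H : E) (m : ℕ) : Prop where
  chart : ChartHyp π V P
  frob : FrobHyp (R := R) π V Sg Q
  branch : ∀ n : Ideal R, n.IsMaximal → algebraMap O R π ∈ n → BranchAt P n
  trans : ∀ n : Ideal R, n.IsMaximal → algebraMap O R π ∈ n → TransAt P n
  /-- [NodeRat] the crossing points are `Σ`-stable -/
  node : ∀ n : Ideal R, n.IsMaximal → algebraMap O R π ∈ n → P 0 ≤ n → P 1 ≤ n → FixedBy Sg n
  /-- at a crossing point the `m`-th roots of unity of `R / n` are represented by constants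
  (true if `n` is `O`-rational, or if `O` contains a primitive `m`-th root of unity) -/
  root : ∀ n : Ideal R, n.IsMaximal → algebraMap O R π ∈ n → P 0 ≤ n → P 1 ≤ n →
    ∀ x : R, x ^ m - 1 ∈ n → ∃ c : O, x - algebraMap O R c ∈ n
  hor : ∀ n : Ideal R, n.IsMaximal → algebraMap O R π ∈ n → HorHyp π f m n
  f_ne : f ≠ 0
  /-- `G ≡ 1` modulo `π (V i)`, both `i` -/
  cong : ∀ i : Fin 2, ∃ z ∈ V i,
    gFun Sg f H m - 1 = algebraMap R E (algebraMap O R π) * z

/-- **[YG]**: at every closed point `n` of the special fibre, `G = gFun Sg f H m` is an `m`-th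
power times a unit of `R_n`.  (`[Decomp]` at `(n, Σ⁻¹n)` and at `(Σ⁻¹n, Σ⁻²n)`:
`Σf/f = g₁ ^ m ε` at `n`, `Σf/f = g₁' ^ m ε'` at `Σ⁻¹n`, so
`G = (Σg₁' / g₁ · H) ^ m · (Σε' / ε)` and `Σ` maps `R_{Σ⁻¹n}ˣ` to `R_nˣ`.) -/
def YGStatement : Prop :=
  ∀ (O : Type) [CommRing O] [IsDomain O] [IsDiscreteValuationRing O]
    (R : Type) [CommRing R] [IsDomain R] [IsNoetherianRing R] [IsIntegrallyClosed R] [Algebra O R]
    (E : Type) [Field E] [Algebra R E] [IsFractionRing R E]
    (π : O) (V : Fin 2 → ValuationSubring E) (P : Fin 2 → Ideal R) (Sg : E ≃+* E) (Q : ℕ)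
    (f H : E) (m : ℕ) (n : Ideal R),
    Irreducible π → n.IsMaximal → algebraMap O R π ∈ n → 0 < m →
    LocFHyp π V P Sg Q f H m →
    ∃ g u : E, gFun Sg f H m = g ^ m * u ∧ UnitAt n u

/-- **[LocF0]**: at a closed point `n` of the special fibre there is `a ≡ 1` modulo `π (V i)` on
the branches through `n` with `w * a ^ m ∈ 1 + π R_n`, `w = Σ G / G ^ Q`.
(`[YG]` + `[LocG]` at `n` and at `Σ⁻¹ n`: `a = g₀ ^ Q / Σ g₀'` for the normal forms
`G = g₀ ^ m u₀` at `n`, `G = g₀' ^ m u₀'` at `Σ⁻¹ n`; at a crossing point `Σ⁻¹ n = n`, `g₀' = g₀`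
and `γ ^ Q / Σ γ ≡ 1` by `FrobHyp.const`; then `w a ^ m = Σ u₀' / u₀ ^ Q`.) -/
def LocF0Statement : Prop :=
  ∀ (O : Type) [CommRing O] [IsDomain O] [IsDiscreteValuationRing O]
    (R : Type) [CommRing R] [IsDomain R] [IsNoetherianRing R] [IsIntegrallyClosed R] [Algebra O R]
    (E : Type) [Field E] [Algebra R E] [IsFractionRing R E]
    (π : O) (V : Fin 2 → ValuationSubring E) (P : Fin 2 → Ideal R) (Sg : E ≃+* E) (Q : ℕ)
    (f H : E) (m : ℕ) (n : Ideal R),
    Irreducible π → n.IsMaximal → algebraMap O R π ∈ n → 0 < m →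
    LocFHyp π V P Sg Q f H m →
    ∃ a : E, (∀ i : Fin 2, P i ≤ n → ∃ v ∈ V i, a - 1 = algebraMap R E (algebraMap O R π) * v) ∧
      ∃ s : R, s ∉ n ∧ ∃ r : R,
        algebraMap R E s * (wFun Sg Q (gFun Sg f H m) * a ^ m - 1) =
          algebraMap R E (algebraMap O R π) * algebraMap R E r

/-- **[SmoothFix]** (one-branch repair; no hypothesis on `w`): if `a₀ ≡ 1` modulo `π (V i)` on
the branch through `n`, `w * a₀ ^ m ∈ 1 + π R_n`, and the other branch `P j` does not pass
through `n`, then `a₀` can be corrected to `a ≡ 1` modulo `π (V i)` AND modulo `π (V j)` with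
`w * a ^ m ∈ 1 + π R_n`. -/
def SmoothFixStatement : Prop :=
  ∀ (O : Type) [CommRing O] (R : Type) [CommRing R] [IsDomain R] [Algebra O R]
    (E : Type) [Field E] [Algebra R E] [IsFractionRing R E]
    (π : O) (V : Fin 2 → ValuationSubring E) (P : Fin 2 → Ideal R) (n : Ideal R) (i j : Fin 2)
    (w a₀ : E) (m : ℕ),
    ChartHyp π V P → n.IsPrime → algebraMap O R π ∈ n → P i ≤ n → ¬ P j ≤ n →
    (∃ v ∈ V i, a₀ - 1 = algebraMap R E (algebraMap O R π) * v) →
    (∃ s : R, s ∉ n ∧ ∃ r : R,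
      algebraMap R E s * (w * a₀ ^ m - 1) =
        algebraMap R E (algebraMap O R π) * algebraMap R E r) →
    ∃ a : E, (∃ v ∈ V i, a - 1 = algebraMap R E (algebraMap O R π) * v) ∧
      (∃ v ∈ V j, a - 1 = algebraMap R E (algebraMap O R π) * v) ∧
      ∃ s : R, s ∉ n ∧ ∃ r : R,
        algebraMap R E s * (w * a ^ m - 1) =
          algebraMap R E (algebraMap O R π) * algebraMap R E r

/-- **[LocF]** (= [LocF0] + [SmoothFix]): the conclusion of `LocPlan.LocAStatement` verbatim for
`w = Σ G / G ^ Q` — `a ≡ 1` modulo `π (V i)` for BOTH `i` and `w * a ^ m ∈ 1 + π R_n`. -/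
def LocFStatement : Prop :=
  ∀ (O : Type) [CommRing O] [IsDomain O] [IsDiscreteValuationRing O]
    (R : Type) [CommRing R] [IsDomain R] [IsNoetherianRing R] [IsIntegrallyClosed R] [Algebra O R]
    (E : Type) [Field E] [Algebra R E] [IsFractionRing R E]
    (π : O) (V : Fin 2 → ValuationSubring E) (P : Fin 2 → Ideal R) (Sg : E ≃+* E) (Q : ℕ)
    (f H : E) (m : ℕ) (n : Ideal R),
    Irreducible π → n.IsMaximal → algebraMap O R π ∈ n → 0 < m →
    LocFHyp π V P Sg Q f H m →
    ∃ a : E, (∀ i : Fin 2, ∃ v ∈ V i, a - 1 = algebraMap R E (algebraMap O R π) * v) ∧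
      ∃ s : R, s ∉ n ∧ ∃ r : R,
        algebraMap R E s * (wFun Sg Q (gFun Sg f H m) * a ^ m - 1) =
          algebraMap R E (algebraMap O R π) * algebraMap R E r

/-- **[HwF]**: `w = Σ G / G ^ Q ≡ 1` modulo `π (V i)` if `G ≡ 1` modulo `π (V i)`. -/
def HwFStatement : Prop :=
  ∀ (O : Type) [CommRing O] (R : Type) [CommRing R] [Algebra O R]
    (E : Type) [Field E] [Algebra R E]
    (π : O) (V : Fin 2 → ValuationSubring E) (P : Fin 2 → Ideal R) (Sg : E ≃+* E) (Q : ℕ) (G : E),
    ChartHyp π V P → FrobHyp (R := R) π V Sg Q →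
    (∀ i : Fin 2, ∃ z ∈ V i, G - 1 = algebraMap R E (algebraMap O R π) * z) →
    ∀ i : Fin 2, ∃ z ∈ V i, wFun Sg Q G - 1 = algebraMap R E (algebraMap O R π) * z

end Fermat.Agent.S35.LocFPlan
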