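/-
S35 — CoreAsmF.lean (helper9; deal helper25 #2671 / helper5 #2702).  THE ASSEMBLY of block [E]:

    `coreAsmF : CoreAsmFStatement`
      = `LocPlan.CutAtStatement → LocFPlan.LocFStatement → LocFPlan.HwFStatement →
         LocPlan.LocAdapterStatement → ∀ M q m, ModelFPlan.ModelFStatement M q m →
         FCorePlan.FrobCoreStatement M q m`.

From a `ModelFPlan.ModelF` (what the modular block supplies for one function `f` and `τ = σs²`)
we build, on each of the two charts `chart t`, `chart t⁻¹`, the hypothesis package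
`LocFPlan.LocFHyp` of the abstract block (`ModelFPlan.FrobHyp` ⟹ `LocFPlan.FrobHyp`, `res` ⟹
`root`, the horizontal input `HorHyp` from `LocPlan.CutAtStatement` + `branch`/`trans`/`hor` via
`S34/CoreAsm.cutHyp_of_cutAt`), then the generic Čech-bis setting `AbsTopWB.settingW` for
`w = wFun Σ Q (gFun Σ f_K H m)` (local form from `LocFStatement`, `w ≡ 1` from `HwFStatement`),
and identify `w` with `FCorePlan.wBar` after the inclusion `F_K → F̄`.
-/
import Mathlib
import Fermat.Agent.S34.UPlan
import Fermat.Agent.S34.LocPlan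
import Fermat.Agent.S34.Cech2Plan
import Fermat.Agent.S34.ChartJ
import Fermat.Agent.S34.CoreAsm
import Fermat.Agent.S18.FinalCore
import Fermat.Agent.S35.LocFPlan
import Fermat.Agent.S35.ModelFPlan
import Fermat.Agent.S35.FCorePlan
import Fermat.Agent.S35.AbsTopWB

set_option autoImplicit false

open ModularCurve AlgebraicCurve HahnSeries

namespace Fermat.Agent.S35.CoreAsmF

open Fermat.Agent.S18.Arith Fermat.Agent.S34 Fermat.Agent.S34.LocPlan

noncomputable section

/-! ### `ModelFPlan.FrobHyp` ⟹ `LocFPlan.FrobHyp` -/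

section Frob

variable {O : Type*} [CommRing O] {R : Type*} [CommRing R] [Algebra O R]
  {E : Type*} [Field E] [Algebra R E]
  {π : O} {V : Fin 2 → ValuationSubring E} {P : Fin 2 → Ideal R} {Q : ℕ} {σ : E ≃+* E}

/-- The `O`-forms of the modular side imply the weak forms of the abstract block. -/
theorem frobHyp_of_model (hC : ChartHyp π V P) (h : ModelFPlan.FrobHyp (R := R) π V Q σ) :
    LocFPlan.FrobHyp (R := R) π V σ Q where
  map_R := h.map_R
  symm_R := h.symm_R
  map_V := h.map_V
  symm_V := h.symm_V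
  pi := by
    intro i
    obtain ⟨u, hu, hσ⟩ := h.pi
    obtain ⟨u', hu'⟩ := hu.exists_right_inv
    refine ⟨algebraMap R E (algebraMap O R u), hC.le i _, ?_, hσ⟩
    have h1 : algebraMap R E (algebraMap O R u) * algebraMap R E (algebraMap O R u') = 1 := by
      rw [← map_mul, ← map_mul, hu', map_one, map_one]
    rw [inv_eq_of_mul_eq_one_right h1]
    exact hC.le i _
  const := by
    intro c i
    obtain ⟨c', hc'⟩ := h.frob c
    exact ⟨algebraMap R E (algebraMap O R c'), hC.le i _, hc'⟩

end Frob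

/-! ### From a `ModelF` to the Čech-bis setting -/

section Asm

open Fermat.Agent.S35.ModelFPlan

variable {N : ℕ} [NeZero N] {A : ValuationSubring Qb}

/-- The hypothesis package `LocFPlan.LocFHyp` of the abstract block on one chart `R`, from the
chart record `ChartModelF` of the modular block. -/
theorem locFHyp_of_chartModelF (hCut : CutAtStatement) {K : IntermediateField ℚ Qb}
    [IsDiscreteValuationRing (OK A K)] {π : OK A K} (hπ : Irreducible π) {m Q : ℕ}
    {V : Fin 2 → ValuationSubring (FK N K)} {σ : FK N K ≃+* FK N K} {fK H : FK N K}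
    (R : Subalgebra (OK A K) (FK N K)) (c : ChartModelF N A K π m Q V σ fK R) (hf : fK ≠ 0)
    (hcong : ∀ i : Fin 2, ∃ z ∈ V i,
      secondDiff σ σ fK * H ^ m - 1 = algebraMap (OK A K) (FK N K) π * z) :
    LocFPlan.LocFHyp π V c.P σ Q fK H m where
  chart := c.hyp
  frob := frobHyp_of_model c.hyp c.frob
  branch := fun n hn hπn => c.branch n hn hπn
  trans := fun n hn hπn => c.trans n hn hπn
  node := fun n hn hπn h0 h1 => c.node n hn hπn h0 h1
  root := fun n hn hπn _ _ x _ => c.res n hn hπn x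
  hor := fun n hn hπn =>
    haveI := c.noeth
    CoreAsm.cutHyp_of_cutAt hCut R hπ c.hyp n hn hπn (c.branch n hn hπn) (c.trans n hn hπn)
      (c.hor n hn hπn)
  f_ne := hf
  cong := hcong

variable {m Q : ℕ} {τ : Qb ≃ₐ[ℚ] Qb} {f : modularFunctionFieldBar N}

/-- `f`, descended to `F_K`, is nonzero. -/
theorem fK_ne_zero (M : ModelF N A m Q τ f) (hf : f ≠ 0) : M.fK ≠ 0 := by
  intro h
  apply hf
  rw [← M.fK_coe, h, map_zero]

theorem m_ne_zero (M : ModelF N A m Q τ f) : m ≠ 0 := by
  rintro rfl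
  have h0 := M.hm
  rw [Nat.cast_zero] at h0
  have := M.dvr
  exact not_isUnit_zero h0

/-- The corrector is nonzero. -/
theorem H_ne_zero (M : ModelF N A m Q τ f) : M.H ≠ 0 := by
  intro h
  obtain ⟨z, hz, hcz⟩ := M.H_cong 0
  rw [h, zero_pow (m_ne_zero M), mul_zero, zero_sub] at hcz
  have h1 : (1 : FK N M.K) = algebraMap (OK A M.K) (FK N M.K) M.π * (-z) := by
    rw [mul_neg, ← hcz, neg_neg]
  exact CoreAsm.val_one_ne (M.V 0) (M.c0.hyp.pi_not 0) (neg_mem hz) h1

/-- The complete input of the generic abstract top attached to a `ModelF`. -/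
theorem hypW_of_modelF (hCut : CutAtStatement) (hLocF : LocFPlan.LocFStatement)
    (hHwF : LocFPlan.HwFStatement) (M : ModelF N A m Q τ f) (hf : f ≠ 0) :
    haveI := M.dvr
    AbsTopWB.HypW M.π m M.t (chart N A M.K M.t) (chart N A M.K M.t⁻¹) M.V
      (LocFPlan.wFun M.σ Q (LocFPlan.gFun M.σ M.fK M.H m)) := by
  have := M.dvr
  have hm0 : m ≠ 0 := m_ne_zero M
  have hfK := fK_ne_zero M hf
  exact
    { inj := Fermat.Agent.S18.FinalCore.algebraMap_injective_OK N A M.K
      irr := M.irr
      hm := M.hm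
      j_ne := M.t_ne
      j_mem := ChartJ.self_mem_chart N A M.K M.t
      jinv_mem := ChartJ.self_mem_chart N A M.K M.t⁻¹
      glue0 := fun x hx => ChartJ.glue N A M.K M.t_ne hx
      glueInf := fun x hx => ChartJ.glue' N A M.K M.t_ne hx
      root0 := fun x hx => ChartJ.root_chart N A M.K hm0 hx
      rootInf := fun x hx => ChartJ.root_chart N A M.K hm0 hx
      fin0 := M.fin0
      chart0 := ⟨M.c0.P, M.c0.hyp⟩
      chartInf := ⟨M.cInf.P, M.cInf.hyp⟩
      hw := hHwF (OK A M.K) (chart N A M.K M.t) (FK N M.K) M.π M.V M.c0.P M.σ Q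
        (LocFPlan.gFun M.σ M.fK M.H m) M.c0.hyp (frobHyp_of_model M.c0.hyp M.c0.frob) M.H_cong
      loc0 := fun n hn hπn =>
        haveI := M.c0.noeth
        haveI := M.c0.intcl
        haveI := M.c0.frac
        hLocF (OK A M.K) (chart N A M.K M.t) (FK N M.K) M.π M.V M.c0.P M.σ Q M.fK M.H m n
          M.irr hn hπn (Nat.pos_of_ne_zero hm0)
          (locFHyp_of_chartModelF hCut M.irr (chart N A M.K M.t) M.c0 hfK M.H_cong)
      locInf := fun n hn hπn =>
        haveI := M.cInf.noeth
        haveI := M.cInf.intcl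
        haveI := M.cInf.frac
        hLocF (OK A M.K) (chart N A M.K M.t⁻¹) (FK N M.K) M.π M.V M.cInf.P M.σ Q M.fK M.H m n
          M.irr hn hπn (Nat.pos_of_ne_zero hm0)
          (locFHyp_of_chartModelF hCut M.irr (chart N A M.K M.t⁻¹) M.cInf hfK M.H_cong) }

/-- The function `w` commutes with the inclusion `F_K → F̄`. -/
theorem toBar_wFun (M : ModelF N A m Q τ f) :
    Fermat.Agent.S18.Glob.toBar N M.K (LocFPlan.wFun M.σ Q (LocFPlan.gFun M.σ M.fK M.H m)) =
      FCorePlan.wBar N τ Q m f (Fermat.Agent.S18.Glob.toBar N M.K M.H) := by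
  have hG : Fermat.Agent.S18.Glob.toBar N M.K (LocFPlan.gFun M.σ M.fK M.H m) =
      FCorePlan.gBar N τ m f (Fermat.Agent.S18.Glob.toBar N M.K M.H) := by
    unfold LocFPlan.gFun FCorePlan.gBar secondDiff UPlan.sdFun
    rw [map_mul, map_pow, map_div₀, map_mul, map_mul, M.σ_coe, M.σ_coe, M.fK_coe]
  unfold LocFPlan.wFun FCorePlan.wBar
  rw [map_div₀, map_pow, M.σ_coe, hG]

/-- **One instance of `FCorePlan.FrobCoreStatement`** from a `ModelF`. -/
theorem core_of_modelF (hCut : CutAtStatement) (hLocF : LocFPlan.LocFStatement)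
    (hHwF : LocFPlan.HwFStatement) (hAd : LocAdapterStatement) (M : ModelF N A m Q τ f)
    (hf : f ≠ 0) :
    ∃ (K : IntermediateField ℚ Qb) (_ : IsDiscreteValuationRing (OK A K))
      (S : Cech2Plan.Setting (OK A K) (FK N K)) (t : FK N K) (H : modularFunctionFieldBar N),
      H ≠ 0 ∧ S.m = m ∧ S.R0 = chart N A K t ∧ S.Rinf = chart N A K t⁻¹ ∧
        ((S.w : FK N K) : LaurentSeries Qb) =
          ((FCorePlan.wBar N τ Q m f H : modularFunctionFieldBar N) : LaurentSeries Qb) := by
  have := M.dvr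
  refine ⟨M.K, M.dvr, AbsTopWB.settingW hAd (hypW_of_modelF hCut hLocF hHwF M hf), M.t,
    Fermat.Agent.S18.Glob.toBar N M.K M.H, ?_, rfl, rfl, rfl, ?_⟩
  · intro h
    apply H_ne_zero M
    have h0 : Fermat.Agent.S18.Glob.toBar N M.K M.H = Fermat.Agent.S18.Glob.toBar N M.K 0 := by
      rw [h, map_zero]
    exact (Fermat.Agent.S18.Glob.toBar N M.K).injective h0
  · rw [AbsTopWB.settingW_w, ← toBar_wFun M]
    rfl

/-- **Per-function form** (for any consumer that produces a `ModelF` for ONE function `f`, whatever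
the condition on `f`): the conclusion of `FCorePlan.FrobCoreStatement` for `f`, general level
`N`, exponent `Q` and automorphism `τ`. -/
theorem frobCore_of_modelF (hCut : CutAtStatement) (hLocF : LocFPlan.LocFStatement)
    (hHwF : LocFPlan.HwFStatement) (hAd : LocAdapterStatement) (hf : f ≠ 0)
    (hM : Nonempty (ModelF N A m Q τ f)) :
    ∃ (K : IntermediateField ℚ Qb) (_ : IsDiscreteValuationRing (OK A K))
      (S : Cech2Plan.Setting (OK A K) (FK N K)) (t : FK N K) (H : modularFunctionFieldBar N),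
      H ≠ 0 ∧ S.m = m ∧ S.R0 = chart N A K t ∧ S.Rinf = chart N A K t⁻¹ ∧
        ((S.w : FK N K) : LaurentSeries Qb) =
          ((FCorePlan.wBar N τ Q m f H : modularFunctionFieldBar N) : LaurentSeries Qb) := by
  obtain ⟨M⟩ := hM
  exact core_of_modelF hCut hLocF hHwF hAd M hf

end Asm

/-- **[CoreAsmF]** the assembly of block [E], as a `Prop`. -/
def CoreAsmFStatement : Prop :=
  CutAtStatement → LocFPlan.LocFStatement → LocFPlan.HwFStatement → LocAdapterStatement →
  ∀ (M q m : ℕ) [NeZero M] [NeZero q] [NeZero (M * q)],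
    ModelFPlan.ModelFStatement M q m → FCorePlan.FrobCoreStatement M q m

/-- **[CoreAsmF]** the assembly of block [E]. -/
theorem coreAsmF : CoreAsmFStatement := by
  intro hCut hLocF hHwF hAd M q m _ _ _ hM A hA σs hσs f hf hdvd hnorm
  obtain ⟨Md⟩ := hM A hA σs hσs f hf hdvd hnorm
  exact core_of_modelF hCut hLocF hHwF hAd Md hf

end

end Fermat.Agent.S35.CoreAsmF
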