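/-
S35 — FJSide.lean (helper80).  Row [FJSide] of the [E]-modular deal (architect helper5): the
J-SIDE of block [E] (blueprint #2585), i.e. the two arrows of `S35/FCorePlan.lean`

    FrobTorsStatement ⇐ FrobDivStatement ⇐ FrobCoreStatement + Cech2Statement.

It is the twin of `S34/UPlan.lean` (`sd_of_core`, `u2_of_sd`) for `w = τ G / G ^ Q`,
`G = (τ²f · f / (τf)²) · H ^ m`.

* `ord_gBar`, `ord_wBar`       — orders of `G` and `w` in terms of `sdDiv τ τ D`, `fDiv τ Q D`
                                 when `div f = m • D`;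
* `isPrincipal_fDiv_of_setting` — GENERIC [Glob] step, for ANY level `N`, ANY `τ`, `Q`, and ONE
                                 function `f` (no norm condition): a Čech-bis setting on the
                                 charts `chart t`, `chart t⁻¹` with exponent `m` and
                                 `w = wBar N τ Q m f H` makes `fDiv N τ Q D` principal;
* `isPrincipal_fDiv_of_exists`  — the same from the existential conclusion of
                                 `FCorePlan.FrobCoreStatement` for that one `f`;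
* `frobDiv_of_core`             — `Cech2Statement → FrobCoreStatement → FrobDivStatement`;
* `frobTors_of_forall`          — GENERIC [FTors] step: principality of `fDiv` for the Kummer
                                 generators of a class `x` gives `(τ - Q)(τ - 1)² x = 0`;
* `frobTors_of_div`             — `FrobDivStatement → FrobTorsStatement`;
* `frobTors_of_core`            — the composition;
* `coe_gFun`, `coe_wFun_gFun`   — BRIDGE for the assembly: the abstract `LocFPlan.wFun σ Q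
                                 (LocFPlan.gFun σ fK Hk m)` on `F_K` is `wBar N τ Q m f (toBar Hk)`;
* `frobTors_nested`             — the conclusion of `FrobTorsStatement` in nested form
                                 `(τ - Q)((τ - 1)((τ - 1) x)) = 0`.
-/
import Mathlib
import Fermat.Agent.S35.FCorePlan
import Fermat.Agent.S35.LocFPlan

set_option autoImplicit false

open ModularCurve AlgebraicCurve HahnSeries

namespace Fermat.Agent.S35.FJSide

open Fermat.Agent.S18.Arith Fermat.Agent.S34 Fermat.Agent.S35.FCorePlan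

noncomputable section

set_option synthInstance.maxHeartbeats 400000

/-! ### Orders of `G` and `w` -/

section Ord

variable {N : ℕ}

theorem gBar_ne_zero (τ : Qb ≃ₐ[ℚ] Qb) (m : ℕ) {f H : modularFunctionFieldBar N} (hf : f ≠ 0)
    (hH : H ≠ 0) : gBar N τ m f H ≠ 0 := by
  unfold gBar
  exact mul_ne_zero (UPlan.sdFun_ne_zero τ τ hf) (pow_ne_zero m hH)

theorem wBar_ne_zero (τ : Qb ≃ₐ[ℚ] Qb) (Q m : ℕ) {f H : modularFunctionFieldBar N} (hf : f ≠ 0)
    (hH : H ≠ 0) : wBar N τ Q m f H ≠ 0 := by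
  unfold wBar
  exact div_ne_zero (UPlan.gal_smul_ne_zero τ (gBar_ne_zero τ m hf hH))
    (pow_ne_zero Q (gBar_ne_zero τ m hf hH))

/-- `div G = m • (sdDiv τ τ D + div H)` if `div f = m • D`. -/
theorem ord_gBar (τ : Qb ≃ₐ[ℚ] Qb) {m : ℕ} {f H : modularFunctionFieldBar N} (hf : f ≠ 0)
    (hH : H ≠ 0) {D : Divisor Qb (modularFunctionFieldBar N)}
    (hD : ∀ P : Place Qb (modularFunctionFieldBar N), (m : ℤ) * D P = P.ord f)
    (P : Place Qb (modularFunctionFieldBar N)) :
    P.ord (gBar N τ m f H) = (m : ℤ) * ((UPlan.sdDiv N τ τ D) P + P.ord H) := by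
  unfold gBar
  rw [P.ord_mul (UPlan.sdFun_ne_zero τ τ hf) (pow_ne_zero m hH), Fermat.Agent.S24.ord_pow,
    ← UPlan.ord_sdFun τ τ hf hD P]
  ring

theorem fDiv_apply (τ : Qb ≃ₐ[ℚ] Qb) (Q : ℕ) (D : Divisor Qb (modularFunctionFieldBar N))
    (P : Place Qb (modularFunctionFieldBar N)) :
    (fDiv N τ Q D) P =
      (UPlan.sdDiv N τ τ D) ((UPlan.gal N τ)⁻¹ • P) - (Q : ℤ) * (UPlan.sdDiv N τ τ D) P := by
  unfold fDiv
  rw [Finsupp.sub_apply, SemilinearAut.divisor_smul_apply, Finsupp.smul_apply, nsmul_eq_mul]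

/-- `div w = m • (fDiv τ Q D + div (τ H) - Q • div H)` if `div f = m • D`. -/
theorem ord_wBar (τ : Qb ≃ₐ[ℚ] Qb) (Q : ℕ) {m : ℕ} {f H : modularFunctionFieldBar N}
    (hf : f ≠ 0) (hH : H ≠ 0) {D : Divisor Qb (modularFunctionFieldBar N)}
    (hD : ∀ P : Place Qb (modularFunctionFieldBar N), (m : ℤ) * D P = P.ord f)
    (P : Place Qb (modularFunctionFieldBar N)) :
    P.ord (wBar N τ Q m f H) =
      (m : ℤ) * ((fDiv N τ Q D) P + (P.ord (UPlan.gal N τ • H) - (Q : ℤ) * P.ord H)) := by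
  have hG := gBar_ne_zero τ m hf hH
  unfold wBar
  rw [Fermat.Agent.S24.ord_div P (UPlan.gal_smul_ne_zero τ hG) (pow_ne_zero Q hG),
    Fermat.Agent.S24.ord_pow, UPlan.ord_gal_smul, ord_gBar τ hf hH hD, ord_gBar τ hf hH hD,
    UPlan.ord_gal_smul, fDiv_apply]
  ring

end Ord

/-! ### [FGlob]: a Čech-bis setting with `w = wBar` makes `fDiv` principal -/

/-- **Generic [FGlob] step** (any level, any `τ`, `Q`; one function, no norm condition): if a
Čech-bis setting on the charts `chart t`, `chart t⁻¹` of `F_K` has exponent `m` and function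
`w = τ G / G ^ Q`, `G = (τ²f · f / (τf)²) · H ^ m`, and `div f = m • D`, then
`(τ - Q)(τ - 1)² D` is principal. -/
theorem isPrincipal_fDiv_of_setting (N : ℕ) [NeZero N] (τ : Qb ≃ₐ[ℚ] Qb) (Q m : ℕ) (hm : m ≠ 0)
    (hCech : Cech2Plan.Cech2Statement) (A : ValuationSubring Qb)
    (f : modularFunctionFieldBar N) (hf : f ≠ 0)
    (K : IntermediateField ℚ Qb) (hdvr : IsDiscreteValuationRing (OK A K))
    (S : Cech2Plan.Setting (OK A K) (FK N K)) (t : FK N K)
    (H : modularFunctionFieldBar N) (hH : H ≠ 0) (hSm : S.m = m)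
    (hS0 : S.R0 = chart N A K t) (hSinf : S.Rinf = chart N A K t⁻¹)
    (hw : ((S.w : FK N K) : LaurentSeries Qb) =
      ((wBar N τ Q m f H : modularFunctionFieldBar N) : LaurentSeries Qb))
    (D : Divisor Qb (modularFunctionFieldBar N))
    (hD : ∀ P : Place Qb (modularFunctionFieldBar N), (m : ℤ) * D P = P.ord f) :
    Divisor.IsPrincipal (fDiv N τ Q D) := by
  obtain ⟨h, hh0, hh1, hh2, -⟩ := hCech (OK A K) (FK N K) S
  rw [hS0] at hh1
  rw [hSinf] at hh2
  rw [hSm] at hh1 hh2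
  have hG : Fermat.Agent.S18.Glob.toBar N K S.w = wBar N τ Q m f H := Subtype.ext hw
  have hG0 : wBar N τ Q m f H ≠ 0 := wBar_ne_zero τ Q m hf hH
  have hw0 : S.w ≠ 0 := by
    intro h0
    apply hG0
    rw [← hG, h0, map_zero]
  have hne : S.w * h ^ m ≠ 0 := mul_ne_zero hw0 (pow_ne_zero m hh0)
  set hb : modularFunctionFieldBar N := Fermat.Agent.S18.Glob.toBar N K h with hhb
  have hhb0 : hb ≠ 0 := fun h0 =>
    hh0 ((Fermat.Agent.S18.Glob.toBar N K).injective (by rw [← hhb, h0, map_zero]))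
  have hτH : UPlan.gal N τ • H ≠ 0 := UPlan.gal_smul_ne_zero τ hH
  have hHQ : H ^ Q ≠ 0 := pow_ne_zero Q hH
  -- the function `H ^ Q / (τ H · h)` has divisor `fDiv τ Q D`
  refine ⟨H ^ Q / ((UPlan.gal N τ • H) * hb), div_ne_zero hHQ (mul_ne_zero hτH hhb0),
    fun P => ?_⟩
  have h1 := UPlan.ord_eq_zero_of_mem_charts N A K t (S.w * h ^ m) hh1 hh2 hne P
  rw [map_mul, map_pow, hG, ← hhb, P.ord_mul hG0 (pow_ne_zero m hhb0),
    Fermat.Agent.S24.ord_pow, ord_wBar τ Q hf hH hD P] at h1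
  rw [Fermat.Agent.S24.ord_div P hHQ (mul_ne_zero hτH hhb0), Fermat.Agent.S24.ord_pow,
    P.ord_mul hτH hhb0]
  have h2 : (m : ℤ) * (fDiv N τ Q D) P =
      (m : ℤ) * ((Q : ℤ) * P.ord H - (P.ord (UPlan.gal N τ • H) + P.ord hb)) := by
    linarith
  exact mul_left_cancel₀ (Nat.cast_ne_zero.mpr hm) h2

/-- The same from the existential conclusion of `FCorePlan.FrobCoreStatement` for one `f`. -/
theorem isPrincipal_fDiv_of_exists (N : ℕ) [NeZero N] (τ : Qb ≃ₐ[ℚ] Qb) (Q m : ℕ) (hm : m ≠ 0)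
    (hCech : Cech2Plan.Cech2Statement) (A : ValuationSubring Qb)
    (f : modularFunctionFieldBar N) (hf : f ≠ 0)
    (hcore : ∃ (K : IntermediateField ℚ Qb) (_ : IsDiscreteValuationRing (OK A K))
      (S : Cech2Plan.Setting (OK A K) (FK N K)) (t : FK N K)
      (H : modularFunctionFieldBar N),
      H ≠ 0 ∧ S.m = m ∧ S.R0 = chart N A K t ∧ S.Rinf = chart N A K t⁻¹ ∧
        ((S.w : FK N K) : LaurentSeries Qb) =
          ((wBar N τ Q m f H : modularFunctionFieldBar N) : LaurentSeries Qb))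
    (D : Divisor Qb (modularFunctionFieldBar N))
    (hD : ∀ P : Place Qb (modularFunctionFieldBar N), (m : ℤ) * D P = P.ord f) :
    Divisor.IsPrincipal (fDiv N τ Q D) := by
  obtain ⟨K, hdvr, S, t, H, hH, hSm, hS0, hSinf, hw⟩ := hcore
  exact isPrincipal_fDiv_of_setting N τ Q m hm hCech A f hf K hdvr S t H hH hSm hS0 hSinf hw D hD

/-- **[FGlob]**: `FrobCoreStatement` + `Cech2Statement` ⟹ `FrobDivStatement`. -/
theorem frobDiv_of_core (M q m : ℕ) [NeZero M] [NeZero q] [NeZero (M * q)] (hm : m ≠ 0)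
    (hCech : Cech2Plan.Cech2Statement) (hCore : FrobCoreStatement M q m) :
    FrobDivStatement M q m := by
  intro A hA σs hσs f hf D hD hnorm
  have hdvd : ∀ P : Place Qb (modularFunctionFieldBar (M * q)), (m : ℤ) ∣ P.ord f :=
    fun P => ⟨D P, (hD P).symm⟩
  exact isPrincipal_fDiv_of_exists (M * q) (σs * σs) (q ^ 2) m hm hCech A f hf
    (hCore A hA σs hσs f hf hdvd hnorm) D hD

/-! ### [FTors]: from divisors to `Pic⁰` -/

/-- **Generic [FTors] step** (any level, any `τ`, `Q`): if `fDiv N τ Q D` is principal for one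
degree-zero divisor `D`, then `(τ - Q)(τ - 1)²` kills its class. -/
theorem frob_mk_eq_zero (N : ℕ) (τ : Qb ≃ₐ[ℚ] Qb) (Q : ℕ)
    (D : Divisor.degZero (K := Qb) (F := modularFunctionFieldBar N))
    (hprin : Divisor.IsPrincipal
      (fDiv N τ Q (D : Divisor Qb (modularFunctionFieldBar N)))) :
    τ • (τ • τ • (Pic0.mk D : JZero N) + Pic0.mk D - (τ • Pic0.mk D + τ • Pic0.mk D)) -
      Q • (τ • τ • (Pic0.mk D : JZero N) + Pic0.mk D - (τ • Pic0.mk D + τ • Pic0.mk D)) = 0 := by
  -- the degree-zero divisor `E = (τ - 1)² D`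
  set E : Divisor.degZero (K := Qb) (F := modularFunctionFieldBar N) :=
    SemilinearAut.degZeroSMulHom (UPlan.gal N τ) (SemilinearAut.degZeroSMulHom (UPlan.gal N τ) D)
      + D - (SemilinearAut.degZeroSMulHom (UPlan.gal N τ) D +
        SemilinearAut.degZeroSMulHom (UPlan.gal N τ) D) with hE
  have hEcoe : (E : Divisor Qb (modularFunctionFieldBar N)) =
      UPlan.sdDiv N τ τ (D : Divisor Qb (modularFunctionFieldBar N)) := rfl
  -- the degree-zero divisor `(τ - Q) E`
  set F : Divisor.degZero (K := Qb) (F := modularFunctionFieldBar N) :=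
    SemilinearAut.degZeroSMulHom (UPlan.gal N τ) E - Q • E with hF
  have hFcoe : (F : Divisor Qb (modularFunctionFieldBar N)) =
      fDiv N τ Q (D : Divisor Qb (modularFunctionFieldBar N)) := by
    rw [hF, AddSubgroup.coe_sub, SemilinearAut.coe_degZeroSMulHom, AddSubgroup.coe_nsmul, hEcoe]
    rfl
  have hzero : Pic0.mk F = 0 := by
    refine (QuotientAddGroup.eq_zero_iff _).2 ?_
    show (F : Divisor Qb (modularFunctionFieldBar N)) ∈ Divisor.principal
    rw [hFcoe]
    exact hprin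
  have e1 : τ • (Pic0.mk D : JZero N) =
      Pic0.mk (SemilinearAut.degZeroSMulHom (UPlan.gal N τ) D) := rfl
  have e2 : τ • (Pic0.mk (SemilinearAut.degZeroSMulHom (UPlan.gal N τ) D) : JZero N) =
      Pic0.mk (SemilinearAut.degZeroSMulHom (UPlan.gal N τ)
        (SemilinearAut.degZeroSMulHom (UPlan.gal N τ) D)) := rfl
  have e3 : (Pic0.mk (SemilinearAut.degZeroSMulHom (UPlan.gal N τ)
        (SemilinearAut.degZeroSMulHom (UPlan.gal N τ) D)) : JZero N) + Pic0.mk D -
      (Pic0.mk (SemilinearAut.degZeroSMulHom (UPlan.gal N τ) D) +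
        Pic0.mk (SemilinearAut.degZeroSMulHom (UPlan.gal N τ) D)) = Pic0.mk E := rfl
  have e4 : τ • (Pic0.mk E : JZero N) =
      Pic0.mk (SemilinearAut.degZeroSMulHom (UPlan.gal N τ) E) := rfl
  have e5 : (Pic0.mk (SemilinearAut.degZeroSMulHom (UPlan.gal N τ) E) : JZero N) -
      Q • Pic0.mk E = Pic0.mk F := by
    rw [hF]
    have h1 : (Pic0.mk (Q • E) : JZero N) = Q • Pic0.mk E :=
      map_nsmul (QuotientAddGroup.mk' _) Q E
    rw [← h1]
    rfl
  rw [e1, e2, e3, e4, e5]
  exact hzero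

/-- **Generic [FTors] step**: if `fDiv N τ Q D` is principal for every Kummer pair `(f, D)` of an
`m`-torsion class `x` (`div f = m • D`, `x = [D]`), then `(τ - Q)(τ - 1)² x = 0`. -/
theorem frobTors_of_forall (N : ℕ) (τ : Qb ≃ₐ[ℚ] Qb) (Q m : ℕ) (x : JZero N) (hx : m • x = 0)
    (h : ∀ (D : Divisor.degZero (K := Qb) (F := modularFunctionFieldBar N))
      (f : modularFunctionFieldBar N), Pic0.mk D = x → f ≠ 0 →
      (∀ P : Place Qb (modularFunctionFieldBar N),
        (m : ℤ) * (D : Divisor Qb (modularFunctionFieldBar N)) P = P.ord f) →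
      Divisor.IsPrincipal (fDiv N τ Q (D : Divisor Qb (modularFunctionFieldBar N)))) :
    τ • (τ • τ • x + x - (τ • x + τ • x)) - Q • (τ • τ • x + x - (τ • x + τ • x)) = 0 := by
  obtain ⟨D, f, hDx, hf, hD⟩ := UPlan.exists_div_of_nsmul_eq_zero m x hx
  have hprin := h D f hDx hf hD
  rw [← hDx]
  exact frob_mk_eq_zero N τ Q D hprin

/-- **[FTors]**: `FrobDivStatement` ⟹ `FrobTorsStatement`. -/
theorem frobTors_of_div (M q m : ℕ) [NeZero M] [NeZero q] [NeZero (M * q)]
    (hDiv : FrobDivStatement M q m) : FrobTorsStatement M q m := by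
  intro A hA σs hσs x hmx hx
  refine frobTors_of_forall (M * q) (σs * σs) (q ^ 2) m x hmx ?_
  intro D f hDx hf hD
  have hxD : Pic0.mk D ∈ PushPic.newKer M q := by
    rw [hDx]
    exact hx
  have hnorm : ModelFPlan.NormCond M q m f :=
    PushPic.exists_norms_of_mem_newKer M q D f hf hD hxD
  exact hDiv A hA σs hσs f hf (D : Divisor Qb (modularFunctionFieldBar (M * q))) hD hnorm

/-- **Block [E], J-side**: `FrobCoreStatement` + `Cech2Statement` ⟹ `FrobTorsStatement`. -/
theorem frobTors_of_core (M q m : ℕ) [NeZero M] [NeZero q] [NeZero (M * q)] (hm : m ≠ 0)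
    (hCech : Cech2Plan.Cech2Statement) (hCore : FrobCoreStatement M q m) :
    FrobTorsStatement M q m :=
  frobTors_of_div M q m (frobDiv_of_core M q m hm hCech hCore)

/-- The conclusion of `FrobTorsStatement` in nested form: `(τ - Q)((τ - 1)((τ - 1) x)) = 0`. -/
theorem frobTors_nested {N : ℕ} (τ : Qb ≃ₐ[ℚ] Qb) (Q : ℕ) (x : JZero N)
    (h : τ • (τ • τ • x + x - (τ • x + τ • x)) - Q • (τ • τ • x + x - (τ • x + τ • x)) = 0) :
    τ • (τ • (τ • x - x) - (τ • x - x)) - Q • (τ • (τ • x - x) - (τ • x - x)) = 0 := by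
  have e : τ • (τ • x - x) - (τ • x - x) = τ • τ • x + x - (τ • x + τ • x) := by
    rw [smul_sub]
    abel
  rw [e]
  exact h

/-! ### Bridge for the assembly: the abstract `w` on `F_K` is `wBar` -/

section Bridge

variable (N : ℕ) {K : IntermediateField ℚ Qb}

/-- `toBar (gFun σ fK Hk m) = gBar N τ m f (toBar Hk)`. -/
theorem toBar_gFun {τ : Qb ≃ₐ[ℚ] Qb} {f : modularFunctionFieldBar N}
    {σ : FK N K ≃+* FK N K} {fK : FK N K} (Hk : FK N K) (m : ℕ)
    (hfK : Fermat.Agent.S18.Glob.toBar N K fK = f)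
    (hσ : ∀ x : FK N K, Fermat.Agent.S18.Glob.toBar N K (σ x) =
      UPlan.gal N τ • Fermat.Agent.S18.Glob.toBar N K x) :
    Fermat.Agent.S18.Glob.toBar N K (LocFPlan.gFun σ fK Hk m) =
      gBar N τ m f (Fermat.Agent.S18.Glob.toBar N K Hk) := by
  unfold LocFPlan.gFun gBar LocPlan.secondDiff UPlan.sdFun
  rw [map_mul, map_pow, map_div₀, map_mul, map_mul, hσ, hσ, hfK]

/-- `toBar (wFun σ Q (gFun σ fK Hk m)) = wBar N τ Q m f (toBar Hk)`. -/
theorem toBar_wFun_gFun {τ : Qb ≃ₐ[ℚ] Qb} {f : modularFunctionFieldBar N}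
    {σ : FK N K ≃+* FK N K} {fK : FK N K} (Hk : FK N K) (Q m : ℕ)
    (hfK : Fermat.Agent.S18.Glob.toBar N K fK = f)
    (hσ : ∀ x : FK N K, Fermat.Agent.S18.Glob.toBar N K (σ x) =
      UPlan.gal N τ • Fermat.Agent.S18.Glob.toBar N K x) :
    Fermat.Agent.S18.Glob.toBar N K (LocFPlan.wFun σ Q (LocFPlan.gFun σ fK Hk m)) =
      wBar N τ Q m f (Fermat.Agent.S18.Glob.toBar N K Hk) := by
  unfold LocFPlan.wFun wBar
  rw [map_div₀, map_pow, hσ, toBar_gFun N Hk m hfK hσ]

/-- The same as an equality of `q`-expansions: the exact shape of the last clause of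
`FCorePlan.FrobCoreStatement`, with `H := toBar Hk`. -/
theorem coe_wFun_gFun {τ : Qb ≃ₐ[ℚ] Qb} {f : modularFunctionFieldBar N}
    {σ : FK N K ≃+* FK N K} {fK : FK N K} (Hk : FK N K) (Q m : ℕ)
    (hfK : Fermat.Agent.S18.Glob.toBar N K fK = f)
    (hσ : ∀ x : FK N K, Fermat.Agent.S18.Glob.toBar N K (σ x) =
      UPlan.gal N τ • Fermat.Agent.S18.Glob.toBar N K x) :
    ((LocFPlan.wFun σ Q (LocFPlan.gFun σ fK Hk m) : FK N K) : LaurentSeries Qb) =
      ((wBar N τ Q m f (Fermat.Agent.S18.Glob.toBar N K Hk) : modularFunctionFieldBar N) :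
        LaurentSeries Qb) :=
  congrArg (fun z : modularFunctionFieldBar N => (z : LaurentSeries Qb))
    (toBar_wFun_gFun N Hk Q m hfK hσ)

/-- `toBar Hk ≠ 0` for `Hk ≠ 0` (the `H ≠ 0` clause of `FrobCoreStatement`). -/
theorem toBar_ne_zero {Hk : FK N K} (h : Hk ≠ 0) : Fermat.Agent.S18.Glob.toBar N K Hk ≠ 0 :=
  fun h0 => h ((Fermat.Agent.S18.Glob.toBar N K).injective (by rw [h0, map_zero]))

end Bridge

end

end Fermat.Agent.S35.FJSide
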