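/-
S35 — NewPlan.lean (helper39, architect of the blocks [C] = newness and [D] = bridge).
BINDING interface of the NEWNESS half of S35 (blueprint #2585):

  [C]  a primitive `χ`-eigenvector `e ∈ 𝒪 ⊗ Lpar N` lying in the `𝒪`-span of the classes killed
       by BOTH transfers to level `N / q`, for EVERY factorisation `N = M * q` (`q` prime,
       `q ∤ M`) at once  (`NewVecStatement`);
  [D]  the Kummer generators of `θ u` (`u` killed by `tr₁`, resp. `tr₂`) have norm along `α`,
       resp. `β`, of the form `c · h ^ m`  (`KTrStatement`), for a `θ` which KEEPS ITS GRAPH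
       (`KGraphStatement`);
  [E]  (consumer side, owned by the [E] block) the polynomial `(σ² - q²)(σ² - 1)²` in a Frobenius
       lift `σ` at `q` kills every class with a Kummer generator satisfying the norm conditions
       (`FrobNewStatement`).

Definitions and `Prop`s, plus the two pieces of pure logic which connect them
(`theta_normCond`, `frob_theta_eq_zero`).

Levels: the transfers of `S41` are typed at level `M * q`.  A statement about ALL special primes
of a fixed level `N` therefore quantifies over the factorisations `h : N = M * q` and transports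
the class along `h` (`castLevel`); a consumer eliminates `h` by `subst` (`castLevel_rfl`).
-/
import Mathlib
import Fermat.Prelude.Def_CuspForm_Newforms
import Fermat.Prelude.Def_CuspForm_HeckeAlgebra
import Fermat.Agent.S29.Defs
import Fermat.Agent.S29.KPlanDefs
import Fermat.Agent.S41.Defs
import Fermat.Agent.S35.PushPic
import Fermat.Agent.S35.ModelFPlan

set_option autoImplicit false

open ModularCurve AlgebraicCurve CongruenceSubgroup
open scoped TensorProduct

namespace Fermat.Agent.S35.NewPlan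

open Fermat.Agent.S29 (Qb GQ heckeLpar)
open Fermat.Agent.S41 (Lpar tr₁ tr₂)

noncomputable section

/-! ### Newness at the lattice level, all special primes at once -/

/-- Transport of an integral parabolic class along an equality of levels. -/
def castLevel {N N' : ℕ} (h : N = N') (u : Lpar N) : Lpar N' := h ▸ u

@[simp] theorem castLevel_rfl {N : ℕ} (u : Lpar N) : castLevel (rfl : N = N) u = u := rfl

/-- `c ∈ Lpar N` is NEW: for every factorisation `N = M * q` with `q` prime, `q ∤ M`, both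
transfers of `c` to level `M` vanish. -/
def IsNewAt (N : ℕ) (c : Lpar N) : Prop :=
  ∀ (M q : ℕ) (h : N = M * q), q.Prime → ¬ q ∣ M →
    tr₁ M q ((castLevel h c : Lpar (M * q)) : Additive (Gamma0 (M * q)) →+ ℤ) = 0 ∧
    tr₂ M q ((castLevel h c : Lpar (M * q)) : Additive (Gamma0 (M * q)) →+ ℤ) = 0

theorem IsNewAt.tr {M q : ℕ} {c : Lpar (M * q)} (hc : IsNewAt (M * q) c) (hq : q.Prime)
    (hqM : ¬ q ∣ M) :
    tr₁ M q (c : Additive (Gamma0 (M * q)) →+ ℤ) = 0 ∧
    tr₂ M q (c : Additive (Gamma0 (M * q)) →+ ℤ) = 0 :=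
  hc M q rfl hq hqM

/-- **[C] = (C-out), all special primes at once.**  For a newform `g` of level `N` with
eigencharacter `chig` (on the Hecke algebra away from `S`) and a ring homomorphism
`iota : chig.range → 𝒪` into a characteristic-zero valuation ring: in every `ℤ`-basis `b` of
`Lpar N` there are coordinates `x` with one coordinate equal to `1` (primitivity), which are
eigen-coordinates for `χ = iota ∘ chig` (the equations of `S30.EigInf.exists_primitive_coord`),
and such that `e = ∑ x_n ⊗ b_n` lies in the `𝒪`-span of the pure tensors `1 ⊗ c`, `c` NEW. -/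
def NewVecStatement : Prop :=
  ∀ (N : ℕ) [NeZero N] (g : CuspForm (Gamma0 N) 2), g.IsNewform → ∀ (S : Set ℕ)
    (chig : CuspForm.heckeAlgebra N 2 S →+* ℂ),
    (∀ (ℓ : ℕ) (hℓ : ℓ.Prime) (hℓN : ¬ ℓ ∣ N) (hℓS : ℓ ∉ S),
      chig (CuspForm.heckeAlgebra.T hℓ hℓN hℓS) = ModularFormClass.qCoeff g ℓ) →
    ∀ (𝒪 : Type) [CommRing 𝒪] [IsDomain 𝒪] [ValuationRing 𝒪] [CharZero 𝒪]
      (iota : chig.range →+* 𝒪) {r : ℕ} (b : Module.Basis (Fin r) ℤ (Lpar N)),
    ∃ x : Fin r → 𝒪, (∃ i, x i = 1) ∧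
      (∀ (ℓ : ℕ) (hℓ : ℓ.Prime) (hℓN : ¬ ℓ ∣ N) (hℓS : ℓ ∉ S) (m : Fin r),
        ∑ n, ((b.repr (heckeLpar N ℓ hℓ hℓN (b n)) m : ℤ) : 𝒪) * x n
          = (iota.comp chig.rangeRestrict) (CuspForm.heckeAlgebra.T hℓ hℓN hℓS) * x m) ∧
      (∑ n, x n ⊗ₜ[ℤ] b n : 𝒪 ⊗[ℤ] (Lpar N)) ∈
        Submodule.span 𝒪 {z : 𝒪 ⊗[ℤ] (Lpar N) | ∃ c : Lpar N, IsNewAt N c ∧ z = 1 ⊗ₜ[ℤ] c}

/-! ### The bridge `Lpar ↔ J` -/

/-- **[D], analytic core = the common export of the [K-tr] row** (both routes).  For a witness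
`y` of `u ∈ Lpar (M q)` at torsion order `m` and `f ∈ F̄_{M q}` with `f = y ^ m`: if `tr₁ u = 0`
then the norm of `f` along `α` is `c · h ^ m`; if `tr₂ u = 0` then the norm of `f` along `β` is
`c · h ^ m`. -/
def KTrStatement (M q m : ℕ) [NeZero M] [NeZero q] : Prop :=
  ∀ (u : Lpar (M * q)) (y : LaurentSeries Qb),
    Fermat.Agent.S29.KPlan.Wit (M * q) m (u : Additive (Gamma0 (M * q)) →+ ℤ) y →
    ∀ f : modularFunctionFieldBar (M * q), (f : LaurentSeries Qb) = y ^ m →
      (tr₁ M q (u : Additive (Gamma0 (M * q)) →+ ℤ) = 0 →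
        ∃ (h : modularFunctionFieldBar M) (c : Qb), h ≠ 0 ∧ c ≠ 0 ∧
          PushPic.alphaNorm M q f = algebraMap Qb (modularFunctionFieldBar M) c * h ^ m) ∧
      (tr₂ M q (u : Additive (Gamma0 (M * q)) →+ ℤ) = 0 →
        ∃ (h : modularFunctionFieldBar M) (c : Qb), h ≠ 0 ∧ c ≠ 0 ∧
          PushPic.betaNorm M q f = algebraMap Qb (modularFunctionFieldBar M) c * h ^ m)

/-- **[D], the graph-keeping `θ`**: `S29.KStatement N m` together with the graph of `θ`
(`θ u` is the class of `(1/m) · div (y ^ m)` for a witness `y` of `u`). -/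
def KGraphStatement (N m : ℕ) [NeZero N] : Prop :=
  ∃ θ : Lpar N →+ JZero N,
    (∀ u : Lpar N, m • θ u = 0) ∧
    (∀ u : Lpar N, θ u = 0 → ∃ z : Lpar N, u = (m : ℤ) • z) ∧
    (∀ (ℓ : ℕ) (hℓ : ℓ.Prime) (hℓN : ¬ ℓ ∣ N), ℓ ≠ m → ∀ u : Lpar N,
      θ (heckeLpar N ℓ hℓ hℓN u) = heckeOperatorBar N ⟨ℓ, hℓ⟩ (θ u)) ∧
    ∀ u : Lpar N,
      Fermat.Agent.S29.KPlan.Theta N m (u : Additive (Gamma0 N) →+ ℤ) (θ u)

/-- The norms of `PushPic` and of `ModelFPlan` agree. -/
theorem alphaNorm_eq_alphaNm (M q : ℕ) [NeZero M] [NeZero q]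
    (f : modularFunctionFieldBar (M * q)) :
    PushPic.alphaNorm M q f = ModelFPlan.alphaNm M q f := rfl

theorem betaNorm_eq_betaNm (M q : ℕ) [NeZero M] [NeZero q]
    (f : modularFunctionFieldBar (M * q)) :
    PushPic.betaNorm M q f = ModelFPlan.betaNm M q f := rfl

/-- **(D-out), pure logic**: a graph point `(u, x)` of `θ` with `u` killed by both transfers has
a Kummer generator satisfying the norm conditions of `ModelFPlan`. -/
theorem theta_normCond {M q m : ℕ} [NeZero M] [NeZero q] (hK : KTrStatement M q m)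
    {u : Lpar (M * q)} {x : JZero (M * q)}
    (hθ : Fermat.Agent.S29.KPlan.Theta (M * q) m (u : Additive (Gamma0 (M * q)) →+ ℤ) x)
    (h1 : tr₁ M q (u : Additive (Gamma0 (M * q)) →+ ℤ) = 0)
    (h2 : tr₂ M q (u : Additive (Gamma0 (M * q)) →+ ℤ) = 0) :
    ∃ (f : modularFunctionFieldBar (M * q))
      (D : Divisor.degZero (K := Qb) (F := modularFunctionFieldBar (M * q))),
      f ≠ 0 ∧
      (∀ P : Place Qb (modularFunctionFieldBar (M * q)),
        (m : ℤ) * (D : Divisor Qb (modularFunctionFieldBar (M * q))) P = P.ord f) ∧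
      x = Pic0.mk D ∧ ModelFPlan.NormCond M q m f := by
  obtain ⟨y, f, D, hy, hf, hD, hx⟩ := hθ
  have hf0 : f ≠ 0 := by
    intro h0
    apply pow_ne_zero m hy.1
    rw [← hf, h0]
    rfl
  obtain ⟨ha, hb⟩ := hK u y hy f hf
  exact ⟨f, D, hf0, hD, hx, ha h1, hb h2⟩

/-! ### The consumer side -/

/-- `(σ² - q²)(σ² - 1)² x` for `x ∈ J₀(N)`. -/
def frobPoly {N : ℕ} (q : ℕ) (σ : GQ) (x : JZero N) : JZero N :=
  (σ • σ • (σ • σ • (σ • σ • x - x) - (σ • σ • x - x))
    - (q ^ 2) • (σ • σ • (σ • σ • x - x) - (σ • σ • x - x)))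

/-- **(E-out)** in the form consumed by [B]: for `q` prime, `q ∤ M`, a prime `p ≠ q` and
`m = p ^ n`, the class of a degree-zero divisor `D` with `m • D = div f`, where `f` satisfies the
norm conditions, is killed by `(σ² - q²)(σ² - 1)²` for every Frobenius lift `σ` at `q`. -/
def FrobNewStatement : Prop :=
  ∀ (M q : ℕ) [NeZero M] [NeZero q], q.Prime → ¬ q ∣ M → ∀ (p n : ℕ), p.Prime → p ≠ q →
    ∀ (f : modularFunctionFieldBar (M * q))
      (D : Divisor.degZero (K := Qb) (F := modularFunctionFieldBar (M * q))),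
      f ≠ 0 →
      (∀ P : Place Qb (modularFunctionFieldBar (M * q)),
        ((p ^ n : ℕ) : ℤ) * (D : Divisor Qb (modularFunctionFieldBar (M * q))) P = P.ord f) →
      ModelFPlan.NormCond M q (p ^ n) f →
      ∀ A : ValuationSubring Qb, A.LiesOverPrime q → ∀ σ : GQ, A.IsFrobeniusAt σ q →
        frobPoly q σ (Pic0.mk D : JZero (M * q)) = 0

/-- **[C]+[D]+[E] ⇒ what [B] needs at one special prime** (pure logic): for a new class `c` of
level `M * q`, `θ c` is killed by `(σ² - q²)(σ² - 1)²`. -/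
theorem frob_theta_eq_zero (hE : FrobNewStatement) {M q : ℕ} [NeZero M] [NeZero q]
    (hq : q.Prime) (hqM : ¬ q ∣ M) {p n : ℕ} (hp : p.Prime) (hpq : p ≠ q)
    (hK : KTrStatement M q (p ^ n)) {c : Lpar (M * q)} {x : JZero (M * q)}
    (hθ : Fermat.Agent.S29.KPlan.Theta (M * q) (p ^ n)
      (c : Additive (Gamma0 (M * q)) →+ ℤ) x)
    (hc : IsNewAt (M * q) c)
    (A : ValuationSubring Qb) (hA : A.LiesOverPrime q) (σ : GQ) (hσ : A.IsFrobeniusAt σ q) :
    frobPoly q σ x = 0 := by
  obtain ⟨h1, h2⟩ := hc.tr hq hqM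
  obtain ⟨f, D, hf0, hD, hx, hN⟩ := theta_normCond hK hθ h1 h2
  rw [hx]
  exact hE M q hq hqM p n hp hpq f D hf0 (by simpa using hD) hN A hA σ hσ

end

end Fermat.Agent.S35.NewPlan
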