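/-
S35 — FrobNew.lean (captain: helper85).  Glue between the J-side plan of block [E]
(`S35/FCorePlan.lean`, helper5) and the consumer form (E-out) of `S35/NewPlan.lean` (helper39):

    NewPlan.FrobNewStatement  ⇐  ∀ M q m, FCorePlan.FrobDivStatement M q m.

* `frobPoly_mk_eq_zero` — if the divisor `(τ - q²)(τ - 1)² D` (`FCorePlan.fDiv`, `τ = σ * σ`) is
                          principal then `NewPlan.frobPoly q σ [D] = 0` in `J₀(N)`;
* `frobNew_of_div`      — the glue.
-/
import Mathlib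
import Fermat.Agent.S35.FCorePlan
import Fermat.Agent.S35.NewPlan

set_option autoImplicit false

open ModularCurve AlgebraicCurve

namespace Fermat.Agent.S35.FrobNew

open Fermat.Agent.S18.Arith Fermat.Agent.S34

noncomputable section

set_option synthInstance.maxHeartbeats 400000

/-- `(σ² - q²)(σ² - 1)² [D] = 0` in `J₀(N)` if the divisor `(τ - q²)(τ - 1)² D`, `τ = σ * σ`, is
principal. -/
theorem frobPoly_mk_eq_zero {N : ℕ} (q : ℕ) (σ : Qb ≃ₐ[ℚ] Qb)
    (D : Divisor.degZero (K := Qb) (F := modularFunctionFieldBar N))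
    (h : Divisor.IsPrincipal
      (FCorePlan.fDiv N (σ * σ) (q ^ 2) (D : Divisor Qb (modularFunctionFieldBar N)))) :
    NewPlan.frobPoly q σ (Pic0.mk D : JZero N) = 0 := by
  set τ : Qb ≃ₐ[ℚ] Qb := σ * σ with hτ
  have e : ∀ y : JZero N, σ • σ • y = τ • y := fun y => (mul_smul σ σ y).symm
  -- the second difference, as a degree-zero divisor
  set Y : Divisor.degZero (K := Qb) (F := modularFunctionFieldBar N) :=
    SemilinearAut.degZeroSMulHom (UPlan.gal N τ) (SemilinearAut.degZeroSMulHom (UPlan.gal N τ) D)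
      + D - (SemilinearAut.degZeroSMulHom (UPlan.gal N τ) D
        + SemilinearAut.degZeroSMulHom (UPlan.gal N τ) D) with hY
  have hYx : (Pic0.mk Y : JZero N) =
      τ • (τ • (Pic0.mk D : JZero N) - Pic0.mk D) - (τ • (Pic0.mk D : JZero N) - Pic0.mk D) := by
    have h1 : (Pic0.mk Y : JZero N) =
        τ • τ • (Pic0.mk D : JZero N) + Pic0.mk D -
          (τ • (Pic0.mk D : JZero N) + τ • (Pic0.mk D : JZero N)) := rfl
    rw [h1, smul_sub]
    abel
  -- `(τ - q²) Y`, as a degree-zero divisor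
  have hE : (Pic0.mk (SemilinearAut.degZeroSMulHom (UPlan.gal N τ) Y - (q ^ 2) • Y) : JZero N)
      = 0 := by
    refine (QuotientAddGroup.eq_zero_iff _).2 ?_
    exact h
  have hE2 : τ • (Pic0.mk Y : JZero N) - (q ^ 2) • (Pic0.mk Y : JZero N) = 0 := by
    have h2 : (Pic0.mk (SemilinearAut.degZeroSMulHom (UPlan.gal N τ) Y - (q ^ 2) • Y) : JZero N)
        = τ • (Pic0.mk Y : JZero N) - (q ^ 2) • (Pic0.mk Y : JZero N) := rfl
    rw [← h2]
    exact hE
  unfold NewPlan.frobPoly
  rw [e, e, e, ← hYx]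
  exact hE2

/-- **(E-out) from the divisor form**: `NewPlan.FrobNewStatement` from
`FCorePlan.FrobDivStatement M q m` for all `M`, `q` prime not dividing `M`, `q ∤ m`. -/
theorem frobNew_of_div
    (hDiv : ∀ (M q m : ℕ) [NeZero M] [NeZero q] [NeZero (M * q)], q.Prime → ¬ q ∣ M → ¬ q ∣ m →
      FCorePlan.FrobDivStatement M q m) : NewPlan.FrobNewStatement := by
  intro M q _ _ hq hqM p n hp hpq f D hf hD hN A hA σ hσ
  have : NeZero (M * q) := ⟨mul_ne_zero (NeZero.ne M) (NeZero.ne q)⟩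
  have hqm : ¬ q ∣ p ^ n := fun h =>
    hpq ((Nat.prime_dvd_prime_iff_eq hq hp).1 (hq.dvd_of_dvd_pow h)).symm
  exact frobPoly_mk_eq_zero q σ D
    (hDiv M q (p ^ n) hq hqM hqm A hA σ hσ f hf (D : Divisor Qb (modularFunctionFieldBar (M * q)))
      hD hN)

end

end Fermat.Agent.S35.FrobNew
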