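/-
S35 — DecompB.lean (helper19): leaf [Decomp] of the abstract plan `S35/LocFPlan.lean` (helper25),
B-copy, CLOSED form:

    decompStatement : LocFPlan.DecompStatement

At a closed point `n` of the special fibre, with `n' = Σ⁻¹ n` (equal to `n` if both branches pass
through `n`), the first difference `Σ f / f` is an `m`-th power times a unit of `R_n`.

Proof.  `p = algebraMap O R π`, `ϖ` its image in `E`, `ρ = Σ|_R`.
(D1) `HorProd.exists_unitAt_div_pow` at `n` and at `n'`: `φ := f / e ^ m` (resp.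
     `φ' := f / e' ^ m`) is a unit at every horizontal `PrincAt` prime `≤ n` (resp. `≤ n'`);
     at a crossing point `n' = n` and we take `e' = e`.
(D2) `g₁ := Σ e' / e`, and `g := g₁ / ϖ ^ k` where `k = 0` at a crossing point and
     `k = ord_{V i₀} g₁` if only the branch `P i₀` passes through `n`; `ε := (Σ f / f) / g ^ m`.
(D3) `ε` is a unit of `V i` for every branch `P i ≤ n` (`Σ x / x` is a unit of `V i` for every
     `x ≠ 0`, by `FrobHyp.map_V`, `symm_V`, `pi` and `ChartHyp.disc`).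
(D4) `ε = Σ φ' / φ · ϖ ^ (k m)` is a unit at every horizontal `PrincAt` prime `𝔮 ≤ n`
     (pull `𝔮` back along `ρ`: `ρ⁻¹ 𝔮 ≤ n'` is horizontal with `PrincAt`).
(D5) a vertical `PrincAt` prime `𝔮 ≤ n` is some `P i` (`PrincMin`), and (D3) gives `UnitAt`
     (`LocAB.unitAt_of_vu` + `PrincOrd`); `KrullUnit` concludes.
-/
import Mathlib
import Fermat.Agent.S34.LocPlan
import Fermat.Agent.S34.HorProd
import Fermat.Agent.S34.KrullStmt
import Fermat.Agent.S34.LocAB
import Fermat.Agent.S35.LocFPlan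

set_option autoImplicit false
set_option linter.unusedSectionVars false

namespace Fermat.Agent.S35.DecompB

open Fermat.Agent.S34 Fermat.Agent.S34.LocPlan Fermat.Agent.S35.LocFPlan

section Frob

variable {O : Type*} [CommRing O] {R : Type*} [CommRing R] [Algebra O R]
  {E : Type*} [Field E] [Algebra R E]
  {π : O} {V : Fin 2 → ValuationSubring E} {P : Fin 2 → Ideal R} {Sg : E ≃+* E} {Q : ℕ}

/-- `Σ` maps units of `V i` to units of `V i`. -/
theorem map_vu (F : FrobHyp (R := R) π V Sg Q) (i : Fin 2) {x : E} (hx : LocAB.VU (V i) x) :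
    LocAB.VU (V i) (Sg x) :=
  ⟨(map_ne_zero Sg).mpr hx.1, F.map_V i x hx.2.1, by
    rw [← map_inv₀]; exact F.map_V i _ hx.2.2⟩

/-- `Σ x / x` is a unit of `V i` for every `x ≠ 0`. -/
theorem quot_vu (H : ChartHyp π V P) (F : FrobHyp (R := R) π V Sg Q) (i : Fin 2) {x : E}
    (hx : x ≠ 0) : LocAB.VU (V i) (Sg x / x) := by
  obtain ⟨k, u, hu, hu', rfl⟩ := H.disc i x hx
  obtain ⟨c, hc, hc', hσ⟩ := F.pi i
  have hϖ := LocAB.pi_ne_zero H
  have hu0 : u ≠ 0 := right_ne_zero_of_mul hx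
  have hc0 : c ≠ 0 := by
    rintro rfl
    rw [mul_zero] at hσ
    exact hϖ ((map_eq_zero Sg).mp hσ)
  have huu : LocAB.VU (V i) u := ⟨hu0, hu, hu'⟩
  have hϖk : algebraMap R E (algebraMap O R π) ^ k ≠ 0 := zpow_ne_zero k hϖ
  have key : Sg (algebraMap R E (algebraMap O R π) ^ k * u)
      / (algebraMap R E (algebraMap O R π) ^ k * u) = c ^ k * (Sg u / u) := by
    rw [map_mul, map_zpow₀, hσ, mul_zpow, mul_assoc, mul_div_mul_left _ _ hϖk, mul_div_assoc]
  rw [key]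
  exact (LocAB.VU.zpow ⟨hc0, hc, hc'⟩ k).mul ((map_vu F i huu).div huu)

variable [IsDomain R] [IsFractionRing R E]

theorem resR_symm_resR (F : FrobHyp (R := R) π V Sg Q) (r : R) :
    LocAB.resR Sg F.map_R (LocAB.resR Sg.symm F.symm_R r) = r := by
  apply IsFractionRing.injective R E
  rw [LocAB.algebraMap_resR, LocAB.algebraMap_resR, RingEquiv.apply_symm_apply]

theorem resR_resR_symm (F : FrobHyp (R := R) π V Sg Q) (r : R) :
    LocAB.resR Sg.symm F.symm_R (LocAB.resR Sg F.map_R r) = r := by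
  apply IsFractionRing.injective R E
  rw [LocAB.algebraMap_resR, LocAB.algebraMap_resR, RingEquiv.symm_apply_apply]

/-- `ρ p = p * unit` for the restriction `ρ` of `Σ` to `R`. -/
theorem exists_unit_resR_pi (H : ChartHyp π V P) (F : FrobHyp (R := R) π V Sg Q) :
    ∃ c : R, IsUnit c ∧
      LocAB.resR Sg F.map_R (algebraMap O R π) = algebraMap O R π * c := by
  have hϖ := LocAB.pi_ne_zero H
  have h1 : ∀ i : Fin 2, LocAB.resR Sg F.map_R (algebraMap O R π) ∈ P i := by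
    intro i
    obtain ⟨u, hu, -, hσ⟩ := F.pi i
    rw [H.mem_P]
    exact ⟨u, hu, by rw [LocAB.algebraMap_resR, hσ]⟩
  have h2 : ∀ i : Fin 2, LocAB.resR Sg.symm F.symm_R (algebraMap O R π) ∈ P i := by
    intro i
    obtain ⟨u, hu, hu', hσ⟩ := F.pi i
    have hu0 : u ≠ 0 := by
      rintro rfl
      rw [mul_zero] at hσ
      exact hϖ ((map_eq_zero Sg).mp hσ)
    rw [H.mem_P]
    refine ⟨Sg.symm u⁻¹, F.symm_V i _ hu', ?_⟩
    rw [LocAB.algebraMap_resR]
    apply Sg.injective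
    rw [RingEquiv.apply_symm_apply, map_mul, RingEquiv.apply_symm_apply, hσ]
    field_simp
  obtain ⟨c, hc⟩ := H.red _ h1
  obtain ⟨c', hc'⟩ := H.red _ h2
  refine ⟨c, ?_, hc⟩
  have h3 := resR_symm_resR F (algebraMap O R π)
  rw [hc', map_mul, hc] at h3
  have h4 : algebraMap O R π * (c * LocAB.resR Sg F.map_R c') = algebraMap O R π * 1 := by
    linear_combination h3
  exact IsUnit.of_mul_eq_one _ (mul_left_cancel₀ (LocAB.pi_ne_zero' H) h4)

/-- The pull-back along `ρ` of a prime below `n` lies below `n' = Σ⁻¹ n`. -/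
theorem comap_le_of_isPre (F : FrobHyp (R := R) π V Sg Q) {n n' 𝔮 : Ideal R}
    (hpre : IsPre Sg n' n) (h𝔮 : 𝔮 ≤ n) : 𝔮.comap (LocAB.resR Sg F.map_R) ≤ n' := by
  intro r hr
  exact (hpre r _ (LocAB.algebraMap_resR Sg F.map_R r).symm).mpr (h𝔮 hr)

/-- The pull-back along `ρ` of a horizontal prime is horizontal. -/
theorem pi_notMem_comap (H : ChartHyp π V P) (F : FrobHyp (R := R) π V Sg Q) {𝔮 : Ideal R}
    (h𝔮 : 𝔮.IsPrime) (hπ : algebraMap O R π ∉ 𝔮) :
    algebraMap O R π ∉ 𝔮.comap (LocAB.resR Sg F.map_R) := by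
  intro h
  rw [Ideal.mem_comap] at h
  obtain ⟨c, hc, hpc⟩ := exists_unit_resR_pi H F
  rw [hpc] at h
  rcases h𝔮.mem_or_mem h with h | h
  · exact hπ h
  · exact h𝔮.ne_top (Ideal.eq_top_of_isUnit_mem _ h hc)

/-- `PrincAt` is transported along `ρ`. -/
theorem princAt_comap (F : FrobHyp (R := R) π V Sg Q) {𝔮 : Ideal R} (h : PrincAt 𝔮) :
    PrincAt (𝔮.comap (LocAB.resR Sg F.map_R)) := by
  obtain ⟨hne, t, ht, hgen⟩ := h
  refine ⟨?_, LocAB.resR Sg.symm F.symm_R t, ?_, ?_⟩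
  · obtain ⟨y, hy, hy0⟩ := Submodule.exists_mem_ne_zero_of_ne_bot hne
    intro hbot
    have hmem : LocAB.resR Sg.symm F.symm_R y ∈ 𝔮.comap (LocAB.resR Sg F.map_R) := by
      rw [Ideal.mem_comap, resR_symm_resR F]
      exact hy
    rw [hbot, Ideal.mem_bot] at hmem
    apply hy0
    have h2 := resR_symm_resR F y
    rw [hmem, map_zero] at h2
    exact h2.symm
  · rw [Ideal.mem_comap, resR_symm_resR F]
    exact ht
  · intro y hy
    rw [Ideal.mem_comap] at hy
    obtain ⟨s, hs, c, hc⟩ := hgen _ hy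
    refine ⟨LocAB.resR Sg.symm F.symm_R s, ?_, LocAB.resR Sg.symm F.symm_R c, ?_⟩
    · rw [Ideal.mem_comap, resR_symm_resR F]
      exact hs
    · have h2 := congrArg (LocAB.resR Sg.symm F.symm_R) hc
      rw [map_mul, map_mul, resR_resR_symm F] at h2
      exact h2

/-- `Σ` maps units at `ρ⁻¹ 𝔮` to units at `𝔮`. -/
theorem unitAt_map (F : FrobHyp (R := R) π V Sg Q) {𝔮 : Ideal R} {x : E}
    (h : UnitAt (𝔮.comap (LocAB.resR Sg F.map_R)) x) : UnitAt 𝔮 (Sg x) := by
  obtain ⟨a, s, ha, hs, h⟩ := h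
  refine ⟨LocAB.resR Sg F.map_R a, LocAB.resR Sg F.map_R s, ha, hs, ?_⟩
  rw [LocAB.algebraMap_resR, LocAB.algebraMap_resR, ← map_mul, h]

end Frob

/-! ### (D1) the product of the cut functions at one closed point -/

/-- From the horizontal hypothesis at `n`: a correction `e ≠ 0` such that `f / e ^ m` is a unit
at every horizontal prime `𝔮 ≤ n` with `PrincAt 𝔮`. -/
theorem exists_cutProd {O : Type} [CommRing O] {R : Type} [CommRing R] [IsDomain R]
    [IsNoetherianRing R] [Algebra O R] {E : Type} [Field E] [Algebra R E] [IsFractionRing R E]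
    (π : O) (f : E) (m : ℕ) (n : Ideal R) (hf : f ≠ 0) (hor : HorHyp π f m n) :
    ∃ e : E, e ≠ 0 ∧ ∀ 𝔮 : Ideal R, 𝔮.IsPrime → 𝔮 ≤ n →
      algebraMap O R π ∉ 𝔮 → PrincAt 𝔮 → UnitAt 𝔮 (f / e ^ m) := by
  classical
  refine HorProd.exists_unitAt_div_pow (R := R) (E := E) n
    (fun 𝔮 => algebraMap O R π ∉ 𝔮) (fun 𝔮 => PrincAt 𝔮) ?_ m f hf ?_
  · intro 𝔮 h𝔮 hD
    refine ⟨hD.1, fun 𝔮' h𝔮' hle => ?_⟩
    by_cases hbot : 𝔮' = ⊥
    · exact Or.inl hbot
    · exact Or.inr (KrullStmt.princMinStatement R 𝔮' 𝔮 h𝔮' h𝔮 hD hle hbot)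
  · intro 𝔮 h𝔮 hle hhor hD
    rcases hor 𝔮 h𝔮 hle hhor hD with hu | ⟨⟨x, hx0, hx⟩, e, he, hcut, hgen⟩
    · exact Or.inl hu
    · right
      refine ⟨e, he, fun 𝔮' h𝔮' hle' hhor' hmem => hcut 𝔮' h𝔮' hle' hmem hhor', ?_⟩
      obtain ⟨j, hj⟩ := KrullStmt.princOrdStatement R E 𝔮 e h𝔮 hD.1 he hgen x hx0
      refine ⟨j, ?_⟩
      have h1 : HorProd.UnitAt 𝔮 (f * x ^ m) := hx
      have h2 : HorProd.UnitAt 𝔮 ((x * algebraMap R E e ^ j) ^ m) :=
        HorProd.UnitAt.pow (show HorProd.UnitAt 𝔮 _ from hj) m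
      have h3 : f / algebraMap R E e ^ ((m : ℤ) * j)
          = f * x ^ m / (x * algebraMap R E e ^ j) ^ m := by
        rw [mul_pow, zpow_mul', zpow_natCast, mul_comm f,
          mul_div_mul_left _ _ (pow_ne_zero m hx0)]
      rw [h3]
      exact h1.div h2

/-! ### The leaf -/

/-- **[Decomp]** (closed form): `Σ f / f = g ^ m * ε` with `ε` a unit of `R_n`. -/
theorem decompStatement : DecompStatement := by
  intro O _ _ _ R _ _ _ _ _ E _ _ _ π V P Sg Q f m n n' _ hn hn' hπn hf _ H F hpre hnode hor hor'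
  classical
  have hnp : n.IsPrime := hn.isPrime
  have hϖ0 : algebraMap R E (algebraMap O R π) ≠ 0 := LocAB.pi_ne_zero H
  -- (D1)
  obtain ⟨e, he0, hφ⟩ := exists_cutProd π f m n hf hor
  obtain ⟨e', he0', hφ', hee'⟩ : ∃ e' : E, e' ≠ 0 ∧
      (∀ 𝔮 : Ideal R, 𝔮.IsPrime → 𝔮 ≤ n' → algebraMap O R π ∉ 𝔮 → PrincAt 𝔮 →
        UnitAt 𝔮 (f / e' ^ m)) ∧ (P 0 ≤ n → P 1 ≤ n → e' = e) := by
    by_cases hboth : P 0 ≤ n ∧ P 1 ≤ n
    · have hnn : n' = n := hnode hboth.1 hboth.2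
      exact ⟨e, he0, hnn ▸ hφ, fun _ _ => rfl⟩
    · obtain ⟨e', he0', hφ'⟩ := exists_cutProd π f m n' hf hor'
      exact ⟨e', he0', hφ', fun h0 h1 => absurd ⟨h0, h1⟩ hboth⟩
  have hg₁0 : Sg e' / e ≠ 0 := div_ne_zero ((map_ne_zero Sg).mpr he0') he0
  have hfd0 : firstDiff Sg f ≠ 0 := div_ne_zero ((map_ne_zero Sg).mpr hf) hf
  have hfdvu : ∀ i : Fin 2, LocAB.VU (V i) (firstDiff Sg f) := fun i => quot_vu H F i hf
  -- (D2), (D3): the vertical adjustment
  obtain ⟨k, hk⟩ : ∃ k : ℤ, ∀ i : Fin 2, P i ≤ n → LocAB.VU (V i)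
      (firstDiff Sg f / (Sg e' / e / algebraMap R E (algebraMap O R π) ^ k) ^ m) := by
    by_cases hboth : P 0 ≤ n ∧ P 1 ≤ n
    · refine ⟨0, fun i _ => ?_⟩
      rw [hee' hboth.1 hboth.2, zpow_zero, div_one]
      exact (hfdvu i).div ((quot_vu H F i he0).pow m)
    · obtain ⟨i₀, hi₀⟩ : ∃ i₀ : Fin 2, ∀ i : Fin 2, P i ≤ n → i = i₀ := by
        by_cases h0 : P 0 ≤ n
        · refine ⟨0, fun i hi => ?_⟩
          fin_cases i
          · rfl
          · exact absurd ⟨h0, hi⟩ hboth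
        · refine ⟨1, fun i hi => ?_⟩
          fin_cases i
          · exact absurd hi h0
          · rfl
      obtain ⟨k, u, hu, hu', hgu⟩ := H.disc i₀ _ hg₁0
      refine ⟨k, fun i hi => ?_⟩
      rw [hi₀ i hi]
      have hu0 : u ≠ 0 := by
        rintro rfl
        rw [mul_zero] at hgu
        exact hg₁0 hgu
      have hquot : Sg e' / e / algebraMap R E (algebraMap O R π) ^ k = u := by
        rw [hgu, mul_div_assoc, mul_comm, div_mul_cancel₀]
        exact zpow_ne_zero k hϖ0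
      rw [hquot]
      exact (hfdvu i₀).div (LocAB.VU.pow ⟨hu0, hu, hu'⟩ m)
  have hg0 : Sg e' / e / algebraMap R E (algebraMap O R π) ^ k ≠ 0 :=
    div_ne_zero hg₁0 (zpow_ne_zero k hϖ0)
  have hε0 : firstDiff Sg f / (Sg e' / e / algebraMap R E (algebraMap O R π) ^ k) ^ m ≠ 0 :=
    div_ne_zero hfd0 (pow_ne_zero m hg0)
  refine ⟨Sg e' / e / algebraMap R E (algebraMap O R π) ^ k,
    firstDiff Sg f / (Sg e' / e / algebraMap R E (algebraMap O R π) ^ k) ^ m, hg0, ?_, ?_⟩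
  · rw [mul_div_cancel₀ _ (pow_ne_zero m hg0)]
  · -- (D4), (D5)
    refine KrullStmt.krullUnitStatement R E n _ hnp hε0 ?_
    intro 𝔮 h𝔮 hle hD
    by_cases hhor : algebraMap O R π ∈ 𝔮
    · -- vertical
      have hvert : ∀ i : Fin 2, P i ≤ 𝔮 → UnitAt 𝔮
          (firstDiff Sg f / (Sg e' / e / algebraMap R E (algebraMap O R π) ^ k) ^ m) := by
        intro i hi
        have hPne : P i ≠ ⊥ := by
          intro hbot
          have h1 := LocAB.pi_mem_P H i
          rw [hbot, Ideal.mem_bot] at h1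
          exact LocAB.pi_ne_zero' H h1
        have heq : P i = 𝔮 :=
          KrullStmt.princMinStatement R (P i) 𝔮 (LocAB.P_isPrime H i) h𝔮 hD hi hPne
        have hin : P i ≤ n := heq ▸ hle
        obtain ⟨-, t, ht, hgen⟩ := hD
        rw [← heq] at ht hgen ⊢
        exact LocAB.unitAt_of_vu H i ht
          (fun x hx => KrullStmt.princOrdStatement R E (P i) t (LocAB.P_isPrime H i) hPne ht
            hgen x hx) (hk i hin)
      have hinf : P 0 ⊓ P 1 ≤ 𝔮 := by
        rintro r ⟨h0, h1⟩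
        obtain ⟨r', rfl⟩ := H.red r (fun i => by
          fin_cases i
          · exact h0
          · exact h1)
        exact 𝔮.mul_mem_right _ hhor
      rcases (Ideal.IsPrime.inf_le h𝔮).mp hinf with hi | hi
      · exact hvert 0 hi
      · exact hvert 1 hi
    · -- horizontal
      have h1 : UnitAt (𝔮.comap (LocAB.resR Sg F.map_R)) (f / e' ^ m) :=
        hφ' _ (Ideal.comap_isPrime _ _) (comap_le_of_isPre F hpre hle)
          (pi_notMem_comap H F h𝔮 hhor) (princAt_comap F hD)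
      have h2 : HorProd.UnitAt 𝔮 (Sg (f / e' ^ m)) := unitAt_map F h1
      have h3 : HorProd.UnitAt 𝔮 (f / e ^ m) := hφ 𝔮 h𝔮 hle hhor hD
      have h4 : HorProd.UnitAt 𝔮 (algebraMap R E (algebraMap O R π)) :=
        HorProd.UnitAt.of_notMem hhor
      have key : firstDiff Sg f / (Sg e' / e / algebraMap R E (algebraMap O R π) ^ k) ^ m
          = Sg (f / e' ^ m) / (f / e ^ m) * (algebraMap R E (algebraMap O R π) ^ k) ^ m := by
        have hSe : Sg e' ≠ 0 := (map_ne_zero Sg).mpr he0'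
        have hϖk : algebraMap R E (algebraMap O R π) ^ k ≠ 0 := zpow_ne_zero k hϖ0
        simp only [firstDiff, map_div₀, map_pow, div_pow]
        field_simp
      rw [key]
      exact (h2.div h3).mul ((h4.zpow k).pow m)

end Fermat.Agent.S35.DecompB
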