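import Mathlib
import Fermat.Agent.S34.LocPlan
import Fermat.Agent.S34.LocHw
import Fermat.Agent.S35.LocFPlan

/-!
# S35, abstract block of [E]: the leaf `[LocF0]` (helper52)

`locF0_of_leaves : YGStatement → LocGStatement → LocF0Statement` (the Props of
`S35/LocFPlan.lean`, architect helper25).

Picture: `R` a chart with fraction field `E`, `ϖ` the uniformizer of the base, `V i` the two
component valuation rings, `n` a closed point of the special fibre, `Sg = Σ` the square of a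
Frobenius lift, `Q = q²`, `G = gFun Sg f H m`, `w = Σ G / G ^ Q`.

Proof.  Let `n' = Σ⁻¹ n` (the contraction of `n` along `Σ|_R`).  By `[YG]` and `[LocG]`,
`G = g₀ ^ m u₀` at `n` and `G = g₁ ^ m u₁` at `n'` with `u₀ ∈ 1 + ϖ R_n`, `u₁ ∈ 1 + ϖ R_{n'}`;
at a crossing point `n' = n` (`LocFHyp.node`) and we take `g₁ = g₀`.  Put `a := g₀ ^ Q / Σ g₁`.
Then `w a ^ m = Σ u₁ / u₀ ^ Q ∈ 1 + ϖ R_n` (`Σ` maps `R_{n'}` to `R_n` and `Σ ϖ ∈ ϖ R`).  On a
branch `V i` through `n` on which `g₀ ≡ g₁ ≡ 1`, `a ≡ 1`; at a crossing point, on the second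
branch `g₀ ≡ γ` for a constant `γ ∈ O` with `γ ^ m ≡ 1`, and
`a ≡ γ ^ Q / Σ γ ≡ 1` by `FrobHyp.const`.
-/

set_option autoImplicit false

namespace Fermat.Agent.S35.LocF0

open Fermat.Agent.S34 Fermat.Agent.S34.LocPlan Fermat.Agent.S34.LocHw Fermat.Agent.S35.LocFPlan

variable {R : Type*} [CommRing R] {E : Type*} [Field E] [Algebra R E]

/-! ### Calculus of `RegAt` -/

section Reg

variable {n : Ideal R}

theorem regAt_algebraMap [n.IsPrime] (r : R) : RegAt n (algebraMap R E r) :=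
  ⟨r, 1, fun h => (Ideal.ne_top_iff_one n).mp (Ideal.IsPrime.ne_top ‹_›) h, by rw [map_one, mul_one]⟩

theorem regAt_one [n.IsPrime] : RegAt n (1 : E) := by
  have := regAt_algebraMap (E := E) (n := n) (1 : R)
  rwa [map_one] at this

theorem regAt_add [n.IsPrime] {x y : E} (hx : RegAt n x) (hy : RegAt n y) : RegAt n (x + y) := by
  obtain ⟨a, s, hs, ha⟩ := hx
  obtain ⟨b, t, ht, hb⟩ := hy
  refine ⟨a * t + b * s, s * t, fun h => ?_, ?_⟩
  · rcases Ideal.IsPrime.mem_or_mem ‹_› h with h | h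
    · exact hs h
    · exact ht h
  · rw [map_mul, map_add, map_mul, map_mul, ← ha, ← hb]
    ring

theorem regAt_mul [n.IsPrime] {x y : E} (hx : RegAt n x) (hy : RegAt n y) : RegAt n (x * y) := by
  obtain ⟨a, s, hs, ha⟩ := hx
  obtain ⟨b, t, ht, hb⟩ := hy
  refine ⟨a * b, s * t, fun h => ?_, ?_⟩
  · rcases Ideal.IsPrime.mem_or_mem ‹_› h with h | h
    · exact hs h
    · exact ht h
  · rw [map_mul, map_mul, ← ha, ← hb]
    ring

theorem regAt_neg {x : E} (hx : RegAt n x) : RegAt n (-x) := by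
  obtain ⟨a, s, hs, ha⟩ := hx
  exact ⟨-a, s, hs, by rw [map_neg, ← ha]; ring⟩

theorem regAt_sub [n.IsPrime] {x y : E} (hx : RegAt n x) (hy : RegAt n y) : RegAt n (x - y) := by
  rw [sub_eq_add_neg]
  exact regAt_add hx (regAt_neg hy)

theorem regAt_pow [n.IsPrime] {x : E} (hx : RegAt n x) (k : ℕ) : RegAt n (x ^ k) := by
  induction k with
  | zero => rw [pow_zero]; exact regAt_one
  | succ k ih => rw [pow_succ]; exact regAt_mul ih hx

theorem regAt_sum [n.IsPrime] {ι : Type*} (s : Finset ι) (f : ι → E)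
    (h : ∀ i ∈ s, RegAt n (f i)) : RegAt n (∑ i ∈ s, f i) := by
  classical
  induction s using Finset.induction_on with
  | empty =>
    rw [Finset.sum_empty]
    have := regAt_algebraMap (E := E) (n := n) (0 : R)
    rwa [map_zero] at this
  | insert a s ha ih =>
    rw [Finset.sum_insert ha]
    exact regAt_add (h a (Finset.mem_insert_self a s))
      (ih fun i hi => h i (Finset.mem_insert_of_mem hi))

/-- `1 + ϖ y` is a unit of `R_n` for `ϖ ∈ n`, `y ∈ R_n`. -/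
theorem regAt_inv_one_add (hinj : Function.Injective (algebraMap R E)) [n.IsPrime] {ϖ : R}
    (hϖ : ϖ ∈ n) {y : E} (hy : RegAt n y) :
    1 + algebraMap R E ϖ * y ≠ 0 ∧ RegAt n (1 + algebraMap R E ϖ * y)⁻¹ := by
  obtain ⟨b, s, hs, hb⟩ := hy
  have hsb : s + ϖ * b ∉ n := fun h => hs (by
    have : s = (s + ϖ * b) - ϖ * b := by ring
    rw [this]
    exact n.sub_mem h (n.mul_mem_right _ hϖ))
  have e : (1 + algebraMap R E ϖ * y) * algebraMap R E s = algebraMap R E (s + ϖ * b) := by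
    rw [map_add, map_mul, ← hb]; ring
  have h0 : algebraMap R E (s + ϖ * b) ≠ 0 := fun h =>
    hsb (by rw [(map_eq_zero_iff _ hinj).mp h]; exact n.zero_mem)
  have h1 : 1 + algebraMap R E ϖ * y ≠ 0 := by
    intro h
    rw [h, zero_mul] at e
    exact h0 e.symm
  refine ⟨h1, s, s + ϖ * b, hsb, ?_⟩
  rw [← e]
  field_simp

end Reg

/-! ### The Frobenius step -/

section Core

variable {n n' : Ideal R} {ϖ : R} {Sg : E ≃+* E} {Q m : ℕ}

/-- The algebraic identity `w * a ^ m = Sg u₁ / u₀ ^ Q`, `a = g₀ ^ Q / Sg g₁`. -/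
theorem w_mul_pow_eq (Sg : E ≃+* E) (Q m : ℕ) {G g₀ u₀ g₁ u₁ : E} (hG : G = g₀ ^ m * u₀)
    (hG' : G = g₁ ^ m * u₁) (hg₀ : g₀ ≠ 0) (hg₁ : g₁ ≠ 0) :
    Sg G / G ^ Q * (g₀ ^ Q / Sg g₁) ^ m = Sg u₁ / u₀ ^ Q := by
  have h1 : Sg g₁ ≠ 0 := (map_ne_zero Sg).mpr hg₁
  have e1 : Sg G = Sg g₁ ^ m * Sg u₁ := by rw [hG', map_mul, map_pow]
  have e2 : G ^ Q = (g₀ ^ m) ^ Q * u₀ ^ Q := by rw [hG, mul_pow]
  rw [e1, e2, div_pow]
  by_cases hu : u₀ ^ Q = 0
  · rw [hu, mul_zero, div_zero, div_zero, zero_mul]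
  field_simp
  ring

theorem div_sub_one_eq (p A B : E) (h : 1 + p * B ≠ 0) :
    (1 + p * A) / (1 + p * B) - 1 = p * ((A - B) * (1 + p * B)⁻¹) := by
  field_simp
  ring

/-- `w * a ^ m ∈ 1 + ϖ R_n` for `a = g₀ ^ Q / Sg g₁`, if `G = g₀ ^ m u₀ = g₁ ^ m u₁` with
`u₀ ∈ 1 + ϖ R_n`, `u₁ ∈ 1 + ϖ R_{n'}` and `Sg` maps `R_{n'}` into `R_n`. -/
theorem frob_core (hinj : Function.Injective (algebraMap R E)) [n.IsPrime] (hϖn : ϖ ∈ n)
    (hSgR : ∀ x : E, RegAt n' x → RegAt n (Sg x))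
    (hSgπR : ∃ u : E, RegAt n u ∧ Sg (algebraMap R E ϖ) = algebraMap R E ϖ * u)
    {G g₀ u₀ g₁ u₁ : E} (hG : G = g₀ ^ m * u₀) (hG' : G = g₁ ^ m * u₁)
    (hg₀ : g₀ ≠ 0) (hg₁ : g₁ ≠ 0)
    (hu₀ : ∃ y : E, RegAt n y ∧ u₀ - 1 = algebraMap R E ϖ * y)
    (hu₁ : ∃ y : E, RegAt n' y ∧ u₁ - 1 = algebraMap R E ϖ * y) :
    ∃ s : R, s ∉ n ∧ ∃ r : R,
      algebraMap R E s * (Sg G / G ^ Q * (g₀ ^ Q / Sg g₁) ^ m - 1) =
        algebraMap R E ϖ * algebraMap R E r := by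
  set p : E := algebraMap R E ϖ with hp
  rw [w_mul_pow_eq Sg Q m hG hG' hg₀ hg₁]
  obtain ⟨y, hy, ey⟩ := hu₀
  obtain ⟨y₁, hy₁, ey₁⟩ := hu₁
  obtain ⟨uR, huR, euR⟩ := hSgπR
  have hu₀' : u₀ = 1 + p * y := by rw [← ey]; ring
  have hu₁' : u₁ = 1 + p * y₁ := by rw [← ey₁]; ring
  -- `Sg u₁ = 1 + p * A`
  have eA : Sg u₁ = 1 + p * (uR * Sg y₁) := by
    rw [hu₁', map_add, map_one, map_mul, euR]; ring
  have hA : RegAt n (uR * Sg y₁) := regAt_mul huR (hSgR y₁ hy₁)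
  -- `u₀ ^ Q = 1 + p * B`
  have hu₀reg : RegAt n u₀ := by
    rw [hu₀']
    exact regAt_add regAt_one (regAt_mul (regAt_algebraMap ϖ) hy)
  have eB : u₀ ^ Q = 1 + p * (y * ∑ k ∈ Finset.range Q, u₀ ^ k) := by
    have := mul_geom_sum u₀ Q
    have h5 : u₀ ^ Q - 1 = (u₀ - 1) * ∑ k ∈ Finset.range Q, u₀ ^ k := by rw [this]
    have h6 : u₀ ^ Q = 1 + (u₀ - 1) * ∑ k ∈ Finset.range Q, u₀ ^ k := by rw [← h5]; ring
    rw [h6, ey]; ring
  have hB : RegAt n (y * ∑ k ∈ Finset.range Q, u₀ ^ k) :=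
    regAt_mul hy (regAt_sum _ _ fun k _ => regAt_pow hu₀reg k)
  obtain ⟨hne, hinv⟩ := regAt_inv_one_add hinj hϖn hB
  have hz : RegAt n ((uR * Sg y₁ - y * ∑ k ∈ Finset.range Q, u₀ ^ k) *
      (1 + p * (y * ∑ k ∈ Finset.range Q, u₀ ^ k))⁻¹) := regAt_mul (regAt_sub hA hB) hinv
  obtain ⟨r, s, hs, hr⟩ := hz
  refine ⟨s, hs, r, ?_⟩
  have key : Sg u₁ / u₀ ^ Q - 1 = p * ((uR * Sg y₁ - y * ∑ k ∈ Finset.range Q, u₀ ^ k) *
      (1 + p * (y * ∑ k ∈ Finset.range Q, u₀ ^ k))⁻¹) := by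
    rw [← div_sub_one_eq p _ _ hne, ← eA, ← eB]
  rw [key, ← hr]
  ring

/-- `Sg` preserves `≡ 1` modulo `p W`. -/
theorem cong_map {W : ValuationSubring E} {p : E} (hSgW : ∀ x ∈ W, Sg x ∈ W)
    (hSgp : ∃ u ∈ W, Sg p = p * u) {x : E} (hx : Cong W p x) : Cong W p (Sg x) := by
  obtain ⟨z, hz, e⟩ := hx
  obtain ⟨u, hu, eu⟩ := hSgp
  refine ⟨u * Sg z, W.mul_mem _ _ hu (hSgW z hz), ?_⟩
  have : Sg x - 1 = Sg (x - 1) := by rw [map_sub, map_one]
  rw [this, e, map_mul, eu]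
  ring

/-- `a = g₀ ^ Q / Sg g₁ ≡ 1` on a branch where `g₀ ≡ g₁ ≡ 1`. -/
theorem cong_a_one {W : ValuationSubring E} {p : E} (hp : p ∈ W) (hp' : p⁻¹ ∉ W)
    (hSgW : ∀ x ∈ W, Sg x ∈ W) (hSgp : ∃ u ∈ W, Sg p = p * u) {g₀ g₁ : E}
    (c0 : ∃ z ∈ W, g₀ - 1 = p * z) (c1 : ∃ z ∈ W, g₁ - 1 = p * z) :
    ∃ v ∈ W, g₀ ^ Q / Sg g₁ - 1 = p * v := by
  have c1' : Cong W p (Sg g₁) := cong_map hSgW hSgp c1
  have := cong_mul hp hp' (cong_pow hp hp' c0 Q) (cong_inv hp hp' c1')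
  rwa [← div_eq_mul_inv] at this

/-- `a = g₀ ^ Q / Sg g₀ ≡ 1` on a branch where `g₀ ≡ γ`, `γ` a unit with `Sg γ ≡ γ ^ Q`. -/
theorem cong_a_const {W : ValuationSubring E} {p : E} (hp : p ∈ W) (hp' : p⁻¹ ∉ W)
    (hSgW : ∀ x ∈ W, Sg x ∈ W) (hSgp : ∃ u ∈ W, Sg p = p * u) {g₀ γ : E}
    (h1 : ∃ z ∈ W, g₀ - γ = p * z) (hγ0 : γ ≠ 0) (hγ' : γ⁻¹ ∈ W)
    (hγQ : ∃ z ∈ W, Sg γ - γ ^ Q = p * z) :
    ∃ v ∈ W, g₀ ^ Q / Sg g₀ - 1 = p * v := by
  obtain ⟨z, hz, e⟩ := h1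
  obtain ⟨z₁, hz₁, e₁⟩ := hγQ
  obtain ⟨u, hu, eu⟩ := hSgp
  have hγQ0 : γ ^ Q ≠ 0 := pow_ne_zero _ hγ0
  have c0 : Cong W p (g₀ / γ) := by
    refine ⟨z * γ⁻¹, W.mul_mem _ _ hz hγ', ?_⟩
    have : g₀ = γ + p * z := by rw [← e]; ring
    rw [this]
    field_simp
    ring
  have c1 : Cong W p (Sg g₀ / γ ^ Q) := by
    refine ⟨(z₁ + u * Sg z) * (γ⁻¹) ^ Q,
      W.mul_mem _ _ (W.add_mem _ _ hz₁ (W.mul_mem _ _ hu (hSgW z hz))) (pow_mem hγ' Q), ?_⟩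
    have h3 : Sg g₀ = Sg γ + Sg p * Sg z := by
      have : g₀ = γ + p * z := by rw [← e]; ring
      rw [this, map_add, map_mul]
    have h4 : Sg γ = γ ^ Q + p * z₁ := by rw [← e₁]; ring
    rw [h3, h4, eu, inv_pow]
    field_simp
    ring
  have := cong_mul hp hp' (cong_pow hp hp' c0 Q) (cong_inv hp hp' c1)
  have hg₀ : Sg g₀ ≠ 0 := by
    intro h
    have hv := val_eq_one_of_cong hp hp' c1
    rw [h, zero_div, map_zero] at hv
    exact zero_ne_one hv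
  have e2 : (g₀ / γ) ^ Q * (Sg g₀ / γ ^ Q)⁻¹ = g₀ ^ Q / Sg g₀ := by
    rw [div_pow]
    field_simp
  rwa [e2] at this

/-- A constant `γ` with `γ ^ m ≡ 1` modulo `p W` is a unit of `W`. -/
theorem unit_of_pow_cong {W : ValuationSubring E} {p : E} (hp : p ∈ W) (hp' : p⁻¹ ∉ W) {γ : E}
    (hγ : γ ∈ W) {m : ℕ} (hm : 0 < m) (h : ∃ z ∈ W, γ ^ m - 1 = p * z) : γ ≠ 0 ∧ γ⁻¹ ∈ W := by
  have hv : W.valuation (γ ^ m) = 1 := val_eq_one_of_cong hp hp' h
  have hγ0 : γ ≠ 0 := by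
    rintro rfl
    rw [zero_pow hm.ne', map_zero] at hv
    exact zero_ne_one hv
  refine ⟨hγ0, ?_⟩
  have hinv : (γ ^ m)⁻¹ ∈ W := by
    rw [← W.valuation_le_one_iff, map_inv₀, hv, inv_one]
  obtain ⟨k, rfl⟩ : ∃ k, m = k + 1 := ⟨m - 1, by omega⟩
  have : γ⁻¹ = γ ^ k * (γ ^ (k + 1))⁻¹ := by
    rw [pow_succ]
    field_simp
  rw [this]
  exact W.mul_mem _ _ (pow_mem hγ k) hinv

end Core

/-! ### The restriction of `Sg` to the chart -/

section Res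

/-- The restriction to `R` of a ring automorphism of `E` mapping `R` into `R`. -/
noncomputable def resF (hinj : Function.Injective (algebraMap R E)) (Sg : E ≃+* E)
    (h : ∀ r : R, ∃ r' : R, Sg (algebraMap R E r) = algebraMap R E r') : R →+* R where
  toFun r := (h r).choose
  map_one' := hinj (by
    rw [← (h 1).choose_spec]; simp only [map_one])
  map_mul' x y := hinj (by
    rw [← (h (x * y)).choose_spec]
    simp only [map_mul]
    rw [← (h x).choose_spec, ← (h y).choose_spec])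
  map_zero' := hinj (by
    rw [← (h 0).choose_spec]; simp only [map_zero])
  map_add' x y := hinj (by
    rw [← (h (x + y)).choose_spec]
    simp only [map_add]
    rw [← (h x).choose_spec, ← (h y).choose_spec])

theorem algebraMap_resF (hinj : Function.Injective (algebraMap R E)) (Sg : E ≃+* E)
    (h : ∀ r : R, ∃ r' : R, Sg (algebraMap R E r) = algebraMap R E r') (r : R) :
    algebraMap R E (resF hinj Sg h r) = Sg (algebraMap R E r) :=
  (h r).choose_spec.symm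

theorem resF_surjective (hinj : Function.Injective (algebraMap R E)) (Sg : E ≃+* E)
    (h : ∀ r : R, ∃ r' : R, Sg (algebraMap R E r) = algebraMap R E r')
    (h' : ∀ r : R, ∃ r' : R, Sg.symm (algebraMap R E r) = algebraMap R E r') :
    Function.Surjective (resF hinj Sg h) := by
  intro r
  obtain ⟨r₀, hr₀⟩ := h' r
  refine ⟨r₀, hinj ?_⟩
  rw [algebraMap_resF, ← hr₀, RingEquiv.apply_symm_apply]

/-- From `s * x = p * r` with `s ∉ n`: `x = p * y` with `y ∈ R_n`. -/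
theorem exists_regAt_of_mul (hinj : Function.Injective (algebraMap R E)) {n : Ideal R} {s r : R}
    (hs : s ∉ n) {x p : E} (h : algebraMap R E s * x = p * algebraMap R E r) :
    ∃ y : E, RegAt n y ∧ x = p * y := by
  have hs0 : algebraMap R E s ≠ 0 := fun h0 =>
    hs (by rw [(map_eq_zero_iff _ hinj).mp h0]; exact n.zero_mem)
  refine ⟨algebraMap R E r / algebraMap R E s, ⟨r, s, hs, div_mul_cancel₀ _ hs0⟩, ?_⟩
  field_simp
  linear_combination h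

end Res

/-! ### The leaf -/

/-- **[LocF0]**, hypothesis form over `[YG]` and `[LocG]`. -/
theorem locF0_of_leaves (hYG : YGStatement) (hLocG : LocGStatement) : LocF0Statement := by
  intro O _ _ _ R _ _ _ _ _ E _ _ _ π V P Sg Q f H m n hπ hn hπn hm hyp
  have hinj : Function.Injective (algebraMap R E) := IsFractionRing.injective R E
  have hC := hyp.chart
  have hF := hyp.frob
  have hnp : n.IsPrime := hn.isPrime
  have hpV : ∀ i, algebraMap R E (algebraMap O R π) ∈ V i := fun i => hC.le i _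
  -- `Sg ϖ = ϖ * (an element of R)`
  obtain ⟨r₁, hr₁⟩ := hF.map_R (algebraMap O R π)
  have hr₁P : ∀ i, r₁ ∈ P i := fun i => by
    obtain ⟨u, hu, -, eu⟩ := hF.pi i
    exact (hC.mem_P i r₁).mpr ⟨u, hu, by rw [← hr₁, eu]⟩
  obtain ⟨r₂, hr₂⟩ := hC.red r₁ hr₁P
  have hSgπR : ∃ u : E, RegAt n u ∧ Sg (algebraMap R E (algebraMap O R π)) =
      algebraMap R E (algebraMap O R π) * u :=
    ⟨algebraMap R E r₂, regAt_algebraMap r₂, by rw [hr₁, hr₂, map_mul]⟩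
  have hSgπV : ∀ i, ∃ u ∈ V i, Sg (algebraMap R E (algebraMap O R π)) =
      algebraMap R E (algebraMap O R π) * u := fun i => by
    obtain ⟨u, hu, -, eu⟩ := hF.pi i
    exact ⟨u, hu, eu⟩
  -- the restriction of `Sg` to `R`
  have hφ : ∀ r, algebraMap R E (resF hinj Sg hF.map_R r) = Sg (algebraMap R E r) :=
    algebraMap_resF hinj Sg hF.map_R
  have hφsurj : Function.Surjective (resF hinj Sg hF.map_R) :=
    resF_surjective hinj Sg hF.map_R hF.symm_R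
  -- `[YG]` + `[LocG]` at `n`
  obtain ⟨g, u, hGu, hu⟩ := hYG O R E π V P Sg Q f H m n hπ hn hπn hm hyp
  obtain ⟨g₀, γ, hg₀, ⟨c, hγc⟩, hγ1, hc0, hc1, s₀, hs₀, r₀, hr₀⟩ :=
    hLocG O R E π V P m n (gFun Sg f H m) g u hπ hn hπn hm hC (hyp.branch n hn hπn)
      (hyp.trans n hn hπn) (hyp.root n hn hπn) hGu hu (fun i _ => hyp.cong i)
  have hG0 : gFun Sg f H m = g₀ ^ m * (gFun Sg f H m / g₀ ^ m) := by
    field_simp
  have hu₀ : ∃ y : E, RegAt n y ∧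
      gFun Sg f H m / g₀ ^ m - 1 = algebraMap R E (algebraMap O R π) * y :=
    exists_regAt_of_mul hinj hs₀ hr₀
  by_cases hboth : P 0 ≤ n ∧ P 1 ≤ n
  · -- crossing point: `Σ⁻¹ n = n`
    have hfix := hyp.node n hn hπn hboth.1 hboth.2
    have hSgR : ∀ x : E, RegAt n x → RegAt n (Sg x) := by
      rintro x ⟨a, s, hs, e⟩
      refine ⟨resF hinj Sg hF.map_R a, resF hinj Sg hF.map_R s,
        fun h => hs ((hfix s _ (hφ s).symm).mpr h), ?_⟩
      rw [hφ, hφ, ← map_mul, e]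
    obtain ⟨s, hs, r, hr⟩ := frob_core (Sg := Sg) (Q := Q) (m := m) hinj hπn hSgR hSgπR hG0 hG0
      hg₀ hg₀ hu₀ hu₀
    refine ⟨g₀ ^ Q / Sg g₀, ?_, s, hs, r, hr⟩
    rw [Fin.forall_fin_two]
    refine ⟨fun _ => cong_a_one (hpV 0) (hC.pi_not 0) (hF.map_V 0) (hSgπV 0) (hc0 hboth.1)
      (hc0 hboth.1), fun _ => ?_⟩
    have hγm : ∃ z ∈ V 1, algebraMap R E (algebraMap O R γ) ^ m - 1 =
        algebraMap R E (algebraMap O R π) * z := by
      refine ⟨algebraMap R E (algebraMap O R c), hC.le 1 _, ?_⟩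
      rw [← map_mul, ← map_mul, ← hγc, map_sub, map_sub, map_pow, map_pow, map_one, map_one]
    obtain ⟨hγ0, hγ'⟩ := unit_of_pow_cong (hpV 1) (hC.pi_not 1) (hC.le 1 _) hm hγm
    exact cong_a_const (hpV 1) (hC.pi_not 1) (hF.map_V 1) (hSgπV 1) (hc1 hboth.2) hγ0 hγ'
      (hF.const γ 1)
  · -- at most one branch through `n`: `n' = Σ⁻¹ n`
    have hγ : γ = 1 := hγ1 hboth
    have hn' : (n.comap (resF hinj Sg hF.map_R)).IsMaximal :=
      Ideal.comap_isMaximal_of_surjective _ hφsurj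
    have hφπ : resF hinj Sg hF.map_R (algebraMap O R π) = algebraMap O R π * r₂ := by
      apply hinj
      rw [hφ, hr₁, hr₂]
    have hπn' : algebraMap O R π ∈ n.comap (resF hinj Sg hF.map_R) := by
      rw [Ideal.mem_comap, hφπ]
      exact n.mul_mem_right _ hπn
    -- `P i ≤ n' ↔ P i ≤ n`
    have hp0 : algebraMap R E (algebraMap O R π) ≠ 0 := LocHw.pi_ne_zero (hC.pi_not 0)
    have hPn : ∀ i, P i ≤ n.comap (resF hinj Sg hF.map_R) → P i ≤ n := by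
      intro i hle r hr
      obtain ⟨r', rfl⟩ := hφsurj r
      refine hle ?_
      obtain ⟨y, hy, ey⟩ := (hC.mem_P i _).mp hr
      obtain ⟨u, hu, hu', eu⟩ := hF.pi i
      have hu0 : u ≠ 0 := by
        rintro rfl
        rw [mul_zero] at eu
        exact hp0 ((map_eq_zero Sg).mp eu)
      refine (hC.mem_P i r').mpr ⟨Sg.symm u⁻¹ * Sg.symm y,
        (V i).mul_mem _ _ (hF.symm_V i _ hu') (hF.symm_V i _ hy), ?_⟩
      apply Sg.injective
      rw [← hφ, ey, map_mul, map_mul, eu, RingEquiv.apply_symm_apply, RingEquiv.apply_symm_apply]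
      field_simp
    have hPn' : ∀ i, P i ≤ n → P i ≤ n.comap (resF hinj Sg hF.map_R) := by
      intro i hle r hr
      rw [Ideal.mem_comap]
      refine hle ?_
      obtain ⟨y, hy, ey⟩ := (hC.mem_P i _).mp hr
      obtain ⟨u, hu, -, eu⟩ := hF.pi i
      refine (hC.mem_P i _).mpr ⟨u * Sg y, (V i).mul_mem _ _ hu (hF.map_V i y hy), ?_⟩
      rw [hφ, ey, map_mul, eu]
      ring
    have hboth' : ¬ (P 0 ≤ n.comap (resF hinj Sg hF.map_R) ∧
        P 1 ≤ n.comap (resF hinj Sg hF.map_R)) := fun h => hboth ⟨hPn 0 h.1, hPn 1 h.2⟩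
    -- `[YG]` + `[LocG]` at `n'`
    obtain ⟨g', u', hGu', hu'⟩ := hYG O R E π V P Sg Q f H m _ hπ hn' hπn' hm hyp
    obtain ⟨g₁, γ₁, hg₁, -, hγ₁1, hc0', hc1', s₁, hs₁, r₁', hr₁'⟩ :=
      hLocG O R E π V P m _ (gFun Sg f H m) g' u' hπ hn' hπn' hm hC (hyp.branch _ hn' hπn')
        (hyp.trans _ hn' hπn') (hyp.root _ hn' hπn') hGu' hu' (fun i _ => hyp.cong i)
    have hγ₁ : γ₁ = 1 := hγ₁1 hboth'
    have hG1 : gFun Sg f H m = g₁ ^ m * (gFun Sg f H m / g₁ ^ m) := by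
      field_simp
    have hu₁ : ∃ y : E, RegAt (n.comap (resF hinj Sg hF.map_R)) y ∧
        gFun Sg f H m / g₁ ^ m - 1 = algebraMap R E (algebraMap O R π) * y :=
      exists_regAt_of_mul hinj hs₁ hr₁'
    have hSgR : ∀ x : E, RegAt (n.comap (resF hinj Sg hF.map_R)) x → RegAt n (Sg x) := by
      rintro x ⟨a, s, hs, e⟩
      refine ⟨resF hinj Sg hF.map_R a, resF hinj Sg hF.map_R s, fun h => hs h, ?_⟩
      rw [hφ, hφ, ← map_mul, e]
    obtain ⟨s, hs, r, hr⟩ := frob_core (Sg := Sg) (Q := Q) (m := m) hinj hπn hSgR hSgπR hG0 hG1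
      hg₀ hg₁ hu₀ hu₁
    refine ⟨g₀ ^ Q / Sg g₁, ?_, s, hs, r, hr⟩
    rw [hγ, map_one, map_one] at hc1
    rw [hγ₁, map_one, map_one] at hc1'
    rw [Fin.forall_fin_two]
    exact ⟨fun h => cong_a_one (hpV 0) (hC.pi_not 0) (hF.map_V 0) (hSgπV 0) (hc0 h)
        (hc0' (hPn' 0 h)),
      fun h => cong_a_one (hpV 1) (hC.pi_not 1) (hF.map_V 1) (hSgπV 1) (hc1 h)
        (hc1' (hPn' 1 h))⟩

end Fermat.Agent.S35.LocF0
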