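/-
S35 — SmoothFixB.lean (helper22): the one-branch repair of the local input of the Čech block.

Vocabulary of `S34/LocPlan.lean`: a chart `R` with fraction field `E`, the two component
valuation rings `V 0`, `V 1` with uniformizer `π`, the vertical ideals `P i = R ∩ π (V i)`
(`LocPlan.ChartHyp`).  Let `n` be a prime of `R` containing `π` which lies on the branch `i` only
(`P i ≤ n`, `¬ P j ≤ n`).  If `a₀ ≡ 1` modulo `π (V i)` and `w * a₀ ^ m ∈ 1 + π R_n`, then there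
is `a` with `a ≡ 1` modulo `π (V i)` AND modulo `π (V j)` and still `w * a ^ m ∈ 1 + π R_n`.

No hypothesis on `w`, none on the behaviour of `a₀` at the other branch: `a = a₀ (1 + π y)` with
`y = A π / (B π + s₀ ^ k) ∈ R_n`, where `A / B = (a₀⁻¹ - 1) / π`, `s₀ ∈ P j ∖ n` and `k ≫ 0`
(`y` approximates `(a₀⁻¹ - 1) / π` at `V j`, and `1 + π y ∈ 1 + π R_n`).

* `smoothFix`       the statement above;
* `smoothFix_fin2`  the same with the conclusion `∀ l : Fin 2, …` (the shape of the conclusion of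
                    `LocPlan.LocAStatement`).
-/
import Mathlib
import Fermat.Agent.S34.LocPlan

set_option autoImplicit false

namespace Fermat.Agent.S35.SmoothFixB

open Fermat.Agent.S34

section Basic

variable {O : Type*} [CommRing O] {R : Type*} [CommRing R] [Algebra O R]
  {E : Type*} [Field E] [Algebra R E]
  {π : O} {V : Fin 2 → ValuationSubring E} {P : Fin 2 → Ideal R}

/-- `π ≠ 0` in `E`. -/
theorem pi_ne_zero (hyp : LocPlan.ChartHyp π V P) :
    algebraMap R E (algebraMap O R π) ≠ 0 := by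
  intro h0
  apply hyp.pi_not 0
  rw [h0, inv_zero]
  exact (V 0).zero_mem

/-- `π ∈ V i`. -/
theorem pi_mem (hyp : LocPlan.ChartHyp π V P) (i : Fin 2) :
    algebraMap R E (algebraMap O R π) ∈ V i :=
  hyp.le i _

/-- For every `x : E`, `π ^ k * x ∈ V i` for all large `k`. -/
theorem exists_pow_mul_mem (hyp : LocPlan.ChartHyp π V P) (i : Fin 2) (x : E) :
    ∃ k₀ : ℕ, ∀ k : ℕ, k₀ ≤ k → algebraMap R E (algebraMap O R π) ^ k * x ∈ V i := by
  set ϖ : E := algebraMap R E (algebraMap O R π) with hϖ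
  have hϖ0 : ϖ ≠ 0 := pi_ne_zero hyp
  by_cases hx : x = 0
  · refine ⟨0, fun k _ => ?_⟩
    rw [hx, mul_zero]
    exact (V i).zero_mem
  · obtain ⟨e, u, hu, -, rfl⟩ := hyp.disc i x hx
    refine ⟨(-e).toNat, fun k hk => ?_⟩
    obtain ⟨l, hl⟩ : ∃ l : ℕ, (k : ℤ) + e = l := ⟨((k : ℤ) + e).toNat, by omega⟩
    have h1 : ϖ ^ k * (ϖ ^ e * u) = ϖ ^ l * u := by
      rw [← mul_assoc, ← zpow_natCast ϖ k, ← zpow_add₀ hϖ0, hl, zpow_natCast]
    rw [h1]
    exact mul_mem (pow_mem (pi_mem hyp i) l) hu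

/-- An element of `V i` outside `π (V i)` is a unit of `V i`. -/
theorem inv_mem_of_not_dvd (hyp : LocPlan.ChartHyp π V P) (i : Fin 2) {x : E} (hx : x ∈ V i)
    (hnot : ¬ ∃ y ∈ V i, x = algebraMap R E (algebraMap O R π) * y) : x⁻¹ ∈ V i := by
  set ϖ : E := algebraMap R E (algebraMap O R π) with hϖ
  have hϖ0 : ϖ ≠ 0 := pi_ne_zero hyp
  have hx0 : x ≠ 0 := by
    rintro rfl
    exact hnot ⟨0, (V i).zero_mem, by rw [mul_zero]⟩
  obtain ⟨e, u, hu, hu', rfl⟩ := hyp.disc i x hx0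
  have hu0 : u ≠ 0 := by
    rintro rfl
    exact hx0 (mul_zero _)
  rcases lt_trichotomy e 0 with he | he | he
  · exfalso
    apply hyp.pi_not i
    obtain ⟨l, hl⟩ : ∃ l : ℕ, -e - 1 = l := ⟨(-e - 1).toNat, by omega⟩
    have h1 : ϖ⁻¹ = (ϖ ^ e * u) * u⁻¹ * ϖ ^ l := by
      have h2 : ϖ ^ e * ϖ ^ (l : ℤ) = ϖ⁻¹ := by
        rw [← zpow_add₀ hϖ0, ← hl, ← zpow_neg_one]
        congr 1
        ring
      rw [← zpow_natCast, mul_assoc (ϖ ^ e), mul_inv_cancel₀ hu0, mul_one, h2]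
    rw [← hϖ, h1]
    exact mul_mem (mul_mem hx hu') (pow_mem (pi_mem hyp i) l)
  · subst he
    rw [zpow_zero, one_mul]
    exact hu'
  · exfalso
    apply hnot
    obtain ⟨l, hl⟩ : ∃ l : ℕ, e = (l : ℤ) + 1 := ⟨(e - 1).toNat, by omega⟩
    refine ⟨ϖ ^ l * u, mul_mem (pow_mem (pi_mem hyp i) l) hu, ?_⟩
    rw [hl, zpow_add₀ hϖ0, zpow_one, zpow_natCast]
    ring

/-- `1 + π v` is a unit of `V i` for `v ∈ V i`. -/
theorem one_add_inv_mem (hyp : LocPlan.ChartHyp π V P) (i : Fin 2) {v : E} (hv : v ∈ V i) :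
    (1 + algebraMap R E (algebraMap O R π) * v)⁻¹ ∈ V i := by
  set ϖ : E := algebraMap R E (algebraMap O R π) with hϖ
  have hϖ0 : ϖ ≠ 0 := pi_ne_zero hyp
  refine inv_mem_of_not_dvd hyp i (add_mem (V i).one_mem (mul_mem (pi_mem hyp i) hv)) ?_
  rintro ⟨y, hy, hxy⟩
  apply hyp.pi_not i
  have h1 : ϖ⁻¹ = y - v := by
    have h2 : ϖ * (y - v) = 1 := by
      rw [mul_sub, ← hxy]
      ring
    exact (eq_inv_of_mul_eq_one_right h2).symm ▸ rfl
  rw [← hϖ, h1]
  exact sub_mem hy hv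

/-- The inverse of an element of `R` outside `P i` lies in `V i`. -/
theorem inv_mem_of_not_mem_P (hyp : LocPlan.ChartHyp π V P) (i : Fin 2) {r : R}
    (hr : r ∉ P i) : (algebraMap R E r)⁻¹ ∈ V i :=
  inv_mem_of_not_dvd hyp i (hyp.le i r) (fun h => hr ((hyp.mem_P i r).mpr h))

end Basic

section Main

variable {O : Type*} [CommRing O] {R : Type*} [CommRing R] [IsDomain R] [Algebra O R]
  {E : Type*} [Field E] [Algebra R E] [IsFractionRing R E]
  {π : O} {V : Fin 2 → ValuationSubring E} {P : Fin 2 → Ideal R}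

/-- **[SmoothFix]**: see the file header. -/
theorem smoothFix (hyp : LocPlan.ChartHyp π V P) (n : Ideal R) (hn : n.IsPrime)
    (hπn : algebraMap O R π ∈ n) (i j : Fin 2) (hi : P i ≤ n) (hj : ¬ P j ≤ n)
    (w a₀ : E) (m : ℕ)
    (ha₀ : ∃ v ∈ V i, a₀ - 1 = algebraMap R E (algebraMap O R π) * v)
    (hloc : ∃ s : R, s ∉ n ∧ ∃ r : R, algebraMap R E s * (w * a₀ ^ m - 1) =
      algebraMap R E (algebraMap O R π) * algebraMap R E r) :
    ∃ a : E, (∃ v ∈ V i, a - 1 = algebraMap R E (algebraMap O R π) * v) ∧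
      (∃ v ∈ V j, a - 1 = algebraMap R E (algebraMap O R π) * v) ∧
      ∃ s : R, s ∉ n ∧ ∃ r : R, algebraMap R E s * (w * a ^ m - 1) =
        algebraMap R E (algebraMap O R π) * algebraMap R E r := by
  set ϖR : R := algebraMap O R π with hϖR
  set ϖ : E := algebraMap R E ϖR with hϖ
  have hϖ0 : ϖ ≠ 0 := pi_ne_zero hyp
  have hinj : Function.Injective (algebraMap R E) := IsFractionRing.injective R E
  obtain ⟨v₀, hv₀, hav₀⟩ := ha₀
  have ha₀eq : a₀ = 1 + ϖ * v₀ := by rw [← hav₀]; ring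
  have ha₀V : a₀ ∈ V i := by
    rw [ha₀eq]
    exact add_mem (V i).one_mem (mul_mem (pi_mem hyp i) hv₀)
  have ha₀0 : a₀ ≠ 0 := by
    intro h0
    apply hyp.pi_not i
    have h2 : ϖ * (-v₀) = 1 := by
      have : ϖ * v₀ = -1 := by rw [← hav₀, h0]; ring
      rw [mul_neg, this, neg_neg]
    have h1 : ϖ⁻¹ = -v₀ := (eq_inv_of_mul_eq_one_right h2).symm ▸ rfl
    rw [← hϖ, h1]
    exact neg_mem hv₀
  -- an element of `P j` outside `n`
  obtain ⟨s₀, hs₀P, hs₀n⟩ := SetLike.not_le_iff_exists.mp hj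
  obtain ⟨z₀, hz₀, hsz₀⟩ := (hyp.mem_P j s₀).mp hs₀P
  change algebraMap R E s₀ = ϖ * z₀ at hsz₀
  -- `(a₀⁻¹ - 1) / ϖ = A / B`
  obtain ⟨A, B, hB, hAB⟩ := IsFractionRing.div_surjective (A := R) ((a₀⁻¹ - 1) / ϖ)
  have hB0 : algebraMap R E B ≠ 0 := by
    intro h0
    exact nonZeroDivisors.ne_zero hB (hinj (h0.trans (map_zero _).symm))
  -- the two elements to be made integral at `V j`
  set X₁ : E := (algebraMap R E B * ϖ)⁻¹ * ϖ⁻¹ with hX₁
  obtain ⟨k₁, hk₁⟩ := exists_pow_mul_mem hyp j X₁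
  obtain ⟨k₂, hk₂⟩ := exists_pow_mul_mem hyp j ((a₀ - 1) * X₁)
  set k : ℕ := max k₁ k₂ with hk
  set u : E := ϖ ^ k * X₁ * z₀ ^ k with hu
  have huV : u ∈ V j := mul_mem (hk₁ k (le_max_left _ _)) (pow_mem hz₀ k)
  have htV : (a₀ - 1) * u ∈ V j := by
    have : (a₀ - 1) * u = ϖ ^ k * ((a₀ - 1) * X₁) * z₀ ^ k := by rw [hu]; ring
    rw [this]
    exact mul_mem (hk₂ k (le_max_right _ _)) (pow_mem hz₀ k)
  set e : E := 1 + ϖ * u with he
  have heV : e⁻¹ ∈ V j := one_add_inv_mem hyp j huV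
  have he0 : e ≠ 0 := by
    intro h0
    apply hyp.pi_not j
    have h2 : ϖ * (-u) = 1 := by
      have : ϖ * u = -1 := by
        have := h0
        rw [he] at this
        linear_combination this
      rw [mul_neg, this, neg_neg]
    have h1 : ϖ⁻¹ = -u := (eq_inv_of_mul_eq_one_right h2).symm ▸ rfl
    rw [← hϖ, h1]
    exact neg_mem huV
  -- the denominator
  set den : R := B * ϖR + s₀ ^ k with hden
  have hden_n : den ∉ n := by
    intro h
    have h1 : s₀ ^ k ∈ n := by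
      have : s₀ ^ k = den - B * ϖR := by rw [hden]; ring
      rw [this]
      exact n.sub_mem h (n.mul_mem_left B hπn)
    exact hs₀n (hn.mem_of_pow_mem k h1)
  have hdenE : algebraMap R E den = algebraMap R E B * ϖ * e := by
    rw [hden, map_add, map_mul, ← hϖ, map_pow, hsz₀, he, hu, hX₁, mul_pow]
    field_simp
  have hden0 : algebraMap R E den ≠ 0 := by
    rw [hdenE]
    exact mul_ne_zero (mul_ne_zero hB0 hϖ0) he0
  set y : E := algebraMap R E (A * ϖR) / algebraMap R E den with hy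
  have hyV : y ∈ V i := by
    rw [hy, div_eq_mul_inv]
    exact mul_mem (hyp.le i _) (inv_mem_of_not_mem_P hyp i (fun h => hden_n (hi h)))
  -- the key identity
  have hkey : a₀ * (1 + ϖ * y) - 1 = ϖ * ((a₀ - 1) * u * e⁻¹) := by
    have h1 : algebraMap R E A * ϖ = (a₀⁻¹ - 1) * algebraMap R E B := by
      rw [div_eq_div_iff hB0 hϖ0] at hAB
      exact hAB
    have h2 : a₀ * (algebraMap R E A * ϖ) = (1 - a₀) * algebraMap R E B := by
      rw [h1, ← mul_assoc, mul_sub, mul_inv_cancel₀ ha₀0, mul_one]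
    have hy' : ϖ * y = algebraMap R E A * ϖ / (algebraMap R E B * e) := by
      rw [hy, hdenE, map_mul, ← hϖ]
      field_simp
    have he1 : e - 1 = ϖ * u := by rw [he]; ring
    calc a₀ * (1 + ϖ * y) - 1
        = (a₀ - 1) + a₀ * (algebraMap R E A * ϖ) / (algebraMap R E B * e) := by
          rw [mul_add, mul_one, hy']
          ring
      _ = (a₀ - 1) + (1 - a₀) * algebraMap R E B / (algebraMap R E B * e) := by rw [h2]
      _ = (a₀ - 1) * (e - 1) * e⁻¹ := by
          field_simp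
          ring
      _ = ϖ * ((a₀ - 1) * u * e⁻¹) := by
          rw [he1]
          ring
  refine ⟨a₀ * (1 + ϖ * y), ⟨v₀ + a₀ * y, add_mem hv₀ (mul_mem ha₀V hyV), ?_⟩,
    ⟨(a₀ - 1) * u * e⁻¹, mul_mem htV heV, hkey⟩, ?_⟩
  · rw [ha₀eq]; ring
  · obtain ⟨s, hs, r, hsr⟩ := hloc
    obtain ⟨C, hC⟩ := sub_dvd_pow_sub_pow (den + ϖR * (A * ϖR)) den m
    refine ⟨s * den ^ m, ?_, s * (A * ϖR * C) + r * (den + ϖR * (A * ϖR)) ^ m, ?_⟩
    · intro h
      rcases hn.mem_or_mem h with h | h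
      · exact hs h
      · exact hden_n (hn.mem_of_pow_mem m h)
    · have h1 : 1 + ϖ * y = algebraMap R E (den + ϖR * (A * ϖR)) / algebraMap R E den := by
        rw [hy, map_add (algebraMap R E) den (ϖR * (A * ϖR)),
          map_mul (algebraMap R E) ϖR (A * ϖR), ← hϖ]
        field_simp
      have h2 : algebraMap R E s * (w * a₀ ^ m) = algebraMap R E (s + ϖR * r) := by
        rw [map_add (algebraMap R E) s (ϖR * r), map_mul (algebraMap R E) ϖR r, ← hϖ]
        linear_combination hsr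
      have h3 : (den + ϖR * (A * ϖR)) ^ m = den ^ m + ϖR * (A * ϖR) * C := by
        have : den + ϖR * (A * ϖR) - den = ϖR * (A * ϖR) := by ring
        rw [this] at hC
        linear_combination hC
      have h4 : algebraMap R E (s * den ^ m) * (w * (a₀ * (1 + ϖ * y)) ^ m - 1)
          = algebraMap R E ((s + ϖR * r) * (den + ϖR * (A * ϖR)) ^ m - s * den ^ m) := by
        rw [h1, mul_pow, div_pow]
        simp only [map_sub, map_mul, map_pow]
        rw [← h2]
        field_simp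
      rw [h4, hϖ, ← map_mul]
      congr 1
      rw [h3]
      ring

/-- **[SmoothFix]** with the conclusion in the shape of `LocPlan.LocAStatement`. -/
theorem smoothFix_fin2 (hyp : LocPlan.ChartHyp π V P) (n : Ideal R) (hn : n.IsPrime)
    (hπn : algebraMap O R π ∈ n) (i j : Fin 2) (hij : i ≠ j) (hi : P i ≤ n) (hj : ¬ P j ≤ n)
    (w a₀ : E) (m : ℕ)
    (ha₀ : ∃ v ∈ V i, a₀ - 1 = algebraMap R E (algebraMap O R π) * v)
    (hloc : ∃ s : R, s ∉ n ∧ ∃ r : R, algebraMap R E s * (w * a₀ ^ m - 1) =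
      algebraMap R E (algebraMap O R π) * algebraMap R E r) :
    ∃ a : E, (∀ l : Fin 2, ∃ v ∈ V l, a - 1 = algebraMap R E (algebraMap O R π) * v) ∧
      ∃ s : R, s ∉ n ∧ ∃ r : R, algebraMap R E s * (w * a ^ m - 1) =
        algebraMap R E (algebraMap O R π) * algebraMap R E r := by
  obtain ⟨a, hai, haj, h⟩ := smoothFix hyp n hn hπn i j hi hj w a₀ m ha₀ hloc
  refine ⟨a, fun l => ?_, h⟩
  have hl : l = i ∨ l = j := by
    have h1 := l.2
    have h2 := i.2
    have h3 := j.2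
    have h4 : (i : ℕ) ≠ j := fun h => hij (Fin.ext h)
    rcases Nat.lt_or_ge (l : ℕ) 1 with h | h
    · by_cases h5 : (i : ℕ) = l
      · exact Or.inl (Fin.ext h5.symm)
      · exact Or.inr (Fin.ext (by omega))
    · by_cases h5 : (i : ℕ) = l
      · exact Or.inl (Fin.ext h5.symm)
      · exact Or.inr (Fin.ext (by omega))
  rcases hl with rfl | rfl
  · exact hai
  · exact haj

end Main

end Fermat.Agent.S35.SmoothFixB

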