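/-
S35 — LocFTop.lean (helper22; row (8)+(9)+(10) of the architect's deal, `S35/LocFPlan.lean`,
helper25): the three top leaves of the ABSTRACT block of [E].

* `smoothFixStatement : LocFPlan.SmoothFixStatement`   (= `SmoothFixB.smoothFix`);
* `hwF : LocFPlan.HwFStatement`                        (`w = Σ G / G ^ Q ≡ 1` modulo `π (V i)` if
                                                        `G ≡ 1` modulo `π (V i)`);
* `locF_of_leaves : LocF0Statement → SmoothFixStatement → LocFStatement`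
                                                       (case split on the branches through `n`:
                                                        both — nothing to do; exactly one —
                                                        `[SmoothFix]`; none — impossible, since
                                                        `P 0 ∩ P 1 = π R ⊆ n` and `n` is prime);
* `locF_of_locF0 : LocF0Statement → LocFStatement`     (the same with `[SmoothFix]` plugged in).
-/
import Mathlib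
import Fermat.Agent.S34.LocPlan
import Fermat.Agent.S35.LocFPlan
import Fermat.Agent.S35.SmoothFixB

set_option autoImplicit false

namespace Fermat.Agent.S35.LocFTop

open Fermat.Agent.S34 Fermat.Agent.S34.LocPlan Fermat.Agent.S35.LocFPlan

/-- **[SmoothFix]** in the shape of the plan. -/
theorem smoothFixStatement : SmoothFixStatement := by
  intro O _ R _ _ _ E _ _ _ π V P n i j w a₀ m hyp hn hπn hi hj ha₀ hloc
  exact SmoothFixB.smoothFix hyp n hn hπn i j hi hj w a₀ m ha₀ hloc

section Aux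

variable {O : Type*} [CommRing O] {R : Type*} [CommRing R] [Algebra O R]
  {E : Type*} [Field E] [Algebra R E]
  {π : O} {V : Fin 2 → ValuationSubring E} {P : Fin 2 → Ideal R}

/-- `1 + π v ≠ 0` for `v ∈ V i`. -/
theorem one_add_ne_zero (hyp : ChartHyp π V P) (i : Fin 2) {v : E} (hv : v ∈ V i) :
    1 + algebraMap R E (algebraMap O R π) * v ≠ 0 := by
  intro h0
  apply hyp.pi_not i
  have h2 : algebraMap R E (algebraMap O R π) * (-v) = 1 := by linear_combination -h0
  have h1 : -v = (algebraMap R E (algebraMap O R π))⁻¹ := eq_inv_of_mul_eq_one_right h2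
  rw [← h1]
  exact neg_mem hv

end Aux

/-- **[HwF]**: `w = Σ G / G ^ Q ≡ 1` modulo `π (V i)` if `G ≡ 1` modulo `π (V i)`. -/
theorem hwF : HwFStatement := by
  intro O _ R _ _ E _ _ π V P Sg Q G hyp hF hG i
  obtain ⟨z, hz, hGz⟩ := hG i
  obtain ⟨u, hu, -, hSu⟩ := hF.pi i
  have hϖV : algebraMap R E (algebraMap O R π) ∈ V i := hyp.le i _
  have hG1 : G = 1 + algebraMap R E (algebraMap O R π) * z := by rw [← hGz]; ring
  have hGV : G ∈ V i := by
    rw [hG1]
    exact add_mem (V i).one_mem (mul_mem hϖV hz)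
  -- `Σ G = 1 + π (u Σz)`
  have hSG : Sg G = 1 + algebraMap R E (algebraMap O R π) * (u * Sg z) := by
    rw [hG1, map_add, map_one, map_mul, hSu]
    ring
  -- `G ^ Q = 1 + π (z C)`, `C = 1 + G + ⋯ + G ^ (Q - 1)`
  have hCV : (∑ l ∈ Finset.range Q, G ^ l) ∈ V i := sum_mem (fun l _ => pow_mem hGV l)
  have hGQ : G ^ Q = 1 + algebraMap R E (algebraMap O R π) *
      (z * ∑ l ∈ Finset.range Q, G ^ l) := by
    have h := mul_geom_sum G Q
    rw [hGz] at h
    linear_combination -h
  have hzC : z * ∑ l ∈ Finset.range Q, G ^ l ∈ V i := mul_mem hz hCV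
  have hGQ0 : G ^ Q ≠ 0 := by
    rw [hGQ]
    exact one_add_ne_zero hyp i hzC
  have hinv : (G ^ Q)⁻¹ ∈ V i := by
    rw [hGQ]
    exact SmoothFixB.one_add_inv_mem hyp i hzC
  refine ⟨(u * Sg z - z * ∑ l ∈ Finset.range Q, G ^ l) * (G ^ Q)⁻¹,
    mul_mem (sub_mem (mul_mem hu (hF.map_V i z hz)) hzC) hinv, ?_⟩
  have h1 : Sg G - G ^ Q = algebraMap R E (algebraMap O R π) *
      (u * Sg z - z * ∑ l ∈ Finset.range Q, G ^ l) := by
    rw [hSG]
    nth_rewrite 1 [hGQ]
    ring
  show Sg G / G ^ Q - 1 = _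
  rw [div_sub_one hGQ0, h1, div_eq_mul_inv]
  ring

/-- **[LocF]** from `[LocF0]` and `[SmoothFix]`. -/
theorem locF_of_leaves (hF0 : LocF0Statement) (hSF : SmoothFixStatement) : LocFStatement := by
  intro O _ _ _ R _ _ _ _ _ E _ _ _ π V P Sg Q f H m n hπ hn hπn hm hyp
  obtain ⟨a₀, ha₀, hloc⟩ := hF0 O R E π V P Sg Q f H m n hπ hn hπn hm hyp
  by_cases h0 : P 0 ≤ n
  · by_cases h1 : P 1 ≤ n
    · exact ⟨a₀, Fin.forall_fin_two.mpr ⟨ha₀ 0 h0, ha₀ 1 h1⟩, hloc⟩
    · obtain ⟨a, hai, haj, h⟩ := hSF O R E π V P n 0 1 (wFun Sg Q (gFun Sg f H m)) a₀ m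
        hyp.chart hn.isPrime hπn h0 h1 (ha₀ 0 h0) hloc
      exact ⟨a, Fin.forall_fin_two.mpr ⟨hai, haj⟩, h⟩
  · have h1 : P 1 ≤ n := by
      by_contra h1
      obtain ⟨x₀, hx₀P, hx₀n⟩ := SetLike.not_le_iff_exists.mp h0
      obtain ⟨x₁, hx₁P, hx₁n⟩ := SetLike.not_le_iff_exists.mp h1
      obtain ⟨r', hr'⟩ := hyp.chart.red (x₀ * x₁)
        (Fin.forall_fin_two.mpr ⟨(P 0).mul_mem_right _ hx₀P, (P 1).mul_mem_left _ hx₁P⟩)
      have hmem : x₀ * x₁ ∈ n := by
        rw [hr']
        exact n.mul_mem_right _ hπn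
      rcases hn.isPrime.mem_or_mem hmem with h | h
      · exact hx₀n h
      · exact hx₁n h
    obtain ⟨a, hai, haj, h⟩ := hSF O R E π V P n 1 0 (wFun Sg Q (gFun Sg f H m)) a₀ m
      hyp.chart hn.isPrime hπn h1 h0 (ha₀ 1 h1) hloc
    exact ⟨a, Fin.forall_fin_two.mpr ⟨haj, hai⟩, h⟩

/-- **[LocF]** from `[LocF0]` alone. -/
theorem locF_of_locF0 (hF0 : LocF0Statement) : LocFStatement :=
  locF_of_leaves hF0 smoothFixStatement

end Fermat.Agent.S35.LocFTop
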