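/-
S35, [E]-abstract block — NodeNorm.lean (helper28).  Mathlib + the vocabulary of `S34/LocPlan.lean`
and `S35/LocFPlan.lean`.

**[LocG]: normal form of a Kummer generator at a closed point of the special fibre**
(`locGStatement : LocFPlan.LocGStatement`, B-copy; static, no automorphism).

Setting of `LocPlan.ChartHyp`: a chart `R` (noetherian domain, fraction field `E`) over a discrete
valuation ring `O` with uniformizer `π`, the two component valuation rings `V 0`, `V 1`, the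
vertical primes `P i = R ∩ π (V i)`, reduced special fibre `P 0 ∩ P 1 = π R`; `n` a closed point
at which each branch through `n` is regular (`n / P i` locally principal, `P i ≠ n`) and the
branches are transversal where they cross (`P 0 + P 1 = n` locally).

If `G = g ^ m * u` with `u` a unit at `n` and `G ≡ 1` modulo `π (V i)` on the branches through
`n`, then `G = g₀ ^ m * u₀` with `u₀ ∈ 1 + π R_n` and

* `node_normal_form` (both branches through `n`; the `m`-th roots of unity of `R / n` represented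
  by constants): `g₀ ≡ 1` modulo `π (V 0)`, `g₀ ≡ γ` modulo `π (V 1)` for a CONSTANT `γ ∈ Oˣ` with
  `γ ^ m ≡ 1` modulo `π` (the gluing constant of the class at the crossing point);
* `smooth_normal_form` (one branch `P i` through `n`): `g₀ ≡ 1` modulo `π (V i)`.

Steps: `unitAt_P` (`V i` is the local ring of `R` at `P i`), `exists_branch_decomp` (the branch
`(R / P i)_n` is a discrete valuation ring), `branch_unit` ([BranchUnit]: an element whose `m`-th
power is a unit of the branch at `n` is a unit of the branch at `n`), then gluing along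
`R_n / π = D₀ ×_k D₁`.
-/
import Mathlib
import Fermat.Agent.S34.LocPlan
import Fermat.Agent.S34.KrullStmt
import Fermat.Agent.S35.LocFPlan

set_option autoImplicit false

namespace Fermat.Agent.S35.NodeNorm

open Fermat.Agent.S34 Fermat.Agent.S34.LocPlan Fermat.Agent.S35

/-! ### Valuation subrings with a uniformizer -/

section Val

variable {E : Type*} [Field E] (W : ValuationSubring E)

theorem val_eq_one {x : E} (hx0 : x ≠ 0) (hx : x ∈ W) (hx' : x⁻¹ ∈ W) : W.valuation x = 1 := by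
  have h1 := (W.valuation_le_one_iff x).2 hx
  have h2 := (W.valuation_le_one_iff x⁻¹).2 hx'
  rw [map_inv₀] at h2
  have h0 : 0 < W.valuation x := by
    rw [pos_iff_ne_zero, ne_eq, map_eq_zero]
    exact hx0
  exact le_antisymm h1 ((inv_le_one₀ h0).1 h2)

theorem val_unif_lt {p : E} (hp : p⁻¹ ∉ W) : W.valuation p < 1 := by
  by_contra h
  rw [not_lt] at h
  apply hp
  rw [← W.valuation_le_one_iff, map_inv₀]
  exact inv_le_one_of_one_le₀ h

theorem unif_ne_zero {p : E} (hp : p⁻¹ ∉ W) : p ≠ 0 := by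
  rintro rfl
  apply hp
  rw [inv_zero]
  exact W.zero_mem

/-- In a valuation ring `W` in which every nonzero element is `p ^ k * unit`, the maximal ideal
is `p W`. -/
theorem val_lt_one_iff {p : E} (hp : p⁻¹ ∉ W) (hpW : p ∈ W)
    (hdisc : ∀ x : E, x ≠ 0 → ∃ k : ℤ, ∃ u ∈ W, u⁻¹ ∈ W ∧ x = p ^ k * u) (x : E) :
    W.valuation x < 1 ↔ ∃ z ∈ W, x = p * z := by
  have hplt := val_unif_lt W hp
  have hp0 := unif_ne_zero W hp
  constructor
  · intro hlt
    by_cases hx0 : x = 0
    · exact ⟨0, W.zero_mem, by rw [hx0, mul_zero]⟩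
    · obtain ⟨k, u, hu, hu', hk⟩ := hdisc x hx0
      have hu0 : u ≠ 0 := by
        rintro rfl
        rw [mul_zero] at hk
        exact hx0 hk
      have hvu : W.valuation u = 1 := val_eq_one W hu0 hu hu'
      rw [hk, map_mul, hvu, mul_one, map_zpow₀] at hlt
      rcases le_or_gt k 0 with hk0 | hk0
      · exfalso
        obtain ⟨j, rfl⟩ : ∃ j : ℕ, k = -(j : ℤ) := ⟨(-k).toNat, by omega⟩
        rw [zpow_neg, zpow_natCast] at hlt
        have h3 : W.valuation p ^ j ≤ 1 := pow_le_one₀ zero_le hplt.le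
        have h4 : W.valuation p ^ j ≠ 0 := by
          apply pow_ne_zero
          rw [ne_eq, map_eq_zero]
          exact hp0
        have h5 : 1 ≤ (W.valuation p ^ j)⁻¹ := (one_le_inv₀ (pos_iff_ne_zero.2 h4)).2 h3
        exact absurd hlt (not_lt.2 h5)
      · obtain ⟨j, rfl⟩ : ∃ j : ℕ, k = (j : ℤ) + 1 := ⟨(k - 1).toNat, by omega⟩
        refine ⟨p ^ j * u, W.mul_mem _ _ (pow_mem hpW j) hu, ?_⟩
        rw [hk, zpow_add_one₀ hp0, zpow_natCast]
        ring
  · rintro ⟨z, hz, rfl⟩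
    rw [map_mul]
    exact lt_of_le_of_lt (mul_le_of_le_one_right' ((W.valuation_le_one_iff z).2 hz)) hplt

end Val

/-! ### Consequences of `ChartHyp` -/

section Chart

variable {O : Type*} [CommRing O] {R : Type*} [CommRing R] [Algebra O R]
  {E : Type*} [Field E] [Algebra R E]
  {π : O} {V : Fin 2 → ValuationSubring E} {P : Fin 2 → Ideal R}

/-- congruence modulo `π (V i)` in valuation form. -/
theorem cong_iff (h : ChartHyp π V P) (i : Fin 2) (x : E) :
    (V i).valuation x < 1 ↔ ∃ z ∈ V i, x = algebraMap R E (algebraMap O R π) * z :=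
  val_lt_one_iff (V i) (h.pi_not i) (h.le i _) (h.disc i) x

theorem val_le (h : ChartHyp π V P) (i : Fin 2) (r : R) :
    (V i).valuation (algebraMap R E r) ≤ 1 :=
  ((V i).valuation_le_one_iff _).2 (h.le i r)

theorem mem_P_iff (h : ChartHyp π V P) (i : Fin 2) (r : R) :
    r ∈ P i ↔ (V i).valuation (algebraMap R E r) < 1 := by
  rw [h.mem_P, cong_iff h]

theorem val_eq_one_of_notMem (h : ChartHyp π V P) (i : Fin 2) {r : R} (hr : r ∉ P i) :
    (V i).valuation (algebraMap R E r) = 1 := by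
  rw [mem_P_iff h, not_lt] at hr
  exact le_antisymm (val_le h i r) hr

theorem isPrime_P (h : ChartHyp π V P) (i : Fin 2) : (P i).IsPrime := by
  refine ⟨?_, ?_⟩
  · rw [Ideal.ne_top_iff_one, mem_P_iff h, map_one, map_one]
    exact lt_irrefl 1
  · intro a b hab
    rw [mem_P_iff h, map_mul, map_mul] at hab
    by_contra hcon
    rw [not_or] at hcon
    rw [val_eq_one_of_notMem h i hcon.1, val_eq_one_of_notMem h i hcon.2, one_mul] at hab
    exact lt_irrefl 1 hab

theorem pi_mem_P (h : ChartHyp π V P) (i : Fin 2) : algebraMap O R π ∈ P i :=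
  (h.mem_P i _).2 ⟨1, (V i).one_mem, by rw [mul_one]⟩

theorem pi_ne_zero (h : ChartHyp π V P) : algebraMap O R π ≠ 0 := by
  intro h0
  apply h.pi_not 0
  rw [h0, map_zero, inv_zero]
  exact (V 0).zero_mem

theorem fin_two_cases {i j : Fin 2} (hji : j ≠ i) (i' : Fin 2) : i' = i ∨ i' = j := by
  have h1 : (j : ℕ) ≠ (i : ℕ) := fun e => hji (Fin.ext e)
  have h2 := i.isLt
  have h3 := j.isLt
  have h4 := i'.isLt
  rcases Nat.lt_or_ge (i' : ℕ) 1 with h5 | h5
  · rcases Nat.lt_or_ge (i : ℕ) 1 with h6 | h6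
    · exact Or.inl (Fin.ext (by omega))
    · exact Or.inr (Fin.ext (by omega))
  · rcases Nat.lt_or_ge (i : ℕ) 1 with h6 | h6
    · exact Or.inr (Fin.ext (by omega))
    · exact Or.inl (Fin.ext (by omega))

/-- `P i` is locally generated by `π` as soon as the other vertical prime is not contained in
it. -/
theorem gen_P (h : ChartHyp π V P) {i j : Fin 2} (hij : ∃ s ∈ P j, s ∉ P i) :
    ∀ y ∈ P i, ∃ s : R, s ∉ P i ∧ ∃ c : R, s * y = c * algebraMap O R π := by
  obtain ⟨s, hsj, hsi⟩ := hij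
  have hji : j ≠ i := by
    rintro rfl
    exact hsi hsj
  intro y hy
  obtain ⟨r', hr'⟩ := h.red (s * y) (fun i' => by
    rcases fin_two_cases hji i' with rfl | rfl
    · exact Ideal.mul_mem_left _ _ hy
    · exact Ideal.mul_mem_right _ _ hsj)
  exact ⟨s, hsi, r', by rw [hr', mul_comm]⟩

variable [IsDomain R] [IsNoetherianRing R] [IsFractionRing R E]

/-- `V i` is the local ring of `R` at `P i`: an element of valuation one is a unit at `P i`. -/
theorem unitAt_P (h : ChartHyp π V P) {i j : Fin 2} (hij : ∃ s ∈ P j, s ∉ P i) {g : E}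
    (hg : (V i).valuation g = 1) : UnitAt (P i) g := by
  have := isPrime_P h i
  have hg0 : g ≠ 0 := by
    rintro rfl
    rw [map_zero] at hg
    exact zero_ne_one hg
  have hne : P i ≠ ⊥ := fun hb => pi_ne_zero h (by
    have := pi_mem_P h i
    rw [hb] at this
    exact this)
  obtain ⟨k, a, s, ha, hs, hk⟩ :=
    KrullStmt.exists_zpow_unitAt (E := E) hne (pi_mem_P h i) (gen_P h hij) hg0
  have hv := congrArg (V i).valuation hk
  rw [map_mul, map_mul, hg, one_mul, val_eq_one_of_notMem h i ha, val_eq_one_of_notMem h i hs,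
    mul_one, map_zpow₀] at hv
  have hplt : (V i).valuation (algebraMap R E (algebraMap O R π)) < 1 :=
    val_unif_lt (V i) (h.pi_not i)
  have hp0 : 0 < (V i).valuation (algebraMap R E (algebraMap O R π)) := by
    rw [pos_iff_ne_zero, ne_eq, map_eq_zero]
    exact unif_ne_zero (V i) (h.pi_not i)
  have hk0 : k = 0 := (zpow_right_strictAnti₀ hp0 hplt).injective (by simpa using hv)
  subst hk0
  exact ⟨a, s, ha, hs, by simpa using hk⟩

end Chart

/-! ### The branch at a closed point is a discrete valuation ring -/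

section Branch

variable {R : Type*} [CommRing R] [IsNoetherianRing R]

/-- On a branch `R / 𝔭` which is regular at the closed point `n` (`n / 𝔭` locally generated by
`u`), every element outside `𝔭` is, locally at `n` and modulo `𝔭`, a unit times a power of `u`. -/
theorem exists_branch_decomp (𝔭 n : Ideal R) [h𝔭 : 𝔭.IsPrime] (hn : n.IsMaximal) (hle : 𝔭 ≤ n)
    (hx : ∃ x ∈ n, x ∉ 𝔭) {u : R} (hu : u ∈ n)
    (hgen : ∀ x ∈ n, ∃ s : R, s ∉ n ∧ ∃ c : R, s * x - c * u ∈ 𝔭) {a : R} (ha : a ∉ 𝔭) :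
    ∃ (k : ℕ) (s c : R), s ∉ n ∧ c ∉ n ∧ a * s - c * u ^ k ∈ 𝔭 := by
  have hsurj : Function.Surjective (Ideal.Quotient.mk 𝔭) := Ideal.Quotient.mk_surjective
  have hmem : ∀ x : R, Ideal.Quotient.mk 𝔭 x ∈ n.map (Ideal.Quotient.mk 𝔭) ↔ x ∈ n :=
    fun x => Ideal.mem_quotient_iff_mem hle
  have hnp : n.IsPrime := hn.isPrime
  have : (n.map (Ideal.Quotient.mk 𝔭)).IsPrime :=
    Ideal.map_isPrime_of_surjective hsurj (by rw [Ideal.mk_ker]; exact hle)
  have hne : n.map (Ideal.Quotient.mk 𝔭) ≠ ⊥ := by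
    obtain ⟨x, hxn, hxp⟩ := hx
    intro hb
    have h1 : Ideal.Quotient.mk 𝔭 x ∈ n.map (Ideal.Quotient.mk 𝔭) := (hmem x).2 hxn
    rw [hb, Ideal.mem_bot, Ideal.Quotient.eq_zero_iff_mem] at h1
    exact hxp h1
  have hgen' : ∀ y ∈ n.map (Ideal.Quotient.mk 𝔭), ∃ s : R ⧸ 𝔭,
      s ∉ n.map (Ideal.Quotient.mk 𝔭) ∧ ∃ c : R ⧸ 𝔭, s * y = c * Ideal.Quotient.mk 𝔭 u := by
    intro y hy
    obtain ⟨y₀, rfl⟩ := hsurj y
    obtain ⟨s, hs, c, hc⟩ := hgen y₀ ((hmem y₀).1 hy)
    refine ⟨Ideal.Quotient.mk 𝔭 s, fun hs' => hs ((hmem s).1 hs'), Ideal.Quotient.mk 𝔭 c, ?_⟩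
    rw [← map_mul, ← map_mul]
    exact (Ideal.Quotient.eq).2 hc
  have ha' : Ideal.Quotient.mk 𝔭 a ≠ 0 := fun h0 => ha (Ideal.Quotient.eq_zero_iff_mem.1 h0)
  obtain ⟨k, s, c, hs, hc, e⟩ :=
    KrullStmt.exists_pow_decomp hne ((hmem u).2 hu) hgen' ha'
  obtain ⟨s₀, rfl⟩ := hsurj s
  obtain ⟨c₀, rfl⟩ := hsurj c
  refine ⟨k, s₀, c₀, fun hs' => hs ((hmem s₀).2 hs'), fun hc' => hc ((hmem c₀).2 hc'), ?_⟩
  rw [← map_pow, ← map_mul, ← map_mul] at e
  exact (Ideal.Quotient.eq).1 e

end Branch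

/-! ### Auxiliary congruence calculus -/

section Aux

theorem aux_pow_cancel {R : Type*} [CommRing R] {𝔭 n : Ideal R} (h𝔭 : 𝔭.IsPrime)
    (hle : 𝔭 ≤ n) {u : R} (hun : u ∈ n) (hup : u ∉ 𝔭) {X Y : R} (hX : X ∉ n) {m : ℕ}
    (hm : 0 < m) (k d : ℕ)
    (h : X * u ^ (m * k) - Y * u ^ (m * (k + d + 1)) ∈ 𝔭) : False := by
  have e : X * u ^ (m * k) - Y * u ^ (m * (k + d + 1))
      = u ^ (m * k) * (X - Y * u ^ (m * (d + 1))) := by ring
  rw [e] at h
  rcases h𝔭.mem_or_mem h with h1 | h1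
  · exact hup (h𝔭.mem_of_pow_mem _ h1)
  · apply hX
    have h2 : Y * u ^ (m * (d + 1)) ∈ n :=
      Ideal.mul_mem_left _ _ (Ideal.pow_mem_of_mem _ hun _ (Nat.mul_pos hm (Nat.succ_pos d)))
    have h3 := n.add_mem (hle h1) h2
    simpa using h3

variable {E : Type*} [Field E] (W : ValuationSubring E)

theorem val_pow_sub_pow_lt {x y : E} (hx : W.valuation x ≤ 1) (hy : W.valuation y ≤ 1)
    (hxy : W.valuation (x - y) < 1) (m : ℕ) : W.valuation (x ^ m - y ^ m) < 1 := by
  induction m with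
  | zero => simp
  | succ k ih =>
    have e : x ^ (k + 1) - y ^ (k + 1) = x ^ k * (x - y) + (x ^ k - y ^ k) * y := by ring
    rw [e]
    apply (W.valuation).map_add_lt
    · rw [map_mul]
      exact lt_of_le_of_lt (mul_le_of_le_one_left' (by rw [map_pow]; exact pow_le_one₀ zero_le hx))
        hxy
    · rw [map_mul]
      exact lt_of_le_of_lt (mul_le_of_le_one_right' hy) ih

theorem val_eq_one_of_sub_lt {x y : E} (hy : W.valuation y = 1) (hxy : W.valuation (x - y) < 1) :
    W.valuation x = 1 := by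
  have := (W.valuation).map_eq_of_sub_lt (x := y) (y := x) (by rw [hy]; exact hxy)
  rw [this, hy]

end Aux

/-! ### [BranchUnit] -/

section Node

variable {O : Type*} [CommRing O] {R : Type*} [CommRing R] [Algebra O R]
  {E : Type*} [Field E] [Algebra R E]
  {π : O} {V : Fin 2 → ValuationSubring E} {P : Fin 2 → Ideal R}
  [IsDomain R] [IsNoetherianRing R] [IsFractionRing R E]

/-- **[BranchUnit]**: if `g ^ m * U ≡ 1` modulo `π (V i)` with `U` a unit at the closed point `n`
of the branch `P i` (regular at `n`), then `g` is congruent modulo `π (V i)` to a unit at `n`. -/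
theorem branch_unit (h : ChartHyp π V P) {i j : Fin 2} (hij : ∃ s ∈ P j, s ∉ P i)
    {n : Ideal R} (hn : n.IsMaximal) (hPn : P i ≤ n) (hx : ∃ x ∈ n, x ∉ P i)
    {u : R} (hu : u ∈ n) (hgen : ∀ x ∈ n, ∃ s : R, s ∉ n ∧ ∃ c : R, s * x - c * u ∈ P i)
    {m : ℕ} (hm : 0 < m) {g U : E} (hU : UnitAt n U)
    (hgU : (V i).valuation (g ^ m * U - 1) < 1) :
    ∃ a s : R, a ∉ n ∧ s ∉ n ∧
      (V i).valuation (algebraMap R E s * g - algebraMap R E a) < 1 := by
  have hprime := isPrime_P h i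
  have hnp : n.IsPrime := hn.isPrime
  have hnotP : ∀ {r : R}, r ∉ n → r ∉ P i := fun hr hrP => hr (hPn hrP)
  have hone : ∀ {r : R}, r ∉ n → (V i).valuation (algebraMap R E r) = 1 :=
    fun hr => val_eq_one_of_notMem h i (hnotP hr)
  obtain ⟨a_u, s_u, ha_u, hs_u, hU'⟩ := hU
  have hvU : (V i).valuation U = 1 := by
    have h1 := congrArg (V i).valuation hU'
    rw [map_mul, hone hs_u, mul_one, hone ha_u] at h1
    exact h1
  have hvgU : (V i).valuation (g ^ m * U) = 1 :=
    val_eq_one_of_sub_lt (V i) (map_one _) hgU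
  have hvg : (V i).valuation g = 1 := by
    rw [map_mul, hvU, mul_one, map_pow] at hvgU
    exact (pow_eq_one_iff_of_nonneg zero_le hm.ne').1 hvgU
  obtain ⟨a₀, s₀, ha₀, hs₀, hg'⟩ := unitAt_P h hij hvg
  obtain ⟨ka, ta, ca, hta, hca, hA⟩ := exists_branch_decomp (P i) n hn hPn hx hu hgen ha₀
  obtain ⟨ks, ts, cs, hts, hcs, hS⟩ := exists_branch_decomp (P i) n hn hPn hx hu hgen hs₀
  -- the relation `a₀ ^ m * a_u ≡ s₀ ^ m * s_u` modulo `P i`
  have hN1 : a₀ ^ m * a_u - s₀ ^ m * s_u ∈ P i := by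
    rw [mem_P_iff h]
    have e : algebraMap R E (a₀ ^ m * a_u - s₀ ^ m * s_u)
        = (g ^ m * U - 1) * (algebraMap R E s₀ ^ m * algebraMap R E s_u) := by
      rw [map_sub, map_mul, map_mul, map_pow, map_pow, ← hg', ← hU']
      ring
    rw [e, map_mul]
    refine lt_of_le_of_lt (mul_le_of_le_one_right' ?_) hgU
    rw [map_mul, map_pow]
    exact mul_le_one' (pow_le_one₀ zero_le (val_le h i s₀)) (val_le h i s_u)
  have huP : u ∉ P i := by
    obtain ⟨x, hxn, hxP⟩ := hx
    obtain ⟨s, hs, c, hc⟩ := hgen x hxn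
    intro huP
    have h1 : s * x ∈ P i := by
      have h2 := (P i).add_mem hc ((P i).mul_mem_left c huP)
      simpa using h2
    rcases hprime.mem_or_mem h1 with h3 | h3
    · exact hs (hPn h3)
    · exact hxP h3
  -- the key congruence
  have key : ca ^ m * ts ^ m * a_u * u ^ (m * ka) - cs ^ m * ta ^ m * s_u * u ^ (m * ks) ∈ P i := by
    have e : ca ^ m * ts ^ m * a_u * u ^ (m * ka) - cs ^ m * ta ^ m * s_u * u ^ (m * ks)
        = ts ^ m * a_u * ((ca * u ^ ka) ^ m - (a₀ * ta) ^ m)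
          + (ta * ts) ^ m * (a₀ ^ m * a_u - s₀ ^ m * s_u)
          + ta ^ m * s_u * ((s₀ * ts) ^ m - (cs * u ^ ks) ^ m) := by ring
    rw [e]
    refine (P i).add_mem ((P i).add_mem ((P i).mul_mem_left _ ?_) ((P i).mul_mem_left _ hN1))
      ((P i).mul_mem_left _ ?_)
    · obtain ⟨c, hc⟩ := sub_dvd_pow_sub_pow (ca * u ^ ka) (a₀ * ta) m
      rw [hc]
      apply (P i).mul_mem_right
      have h1 := (P i).neg_mem hA
      rwa [neg_sub] at h1
    · obtain ⟨c, hc⟩ := sub_dvd_pow_sub_pow (s₀ * ts) (cs * u ^ ks) m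
      rw [hc]
      exact (P i).mul_mem_right _ hS
  have hAn : ca ^ m * ts ^ m * a_u ∉ n := fun hmem => by
    rcases hnp.mem_or_mem hmem with h1 | h1
    · rcases hnp.mem_or_mem h1 with h2 | h2
      · exact hca (hnp.mem_of_pow_mem _ h2)
      · exact hts (hnp.mem_of_pow_mem _ h2)
    · exact ha_u h1
  have hBn : cs ^ m * ta ^ m * s_u ∉ n := fun hmem => by
    rcases hnp.mem_or_mem hmem with h1 | h1
    · rcases hnp.mem_or_mem h1 with h2 | h2
      · exact hcs (hnp.mem_of_pow_mem _ h2)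
      · exact hta (hnp.mem_of_pow_mem _ h2)
    · exact hs_u h1
  have hk : ka = ks := by
    rcases lt_trichotomy ka ks with hlt | heq | hgt
    · exfalso
      obtain ⟨d, rfl⟩ : ∃ d, ks = ka + d + 1 := ⟨ks - ka - 1, by omega⟩
      exact aux_pow_cancel hprime hPn hu huP hAn hm ka d key
    · exact heq
    · exfalso
      obtain ⟨d, rfl⟩ : ∃ d, ka = ks + d + 1 := ⟨ka - ks - 1, by omega⟩
      have key' := (P i).neg_mem key
      rw [neg_sub] at key'
      exact aux_pow_cancel hprime hPn hu huP hBn hm ks d key'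
  subst hk
  have hN : cs * ta * a₀ - ca * ts * s₀ ∈ P i := by
    have e : cs * ta * a₀ - ca * ts * s₀
        = cs * (a₀ * ta - ca * u ^ ka) - ca * (s₀ * ts - cs * u ^ ka) := by ring
    rw [e]
    exact (P i).sub_mem ((P i).mul_mem_left _ hA) ((P i).mul_mem_left _ hS)
  refine ⟨ca * ts, cs * ta, hnp.mul_notMem hca hts, hnp.mul_notMem hcs hta, ?_⟩
  have e2 : (algebraMap R E (cs * ta) * g - algebraMap R E (ca * ts)) * algebraMap R E s₀
      = algebraMap R E (cs * ta * a₀ - ca * ts * s₀) := by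
    rw [map_sub, map_mul, map_mul, map_mul, map_mul, map_mul, map_mul, ← hg']
    ring
  have h3 := congrArg (V i).valuation e2
  rw [map_mul, val_eq_one_of_notMem h i hs₀, mul_one] at h3
  rw [h3]
  exact (mem_P_iff h i _).1 hN

end Node

/-! ### The normal form at a crossing point -/

section Main

variable {O : Type*} [CommRing O] [IsDomain O] [IsDiscreteValuationRing O]
  {R : Type*} [CommRing R] [IsDomain R] [IsNoetherianRing R] [Algebra O R]
  {E : Type*} [Field E] [Algebra R E] [IsFractionRing R E]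
  {π : O} {V : Fin 2 → ValuationSubring E} {P : Fin 2 → Ideal R}

omit [IsDomain R] [IsNoetherianRing R] in
/-- a constant which does not vanish at a closed point of the special fibre is a unit of `O`. -/
theorem isUnit_of_notMem {n : Ideal R} (hπ : Irreducible π) (hπn : algebraMap O R π ∈ n)
    {c : O} (hc : algebraMap O R c ∉ n) : IsUnit c := by
  by_contra hcu
  have h1 : c ∈ IsLocalRing.maximalIdeal O := (IsLocalRing.mem_maximalIdeal c).2 hcu
  rw [hπ.maximalIdeal_eq, Ideal.mem_span_singleton] at h1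
  obtain ⟨d, rfl⟩ := h1
  apply hc
  rw [map_mul]
  exact Ideal.mul_mem_right _ _ hπn

omit [IsDomain R] [IsNoetherianRing R] in
/-- a constant which vanishes at a closed point of the special fibre is divisible by `π`. -/
theorem dvd_of_mem {n : Ideal R} (hπ : Irreducible π) (hn : n.IsMaximal)
    {c : O} (hc : algebraMap O R c ∈ n) : ∃ δ : O, c = π * δ := by
  by_contra hcon
  have h1 : c ∉ IsLocalRing.maximalIdeal O := by
    rw [hπ.maximalIdeal_eq, Ideal.mem_span_singleton]
    rintro ⟨d, rfl⟩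
    exact hcon ⟨d, rfl⟩
  have h2 : IsUnit c := by
    by_contra h3
    exact h1 ((IsLocalRing.mem_maximalIdeal c).2 h3)
  exact hn.ne_top (Ideal.eq_top_of_isUnit_mem _ hc (h2.map (algebraMap O R)))

/-- **Normal form at a crossing point** (see the header). -/
theorem node_normal_form (hπ : Irreducible π) (h : ChartHyp π V P) {n : Ideal R}
    (hn : n.IsMaximal) (hP : ∀ i : Fin 2, P i ≤ n)
    (hbr : ∀ i : Fin 2, (∃ x ∈ n, x ∉ P i) ∧
      ∃ u ∈ n, ∀ x ∈ n, ∃ s : R, s ∉ n ∧ ∃ c : R, s * x - c * u ∈ P i)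
    (htr : ∀ x ∈ n, ∃ s : R, s ∉ n ∧ s * x ∈ P 0 ⊔ P 1)
    {m : ℕ} (hm : 0 < m)
    (hroot : ∀ x : R, x ^ m - 1 ∈ n → ∃ c : O, x - algebraMap O R c ∈ n)
    {G g u : E} (hu : UnitAt n u) (hG : G = g ^ m * u)
    (hG1 : ∀ i : Fin 2, ∃ z ∈ V i, G - 1 = algebraMap R E (algebraMap O R π) * z) :
    ∃ (g₀ : E) (γ : O), g₀ ≠ 0 ∧ IsUnit γ ∧ (∃ δ : O, γ ^ m - 1 = π * δ) ∧
      (∃ z ∈ V 0, g₀ - 1 = algebraMap R E (algebraMap O R π) * z) ∧
      (∃ z ∈ V 1, g₀ - algebraMap R E (algebraMap O R γ)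
        = algebraMap R E (algebraMap O R π) * z) ∧
      ∃ s : R, s ∉ n ∧ ∃ r : R,
        algebraMap R E s * (G / g₀ ^ m - 1)
          = algebraMap R E (algebraMap O R π) * algebraMap R E r := by
  have hnp : n.IsPrime := hn.isPrime
  have hinj : Function.Injective (algebraMap R E) := IsFractionRing.injective R E
  have hπn : algebraMap O R π ∈ n := hP 0 (pi_mem_P h 0)
  have hne0 : ∀ {r : R}, r ∉ n → algebraMap R E r ≠ 0 := fun {r} hr h0 =>
    hr (by rw [hinj (h0.trans (map_zero _).symm)]; exact n.zero_mem)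
  have hone : ∀ (i : Fin 2) {r : R}, r ∉ n → (V i).valuation (algebraMap R E r) = 1 :=
    fun i {r} hr => val_eq_one_of_notMem h i (fun hrP => hr (hP i hrP))
  -- the two vertical primes are incomparable
  have h01 : ∃ s ∈ P 1, s ∉ P 0 := by
    by_contra hcon
    obtain ⟨x, hxn, hxP⟩ := (hbr 0).1
    obtain ⟨s, hs, hsx⟩ := htr x hxn
    have hle : P 0 ⊔ P 1 = P 0 :=
      sup_eq_left.2 (fun y hy => by_contra (fun hy0 => hcon ⟨y, hy, hy0⟩))
    rw [hle] at hsx
    rcases (isPrime_P h 0).mem_or_mem hsx with h1 | h1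
    · exact hs (hP 0 h1)
    · exact hxP h1
  have h10 : ∃ s ∈ P 0, s ∉ P 1 := by
    by_contra hcon
    obtain ⟨x, hxn, hxP⟩ := (hbr 1).1
    obtain ⟨s, hs, hsx⟩ := htr x hxn
    have hle : P 0 ⊔ P 1 = P 1 :=
      sup_eq_right.2 (fun y hy => by_contra (fun hy1 => hcon ⟨y, hy, hy1⟩))
    rw [hle] at hsx
    rcases (isPrime_P h 1).mem_or_mem hsx with h1 | h1
    · exact hs (hP 1 h1)
    · exact hxP h1
  -- congruences of `G` in valuation form
  have hGv : ∀ i : Fin 2, (V i).valuation (g ^ m * u - 1) < 1 := fun i => by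
    rw [← hG]
    exact (cong_iff h i _).2 (hG1 i)
  -- [BranchUnit] on both branches
  obtain ⟨u0, hu0, hgen0⟩ := (hbr 0).2
  obtain ⟨u1, hu1, hgen1⟩ := (hbr 1).2
  obtain ⟨a0, s0, ha0, hs0, hb0⟩ :=
    branch_unit h h01 hn (hP 0) (hbr 0).1 hu0 hgen0 hm hu (hGv 0)
  obtain ⟨a1, s1, ha1, hs1, hb1⟩ :=
    branch_unit h h10 hn (hP 1) (hbr 1).1 hu1 hgen1 hm hu (hGv 1)
  -- `g ≠ 0`
  have hg0 : g ≠ 0 := by
    rintro rfl
    rw [mul_zero, zero_sub, Valuation.map_neg, hone 0 ha0] at hb0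
    exact lt_irrefl 1 hb0
  -- the relations `a_i ^ m * a_u ≡ s_i ^ m * s_u` modulo `P i`
  obtain ⟨a_u, s_u, ha_u, hs_u, hu'⟩ := id hu
  have hrel : ∀ (i : Fin 2) (a s : R),
      (V i).valuation (algebraMap R E s * g - algebraMap R E a) < 1 →
      a ^ m * a_u - s ^ m * s_u ∈ P i := by
    intro i a s hb
    rw [mem_P_iff h]
    have hsg : (V i).valuation (algebraMap R E s * g) ≤ 1 := by
      have e : algebraMap R E s * g = (algebraMap R E s * g - algebraMap R E a) + algebraMap R E a := by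
        ring
      rw [e]
      exact (V i).valuation.map_add_le hb.le (val_le h i a)
    have e : algebraMap R E (a ^ m * a_u - s ^ m * s_u)
        = algebraMap R E s ^ m * algebraMap R E s_u * (g ^ m * u - 1)
          - ((algebraMap R E s * g) ^ m - algebraMap R E a ^ m) * algebraMap R E a_u := by
      simp only [map_sub, map_mul, map_pow]
      rw [← hu']
      ring
    rw [e]
    apply (V i).valuation.map_sub_lt
    · rw [map_mul]
      refine lt_of_le_of_lt (mul_le_of_le_one_left' ?_) (hGv i)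
      rw [map_mul, map_pow]
      exact mul_le_one' (pow_le_one₀ zero_le (val_le h i s)) (val_le h i s_u)
    · rw [map_mul]
      exact lt_of_le_of_lt (mul_le_of_le_one_right' (val_le h i a_u))
        (val_pow_sub_pow_lt (V i) hsg (val_le h i a) hb m)
  have hr0 := hrel 0 a0 s0 hb0
  have hr1 := hrel 1 a1 s1 hb1
  -- `(a1 * s0) ^ m ≡ (a0 * s1) ^ m` modulo `n`
  have hpow : (a1 * s0) ^ m - (a0 * s1) ^ m ∈ n := by
    have h1 : ((a1 * s0) ^ m - (a0 * s1) ^ m) * a_u ∈ n := by
      have e : ((a1 * s0) ^ m - (a0 * s1) ^ m) * a_u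
          = s0 ^ m * (a1 ^ m * a_u - s1 ^ m * s_u) - s1 ^ m * (a0 ^ m * a_u - s0 ^ m * s_u) := by
        ring
      rw [e]
      exact n.sub_mem (n.mul_mem_left _ (hP 1 hr1)) (n.mul_mem_left _ (hP 0 hr0))
    rcases hnp.mem_or_mem h1 with h2 | h2
    · exact h2
    · exact absurd h2 ha_u
  -- the gluing constant: an `m`-th root of unity of `R / n`, represented by `γ ∈ O`
  have ha0s1 : a0 * s1 ∉ n := hnp.mul_notMem ha0 hs1
  obtain ⟨y, hy⟩ : ∃ y : R, a0 * s1 * y - 1 ∈ n := by
    obtain ⟨y, i, hi, hyi⟩ := hn.exists_inv ha0s1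
    refine ⟨y, ?_⟩
    have e : a0 * s1 * y - 1 = -i := by linear_combination hyi
    rw [e]
    exact n.neg_mem hi
  have hxm : (a1 * s0 * y) ^ m - 1 ∈ n := by
    have e : (a1 * s0 * y) ^ m - 1
        = ((a1 * s0) ^ m - (a0 * s1) ^ m) * y ^ m + ((a0 * s1 * y) ^ m - 1 ^ m) := by ring
    rw [e]
    refine n.add_mem (n.mul_mem_right _ hpow) ?_
    obtain ⟨c, hc⟩ := sub_dvd_pow_sub_pow (a0 * s1 * y) 1 m
    rw [hc]
    exact n.mul_mem_right _ hy
  obtain ⟨γ, hγ⟩ := hroot _ hxm
  set Γ : R := algebraMap O R γ with hΓdef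
  -- the common value at `n`
  have hx01 : a0 * s1 * Γ - a1 * s0 ∈ n := by
    have e : a0 * s1 * Γ - a1 * s0
        = -(a0 * s1) * (a1 * s0 * y - Γ) + a1 * s0 * (a0 * s1 * y - 1) := by ring
    rw [e]
    exact n.add_mem (n.mul_mem_left _ hγ) (n.mul_mem_left _ hy)
  have hΓn : Γ ∉ n := fun hmem => by
    have h1 : a1 * s0 ∈ n := by
      have h2 := n.sub_mem (n.mul_mem_left (a0 * s1) hmem) hx01
      rwa [sub_sub_cancel] at h2
    exact (hnp.mul_notMem ha1 hs0) h1
  have hγu : IsUnit γ := isUnit_of_notMem hπ hπn hΓn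
  obtain ⟨t, ht, htx⟩ := htr _ hx01
  obtain ⟨p0, hp0, p1, hp1, hsum⟩ := Submodule.mem_sup.1 htx
  -- the unit `S = r / d` at `n`
  set r : R := t * (a0 * s1 * Γ) - p0 with hrdef
  have hr' : r = t * (a1 * s0) + p1 := by
    rw [hrdef]
    linear_combination -hsum
  have hrn : r ∉ n := fun hmem => by
    have h1 : t * (a0 * s1 * Γ) ∈ n := by
      have h2 := n.add_mem hmem (hP 0 hp0)
      rw [hrdef, sub_add_cancel] at h2
      exact h2
    rcases hnp.mem_or_mem h1 with h2 | h2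
    · exact ht h2
    · rcases hnp.mem_or_mem h2 with h3 | h3
      · rcases hnp.mem_or_mem h3 with h4 | h4
        · exact ha0 h4
        · exact hs1 h4
      · exact hΓn h3
  set d : R := t * s0 * s1 * Γ with hddef
  have hdn : d ∉ n :=
    hnp.mul_notMem (hnp.mul_notMem (hnp.mul_notMem ht hs0) hs1) hΓn
  have hd0 : algebraMap R E d ≠ 0 := hne0 hdn
  have hr0 : algebraMap R E r ≠ 0 := hne0 hrn
  set S : E := algebraMap R E r / algebraMap R E d with hSdef
  have hS0 : S ≠ 0 := div_ne_zero hr0 hd0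
  have hSv : ∀ i : Fin 2, (V i).valuation S = 1 := fun i => by
    rw [hSdef, map_div₀, hone i hrn, hone i hdn, div_one]
  have hSd : S * algebraMap R E d = algebraMap R E r := div_mul_cancel₀ _ hd0
  -- `S ≡ g` on branch 0
  have hSg0 : (V 0).valuation (g - S) < 1 := by
    have e : (g - S) * algebraMap R E d
        = algebraMap R E (t * s1 * Γ) * (algebraMap R E s0 * g - algebraMap R E a0)
          + algebraMap R E p0 := by
      rw [sub_mul, hSd, hrdef, hddef]
      simp only [map_sub, map_mul]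
      ring
    have h1 := congrArg (V 0).valuation e
    rw [map_mul, hone 0 hdn, mul_one] at h1
    rw [h1]
    apply (V 0).valuation.map_add_lt
    · rw [map_mul]
      exact lt_of_le_of_lt (mul_le_of_le_one_left' (val_le h 0 _)) hb0
    · exact (mem_P_iff h 0 _).1 hp0
  -- `Γ S ≡ g` on branch 1
  have hSg1 : (V 1).valuation (g - algebraMap R E Γ * S) < 1 := by
    have e : (g - algebraMap R E Γ * S) * algebraMap R E d
        = algebraMap R E (Γ * t * s0) * (algebraMap R E s1 * g - algebraMap R E a1)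
          - algebraMap R E (Γ * p1) := by
      rw [sub_mul, mul_assoc, hSd, hr', hddef]
      simp only [map_add, map_mul]
      ring
    have h1 := congrArg (V 1).valuation e
    rw [map_mul, hone 1 hdn, mul_one] at h1
    rw [h1]
    apply (V 1).valuation.map_sub_lt
    · rw [map_mul]
      exact lt_of_le_of_lt (mul_le_of_le_one_left' (val_le h 1 _)) hb1
    · exact (mem_P_iff h 1 _).1 ((P 1).mul_mem_left _ hp1)
  -- the normalised root
  set g₀ : E := g / S with hg₀def
  have hg₀0 : g₀ ≠ 0 := div_ne_zero hg0 hS0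
  have hg₀1 : (V 0).valuation (g₀ - 1) < 1 := by
    have e : g₀ - 1 = (g - S) / S := by
      rw [hg₀def]
      field_simp
    rw [e, map_div₀, hSv 0, div_one]
    exact hSg0
  have hΓv : (V 1).valuation (algebraMap R E Γ) = 1 := hone 1 hΓn
  have hg₀γ : (V 1).valuation (g₀ - algebraMap R E Γ) < 1 := by
    have e : g₀ - algebraMap R E Γ = (g - algebraMap R E Γ * S) / S := by
      rw [hg₀def]
      field_simp
    rw [e, map_div₀, hSv 1, div_one]
    exact hSg1
  have hg₀v0 : (V 0).valuation g₀ = 1 := val_eq_one_of_sub_lt (V 0) (map_one _) hg₀1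
  have hg₀v1 : (V 1).valuation g₀ = 1 := val_eq_one_of_sub_lt (V 1) hΓv hg₀γ
  -- the unit `u₀ = G / g₀ ^ m = a' / s'`
  set a' : R := a_u * r ^ m with ha'def
  set s' : R := s_u * d ^ m with hs'def
  have ha'n : a' ∉ n := hnp.mul_notMem ha_u (fun hmem => hrn (hnp.mem_of_pow_mem _ hmem))
  have hs'n : s' ∉ n := hnp.mul_notMem hs_u (fun hmem => hdn (hnp.mem_of_pow_mem _ hmem))
  have hu₀ : G / g₀ ^ m * algebraMap R E s' = algebraMap R E a' := by
    have e1 : G / g₀ ^ m = u * S ^ m := by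
      rw [hG, hg₀def, div_pow]
      field_simp
    rw [e1, hs'def, ha'def, map_mul, map_mul, map_pow, map_pow, ← hu', ← hSd]
    ring
  -- `u₀ ≡ 1` on branch 0
  have hGv0 : (V 0).valuation (G - 1) < 1 := (cong_iff h 0 _).2 (hG1 0)
  have hGv1 : (V 1).valuation (G - 1) < 1 := (cong_iff h 1 _).2 (hG1 1)
  have hpow0 : (V 0).valuation (g₀ ^ m - 1) < 1 := by
    have h1 := val_pow_sub_pow_lt (V 0) hg₀v0.le (map_one _).le hg₀1 m
    rwa [one_pow] at h1
  have hpow1 : (V 1).valuation (g₀ ^ m - algebraMap R E Γ ^ m) < 1 :=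
    val_pow_sub_pow_lt (V 1) hg₀v1.le hΓv.le hg₀γ m
  have hmem0 : a' - s' ∈ P 0 := by
    rw [mem_P_iff h]
    have e : algebraMap R E (a' - s')
        = ((G - 1) - (g₀ ^ m - 1)) / g₀ ^ m * algebraMap R E s' := by
      rw [map_sub, ← hu₀]
      field_simp
      ring
    rw [e, map_mul, map_div₀, map_pow, hg₀v0, one_pow, div_one, hone 0 hs'n, mul_one]
    exact (V 0).valuation.map_sub_lt hGv0 hpow0
  have hmem1 : Γ ^ m * a' - s' ∈ P 1 := by
    rw [mem_P_iff h]
    have e : algebraMap R E (Γ ^ m * a' - s')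
        = (algebraMap R E Γ ^ m * (G - 1) - (g₀ ^ m - algebraMap R E Γ ^ m)) / g₀ ^ m
          * algebraMap R E s' := by
      rw [map_sub, map_mul, map_pow, ← hu₀]
      field_simp
      ring
    rw [e, map_mul, map_div₀, map_pow, hg₀v1, one_pow, div_one, hone 1 hs'n, mul_one]
    apply (V 1).valuation.map_sub_lt _ hpow1
    rw [map_mul, map_pow, hΓv, one_pow, one_mul]
    exact hGv1
  -- `γ ^ m ≡ 1` modulo `π`
  have hγm : algebraMap O R (γ ^ m - 1) ∈ n := by
    have h1 : algebraMap O R (γ ^ m - 1) * a' ∈ n := by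
      have e : algebraMap O R (γ ^ m - 1) * a' = (Γ ^ m * a' - s') - (a' - s') := by
        rw [map_sub, map_pow, map_one]
        ring
      rw [e]
      exact n.sub_mem (hP 1 hmem1) (hP 0 hmem0)
    rcases hnp.mem_or_mem h1 with h2 | h2
    · exact h2
    · exact absurd h2 ha'n
  obtain ⟨δ, hδ⟩ := dvd_of_mem hπ hn hγm
  have hmem1' : a' - s' ∈ P 1 := by
    have e : a' - s' = (Γ ^ m * a' - s') - algebraMap O R π * (algebraMap O R δ * a') := by
      have e1 : Γ ^ m = 1 + algebraMap O R π * algebraMap O R δ := by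
        rw [hΓdef, ← map_pow, ← map_mul, ← hδ, map_sub, map_one]
        ring
      rw [e1]
      ring
    rw [e]
    exact (P 1).sub_mem hmem1 ((P 1).mul_mem_right _ (pi_mem_P h 1))
  obtain ⟨r', hr'⟩ := h.red (a' - s') (fun i => by
    rcases fin_two_cases (i := 0) (j := 1) (by decide) i with rfl | rfl
    · exact hmem0
    · exact hmem1')
  refine ⟨g₀, γ, hg₀0, hγu, ⟨δ, hδ⟩, (cong_iff h 0 _).1 hg₀1, (cong_iff h 1 _).1 hg₀γ,
    s', hs'n, r', ?_⟩
  rw [mul_sub, mul_one, mul_comm, hu₀, ← map_sub, hr', map_mul]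

/-! ### The normal form at a point on one branch only -/

omit [IsDomain O] [IsDiscreteValuationRing O] in
/-- **Normal form at a one-branch point**: `P i ≤ n`, `¬ P j ≤ n`. -/
theorem smooth_normal_form (h : ChartHyp π V P) {n : Ideal R} (hn : n.IsMaximal) {i j : Fin 2}
    (hPi : P i ≤ n) (hPj : ¬ P j ≤ n)
    (hbr : (∃ x ∈ n, x ∉ P i) ∧
      ∃ u ∈ n, ∀ x ∈ n, ∃ s : R, s ∉ n ∧ ∃ c : R, s * x - c * u ∈ P i)
    {m : ℕ} (hm : 0 < m) {G g u : E} (hu : UnitAt n u) (hG : G = g ^ m * u)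
    (hG1 : ∃ z ∈ V i, G - 1 = algebraMap R E (algebraMap O R π) * z) :
    ∃ g₀ : E, g₀ ≠ 0 ∧ (∃ z ∈ V i, g₀ - 1 = algebraMap R E (algebraMap O R π) * z) ∧
      ∃ s : R, s ∉ n ∧ ∃ r : R,
        algebraMap R E s * (G / g₀ ^ m - 1)
          = algebraMap R E (algebraMap O R π) * algebraMap R E r := by
  have hnp : n.IsPrime := hn.isPrime
  have hinj : Function.Injective (algebraMap R E) := IsFractionRing.injective R E
  have hne0 : ∀ {r : R}, r ∉ n → algebraMap R E r ≠ 0 := fun {r} hr h0 =>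
    hr (by rw [hinj (h0.trans (map_zero _).symm)]; exact n.zero_mem)
  have hone : ∀ {r : R}, r ∉ n → (V i).valuation (algebraMap R E r) = 1 :=
    fun {r} hr => val_eq_one_of_notMem h i (fun hrP => hr (hPi hrP))
  obtain ⟨t, htj, htn⟩ := SetLike.not_le_iff_exists.1 hPj
  have hij : ∃ s ∈ P j, s ∉ P i := ⟨t, htj, fun h' => htn (hPi h')⟩
  have hji : j ≠ i := by
    rintro rfl
    exact hPj hPi
  have hGv : (V i).valuation (g ^ m * u - 1) < 1 := by
    rw [← hG]
    exact (cong_iff h i _).2 hG1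
  obtain ⟨u0, hu0, hgen0⟩ := hbr.2
  obtain ⟨a0, s0, ha0, hs0, hb0⟩ := branch_unit h hij hn hPi hbr.1 hu0 hgen0 hm hu hGv
  have hg0 : g ≠ 0 := by
    rintro rfl
    rw [mul_zero, zero_sub, Valuation.map_neg, hone ha0] at hb0
    exact lt_irrefl 1 hb0
  have ha00 : algebraMap R E a0 ≠ 0 := hne0 ha0
  have hs00 : algebraMap R E s0 ≠ 0 := hne0 hs0
  set S : E := algebraMap R E a0 / algebraMap R E s0 with hSdef
  have hS0 : S ≠ 0 := div_ne_zero ha00 hs00
  have hSs : S * algebraMap R E s0 = algebraMap R E a0 := div_mul_cancel₀ _ hs00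
  set g₀ : E := g / S with hg₀def
  have hg₀0 : g₀ ≠ 0 := div_ne_zero hg0 hS0
  have hg₀1 : (V i).valuation (g₀ - 1) < 1 := by
    have e : g₀ - 1 = (algebraMap R E s0 * g - algebraMap R E a0) / algebraMap R E a0 := by
      rw [hg₀def, hSdef]
      field_simp
    rw [e, map_div₀, hone ha0, div_one]
    exact hb0
  have hg₀v : (V i).valuation g₀ = 1 := val_eq_one_of_sub_lt (V i) (map_one _) hg₀1
  obtain ⟨a_u, s_u, ha_u, hs_u, hu'⟩ := hu
  set a' : R := a_u * a0 ^ m with ha'def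
  set s' : R := s_u * s0 ^ m with hs'def
  have ha'n : a' ∉ n := hnp.mul_notMem ha_u (fun hmem => ha0 (hnp.mem_of_pow_mem _ hmem))
  have hs'n : s' ∉ n := hnp.mul_notMem hs_u (fun hmem => hs0 (hnp.mem_of_pow_mem _ hmem))
  have hu₀ : G / g₀ ^ m * algebraMap R E s' = algebraMap R E a' := by
    have e1 : G / g₀ ^ m = u * S ^ m := by
      rw [hG, hg₀def, div_pow]
      field_simp
    rw [e1, hs'def, ha'def, map_mul, map_mul, map_pow, map_pow, ← hu', ← hSs]
    ring
  have hGv' : (V i).valuation (G - 1) < 1 := (cong_iff h i _).2 hG1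
  have hpow : (V i).valuation (g₀ ^ m - 1) < 1 := by
    have h1 := val_pow_sub_pow_lt (V i) hg₀v.le (map_one _).le hg₀1 m
    rwa [one_pow] at h1
  have hmem : a' - s' ∈ P i := by
    rw [mem_P_iff h]
    have e : algebraMap R E (a' - s')
        = ((G - 1) - (g₀ ^ m - 1)) / g₀ ^ m * algebraMap R E s' := by
      rw [map_sub, ← hu₀]
      field_simp
      ring
    rw [e, map_mul, map_div₀, map_pow, hg₀v, one_pow, div_one, hone hs'n, mul_one]
    exact (V i).valuation.map_sub_lt hGv' hpow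
  obtain ⟨r', hr'⟩ := h.red (t * (a' - s')) (fun i' => by
    rcases fin_two_cases hji i' with rfl | rfl
    · exact (P _).mul_mem_left _ hmem
    · exact (P _).mul_mem_right _ htj)
  refine ⟨g₀, hg₀0, (cong_iff h i _).1 hg₀1, t * s', hnp.mul_notMem htn hs'n, r', ?_⟩
  have e : algebraMap R E (t * s') * (G / g₀ ^ m - 1)
      = algebraMap R E t * (G / g₀ ^ m * algebraMap R E s' - algebraMap R E s') := by
    rw [map_mul]
    ring
  rw [e, hu₀, ← map_sub, ← map_mul, hr', map_mul]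

end Main

/-! ### [LocG] in the vocabulary of `S35/LocFPlan.lean` -/

/-- **[LocG]** (`LocFPlan.LocGStatement`). -/
theorem locGStatement : LocFPlan.LocGStatement := by
  intro O _ _ _ R _ _ _ _ _ E _ _ _ π V P m n G g u hπ hn hπn hm hC hbr htr hroot hG hu hG1
  have hnp : n.IsPrime := hn.isPrime
  by_cases h0 : P 0 ≤ n
  · by_cases h1 : P 1 ≤ n
    · -- crossing point
      have hP : ∀ i : Fin 2, P i ≤ n := fun i => by
        rcases fin_two_cases (i := 0) (j := 1) (by decide) i with rfl | rfl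
        · exact h0
        · exact h1
      obtain ⟨g₀, γ, hg₀, -, hγ, hc0, hc1, hs⟩ :=
        node_normal_form hπ hC hn hP (fun i => hbr i (hP i)) (htr h0 h1) hm (hroot h0 h1) hu hG
          (fun i => hG1 i (hP i))
      exact ⟨g₀, γ, hg₀, hγ, fun hcon => absurd ⟨h0, h1⟩ hcon, fun _ => hc0, fun _ => hc1, hs⟩
    · -- only branch 0
      obtain ⟨g₀, hg₀, hc0, hs⟩ :=
        smooth_normal_form hC hn h0 h1 (hbr 0 h0) hm hu hG (hG1 0 h0)
      exact ⟨g₀, 1, hg₀, ⟨0, by rw [one_pow, sub_self, mul_zero]⟩, fun _ => rfl, fun _ => hc0,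
        fun h1' => absurd h1' h1, hs⟩
  · by_cases h1 : P 1 ≤ n
    · -- only branch 1
      obtain ⟨g₀, hg₀, hc1, hs⟩ :=
        smooth_normal_form hC hn h1 h0 (hbr 1 h1) hm hu hG (hG1 1 h1)
      refine ⟨g₀, 1, hg₀, ⟨0, by rw [one_pow, sub_self, mul_zero]⟩, fun _ => rfl,
        fun h0' => absurd h0' h0, fun _ => ?_, hs⟩
      rw [map_one, map_one]
      exact hc1
    · -- impossible: `π ∈ n` and `P 0 ∩ P 1 = π R`
      exfalso
      obtain ⟨x, hx0, hxn⟩ := SetLike.not_le_iff_exists.1 h0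
      obtain ⟨y, hy1, hyn⟩ := SetLike.not_le_iff_exists.1 h1
      obtain ⟨r', hr'⟩ := hC.red (x * y) (fun i => by
        rcases fin_two_cases (i := 0) (j := 1) (by decide) i with rfl | rfl
        · exact (P 0).mul_mem_right _ hx0
        · exact (P 1).mul_mem_left _ hy1)
      have hxy : x * y ∈ n := by
        rw [hr']
        exact n.mul_mem_right _ hπn
      rcases hnp.mem_or_mem hxy with h2 | h2
      · exact hxn h2
      · exact hyn h2

end Fermat.Agent.S35.NodeNorm
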