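import Mathlib
import Fermat.Agent.S34.LocPlan
import Fermat.Agent.S35.LocFPlan

/-!
# S35, abstract block of [E], leaf (4) [YG]  (owner: helper41)

`yg_of_decomp : DecompStatement → YGStatement`: at every closed point `n` of the special fibre,
`G = gFun Sg f H m = secondDiff Sg Sg f * H ^ m` is an `m`-th power times a unit of `R_n`.

Proof: `Σ` restricts to an automorphism `resR` of `R` (`FrobHyp.map_R`, `symm_R`); put
`n₁ = Σ⁻¹ n = n.comap resR`, `n₂ = Σ⁻¹ n₁`.  Both are closed points of the special fibre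
(`Σ π ∈ P 0 ⊓ P 1 = π R`), and `n₁ = n` (resp. `n₂ = n₁`) at a crossing point (`LocFHyp.node`).
`[Decomp]` at `(n, n₁)` and at `(n₁, n₂)`: `Σf/f = g₁ ^ m ε₁` with `ε₁ ∈ R_nˣ` and
`Σf/f = g₂ ^ m ε₂` with `ε₂ ∈ R_{n₁}ˣ`; hence
`G = Σ(Σf/f) / (Σf/f) · H ^ m = (Σ g₂ / g₁ · H) ^ m · (Σ ε₂ / ε₁)` and `Σ ε₂ ∈ R_nˣ`.

Also exported (reusable by the other leaves): `resR`, `pre` (`Σ⁻¹` of an ideal), `isPre_pre`,
`pi_mem_pre`, `pre_isMaximal`, `pre_eq_of_fixedBy`, `unitAt_map`, `unitAt_div`.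
-/

set_option autoImplicit false

namespace Fermat.Agent.S35.YG

open Fermat.Agent.S34.LocPlan Fermat.Agent.S35.LocFPlan

section Res

set_option linter.unusedSectionVars false

variable {R : Type*} [CommRing R] [IsDomain R]
  {E : Type*} [Field E] [Algebra R E] [IsFractionRing R E]

/-- The restriction to `R` of an automorphism of `E` which maps `R` into `R`. -/
noncomputable def resR (Sg : E ≃+* E)
    (h : ∀ r : R, ∃ r' : R, Sg (algebraMap R E r) = algebraMap R E r') : R →+* R where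
  toFun r := (h r).choose
  map_one' := by
    apply IsFractionRing.injective R E
    calc algebraMap R E (h 1).choose = Sg (algebraMap R E 1) := ((h 1).choose_spec).symm
      _ = algebraMap R E 1 := by simp
  map_mul' a b := by
    apply IsFractionRing.injective R E
    calc algebraMap R E (h (a * b)).choose = Sg (algebraMap R E (a * b)) :=
          ((h (a * b)).choose_spec).symm
      _ = Sg (algebraMap R E a) * Sg (algebraMap R E b) := by simp
      _ = algebraMap R E (h a).choose * algebraMap R E (h b).choose :=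
          congrArg₂ (· * ·) (h a).choose_spec (h b).choose_spec
      _ = algebraMap R E ((h a).choose * (h b).choose) := (map_mul _ _ _).symm
  map_zero' := by
    apply IsFractionRing.injective R E
    calc algebraMap R E (h 0).choose = Sg (algebraMap R E 0) := ((h 0).choose_spec).symm
      _ = algebraMap R E 0 := by simp
  map_add' a b := by
    apply IsFractionRing.injective R E
    calc algebraMap R E (h (a + b)).choose = Sg (algebraMap R E (a + b)) :=
          ((h (a + b)).choose_spec).symm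
      _ = Sg (algebraMap R E a) + Sg (algebraMap R E b) := by simp
      _ = algebraMap R E (h a).choose + algebraMap R E (h b).choose :=
          congrArg₂ (· + ·) (h a).choose_spec (h b).choose_spec
      _ = algebraMap R E ((h a).choose + (h b).choose) := (map_add _ _ _).symm

theorem algebraMap_resR (Sg : E ≃+* E)
    (h : ∀ r : R, ∃ r' : R, Sg (algebraMap R E r) = algebraMap R E r') (r : R) :
    algebraMap R E (resR Sg h r) = Sg (algebraMap R E r) :=
  ((h r).choose_spec).symm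

theorem resR_eq (Sg : E ≃+* E)
    (h : ∀ r : R, ∃ r' : R, Sg (algebraMap R E r) = algebraMap R E r') {r r' : R}
    (hr : Sg (algebraMap R E r) = algebraMap R E r') : resR Sg h r = r' := by
  apply IsFractionRing.injective R E
  rw [algebraMap_resR, hr]

theorem resR_surjective (Sg : E ≃+* E)
    (h : ∀ r : R, ∃ r' : R, Sg (algebraMap R E r) = algebraMap R E r')
    (h' : ∀ r : R, ∃ r' : R, Sg.symm (algebraMap R E r) = algebraMap R E r') :
    Function.Surjective (resR Sg h) := by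
  intro r
  obtain ⟨r', hr'⟩ := h' r
  refine ⟨r', ?_⟩
  apply IsFractionRing.injective R E
  rw [algebraMap_resR, ← hr', RingEquiv.apply_symm_apply]

/-- `Σ⁻¹ n` as an ideal of `R`. -/
noncomputable def pre (Sg : E ≃+* E)
    (h : ∀ r : R, ∃ r' : R, Sg (algebraMap R E r) = algebraMap R E r') (n : Ideal R) : Ideal R :=
  n.comap (resR Sg h)

theorem mem_pre (Sg : E ≃+* E)
    (h : ∀ r : R, ∃ r' : R, Sg (algebraMap R E r) = algebraMap R E r') (n : Ideal R) (r : R) :
    r ∈ pre Sg h n ↔ resR Sg h r ∈ n :=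
  Ideal.mem_comap

theorem isPre_pre (Sg : E ≃+* E)
    (h : ∀ r : R, ∃ r' : R, Sg (algebraMap R E r) = algebraMap R E r') (n : Ideal R) :
    IsPre Sg (pre Sg h n) n := by
  intro r r' hr
  rw [mem_pre, resR_eq Sg h hr]

theorem pre_isMaximal (Sg : E ≃+* E)
    (h : ∀ r : R, ∃ r' : R, Sg (algebraMap R E r) = algebraMap R E r')
    (h' : ∀ r : R, ∃ r' : R, Sg.symm (algebraMap R E r) = algebraMap R E r')
    {n : Ideal R} (hn : n.IsMaximal) : (pre Sg h n).IsMaximal :=
  Ideal.comap_isMaximal_of_surjective (resR Sg h) (resR_surjective Sg h h')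

/-- A `Σ`-stable ideal is its own preimage. -/
theorem pre_eq_of_fixedBy (Sg : E ≃+* E)
    (h : ∀ r : R, ∃ r' : R, Sg (algebraMap R E r) = algebraMap R E r') {n : Ideal R}
    (hfix : FixedBy Sg n) : pre Sg h n = n := by
  ext r
  rw [mem_pre]
  exact (hfix r (resR Sg h r) (algebraMap_resR Sg h r).symm).symm

/-- `Σ` maps units of `R_{Σ⁻¹ n}` to units of `R_n`. -/
theorem unitAt_map (Sg : E ≃+* E)
    (h : ∀ r : R, ∃ r' : R, Sg (algebraMap R E r) = algebraMap R E r') {n : Ideal R} {x : E}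
    (hx : UnitAt (pre Sg h n) x) : UnitAt n (Sg x) := by
  obtain ⟨a, s, ha, hs, hxs⟩ := hx
  refine ⟨resR Sg h a, resR Sg h s, fun hmem => ha ((mem_pre Sg h n a).2 hmem),
    fun hmem => hs ((mem_pre Sg h n s).2 hmem), ?_⟩
  rw [algebraMap_resR, algebraMap_resR, ← map_mul, hxs]

theorem unitAt_ne_zero {n : Ideal R} {x : E} (hx : UnitAt n x) : x ≠ 0 := by
  obtain ⟨a, s, ha, -, hxs⟩ := hx
  rintro rfl
  rw [zero_mul] at hxs
  have : a = 0 := IsFractionRing.injective R E (by rw [← hxs, map_zero])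
  exact ha (this ▸ n.zero_mem)

theorem unitAt_div {n : Ideal R} (hn : n.IsPrime) {x y : E} (hx : UnitAt n x)
    (hy : UnitAt n y) : UnitAt n (x / y) := by
  have hy0 := unitAt_ne_zero hy
  obtain ⟨a, s, ha, hs, hxs⟩ := hx
  obtain ⟨a', s', ha', hs', hys⟩ := hy
  refine ⟨a * s', s * a', fun hmem => ?_, fun hmem => ?_, ?_⟩
  · rcases hn.mem_or_mem hmem with h | h
    · exact ha h
    · exact hs' h
  · rcases hn.mem_or_mem hmem with h | h
    · exact hs h
    · exact ha' h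
  · rw [map_mul, map_mul, ← hxs, ← hys]
    field_simp

end Res

section Pi

variable {O : Type*} [CommRing O] {R : Type*} [CommRing R] [IsDomain R] [Algebra O R]
  {E : Type*} [Field E] [Algebra R E] [IsFractionRing R E]

/-- `Σ π ∈ π R`: the preimage under `Σ` of an ideal containing `π` contains `π`. -/
theorem pi_mem_pre {π : O} {V : Fin 2 → ValuationSubring E} {P : Fin 2 → Ideal R}
    {Sg : E ≃+* E} {Q : ℕ} (hC : ChartHyp π V P) (hF : FrobHyp (R := R) π V Sg Q)
    {n : Ideal R} (hπn : algebraMap O R π ∈ n) :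
    algebraMap O R π ∈ pre Sg hF.map_R n := by
  rw [mem_pre]
  have hP : ∀ i : Fin 2, resR Sg hF.map_R (algebraMap O R π) ∈ P i := by
    intro i
    obtain ⟨u, hu, -, hSg⟩ := hF.pi i
    exact (hC.mem_P i _).2 ⟨u, hu, by rw [algebraMap_resR, hSg]⟩
  obtain ⟨r', hr'⟩ := hC.red _ hP
  rw [hr']
  exact n.mul_mem_right r' hπn

end Pi

/-- **[YG]** from **[Decomp]**. -/
theorem yg_of_decomp (hD : DecompStatement) : YGStatement := by
  intro O _ _ _ R _ _ _ _ _ E _ _ _ π V P Sg Q f H m n hπ hn hπn hm hyp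
  have hmapR := hyp.frob.map_R
  have hsymmR := hyp.frob.symm_R
  -- the points `n₁ = Σ⁻¹ n`, `n₂ = Σ⁻¹ n₁`
  have hn₁ : (pre Sg hmapR n).IsMaximal := pre_isMaximal Sg hmapR hsymmR hn
  have hn₂ : (pre Sg hmapR (pre Sg hmapR n)).IsMaximal := pre_isMaximal Sg hmapR hsymmR hn₁
  have hπn₁ : algebraMap O R π ∈ pre Sg hmapR n := pi_mem_pre hyp.chart hyp.frob hπn
  have hπn₂ : algebraMap O R π ∈ pre Sg hmapR (pre Sg hmapR n) :=
    pi_mem_pre hyp.chart hyp.frob hπn₁
  have hnode₁ : P 0 ≤ n → P 1 ≤ n → pre Sg hmapR n = n := fun h0 h1 =>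
    pre_eq_of_fixedBy Sg hmapR (hyp.node n hn hπn h0 h1)
  have hnode₂ : P 0 ≤ pre Sg hmapR n → P 1 ≤ pre Sg hmapR n →
      pre Sg hmapR (pre Sg hmapR n) = pre Sg hmapR n := fun h0 h1 =>
    pre_eq_of_fixedBy Sg hmapR (hyp.node _ hn₁ hπn₁ h0 h1)
  -- the two decompositions of the first difference
  obtain ⟨g₁, ε₁, hg₁, hd₁, hu₁⟩ := hD O R E π V P Sg Q f m n (pre Sg hmapR n) hπ hn hn₁ hπn
    hyp.f_ne hm hyp.chart hyp.frob (isPre_pre Sg hmapR n) hnode₁ (hyp.hor n hn hπn)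
    (hyp.hor _ hn₁ hπn₁)
  obtain ⟨g₂, ε₂, hg₂, hd₂, hu₂⟩ := hD O R E π V P Sg Q f m (pre Sg hmapR n)
    (pre Sg hmapR (pre Sg hmapR n)) hπ hn₁ hn₂ hπn₁ hyp.f_ne hm hyp.chart hyp.frob
    (isPre_pre Sg hmapR _) hnode₂ (hyp.hor _ hn₁ hπn₁) (hyp.hor _ hn₂ hπn₂)
  have hf := hyp.f_ne
  have hε₁ : ε₁ ≠ 0 := unitAt_ne_zero hu₁
  have hSf : Sg f ≠ 0 := fun h0 => hf ((map_eq_zero_iff Sg Sg.injective).1 h0)
  refine ⟨Sg g₂ / g₁ * H, Sg ε₂ / ε₁, ?_, unitAt_div hn.isPrime (unitAt_map Sg hmapR hu₂) hu₁⟩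
  -- the identity `G = (Σ g₂ / g₁ · H) ^ m · (Σ ε₂ / ε₁)`
  unfold firstDiff at hd₁ hd₂
  have e1 : Sg f = f * (g₁ ^ m * ε₁) := by
    rw [← hd₁]
    field_simp
  have e2 : Sg f = f * (g₂ ^ m * ε₂) := by
    rw [← hd₂]
    field_simp
  have e3 : Sg (Sg f) = Sg f * (Sg g₂ ^ m * Sg ε₂) := by
    conv_lhs => rw [e2]
    rw [map_mul, map_mul, map_pow]
  unfold gFun secondDiff
  rw [e3]
  have h1 : Sg f * (Sg g₂ ^ m * Sg ε₂) * f / (Sg f * Sg f) = Sg g₂ ^ m * Sg ε₂ * f / Sg f := by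
    field_simp
  rw [h1, mul_pow, div_pow]
  conv_lhs => rw [e1]
  have hg₁m : g₁ ^ m ≠ 0 := pow_ne_zero m hg₁
  field_simp

end Fermat.Agent.S35.YG
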