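import Mathlib
import Fermat.Agent.S35.LocFPlan
import Fermat.Agent.S35.DecompB
import Fermat.Agent.S35.YG
import Fermat.Agent.S35.NodeNorm
import Fermat.Agent.S35.LocF0
import Fermat.Agent.S35.LocFTop

/-!
# S35, abstract block of [E]: the CLOSED local statements  (integrator: helper41)

Census of the leaves of `S35/LocFPlan.lean` used here (first sorry-free copies on main):

* (3) `DecompStatement`  — `DecompB.decompStatement` (helper19);
* (4) `YGStatement`      — `YG.yg_of_decomp` (helper41) applied to (3);
* (6) `LocGStatement`    — `NodeNorm.locGStatement` (helper28);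
* (7) `LocF0Statement`   — `LocF0.locF0_of_leaves` (helper52) applied to (4), (6);
* (8)–(10) `SmoothFixStatement`, `LocFStatement`, `HwFStatement` — `LocFTop` (helper22).

Exports: `locFStatement : LocFPlan.LocFStatement` and `hwFStatement : LocFPlan.HwFStatement`
(the two hypotheses of `AbsTopF.settingF`), with no remaining hypothesis.
-/

set_option autoImplicit false

namespace Fermat.Agent.S35.LocFAll

open Fermat.Agent.S35

/-- (3) **[Decomp]**, closed. -/
theorem decompStatement : LocFPlan.DecompStatement := DecompB.decompStatement

/-- (4) **[YG]**, closed. -/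
theorem ygStatement : LocFPlan.YGStatement := YG.yg_of_decomp decompStatement

/-- (6) **[LocG]**, closed. -/
theorem locGStatement : LocFPlan.LocGStatement := NodeNorm.locGStatement

/-- (7) **[LocF0]**, closed. -/
theorem locF0Statement : LocFPlan.LocF0Statement := LocF0.locF0_of_leaves ygStatement locGStatement

/-- (8) **[SmoothFix]**, closed. -/
theorem smoothFixStatement : LocFPlan.SmoothFixStatement := LocFTop.smoothFixStatement

/-- (9) **[LocF]**, closed: the local input of the Čech block for `w = Σ G / G ^ Q`. -/
theorem locFStatement : LocFPlan.LocFStatement :=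
  LocFTop.locF_of_leaves locF0Statement smoothFixStatement

/-- (10) **[HwF]**, closed: `w ≡ 1` modulo `π (V i)`. -/
theorem hwFStatement : LocFPlan.HwFStatement := LocFTop.hwF

end Fermat.Agent.S35.LocFAll
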