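/-
S35 — FCorePlanG.lean (helper5, [E]-modular architect).  PER-FUNCTION forms of the statements
of `S35/ModelFPlan.lean` and `S35/FCorePlan.lean`, so that block [E] serves both bridges for [D]
(lead ruling): the `α_*/β_*` route feeds `f` with `ModelFPlan.NormCond M q m f`, the `U_q`-route
feeds `f̃ = τ f₀ / f₀ ^ (q²)` with a condition depending on the Frobenius lift.  Definitions
only, plus the `Iff.rfl` links to the specialised statements.

* `FrobCoreAt N A τ Q m f`        — the conclusion of `[CoreAsmF]` for ONE function `f`: a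
                                    Čech-bis setting on `chart t`, `chart t⁻¹` with exponent `m`
                                    and `w = wBar N τ Q m f H` for some corrector `H ≠ 0`;
                                    `[CoreAsmF]` proves `ModelF N A m Q τ f → FrobCoreAt N A τ Q m f`;
* `FrobDivAt N τ Q m f`           — the conclusion of `[FJSide]` (i) for ONE `f`: `(τ - Q)(τ - 1)² D`
                                    is principal whenever `div f = m • D`;
                                    `[FJSide]` (i) proves `FrobCoreAt N A τ Q m f → FrobDivAt N τ Q m f`;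
* `ModelFStatementOf M q m Cond`  — target of the modular assembly for a condition
                                    `Cond σs f` (`modelF_of_corr`).
-/
import Mathlib
import Fermat.Agent.S35.FCorePlan

set_option autoImplicit false

open ModularCurve AlgebraicCurve HahnSeries

namespace Fermat.Agent.S35.FCorePlanG

open Fermat.Agent.S18.Arith Fermat.Agent.S34

noncomputable section

/-- The conclusion of `[CoreAsmF]` for one function `f`. -/
def FrobCoreAt (N : ℕ) [NeZero N] (A : ValuationSubring Qb) (τ : Qb ≃ₐ[ℚ] Qb) (Q m : ℕ)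
    (f : modularFunctionFieldBar N) : Prop :=
  ∃ (K : IntermediateField ℚ Qb) (_ : IsDiscreteValuationRing (OK A K))
    (S : Cech2Plan.Setting (OK A K) (FK N K)) (t : FK N K) (H : modularFunctionFieldBar N),
    H ≠ 0 ∧ S.m = m ∧ S.R0 = chart N A K t ∧ S.Rinf = chart N A K t⁻¹ ∧
      ((S.w : FK N K) : LaurentSeries Qb) =
        ((FCorePlan.wBar N τ Q m f H : modularFunctionFieldBar N) : LaurentSeries Qb)

/-- The conclusion of `[FJSide]` (i) for one function `f`: `(τ - Q)(τ - 1)² D` is principal
for every `D` with `div f = m • D`. -/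
def FrobDivAt (N : ℕ) (τ : Qb ≃ₐ[ℚ] Qb) (Q m : ℕ) (f : modularFunctionFieldBar N) : Prop :=
  ∀ D : Divisor Qb (modularFunctionFieldBar N),
    (∀ P : Place Qb (modularFunctionFieldBar N), (m : ℤ) * D P = P.ord f) →
    Divisor.IsPrincipal (FCorePlan.fDiv N τ Q D)

/-- **[ModelF]** with an arbitrary condition `Cond σs f` on the Frobenius lift and `f`. -/
def ModelFStatementOf (M q m : ℕ) [NeZero M] [NeZero q] [NeZero (M * q)]
    (Cond : (Qb ≃ₐ[ℚ] Qb) → modularFunctionFieldBar (M * q) → Prop) : Prop :=
  ∀ A : ValuationSubring Qb, A.LiesOverPrime q →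
  ∀ σs : Qb ≃ₐ[ℚ] Qb, A.IsFrobeniusAt σs q →
  ∀ f : modularFunctionFieldBar (M * q), f ≠ 0 →
    (∀ P : Place Qb (modularFunctionFieldBar (M * q)), (m : ℤ) ∣ P.ord f) →
    Cond σs f →
    Nonempty (ModelFPlan.ModelF (M * q) A m (q ^ 2) (σs * σs) f)

variable (M q m : ℕ) [NeZero M] [NeZero q] [NeZero (M * q)]

theorem modelFStatement_iff :
    ModelFPlan.ModelFStatement M q m ↔
      ModelFStatementOf M q m (fun _ => ModelFPlan.NormCond M q m) :=
  Iff.rfl

theorem frobCoreStatement_iff :
    FCorePlan.FrobCoreStatement M q m ↔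
      ∀ A : ValuationSubring Qb, A.LiesOverPrime q →
      ∀ σs : Qb ≃ₐ[ℚ] Qb, A.IsFrobeniusAt σs q →
      ∀ f : modularFunctionFieldBar (M * q), f ≠ 0 →
        (∀ P : Place Qb (modularFunctionFieldBar (M * q)), (m : ℤ) ∣ P.ord f) →
        ModelFPlan.NormCond M q m f →
        FrobCoreAt (M * q) A (σs * σs) (q ^ 2) m f :=
  Iff.rfl

theorem frobDivStatement_iff :
    FCorePlan.FrobDivStatement M q m ↔
      ∀ A : ValuationSubring Qb, A.LiesOverPrime q →
      ∀ σs : Qb ≃ₐ[ℚ] Qb, A.IsFrobeniusAt σs q →
      ∀ f : modularFunctionFieldBar (M * q), f ≠ 0 →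
      ∀ D : Divisor Qb (modularFunctionFieldBar (M * q)),
        (∀ P : Place Qb (modularFunctionFieldBar (M * q)), (m : ℤ) * D P = P.ord f) →
        ModelFPlan.NormCond M q m f →
        Divisor.IsPrincipal (FCorePlan.fDiv (M * q) (σs * σs) (q ^ 2) D) :=
  Iff.rfl

/-- `FrobDivStatement` from the per-function form. -/
theorem frobDivStatement_of_at
    (h : ∀ A : ValuationSubring Qb, A.LiesOverPrime q →
      ∀ σs : Qb ≃ₐ[ℚ] Qb, A.IsFrobeniusAt σs q →
      ∀ f : modularFunctionFieldBar (M * q), f ≠ 0 →
        (∀ P : Place Qb (modularFunctionFieldBar (M * q)), (m : ℤ) ∣ P.ord f) →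
        ModelFPlan.NormCond M q m f → FrobDivAt (M * q) (σs * σs) (q ^ 2) m f) :
    FCorePlan.FrobDivStatement M q m := by
  intro A hA σs hσ f hf D hD hN
  exact h A hA σs hσ f hf (fun P => ⟨D P, (hD P).symm⟩) hN D hD

end

end Fermat.Agent.S35.FCorePlanG
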