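/-
S35 (spare; outside every credited closure) — FrobAct.lean (helper94).
The decomposition-group / Frobenius analogue of `S34/TauAct.lean` (T0)/(T1):

For `σ ∈ Gal(ℚ̄/ℚ)` in the DECOMPOSITION group of a valuation subring `A` of `ℚ̄`, acting
coefficientwise on `ℚ̄((q))`:

* (F0) `resAut A hσ` : the induced automorphism of the residue field `k = ResidueField A`;
  `residue_tauA_eq`; it is the identity for inertia, `x ↦ x ^ q` for a Frobenius lift at `q`,
  multiplicative in `σ`;
* (F1) `gRel_coeffMap_decomp` : `GRel A x y → GRel A (σ x) (resAut σ y)` (the Gauss reduction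
  intertwines `σ` with the coefficientwise residual automorphism); Frobenius forms;
* (F2) `tauE` preserves the Gauss valuation rings `V1`, `V2 = w⁻¹ V1` of `S34/GaussV` and the
  reductions are twisted by `resAut`;
* (F3) constants: `σ c ≡ c ^ q` modulo `π` on `O = A ∩ K` for a Frobenius lift;
* (F4) `σ π = π · unit` on `O`.
-/
import Mathlib
import Fermat.Agent.S18.ResOKEquiv
import Fermat.Agent.S34.TauAct
import Fermat.Agent.S34.GaussV

set_option autoImplicit false

noncomputable section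

namespace Fermat.Agent.S35.FrobAct

open ModularCurve HahnSeries AlgebraicCurve Fermat.Agent.S18.Arith
open Fermat.Agent.S34 Fermat.Agent.S34.TauAct
open scoped Pointwise

/-! ### (F0) the residual automorphism -/

section Decomp

variable (A : ValuationSubring Qb)

/-- The automorphism of the residue field induced by a decomposition-group element. -/
def resAut {σ : GQ} (hσ : σ ∈ A.decompositionSubgroup ℚ) :
    IsLocalRing.ResidueField A ≃+* IsLocalRing.ResidueField A :=
  MulSemiringAction.toRingAut (A.decompositionSubgroup ℚ) (IsLocalRing.ResidueField A) ⟨σ, hσ⟩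

theorem resAut_apply {σ : GQ} (hσ : σ ∈ A.decompositionSubgroup ℚ)
    (x : IsLocalRing.ResidueField A) :
    resAut A hσ x = (⟨σ, hσ⟩ : A.decompositionSubgroup ℚ) • x := rfl

/-- `residue (σ a) = resAut σ (residue a)`. -/
theorem residue_tauA_eq {σ : GQ} (hσ : σ ∈ A.decompositionSubgroup ℚ) (a : A) :
    IsLocalRing.residue A (tauA A hσ a) = resAut A hσ (IsLocalRing.residue A a) := by
  have h1 : tauA A hσ a = (⟨σ, hσ⟩ : A.decompositionSubgroup ℚ) • a := by
    apply Subtype.ext
    rw [coe_tauA]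
    rfl
  rw [h1, IsLocalRing.ResidueField.residue_smul]
  rfl

/-- Inertia induces the identity. -/
theorem resAut_of_mem_inertia {τ : GQ} (hτ : τ ∈ A.inertiaSubgroupIn ℚ)
    (hτ' : τ ∈ A.decompositionSubgroup ℚ) (x : IsLocalRing.ResidueField A) :
    resAut A hτ' x = x := by
  obtain ⟨a, rfl⟩ := IsLocalRing.residue_surjective x
  rw [← residue_tauA_eq, residue_tauA A hτ hτ']

/-- A Frobenius lift at `q` induces `x ↦ x ^ q`. -/
theorem resAut_of_isFrobeniusAt {q : ℕ} {σ : GQ} (hσ : A.IsFrobeniusAt σ q)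
    (x : IsLocalRing.ResidueField A) :
    resAut A hσ.mem_decompositionSubgroup x = x ^ q :=
  hσ.smul_residue_eq x

/-- `resAut` is multiplicative. -/
theorem resAut_mul {σ σ' : GQ} (hσ : σ ∈ A.decompositionSubgroup ℚ)
    (hσ' : σ' ∈ A.decompositionSubgroup ℚ) (x : IsLocalRing.ResidueField A) :
    resAut A (mul_mem hσ hσ') x = resAut A hσ (resAut A hσ' x) :=
  mul_smul (⟨σ, hσ⟩ : A.decompositionSubgroup ℚ) ⟨σ', hσ'⟩ x

/-- The square of a Frobenius lift at `q` induces `x ↦ x ^ (q ^ 2)`. -/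
theorem resAut_sq_of_isFrobeniusAt {q : ℕ} {σ : GQ} (hσ : A.IsFrobeniusAt σ q)
    (x : IsLocalRing.ResidueField A) :
    resAut A (mul_mem hσ.mem_decompositionSubgroup hσ.mem_decompositionSubgroup) x
      = x ^ (q ^ 2) := by
  rw [resAut_mul A hσ.mem_decompositionSubgroup hσ.mem_decompositionSubgroup,
    resAut_of_isFrobeniusAt A hσ, resAut_of_isFrobeniusAt A hσ, ← pow_mul, pow_two]

theorem coeffMap_residue_tauA_eq {σ : GQ} (hσ : σ ∈ A.decompositionSubgroup ℚ)
    (z : LaurentSeries A) :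
    coeffMap (IsLocalRing.residue A) (coeffMap (tauA A hσ) z)
      = coeffMap ((resAut A hσ : IsLocalRing.ResidueField A ≃+* IsLocalRing.ResidueField A) :
          IsLocalRing.ResidueField A →+* IsLocalRing.ResidueField A)
        (coeffMap (IsLocalRing.residue A) z) := by
  rw [coeffMap_coeffMap, coeffMap_coeffMap]
  exact coeffMap_congr (RingHom.ext fun a => residue_tauA_eq A hσ a) z

/-! ### (F1) the Gauss relation -/

/-- **(F1)** The Gauss reduction intertwines a decomposition-group element `σ` with the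
coefficientwise residual automorphism. -/
theorem gRel_coeffMap_decomp {σ : GQ} (hσ : σ ∈ A.decompositionSubgroup ℚ)
    {x : LaurentSeries Qb} {y : LaurentSeries (IsLocalRing.ResidueField A)} (h : GRel A x y) :
    GRel A (coeffMap (σ : Qb →+* Qb) x)
      (coeffMap ((resAut A hσ : IsLocalRing.ResidueField A ≃+* IsLocalRing.ResidueField A) :
          IsLocalRing.ResidueField A →+* IsLocalRing.ResidueField A) y) := by
  obtain ⟨u, p, hu, hx, hp⟩ := h
  refine ⟨coeffMap (tauA A hσ) u, coeffMap (tauA A hσ) p, ?_, ?_, ?_⟩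
  · rw [coeffMap_residue_tauA_eq, hu, map_one]
  · rw [coeffMap_subtype_tauA, coeffMap_subtype_tauA, ← map_mul, hx]
  · rw [coeffMap_residue_tauA_eq, hp]

/-- **(F1), Frobenius form**: for a Frobenius lift `σ` at `q` the Gauss reduction of `σ x` is the
coefficientwise `q`-Frobenius of the reduction of `x`. -/
theorem gRel_coeffMap_frob {q : ℕ} [Fact q.Prime] [CharP (IsLocalRing.ResidueField A) q] {σ : GQ}
    (hσ : A.IsFrobeniusAt σ q) {x : LaurentSeries Qb}
    {y : LaurentSeries (IsLocalRing.ResidueField A)} (h : GRel A x y) :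
    GRel A (coeffMap (σ : Qb →+* Qb) x)
      (coeffMap (frobenius (IsLocalRing.ResidueField A) q) y) := by
  have h1 := gRel_coeffMap_decomp A hσ.mem_decompositionSubgroup h
  have h2 : ((resAut A hσ.mem_decompositionSubgroup :
      IsLocalRing.ResidueField A ≃+* IsLocalRing.ResidueField A) :
        IsLocalRing.ResidueField A →+* IsLocalRing.ResidueField A)
      = frobenius (IsLocalRing.ResidueField A) q :=
    RingHom.ext fun x => by
      rw [frobenius_def]
      exact resAut_of_isFrobeniusAt A hσ x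
  rwa [h2] at h1

/-- **(F1), square of a Frobenius lift**. -/
theorem gRel_coeffMap_frob_sq {q : ℕ} [Fact q.Prime] [CharP (IsLocalRing.ResidueField A) q]
    {σ : GQ} (hσ : A.IsFrobeniusAt σ q) {x : LaurentSeries Qb}
    {y : LaurentSeries (IsLocalRing.ResidueField A)} (h : GRel A x y) :
    GRel A (coeffMap ((σ * σ : GQ) : Qb →+* Qb) x)
      (coeffMap ((frobenius (IsLocalRing.ResidueField A) q).comp
        (frobenius (IsLocalRing.ResidueField A) q)) y) := by
  have h1 := gRel_coeffMap_frob A hσ (gRel_coeffMap_frob A hσ h)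
  rw [coeffMap_coeffMap, coeffMap_coeffMap] at h1
  exact h1

end Decomp

/-! ### (F2) the Gauss valuation rings -/

section Gauss

variable {N : ℕ} [NeZero N] {A : ValuationSubring Qb} {K : IntermediateField ℚ Qb}

/-- `σ` in the decomposition group preserves the Gauss valuation ring `V1`. -/
theorem tauE_mem_V1 (hdvr : IsDiscreteValuationRing (OK A K)) {σ : GQ}
    (hσ : σ ∈ A.decompositionSubgroup ℚ) (hK : Stable K σ) {x : FK N K}
    (hx : x ∈ GaussV.V1 N A K hdvr) : tauE N hK x ∈ GaussV.V1 N A K hdvr := by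
  obtain ⟨y, hy⟩ := (GaussV.mem_V1_iff hdvr).mp hx
  have h := gRel_coeffMap_decomp A hσ hy
  rw [← coe_tauE N hK x] at h
  exact (GaussV.mem_V1_iff hdvr).mpr ⟨_, h⟩

theorem tauE_mem_V1_iff (hdvr : IsDiscreteValuationRing (OK A K)) {σ : GQ}
    (hσ : σ ∈ A.decompositionSubgroup ℚ) (hK : Stable K σ) {x : FK N K} :
    tauE N hK x ∈ GaussV.V1 N A K hdvr ↔ x ∈ GaussV.V1 N A K hdvr := by
  refine ⟨fun h => ?_, tauE_mem_V1 hdvr hσ hK⟩
  have h2 := tauE_mem_V1 (N := N) hdvr (symm_mem_decomp A hσ) hK.symm h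
  rwa [← tauE_symm_eq N hK, RingEquiv.symm_apply_apply] at h2

/-- The reduction of `σ x` is the `resAut σ`-twist of the reduction of `x`. -/
theorem red1_tauE (hdvr : IsDiscreteValuationRing (OK A K)) {σ : GQ}
    (hσ : σ ∈ A.decompositionSubgroup ℚ) (hK : Stable K σ) (x : GaussV.V1 N A K hdvr) :
    GaussV.red1 hdvr ⟨tauE N hK (x : FK N K), tauE_mem_V1 hdvr hσ hK x.2⟩
      = coeffMap ((resAut A hσ : IsLocalRing.ResidueField A ≃+* IsLocalRing.ResidueField A) :
          IsLocalRing.ResidueField A →+* IsLocalRing.ResidueField A) (GaussV.red1 hdvr x) := by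
  apply GaussV.red1_eq_of_gRel
  show GRel A ((tauE N hK (x : FK N K) : FK N K) : LaurentSeries Qb) _
  rw [coe_tauE]
  exact gRel_coeffMap_decomp A hσ (GaussV.gRel_red1 hdvr x)

variable (w : FK N K ≃+* FK N K)

/-- `σ` preserves `V2 = w⁻¹ V1` when it commutes with `w`. -/
theorem tauE_mem_V2 (hdvr : IsDiscreteValuationRing (OK A K)) {σ : GQ}
    (hσ : σ ∈ A.decompositionSubgroup ℚ) (hK : Stable K σ)
    (hcomm : ∀ x, w (tauE N hK x) = tauE N hK (w x)) {x : FK N K}
    (hx : x ∈ GaussV.V2 w hdvr) : tauE N hK x ∈ GaussV.V2 w hdvr := by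
  rw [GaussV.mem_V2_iff] at hx ⊢
  rw [hcomm]
  exact tauE_mem_V1 hdvr hσ hK hx

theorem tauE_mem_V2_iff (hdvr : IsDiscreteValuationRing (OK A K)) {σ : GQ}
    (hσ : σ ∈ A.decompositionSubgroup ℚ) (hK : Stable K σ)
    (hcomm : ∀ x, w (tauE N hK x) = tauE N hK (w x)) {x : FK N K} :
    tauE N hK x ∈ GaussV.V2 w hdvr ↔ x ∈ GaussV.V2 w hdvr := by
  rw [GaussV.mem_V2_iff, GaussV.mem_V2_iff, hcomm]
  exact tauE_mem_V1_iff hdvr hσ hK

/-- The second reduction of `σ x` is the `resAut σ`-twist of the second reduction of `x`. -/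
theorem red2_tauE (hdvr : IsDiscreteValuationRing (OK A K)) {σ : GQ}
    (hσ : σ ∈ A.decompositionSubgroup ℚ) (hK : Stable K σ)
    (hcomm : ∀ x, w (tauE N hK x) = tauE N hK (w x)) (x : GaussV.V2 w hdvr) :
    GaussV.red2 w hdvr ⟨tauE N hK (x : FK N K), tauE_mem_V2 w hdvr hσ hK hcomm x.2⟩
      = coeffMap ((resAut A hσ : IsLocalRing.ResidueField A ≃+* IsLocalRing.ResidueField A) :
          IsLocalRing.ResidueField A →+* IsLocalRing.ResidueField A) (GaussV.red2 w hdvr x) := by
  rw [GaussV.red2_apply, GaussV.red2_apply]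
  have h := red1_tauE hdvr hσ hK (⟨w (x : FK N K), x.2⟩ : GaussV.V1 N A K hdvr)
  rw [← h]
  congr 1
  exact Subtype.ext (hcomm (x : FK N K))

end Gauss

/-! ### (F3)/(F4) the constants `O = A ∩ K` -/

section Const

variable {A : ValuationSubring Qb} {K : IntermediateField ℚ Qb}

/-- Stability of `K` is multiplicative. -/
theorem stable_mul {σ σ' : GQ} (h : Stable K σ) (h' : Stable K σ') : Stable K (σ * σ') :=
  ⟨fun c hc => h.1 _ (h'.1 c hc), fun c hc => h'.2 _ (h.2 c hc)⟩

/-- The automorphism of `O = A ∩ K` induced by a decomposition-group element stabilising `K`. -/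
def sigO {σ : GQ} (hσ : σ ∈ A.decompositionSubgroup ℚ) (hK : Stable K σ) : OK A K ≃+* OK A K where
  toFun c := ⟨⟨σ ((c : K) : Qb), hK.1 _ (c : K).2⟩, apply_mem_OK A hσ hK c⟩
  invFun c := ⟨⟨σ.symm ((c : K) : Qb), hK.2 _ (c : K).2⟩,
    apply_mem_OK A (symm_mem_decomp A hσ) hK.symm c⟩
  left_inv _ := Subtype.ext (Subtype.ext (σ.symm_apply_apply _))
  right_inv _ := Subtype.ext (Subtype.ext (σ.apply_symm_apply _))
  map_mul' _ _ := Subtype.ext (Subtype.ext (map_mul σ _ _))
  map_add' _ _ := Subtype.ext (Subtype.ext (map_add σ _ _))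

theorem coe_sigO {σ : GQ} (hσ : σ ∈ A.decompositionSubgroup ℚ) (hK : Stable K σ) (c : OK A K) :
    (((sigO hσ hK c : OK A K) : K) : Qb) = σ ((c : K) : Qb) := rfl

/-- `tauE` acts on the constants of `O` through `sigO`. -/
theorem tauE_algebraMap_sigO (N : ℕ) {σ : GQ} (hσ : σ ∈ A.decompositionSubgroup ℚ)
    (hK : Stable K σ) (c : OK A K) :
    tauE N hK (algebraMap (OK A K) (FK N K) c) = algebraMap (OK A K) (FK N K) (sigO hσ hK c) :=
  tauE_algebraMap N A hσ hK c

/-- `resO (σ c) = resAut σ (resO c)`. -/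
theorem resO_sigO {σ : GQ} (hσ : σ ∈ A.decompositionSubgroup ℚ) (hK : Stable K σ) (c : OK A K) :
    resO A K (sigO hσ hK c) = resAut A hσ (resO A K c) := by
  rw [Fermat.Agent.S18.ResOKEquiv.resO_eq, Fermat.Agent.S18.ResOKEquiv.resO_eq,
    ← residue_tauA_eq]
  rfl

/-- **(F3)** For a Frobenius lift `σ` at `q`: `σ c ≡ c ^ q` modulo `π` on `O`. -/
theorem dvd_sigO_sub_pow (hdvr : IsDiscreteValuationRing (OK A K)) {π : OK A K}
    (hπ : Irreducible π) {q : ℕ} {σ : GQ} (hσ : A.IsFrobeniusAt σ q) (hK : Stable K σ)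
    (c : OK A K) : π ∣ sigO hσ.mem_decompositionSubgroup hK c - c ^ q := by
  have := hdvr
  rw [← Fermat.Agent.S18.ResOKEquiv.resO_eq_zero_iff_dvd A K π hπ, map_sub, map_pow, resO_sigO,
    resAut_of_isFrobeniusAt A hσ, sub_self]

/-- **(F3)**, for the square of a Frobenius lift: `σ² c ≡ c ^ (q ^ 2)` modulo `π` on `O`. -/
theorem dvd_sigO_sq_sub_pow (hdvr : IsDiscreteValuationRing (OK A K)) {π : OK A K}
    (hπ : Irreducible π) {q : ℕ} {σ : GQ} (hσ : A.IsFrobeniusAt σ q) (hK : Stable K (σ * σ))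
    (c : OK A K) :
    π ∣ sigO (mul_mem hσ.mem_decompositionSubgroup hσ.mem_decompositionSubgroup) hK c
      - c ^ (q ^ 2) := by
  have := hdvr
  rw [← Fermat.Agent.S18.ResOKEquiv.resO_eq_zero_iff_dvd A K π hπ, map_sub, map_pow, resO_sigO,
    resAut_sq_of_isFrobeniusAt A hσ, sub_self]

/-- **(F3)**, in `F_K`: `tauE (c) - c ^ q = π * z` with `z ∈ O`. -/
theorem exists_tauE_algebraMap_sub_pow (N : ℕ) (hdvr : IsDiscreteValuationRing (OK A K))
    {π : OK A K} (hπ : Irreducible π) {q : ℕ} {σ : GQ} (hσ : A.IsFrobeniusAt σ q)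
    (hK : Stable K σ) (c : OK A K) :
    ∃ z : OK A K, tauE N hK (algebraMap (OK A K) (FK N K) c) - algebraMap (OK A K) (FK N K) c ^ q
      = algebraMap (OK A K) (FK N K) π * algebraMap (OK A K) (FK N K) z := by
  obtain ⟨z, hz⟩ := dvd_sigO_sub_pow hdvr hπ hσ hK c
  refine ⟨z, ?_⟩
  rw [tauE_algebraMap_sigO N hσ.mem_decompositionSubgroup hK c, ← map_pow, ← map_sub, hz, map_mul]

/-- **(F3)**, in `F_K`, for the square of a Frobenius lift. -/
theorem exists_tauE_sq_algebraMap_sub_pow (N : ℕ) (hdvr : IsDiscreteValuationRing (OK A K))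
    {π : OK A K} (hπ : Irreducible π) {q : ℕ} {σ : GQ} (hσ : A.IsFrobeniusAt σ q)
    (hK : Stable K (σ * σ)) (c : OK A K) :
    ∃ z : OK A K,
      tauE N hK (algebraMap (OK A K) (FK N K) c) - algebraMap (OK A K) (FK N K) c ^ (q ^ 2)
        = algebraMap (OK A K) (FK N K) π * algebraMap (OK A K) (FK N K) z := by
  obtain ⟨z, hz⟩ := dvd_sigO_sq_sub_pow hdvr hπ hσ hK c
  refine ⟨z, ?_⟩
  rw [tauE_algebraMap_sigO N
      (mul_mem hσ.mem_decompositionSubgroup hσ.mem_decompositionSubgroup) hK c,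
    ← map_pow, ← map_sub, hz, map_mul]

/-- **(F4)** `σ π = π · unit` in `O`. -/
theorem exists_unit_sigO (hdvr : IsDiscreteValuationRing (OK A K)) {π : OK A K}
    (hπ : Irreducible π) {σ : GQ} (hσ : σ ∈ A.decompositionSubgroup ℚ) (hK : Stable K σ) :
    ∃ u : (OK A K)ˣ, sigO hσ hK π = π * u := by
  have := hdvr
  have h1 : Irreducible (sigO hσ hK π) :=
    (MulEquiv.irreducible_iff (sigO hσ hK).toMulEquiv).mpr hπ
  obtain ⟨u, hu⟩ := IsDiscreteValuationRing.associated_of_irreducible (OK A K) hπ h1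
  exact ⟨u, hu.symm⟩

/-- **(F4)**, in `F_K`. -/
theorem exists_unit_tauE_pi (N : ℕ) (hdvr : IsDiscreteValuationRing (OK A K)) {π : OK A K}
    (hπ : Irreducible π) {σ : GQ} (hσ : σ ∈ A.decompositionSubgroup ℚ) (hK : Stable K σ) :
    ∃ u : (OK A K)ˣ, tauE N hK (algebraMap (OK A K) (FK N K) π)
      = algebraMap (OK A K) (FK N K) π * algebraMap (OK A K) (FK N K) (u : OK A K) := by
  obtain ⟨u, hu⟩ := exists_unit_sigO hdvr hπ hσ hK
  exact ⟨u, by rw [tauE_algebraMap_sigO N hσ hK π, hu, map_mul]⟩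

/-- The action of a product is the composite of the actions. -/
theorem tauE_mul (N : ℕ) {σ σ' : GQ} (hK : Stable K σ) (hK' : Stable K σ')
    (hKK : Stable K (σ * σ')) (x : FK N K) :
    tauE N hKK x = tauE N hK (tauE N hK' x) := by
  apply Subtype.ext
  rw [coe_tauE, coe_tauE, coe_tauE, coeffMap_coeffMap]
  exact coeffMap_congr (RingHom.ext fun _ => rfl) _

end Const

end Fermat.Agent.S35.FrobAct
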