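/-
S35 — ResPt.lean (helper48).  Row [Res] of the [E]-modular block (blueprint #2585; plan
`S35/ModelFPlan.lean`, field `ChartModelF.res`):

  closed points of the special fibre of a chart are `O`-rational,  `R / n = O / π`.

* `exists_sub_C_mem` — abstract: `O` a DVR with algebraically closed residue field, `R` integral
  over `O[y]`, `n ∋ π` maximal; then every `r : R` is congruent to a constant of `O` modulo `n`;
* `res_chart`        — the chart form, for `R = chart N A K t` (any level `N`, any coordinate
  `t`): the field `res` of `ModelFPlan.ChartModelF` verbatim.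
-/
import Mathlib
import Fermat.Agent.S18.IgusaPtsChart

set_option autoImplicit false

namespace Fermat.Agent.S35.ResPt

open Polynomial

/-- Over a DVR `O` with algebraically closed residue field, every element of a ring `R` integral
over `O[y]` is congruent to a constant modulo a maximal ideal `n ∋ π`. -/
theorem exists_sub_C_mem {O : Type*} [CommRing O] [IsDomain O] [IsDiscreteValuationRing O]
    [IsAlgClosed (IsLocalRing.ResidueField O)] (π : O) (hπ : Irreducible π)
    {R : Type*} [CommRing R] [Algebra O[X] R] [Algebra.IsIntegral O[X] R]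
    (n : Ideal R) [hn : n.IsMaximal] (hπn : algebraMap O[X] R (C π) ∈ n) (r : R) :
    ∃ c : O, r - algebraMap O[X] R (C c) ∈ n := by
  obtain ⟨c₀, hc₀⟩ := Fermat.Agent.S18.IgusaPts.exists_X_sub_C_mem π hπ n hπn
  -- the constants map
  set h : O →+* R ⧸ n := (Ideal.Quotient.mk n).comp ((algebraMap O[X] R).comp C) with hh
  -- every polynomial is congruent to its value at `c₀`
  have hev : ∀ a : O[X], Ideal.Quotient.mk n (algebraMap O[X] R a) = h (a.eval c₀) := by
    intro a
    rw [hh, RingHom.comp_apply, RingHom.comp_apply, Ideal.Quotient.eq, ← map_sub]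
    obtain ⟨b, hb⟩ := Polynomial.X_sub_C_dvd_sub_C_eval (a := c₀) (p := a)
    rw [hb, map_mul]
    exact n.mul_mem_right _ hc₀
  -- `h` is integral
  have hint : h.IsIntegral := by
    intro x
    obtain ⟨r', rfl⟩ := Ideal.Quotient.mk_surjective x
    obtain ⟨P, hP, hPr⟩ := Algebra.IsIntegral.isIntegral (R := O[X]) r'
    refine ⟨P.map (Polynomial.evalRingHom c₀), hP.map _, ?_⟩
    rw [Polynomial.eval₂_map]
    have hcomp : h.comp (Polynomial.evalRingHom c₀) =
        (Ideal.Quotient.mk n).comp (algebraMap O[X] R) := by
      ext a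
      · simp [hh]
      · simp only [RingHom.comp_apply, Polynomial.coe_evalRingHom]
        exact (hev X).symm
    rw [hcomp, ← Polynomial.hom_eval₂, hPr, map_zero]
  -- factor through the residue field
  have hker : ∀ a ∈ IsLocalRing.maximalIdeal O, h a = 0 := by
    intro a ha
    rw [hπ.maximalIdeal_eq, Ideal.mem_span_singleton] at ha
    obtain ⟨b, rfl⟩ := ha
    rw [hh, RingHom.comp_apply, RingHom.comp_apply, Ideal.Quotient.eq_zero_iff_mem, C_mul, map_mul]
    exact n.mul_mem_right _ hπn
  set g : IsLocalRing.ResidueField O →+* R ⧸ n :=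
    Ideal.Quotient.lift (IsLocalRing.maximalIdeal O) h hker with hg
  have hgh : g.comp (IsLocalRing.residue O) = h := by
    ext a
    rfl
  have hgint : g.IsIntegral :=
    RingHom.IsIntegral.tower_top (IsLocalRing.residue O) g (by rw [hgh]; exact hint)
  have : IsDomain (R ⧸ n) := Ideal.Quotient.isDomain n
  have hsurj : Function.Surjective g :=
    (IsAlgClosed.ringHom_bijective_of_isIntegral g hgint).2
  obtain ⟨y, hy⟩ := hsurj (Ideal.Quotient.mk n r)
  obtain ⟨c, rfl⟩ := IsLocalRing.residue_surjective y
  refine ⟨c, ?_⟩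
  rw [← Ideal.Quotient.eq, ← hy]
  rfl

open Fermat.Agent.S18.Arith Fermat.Agent.S18.IgusaInst

variable (N : ℕ) (A : ValuationSubring Qb) (K : IntermediateField ℚ Qb)

/-- **[Res]** Closed points of the special fibre of a chart are `O`-rational: every element of
`chart N A K t` is congruent to a constant of `O = OK A K` modulo a maximal ideal `n ∋ π`
(the field `res` of `ModelFPlan.ChartModelF`). -/
theorem res_chart [IsDiscreteValuationRing (OK A K)]
    [IsAlgClosed (IsLocalRing.ResidueField (OK A K))] (t : FK N K)
    (π : OK A K) (hπ : Irreducible π) (n : Ideal (chart N A K t)) (hn : n.IsMaximal)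
    (hπn : algebraMap (OK A K) (chart N A K t) π ∈ n) (r : chart N A K t) :
    ∃ c : OK A K, r - algebraMap (OK A K) (chart N A K t) c ∈ n := by
  set e := chartEquiv N A K t with he
  set f : integralClosure (OK A K)[X] (ChartF N K t) →+* chart N A K t := e.symm.toRingHom with hf
  have hfe : ∀ z, f (e z) = z := fun z => e.symm_apply_apply z
  let n' : Ideal (integralClosure (OK A K)[X] (ChartF N K t)) := n.comap f
  have hn' : n'.IsMaximal :=
    Ideal.comap_isMaximal_of_surjective f e.symm.surjective
  have hmem : ∀ z, z ∈ n' ↔ f z ∈ n := fun z => Iff.rfl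
  have hπ' : algebraMap (OK A K)[X] (integralClosure (OK A K)[X] (ChartF N K t)) (C π) ∈ n' := by
    rw [hmem, ← chartEquiv_algebraMap, hfe]
    exact hπn
  obtain ⟨c, hc⟩ := @exists_sub_C_mem (OK A K) _ _ _ _ π hπ
    (integralClosure (OK A K)[X] (ChartF N K t)) _ _ _ n' hn' hπ' (e r)
  refine ⟨c, ?_⟩
  have h1 : f (e r - algebraMap (OK A K)[X] (integralClosure (OK A K)[X] (ChartF N K t)) (C c)) =
      r - algebraMap (OK A K) (chart N A K t) c :=
    (RingHom.map_sub f (e r)
      (algebraMap (OK A K)[X] (integralClosure (OK A K)[X] (ChartF N K t)) (C c))).trans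
      (by rw [hfe, ← chartEquiv_algebraMap, hfe])
  rw [hmem, h1] at hc
  exact hc

end Fermat.Agent.S35.ResPt
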