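/-
S35 — ModelFAsm.lean (helper10): the ASSEMBLY of the modular block of [E]
(`ModelFPlan.ModelFStatement`), the S35 twin of `S34/Model2AsmB.lean`.

A Frobenius model `ModelFPlan.ModelF (M * q) A m (q ^ 2) (σs * σs) f` is assembled field by field:

* base field (`BaseNormal.exists_base`: Galois-stable, `BaseFacts`, containing a prescribed finite
  set of constants), uniformizer, `m ∈ Oˣ`, coordinate `J = j · j_q` (`WKInst.JK`), `f` descended,
  `Σ = TauAct.tauE` for `τ = σs * σs`, component valuation rings `ChartHypInst.Vfam wK`;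
* per chart `chart J`, `chart J⁻¹`: the S34 fields `noeth`, `frac`, `intcl`, `P`, `hyp`, `branch`,
  `trans`, `hor` (closed on main: `Model2AsmB`, `Model2PtsB.ptsStatement`), `frob`
  (`frobHyp_of`, from `S35/FrobAct.lean`), `res` (`S35/ResPt.lean`);

in hypothesis form over the two remaining inputs

* `NodeStatement M q hq hqM`     — `Σ n = n` at the crossing points ([NodeRatInst]);
* `CorrStatement M q hq hqM m Cond` — the corrector `H` ([GNorm]), for functions `f` satisfying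
  an arbitrary condition `Cond σs f` (`Cond = fun _ => ModelFPlan.NormCond M q m` in
  `ModelFStatement`).
-/
import Mathlib
import Fermat.Agent.S34.Model2PtsB
import Fermat.Agent.S35.ModelFPlan
import Fermat.Agent.S35.FrobAct
import Fermat.Agent.S35.ResPt
import Fermat.Agent.S18.ResOK

set_option autoImplicit false

open ModularCurve AlgebraicCurve HahnSeries

namespace Fermat.Agent.S35.ModelFAsm

open Fermat.Agent.S18 Fermat.Agent.S18.Arith Fermat.Agent.S34

noncomputable section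

set_option synthInstance.maxHeartbeats 400000

variable (M q : ℕ) [NeZero M] [NeZero q] (hq : q.Prime) (hqM : ¬ q ∣ M)

/-! ### Vocabulary -/

/-- The coordinate `J = j · j_q`. -/
abbrev tJ (K : IntermediateField ℚ Qb) : FK (M * q) K := WKInst.JK M q hq hqM K

/-- The component valuation rings `![V1, V2]`. -/
abbrev Vc (A : ValuationSubring Qb) (K : IntermediateField ℚ Qb)
    (hdvr : IsDiscreteValuationRing (OK A K)) : Fin 2 → ValuationSubring (FK (M * q) K) :=
  ChartHypInst.Vfam (WK.wK M q hq hqM K) hdvr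

/-- The vertical primes of a chart. -/
abbrev Pc (A : ValuationSubring Qb) (K : IntermediateField ℚ Qb)
    (hdvr : IsDiscreteValuationRing (OK A K)) (π : OK A K)
    (R : Subalgebra (OK A K) (FK (M * q) K)) : Fin 2 → Ideal R :=
  ChartHypInst.Pfam (WK.wK M q hq hqM K) hdvr π R

/-! ### The two open inputs -/

/-- **[NodeRatInst]**: the crossing points of the two branches on the charts `chart J`,
`chart J⁻¹` are stable under `Σ = tauE (σs * σs)` (the `node` field of
`ModelFPlan.ChartModelF`, verbatim). -/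
def NodeStatement : Prop :=
  ∀ A : ValuationSubring Qb, A.LiesOverPrime q →
  ∀ σs : Qb ≃ₐ[ℚ] Qb, A.IsFrobeniusAt σs q →
  ∀ K : IntermediateField ℚ Qb, ∀ (hB : BaseFacts q A K) (_ : BaseNormal.Stable K)
    (hK : TauAct.Stable K (σs * σs)) (π : OK A K), Irreducible π →
  ∀ R : Subalgebra (OK A K) (FK (M * q) K),
    R = chart (M * q) A K (tJ M q hq hqM K) ∨ R = chart (M * q) A K (tJ M q hq hqM K)⁻¹ →
  ∀ n : Ideal R, n.IsMaximal → algebraMap (OK A K) R π ∈ n →
    Pc M q hq hqM A K hB.dvr π R 0 ≤ n → Pc M q hq hqM A K hB.dvr π R 1 ≤ n →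
    ∀ r r' : R, TauAct.tauE (M * q) hK (algebraMap R (FK (M * q) K) r) =
      algebraMap R (FK (M * q) K) r' → (r ∈ n ↔ r' ∈ n)

/-- **[GNorm]** (the corrector), for the functions `f` satisfying `Cond σs f`: there is a finite set
`S` of constants such that over every Galois-stable base `K ⊇ S` with `BaseFacts` there is
`H ∈ V1ˣ ∩ V2ˣ` with `(Σ²f · f / (Σf)²) · H ^ m ≡ 1` modulo `π (V i)`, `Σ = tauE (σs * σs)`. -/
def CorrStatement (m : ℕ)
    (Cond : (Qb ≃ₐ[ℚ] Qb) → modularFunctionFieldBar (M * q) → Prop) : Prop :=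
  ∀ A : ValuationSubring Qb, A.LiesOverPrime q →
  ∀ σs : Qb ≃ₐ[ℚ] Qb, A.IsFrobeniusAt σs q →
  ∀ f : modularFunctionFieldBar (M * q), f ≠ 0 →
    (∀ P : Place Qb (modularFunctionFieldBar (M * q)), (m : ℤ) ∣ P.ord f) → Cond σs f →
  ∃ S : Finset Qb, ∀ K : IntermediateField ℚ Qb, ↑S ⊆ (K : Set Qb) →
    ∀ (hB : BaseFacts q A K) (_ : BaseNormal.Stable K) (hK : TauAct.Stable K (σs * σs))
      (π : OK A K), Irreducible π →
    ∀ fK : FK (M * q) K, Glob.toBar (M * q) K fK = f →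
    ∃ H : FK (M * q) K,
      (∀ i : Fin 2, H ∈ Vc M q hq hqM A K hB.dvr i ∧ H⁻¹ ∈ Vc M q hq hqM A K hB.dvr i) ∧
      ∀ i : Fin 2, ∃ z ∈ Vc M q hq hqM A K hB.dvr i,
        LocPlan.secondDiff (TauAct.tauE (M * q) hK) (TauAct.tauE (M * q) hK) fK * H ^ m - 1 =
          algebraMap (OK A K) (FK (M * q) K) π * z

/-! ### The Frobenius hypotheses -/

section Frob

variable {A : ValuationSubring Qb} {K : IntermediateField ℚ Qb}

/-- **[FrobInst]** `ModelFPlan.FrobHyp` for `Σ = tauE (σs * σs)`, `σs` a Frobenius lift at `A`,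
on any subalgebra `R` stable under the decomposition group. -/
theorem frobHyp_of (hdvr : IsDiscreteValuationRing (OK A K)) {π : OK A K} (hπ : Irreducible π)
    {σs : Qb ≃ₐ[ℚ] Qb} (hσ : A.IsFrobeniusAt σs q) (hK : TauAct.Stable K (σs * σs))
    (R : Subalgebra (OK A K) (FK (M * q) K))
    (hR : ∀ (σ : Qb ≃ₐ[ℚ] Qb) (_ : σ ∈ A.decompositionSubgroup ℚ) (hσK : TauAct.Stable K σ),
      ∀ x ∈ R, TauAct.tauE (M * q) hσK x ∈ R) :
    ModelFPlan.FrobHyp (R := R) π (Vc M q hq hqM A K hdvr) (q ^ 2) (TauAct.tauE (M * q) hK) := by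
  have hτ : σs * σs ∈ A.decompositionSubgroup ℚ :=
    mul_mem hσ.mem_decompositionSubgroup hσ.mem_decompositionSubgroup
  have hτ' : (σs * σs).symm ∈ A.decompositionSubgroup ℚ := TauAct.symm_mem_decomp A hτ
  have hmapV : ∀ (σ : Qb ≃ₐ[ℚ] Qb) (_ : σ ∈ A.decompositionSubgroup ℚ) (hσK : TauAct.Stable K σ)
      (i : Fin 2), ∀ x ∈ Vc M q hq hqM A K hdvr i,
        TauAct.tauE (M * q) hσK x ∈ Vc M q hq hqM A K hdvr i := by
    intro σ hσd hσK i x hx
    fin_cases i
    · exact FrobAct.tauE_mem_V1 hdvr hσd hσK hx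
    · exact FrobAct.tauE_mem_V2 (WK.wK M q hq hqM K) hdvr hσd hσK
        (WKInst.wK_tauE M q hq hqM hσK) hx
  refine ⟨fun r => ⟨⟨_, hR _ hτ hK r r.2⟩, rfl⟩,
    fun r => ⟨⟨_, hR _ hτ' hK.symm r r.2⟩, rfl⟩,
    fun i x hx => hmapV _ hτ hK i x hx,
    fun i x hx => hmapV _ hτ' hK.symm i x hx, fun c => ?_, ?_⟩
  · obtain ⟨z, hz⟩ := FrobAct.exists_tauE_sq_algebraMap_sub_pow (M * q) hdvr hπ hσ hK c
    exact ⟨z, hz⟩
  · obtain ⟨u, hu⟩ := FrobAct.exists_unit_tauE_pi (M * q) hdvr hπ hτ hK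
    exact ⟨u, u.isUnit, hu⟩

end Frob

/-! ### The assembly -/

/-- **[ModelFAsm]** in hypothesis form: a Frobenius model for every `f` with `m ∣ div f`
satisfying `Cond`, from [NodeRatInst] and the corrector statement for `Cond`. -/
theorem modelF_of_corr (m : ℕ)
    (Cond : (Qb ≃ₐ[ℚ] Qb) → modularFunctionFieldBar (M * q) → Prop) (hqm : ¬ q ∣ m)
    (hNode : NodeStatement M q hq hqM) (hCorr : CorrStatement M q hq hqM m Cond) :
    ∀ A : ValuationSubring Qb, A.LiesOverPrime q →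
    ∀ σs : Qb ≃ₐ[ℚ] Qb, A.IsFrobeniusAt σs q →
    ∀ f : modularFunctionFieldBar (M * q), f ≠ 0 →
      (∀ P : Place Qb (modularFunctionFieldBar (M * q)), (m : ℤ) ∣ P.ord f) → Cond σs f →
      Nonempty (ModelFPlan.ModelF (M * q) A m (q ^ 2) (σs * σs) f) := by
  intro A hA σs hσ f hf hdiv hcond
  have : Fact q.Prime := ⟨hq⟩
  obtain ⟨S₁, hS₁⟩ := Model2PtsB.ptsStatement M q hq hqM m A hA f hf hdiv
  obtain ⟨S₂, hS₂⟩ := hCorr A hA σs hσ f hf hdiv hcond
  classical
  obtain ⟨K, hSK, hB, hst, hfK, -⟩ := BaseNormal.exists_base (M * q) q A hA {f} (S₁ ∪ S₂)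
  have hSK₁ : ↑S₁ ⊆ (K : Set Qb) := fun x hx => hSK (by
    rw [Finset.coe_union]; exact Or.inl hx)
  have hSK₂ : ↑S₂ ⊆ (K : Set Qb) := fun x hx => hSK (by
    rw [Finset.coe_union]; exact Or.inr hx)
  have hK : TauAct.Stable K (σs * σs) :=
    ⟨fun c hc => hst _ c hc, fun c hc => hst (σs * σs).symm c hc⟩
  have hdvr := hB.dvr
  have hac : IsAlgClosed (IsLocalRing.ResidueField (OK A K)) :=
    ResOK.isAlgClosed_residueField_OK q A K hB
  obtain ⟨π, hπ⟩ := IsDiscreteValuationRing.exists_irreducible (OK A K)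
  have hdesc := Model2AsmB.red2Statement M q hq hqM A K hA hB π hπ
  obtain ⟨⟨hn0, hf0, hi0⟩, ⟨hnI, hfI, hiI⟩, hfin0, -⟩ := Model2AsmB.rings M q hq hqM A K hdvr
  have hyp0 := Model2AsmB.hyp_J M q hq hqM hπ hdesc
  have hypI := Model2AsmB.hyp_J_inv M q hq hqM hπ hdesc
  have hfKc : Glob.toBar (M * q) K ⟨(f : LaurentSeries Qb), hfK f (Finset.mem_singleton_self f)⟩
      = f := Subtype.ext rfl
  have p0 := hS₁ K hSK₁ hB π hπ _ hfKc _ (Or.inl rfl) hn0 hf0 hi0 _ hyp0
  have pI := hS₁ K hSK₁ hB π hπ _ hfKc _ (Or.inr rfl) hnI hfI hiI _ hypI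
  obtain ⟨H, hHu, hHc⟩ := hS₂ K hSK₂ hB hst hK π hπ _ hfKc
  have st0 : ∀ (σ : Qb ≃ₐ[ℚ] Qb) (_ : σ ∈ A.decompositionSubgroup ℚ) (hσK : TauAct.Stable K σ),
      ∀ x ∈ chart (M * q) A K (tJ M q hq hqM K),
        TauAct.tauE (M * q) hσK x ∈ chart (M * q) A K (tJ M q hq hqM K) :=
    fun σ hσd hσK x hx => WKInst.tauE_mem_chart_JK M q hq hqM A hσK hσd hx
  have stI : ∀ (σ : Qb ≃ₐ[ℚ] Qb) (_ : σ ∈ A.decompositionSubgroup ℚ) (hσK : TauAct.Stable K σ),
      ∀ x ∈ chart (M * q) A K (tJ M q hq hqM K)⁻¹,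
        TauAct.tauE (M * q) hσK x ∈ chart (M * q) A K (tJ M q hq hqM K)⁻¹ :=
    fun σ hσd hσK x hx => WKInst.tauE_mem_chart_JK_inv M q hq hqM A hσK hσd hx
  exact ⟨{
    K := K
    dvr := hdvr
    π := π
    irr := hπ
    hm := FinalCore.isUnit_natCast_OK A hA K hqm
    t := tJ M q hq hqM K
    t_ne := WKInst.JK_ne_zero M q hq hqM K
    fin0 := hfin0
    fK := ⟨(f : LaurentSeries Qb), hfK f (Finset.mem_singleton_self f)⟩
    fK_coe := hfKc
    σ := TauAct.tauE (M * q) hK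
    σ_coe := Model2AsmB.toBar_tauE (M * q) hK
    V := Vc M q hq hqM A K hdvr
    H := H
    H_unit := hHu
    H_cong := hHc
    c0 := {
      noeth := hn0
      frac := hf0
      intcl := hi0
      P := Pc M q hq hqM A K hdvr π _
      hyp := hyp0
      frob := frobHyp_of M q hq hqM hdvr hπ hσ hK _ st0
      branch := p0.1
      trans := p0.2.1
      hor := p0.2.2
      res := fun n hn hπn r => ResPt.res_chart (M * q) A K _ π hπ n hn hπn r
      node := hNode A hA σs hσ K hB hst hK π hπ _ (Or.inl rfl) }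
    cInf := {
      noeth := hnI
      frac := hfI
      intcl := hiI
      P := Pc M q hq hqM A K hdvr π _
      hyp := hypI
      frob := frobHyp_of M q hq hqM hdvr hπ hσ hK _ stI
      branch := pI.1
      trans := pI.2.1
      hor := pI.2.2
      res := fun n hn hπn r => ResPt.res_chart (M * q) A K _ π hπ n hn hπn r
      node := hNode A hA σs hσ K hB hst hK π hπ _ (Or.inr rfl) } }⟩

/-- **[ModelF]** from [NodeRatInst] and [GNorm]: `ModelFPlan.ModelFStatement M q m`. -/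
theorem modelFStatement [NeZero (M * q)] (m : ℕ) (hqm : ¬ q ∣ m)
    (hNode : NodeStatement M q hq hqM)
    (hCorr : CorrStatement M q hq hqM m (fun _ => ModelFPlan.NormCond M q m)) :
    ModelFPlan.ModelFStatement M q m :=
  modelF_of_corr M q hq hqM m (fun _ => ModelFPlan.NormCond M q m) hqm hNode hCorr

end

end Fermat.Agent.S35.ModelFAsm
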