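/-
S35 — NodeRat.lean (helper95): crossing points of the two-branch special fibre are fixed by the
square of Frobenius, abstractly.

Picture (level `N = M q`, `q ∤ M`): `S` = a chart at level `M`, `R` = the corresponding
`w_q`-stable chart at level `N`, `α β : S →+* R` the two degeneracy maps, `ρ₁ ρ₂ : R →+* L` the
two Gauss reductions (`L = k((Q))`), `F : L →+* L` the substitution `Q ↦ Q ^ q`, `Sg : R ≃+* R`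
the action of `σ²` (`σ` a Frobenius lift).  Inputs, all at the level of ring homs:

* `h1α`, `h1β`, `hαβ` : `ρ₂ ∘ α = F ∘ ρ₁ ∘ α`, `ρ₁ ∘ β = F ∘ ρ₂ ∘ β`, `ρ₁ ∘ α = ρ₂ ∘ β`;
* `hs1`  : `ρ₁ (R) = ρ₁ (α S)`   (branch 1 is the level-`M` special fibre);
* `hFr`  : `F (F (ρ₁ (Sg x))) = ρ₁ x ^ Q`   (`ρ₁ ∘ Sg = φ² ∘ ρ₁` and `z ^ q = F (φ z)`, `Q = q²`).

Output: `Sg x ∈ n ↔ x ∈ n` for every prime `n` of `R` containing both branches `ker ρ₁`,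
`ker ρ₂` (a crossing point).  Mathlib only.
-/
import Mathlib

set_option autoImplicit false

namespace Fermat.Agent.S35.NodeRat

variable {S R L : Type*} [CommRing S] [CommRing R] [CommRing L]

/-- Membership in an ideal `n ⊇ ker ρ` only depends on the image under `ρ`. -/
theorem mem_iff_of_map_eq (ρ : R →+* L) (n : Ideal R) (hn : RingHom.ker ρ ≤ n) {x y : R}
    (h : ρ x = ρ y) : x ∈ n ↔ y ∈ n := by
  have hk : x - y ∈ n := hn (by rw [RingHom.mem_ker, map_sub, h, sub_self])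
  constructor
  · intro hx
    have : y = x - (x - y) := by ring
    rw [this]
    exact n.sub_mem hx hk
  · intro hy
    have : x = y + (x - y) := by ring
    rw [this]
    exact n.add_mem hy hk

/-- One turn around the crossing: if `ρ₁ (α y₂) = F (F (ρ₁ (α y)))` then `α y ∈ n ↔ α y₂ ∈ n`
for every ideal `n` containing both branches. -/
theorem alpha_mem_iff (α β : S →+* R) (ρ₁ ρ₂ : R →+* L) (F : L →+* L)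
    (h1α : ∀ y : S, ρ₂ (α y) = F (ρ₁ (α y))) (h1β : ∀ y : S, ρ₁ (β y) = F (ρ₂ (β y)))
    (hαβ : ∀ y : S, ρ₁ (α y) = ρ₂ (β y))
    (hs1 : ∀ x : R, ∃ y : S, ρ₁ x = ρ₁ (α y))
    (n : Ideal R) (hn1 : RingHom.ker ρ₁ ≤ n) (hn2 : RingHom.ker ρ₂ ≤ n)
    {y y₂ : S} (h : ρ₁ (α y₂) = F (F (ρ₁ (α y)))) : α y ∈ n ↔ α y₂ ∈ n := by
  obtain ⟨y', hy'⟩ := hs1 (β y)
  -- `ρ₂ (α y) = ρ₂ (β y')`
  have e2 : ρ₂ (α y) = ρ₂ (β y') := by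
    rw [h1α, ← hαβ y', ← hy', h1β, ← hαβ y]
  -- `ρ₁ (β y') = ρ₁ (α y₂)`
  have e1 : ρ₁ (β y') = ρ₁ (α y₂) := by
    rw [h, h1β, ← hαβ y', ← hy', h1β, ← hαβ y]
  exact (mem_iff_of_map_eq ρ₂ n hn2 e2).trans (mem_iff_of_map_eq ρ₁ n hn1 e1)

/-- **[NodeRat]** A crossing point `n` (a prime containing both branches) is stable under `Sg`:
`Sg x ∈ n ↔ x ∈ n`. -/
theorem sigma_mem_iff (α β : S →+* R) (ρ₁ ρ₂ : R →+* L) (F : L →+* L) (Sg : R ≃+* R) (Q : ℕ)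
    (h1α : ∀ y : S, ρ₂ (α y) = F (ρ₁ (α y))) (h1β : ∀ y : S, ρ₁ (β y) = F (ρ₂ (β y)))
    (hαβ : ∀ y : S, ρ₁ (α y) = ρ₂ (β y))
    (hs1 : ∀ x : R, ∃ y : S, ρ₁ x = ρ₁ (α y))
    (hFr : ∀ x : R, F (F (ρ₁ (Sg x))) = ρ₁ x ^ Q)
    (n : Ideal R) [hn : n.IsPrime] (hn1 : RingHom.ker ρ₁ ≤ n) (hn2 : RingHom.ker ρ₂ ≤ n)
    (hQ : Q ≠ 0) (x : R) : Sg x ∈ n ↔ x ∈ n := by
  obtain ⟨y, hy⟩ := hs1 x
  obtain ⟨yS, hyS⟩ := hs1 (Sg x)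
  have h : ρ₁ (α (y ^ Q)) = F (F (ρ₁ (α yS))) := by
    rw [← hyS, hFr, map_pow, map_pow, hy]
  have h1 : Sg x ∈ n ↔ α yS ∈ n := mem_iff_of_map_eq ρ₁ n hn1 hyS
  have h2 : α yS ∈ n ↔ α (y ^ Q) ∈ n :=
    alpha_mem_iff α β ρ₁ ρ₂ F h1α h1β hαβ hs1 n hn1 hn2 h
  have h3 : α (y ^ Q) ∈ n ↔ α y ∈ n := by
    rw [map_pow]
    exact ⟨fun hh => hn.mem_of_pow_mem Q hh, fun hh => Ideal.pow_mem_of_mem n hh Q (Nat.pos_of_ne_zero hQ)⟩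
  have h4 : α y ∈ n ↔ x ∈ n := (mem_iff_of_map_eq ρ₁ n hn1 hy).symm
  exact h1.trans (h2.trans (h3.trans h4))

/-- `n` is stable under `Sg`: `n.comap Sg = n`. -/
theorem comap_sigma_eq (α β : S →+* R) (ρ₁ ρ₂ : R →+* L) (F : L →+* L) (Sg : R ≃+* R) (Q : ℕ)
    (h1α : ∀ y : S, ρ₂ (α y) = F (ρ₁ (α y))) (h1β : ∀ y : S, ρ₁ (β y) = F (ρ₂ (β y)))
    (hαβ : ∀ y : S, ρ₁ (α y) = ρ₂ (β y))
    (hs1 : ∀ x : R, ∃ y : S, ρ₁ x = ρ₁ (α y))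
    (hFr : ∀ x : R, F (F (ρ₁ (Sg x))) = ρ₁ x ^ Q)
    (n : Ideal R) [n.IsPrime] (hn1 : RingHom.ker ρ₁ ≤ n) (hn2 : RingHom.ker ρ₂ ≤ n)
    (hQ : Q ≠ 0) : n.comap (Sg : R →+* R) = n := by
  ext x
  rw [Ideal.mem_comap]
  exact sigma_mem_iff α β ρ₁ ρ₂ F Sg Q h1α h1β hαβ hs1 hFr n hn1 hn2 hQ x

/-- The inverse also stabilises `n`. -/
theorem sigma_symm_mem_iff (α β : S →+* R) (ρ₁ ρ₂ : R →+* L) (F : L →+* L) (Sg : R ≃+* R)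
    (Q : ℕ)
    (h1α : ∀ y : S, ρ₂ (α y) = F (ρ₁ (α y))) (h1β : ∀ y : S, ρ₁ (β y) = F (ρ₂ (β y)))
    (hαβ : ∀ y : S, ρ₁ (α y) = ρ₂ (β y))
    (hs1 : ∀ x : R, ∃ y : S, ρ₁ x = ρ₁ (α y))
    (hFr : ∀ x : R, F (F (ρ₁ (Sg x))) = ρ₁ x ^ Q)
    (n : Ideal R) [n.IsPrime] (hn1 : RingHom.ker ρ₁ ≤ n) (hn2 : RingHom.ker ρ₂ ≤ n)
    (hQ : Q ≠ 0) (x : R) : Sg.symm x ∈ n ↔ x ∈ n := by
  have h := sigma_mem_iff α β ρ₁ ρ₂ F Sg Q h1α h1β hαβ hs1 hFr n hn1 hn2 hQ (Sg.symm x)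
  rw [RingEquiv.apply_symm_apply] at h
  exact h.symm

end Fermat.Agent.S35.NodeRat
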