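/-
S35 — NodeRatInst.lean (helper95), row [NodeRat] of the MODULAR block, chart form at level
`N = M q` (`q ∤ M`): the crossing points of the two branches of the special fibre of a
`w_q`-stable chart `chart (M q) A K t` are fixed by `Sg = σ²`, `σ` a Frobenius lift.

`S35/NodeRat.sigma_mem_iff` (abstract, Mathlib only) is instantiated with
* `S = RM` (a level-`M` chart), `R = chart (M q) A K t`, `α = WK.alphaK`, `β = WK.betaK`,
* `ρ₁ ρ₂ = V12.rho1 / V12.rho2` (Gauss reduction, Gauss reduction after `w_q`),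
* `F = qExpand k q` (`Q ↦ Q ^ q` on `k((Q))`, `k` the residue field of `A`),
* `Sg` any ring automorphism of `F_K(M q)` stabilising the chart with
  `GRel A x y → GRel A (Sg x) (φ (φ y))`, `φ` the coefficientwise `q`-Frobenius (for `Sg = σ²`
  this is [FrobAct] (F1) twice).

The reduction formulas `ρ₂ α = F ρ₁ α`, `ρ₁ β = F ρ₂ β`, `ρ₁ α = ρ₂ β` come from `WK.coe_alphaK`,
`WK.coe_betaK`, `WK.wK_betaK`; `ρ₁ (R) = ρ₁ (α S)` is the input (B1) of `S34/Branch`; and
`F (F (φ (φ z))) = z ^ q²` is `S37.KC.pow_char_eq_qExpand_frobenius` twice.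
-/
import Mathlib
import Fermat.Agent.S34.PointHyp
import Fermat.Agent.S34.GaussV
import Fermat.Agent.S34.V12
import Fermat.Agent.S34.V12Rel
import Fermat.Agent.S34.V12J
import Fermat.Agent.S34.ResDeg
import Fermat.Agent.S34.WK
import Fermat.Agent.S34.WKInst
import Fermat.Agent.S34.TauAct
import Fermat.Agent.S37.KC
import Fermat.Agent.S35.NodeRat
import Fermat.Agent.S35.FrobAct

set_option autoImplicit false

noncomputable section

namespace Fermat.Agent.S35.NodeRatInst

open ModularCurve HahnSeries Fermat.Agent.S18 Fermat.Agent.S18.Arith Fermat.Agent.S18.ModelPlan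
open Fermat.Agent.S34

/-! ### Laurent series: `F (F (φ (φ z))) = z ^ q²` -/

section Series

variable {k : Type*} [CommRing k]

/-- In characteristic `q`: `(φ² z)(Q^{q²}) = z ^ q²`, `φ` the coefficientwise Frobenius. -/
theorem qExpand_qExpand_frob_frob (q : ℕ) [Fact q.Prime] [NeZero q] [CharP k q]
    (z : LaurentSeries k) :
    qExpand k q (qExpand k q (coeffMap (frobenius k q) (coeffMap (frobenius k q) z)))
      = z ^ (q ^ 2) := by
  rw [pow_two, pow_mul, S37.KC.pow_char_eq_qExpand_frobenius q z,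
    S37.KC.pow_char_eq_qExpand_frobenius q (qExpand k q (coeffMap (frobenius k q) z)),
    coeffMap_qExpand]

end Series

/-! ### The generic chart form -/

section Inst

variable (M q : ℕ) [NeZero M] [NeZero q] (hq : q.Prime) (hqM : ¬ q ∣ M)
variable {A : ValuationSubring Qb} {K : IntermediateField ℚ Qb}

/-- **[NodeRat], chart form at level `M q`.**  Let `R = chart (M q) A K t` be a `w_q`-stable chart
with vertical ideals `P` (`LocPlan.ChartHyp π ![V1, V2] P`), lying over the level-`M` chart `RM`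
(`hmap`, `hBr`).  Let `Sg` be a ring automorphism of `F_K(M q)` stabilising `R` whose effect on
Gauss reductions is the square of the coefficientwise Frobenius.  Then every prime `n` of `R`
containing both `P 0` and `P 1` (a crossing point of the special fibre) is `Sg`-stable. -/
theorem sigma_node [Fact q.Prime] [CharP (IsLocalRing.ResidueField A) q]
    (hdvr : IsDiscreteValuationRing (OK A K))
    (π : OK A K) (hπ : Irreducible π) (t : FK (M * q) K)
    (RM : Subalgebra (OK A K) (FK M K))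
    (P : Fin 2 → Ideal (chart (M * q) A K t))
    (hyp : LocPlan.ChartHyp π
      ![GaussV.V1 (M * q) A K hdvr, GaussV.V2 (WK.wK M q hq hqM K) hdvr] P)
    (hmap : ∀ y ∈ RM, WK.alphaK M q K y ∈ chart (M * q) A K t)
    (hwR : ∀ x ∈ chart (M * q) A K t, WK.wK M q hq hqM K x ∈ chart (M * q) A K t)
    (hBr : ∀ x ∈ chart (M * q) A K t, ∃ x' ∈ RM,
      GRel A (((x : FK (M * q) K) : LaurentSeries Qb) - ((x' : FK M K) : LaurentSeries Qb)) 0)
    (Sg : FK (M * q) K ≃+* FK (M * q) K)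
    (hSgR : ∀ x ∈ chart (M * q) A K t, Sg x ∈ chart (M * q) A K t)
    (hSgR' : ∀ x ∈ chart (M * q) A K t, Sg.symm x ∈ chart (M * q) A K t)
    (hSg : ∀ (x : FK (M * q) K) (y : LaurentSeries (IsLocalRing.ResidueField A)),
      GRel A ((x : FK (M * q) K) : LaurentSeries Qb) y →
      GRel A ((Sg x : FK (M * q) K) : LaurentSeries Qb)
        (coeffMap (frobenius (IsLocalRing.ResidueField A) q)
          (coeffMap (frobenius (IsLocalRing.ResidueField A) q) y))) :
    ∀ n : Ideal (chart (M * q) A K t), n.IsPrime → P 0 ≤ n → P 1 ≤ n →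
      ∀ r r' : chart (M * q) A K t, Sg (r : FK (M * q) K) = (r' : FK (M * q) K) →
        (r' ∈ n ↔ r ∈ n) := by
  intro n hn h0 h1
  have hG := GRel.gRelStatement A
  set w := WK.wK M q hq hqM K with hw
  have hwO := WK.wK_algebraMap_OK M q hq hqM K A
  -- `chart ⊆ V1 ∩ V2`
  have hR : ∀ x ∈ chart (M * q) A K t, x ∈ GaussV.V12 w hdvr :=
    fun x hx => ⟨hyp.le 0 ⟨x, hx⟩, hyp.le 1 ⟨x, hx⟩⟩
  set ρ₁ := V12.rho1 w hdvr (chart (M * q) A K t) hR with hρ₁
  set ρ₂ := V12.rho2 w hdvr (chart (M * q) A K t) hR with hρ₂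
  have hρ1 : ∀ x : chart (M * q) A K t,
      GRel A (((x : FK (M * q) K) : FK (M * q) K) : LaurentSeries Qb) (ρ₁ x) :=
    V12.gRel_rho1 w hdvr _ hR
  -- the vertical ideals are the kernels of the two reductions
  have hn1 : RingHom.ker ρ₁ ≤ n := by
    intro r hr
    apply h0
    rw [hyp.mem_P 0 r]
    exact (V12.mem_PP w hdvr _ hR hwO hπ 0 r).mp hr
  have hn2 : RingHom.ker ρ₂ ≤ n := by
    intro r hr
    apply h1
    rw [hyp.mem_P 1 r]
    exact (V12.mem_PP w hdvr _ hR hwO hπ 1 r).mp hr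
  -- the restricted maps
  set a : RM →+* chart (M * q) A K t :=
    PointHyp.restrictHom (M * q) M A K RM (chart (M * q) A K t) (WK.alphaK M q K) hmap with ha
  set b : RM →+* chart (M * q) A K t :=
    PointHyp.restrictHom (M * q) M A K RM (chart (M * q) A K t) (WK.betaK M q hq hqM K)
      (fun y hy => hwR _ (hmap y hy)) with hb
  set e : chart (M * q) A K t ≃+* chart (M * q) A K t :=
    PointHyp.restrictEquiv (M * q) A K (chart (M * q) A K t) Sg hSgR hSgR' with he
  have ha_coe : ∀ y : RM, ((((a y : chart (M * q) A K t) : FK (M * q) K)) : LaurentSeries Qb)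
      = ((y : FK M K) : LaurentSeries Qb) := fun y => WK.coe_alphaK M q K (y : FK M K)
  have hb_coe : ∀ y : RM, ((((b y : chart (M * q) A K t) : FK (M * q) K)) : LaurentSeries Qb)
      = qExpand Qb q ((y : FK M K) : LaurentSeries Qb) :=
    fun y => WK.coe_betaK M q hq hqM K (y : FK M K)
  have hwa : ∀ y : RM, w ((a y : chart (M * q) A K t) : FK (M * q) K)
      = ((b y : chart (M * q) A K t) : FK (M * q) K) := fun _ => rfl
  have hwb : ∀ y : RM, w ((b y : chart (M * q) A K t) : FK (M * q) K)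
      = ((a y : chart (M * q) A K t) : FK (M * q) K) :=
    fun y => WK.wK_betaK M q hq hqM K (y : FK M K)
  -- Gauss reduction of `y ∈ RM`
  have hy1 : ∀ y : RM, GRel A ((y : FK M K) : LaurentSeries Qb) (ρ₁ (a y)) := by
    intro y
    have h := hρ1 (a y)
    rwa [ha_coe] at h
  -- the three reduction formulas
  have hαβ : ∀ y : RM, ρ₁ (a y) = ρ₂ (b y) := by
    intro y
    symm
    refine V12.rho2_eq_of_gRel w hdvr _ hR (b y) ?_
    rw [hwb, ha_coe]
    exact hy1 y
  have h1α : ∀ y : RM, ρ₂ (a y) = qExpand (IsLocalRing.ResidueField A) q (ρ₁ (a y)) := by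
    intro y
    refine V12.rho2_eq_of_gRel w hdvr _ hR (a y) ?_
    rw [hwa, hb_coe]
    exact V12Rel.gRel_qExpand A q (hy1 y)
  have h1β : ∀ y : RM, ρ₁ (b y) = qExpand (IsLocalRing.ResidueField A) q (ρ₂ (b y)) := by
    intro y
    rw [← hαβ y]
    refine V12.rho1_eq_of_gRel w hdvr _ hR (b y) ?_
    rw [hb_coe]
    exact V12Rel.gRel_qExpand A q (hy1 y)
  -- (B1): branch 1 is the level-`M` special fibre
  have hs1 : ∀ x : chart (M * q) A K t, ∃ y : RM, ρ₁ x = ρ₁ (a y) := by
    intro x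
    obtain ⟨x', hx', hrel⟩ := hBr x x.2
    refine ⟨⟨x', hx'⟩, ?_⟩
    have h3 := V12Rel.gRel_sub A (hρ1 x) (hy1 ⟨x', hx'⟩)
    exact sub_eq_zero.mp (hG.unique _ _ _ h3 hrel)
  -- Frobenius
  have hFr : ∀ x : chart (M * q) A K t,
      qExpand (IsLocalRing.ResidueField A) q
        (qExpand (IsLocalRing.ResidueField A) q (ρ₁ (e x))) = ρ₁ x ^ (q ^ 2) := by
    intro x
    have h4 : ρ₁ (e x) = coeffMap (frobenius (IsLocalRing.ResidueField A) q)
        (coeffMap (frobenius (IsLocalRing.ResidueField A) q) (ρ₁ x)) :=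
      V12.rho1_eq_of_gRel w hdvr _ hR (e x) (hSg _ _ (hρ1 x))
    rw [h4, qExpand_qExpand_frob_frob]
  intro r r' hrr'
  have hr' : r' = e r := Subtype.ext hrr'.symm
  rw [hr']
  have := hn
  exact NodeRat.sigma_mem_iff a b ρ₁ ρ₂ (qExpand (IsLocalRing.ResidueField A) q) e (q ^ 2)
    h1α h1β hαβ hs1 hFr n hn1 hn2 (pow_ne_zero 2 hq.ne_zero) r

/-- **[NodeRat] for `Σ = tauE (σs * σs)`**, `σs` a Frobenius lift at `A`: the `node` field of
`S35/ModelFPlan.ChartModelF` (= `LocFPlan.FixedBy Σ n` at every crossing point `n`) for a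
`w_q`-stable chart `chart (M q) A K t` with a `Σ`-fixed coordinate `t`, lying over the level-`M`
chart `RM`. -/
theorem node_tau [Fact q.Prime] (hA : A.LiesOverPrime q)
    (hdvr : IsDiscreteValuationRing (OK A K))
    (π : OK A K) (hπ : Irreducible π) (t : FK (M * q) K)
    (RM : Subalgebra (OK A K) (FK M K))
    (P : Fin 2 → Ideal (chart (M * q) A K t))
    (hyp : LocPlan.ChartHyp π
      ![GaussV.V1 (M * q) A K hdvr, GaussV.V2 (WK.wK M q hq hqM K) hdvr] P)
    (hmap : ∀ y ∈ RM, WK.alphaK M q K y ∈ chart (M * q) A K t)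
    (hwR : ∀ x ∈ chart (M * q) A K t, WK.wK M q hq hqM K x ∈ chart (M * q) A K t)
    (hBr : ∀ x ∈ chart (M * q) A K t, ∃ x' ∈ RM,
      GRel A (((x : FK (M * q) K) : LaurentSeries Qb) - ((x' : FK M K) : LaurentSeries Qb)) 0)
    {σs : Qb ≃ₐ[ℚ] Qb} (hσ : A.IsFrobeniusAt σs q) (hK2 : TauAct.Stable K (σs * σs))
    (ht : TauAct.tauE (M * q) hK2 t = t) :
    ∀ n : Ideal (chart (M * q) A K t), n.IsMaximal →
      algebraMap (OK A K) (chart (M * q) A K t) π ∈ n → P 0 ≤ n → P 1 ≤ n →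
      ∀ r r' : chart (M * q) A K t,
        TauAct.tauE (M * q) hK2 (algebraMap (chart (M * q) A K t) (FK (M * q) K) r)
          = algebraMap (chart (M * q) A K t) (FK (M * q) K) r' → (r ∈ n ↔ r' ∈ n) := by
  intro n hn _ h0 h1 r r' hrr'
  have : CharP (IsLocalRing.ResidueField A) q := BaseRes.charP_residueField q A hA
  have hd : σs * σs ∈ A.decompositionSubgroup ℚ :=
    mul_mem hσ.mem_decompositionSubgroup hσ.mem_decompositionSubgroup
  have ht' : TauAct.tauE (M * q) hK2.symm t = t := by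
    rw [← TauAct.tauE_symm_eq (M * q) hK2, RingEquiv.symm_apply_eq, ht]
  refine (sigma_node M q hq hqM hdvr π hπ t RM P hyp hmap hwR hBr (TauAct.tauE (M * q) hK2)
    (fun x hx => TauAct.tauE_mem_chart (M * q) A hd hK2 ht hx)
    (fun x hx => ?_) (fun x y h => ?_) n hn.isPrime h0 h1 r r' hrr').symm
  · rw [TauAct.tauE_symm_eq (M * q) hK2]
    exact TauAct.tauE_mem_chart (M * q) A (TauAct.symm_mem_decomp A hd) hK2.symm ht' hx
  · rw [coeffMap_coeffMap]
    exact FrobAct.gRel_coeffMap_frob_sq A hσ h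

/-- **[NodeRat], closed form for `chart J`**, `J = j · j_q` (`WKInst.JK`): the `node` field of
`S35/ModelFPlan.ChartModelF` for `Σ = tauE (σs * σs)`, `σs` a Frobenius lift at `A`. -/
theorem node_JK [Fact q.Prime] (hA : A.LiesOverPrime q) (hB : BaseFacts q A K)
    (π : OK A K) (hπ : Irreducible π)
    (P : Fin 2 → Ideal (chart (M * q) A K (WKInst.JK M q hq hqM K)))
    (hyp : LocPlan.ChartHyp π
      ![GaussV.V1 (M * q) A K hB.dvr, GaussV.V2 (WK.wK M q hq hqM K) hB.dvr] P)
    {σs : Qb ≃ₐ[ℚ] Qb} (hσ : A.IsFrobeniusAt σs q) (hK2 : TauAct.Stable K (σs * σs)) :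
    ∀ n : Ideal (chart (M * q) A K (WKInst.JK M q hq hqM K)), n.IsMaximal →
      algebraMap (OK A K) (chart (M * q) A K (WKInst.JK M q hq hqM K)) π ∈ n →
      P 0 ≤ n → P 1 ≤ n →
      ∀ r r' : chart (M * q) A K (WKInst.JK M q hq hqM K),
        TauAct.tauE (M * q) hK2
            (algebraMap (chart (M * q) A K (WKInst.JK M q hq hqM K)) (FK (M * q) K) r)
          = algebraMap (chart (M * q) A K (WKInst.JK M q hq hqM K)) (FK (M * q) K) r' →
        (r ∈ n ↔ r' ∈ n) :=
  node_tau M q hq hqM hA hB.dvr π hπ (WKInst.JK M q hq hqM K) (R0 M q A K) P hyp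
    (fun _ hy => WKInst.alphaK_mem_chart_JK M q hq hqM A K hy)
    (fun _ hx => WKInst.wK_mem_chart_JK M q hq hqM A K hx)
    (fun x hx => V12J.exists_level_JK M q hq hqM A K hA hB (ResDeg.hf1 M q hq hqM hA hB) x hx)
    hσ hK2 (WKInst.tauE_JK M q hq hqM hK2)

/-- **[NodeRat], closed form for `chart J⁻¹`**. -/
theorem node_JK_inv [Fact q.Prime] (hA : A.LiesOverPrime q) (hB : BaseFacts q A K)
    (π : OK A K) (hπ : Irreducible π)
    (P : Fin 2 → Ideal (chart (M * q) A K (WKInst.JK M q hq hqM K)⁻¹))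
    (hyp : LocPlan.ChartHyp π
      ![GaussV.V1 (M * q) A K hB.dvr, GaussV.V2 (WK.wK M q hq hqM K) hB.dvr] P)
    {σs : Qb ≃ₐ[ℚ] Qb} (hσ : A.IsFrobeniusAt σs q) (hK2 : TauAct.Stable K (σs * σs)) :
    ∀ n : Ideal (chart (M * q) A K (WKInst.JK M q hq hqM K)⁻¹), n.IsMaximal →
      algebraMap (OK A K) (chart (M * q) A K (WKInst.JK M q hq hqM K)⁻¹) π ∈ n →
      P 0 ≤ n → P 1 ≤ n →
      ∀ r r' : chart (M * q) A K (WKInst.JK M q hq hqM K)⁻¹,
        TauAct.tauE (M * q) hK2
            (algebraMap (chart (M * q) A K (WKInst.JK M q hq hqM K)⁻¹) (FK (M * q) K) r)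
          = algebraMap (chart (M * q) A K (WKInst.JK M q hq hqM K)⁻¹) (FK (M * q) K) r' →
        (r ∈ n ↔ r' ∈ n) :=
  node_tau M q hq hqM hA hB.dvr π hπ (WKInst.JK M q hq hqM K)⁻¹ (Rinf M q A K) P hyp
    (fun _ hy => WKInst.alphaK_mem_chart_JK_inv M q hq hqM A K hy)
    (fun _ hx => WKInst.wK_mem_chart_JK_inv M q hq hqM A K hx)
    (fun x hx => V12J.exists_level_JK_inv M q hq hqM A K hA hB (ResDeg.hf1 M q hq hqM hA hB) x hx)
    hσ hK2 (WKInst.tauE_JK_inv M q hq hqM hK2)

end Inst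

end Fermat.Agent.S35.NodeRatInst

end
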