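/-
S35 — ModelFTop.lean (helper10): the modular block of [E] with [NodeRatInst] discharged.

* `nodeStatement`        : `ModelFAsm.NodeStatement M q hq hqM` (helper95's
                           `NodeRatInst.node_JK`, `node_JK_inv`);
* `modelFStatementOf`    : `FCorePlanG.ModelFStatementOf M q m Cond` from the corrector statement
                           `ModelFAsm.CorrStatement M q hq hqM m Cond` alone (any condition
                           `Cond σs f`);
* `modelFStatement_of_corr` : `ModelFPlan.ModelFStatement M q m` from the corrector statement for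
                           `Cond = fun _ => ModelFPlan.NormCond M q m` ([GNorm]).
-/
import Mathlib
import Fermat.Agent.S35.ModelFAsm
import Fermat.Agent.S35.NodeRatInst
import Fermat.Agent.S35.FCorePlanG

set_option autoImplicit false

open ModularCurve AlgebraicCurve HahnSeries

namespace Fermat.Agent.S35.ModelFTop

open Fermat.Agent.S18 Fermat.Agent.S18.Arith Fermat.Agent.S34

set_option synthInstance.maxHeartbeats 400000

variable (M q : ℕ) [NeZero M] [NeZero q] (hq : q.Prime) (hqM : ¬ q ∣ M)

/-- **[NodeRatInst]**, in the shape consumed by the assembly. -/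
theorem nodeStatement : ModelFAsm.NodeStatement M q hq hqM := by
  intro A hA σs hσ K hB _ hK π hπ R hR
  have : Fact q.Prime := ⟨hq⟩
  have hdesc := Model2AsmB.red2Statement M q hq hqM A K hA hB π hπ
  rcases hR with rfl | rfl
  · exact NodeRatInst.node_JK M q hq hqM hA hB π hπ _ (Model2AsmB.hyp_J M q hq hqM hπ hdesc)
      hσ hK
  · exact NodeRatInst.node_JK_inv M q hq hqM hA hB π hπ _
      (Model2AsmB.hyp_J_inv M q hq hqM hπ hdesc) hσ hK

/-- **[ModelF]** for an arbitrary condition `Cond σs f`, from the corrector statement alone. -/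
theorem modelFStatementOf [NeZero (M * q)] (m : ℕ)
    (Cond : (Qb ≃ₐ[ℚ] Qb) → modularFunctionFieldBar (M * q) → Prop) (hqm : ¬ q ∣ m)
    (hCorr : ModelFAsm.CorrStatement M q hq hqM m Cond) :
    FCorePlanG.ModelFStatementOf M q m Cond :=
  ModelFAsm.modelF_of_corr M q hq hqM m Cond hqm (nodeStatement M q hq hqM) hCorr

/-- **[ModelF]** (`ModelFPlan.ModelFStatement`) from [GNorm] alone. -/
theorem modelFStatement_of_corr [NeZero (M * q)] (m : ℕ) (hqm : ¬ q ∣ m)
    (hCorr : ModelFAsm.CorrStatement M q hq hqM m (fun _ => ModelFPlan.NormCond M q m)) :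
    ModelFPlan.ModelFStatement M q m :=
  ModelFAsm.modelFStatement M q hq hqM m hqm (nodeStatement M q hq hqM) hCorr

end Fermat.Agent.S35.ModelFTop
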