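/-
S35 — ETop.lean (helper5, [E]-modular architect).  THE TOP OF BLOCK [E] in hypothesis form over
the single open input of the modular block, the corrector statement `ModelFAsm.CorrStatement`:

    CorrStatement (NormCond) ⟹ ModelFStatement          (`ModelFTop.modelFStatement_of_corr`)
                              ⟹ FrobCoreStatement        (`CoreAsmF.coreAsmF` + abstract leaves)
                              ⟹ FrobDivStatement         (`FJSide.frobDiv_of_core` + `Cech2`)
                              ⟹ NewPlan.FrobNewStatement (`FrobNew.frobNew_of_div`)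

* `frobDivStatement_of_corr` : `FCorePlan.FrobDivStatement M q m` from the corrector statement;
* `frobNewStatement_of_corr` : `NewPlan.FrobNewStatement` (the (E-out) of record) from the
                               corrector statement for all `M`, `q`, `m`.
-/
import Mathlib
import Fermat.Agent.S34.Cech2
import Fermat.Agent.S34.CutAtTop
import Fermat.Agent.S34.LocHw
import Fermat.Agent.S35.LocFAll
import Fermat.Agent.S35.CoreAsmF
import Fermat.Agent.S35.FJSide
import Fermat.Agent.S35.ModelFTop
import Fermat.Agent.S35.FrobNew

set_option autoImplicit false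

open ModularCurve AlgebraicCurve HahnSeries

namespace Fermat.Agent.S35.ETop

open Fermat.Agent.S34

/-- **Block [E], divisor form**, from the corrector statement. -/
theorem frobDivStatement_of_corr (M q m : ℕ) [NeZero M] [NeZero q] [NeZero (M * q)]
    (hq : q.Prime) (hqM : ¬ q ∣ M) (hqm : ¬ q ∣ m)
    (hCorr : ModelFAsm.CorrStatement M q hq hqM m (fun _ => ModelFPlan.NormCond M q m)) :
    FCorePlan.FrobDivStatement M q m := by
  have hm : m ≠ 0 := fun h => hqm (h ▸ dvd_zero q)
  exact FJSide.frobDiv_of_core M q m hm Cech2.cech2Statement
    (CoreAsmF.coreAsmF CutAtTop.cutAtStatement LocFAll.locFStatement LocFAll.hwFStatement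
      LocHw.locAdapter M q m (ModelFTop.modelFStatement_of_corr M q hq hqM m hqm hCorr))

/-- **Block [E], (E-out) of record**, from the corrector statement. -/
theorem frobNewStatement_of_corr
    (hCorr : ∀ (M q m : ℕ) [NeZero M] [NeZero q] (hq : q.Prime) (hqM : ¬ q ∣ M), ¬ q ∣ m →
      ModelFAsm.CorrStatement M q hq hqM m (fun _ => ModelFPlan.NormCond M q m)) :
    NewPlan.FrobNewStatement :=
  FrobNew.frobNew_of_div fun M q m _ _ _ hq hqM hqm =>
    frobDivStatement_of_corr M q m hq hqM hqm (hCorr M q m hq hqM hqm)

end Fermat.Agent.S35.ETop
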