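/-
S35 — BaseF.lean (helper30), MODULAR block, leaf [BaseF]: the two-level base field.

The S35 twin of `S34.BaseNormal.exists_base`: the Frobenius statement involves functions of TWO
levels, `f ∈ F̄_{M q}` and the two roots `h, h' ∈ F̄_M` of the norms of `f` (`NormCond`), and
finitely many constants.  There is an intermediate field `K` of `ℚ̄/ℚ`, stable under `Gal(ℚ̄/ℚ)`,
with `BaseFacts ℓ A K`, containing the given constants, over which all the given functions of
both levels are defined and all their zeros and poles are rational.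

* `tauStable_of_stable`  : a Galois-stable `K` is `TauAct.Stable K τ` for every `τ`;
* `exists_base2`         : the base field for finitely many functions at two levels;
* `exists_base_norm`     : the base field for `f`, `h`, `h'`, `c`, `c'`, with everything
                           descended (`fK`, `hK`, `h'K : F_K`, `cK`, `c'K : K`);
* `exists_base_normCond` : the same from `ModelFPlan.NormCond M q m f`: both norm equations
                           with right-hand sides in `F_K(M)`.
-/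
import Mathlib
import Fermat.Agent.S34.BaseNormal
import Fermat.Agent.S34.TauAct
import Fermat.Agent.S34.RatPlace
import Fermat.Agent.S35.ModelFPlan

set_option autoImplicit false

noncomputable section

namespace Fermat.Agent.S35.BaseF

open ModularCurve AlgebraicCurve HahnSeries Fermat.Agent.S18 Fermat.Agent.S18.Arith
  Fermat.Agent.S34

attribute [local instance] Fermat.Agent.S29.FinLevel.isAlgClosure_rat
  Fermat.Agent.S29.FinLevel.isAlgebraic_rat Fermat.Agent.S29.FinLevel.normal_rat

/-- A `Gal(ℚ̄/ℚ)`-stable field is stable under every `τ` and its inverse. -/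
theorem tauStable_of_stable {K : IntermediateField ℚ Qb} (hK : BaseNormal.Stable K)
    (τ : Qb ≃ₐ[ℚ] Qb) : TauAct.Stable K τ :=
  ⟨fun c hc => hK τ c hc, fun c hc => hK τ.symm c hc⟩

/-- **[BaseF].** The base field for two levels: Galois-stable, with `BaseFacts`, containing given
constants, over which given functions of level `N` and of level `N'` are defined and all their
zeros and poles are rational. -/
theorem exists_base2 (N N' : ℕ) [NeZero N] [NeZero N'] (ℓ : ℕ) [Fact ℓ.Prime]
    (A : ValuationSubring Qb) (hA : A.LiesOverPrime ℓ)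
    (fs : Finset (modularFunctionFieldBar N)) (hs : Finset (modularFunctionFieldBar N'))
    (S : Finset Qb) :
    ∃ K : IntermediateField ℚ Qb, (↑S ⊆ (K : Set Qb)) ∧ BaseFacts ℓ A K ∧ BaseNormal.Stable K ∧
      (∀ f ∈ fs, (f : LaurentSeries Qb) ∈ FK N K) ∧
      (∀ h ∈ hs, (h : LaurentSeries Qb) ∈ FK N' K) ∧
      (∀ f ∈ fs, f ≠ 0 → ∀ P : Place Qb (modularFunctionFieldBar N), P.ord f ≠ 0 →
        (∀ σ : Qb ≃ₐ[ℚ] Qb, (∀ a ∈ K, σ a = a) →
          arithmeticGalois (modularFunctionFieldFull N) σ • P = P) ∧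
        ∀ x : modularFunctionFieldBar N, (x : LaurentSeries Qb) ∈ FK N K → 0 ≤ P.ord x →
          ∃ c : Qb, c ∈ K ∧ (x = algebraMap Qb (modularFunctionFieldBar N) c ∨
            0 < P.ord (x - algebraMap Qb (modularFunctionFieldBar N) c))) ∧
      (∀ h ∈ hs, h ≠ 0 → ∀ P : Place Qb (modularFunctionFieldBar N'), P.ord h ≠ 0 →
        (∀ σ : Qb ≃ₐ[ℚ] Qb, (∀ a ∈ K, σ a = a) →
          arithmeticGalois (modularFunctionFieldFull N') σ • P = P) ∧
        ∀ x : modularFunctionFieldBar N', (x : LaurentSeries Qb) ∈ FK N' K → 0 ≤ P.ord x →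
          ∃ c : Qb, c ∈ K ∧ (x = algebraMap Qb (modularFunctionFieldBar N') c ∨
            0 < P.ord (x - algebraMap Qb (modularFunctionFieldBar N') c))) := by
  obtain ⟨L, hL, hd, hl⟩ := BaseNormal.exists_level_data N fs
  obtain ⟨L', hL', hd', hl'⟩ := BaseNormal.exists_level_data N' hs
  have h₂ : FiniteDimensional ℚ (IntermediateField.adjoin ℚ (S : Set Qb)) :=
    IntermediateField.finiteDimensional_adjoin
      (fun x _ => (AlgebraicClosure.isAlgebraic ℚ).isIntegral.isIntegral x)
  have h₁ : FiniteDimensional ℚ ↥(L ⊔ L') := IntermediateField.finiteDimensional_sup L L'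
  have h₁₂ : FiniteDimensional ℚ ↥(L ⊔ L' ⊔ IntermediateField.adjoin ℚ (S : Set Qb)) :=
    IntermediateField.finiteDimensional_sup _ _
  obtain ⟨K, hLK, hB, hst⟩ :=
    BaseNormal.exists_stable_base_of_le ℓ A hA
      (L ⊔ L' ⊔ IntermediateField.adjoin ℚ (S : Set Qb))
  have hLK1 : L ≤ K := (le_sup_left.trans le_sup_left).trans hLK
  have hLK2 : L' ≤ K := (le_sup_right.trans le_sup_left).trans hLK
  refine ⟨K, fun x hx => hLK ((le_sup_right : _ ≤ L ⊔ L' ⊔ _)
      (IntermediateField.subset_adjoin ℚ _ hx)), hB, hst,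
    fun f hf => hd f hf K hLK1, fun h hh => hd' h hh K hLK2,
    fun f hf hne P hP => ?_, fun h hh hne P hP => ?_⟩
  · have hfix : ∀ σ : Qb ≃ₐ[ℚ] Qb, (∀ a ∈ K, σ a = a) →
        arithmeticGalois (modularFunctionFieldFull N) σ • P = P := fun σ hσ =>
      hl f hf hne σ (fun a ha => hσ a (hLK1 ha)) P hP
    exact ⟨hfix, fun x hx hord => BaseNormal.exists_residue_mem N K P hfix x hx hord⟩
  · have hfix : ∀ σ : Qb ≃ₐ[ℚ] Qb, (∀ a ∈ K, σ a = a) →
        arithmeticGalois (modularFunctionFieldFull N') σ • P = P := fun σ hσ =>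
      hl' h hh hne σ (fun a ha => hσ a (hLK2 ha)) P hP
    exact ⟨hfix, fun x hx hord => BaseNormal.exists_residue_mem N' K P hfix x hx hord⟩

/-- `toBar` of a constant times a power. -/
theorem toBar_const_mul_pow (N : ℕ) [NeZero N] (K : IntermediateField ℚ Qb) (c : K)
    (h : FK N K) (m : ℕ) :
    Glob.toBar N K (constK N K c * h ^ m)
      = algebraMap Qb (modularFunctionFieldBar N) (c : Qb) * Glob.toBar N K h ^ m := by
  rw [map_mul, map_pow]
  congr 1
  exact RatPlace.toBar_algebraMapK N K c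

/-- **[BaseF], descended form.** The base field for `f ∈ F̄_{M q}`, `h, h' ∈ F̄_M`, `c, c' ∈ ℚ̄` and
a finite set `S` of further constants: everything is defined over `K`. -/
theorem exists_base_norm (M q m : ℕ) [NeZero M] [NeZero q] (ℓ : ℕ) [Fact ℓ.Prime]
    (A : ValuationSubring Qb) (hA : A.LiesOverPrime ℓ)
    (f : modularFunctionFieldBar (M * q)) (h h' : modularFunctionFieldBar M) (c c' : Qb)
    (S : Finset Qb) :
    ∃ K : IntermediateField ℚ Qb, (↑S ⊆ (K : Set Qb)) ∧ BaseFacts ℓ A K ∧ BaseNormal.Stable K ∧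
      ∃ (fK : FK (M * q) K) (hK h'K : FK M K) (cK c'K : K),
        Glob.toBar (M * q) K fK = f ∧ Glob.toBar M K hK = h ∧ Glob.toBar M K h'K = h' ∧
        (cK : Qb) = c ∧ (c'K : Qb) = c' ∧
        Glob.toBar M K (constK M K cK * hK ^ m)
          = algebraMap Qb (modularFunctionFieldBar M) c * h ^ m ∧
        Glob.toBar M K (constK M K c'K * h'K ^ m)
          = algebraMap Qb (modularFunctionFieldBar M) c' * h' ^ m := by
  classical
  obtain ⟨K, hS, hB, hst, hf, hh, -, -⟩ :=
    exists_base2 (M * q) M ℓ A hA {f} {h, h'} (insert c (insert c' S))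
  have hc : c ∈ K := hS (Finset.mem_coe.mpr (Finset.mem_insert_self c _))
  have hc' : c' ∈ K :=
    hS (Finset.mem_coe.mpr (Finset.mem_insert_of_mem (Finset.mem_insert_self c' _)))
  have hfK : (f : LaurentSeries Qb) ∈ FK (M * q) K := hf f (Finset.mem_singleton_self f)
  have hhK : (h : LaurentSeries Qb) ∈ FK M K := hh h (Finset.mem_insert_self h _)
  have hh'K : (h' : LaurentSeries Qb) ∈ FK M K :=
    hh h' (Finset.mem_insert_of_mem (Finset.mem_singleton_self h'))
  refine ⟨K, fun x hx => hS (Finset.mem_coe.mpr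
      (Finset.mem_insert_of_mem (Finset.mem_insert_of_mem (Finset.mem_coe.mp hx)))), hB, hst,
    ⟨(f : LaurentSeries Qb), hfK⟩, ⟨(h : LaurentSeries Qb), hhK⟩, ⟨(h' : LaurentSeries Qb), hh'K⟩,
    ⟨c, hc⟩, ⟨c', hc'⟩, Subtype.ext rfl, Subtype.ext rfl, Subtype.ext rfl, rfl, rfl, ?_, ?_⟩
  · rw [toBar_const_mul_pow]
    rfl
  · rw [toBar_const_mul_pow]
    rfl

/-- **[BaseF] for `NormCond`.** From the two norm conditions on `f`: a base field `K ⊇ S` over
which `f` is defined and both norm equations hold with right-hand sides in `F_K(M)`. -/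
theorem exists_base_normCond (M q m : ℕ) [NeZero M] [NeZero q] [Fact q.Prime]
    (A : ValuationSubring Qb) (hA : A.LiesOverPrime q)
    (f : modularFunctionFieldBar (M * q)) (hN : ModelFPlan.NormCond M q m f) (S : Finset Qb) :
    ∃ K : IntermediateField ℚ Qb, (↑S ⊆ (K : Set Qb)) ∧ BaseFacts q A K ∧ BaseNormal.Stable K ∧
      ∃ (fK : FK (M * q) K) (hK h'K : FK M K) (cK c'K : K),
        Glob.toBar (M * q) K fK = f ∧ hK ≠ 0 ∧ h'K ≠ 0 ∧ cK ≠ 0 ∧ c'K ≠ 0 ∧
        ModelFPlan.alphaNm M q f = Glob.toBar M K (constK M K cK * hK ^ m) ∧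
        ModelFPlan.betaNm M q f = Glob.toBar M K (constK M K c'K * h'K ^ m) := by
  obtain ⟨⟨h, c, hh, hc, hα⟩, ⟨h', c', hh', hc', hβ⟩⟩ := hN
  obtain ⟨K, hS, hB, hst, fK, hK, h'K, cK, c'K, hfK, hhK, hh'K, hcK, hc'K, e, e'⟩ :=
    exists_base_norm M q m q A hA f h h' c c' S
  refine ⟨K, hS, hB, hst, fK, hK, h'K, cK, c'K, hfK, ?_, ?_, ?_, ?_, hα.trans e.symm,
    hβ.trans e'.symm⟩
  · rintro rfl
    exact hh (by rw [← hhK, map_zero])
  · rintro rfl
    exact hh' (by rw [← hh'K, map_zero])
  · rintro rfl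
    exact hc (by rw [← hcK]; rfl)
  · rintro rfl
    exact hc' (by rw [← hc'K]; rfl)

end Fermat.Agent.S35.BaseF
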