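import Mathlib
import Fermat.Agent.S34.RamTwoV

/-!
# S35, abstract leaf [Approx]: weak approximation for the two component valuations

In the setting `RamTwoV.Hyp` (`V₀` a DVR with fraction field `E₀`, `E / E₀` of degree `≤ q + 1`,
`V1 V2 : ValuationSubring E` with reductions `ρ₁ : V1 →+* κ₁`, `ρ₂ : V2 →+* κ₂`):

* `exists_inv₂`  : `ρ₂ (V1 ∩ V2)` is closed under inverses (it is a field);
* `exists_eq₂`   : `ρ₂ (V1 ∩ V2) = ρ₂ (V2)`;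
* `exists_approx`: for `z₁ ∈ V1`, `z₂ ∈ V2` there is `h ∈ V1 ∩ V2` with `ρ₁ h = ρ₁ z₁` and
  `ρ₂ h = ρ₂ z₂`.
-/

set_option autoImplicit false

namespace Fermat.Agent.S35.Approx

open Fermat.Agent.S34 Polynomial

section Poly

variable {V₀ B κ : Type*} [CommRing V₀] [IsDomain V₀] [IsDiscreteValuationRing V₀]
  [CommRing B] [Algebra V₀ B] [CommRing κ] [IsDomain κ]

/-- If `u` is a root modulo `ker ρ` of a polynomial over `V₀` which is nonzero modulo `ϖ`, and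
`ρ u ≠ 0`, then `ρ u` has an inverse in `ρ (B)`. -/
theorem exists_inv_of_aeval (ρ : B →+* κ) {ϖ : V₀} (hϖ : Irreducible ϖ)
    (hρϖ : ρ (algebraMap V₀ B ϖ) = 0) (u : B) (hu : ρ u ≠ 0) :
    ∀ (n : ℕ) (p : V₀[X]), p.natDegree ≤ n → (∃ i, ¬ ϖ ∣ p.coeff i) → ρ (aeval u p) = 0 →
      ∃ u' : B, ρ u * ρ u' = 1 := by
  intro n
  induction n with
  | zero =>
    intro p hp hi h0
    obtain ⟨i, hi⟩ := hi
    have hpC : p = C (p.coeff 0) := Polynomial.eq_C_of_natDegree_le_zero hp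
    have hi0 : i = 0 := by
      by_contra hne
      apply hi
      rw [hpC, Polynomial.coeff_C, if_neg hne]
      exact dvd_zero _
    subst hi0
    exfalso
    rw [hpC, aeval_C] at h0
    obtain ⟨d, hd⟩ := (RamTwo.isUnit_of_not_dvd hϖ hi).exists_right_inv
    have h1 : ρ (algebraMap V₀ B (p.coeff 0)) * ρ (algebraMap V₀ B d) = 1 := by
      rw [← map_mul, ← map_mul, hd, map_one, map_one]
    rw [h0, zero_mul] at h1
    exact zero_ne_one h1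
  | succ n ih =>
    intro p hp hi h0
    have hdec : p = divX p * X + C (p.coeff 0) := (Polynomial.divX_mul_X_add p).symm
    have h1 : ρ (aeval u (divX p)) * ρ u + ρ (algebraMap V₀ B (p.coeff 0)) = 0 := by
      rw [← map_mul, ← map_add, ← h0]
      congr 1
      conv_rhs => rw [hdec]
      simp
    by_cases hc : ϖ ∣ p.coeff 0
    · -- descend to `divX p`
      obtain ⟨c', hc'⟩ := hc
      have h2 : ρ (algebraMap V₀ B (p.coeff 0)) = 0 := by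
        rw [hc', map_mul, map_mul, hρϖ, zero_mul]
      rw [h2, add_zero] at h1
      have h3 : ρ (aeval u (divX p)) = 0 := (mul_eq_zero.mp h1).resolve_right hu
      refine ih (divX p) ?_ ?_ h3
      · rw [Polynomial.natDegree_divX_eq_natDegree_tsub_one]
        omega
      · obtain ⟨i, hi⟩ := hi
        have hi0 : i ≠ 0 := by
          rintro rfl
          exact hi ⟨c', hc'⟩
        obtain ⟨j, rfl⟩ := Nat.exists_eq_succ_of_ne_zero hi0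
        exact ⟨j, by rw [Polynomial.coeff_divX]; exact hi⟩
    · obtain ⟨d, hd⟩ := (RamTwo.isUnit_of_not_dvd hϖ hc).exists_right_inv
      refine ⟨-(algebraMap V₀ B d) * aeval u (divX p), ?_⟩
      have h4 : ρ (algebraMap V₀ B (p.coeff 0)) * ρ (algebraMap V₀ B d) = 1 := by
        rw [← map_mul, ← map_mul, hd, map_one, map_one]
      have h5 : ρ (aeval u (divX p)) * ρ u = -ρ (algebraMap V₀ B (p.coeff 0)) :=
        eq_neg_of_add_eq_zero_left h1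
      calc ρ u * ρ (-(algebraMap V₀ B d) * aeval u (divX p))
          = -(ρ (algebraMap V₀ B d) * (ρ (aeval u (divX p)) * ρ u)) := by
            rw [map_mul, map_neg]; ring
        _ = 1 := by rw [h5, mul_neg, neg_neg, mul_comm, h4]

end Poly

variable {V₀ E : Type*} [CommRing V₀] [IsDomain V₀] [IsDiscreteValuationRing V₀]
  [Field E] [Algebra V₀ E] {κ₁ κ₂ : Type*} [CommRing κ₁] [IsDomain κ₁] [CommRing κ₂] [IsDomain κ₂]
  {E₀ : Type*} [Field E₀] [Algebra V₀ E₀] [IsFractionRing V₀ E₀] [Algebra E₀ E]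
  [IsScalarTower V₀ E₀ E]
  {V1 V2 : ValuationSubring E} {ρ₁ : V1 →+* κ₁} {ρ₂ : V2 →+* κ₂} {ϖ : V₀} {q : ℕ} {x y : E}
  {b : Fin q → E}

/-- `V1 ∩ V2` is a finitely generated `V₀`-module. -/
theorem fg_inter (H : RamTwoV.Hyp (V₀ := V₀) E₀ V1 V2 ρ₁ ρ₂ ϖ q x y b) :
    (Subalgebra.toSubmodule (RamTwoV.inter V1 V2 H.le₁ H.le₂)).FG := by
  classical
  refine ⟨insert y (Finset.univ.image fun i => x * b i), le_antisymm ?_ ?_⟩
  · rw [Submodule.span_le]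
    intro z hz
    simp only [Finset.coe_insert, Finset.coe_image, Finset.coe_univ, Set.image_univ,
      Set.mem_insert_iff, Set.mem_range] at hz
    rcases hz with rfl | ⟨i, rfl⟩
    · exact ⟨H.hy₁.1, H.hy₂.1⟩
    · exact ⟨V1.mul_mem _ _ H.hx₁.1 (H.hb₁ i), V2.mul_mem _ _ H.hx₂.1 (H.hb₂ i)⟩
  · intro z hz
    obtain ⟨c₀, c, rfl⟩ := H.exists_repr hz.1 hz.2
    refine Submodule.add_mem _ ?_ (Submodule.sum_mem _ fun i _ => ?_)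
    · rw [← Algebra.smul_def]
      exact Submodule.smul_mem _ _ (Submodule.subset_span
        (Finset.mem_coe.mpr (Finset.mem_insert_self _ _)))
    · rw [← Algebra.smul_def]
      exact Submodule.smul_mem _ _ (Submodule.subset_span
        (Finset.mem_coe.mpr (Finset.mem_insert_of_mem
          (Finset.mem_image_of_mem _ (Finset.mem_univ i)))))

/-- `ρ₂ (V1 ∩ V2)` is closed under inverses. -/
theorem exists_inv₂ (H : RamTwoV.Hyp (V₀ := V₀) E₀ V1 V2 ρ₁ ρ₂ ϖ q x y b) {u : E} (hu1 : u ∈ V1)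
    (hu2 : u ∈ V2) (hu : ρ₂ ⟨u, hu2⟩ ≠ 0) :
    ∃ (u' : E) (_ : u' ∈ V1) (h2 : u' ∈ V2), ρ₂ ⟨u, hu2⟩ * ρ₂ ⟨u', h2⟩ = 1 := by
  have hint : IsIntegral V₀ u :=
    IsIntegral.of_mem_of_fg (RamTwoV.inter V1 V2 H.le₁ H.le₂) (fg_inter H) u ⟨hu1, hu2⟩
  obtain ⟨p, hpm, hp⟩ := hint
  set B := RamTwoV.inter V1 V2 H.le₁ H.le₂ with hB
  set ρ : B →+* κ₂ := ρ₂.comp (RamTwoV.toV2 V1 V2 H.le₁ H.le₂) with hρ
  have hpB : aeval (⟨u, hu1, hu2⟩ : B) p = 0 := by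
    apply Subtype.ext
    rw [ZeroMemClass.coe_zero, ← Subalgebra.aeval_coe]
    exact hp
  obtain ⟨u', hu'⟩ := exists_inv_of_aeval ρ H.irr H.pi₂ (⟨u, hu1, hu2⟩ : B) hu p.natDegree p le_rfl
    ⟨p.natDegree, by
      rw [Polynomial.coeff_natDegree, hpm.leadingCoeff]
      exact fun h => H.irr.not_isUnit (isUnit_of_dvd_one h)⟩
    (by rw [hpB, map_zero])
  exact ⟨u'.1, u'.2.1, u'.2.2, hu'⟩

/-- `ρ₂ (V1 ∩ V2) = ρ₂ (V2)`. -/
theorem exists_eq₂ (H : RamTwoV.Hyp (V₀ := V₀) E₀ V1 V2 ρ₁ ρ₂ ϖ q x y b) (z : V2) :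
    ∃ (h : E) (_ : h ∈ V1) (h2 : h ∈ V2), ρ₂ ⟨h, h2⟩ = ρ₂ z := by
  by_cases hz1 : (z : E) ∈ V1
  · exact ⟨z, hz1, z.2, rfl⟩
  have key : ∀ z' : V2, (z' : E) ∉ V1 → (z' : E)⁻¹ ∈ V2 →
      ∃ (h : E) (_ : h ∈ V1) (h2 : h ∈ V2), ρ₂ ⟨h, h2⟩ = ρ₂ z' := by
    intro z' hz'1 hz'inv
    have hinv1 : (z' : E)⁻¹ ∈ V1 := (V1.mem_or_inv_mem (z' : E)).resolve_left hz'1
    have hne : (z' : E) ≠ 0 := fun h0 => hz'1 (by rw [h0]; exact V1.zero_mem)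
    have hmul : (⟨(z' : E)⁻¹, hz'inv⟩ : V2) * z' = 1 := Subtype.ext (inv_mul_cancel₀ hne)
    have h1 := congrArg ρ₂ hmul
    rw [map_mul, map_one] at h1
    have hu : ρ₂ ⟨(z' : E)⁻¹, hz'inv⟩ ≠ 0 := fun h0 => by
      rw [h0, zero_mul] at h1
      exact zero_ne_one h1
    obtain ⟨u', hu'1, hu'2, hu'⟩ := exists_inv₂ H hinv1 hz'inv hu
    refine ⟨u', hu'1, hu'2, ?_⟩
    calc ρ₂ ⟨u', hu'2⟩ = (ρ₂ ⟨(z' : E)⁻¹, hz'inv⟩ * ρ₂ z') * ρ₂ ⟨u', hu'2⟩ := by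
          rw [h1, one_mul]
      _ = (ρ₂ ⟨(z' : E)⁻¹, hz'inv⟩ * ρ₂ ⟨u', hu'2⟩) * ρ₂ z' := by ring
      _ = ρ₂ z' := by rw [hu', one_mul]
  by_cases hzinv : (z : E)⁻¹ ∈ V2
  · exact key z hz1 hzinv
  · have hv : V2.valuation (z : E) < 1 := by
      have h1 : ¬ V2.valuation (z : E)⁻¹ ≤ 1 := fun h => hzinv ((V2.valuation_le_one_iff _).mp h)
      rw [map_inv₀, not_le] at h1
      by_contra hge
      rw [not_lt] at hge
      exact absurd (inv_le_one_of_one_le₀ hge) (not_le.mpr h1)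
    have hv1 : V2.valuation (1 + (z : E)) = 1 := Valuation.map_one_add_of_lt _ hv
    have hinv : ((1 + z : V2) : E)⁻¹ ∈ V2 := by
      apply (V2.valuation_le_one_iff _).mp
      push_cast
      rw [map_inv₀, hv1, inv_one]
    have hnot1 : ((1 + z : V2) : E) ∉ V1 := by
      intro h
      apply hz1
      have h2 : (z : E) = ((1 + z : V2) : E) - 1 := by push_cast; ring
      rw [h2]
      exact V1.sub_mem h V1.one_mem
    obtain ⟨h, hh1, hh2, hh⟩ := key (1 + z) hnot1 hinv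
    refine ⟨h - 1, V1.sub_mem hh1 V1.one_mem, V2.sub_mem hh2 V2.one_mem, ?_⟩
    have h3 : (⟨h - 1, V2.sub_mem hh2 V2.one_mem⟩ : V2) = ⟨h, hh2⟩ - 1 := rfl
    rw [h3, map_sub, map_one, hh, map_add, map_one]
    ring

/-- **Weak approximation**: for `z₁ ∈ V1`, `z₂ ∈ V2` there is `h ∈ V1 ∩ V2` with the same
reductions, `ρ₁ h = ρ₁ z₁` and `ρ₂ h = ρ₂ z₂`. -/
theorem exists_approx (H : RamTwoV.Hyp (V₀ := V₀) E₀ V1 V2 ρ₁ ρ₂ ϖ q x y b) (z₁ : V1) (z₂ : V2) :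
    ∃ (h : E) (h1 : h ∈ V1) (h2 : h ∈ V2), ρ₁ ⟨h, h1⟩ = ρ₁ z₁ ∧ ρ₂ ⟨h, h2⟩ = ρ₂ z₂ := by
  obtain ⟨c, hc⟩ := H.exists_eq₁ z₁
  obtain ⟨h₂, h₂1, h₂2, hh₂⟩ := exists_eq₂ H z₂
  obtain ⟨hy1, hy1'⟩ := H.hy₁
  obtain ⟨hy2, hy2'⟩ := H.hy₂
  obtain ⟨cy, hcy⟩ := H.exists_eq₁ ⟨y, hy1⟩
  have hcy_ndvd : ¬ ϖ ∣ cy := by
    rintro ⟨c', rfl⟩
    apply hy1'
    rw [hcy]
    have h1 : (⟨algebraMap V₀ E (ϖ * c'), H.le₁ (ϖ * c')⟩ : V1) =
        ⟨algebraMap V₀ E ϖ, H.le₁ ϖ⟩ * ⟨algebraMap V₀ E c', H.le₁ c'⟩ :=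
      Subtype.ext (map_mul _ _ _)
    rw [h1, map_mul, H.pi₁, zero_mul]
  obtain ⟨d, hd⟩ := (RamTwo.isUnit_of_not_dvd H.irr hcy_ndvd).exists_right_inv
  -- the "idempotent" `e = d * y`: `ρ₁ e = 1`, `ρ₂ e = 0`
  obtain ⟨e1, he1, hρ1e⟩ : ∃ e1 : V1, (e1 : E) = algebraMap V₀ E d * y ∧ ρ₁ e1 = 1 := by
    refine ⟨⟨algebraMap V₀ E d, H.le₁ d⟩ * ⟨y, hy1⟩, rfl, ?_⟩
    have h1 : (⟨algebraMap V₀ E d, H.le₁ d⟩ : V1) * ⟨algebraMap V₀ E cy, H.le₁ cy⟩ = 1 :=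
      Subtype.ext (by
        change algebraMap V₀ E d * algebraMap V₀ E cy = 1
        rw [← map_mul, mul_comm, hd, map_one])
    rw [map_mul, hcy, ← map_mul, h1, map_one]
  obtain ⟨e2, he2, hρ2e⟩ : ∃ e2 : V2, (e2 : E) = algebraMap V₀ E d * y ∧ ρ₂ e2 = 0 := by
    refine ⟨⟨algebraMap V₀ E d, H.le₂ d⟩ * ⟨y, hy2⟩, rfl, ?_⟩
    rw [map_mul, hy2', mul_zero]
  obtain ⟨g1, hg1⟩ : ∃ g1 : V1, g1 = ⟨algebraMap V₀ E c, H.le₁ c⟩ * e1 + ⟨h₂, h₂1⟩ * (1 - e1) :=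
    ⟨_, rfl⟩
  obtain ⟨g2, hg2⟩ : ∃ g2 : V2, g2 = ⟨algebraMap V₀ E c, H.le₂ c⟩ * e2 + ⟨h₂, h₂2⟩ * (1 - e2) :=
    ⟨_, rfl⟩
  have hcoe : (g1 : E) = (g2 : E) := by
    rw [hg1, hg2]
    push_cast
    rw [he1, he2]
  have hg2mem : (g1 : E) ∈ V2 := hcoe ▸ g2.2
  refine ⟨(g1 : E), g1.2, hg2mem, ?_, ?_⟩
  · change ρ₁ g1 = ρ₁ z₁
    rw [hg1, map_add, map_mul, map_mul, map_sub, map_one, hρ1e, hc]
    ring
  · have h4 : (⟨(g1 : E), hg2mem⟩ : V2) = g2 := Subtype.ext hcoe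
    rw [h4, hg2, map_add, map_mul, map_mul, map_sub, map_one, hρ2e, hh₂]
    ring

end Fermat.Agent.S35.Approx
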