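import Mathlib
import Fermat.Agent.S34.ResDeg
import Fermat.Agent.S35.Approx

/-!
# S35, leaf [Approx] at level `M q`: weak approximation for the two Gauss valuations

For `x₁, x₂ ∈ F_K(M q)` with `x₁` Gauss-integral (reduction `y₁`) and `w_q x₂` Gauss-integral
(reduction `y₂`), there is `H ∈ F_K(M q)` with `H` Gauss-integral of reduction `y₁` and `w_q H`
Gauss-integral of reduction `y₂` (`approx`).  Instantiation of `S35/Approx.exists_approx` at
`S34/ResDeg.hyp`.
-/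

set_option autoImplicit false
set_option linter.style.haveILetI false

noncomputable section

namespace Fermat.Agent.S35.ApproxK

open ModularCurve ModularCurve.IgusaScheme AlgebraicCurve HahnSeries Fermat.Agent.S18.Arith
open Fermat.Agent.S34

variable (M q : ℕ) [NeZero M] [NeZero q] (hq : q.Prime) (hqM : ¬ q ∣ M)
variable {A : ValuationSubring Qb} {K : IntermediateField ℚ Qb}
variable (hdvr : IsDiscreteValuationRing (OK A K))

include hdvr in
/-- **[Approx]** weak approximation for the two component valuations of `F_K(M q)`. -/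
theorem approx (hA : A.LiesOverPrime q) (x₁ x₂ : FK (M * q) K)
    (y₁ y₂ : LaurentSeries (IsLocalRing.ResidueField A))
    (h₁ : GRel A ((x₁ : FK (M * q) K) : LaurentSeries Qb) y₁)
    (h₂ : GRel A ((WK.wK M q hq hqM K x₂ : FK (M * q) K) : LaurentSeries Qb) y₂) :
    ∃ H : FK (M * q) K, GRel A ((H : FK (M * q) K) : LaurentSeries Qb) y₁ ∧
      GRel A ((WK.wK M q hq hqM K H : FK (M * q) K) : LaurentSeries Qb) y₂ := by
  haveI := hdvr
  obtain ⟨π, hπ⟩ := IsDiscreteValuationRing.exists_irreducible (OK A K)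
  letI := ResDeg.algE M q (K := K)
  letI := ResDeg.algV M q hdvr
  haveI := GaussV.isDiscreteValuationRing_V1 (N := M) hdvr
  haveI := ResDeg.isScalarTower_V M q hdvr
  have H0 := ResDeg.hyp M q hq hqM hdvr hA hπ
  have hx₂ : x₂ ∈ GaussV.V2 (WK.wK M q hq hqM K) hdvr :=
    (GaussV.mem_V2_iff _ hdvr).mpr ⟨y₂, h₂⟩
  obtain ⟨h, hh1, hh2, e1, e2⟩ := Approx.exists_approx H0
    (⟨x₁, ⟨y₁, h₁⟩⟩ : GaussV.V1 (M * q) A K hdvr) ⟨x₂, hx₂⟩
  refine ⟨h, ?_, ?_⟩
  · have h3 : GaussV.red1 hdvr (⟨x₁, ⟨y₁, h₁⟩⟩ : GaussV.V1 (M * q) A K hdvr) = y₁ :=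
      GaussV.red1_eq_of_gRel hdvr _ h₁
    rw [← h3, ← e1]
    exact GaussV.gRel_red1 hdvr ⟨h, hh1⟩
  · have h3 : GaussV.red2 (WK.wK M q hq hqM K) hdvr ⟨x₂, hx₂⟩ = y₂ := by
      rw [GaussV.red2_apply]
      exact GaussV.red1_eq_of_gRel hdvr _ h₂
    rw [← h3, ← e2]
    exact GaussV.gRel_red2 (WK.wK M q hq hqM K) hdvr ⟨h, hh2⟩

end Fermat.Agent.S35.ApproxK
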