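/-
S35 — NormGal.lean (helper120), block [E]-modular, leaf [NormGal].

**The norm along a degeneracy map is Galois-equivariant.**

* Generic (`norm_smul`): for fields `K ⊆ F`, `F'`, a `K`-algebra map `φ : F → F'` and semilinear
  automorphisms `g` of `F`, `g'` of `F'` intertwined along `φ` (`g' • φ x = φ (g • x)`), the
  norm `N_φ : F' → F` (`Algebra.norm` for the algebra structure `algebraAlong φ`) satisfies
  `N_φ (g' • z) = g • N_φ z`.
* Modular (`norm_alpha_gal`, `norm_beta_gal`): for the two degeneracy maps
  `heckeAlphaBar`, `heckeBetaBar : F̄_N → F̄_{Nℓ}` and the coefficientwise action of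
  `σ ∈ Gal(ℚ̄/ℚ)` (`arithmeticGalois`), `N_α (σ • z) = σ • N_α z`, `N_β (σ • z) = σ • N_β z`;
  quotient forms `norm_alpha_gal_div`, `norm_beta_gal_div` for `σ • z / z`, `z ≠ 0` (the first
  difference used in step (E2) of the S35 blueprint).

No finiteness hypothesis is needed (`Algebra.norm` is `1` in the non-finite case on both sides).
-/
import Mathlib
import Fermat.Agent.S29.GalHecke

set_option autoImplicit false

noncomputable section

namespace Fermat.Agent.S35.NormGal

open AlgebraicCurve ModularCurve

/-! ### Generic equivariance -/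

section Generic

variable {K F F' : Type*} [Field K] [Field F] [Field F'] [Algebra K F] [Algebra K F']

/-- The norm along `φ` commutes with intertwined semilinear automorphisms. -/
theorem norm_smul (φ : F →ₐ[K] F') {g : SemilinearAut K F} {g' : SemilinearAut K F'}
    (h : SemilinearAut.IntertwinesAlong (φ : F →+* F') g g') (z : F') :
    (letI := algebraAlong φ; Algebra.norm F (g' • z))
      = g • (letI := algebraAlong φ; Algebra.norm F z) := by
  let _ := algebraAlong φ
  have he : (algebraMap F F').comp (SemilinearAut.toRingAut g : F →+* F)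
      = (SemilinearAut.toRingAut g' : F' →+* F').comp (algebraMap F F') := by
    ext x
    exact (h x).symm
  have h1 := Algebra.norm_eq_of_equiv_equiv (SemilinearAut.toRingAut g)
    (SemilinearAut.toRingAut g') he z
  show Algebra.norm F (SemilinearAut.toRingAut g' z)
    = SemilinearAut.toRingAut g (Algebra.norm F z)
  rw [h1, RingEquiv.apply_symm_apply]

/-- The norm along `φ` of a nonzero element is nonzero. -/
theorem norm_ne_zero (φ : F →ₐ[K] F') {z : F'} (hz : z ≠ 0) :
    (letI := algebraAlong φ; Algebra.norm F z) ≠ 0 := by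
  let _ := algebraAlong φ
  exact ((isUnit_iff_ne_zero.mpr hz).map (Algebra.norm F)).ne_zero

/-- Quotient form: the norm of a first difference `g' • z / z`, `z ≠ 0`. -/
theorem norm_smul_div (φ : F →ₐ[K] F') {g : SemilinearAut K F} {g' : SemilinearAut K F'}
    (h : SemilinearAut.IntertwinesAlong (φ : F →+* F') g g') {z : F'} (hz : z ≠ 0) :
    (letI := algebraAlong φ; Algebra.norm F (g' • z / z))
      = g • (letI := algebraAlong φ; Algebra.norm F z)
        / (letI := algebraAlong φ; Algebra.norm F z) := by
  rw [← norm_smul φ h z, eq_div_iff (norm_ne_zero φ hz)]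
  let _ := algebraAlong φ
  show Algebra.norm F (g' • z / z) * Algebra.norm F z = Algebra.norm F (g' • z)
  rw [← map_mul, div_mul_cancel₀ _ hz]

end Generic

/-! ### The two degeneracy maps -/

section Modular

/-- `ℚ̄`. -/
local notation "Qb" => AlgebraicClosure ℚ

variable (N ℓ : ℕ) [NeZero N] [NeZero ℓ]

/-- `N_α (σ • z) = σ • N_α z`. -/
theorem norm_alpha_gal (σ : Qb ≃ₐ[ℚ] Qb) (z : ↥(modularFunctionFieldBar (N * ℓ))) :
    (letI := algebraAlong (heckeAlphaBar Qb N ℓ);
      Algebra.norm ↥(modularFunctionFieldBar N)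
        (arithmeticGalois (modularFunctionFieldFull (N * ℓ)) σ • z))
      = arithmeticGalois (modularFunctionFieldFull N) σ •
        (letI := algebraAlong (heckeAlphaBar Qb N ℓ);
          Algebra.norm ↥(modularFunctionFieldBar N) z) :=
  norm_smul (heckeAlphaBar Qb N ℓ)
    (Fermat.Agent.S29.GalHecke.intertwines_heckeAlphaBar N ℓ σ) z

omit [NeZero N] in
/-- `N_β (σ • z) = σ • N_β z`. -/
theorem norm_beta_gal (σ : Qb ≃ₐ[ℚ] Qb) (z : ↥(modularFunctionFieldBar (N * ℓ))) :
    (letI := algebraAlong (heckeBetaBar Qb N ℓ);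
      Algebra.norm ↥(modularFunctionFieldBar N)
        (arithmeticGalois (modularFunctionFieldFull (N * ℓ)) σ • z))
      = arithmeticGalois (modularFunctionFieldFull N) σ •
        (letI := algebraAlong (heckeBetaBar Qb N ℓ);
          Algebra.norm ↥(modularFunctionFieldBar N) z) :=
  norm_smul (heckeBetaBar Qb N ℓ)
    (Fermat.Agent.S29.GalHecke.intertwines_heckeBetaBar N ℓ σ) z

/-- `N_α (σ • z / z) = σ • N_α z / N_α z`. -/
theorem norm_alpha_gal_div (σ : Qb ≃ₐ[ℚ] Qb) {z : ↥(modularFunctionFieldBar (N * ℓ))}
    (hz : z ≠ 0) :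
    (letI := algebraAlong (heckeAlphaBar Qb N ℓ);
      Algebra.norm ↥(modularFunctionFieldBar N)
        (arithmeticGalois (modularFunctionFieldFull (N * ℓ)) σ • z / z))
      = arithmeticGalois (modularFunctionFieldFull N) σ •
          (letI := algebraAlong (heckeAlphaBar Qb N ℓ);
            Algebra.norm ↥(modularFunctionFieldBar N) z)
        / (letI := algebraAlong (heckeAlphaBar Qb N ℓ);
            Algebra.norm ↥(modularFunctionFieldBar N) z) :=
  norm_smul_div (heckeAlphaBar Qb N ℓ)
    (Fermat.Agent.S29.GalHecke.intertwines_heckeAlphaBar N ℓ σ) hz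

omit [NeZero N] in
/-- `N_β (σ • z / z) = σ • N_β z / N_β z`. -/
theorem norm_beta_gal_div (σ : Qb ≃ₐ[ℚ] Qb) {z : ↥(modularFunctionFieldBar (N * ℓ))}
    (hz : z ≠ 0) :
    (letI := algebraAlong (heckeBetaBar Qb N ℓ);
      Algebra.norm ↥(modularFunctionFieldBar N)
        (arithmeticGalois (modularFunctionFieldFull (N * ℓ)) σ • z / z))
      = arithmeticGalois (modularFunctionFieldFull N) σ •
          (letI := algebraAlong (heckeBetaBar Qb N ℓ);
            Algebra.norm ↥(modularFunctionFieldBar N) z)
        / (letI := algebraAlong (heckeBetaBar Qb N ℓ);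
            Algebra.norm ↥(modularFunctionFieldBar N) z) :=
  norm_smul_div (heckeBetaBar Qb N ℓ)
    (Fermat.Agent.S29.GalHecke.intertwines_heckeBetaBar N ℓ σ) hz

end Modular

end Fermat.Agent.S35.NormGal
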