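/-
S35 — NormRed.lean (helper79): row [NormRed] (E2) of the S35 blueprint.

Level `N = M * q`, `q` a prime not dividing `M`, `w = WK.wBar` the Atkin–Lehner involution of
`F̄_{Mq}`, `α = heckeAlphaBar`, `β = heckeBetaBar : F̄_M → F̄_{Mq}` the two degeneracy maps, `N_α`,
`N_β` the norms of `F̄_{Mq}` over `F̄_M` for the two algebra structures `algebraAlong α`,
`algebraAlong β`.  For EVERY `z ∈ F̄_{Mq}`:

* `exoticEmb_eq`        : the exotic embedding of S37 is `z ↦ (w z)(Q^q)`;
* `norm_alpha_eq` / `norm_beta_eq` : `N_α z = N_β (w z)`, `N_β z = N_α (w z)`;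
* `qExpand_norm_alpha`  : `(N_α z)(Q^q) = z(Q^q) · ∏_{i<q} (w z)(ζ^i Q)`;
* `qExpand_norm_beta_w` : `(N_β z)(Q^q) = (w z)(Q^q) · ∏_{i<q} z(ζ^i Q)`;

and the reduction modulo a valuation ring `A` of `ℚ̄` over `q` (`k` its residue field, `φ` the
`q`-Frobenius of `k`, acting coefficientwise), in the relational form `GRel` of S18:
if `z` reduces to `g1` and `w z` reduces to `g2` then

* `gRel_norm_alpha`     : `N_α z` reduces to `g1 · φ(g2)`;
* `gRel_norm_beta`      : `N_β z` reduces to `φ(g1) · g2`.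

(No root of unity is needed in any field of definition: the product formula is read through
`GRel A` over `ℚ̄`, where `ζ ≡ 1`.)
-/
import Mathlib
import Fermat.Agent.S34.WK
import Fermat.Agent.S34.ConjMod
import Fermat.Agent.S34.GaussV

set_option autoImplicit false

noncomputable section

namespace Fermat.Agent.S35.NormRed

open ModularCurve AlgebraicCurve HahnSeries
open Fermat.Agent.S18 Fermat.Agent.S18.Arith Fermat.Agent.S18.ModelPlan Fermat.Agent.S24
open Fermat.Agent.S37.W Fermat.Agent.S34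

/-! ### The norm formula over `ℚ̄` -/

section Bar

variable (M q : ℕ) [NeZero M] [NeZero q] (hq : q.Prime) (hqM : ¬ q ∣ M)

/-- `z ↦ (w z)(Q^q)` as a `ℚ̄`-algebra map `F̄_{Mq} → ℚ̄((Q))`. -/
def wExpBar : ↥(modularFunctionFieldBar (M * q)) →ₐ[Qb] LaurentSeries Qb :=
  ((qExpandAlgHomC Qb q).comp (modularFunctionFieldBar (M * q)).val).comp
    (WK.wBar M q hq hqM : ↥(modularFunctionFieldBar (M * q)) →ₐ[Qb]
      ↥(modularFunctionFieldBar (M * q)))

theorem wExpBar_apply (z : ↥(modularFunctionFieldBar (M * q))) :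
    wExpBar M q hq hqM z
      = qExpand Qb q ((WK.wBar M q hq hqM z : ↥(modularFunctionFieldBar (M * q))) :
          LaurentSeries Qb) := rfl

/-- The exotic embedding `E_∞` of S37 is `z ↦ (w z)(Q^q)`. -/
theorem exoticEmb_eq_wExpBar : exoticEmb M q hq hqM = wExpBar M q hq hqM := by
  apply algHom_ext_genFam
  intro e
  rcases WK.exists_low_or_high M q hq e with ⟨d, rfl⟩ | ⟨d, rfl⟩
  · rw [← heckeAlphaBar_genFam, exoticEmb_alpha, wExpBar_apply, WK.wBar_alpha, coe_heckeBetaBar]
  · rw [← heckeBetaBar_genFam, exoticEmb_beta, wExpBar_apply, WK.wBar_beta, coe_heckeAlphaBar]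

theorem exoticEmb_eq (z : ↥(modularFunctionFieldBar (M * q))) :
    exoticEmb M q hq hqM z
      = qExpand Qb q ((WK.wBar M q hq hqM z : ↥(modularFunctionFieldBar (M * q))) :
          LaurentSeries Qb) := by
  rw [exoticEmb_eq_wExpBar, wExpBar_apply]

/-- `N_α z = N_β (w z)`. -/
theorem norm_alpha_eq (z : ↥(modularFunctionFieldBar (M * q))) :
    (letI := algebraAlong (heckeAlphaBar Qb M q);
      Algebra.norm (↥(modularFunctionFieldBar M)) z)
    = (letI := algebraAlong (heckeBetaBar Qb M q);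
      Algebra.norm (↥(modularFunctionFieldBar M)) (WK.wBar M q hq hqM z)) := by
  have h := @Algebra.norm_eq_of_equiv_equiv (↥(modularFunctionFieldBar M))
    (↥(modularFunctionFieldBar (M * q))) (↥(modularFunctionFieldBar M))
    (↥(modularFunctionFieldBar (M * q))) _ _ _ _
    (algebraAlong (heckeAlphaBar Qb M q))
    (algebraAlong (heckeBetaBar Qb M q))
    (RingEquiv.refl (↥(modularFunctionFieldBar M))) (WK.wBar M q hq hqM).toRingEquiv
    (RingHom.ext fun x => (WK.wBar_alpha M q hq hqM x).symm) z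
  exact h

/-- `N_β z = N_α (w z)`. -/
theorem norm_beta_eq (z : ↥(modularFunctionFieldBar (M * q))) :
    (letI := algebraAlong (heckeBetaBar Qb M q);
      Algebra.norm (↥(modularFunctionFieldBar M)) z)
    = (letI := algebraAlong (heckeAlphaBar Qb M q);
      Algebra.norm (↥(modularFunctionFieldBar M)) (WK.wBar M q hq hqM z)) := by
  have h := norm_alpha_eq M q hq hqM (WK.wBar M q hq hqM z)
  rw [WK.wBar_wBar] at h
  exact h.symm

/-- **Norm formula along `α`, general element.**
`(N_α z)(Q^q) = z(Q^q) · ∏_{i<q} (w z)(ζ^i Q)`. -/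
theorem qExpand_norm_alpha (ζ : Qb) (hζ : IsPrimitiveRoot ζ q) (hz : ∀ i : ℕ, ζ ^ i ≠ 0)
    (z : ↥(modularFunctionFieldBar (M * q))) :
    letI := algebraAlong (heckeAlphaBar Qb M q)
    qExpand Qb q
        ((Algebra.norm ↥(modularFunctionFieldBar M) z : ↥(modularFunctionFieldBar M)) :
          LaurentSeries Qb)
      = qExpand Qb q (z : LaurentSeries Qb) *
          ∏ i ∈ Finset.range q, rotHom (ζ ^ i) (hz i)
            ((WK.wBar M q hq hqM z : ↥(modularFunctionFieldBar (M * q))) : LaurentSeries Qb) := by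
  rw [norm_alpha_eq M q hq hqM z]
  have h := qExpand_norm_beta M q hq hqM ζ hζ hz (WK.wBar M q hq hqM z)
  rw [exoticEmb_eq, WK.wBar_wBar] at h
  exact h

/-- **Norm formula along `β`, general element**, with the exotic embedding made explicit.
`(N_β z)(Q^q) = (w z)(Q^q) · ∏_{i<q} z(ζ^i Q)`. -/
theorem qExpand_norm_beta_w (ζ : Qb) (hζ : IsPrimitiveRoot ζ q) (hz : ∀ i : ℕ, ζ ^ i ≠ 0)
    (z : ↥(modularFunctionFieldBar (M * q))) :
    letI := algebraAlong (heckeBetaBar Qb M q)
    qExpand Qb q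
        ((Algebra.norm ↥(modularFunctionFieldBar M) z : ↥(modularFunctionFieldBar M)) :
          LaurentSeries Qb)
      = qExpand Qb q
          ((WK.wBar M q hq hqM z : ↥(modularFunctionFieldBar (M * q))) : LaurentSeries Qb) *
          ∏ i ∈ Finset.range q, rotHom (ζ ^ i) (hz i) (z : LaurentSeries Qb) := by
  have h := qExpand_norm_beta M q hq hqM ζ hζ hz z
  rw [exoticEmb_eq] at h
  exact h

end Bar

/-! ### Reduction of the norm -/

section Red

variable {A : ValuationSubring Qb}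

theorem gRel_prod {ι : Type*} (s : Finset ι) (x : ι → LaurentSeries Qb)
    (y : ι → LaurentSeries (IsLocalRing.ResidueField A)) (h : ∀ i ∈ s, GRel A (x i) (y i)) :
    GRel A (∏ i ∈ s, x i) (∏ i ∈ s, y i) := by
  classical
  induction s using Finset.induction_on with
  | empty =>
    rw [Finset.prod_empty, Finset.prod_empty]
    exact ModelRed.gRel_one (GRel.gRelStatement A)
  | insert a s ha ih =>
    rw [Finset.prod_insert ha, Finset.prod_insert ha]
    exact (GRel.gRelStatement A).mul _ _ _ _ (h a (Finset.mem_insert_self a s))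
      (ih fun i hi => h i (Finset.mem_insert_of_mem hi))

/-- The product of the `q` rotations of `x` by the powers of a `q`-th root of unity reduces to
the `q`-th power of the reduction of `x`. -/
theorem gRel_prod_rot (q : ℕ) [Fact q.Prime] (hA : A.LiesOverPrime q) {ζ : Qb} (hζ : ζ ^ q = 1)
    (hz : ∀ i : ℕ, ζ ^ i ≠ 0) {x : LaurentSeries Qb}
    {y : LaurentSeries (IsLocalRing.ResidueField A)} (h : GRel A x y) :
    GRel A (∏ i ∈ Finset.range q, rotHom (ζ ^ i) (hz i) x) (y ^ q) := by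
  have h1 := gRel_prod (A := A) (Finset.range q) (fun i => rotHom (ζ ^ i) (hz i) x) (fun _ => y)
    (fun i _ => ConjMod.gRel_rot q hA
      (by rw [← pow_mul, mul_comm, pow_mul, hζ, one_pow]) (hz i) h)
  rwa [Finset.prod_const, Finset.card_range] at h1

variable (M q : ℕ) [NeZero M] [NeZero q] (hq : q.Prime) (hqM : ¬ q ∣ M)

/-- **[NormRed], `Q^q`-form, along `α`.**  If `z` reduces to `g1` and `w z` to `g2`, then
`(N_α z)(Q^q)` reduces to `g1(Q^q) · g2^q`. -/
theorem gRel_qExpand_norm_alpha (hA : A.LiesOverPrime q) (z : ↥(modularFunctionFieldBar (M * q)))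
    {g1 g2 : LaurentSeries (IsLocalRing.ResidueField A)}
    (h1 : GRel A (z : LaurentSeries Qb) g1)
    (h2 : GRel A ((WK.wBar M q hq hqM z : ↥(modularFunctionFieldBar (M * q))) :
      LaurentSeries Qb) g2) :
    letI := algebraAlong (heckeAlphaBar Qb M q)
    GRel A (qExpand Qb q
        ((Algebra.norm ↥(modularFunctionFieldBar M) z : ↥(modularFunctionFieldBar M)) :
          LaurentSeries Qb))
      (qExpand (IsLocalRing.ResidueField A) q g1 * g2 ^ q) := by
  haveI : Fact q.Prime := ⟨hq⟩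
  obtain ⟨ζ, hζ⟩ := HasEnoughRootsOfUnity.exists_primitiveRoot Qb q
  have hz : ∀ i : ℕ, ζ ^ i ≠ 0 := fun i => pow_ne_zero i (hζ.ne_zero (NeZero.ne q))
  rw [qExpand_norm_alpha M q hq hqM ζ hζ hz z]
  exact (GRel.gRelStatement A).mul _ _ _ _ (V12Rel.gRel_qExpand A q h1)
    (gRel_prod_rot q hA hζ.pow_eq_one hz h2)

/-- **[NormRed], `Q^q`-form, along `β`.**  If `z` reduces to `g1` and `w z` to `g2`, then
`(N_β z)(Q^q)` reduces to `g2(Q^q) · g1^q`. -/
theorem gRel_qExpand_norm_beta (hA : A.LiesOverPrime q) (z : ↥(modularFunctionFieldBar (M * q)))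
    {g1 g2 : LaurentSeries (IsLocalRing.ResidueField A)}
    (h1 : GRel A (z : LaurentSeries Qb) g1)
    (h2 : GRel A ((WK.wBar M q hq hqM z : ↥(modularFunctionFieldBar (M * q))) :
      LaurentSeries Qb) g2) :
    letI := algebraAlong (heckeBetaBar Qb M q)
    GRel A (qExpand Qb q
        ((Algebra.norm ↥(modularFunctionFieldBar M) z : ↥(modularFunctionFieldBar M)) :
          LaurentSeries Qb))
      (qExpand (IsLocalRing.ResidueField A) q g2 * g1 ^ q) := by
  haveI : Fact q.Prime := ⟨hq⟩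
  obtain ⟨ζ, hζ⟩ := HasEnoughRootsOfUnity.exists_primitiveRoot Qb q
  have hz : ∀ i : ℕ, ζ ^ i ≠ 0 := fun i => pow_ne_zero i (hζ.ne_zero (NeZero.ne q))
  rw [qExpand_norm_beta_w M q hq hqM ζ hζ hz z]
  exact (GRel.gRelStatement A).mul _ _ _ _ (V12Rel.gRel_qExpand A q h2)
    (gRel_prod_rot q hA hζ.pow_eq_one hz h1)

/-- In characteristic `q`: `qContract (x(Q^q) · y^q) = x · φ(y)`. -/
theorem qContract_qExpand_mul_pow {k : Type*} [CommRing k] (q : ℕ) [Fact q.Prime] [NeZero q]
    [CharP k q] (x y : LaurentSeries k) :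
    S37.KC.qContract q (qExpand k q x * y ^ q) = x * coeffMap (frobenius k q) y := by
  rw [S37.KC.pow_char_eq_qExpand_frobenius q y, S37.KC.qContract_qExpand_mul]

/-- **[NormRed] along `α`**: `ρ_M(N_α z) = ρ(z) · φ(ρ(w z))`.  If `z` reduces to `g1` and `w z`
to `g2`, then `N_α z ∈ F̄_M` reduces to `g1 · φ(g2)`, `φ` the coefficientwise `q`-Frobenius. -/
theorem gRel_norm_alpha [Fact q.Prime] [CharP (IsLocalRing.ResidueField A) q]
    (hA : A.LiesOverPrime q) (z : ↥(modularFunctionFieldBar (M * q)))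
    {g1 g2 : LaurentSeries (IsLocalRing.ResidueField A)}
    (h1 : GRel A (z : LaurentSeries Qb) g1)
    (h2 : GRel A ((WK.wBar M q hq hqM z : ↥(modularFunctionFieldBar (M * q))) :
      LaurentSeries Qb) g2) :
    letI := algebraAlong (heckeAlphaBar Qb M q)
    GRel A ((Algebra.norm ↥(modularFunctionFieldBar M) z : ↥(modularFunctionFieldBar M)) :
        LaurentSeries Qb)
      (g1 * coeffMap (frobenius (IsLocalRing.ResidueField A) q) g2) := by
  have h := ConjMod.gRel_of_qExpand q (gRel_qExpand_norm_alpha M q hq hqM hA z h1 h2)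
  rwa [qContract_qExpand_mul_pow] at h

/-- **[NormRed] along `β`**: `ρ_M(N_β z) = φ(ρ(z)) · ρ(w z)`. -/
theorem gRel_norm_beta [Fact q.Prime] [CharP (IsLocalRing.ResidueField A) q]
    (hA : A.LiesOverPrime q) (z : ↥(modularFunctionFieldBar (M * q)))
    {g1 g2 : LaurentSeries (IsLocalRing.ResidueField A)}
    (h1 : GRel A (z : LaurentSeries Qb) g1)
    (h2 : GRel A ((WK.wBar M q hq hqM z : ↥(modularFunctionFieldBar (M * q))) :
      LaurentSeries Qb) g2) :
    letI := algebraAlong (heckeBetaBar Qb M q)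
    GRel A ((Algebra.norm ↥(modularFunctionFieldBar M) z : ↥(modularFunctionFieldBar M)) :
        LaurentSeries Qb)
      (coeffMap (frobenius (IsLocalRing.ResidueField A) q) g1 * g2) := by
  have h := ConjMod.gRel_of_qExpand q (gRel_qExpand_norm_beta M q hq hqM hA z h1 h2)
  have e : g2 * coeffMap (frobenius (IsLocalRing.ResidueField A) q) g1
      = coeffMap (frobenius (IsLocalRing.ResidueField A) q) g1 * g2 := mul_comm _ _
  rwa [qContract_qExpand_mul_pow, e] at h

end Red

/-! ### The norms commute with the coefficientwise Galois action -/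

section Galois

variable (M q : ℕ) [NeZero M] [NeZero q]

theorem alpha_arith (σ : Qb ≃ₐ[ℚ] Qb) (y : ↥(modularFunctionFieldBar M)) :
    heckeAlphaBar Qb M q (arithmeticRingAut (modularFunctionFieldFull M) σ y)
      = arithmeticRingAut (modularFunctionFieldFull (M * q)) σ (heckeAlphaBar Qb M q y) := by
  apply Subtype.ext
  rw [coe_heckeAlphaBar]
  show coeffMap (σ : Qb →+* Qb) (y : LaurentSeries Qb)
    = coeffMap (σ : Qb →+* Qb) ((heckeAlphaBar Qb M q y : ↥(modularFunctionFieldBar (M * q))) :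
        LaurentSeries Qb)
  rw [coe_heckeAlphaBar]

theorem beta_arith (σ : Qb ≃ₐ[ℚ] Qb) (y : ↥(modularFunctionFieldBar M)) :
    heckeBetaBar Qb M q (arithmeticRingAut (modularFunctionFieldFull M) σ y)
      = arithmeticRingAut (modularFunctionFieldFull (M * q)) σ (heckeBetaBar Qb M q y) := by
  apply Subtype.ext
  rw [coe_heckeBetaBar]
  show qExpand Qb q (coeffMap (σ : Qb →+* Qb) (y : LaurentSeries Qb))
    = coeffMap (σ : Qb →+* Qb) ((heckeBetaBar Qb M q y : ↥(modularFunctionFieldBar (M * q))) :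
        LaurentSeries Qb)
  rw [coe_heckeBetaBar, ModularCurve.coeffMap_qExpand]

/-- `N_α (σ z) = σ (N_α z)` for the coefficientwise action of `σ ∈ Gal(ℚ̄/ℚ)`. -/
theorem norm_alpha_arith (σ : Qb ≃ₐ[ℚ] Qb) (z : ↥(modularFunctionFieldBar (M * q))) :
    letI := algebraAlong (heckeAlphaBar Qb M q)
    Algebra.norm (↥(modularFunctionFieldBar M))
        (arithmeticRingAut (modularFunctionFieldFull (M * q)) σ z)
      = arithmeticRingAut (modularFunctionFieldFull M) σ
          (Algebra.norm (↥(modularFunctionFieldBar M)) z) := by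
  letI := algebraAlong (heckeAlphaBar Qb M q)
  have h := Algebra.norm_eq_of_equiv_equiv
    (arithmeticRingAut (modularFunctionFieldFull M) σ)
    (arithmeticRingAut (modularFunctionFieldFull (M * q)) σ)
    (RingHom.ext fun y => alpha_arith M q σ y) z
  rw [h, RingEquiv.apply_symm_apply]

/-- `N_β (σ z) = σ (N_β z)` for the coefficientwise action of `σ ∈ Gal(ℚ̄/ℚ)`. -/
theorem norm_beta_arith (σ : Qb ≃ₐ[ℚ] Qb) (z : ↥(modularFunctionFieldBar (M * q))) :
    letI := algebraAlong (heckeBetaBar Qb M q)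
    Algebra.norm (↥(modularFunctionFieldBar M))
        (arithmeticRingAut (modularFunctionFieldFull (M * q)) σ z)
      = arithmeticRingAut (modularFunctionFieldFull M) σ
          (Algebra.norm (↥(modularFunctionFieldBar M)) z) := by
  letI := algebraAlong (heckeBetaBar Qb M q)
  have h := Algebra.norm_eq_of_equiv_equiv
    (arithmeticRingAut (modularFunctionFieldFull M) σ)
    (arithmeticRingAut (modularFunctionFieldFull (M * q)) σ)
    (RingHom.ext fun y => beta_arith M q σ y) z
  rw [h, RingEquiv.apply_symm_apply]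

end Galois

/-! ### The `F_K` form: `ρ_M(N_α x) = ρ₁(x) · φ(ρ₂(x))` for `x ∈ V1 ∩ V2` -/

section FKForm

variable (M q : ℕ) [NeZero M] [NeZero q] (hq : q.Prime) (hqM : ¬ q ∣ M)
variable {A : ValuationSubring Qb} {K : IntermediateField ℚ Qb}

/-- **[NormRed] on `F_K(Mq)`, along `α`**: for `x ∈ V1 ∩ V2` (the two Gauss valuation rings,
`V2 = V1 ∘ w_K`), `N_α x` reduces to `ρ₁(x) · φ(ρ₂(x))`. -/
theorem gRel_norm_alpha_FK [Fact q.Prime] [CharP (IsLocalRing.ResidueField A) q]
    (hA : A.LiesOverPrime q) (hdvr : IsDiscreteValuationRing (OK A K)) (x : FK (M * q) K)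
    (h1 : x ∈ GaussV.V1 (M * q) A K hdvr) (h2 : x ∈ GaussV.V2 (WK.wK M q hq hqM K) hdvr) :
    letI := algebraAlong (heckeAlphaBar Qb M q)
    GRel A ((Algebra.norm ↥(modularFunctionFieldBar M) (S18.Glob.toBar (M * q) K x) :
        ↥(modularFunctionFieldBar M)) : LaurentSeries Qb)
      (GaussV.red1 hdvr ⟨x, h1⟩ * coeffMap (frobenius (IsLocalRing.ResidueField A) q)
        (GaussV.red2 (WK.wK M q hq hqM K) hdvr ⟨x, h2⟩)) :=
  gRel_norm_alpha M q hq hqM hA (S18.Glob.toBar (M * q) K x)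
    (GaussV.gRel_red1 hdvr ⟨x, h1⟩) (GaussV.gRel_red2 (WK.wK M q hq hqM K) hdvr ⟨x, h2⟩)

/-- **[NormRed] on `F_K(Mq)`, along `β`**: for `x ∈ V1 ∩ V2`, `N_β x` reduces to
`φ(ρ₁(x)) · ρ₂(x)`. -/
theorem gRel_norm_beta_FK [Fact q.Prime] [CharP (IsLocalRing.ResidueField A) q]
    (hA : A.LiesOverPrime q) (hdvr : IsDiscreteValuationRing (OK A K)) (x : FK (M * q) K)
    (h1 : x ∈ GaussV.V1 (M * q) A K hdvr) (h2 : x ∈ GaussV.V2 (WK.wK M q hq hqM K) hdvr) :
    letI := algebraAlong (heckeBetaBar Qb M q)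
    GRel A ((Algebra.norm ↥(modularFunctionFieldBar M) (S18.Glob.toBar (M * q) K x) :
        ↥(modularFunctionFieldBar M)) : LaurentSeries Qb)
      (coeffMap (frobenius (IsLocalRing.ResidueField A) q) (GaussV.red1 hdvr ⟨x, h1⟩) *
        GaussV.red2 (WK.wK M q hq hqM K) hdvr ⟨x, h2⟩) :=
  gRel_norm_beta M q hq hqM hA (S18.Glob.toBar (M * q) K x)
    (GaussV.gRel_red1 hdvr ⟨x, h1⟩) (GaussV.gRel_red2 (WK.wK M q hq hqM K) hdvr ⟨x, h2⟩)

end FKForm

end Fermat.Agent.S35.NormRed
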