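import Mathlib
import Fermat.Agent.S34.WKInst
import Fermat.Agent.S34.V12
import Fermat.Agent.S34.V12Rel
import Fermat.Agent.S34.UPlan
import Fermat.Agent.S34.ChartHypInst
import Fermat.Agent.S35.FrobAct
import Fermat.Agent.S35.ApproxK
import Fermat.Agent.S35.NormRed
import Fermat.Agent.S35.NormGal
import Fermat.Agent.S35.ModelFPlan

/-!
# S35, block [E] modular: [GNorm] — the corrector `H` of `ModelFPlan.ModelF`

Level `M q` (`q ∤ M`), `A` a valuation ring of `ℚ̄` over `q`, `σs` a Frobenius lift at `A`,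
`S = tauE (σs * σs)` the action of `σs²` on `F_K` (`K` stable, `BaseFacts q A K`).

For a function `f ≠ 0` of `F_K(M q)` with `N_α f = c · h ^ m` and `N_β f = c' · h' ^ m`
(`ModelFPlan.alphaNm`, `betaNm`: the norms along the two degeneracy maps; `c, c' ∈ K`,
`h, h' ∈ F_K(M)`), the second difference `S² f · f / (S f)²` becomes, after multiplication by the
`m`-th power of ONE function `H ∈ F_K(M q)`, congruent to `1` modulo `π (V1 ∩ V2)`:

* `exists_gRel_tauE_div` : `σ x / x` is a Gauss unit for every `x ≠ 0` of `F_K` (any level) and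
                           every `σ` in the decomposition group;
* `exists_C_of_gRel_constK` : the nonzero Gauss reduction of a constant is a constant;
* `alphaNm_firstDiff`, `betaNm_firstDiff` : norms of first differences;
* `exists_H_gRel`        : the corrector, in `GRel` form (both reductions of `G` are `1`);
* `exists_H`             : the corrector in the form of `ModelFPlan.ModelF.H_unit` / `H_cong`.

Proof: with `r₁, r₂` the two reductions of `G₁ = S f / f` and `a y ^ m`, `a' y' ^ m` those of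
`N_α G₁`, `N_β G₁`, [NormRed] gives `r₁ φ(r₂) = a y ^ m` and `φ(r₁) r₂ = a' y' ^ m` (`φ` the
coefficientwise Frobenius), hence `φ²(r₁)/r₁ = (φ a'/a) (φ y'/y) ^ m` and
`φ²(r₂)/r₂ = (φ a/a') (φ y/y') ^ m`; the constants `φ a'/a`, `φ a/a'` have `m`-th roots in the
algebraically closed residue field, lifted to `A ∩ K` by `BaseFacts.res_surj`, and weak
approximation (`ApproxK.approx`) produces `H` with the two prescribed reductions.
-/

set_option autoImplicit false

noncomputable section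

namespace Fermat.Agent.S35.GNorm

open ModularCurve AlgebraicCurve HahnSeries Fermat.Agent.S18 Fermat.Agent.S18.Arith
open Fermat.Agent.S34 Fermat.Agent.S34.TauAct

/-! ### Gauss units -/

section Basic

variable {A : ValuationSubring Qb}

/-- The coefficientwise residual automorphism of `k((Q))` attached to a decomposition-group
element. -/
abbrev cmap {σ : GQ} (hσ : σ ∈ A.decompositionSubgroup ℚ) :
    LaurentSeries (IsLocalRing.ResidueField A) →+* LaurentSeries (IsLocalRing.ResidueField A) :=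
  coeffMap ((FrobAct.resAut A hσ : IsLocalRing.ResidueField A ≃+* IsLocalRing.ResidueField A) :
    IsLocalRing.ResidueField A →+* IsLocalRing.ResidueField A)

theorem cmap_ne_zero {σ : GQ} (hσ : σ ∈ A.decompositionSubgroup ℚ)
    {y : LaurentSeries (IsLocalRing.ResidueField A)} (hy : y ≠ 0) : cmap hσ y ≠ 0 :=
  (map_ne_zero_iff _ (RingHom.injective _)).mpr hy

/-- `GRel` is compatible with integer powers of Gauss units. -/
theorem gRel_zpow {x : LaurentSeries Qb} {y : LaurentSeries (IsLocalRing.ResidueField A)}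
    (h : GRel A x y) (hy : y ≠ 0) (n : ℤ) : GRel A (x ^ n) (y ^ n) := by
  obtain ⟨k, rfl | rfl⟩ := Int.eq_nat_or_neg n
  · rw [zpow_natCast, zpow_natCast]
    exact V12Rel.gRel_pow A h k
  · rw [zpow_neg, zpow_neg, zpow_natCast, zpow_natCast]
    exact (V12Rel.gFacts A).inv _ _ (V12Rel.gRel_pow A h k) (pow_ne_zero _ hy)

variable {N : ℕ} [NeZero N] {K : IntermediateField ℚ Qb}

omit [NeZero N] in
/-- The reduction of `σ x` is the twist of the reduction of `x`. -/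
theorem gRel_tauE {σ : GQ} (hσ : σ ∈ A.decompositionSubgroup ℚ) (hK : Stable K σ) {x : FK N K}
    {y : LaurentSeries (IsLocalRing.ResidueField A)}
    (h : GRel A ((x : FK N K) : LaurentSeries Qb) y) :
    GRel A ((tauE N hK x : FK N K) : LaurentSeries Qb) (cmap hσ y) := by
  rw [coe_tauE]
  exact FrobAct.gRel_coeffMap_decomp A hσ h

/-- **First differences are Gauss units**: for `σ` in the decomposition group and `x ≠ 0` in
`F_K`, `σ x / x` is Gauss-integral with nonzero reduction. -/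
theorem exists_gRel_tauE_div (hdvr : IsDiscreteValuationRing (OK A K)) {σ : GQ}
    (hσ : σ ∈ A.decompositionSubgroup ℚ) (hK : Stable K σ) (x : FK N K) (hx : x ≠ 0) :
    ∃ r : LaurentSeries (IsLocalRing.ResidueField A), r ≠ 0 ∧
      GRel A ((tauE N hK x / x : FK N K) : LaurentSeries Qb) r := by
  have hG := V12Rel.gFacts A
  have := hdvr
  obtain ⟨π, hπ⟩ := IsDiscreteValuationRing.exists_irreducible (OK A K)
  obtain ⟨γ, y, hy0, hy⟩ := GaussV.exists_nf_FK N A K hdvr π hπ x hx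
  obtain ⟨u, hu⟩ := FrobAct.exists_unit_tauE_pi N hdvr hπ hσ hK
  have hP0 : algebraMap (OK A K) (FK N K) π ≠ 0 := GaussV.algebraMap_ne_zero N A K hπ.ne_zero
  obtain ⟨v, rfl, hv1⟩ : ∃ v : FK N K, x = v * algebraMap (OK A K) (FK N K) π ^ γ ∧
      GRel A ((v : FK N K) : LaurentSeries Qb) y := by
    refine ⟨x * algebraMap (OK A K) (FK N K) π ^ (-γ), ?_, ?_⟩
    · rw [mul_assoc, ← zpow_add₀ hP0, neg_add_cancel, zpow_zero, mul_one]
    · have hcoe : ((x * algebraMap (OK A K) (FK N K) π ^ (-γ) : FK N K) : LaurentSeries Qb) =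
          ((x : FK N K) : LaurentSeries Qb) * (C (incO A K π) : LaurentSeries Qb) ^ (-γ) := by
        have := map_zpow₀ (FK N K).subtype (algebraMap (OK A K) (FK N K) π) (-γ)
        rw [Subfield.coe_mul]
        congr 1
      rw [hcoe]
      exact hy
  have hv0 : v ≠ 0 := left_ne_zero_of_mul hx
  have hkey : tauE N hK (v * algebraMap (OK A K) (FK N K) π ^ γ) /
      (v * algebraMap (OK A K) (FK N K) π ^ γ) =
      tauE N hK v * v⁻¹ * algebraMap (OK A K) (FK N K) (u : OK A K) ^ γ := by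
    rw [map_mul, map_zpow₀, hu, mul_zpow]
    have hPγ : algebraMap (OK A K) (FK N K) π ^ γ ≠ 0 := zpow_ne_zero _ hP0
    field_simp
  have hU : GRel A ((algebraMap (OK A K) (FK N K) (u : OK A K) ^ γ : FK N K) : LaurentSeries Qb)
      ((C (resO A K (u : OK A K)) : LaurentSeries (IsLocalRing.ResidueField A)) ^ γ) := by
    have h1 : ((algebraMap (OK A K) (FK N K) (u : OK A K) ^ γ : FK N K) : LaurentSeries Qb) =
        (C (incO A K (u : OK A K)) : LaurentSeries Qb) ^ γ :=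
      map_zpow₀ (FK N K).subtype (algebraMap (OK A K) (FK N K) (u : OK A K)) γ
    rw [h1]
    refine gRel_zpow (ModelRed.gRel_const K hG (u : OK A K)) ?_ γ
    have h2 : resO A K (u : OK A K) ≠ 0 := (u.isUnit.map (resO A K)).ne_zero
    exact (map_ne_zero_iff _ HahnSeries.C_injective).mpr h2
  have hu0 : (C (resO A K (u : OK A K)) : LaurentSeries (IsLocalRing.ResidueField A)) ^ γ ≠ 0 := by
    have h2 : resO A K (u : OK A K) ≠ 0 := (u.isUnit.map (resO A K)).ne_zero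
    exact zpow_ne_zero _ ((map_ne_zero_iff _ HahnSeries.C_injective).mpr h2)
  refine ⟨cmap hσ y * y⁻¹ * (C (resO A K (u : OK A K))) ^ γ,
    mul_ne_zero (mul_ne_zero (cmap_ne_zero hσ hy0) (inv_ne_zero hy0)) hu0, ?_⟩
  rw [hkey, Subfield.coe_mul, Subfield.coe_mul, Subfield.coe_inv]
  exact hG.mul _ _ _ _ (hG.mul _ _ _ _ (gRel_tauE hσ hK hv1) (hG.inv _ _ hv1 hy0)) hU

/-! ### Constants -/

omit [NeZero N] in
/-- The `q`-expansion of a constant of `K`. -/
theorem coe_constK (e : K) :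
    ((constK N K e : FK N K) : LaurentSeries Qb) = (C ((e : K) : Qb) : LaurentSeries Qb) := rfl

omit [NeZero N] in
/-- A constant of `K` in `A` is Gauss-integral, with constant reduction. -/
theorem gRel_constK_of_mem (e : K) (he : ((e : K) : Qb) ∈ A) :
    GRel A ((constK N K e : FK N K) : LaurentSeries Qb)
      (C (IsLocalRing.residue A ⟨((e : K) : Qb), he⟩)) := by
  have h := (V12Rel.gFacts A).of_int (C (⟨((e : K) : Qb), he⟩ : A))
  have h1 : coeffMap A.subtype (C (⟨((e : K) : Qb), he⟩ : A)) =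
      (C ((e : K) : Qb) : LaurentSeries Qb) := coeffMap_single _ _ _
  have h2 : coeffMap (IsLocalRing.residue A) (C (⟨((e : K) : Qb), he⟩ : A)) =
      (C (IsLocalRing.residue A ⟨((e : K) : Qb), he⟩) :
        LaurentSeries (IsLocalRing.ResidueField A)) := coeffMap_single _ _ _
  rw [coe_constK]
  rwa [h1, h2] at h

omit [NeZero N] in
/-- The nonzero Gauss reduction of a constant is a nonzero constant. -/
theorem exists_C_of_gRel_constK (e : K) {r : LaurentSeries (IsLocalRing.ResidueField A)}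
    (h : GRel A ((constK N K e : FK N K) : LaurentSeries Qb) r) (hr : r ≠ 0) :
    ∃ r₀ : IsLocalRing.ResidueField A, r₀ ≠ 0 ∧ r = C r₀ := by
  have hG := V12Rel.gFacts A
  rcases A.mem_or_inv_mem ((e : K) : Qb) with he | he
  · have h1 := gRel_constK_of_mem (N := N) e he
    have h2 := hG.unique _ _ _ h h1
    refine ⟨_, ?_, h2⟩
    intro h0
    rw [h2, h0, map_zero] at hr
    exact hr rfl
  · have he' : (((e⁻¹ : K) : K) : Qb) ∈ A := by
      rw [show (((e⁻¹ : K) : K) : Qb) = (((e : K) : Qb))⁻¹ from rfl]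
      exact he
    have h1 := gRel_constK_of_mem (N := N) e⁻¹ he'
    have h3 : ((constK N K e⁻¹ : FK N K) : LaurentSeries Qb) =
        (((constK N K e : FK N K) : LaurentSeries Qb))⁻¹ := by
      rw [map_inv₀, Subfield.coe_inv]
    rw [h3] at h1
    have h2 := hG.unique _ _ _ (hG.inv _ _ h hr) h1
    have h4 : r = (C (IsLocalRing.residue A ⟨(((e⁻¹ : K) : K) : Qb), he'⟩) :
        LaurentSeries (IsLocalRing.ResidueField A))⁻¹ := by
      rw [← h2, inv_inv]
    have h5 : IsLocalRing.residue A ⟨(((e⁻¹ : K) : K) : Qb), he'⟩ ≠ 0 := by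
      intro h0
      rw [h0, map_zero] at h2
      exact inv_ne_zero hr h2
    refine ⟨(IsLocalRing.residue A ⟨(((e⁻¹ : K) : K) : Qb), he'⟩)⁻¹, inv_ne_zero h5, ?_⟩
    rw [h4, map_inv₀]

omit [NeZero N] in
/-- `tauE` of a constant is a constant. -/
theorem exists_tauE_constK {σ : GQ} (hK : Stable K σ) (e : K) :
    ∃ e' : K, tauE N hK (constK N K e) = constK N K e' :=
  ⟨_, tauE_constK N hK e⟩

omit [NeZero N] in
/-- The coefficientwise Galois action on `F̄` restricts to `tauE` on `F_K`. -/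
theorem toBar_tauE {σ : GQ} (hK : Stable K σ) (x : FK N K) :
    Glob.toBar N K (tauE N hK x) = UPlan.gal N σ • Glob.toBar N K x := by
  apply Subtype.ext
  rw [Glob.coe_toBar, coe_tauE]
  exact (coe_arithmeticGalois_smul (F₀ := modularFunctionFieldFull N) σ (Glob.toBar N K x)).symm

end Basic

/-! ### Norms of first differences -/

section Norm

variable (M q : ℕ) [NeZero M] [NeZero q]
variable {K : IntermediateField ℚ Qb}

/-- `N_α (τ f / f) = τ X / X` if `N_α f = X`. -/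
theorem alphaNm_firstDiff {τ : GQ} (hK : Stable K τ) (f : FK (M * q) K) (hf : f ≠ 0)
    (X : FK M K)
    (hα : ModelFPlan.alphaNm M q (Glob.toBar (M * q) K f) = Glob.toBar M K X) :
    ModelFPlan.alphaNm M q (Glob.toBar (M * q) K (tauE (M * q) hK f / f)) =
      Glob.toBar M K (tauE M hK X / X) := by
  have hf' : Glob.toBar (M * q) K f ≠ 0 := (map_ne_zero _).mpr hf
  rw [map_div₀, map_div₀, toBar_tauE, toBar_tauE, ← hα]
  exact NormGal.norm_alpha_gal_div M q τ hf'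

/-- `N_β (τ f / f) = τ X / X` if `N_β f = X`. -/
theorem betaNm_firstDiff {τ : GQ} (hK : Stable K τ) (f : FK (M * q) K) (hf : f ≠ 0)
    (X : FK M K)
    (hβ : ModelFPlan.betaNm M q (Glob.toBar (M * q) K f) = Glob.toBar M K X) :
    ModelFPlan.betaNm M q (Glob.toBar (M * q) K (tauE (M * q) hK f / f)) =
      Glob.toBar M K (tauE M hK X / X) := by
  have hf' : Glob.toBar (M * q) K f ≠ 0 := (map_ne_zero _).mpr hf
  rw [map_div₀, map_div₀, toBar_tauE, toBar_tauE, ← hβ]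
  exact NormGal.norm_beta_gal_div M q τ hf'

end Norm

/-! ### The corrector -/

section Main

variable (M q : ℕ) [NeZero M] [NeZero q] (hq : q.Prime) (hqM : ¬ q ∣ M)
variable {A : ValuationSubring Qb} {K : IntermediateField ℚ Qb}

/-- **[GNorm], `GRel` form.**  `σs` a Frobenius lift at `A | q`, `S = tauE (σs * σs)`.  If
`N_α f = c · h ^ m` and `N_β f = c' · h' ^ m` (`c, c' ∈ K`, `h, h' ∈ F_K(M)`), there is ONE
`H ∈ F_K(M q)`, a unit of both Gauss valuation rings, such that both reductions of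
`G = S² f · f / (S f)² · H ^ m` are `1`. -/
theorem exists_H_gRel (hB : BaseFacts q A K) (hA : A.LiesOverPrime q) {σs : GQ}
    (hσ : A.IsFrobeniusAt σs q) (hKσ : Stable K σs) (hK : Stable K (σs * σs))
    (f : FK (M * q) K) (hf : f ≠ 0) {m : ℕ} (hm : m ≠ 0)
    (c c' : K) (hc : c ≠ 0) (hc' : c' ≠ 0) (h h' : FK M K) (hh : h ≠ 0) (hh' : h' ≠ 0)
    (hα : ModelFPlan.alphaNm M q (Glob.toBar (M * q) K f) =
      Glob.toBar M K (constK M K c * h ^ m))
    (hβ : ModelFPlan.betaNm M q (Glob.toBar (M * q) K f) =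
      Glob.toBar M K (constK M K c' * h' ^ m)) :
    ∃ H : FK (M * q) K,
      (∃ y₁ : LaurentSeries (IsLocalRing.ResidueField A), y₁ ≠ 0 ∧
        GRel A ((H : FK (M * q) K) : LaurentSeries Qb) y₁) ∧
      (∃ y₂ : LaurentSeries (IsLocalRing.ResidueField A), y₂ ≠ 0 ∧
        GRel A ((WK.wK M q hq hqM K H : FK (M * q) K) : LaurentSeries Qb) y₂) ∧
      GRel A ((LocPlan.secondDiff (tauE (M * q) hK) (tauE (M * q) hK) f * H ^ m :
        FK (M * q) K) : LaurentSeries Qb) 1 ∧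
      GRel A ((WK.wK M q hq hqM K
        (LocPlan.secondDiff (tauE (M * q) hK) (tauE (M * q) hK) f * H ^ m) :
          FK (M * q) K) : LaurentSeries Qb) 1 := by
  have hG := V12Rel.gFacts A
  have hdvr := hB.dvr
  have : Fact q.Prime := ⟨hq⟩
  have : CharP (IsLocalRing.ResidueField A) q := BaseRes.charP_residueField q A hA
  have hσd := hσ.mem_decompositionSubgroup
  have hτd : σs * σs ∈ A.decompositionSubgroup ℚ := mul_mem hσd hσd
  obtain ⟨Φ, hΦ⟩ : ∃ Φ : LaurentSeries (IsLocalRing.ResidueField A) →+*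
      LaurentSeries (IsLocalRing.ResidueField A),
      Φ = coeffMap (frobenius (IsLocalRing.ResidueField A) q) := ⟨_, rfl⟩
  have hFσ : ∀ {N : ℕ} (x : FK N K) (y : LaurentSeries (IsLocalRing.ResidueField A)),
      GRel A ((x : FK N K) : LaurentSeries Qb) y →
      GRel A ((tauE N hKσ x : FK N K) : LaurentSeries Qb) (Φ y) := by
    intro N x y hxy
    rw [coe_tauE, hΦ]
    exact FrobAct.gRel_coeffMap_frob A hσ hxy
  have hFτ : ∀ {N : ℕ} (x : FK N K) (y : LaurentSeries (IsLocalRing.ResidueField A)),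
      GRel A ((x : FK N K) : LaurentSeries Qb) y →
      GRel A ((tauE N hK x : FK N K) : LaurentSeries Qb) (Φ (Φ y)) := by
    intro N x y hxy
    rw [coe_tauE, hΦ, coeffMap_coeffMap]
    exact FrobAct.gRel_coeffMap_frob_sq A hσ hxy
  have hΦ0 : ∀ {y : LaurentSeries (IsLocalRing.ResidueField A)}, y ≠ 0 → Φ y ≠ 0 :=
    fun hy => (map_ne_zero_iff _ (RingHom.injective _)).mpr hy
  -- the first difference `G₁ = S f / f` and its two reductions
  obtain ⟨r1, hr1, R1⟩ := exists_gRel_tauE_div hdvr hτd hK f hf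
  have hwf : WK.wK M q hq hqM K f ≠ 0 := (map_ne_zero _).mpr hf
  obtain ⟨r2, hr2, R2⟩ := exists_gRel_tauE_div hdvr hτd hK (WK.wK M q hq hqM K f) hwf
  have hwG : WK.wK M q hq hqM K (tauE (M * q) hK f / f) =
      tauE (M * q) hK (WK.wK M q hq hqM K f) / WK.wK M q hq hqM K f := by
    rw [map_div₀, WKInst.wK_tauE]
  rw [← hwG] at R2
  -- the reductions of the norm data
  have hcK : constK M K c ≠ 0 := (map_ne_zero _).mpr hc
  have hcK' : constK M K c' ≠ 0 := (map_ne_zero _).mpr hc'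
  obtain ⟨a, ha, Ra⟩ := exists_gRel_tauE_div hdvr hτd hK (constK M K c) hcK
  obtain ⟨y, hy, Ry⟩ := exists_gRel_tauE_div hdvr hτd hK h hh
  obtain ⟨a', ha', Ra'⟩ := exists_gRel_tauE_div hdvr hτd hK (constK M K c') hcK'
  obtain ⟨y', hy', Ry'⟩ := exists_gRel_tauE_div hdvr hτd hK h' hh'
  have hsplit : ∀ (e : K) (g : FK M K),
      tauE M hK (constK M K e * g ^ m) / (constK M K e * g ^ m) =
        tauE M hK (constK M K e) / constK M K e * (tauE M hK g / g) ^ m := by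
    intro e g
    rw [map_mul, map_pow, div_pow, mul_div_mul_comm]
  -- the two norm relations on reductions
  have E1 : r1 * Φ r2 = a * y ^ m := by
    have h1 := NormRed.gRel_norm_alpha M q hq hqM hA
      (Glob.toBar (M * q) K (tauE (M * q) hK f / f)) (g1 := r1) (g2 := r2) R1 R2
    have h2 := alphaNm_firstDiff M q hK f hf _ hα
    have h3 : GRel A ((Glob.toBar M K (tauE M hK (constK M K c * h ^ m) /
        (constK M K c * h ^ m)) : modularFunctionFieldBar M) : LaurentSeries Qb)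
        (a * y ^ m) := by
      rw [Glob.coe_toBar, hsplit, Subfield.coe_mul, SubmonoidClass.coe_pow]
      exact hG.mul _ _ _ _ Ra (V12Rel.gRel_pow A Ry m)
    rw [← h2] at h3
    rw [hΦ]
    exact hG.unique _ _ _ h1 h3
  have E2 : Φ r1 * r2 = a' * y' ^ m := by
    have h1 := NormRed.gRel_norm_beta M q hq hqM hA
      (Glob.toBar (M * q) K (tauE (M * q) hK f / f)) (g1 := r1) (g2 := r2) R1 R2
    have h2 := betaNm_firstDiff M q hK f hf _ hβ
    have h3 : GRel A ((Glob.toBar M K (tauE M hK (constK M K c' * h' ^ m) /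
        (constK M K c' * h' ^ m)) : modularFunctionFieldBar M) : LaurentSeries Qb)
        (a' * y' ^ m) := by
      rw [Glob.coe_toBar, hsplit, Subfield.coe_mul, SubmonoidClass.coe_pow]
      exact hG.mul _ _ _ _ Ra' (V12Rel.gRel_pow A Ry' m)
    rw [← h2] at h3
    rw [hΦ]
    exact hG.unique _ _ _ h1 h3
  -- the second difference and its two reductions
  have hSf : tauE (M * q) hK f ≠ 0 := (map_ne_zero _).mpr hf
  have hG₂ : LocPlan.secondDiff (tauE (M * q) hK) (tauE (M * q) hK) f =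
      tauE (M * q) hK (tauE (M * q) hK f / f) / (tauE (M * q) hK f / f) := by
    have hSSf : tauE (M * q) hK (tauE (M * q) hK f) ≠ 0 := (map_ne_zero _).mpr hSf
    unfold LocPlan.secondDiff
    rw [map_div₀]
    field_simp
  have RG1 : GRel A ((tauE (M * q) hK (tauE (M * q) hK f / f) / (tauE (M * q) hK f / f) :
      FK (M * q) K) : LaurentSeries Qb) (Φ (Φ r1) * r1⁻¹) := by
    rw [div_eq_mul_inv, Subfield.coe_mul, Subfield.coe_inv]
    exact hG.mul _ _ _ _ (hFτ _ _ R1) (hG.inv _ _ R1 hr1)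
  have RG2 : GRel A ((WK.wK M q hq hqM K
      (tauE (M * q) hK (tauE (M * q) hK f / f) / (tauE (M * q) hK f / f)) :
      FK (M * q) K) : LaurentSeries Qb) (Φ (Φ r2) * r2⁻¹) := by
    rw [map_div₀, WKInst.wK_tauE, div_eq_mul_inv, Subfield.coe_mul, Subfield.coe_inv]
    exact hG.mul _ _ _ _ (hFτ _ _ R2) (hG.inv _ _ R2 hr2)
  -- the algebra of the two norm relations
  have hΦr1 : Φ r1 ≠ 0 := hΦ0 hr1
  have hΦr2 : Φ r2 ≠ 0 := hΦ0 hr2
  have hΦy : Φ y ≠ 0 := hΦ0 hy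
  have hΦy' : Φ y' ≠ 0 := hΦ0 hy'
  have A1 : Φ (Φ r1) * r1⁻¹ = (Φ a' * a⁻¹) * (Φ y' * y⁻¹) ^ m := by
    have e2 : Φ (Φ r1) * Φ r2 = Φ a' * (Φ y') ^ m := by rw [← map_mul, E2, map_mul, map_pow]
    have h1 : Φ (Φ r1) = Φ a' * (Φ y') ^ m / Φ r2 := eq_div_of_mul_eq hΦr2 e2
    have h2 : r1 = a * y ^ m / Φ r2 := eq_div_of_mul_eq hΦr2 E1
    rw [h1, h2, mul_pow, inv_pow]
    field_simp
  have A2 : Φ (Φ r2) * r2⁻¹ = (Φ a * a'⁻¹) * (Φ y * y'⁻¹) ^ m := by
    have e1 : Φ r1 * Φ (Φ r2) = Φ a * (Φ y) ^ m := by rw [← map_mul, E1, map_mul, map_pow]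
    have h1 : Φ (Φ r2) = Φ a * (Φ y) ^ m / Φ r1 := eq_div_of_mul_eq hΦr1 (by rw [mul_comm]; exact e1)
    have h2 : r2 = a' * y' ^ m / Φ r1 := eq_div_of_mul_eq hΦr1 (by rw [mul_comm]; exact E2)
    rw [h1, h2, mul_pow, inv_pow]
    field_simp
  -- the constants
  obtain ⟨e, he⟩ : ∃ e : K, tauE M hK (constK M K c) / constK M K c = constK M K e := by
    obtain ⟨e0, he0⟩ := exists_tauE_constK (N := M) hK c
    exact ⟨e0 / c, by rw [he0, map_div₀]⟩
  obtain ⟨e', he'⟩ : ∃ e' : K, tauE M hK (constK M K c') / constK M K c' = constK M K e' := by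
    obtain ⟨e0, he0⟩ := exists_tauE_constK (N := M) hK c'
    exact ⟨e0 / c', by rw [he0, map_div₀]⟩
  rw [he] at Ra
  rw [he'] at Ra'
  obtain ⟨e₁, he₁⟩ : ∃ e₁ : K, tauE M hKσ (constK M K e') / constK M K e = constK M K e₁ := by
    obtain ⟨e0, he0⟩ := exists_tauE_constK (N := M) hKσ e'
    exact ⟨e0 / e, by rw [he0, map_div₀]⟩
  obtain ⟨e₂, he₂⟩ : ∃ e₂ : K, tauE M hKσ (constK M K e) / constK M K e' = constK M K e₂ := by
    obtain ⟨e0, he0⟩ := exists_tauE_constK (N := M) hKσ e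
    exact ⟨e0 / e', by rw [he0, map_div₀]⟩
  have Rκ₁ : GRel A ((constK M K e₁ : FK M K) : LaurentSeries Qb) (Φ a' * a⁻¹) := by
    rw [← he₁, div_eq_mul_inv, Subfield.coe_mul, Subfield.coe_inv]
    exact hG.mul _ _ _ _ (hFσ _ _ Ra') (hG.inv _ _ Ra ha)
  have Rκ₂ : GRel A ((constK M K e₂ : FK M K) : LaurentSeries Qb) (Φ a * a'⁻¹) := by
    rw [← he₂, div_eq_mul_inv, Subfield.coe_mul, Subfield.coe_inv]
    exact hG.mul _ _ _ _ (hFσ _ _ Ra) (hG.inv _ _ Ra' ha')
  obtain ⟨κ₁, hκ₁0, hκ₁⟩ := exists_C_of_gRel_constK e₁ Rκ₁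
    (mul_ne_zero (hΦ0 ha') (inv_ne_zero ha))
  obtain ⟨κ₂, hκ₂0, hκ₂⟩ := exists_C_of_gRel_constK e₂ Rκ₂
    (mul_ne_zero (hΦ0 ha) (inv_ne_zero ha'))
  -- `m`-th roots of the residue constants, lifted to `O = A ∩ K`
  have : IsAlgClosed (IsLocalRing.ResidueField A) := BaseRes.isAlgClosed_residueField_Qb A
  obtain ⟨ε₁, hε₁⟩ := IsAlgClosed.exists_pow_nat_eq κ₁⁻¹ (Nat.pos_of_ne_zero hm)
  obtain ⟨ε₂, hε₂⟩ := IsAlgClosed.exists_pow_nat_eq κ₂⁻¹ (Nat.pos_of_ne_zero hm)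
  have hε₁0 : ε₁ ≠ 0 := by
    intro h0
    rw [h0, zero_pow hm] at hε₁
    exact inv_ne_zero hκ₁0 hε₁.symm
  have hε₂0 : ε₂ ≠ 0 := by
    intro h0
    rw [h0, zero_pow hm] at hε₂
    exact inv_ne_zero hκ₂0 hε₂.symm
  have lift : ∀ ε : IsLocalRing.ResidueField A, ∃ (d : K) (hd : ((d : K) : Qb) ∈ A),
      IsLocalRing.residue A ⟨((d : K) : Qb), hd⟩ = ε := by
    intro ε
    obtain ⟨a0, ha0⟩ := IsLocalRing.residue_surjective ε
    obtain ⟨x, hx, hxe⟩ := hB.res_surj a0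
    exact ⟨x, hx, by rw [← hxe, ha0]⟩
  obtain ⟨d₁, hd₁A, hd₁⟩ := lift ε₁
  obtain ⟨d₂, hd₂A, hd₂⟩ := lift ε₂
  have RD₁ : GRel A ((constK (M * q) K d₁ : FK (M * q) K) : LaurentSeries Qb) (C ε₁) :=
    hd₁ ▸ gRel_constK_of_mem (N := M * q) d₁ hd₁A
  have RD₂ : GRel A ((constK (M * q) K d₂ : FK (M * q) K) : LaurentSeries Qb) (C ε₂) :=
    hd₂ ▸ gRel_constK_of_mem (N := M * q) d₂ hd₂A
  -- the two prescribed reductions and weak approximation
  have RZ₁ : GRel A (((tauE M hK h / h) / tauE M hKσ (tauE M hK h' / h') : FK M K) :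
      LaurentSeries Qb) (y * (Φ y')⁻¹) := by
    rw [div_eq_mul_inv, Subfield.coe_mul, Subfield.coe_inv]
    exact hG.mul _ _ _ _ Ry (hG.inv _ _ (hFσ _ _ Ry') hΦy')
  have RZ₂ : GRel A (((tauE M hK h' / h') / tauE M hKσ (tauE M hK h / h) : FK M K) :
      LaurentSeries Qb) (y' * (Φ y)⁻¹) := by
    rw [div_eq_mul_inv, Subfield.coe_mul, Subfield.coe_inv]
    exact hG.mul _ _ _ _ Ry' (hG.inv _ _ (hFσ _ _ Ry) hΦy)
  have Rx₁ : GRel A ((constK (M * q) K d₁ * WK.alphaK M q K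
      ((tauE M hK h / h) / tauE M hKσ (tauE M hK h' / h')) : FK (M * q) K) :
      LaurentSeries Qb) (C ε₁ * (y * (Φ y')⁻¹)) := by
    rw [Subfield.coe_mul, WK.coe_alphaK]
    exact hG.mul _ _ _ _ RD₁ RZ₁
  have Rx₂ : GRel A ((WK.wK M q hq hqM K (constK (M * q) K d₂ * WK.betaK M q hq hqM K
      ((tauE M hK h' / h') / tauE M hKσ (tauE M hK h / h))) : FK (M * q) K) :
      LaurentSeries Qb) (C ε₂ * (y' * (Φ y)⁻¹)) := by
    rw [map_mul, WK.wK_constK, WK.wK_betaK, Subfield.coe_mul, WK.coe_alphaK]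
    exact hG.mul _ _ _ _ RD₂ RZ₂
  obtain ⟨H, RH1, RH2⟩ := ApproxK.approx M q hq hqM hdvr hA _ _ _ _ Rx₁ Rx₂
  have hCε₁ : (C ε₁ : LaurentSeries (IsLocalRing.ResidueField A)) ≠ 0 :=
    (map_ne_zero_iff _ HahnSeries.C_injective).mpr hε₁0
  have hCε₂ : (C ε₂ : LaurentSeries (IsLocalRing.ResidueField A)) ≠ 0 :=
    (map_ne_zero_iff _ HahnSeries.C_injective).mpr hε₂0
  have hfin1 : Φ (Φ r1) * r1⁻¹ * (C ε₁ * (y * (Φ y')⁻¹)) ^ m = 1 := by
    have hcancel : (Φ y' * y⁻¹) * (y * (Φ y')⁻¹) = 1 := by field_simp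
    calc Φ (Φ r1) * r1⁻¹ * (C ε₁ * (y * (Φ y')⁻¹)) ^ m
        = C κ₁ * (C ε₁) ^ m * ((Φ y' * y⁻¹) * (y * (Φ y')⁻¹)) ^ m := by
          rw [A1, hκ₁]; ring
      _ = 1 := by
          rw [hcancel, one_pow, mul_one, ← map_pow, ← map_mul, hε₁, mul_inv_cancel₀ hκ₁0,
            map_one]
  have hfin2 : Φ (Φ r2) * r2⁻¹ * (C ε₂ * (y' * (Φ y)⁻¹)) ^ m = 1 := by
    have hcancel : (Φ y * y'⁻¹) * (y' * (Φ y)⁻¹) = 1 := by field_simp
    calc Φ (Φ r2) * r2⁻¹ * (C ε₂ * (y' * (Φ y)⁻¹)) ^ m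
        = C κ₂ * (C ε₂) ^ m * ((Φ y * y'⁻¹) * (y' * (Φ y)⁻¹)) ^ m := by
          rw [A2, hκ₂]; ring
      _ = 1 := by
          rw [hcancel, one_pow, mul_one, ← map_pow, ← map_mul, hε₂, mul_inv_cancel₀ hκ₂0,
            map_one]
  refine ⟨H, ⟨_, mul_ne_zero hCε₁ (mul_ne_zero hy (inv_ne_zero hΦy')), RH1⟩,
    ⟨_, mul_ne_zero hCε₂ (mul_ne_zero hy' (inv_ne_zero hΦy)), RH2⟩, ?_, ?_⟩
  · rw [hG₂, Subfield.coe_mul, SubmonoidClass.coe_pow]
    have h5 := hG.mul _ _ _ _ RG1 (V12Rel.gRel_pow A RH1 m)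
    rwa [hfin1] at h5
  · rw [hG₂, map_mul, map_pow, Subfield.coe_mul, SubmonoidClass.coe_pow]
    have h5 := hG.mul _ _ _ _ RG2 (V12Rel.gRel_pow A RH2 m)
    rwa [hfin2] at h5

/-- **[GNorm]**, in the vocabulary of `ModelFPlan.ModelF` (`H_unit`, `H_cong`): the corrector `H`
is a unit of both component valuation rings `V 0 = V1`, `V 1 = V2` and
`S² f · f / (S f)² · H ^ m ≡ 1` modulo `π (V i)` for both `i`. -/
theorem exists_H (hB : BaseFacts q A K) (hA : A.LiesOverPrime q) {π : OK A K}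
    (hπ : Irreducible π) {σs : GQ}
    (hσ : A.IsFrobeniusAt σs q) (hKσ : Stable K σs) (hK : Stable K (σs * σs))
    (f : FK (M * q) K) (hf : f ≠ 0) {m : ℕ} (hm : m ≠ 0)
    (c c' : K) (hc : c ≠ 0) (hc' : c' ≠ 0) (h h' : FK M K) (hh : h ≠ 0) (hh' : h' ≠ 0)
    (hα : ModelFPlan.alphaNm M q (Glob.toBar (M * q) K f) =
      Glob.toBar M K (constK M K c * h ^ m))
    (hβ : ModelFPlan.betaNm M q (Glob.toBar (M * q) K f) =
      Glob.toBar M K (constK M K c' * h' ^ m)) :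
    ∃ H : FK (M * q) K,
      (∀ i : Fin 2, H ∈ ChartHypInst.Vfam (WK.wK M q hq hqM K) hB.dvr i ∧
        H⁻¹ ∈ ChartHypInst.Vfam (WK.wK M q hq hqM K) hB.dvr i) ∧
      ∀ i : Fin 2, ∃ z ∈ ChartHypInst.Vfam (WK.wK M q hq hqM K) hB.dvr i,
        LocPlan.secondDiff (tauE (M * q) hK) (tauE (M * q) hK) f * H ^ m - 1 =
          algebraMap (OK A K) (FK (M * q) K) π * z := by
  have hG := V12Rel.gFacts A
  have hdvr := hB.dvr
  obtain ⟨H, ⟨y₁, hy₁, R1⟩, ⟨y₂, hy₂, R2⟩, RG1, RG2⟩ :=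
    exists_H_gRel M q hq hqM hB hA hσ hKσ hK f hf hm c c' hc hc' h h' hh hh' hα hβ
  refine ⟨H, Fin.forall_fin_two.mpr ⟨⟨?_, ?_⟩, ⟨?_, ?_⟩⟩, Fin.forall_fin_two.mpr ⟨?_, ?_⟩⟩
  · exact (GaussV.mem_V1_iff hdvr).mpr ⟨y₁, R1⟩
  · refine (GaussV.mem_V1_iff hdvr).mpr ⟨y₁⁻¹, ?_⟩
    rw [Subfield.coe_inv]
    exact hG.inv _ _ R1 hy₁
  · exact (GaussV.mem_V2_iff (WK.wK M q hq hqM K) hdvr).mpr
      ((GaussV.mem_V1_iff hdvr).mpr ⟨y₂, R2⟩)
  · refine (GaussV.mem_V2_iff (WK.wK M q hq hqM K) hdvr).mpr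
      ((GaussV.mem_V1_iff hdvr).mpr ⟨y₂⁻¹, ?_⟩)
    rw [map_inv₀, Subfield.coe_inv]
    exact hG.inv _ _ R2 hy₂
  · have hsub : LocPlan.secondDiff (tauE (M * q) hK) (tauE (M * q) hK) f * H ^ m - 1 ∈
        GaussV.V1 (M * q) A K hdvr := by
      refine (GaussV.mem_V1_iff hdvr).mpr ⟨1 - 1, ?_⟩
      rw [Subfield.coe_sub]
      exact V12Rel.gRel_sub A RG1 (ModelRed.gRel_one hG)
    have hred : GaussV.red1 hdvr ⟨_, hsub⟩ = 0 := by
      apply GaussV.red1_eq_of_gRel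
      show GRel A ((LocPlan.secondDiff (tauE (M * q) hK) (tauE (M * q) hK) f * H ^ m - 1 :
        FK (M * q) K) : LaurentSeries Qb) 0
      rw [Subfield.coe_sub]
      have h5 := V12Rel.gRel_sub A RG1 (ModelRed.gRel_one hG)
      rwa [sub_self] at h5
    obtain ⟨z, hz, hzeq⟩ := (GaussV.red1_eq_zero_iff hdvr hπ ⟨_, hsub⟩).mp hred
    exact ⟨z, hz, hzeq⟩
  · have hw1 : GRel A ((WK.wK M q hq hqM K
        (LocPlan.secondDiff (tauE (M * q) hK) (tauE (M * q) hK) f * H ^ m - 1) :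
          FK (M * q) K) : LaurentSeries Qb) 0 := by
      rw [map_sub, map_one, Subfield.coe_sub]
      have h5 := V12Rel.gRel_sub A RG2 (ModelRed.gRel_one hG)
      rwa [sub_self] at h5
    have hsub : LocPlan.secondDiff (tauE (M * q) hK) (tauE (M * q) hK) f * H ^ m - 1 ∈
        GaussV.V2 (WK.wK M q hq hqM K) hdvr :=
      (GaussV.mem_V2_iff (WK.wK M q hq hqM K) hdvr).mpr ((GaussV.mem_V1_iff hdvr).mpr ⟨0, hw1⟩)
    have hred : GaussV.red2 (WK.wK M q hq hqM K) hdvr ⟨_, hsub⟩ = 0 := by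
      rw [GaussV.red2_apply]
      exact GaussV.red1_eq_of_gRel hdvr _ hw1
    obtain ⟨z, hz, hzeq⟩ := (GaussV.red2_eq_zero_iff (WK.wK M q hq hqM K)
      (WK.wK_algebraMap_OK M q hq hqM K A) hdvr hπ ⟨_, hsub⟩).mp hred
    exact ⟨z, hz, hzeq⟩

end Main

end Fermat.Agent.S35.GNorm
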