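import Mathlib
import Fermat.Agent.S18.DescCoeff
import Fermat.Agent.S35.GNorm
import Fermat.Agent.S35.BaseF
import Fermat.Agent.S35.ModelFAsm
import Fermat.Agent.S35.ModelFTop

/-!
# S35, block [E] modular: the corrector statement for `NormCond`, and `ModelFStatement` closed

* `corrStatement`  : `ModelFAsm.CorrStatement M q hq hqM m (fun _ => ModelFPlan.NormCond M q m)`
                     for `m ≠ 0` — the finite set of constants is `{c, c'}` together with the
                     constants over which the two roots `h, h'` of the norms of `f` are defined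
                     (`S18.DescCoeff.descStatement` at level `M`); over every Galois-stable base
                     `K` containing it, `GNorm.exists_H` gives the corrector;
* `modelFStatement` : `ModelFPlan.ModelFStatement M q m` for `q ∤ m`, with NO hypothesis
                     (`ModelFTop.modelFStatement_of_corr`).
-/

set_option autoImplicit false

noncomputable section

namespace Fermat.Agent.S35.GNormCorr

open ModularCurve AlgebraicCurve HahnSeries Fermat.Agent.S18 Fermat.Agent.S18.Arith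
open Fermat.Agent.S34

variable (M q : ℕ) [NeZero M] [NeZero q] (hq : q.Prime) (hqM : ¬ q ∣ M)

/-- **[GNorm], in the shape consumed by the assembly**: the corrector statement for the two norm
conditions. -/
theorem corrStatement (m : ℕ) (hm : m ≠ 0) :
    ModelFAsm.CorrStatement M q hq hqM m (fun _ => ModelFPlan.NormCond M q m) := by
  classical
  intro A hA σs hσ f hf _ hN
  obtain ⟨⟨h, c, hh, hc, hα⟩, ⟨h', c', hh', hc', hβ⟩⟩ := hN
  obtain ⟨S₁, hS₁⟩ := (DescCoeff.descStatement M).1 (h : LaurentSeries Qb) h.2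
  obtain ⟨S₂, hS₂⟩ := (DescCoeff.descStatement M).1 (h' : LaurentSeries Qb) h'.2
  refine ⟨insert c (insert c' (S₁ ∪ S₂)), fun K hSK hB hst hK π hπ fK hfK => ?_⟩
  have hcK : c ∈ K := hSK (Finset.mem_coe.mpr (Finset.mem_insert_self c _))
  have hcK' : c' ∈ K :=
    hSK (Finset.mem_coe.mpr (Finset.mem_insert_of_mem (Finset.mem_insert_self c' _)))
  have hSK₁ : ↑S₁ ⊆ (K : Set Qb) := fun x hx => hSK (Finset.mem_coe.mpr
    (Finset.mem_insert_of_mem (Finset.mem_insert_of_mem
      (Finset.mem_union_left _ (Finset.mem_coe.mp hx)))))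
  have hSK₂ : ↑S₂ ⊆ (K : Set Qb) := fun x hx => hSK (Finset.mem_coe.mpr
    (Finset.mem_insert_of_mem (Finset.mem_insert_of_mem
      (Finset.mem_union_right _ (Finset.mem_coe.mp hx)))))
  have hhK : (h : LaurentSeries Qb) ∈ FK M K := hS₁ K hSK₁
  have hhK' : (h' : LaurentSeries Qb) ∈ FK M K := hS₂ K hSK₂
  have e1 : Glob.toBar M K ⟨(h : LaurentSeries Qb), hhK⟩ = h := Subtype.ext rfl
  have e2 : Glob.toBar M K ⟨(h' : LaurentSeries Qb), hhK'⟩ = h' := Subtype.ext rfl
  have hfK0 : fK ≠ 0 := by
    rintro rfl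
    exact hf (by rw [← hfK, map_zero])
  have hh0 : (⟨(h : LaurentSeries Qb), hhK⟩ : FK M K) ≠ 0 := by
    intro h0
    exact hh (by rw [← e1, h0, map_zero])
  have hh0' : (⟨(h' : LaurentSeries Qb), hhK'⟩ : FK M K) ≠ 0 := by
    intro h0
    exact hh' (by rw [← e2, h0, map_zero])
  have hc0 : (⟨c, hcK⟩ : K) ≠ 0 := fun h0 => hc (congrArg Subtype.val h0)
  have hc0' : (⟨c', hcK'⟩ : K) ≠ 0 := fun h0 => hc' (congrArg Subtype.val h0)
  have hα' : ModelFPlan.alphaNm M q (Glob.toBar (M * q) K fK) =
      Glob.toBar M K (constK M K ⟨c, hcK⟩ * (⟨(h : LaurentSeries Qb), hhK⟩ : FK M K) ^ m) := by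
    rw [hfK, hα, BaseF.toBar_const_mul_pow, e1]
  have hβ' : ModelFPlan.betaNm M q (Glob.toBar (M * q) K fK) =
      Glob.toBar M K (constK M K ⟨c', hcK'⟩ * (⟨(h' : LaurentSeries Qb), hhK'⟩ : FK M K) ^ m) := by
    rw [hfK, hβ, BaseF.toBar_const_mul_pow, e2]
  exact GNorm.exists_H M q hq hqM hB hA hπ hσ (BaseF.tauStable_of_stable hst σs) hK fK hfK0 hm
    ⟨c, hcK⟩ ⟨c', hcK'⟩ hc0 hc0' _ _ hh0 hh0' hα' hβ'

include hq hqM in
/-- **[ModelF], CLOSED**: the target of the modular block of [E]. -/
theorem modelFStatement [NeZero (M * q)] (m : ℕ) (hqm : ¬ q ∣ m) :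
    ModelFPlan.ModelFStatement M q m :=
  ModelFTop.modelFStatement_of_corr M q hq hqM m hqm
    (corrStatement M q hq hqM m (fun h0 => hqm (h0 ▸ dvd_zero q)))

end Fermat.Agent.S35.GNormCorr
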