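/-
S35 — ETopC.lean (helper5, [E]-modular architect).  BLOCK [E] CLOSED: the (E-out) of record
`NewPlan.FrobNewStatement` and the divisor form `FCorePlan.FrobDivStatement`, hypothesis-free
(`ETop` applied to helper43's `GNormCorr.corrStatement`).
-/
import Mathlib
import Fermat.Agent.S35.ETop
import Fermat.Agent.S35.GNormCorr

set_option autoImplicit false

open ModularCurve AlgebraicCurve HahnSeries

namespace Fermat.Agent.S35.ETopC

/-- **Block [E], divisor form**: if `div f = m • D` and both norms of `f` are `m`-th powers up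
to constants, then `(τ - q²)(τ - 1)² D` is principal (`τ = σs²`, `σs` a Frobenius lift at `q`,
`q ∤ M`, `q ∤ m`). -/
theorem frobDivStatement (M q m : ℕ) [NeZero M] [NeZero q] [NeZero (M * q)]
    (hq : q.Prime) (hqM : ¬ q ∣ M) (hqm : ¬ q ∣ m) : FCorePlan.FrobDivStatement M q m :=
  ETop.frobDivStatement_of_corr M q m hq hqM hqm
    (GNormCorr.corrStatement M q hq hqM m fun h => hqm (h ▸ dvd_zero q))

/-- **Block [E], the (E-out) of record.** -/
theorem frobNewStatement : NewPlan.FrobNewStatement :=
  ETop.frobNewStatement_of_corr fun M q m _ _ hq hqM hqm =>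
    GNormCorr.corrStatement M q hq hqM m fun h => hqm (h ▸ dvd_zero q)

end Fermat.Agent.S35.ETopC
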