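/-
S35 route, block [A] — PseudoQ.lean (helper65).

The determinant `(t, d)` of `S30/LimGlue.exists_pseudo`, re-run with EXPLICIT level data, together
with its values at the Frobenius elements of the *special* primes `q` (in the application:
`q ∥ N`, `q ≠ p`):  `t σ ^ 2 = (q + 1) ^ 2` and `d σ = q`.

Extra input (one `Prop` per level and per special prime, `FrobQ`): on the distinguished vector
`w_n` of the level `V_n`,

    `(σ² − q²) (σ² − 1)² w_n = 0`      for every Frobenius element `σ` at `q`.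

Algebra: `s := r σ` satisfies `s² − t s + q = 0` on `V_n` (`IsTrace` and `d σ = q`); if
`(s − c) y = 0` then `F(c) • y = 0` with `F(c) = c² − t c + q`; hence `(s² − c²) y = 0` gives
`F(c) F(−c) • y = 0`, and three applications give `q² ((q+1)² − t²)³ • w_n = 0`.  The annihilator
of `w_n` is contained in `pⁿ 𝒪` and `𝒪` is `p`-adically separated, so `q² ((q+1)² − t²)³ = 0`.
-/
import Mathlib
import Fermat.Agent.S29.Defs
import Fermat.Agent.S29.Lucas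
import Fermat.Agent.S30.LimLevel
import Fermat.Agent.S30.LimCore
import Fermat.Agent.S30.LimFD
import Fermat.Agent.S30.LimGlue
import Fermat.Agent.S30.Conj

set_option autoImplicit false

namespace Fermat.Agent.S35.PseudoQ

open Fermat.Agent.S29 (FDStatement)
open Fermat.Agent.S30.LimLevel (Level)
open Fermat.Agent.S30.LimCore (IsTrace)

/-- `ℚ̄`. -/
local notation "Qb" => AlgebraicClosure ℚ

/-- `Gal(ℚ̄/ℚ)`. -/
local notation "GQ" => (AlgebraicClosure ℚ ≃ₐ[ℚ] AlgebraicClosure ℚ)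

/-! ### Algebra of one operator with `s² − t s + q = 0` -/

section Alg

variable {𝒪 : Type*} [CommRing 𝒪] {X : Type*} [AddCommGroup X] [Module 𝒪 X]

/-- `s + q s⁻¹ = t` gives `s² − t s + q = 0`. -/
theorem quad_of_trace (s s' : Module.End 𝒪 X) (t q : 𝒪) (h1 : s * s' = 1)
    (h : s + q • s' = t • (1 : Module.End 𝒪 X)) :
    s * s - t • s + q • (1 : Module.End 𝒪 X) = 0 := by
  have h2 : s * (s + q • s') = s * (t • (1 : Module.End 𝒪 X)) := by rw [h]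
  rw [mul_add, mul_smul_comm, h1, mul_smul_comm, mul_one] at h2
  have h3 : s * s - t • s + q • (1 : Module.End 𝒪 X)
      = (s * s + q • (1 : Module.End 𝒪 X)) - t • s := by abel
  rw [h3, h2, sub_self]

/-- If `s² − t s + q = 0` and `s y = c y` then `(c² − t c + q) • y = 0`. -/
theorem smul_eq_zero_of_apply_eq (s : Module.End 𝒪 X) (t q : 𝒪)
    (hq : s * s - t • s + q • (1 : Module.End 𝒪 X) = 0) (c : 𝒪) (y : X) (hy : s y = c • y) :
    (c * c - t * c + q) • y = 0 := by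
  have h1 := congrArg (fun f : Module.End 𝒪 X => f y) hq
  simp only [LinearMap.add_apply, LinearMap.sub_apply, LinearMap.smul_apply,
    Module.End.mul_apply, Module.End.one_apply, LinearMap.zero_apply] at h1
  rw [hy, map_smul, hy] at h1
  rw [add_smul, sub_smul, mul_smul, mul_smul]
  exact h1

/-- If `s² − t s + q = 0` and `(s² − c²) y = 0` then `F(c) F(−c) • y = 0`. -/
theorem smul_eq_zero_of_sq_apply_eq (s : Module.End 𝒪 X) (t q : 𝒪)
    (hq : s * s - t • s + q • (1 : Module.End 𝒪 X) = 0) (c : 𝒪) (y : X)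
    (hy : s (s y) = (c * c) • y) :
    ((c * c - t * c + q) * (c * c + t * c + q)) • y = 0 := by
  -- `z := s y + c y` satisfies `s z = c z`
  have hz : s (s y + c • y) = c • (s y + c • y) := by
    rw [map_add, map_smul, hy, smul_add, mul_smul]
    abel
  have h1 := smul_eq_zero_of_apply_eq s t q hq c (s y + c • y) hz
  -- so `y' := F(c) • y` satisfies `s y' = (-c) y'`
  have hy' : s ((c * c - t * c + q) • y) = (-c) • ((c * c - t * c + q) • y) := by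
    rw [smul_add, smul_comm _ c y] at h1
    rw [map_smul, neg_smul]
    exact eq_neg_of_add_eq_zero_left h1
  have h2 := smul_eq_zero_of_apply_eq s t q hq (-c) _ hy'
  rw [smul_smul] at h2
  have e : (-c * -c - t * -c + q) * (c * c - t * c + q)
      = (c * c - t * c + q) * (c * c + t * c + q) := by ring
  rw [e] at h2
  exact h2

/-- **The algebra of [A].**  If `s² − t s + q = 0` and `(s² − q²)(s² − 1)² w = 0` then
`q² ((q + 1)² − t²)³ • w = 0`. -/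
theorem smul_eq_zero_of_frobQ (s : Module.End 𝒪 X) (t q : 𝒪)
    (hq : s * s - t • s + q • (1 : Module.End 𝒪 X) = 0) (w : X)
    (hw : (s * s - (q ^ 2) • (1 : Module.End 𝒪 X))
      ((s * s - 1) ((s * s - 1) w)) = 0) :
    (q ^ 2 * ((q + 1) ^ 2 - t ^ 2) ^ 3) • w = 0 := by
  set T : Module.End 𝒪 X := s * s - 1 with hT
  have hTs : ∀ (a : 𝒪) (y : X), T (a • y) = a • T y := fun a y => map_smul T a y
  have key : ∀ y : X, T y = 0 → ((1 * 1 - t * 1 + q) * (1 * 1 + t * 1 + q)) • y = 0 := by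
    intro y hy
    apply smul_eq_zero_of_sq_apply_eq s t q hq 1 y
    rw [hT, LinearMap.sub_apply, Module.End.mul_apply, Module.End.one_apply, sub_eq_zero] at hy
    rw [hy, mul_one, one_smul]
  -- first factor
  have h1 : ((q * q - t * q + q) * (q * q + t * q + q)) • T (T w) = 0 := by
    apply smul_eq_zero_of_sq_apply_eq s t q hq q (T (T w))
    rw [LinearMap.sub_apply, LinearMap.smul_apply, Module.End.mul_apply, Module.End.one_apply,
      sub_eq_zero] at hw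
    rw [hw, pow_two]
  set a : 𝒪 := (q * q - t * q + q) * (q * q + t * q + q) with ha
  set b : 𝒪 := (1 * 1 - t * 1 + q) * (1 * 1 + t * 1 + q) with hb
  -- second factor
  have h2 : T (T (a • w)) = 0 := by rw [hTs, hTs]; exact h1
  have h3 : b • T (a • w) = 0 := key _ h2
  -- third factor
  have h4 : T (b • a • w) = 0 := by rw [hTs]; exact h3
  have h5 : b • b • a • w = 0 := key _ h4
  rw [smul_smul, smul_smul] at h5
  have e : b * b * a = q ^ 2 * ((q + 1) ^ 2 - t ^ 2) ^ 3 := by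
    rw [ha, hb]; ring
  rw [e] at h5
  exact h5

end Alg

/-! ### The extra datum and the determinant -/

/-- **The extra datum at a special prime `q`** on a level: `(σ² − q²)(σ² − 1)² (c • w) = 0` for
every Frobenius element `σ` at `q` (`c` a constant; `c = 1` in the blueprint of record, a nonzero
Hecke eigenvalue `χ(P)` in the fallback design). -/
def FrobQ {𝒪 : Type} [CommRing 𝒪] {p n : ℕ} {good : ℕ → Prop} {a : ℕ → 𝒪} {unr : ℕ → Prop}
    (Lv : Level 𝒪 p n good a unr) (q : ℕ) (c : 𝒪) : Prop :=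
  ∀ A : ValuationSubring Qb, A.LiesOverPrime q → ∀ σ : GQ, A.IsFrobeniusAt σ q →
    (Lv.r σ * Lv.r σ - ((q : 𝒪) ^ 2) • (1 : Module.End 𝒪 Lv.V))
      ((Lv.r σ * Lv.r σ - 1) ((Lv.r σ * Lv.r σ - 1) (c • Lv.w))) = 0

/-- **The concrete limit step with special primes.**  As `S30/LimGlue.exists_pseudo`, with the
levels given together with `FrobQ` at the special primes (with constants `cst q ≠ 0` not
depending on the level); the determinant `(t, d)` satisfies in addition `t σ ^ 2 = (q + 1) ^ 2` and `d σ = q` at every Frobenius element `σ` at a special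
prime `q`. -/
theorem exists_pseudoQ {𝒪 : Type} [CommRing 𝒪] [IsDomain 𝒪] (p : ℕ) (hp : p ≠ 0)
    (hsep : ∀ a : 𝒪, (∀ n : ℕ, (p : 𝒪) ^ n ∣ a) → a = 0)
    (hcompl : ∀ f : ℕ → 𝒪, (∀ n : ℕ, (p : 𝒪) ^ n ∣ f (n + 1) - f n) →
      ∃ L : 𝒪, ∀ n : ℕ, (p : 𝒪) ^ n ∣ f n - L)
    (good : ℕ → Prop) (a : ℕ → 𝒪) (unr : ℕ → Prop) (S : Finset ℕ)
    (hS : ∀ ℓ : ℕ, ℓ.Prime → ℓ ∉ S → good ℓ) (hFD : FDStatement)
    (d : GQ →* 𝒪ˣ)
    (hd : ∀ (g : GQ) (n k : ℕ), (∀ ζ : Qb, ζ ^ (p ^ n) = 1 → g ζ = ζ ^ k) →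
      (p : 𝒪) ^ n ∣ ((d g : 𝒪ˣ) : 𝒪) - (k : 𝒪))
    (hcycL : ∀ n : ℕ, ∃ L : IntermediateField ℚ Qb, FiniteDimensional ℚ L ∧
      ∀ σ : GQ, (∀ x ∈ L, σ x = x) → ∀ ζ : Qb, ζ ^ (p ^ n) = 1 → σ ζ = ζ)
    (hcycF : ∀ ℓ : ℕ, good ℓ → ∀ A : ValuationSubring Qb, A.LiesOverPrime ℓ →
      ∀ σ : GQ, A.IsFrobeniusAt σ ℓ → ∀ (n : ℕ) (ζ : Qb), ζ ^ (p ^ n) = 1 → σ ζ = ζ ^ ℓ)
    (hcycI : ∀ q : ℕ, unr q → ∀ P : ValuationSubring Qb, P.LiesOverPrime q →
      ∀ τ ∈ P.inertiaSubgroupIn ℚ, ∀ (n : ℕ) (ζ : Qb), ζ ^ (p ^ n) = 1 → τ ζ = ζ)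
    (spec : ℕ → Prop) (hspec0 : ∀ q : ℕ, spec q → (q : 𝒪) ≠ 0)
    (cst : ℕ → 𝒪) (hcst : ∀ q : ℕ, spec q → cst q ≠ 0)
    (hcycQ : ∀ q : ℕ, spec q → ∀ A : ValuationSubring Qb, A.LiesOverPrime q →
      ∀ σ : GQ, A.IsFrobeniusAt σ q → ∀ (n : ℕ) (ζ : Qb), ζ ^ (p ^ n) = 1 → σ ζ = ζ ^ q)
    (lev : ∀ n : ℕ, ∃ Lv : Level 𝒪 p n good a unr, ∀ q : ℕ, spec q → FrobQ Lv q (cst q)) :
    ∃ t : GQ → 𝒪,
      t 1 = 2 ∧ (∀ g h : GQ, t (g * h) = t (h * g)) ∧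
      (∀ g h : GQ, t (g * h) + ((d h : 𝒪ˣ) : 𝒪) * t (g * h⁻¹) = t g * t h) ∧
      (∀ n : ℕ, ∃ L : IntermediateField ℚ Qb, FiniteDimensional ℚ L ∧
        ∀ σ : GQ, (∀ x ∈ L, σ x = x) → ∀ g : GQ, (p : 𝒪) ^ n ∣ t (σ * g) - t g) ∧
      (∀ ℓ : ℕ, good ℓ → ∀ A : ValuationSubring Qb, A.LiesOverPrime ℓ →
        ∀ σ : GQ, A.IsFrobeniusAt σ ℓ → t σ = a ℓ ∧ ((d σ : 𝒪ˣ) : 𝒪) = (ℓ : 𝒪)) ∧
      (∀ q : ℕ, unr q → ∀ P : ValuationSubring Qb, P.LiesOverPrime q →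
        ∀ τ ∈ P.inertiaSubgroupIn ℚ, ∀ g : GQ, t (τ * g) = t g) ∧
      (∃ c : GQ, c * c = 1 ∧ t c = 0 ∧ d c = -1) ∧
      (∀ q : ℕ, spec q → ∀ A : ValuationSubring Qb, A.LiesOverPrime q →
        ∀ σ : GQ, A.IsFrobeniusAt σ q →
          t σ ^ 2 = ((q : 𝒪) + 1) ^ 2 ∧ ((d σ : 𝒪ˣ) : 𝒪) = (q : 𝒪)) := by
  classical
  -- the level data
  let Lv : ∀ n : ℕ, Level 𝒪 p n good a unr := fun n => (lev n).choose
  have hLvQ : ∀ (n : ℕ) (q : ℕ), spec q → FrobQ (Lv n) q (cst q) := fun n => (lev n).choose_spec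
  let X : ℕ → Type := fun n => (Lv n).V
  let π : ∀ n : ℕ, GQ →* Module.End 𝒪 (X n) := fun n => (Lv n).r
  let w : ∀ n : ℕ, X n := fun n => (Lv n).w
  have htors : ∀ (n : ℕ) (x : X n), (p : 𝒪) ^ n • x = 0 := fun n => (Lv n).tors
  have hann : ∀ (n : ℕ) (c : 𝒪), c • w n = 0 → (p : 𝒪) ^ n ∣ c := fun n => (Lv n).ann
  have hlevel : ∀ n : ℕ, ∃ L : IntermediateField ℚ Qb, FiniteDimensional ℚ L ∧
      ∀ σ : GQ, (∀ x ∈ L, σ x = x) → π n σ = 1 := fun n => (Lv n).level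
  -- the cyclotomic character at Frobenius and inertia
  have hdFrob : ∀ ℓ : ℕ, good ℓ → ∀ A : ValuationSubring Qb, A.LiesOverPrime ℓ →
      ∀ σ : GQ, A.IsFrobeniusAt σ ℓ → ((d σ : 𝒪ˣ) : 𝒪) = (ℓ : 𝒪) :=
    fun ℓ hℓ A hA σ hσ =>
      Fermat.Agent.S30.LimGlue.d_eq_natCast hsep d hd σ ℓ (hcycF ℓ hℓ A hA σ hσ)
  have hdIn : ∀ q : ℕ, unr q → ∀ P : ValuationSubring Qb, P.LiesOverPrime q →
      ∀ τ ∈ P.inertiaSubgroupIn ℚ, d τ = 1 :=
    fun q hq P hP τ hτ =>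
      Fermat.Agent.S30.LimGlue.d_eq_one hsep d hd τ (hcycI q hq P hP τ hτ)
  have hdcont : ∀ m : ℕ, ∃ C : IntermediateField ℚ Qb, FiniteDimensional ℚ C ∧
      ∀ σ : GQ, (∀ x ∈ C, σ x = x) → (p : 𝒪) ^ m ∣ ((d σ : 𝒪ˣ) : 𝒪) - 1 := by
    intro m
    obtain ⟨C, hC, h⟩ := hcycL m
    exact ⟨C, hC, fun σ hσ => Fermat.Agent.S30.LimGlue.d_sub_one_dvd d hd m σ (h σ hσ)⟩
  -- the relation on two consecutive levels (FD + Lucas)
  have hrel : ∀ (g : GQ) (n : ℕ), ∃ t' : 𝒪,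
      (π n g + ((d g : 𝒪ˣ) : 𝒪) • π n g⁻¹ = t' • (1 : Module.End 𝒪 (X n))) ∧
      (π (n + 1) g + ((d g : 𝒪ˣ) : 𝒪) • π (n + 1) g⁻¹
        = t' • (1 : Module.End 𝒪 (X (n + 1)))) :=
    Fermat.Agent.S30.LimFD.hrel_of_levels hFD (p : 𝒪) S a d
      (fun ℓ hℓ hℓS A hA σ hσ => hdFrob ℓ (hS ℓ hℓ hℓS) A hA σ hσ) hdcont π htors hlevel
      (fun n ℓ hℓ hℓS A hA σ hσ => (Lv n).frob ℓ (hS ℓ hℓ hℓS) A hA σ hσ)
  -- the limit
  obtain ⟨t, ht, ht1, htcomm, htmul, -⟩ :=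
    Fermat.Agent.S30.LimCore.exists_trace (ϖ := (p : 𝒪)) (d := d) (X := X) (π := π) (w := w)
      hsep hcompl htors hann hrel
  have hT : IsTrace d X π t := ht
  refine ⟨t, ht1, htcomm, htmul, ?_, ?_, ?_, ?_, ?_⟩
  · -- (P2)
    intro n
    obtain ⟨L₁, hL₁, h₁⟩ := hlevel n
    obtain ⟨L₂, hL₂, h₂⟩ := hdcont n
    refine ⟨L₁ ⊔ L₂, inferInstance, fun σ hσ g => ?_⟩
    exact hT.dvd_sub_of_eq htors hann n σ g
      (h₁ σ fun x hx => hσ x ((le_sup_left : L₁ ≤ L₁ ⊔ L₂) hx))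
      (h₂ σ fun x hx => hσ x ((le_sup_right : L₂ ≤ L₁ ⊔ L₂) hx))
  · -- (P3), Frobenius
    intro ℓ hℓ A hA σ hσ
    have hdσ := hdFrob ℓ hℓ A hA σ hσ
    refine ⟨?_, hdσ⟩
    apply hT.eq_of_forall_rel hsep hann σ (a ℓ)
    intro n
    have hq := (Lv n).frob ℓ hℓ A hA σ hσ
    have h1 := Fermat.Agent.S29.Lucas.add_smul_inv_of_quadratic (π n) σ (a ℓ) (ℓ : 𝒪) hq
    have h2 := congrArg (fun f : Module.End 𝒪 (X n) => f (w n)) h1
    simp only [LinearMap.add_apply, LinearMap.smul_apply, Module.End.one_apply] at h2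
    rw [hdσ]
    exact h2
  · -- (P3), inertia
    intro q hq P hP τ hτ g
    exact hT.apply_mul_of_forall_eq_one hsep htors hann τ
      (fun n => (Lv n).inert q hq P hP τ hτ) (hdIn q hq P hP τ hτ) g
  · -- (P4)
    obtain ⟨c, hc, hcζ⟩ := Fermat.Agent.S30.Conj.exists_conj
    have hdc : d c = -1 := Fermat.Agent.S30.LimGlue.d_eq_neg_one hsep d hd hp c
      (fun n ζ hζ => hcζ ζ (p ^ n) (pow_ne_zero n hp) hζ)
    exact ⟨c, hc, hT.eq_zero_of_involution hsep hann c hc hdc, hdc⟩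
  · -- the special primes
    intro q hq A hA σ hσ
    have hdσ : ((d σ : 𝒪ˣ) : 𝒪) = (q : 𝒪) :=
      Fermat.Agent.S30.LimGlue.d_eq_natCast hsep d hd σ q (hcycQ q hq A hA σ hσ)
    refine ⟨?_, hdσ⟩
    have hzero : (q : 𝒪) ^ 2 * (((q : 𝒪) + 1) ^ 2 - t σ ^ 2) ^ 3 * cst q = 0 := by
      apply hsep
      intro n
      apply hann n
      have hTn := hT n σ
      rw [hdσ] at hTn
      have hquad := quad_of_trace (π n σ) (π n σ⁻¹) (t σ) (q : 𝒪)
        (Fermat.Agent.S30.LimCore.map_mul_map_inv (π := π) n σ) hTn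
      have h := smul_eq_zero_of_frobQ (π n σ) (t σ) (q : 𝒪) hquad (cst q • w n)
        (hLvQ n q hq A hA σ hσ)
      rw [smul_smul] at h
      exact h
    have h3 : (((q : 𝒪) + 1) ^ 2 - t σ ^ 2) ^ 3 = 0 := by
      rcases mul_eq_zero.mp hzero with h | h
      · rcases mul_eq_zero.mp h with h | h
        · exact absurd ((pow_eq_zero_iff (two_ne_zero)).mp h) (hspec0 q hq)
        · exact h
      · exact absurd h (hcst q hq)
    have h4 : ((q : 𝒪) + 1) ^ 2 - t σ ^ 2 = 0 := (pow_eq_zero_iff (three_ne_zero)).mp h3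
    exact (sub_eq_zero.mp h4).symm

end Fermat.Agent.S35.PseudoQ
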