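/-
S35 route, block [A] — DetQ.lean (helper65).  The TOP of S35.

* `specPrime N p q`     — the special primes: `q` prime, `q ≠ p`, `q ∥ N`;
* `LevelQStatement`     — THE TARGET of the blocks [B]+[C]+[D]+[E]: a level (`S30/LimLevel.Level`)
                          for every `n`, with `PseudoQ.FrobQ` at every special prime
                          (`(σ² − q²)(σ² − 1)² (c_q • w_n) = 0` for the Frobenius elements `σ` at
                          `q`; constants `c_q ≠ 0` independent of `n`, `c_q = 1` in the blueprint);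
* `DetQStatement`       — the determinant `(t, d)` of `S30Top.DetStatement` (without the inertia
                          clause) with `t σ ^ 2 = (q + 1) ^ 2`, `d σ = q` at the special primes;
* `detQStatement_of_levels`  — `LevelQStatement ⟹ DetQStatement` (`PseudoQ.exists_pseudoQ`, the
                          cyclotomic character of `S30/CycInf`, `S30/CycN`, [FD] of S29);
* `result_of_detQ_oddRep`    — `DetQStatement ⟹` the frozen conclusion of S35 with `𝒪'' := 𝒪'`,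
                          through [OddRep] of S30;
* `result_of_levelQ`         — the composition: the frozen conclusion of S35 (for a ring hom
                          `χ : 𝕋 → 𝒪'`) from `LevelQStatement`.
-/
import Mathlib
import Fermat.Prelude.Def_CuspForm_HeckeGaloisRepDatum
import Fermat.Agent.S29.Defs
import Fermat.Agent.S30.Defs
import Fermat.Agent.S30.Top
import Fermat.Agent.S30.LimCore
import Fermat.Agent.S30.CycInf
import Fermat.Agent.S30.CycN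
import Fermat.Agent.S35.PseudoQ

set_option autoImplicit false

open Polynomial

namespace Fermat.Agent.S35.DetQ

open Fermat.Agent.S30Top (Qb GQ IsPseudo IsOddAt IsContAt OddRepStatement)
open Fermat.Agent.S30.LimLevel

/-- The special primes: `q` prime, `q ≠ p`, `q ∥ N`. -/
def specPrime (N p q : ℕ) : Prop := q.Prime ∧ q ≠ p ∧ q ∣ N ∧ ¬ q ^ 2 ∣ N

/-- **[LevelQ]** (target of [B]+[C]+[D]+[E]): a level at every `n` with `FrobQ` at the special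
primes. -/
def LevelQStatement (p N : ℕ) [NeZero N] (S : Finset ℕ) (𝒪 : Type) [CommRing 𝒪]
    (χ : CuspForm.heckeAlgebra N 2 (↑S : Set ℕ) →+* 𝒪) : Prop :=
  ∃ cst : ℕ → 𝒪, (∀ q : ℕ, specPrime N p q → cst q ≠ 0) ∧
    ∀ n : ℕ, ∃ Lv : Level 𝒪 p n (goodPrime N (↑S : Set ℕ)) (heckeEig N (↑S : Set ℕ) χ)
        (unrPrime N p),
      ∀ q : ℕ, specPrime N p q → Fermat.Agent.S35.PseudoQ.FrobQ Lv q (cst q)

/-- **[DetQ]** the determinant attached to `χ`, with its values at the Frobenius elements of the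
special primes. -/
def DetQStatement (p N : ℕ) [NeZero N] (S : Finset ℕ) (𝒪 : Type) [CommRing 𝒪]
    (χ : CuspForm.heckeAlgebra N 2 (↑S : Set ℕ) →+* 𝒪) : Prop :=
  ∃ (t : GQ → 𝒪) (d : GQ →* 𝒪ˣ),
    IsPseudo t d ∧ IsOddAt t d ∧ IsContAt (p : 𝒪) t ∧
    (∀ (ℓ : ℕ) (hℓ : ℓ.Prime) (hℓN : ¬ ℓ ∣ N) (hℓS : ℓ ∉ (↑S : Set ℕ)),
      ∀ A : ValuationSubring (AlgebraicClosure ℚ), A.LiesOverPrime ℓ →
        ∀ σ : GQ, A.IsFrobeniusAt σ ℓ →
          t σ = χ (CuspForm.heckeAlgebra.T hℓ hℓN hℓS) ∧ ((d σ : 𝒪ˣ) : 𝒪) = (ℓ : 𝒪)) ∧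
    (∀ q : ℕ, specPrime N p q →
      ∀ A : ValuationSubring (AlgebraicClosure ℚ), A.LiesOverPrime q →
        ∀ σ : GQ, A.IsFrobeniusAt σ q →
          t σ ^ 2 = ((q : 𝒪) + 1) ^ 2 ∧ ((d σ : 𝒪ˣ) : 𝒪) = (q : 𝒪))

/-- **[DetQ] from the levels.** -/
theorem detQStatement_of_levels (hFD : Fermat.Agent.S29.FDStatement)
    (p : ℕ) [Fact p.Prime] (N : ℕ) [NeZero N] (S : Finset ℕ) (hpS : p ∈ S)
    (hNS : ∀ q : ℕ, q.Prime → q ∣ N → q ∈ S)
    (𝒪 : Type) [CommRing 𝒪] [IsDomain 𝒪] [IsDiscreteValuationRing 𝒪]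
    [IsAdicComplete (IsLocalRing.maximalIdeal 𝒪) 𝒪] [CharZero 𝒪]
    (hp𝒪 : (p : 𝒪) ∈ IsLocalRing.maximalIdeal 𝒪)
    (χ : CuspForm.heckeAlgebra N 2 (↑S : Set ℕ) →+* 𝒪)
    (hLev : LevelQStatement p N S 𝒪 χ) :
    DetQStatement p N S 𝒪 χ := by
  have hp : p.Prime := Fact.out
  have hp0 : (p : 𝒪) ≠ 0 := Nat.cast_ne_zero.mpr hp.ne_zero
  have hsep : ∀ a : 𝒪, (∀ n : ℕ, (p : 𝒪) ^ n ∣ a) → a = 0 :=
    fun a h => Fermat.Agent.S30.LimCore.sep_of_dvr hp𝒪 a h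
  have hcompl : ∀ f : ℕ → 𝒪, (∀ n, (p : 𝒪) ^ n ∣ f (n + 1) - f n) →
      ∃ L : 𝒪, ∀ n, (p : 𝒪) ^ n ∣ f n - L :=
    fun f h => Fermat.Agent.S30.LimCore.compl_of_dvr hp𝒪 hp0 f h
  obtain ⟨d, hd⟩ :=
    Fermat.Agent.S30.CycInf.exists_cyclotomic (p := p) (𝒪 := 𝒪) hp.ne_zero hsep hcompl
  have hS : ∀ ℓ : ℕ, ℓ.Prime → ℓ ∉ S → goodPrime N (↑S : Set ℕ) ℓ := by
    intro ℓ hℓ hℓS
    exact ⟨hℓ, fun hℓN => hℓS (hNS ℓ hℓ hℓN), fun h => hℓS (Finset.mem_coe.mp h)⟩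
  have hcycL : ∀ n : ℕ, ∃ L : IntermediateField ℚ Qb, FiniteDimensional ℚ L ∧
      ∀ σ : GQ, (∀ x ∈ L, σ x = x) → ∀ ζ : Qb, ζ ^ (p ^ n) = 1 → σ ζ = ζ := by
    intro n
    obtain ⟨L, hL, h, -⟩ := Fermat.Agent.S30.CycInf.exists_level (p := p) hp.ne_zero n
    exact ⟨L, hL, h⟩
  have hcycF : ∀ ℓ : ℕ, goodPrime N (↑S : Set ℕ) ℓ → ∀ A : ValuationSubring Qb,
      A.LiesOverPrime ℓ → ∀ σ : GQ, A.IsFrobeniusAt σ ℓ → ∀ (n : ℕ) (ζ : Qb),
      ζ ^ (p ^ n) = 1 → σ ζ = ζ ^ ℓ := by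
    intro ℓ hℓ A hA σ hσ n ζ hζ
    have hℓp : ℓ ≠ p := fun h => hℓ.2.2 (Finset.mem_coe.mpr (h ▸ hpS))
    exact Fermat.Agent.S30.CycN.frobenius_apply_of_pow_eq_one (pow_ne_zero n hp.ne_zero) hℓ.1
      (Fermat.Agent.S30.CycN.not_dvd_prime_pow hℓ.1 hp hℓp n) A hA σ hσ ζ hζ
  have hcycI : ∀ q : ℕ, unrPrime N p q → ∀ P : ValuationSubring Qb, P.LiesOverPrime q →
      ∀ τ ∈ P.inertiaSubgroupIn ℚ, ∀ (n : ℕ) (ζ : Qb), ζ ^ (p ^ n) = 1 → τ ζ = ζ := by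
    intro q hq P hP τ hτ n ζ hζ
    exact Fermat.Agent.S30.CycN.inertia_apply_of_pow_eq_one (pow_ne_zero n hp.ne_zero) hq.1
      (Fermat.Agent.S30.CycN.not_dvd_prime_pow hq.1 hp hq.2.2 n) P hP τ hτ ζ hζ
  have hcycQ : ∀ q : ℕ, specPrime N p q → ∀ A : ValuationSubring Qb, A.LiesOverPrime q →
      ∀ σ : GQ, A.IsFrobeniusAt σ q → ∀ (n : ℕ) (ζ : Qb), ζ ^ (p ^ n) = 1 → σ ζ = ζ ^ q := by
    intro q hq A hA σ hσ n ζ hζ
    exact Fermat.Agent.S30.CycN.frobenius_apply_of_pow_eq_one (pow_ne_zero n hp.ne_zero) hq.1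
      (Fermat.Agent.S30.CycN.not_dvd_prime_pow hq.1 hp hq.2.1 n) A hA σ hσ ζ hζ
  obtain ⟨cst, hcst, hlev⟩ := hLev
  obtain ⟨t, h1, h2, h3, hP2, hP3a, -, ⟨c, hc, htc, hdc⟩, hQ⟩ :=
    Fermat.Agent.S35.PseudoQ.exists_pseudoQ p hp.ne_zero hsep hcompl
      (goodPrime N (↑S : Set ℕ)) (heckeEig N (↑S : Set ℕ) χ) (unrPrime N p) S hS hFD d
      (fun g n k hk => hd g n k hk) hcycL hcycF hcycI (specPrime N p)
      (fun q hq => Nat.cast_ne_zero.mpr hq.1.ne_zero) cst hcst hcycQ hlev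
  refine ⟨t, d, ⟨h1, h2, h3⟩, ⟨c, hc, htc, hdc⟩, hP2, ?_, hQ⟩
  intro ℓ hℓ hℓN hℓS A hA σ hσ
  have h := hP3a ℓ ⟨hℓ, hℓN, hℓS⟩ A hA σ hσ
  rw [heckeEig_eq N (↑S : Set ℕ) χ hℓ hℓN hℓS] at h
  exact h

/-- **S35 from [DetQ] and [OddRep]** (frozen conclusion, with `𝒪'' := 𝒪'`). -/
theorem result_of_detQ_oddRep (hodd : OddRepStatement)
    {M : ℕ} [NeZero M] (lam : ℕ) [Fact lam.Prime] (S : Finset ℕ)
    (O' : Type) [CommRing O'] [IsDomain O'] [IsDiscreteValuationRing O']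
    [IsAdicComplete (IsLocalRing.maximalIdeal O') O'] [Finite (IsLocalRing.ResidueField O')]
    [CharZero O'] (hlamO' : (lam : O') ∈ IsLocalRing.maximalIdeal O')
    (χ : CuspForm.heckeAlgebra M 2 (↑S : Set ℕ) →+* O')
    (hdet : DetQStatement lam M S O' χ) :
    ∃ (O'' : Type) (_ : CommRing O'') (_ : IsDomain O'') (_ : IsDiscreteValuationRing O'')
      (_ : IsAdicComplete (IsLocalRing.maximalIdeal O'') O'')
      (_ : Finite (IsLocalRing.ResidueField O'')) (_ : CharZero O'')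
      (_ : Algebra O' O'') (_ : Module.Finite O' O'') (_ : IsLocalHom (algebraMap O' O'')),
      Function.Injective (algebraMap O' O'') ∧
      ∃ ρ : GaloisRepAdic O'',
        (∀ (ℓ : ℕ) (hℓ : ℓ.Prime) (hℓM : ¬ ℓ ∣ M) (hℓS : ℓ ∉ (↑S : Set ℕ)),
          ∀ A : ValuationSubring (AlgebraicClosure ℚ), A.LiesOverPrime ℓ →
            ∀ σ : AlgebraicClosure ℚ ≃ₐ[ℚ] AlgebraicClosure ℚ, A.IsFrobeniusAt σ ℓ →
              LinearMap.charpoly (ρ.ρ σ) =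
                X ^ 2 - C (algebraMap O' O'' (χ (CuspForm.heckeAlgebra.T hℓ hℓM hℓS))) * X
                  + C ((ℓ : O''))) ∧
        (∀ q : ℕ, q.Prime → q ≠ lam → q ∣ M → ¬ q ^ 2 ∣ M →
          ∀ A : ValuationSubring (AlgebraicClosure ℚ), A.LiesOverPrime q →
            ∀ σ : AlgebraicClosure ℚ ≃ₐ[ℚ] AlgebraicClosure ℚ, A.IsFrobeniusAt σ q →
              LinearMap.charpoly (ρ.ρ σ) = X ^ 2 - C ((q : O'') + 1) * X + C ((q : O'')) ∨
              LinearMap.charpoly (ρ.ρ σ) = X ^ 2 + C ((q : O'') + 1) * X + C ((q : O''))) := by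
  obtain ⟨t, d, hps, hoddat, hcont, hfrob, hQ⟩ := hdet
  obtain ⟨R, hR, -⟩ := hodd O' lam hlamO' t d hps hoddat hcont
  refine ⟨O', inferInstance, inferInstance, inferInstance, inferInstance, inferInstance,
    inferInstance, Algebra.id O', inferInstance, inferInstance, Function.injective_id, R, ?_, ?_⟩
  · intro ℓ hℓ hℓM hℓS A hA σ hσ
    obtain ⟨h1, h2⟩ := hfrob ℓ hℓ hℓM hℓS A hA σ hσ
    rw [hR σ, h1, h2]
    rfl
  · intro q hq hqlam hqM hq2 A hA σ hσ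
    obtain ⟨h1, h2⟩ := hQ q ⟨hq, hqlam, hqM, hq2⟩ A hA σ hσ
    rw [hR σ, h2]
    rcases sq_eq_sq_iff_eq_or_eq_neg.mp h1 with h | h
    · left
      rw [h]
    · right
      rw [h, map_neg, neg_mul, sub_neg_eq_add]

/-- **S35 from the levels**: the frozen conclusion of S35 for a ring hom `χ : 𝕋 → 𝒪'`, from
[OddRep], [FD] and `LevelQStatement`. -/
theorem result_of_levelQ (hodd : OddRepStatement) (hFD : Fermat.Agent.S29.FDStatement)
    {M : ℕ} [NeZero M] (lam : ℕ) [Fact lam.Prime] (S : Finset ℕ)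
    (O' : Type) [CommRing O'] [IsDomain O'] [IsDiscreteValuationRing O']
    [IsAdicComplete (IsLocalRing.maximalIdeal O') O'] [Finite (IsLocalRing.ResidueField O')]
    [CharZero O'] (hlamO' : (lam : O') ∈ IsLocalRing.maximalIdeal O')
    (χ : CuspForm.heckeAlgebra M 2 (↑S : Set ℕ) →+* O')
    (hlamS : lam ∈ S) (hMS : ∀ q : ℕ, q.Prime → q ∣ M → q ∈ S)
    (hLev : LevelQStatement lam M S O' χ) :
    ∃ (O'' : Type) (_ : CommRing O'') (_ : IsDomain O'') (_ : IsDiscreteValuationRing O'')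
      (_ : IsAdicComplete (IsLocalRing.maximalIdeal O'') O'')
      (_ : Finite (IsLocalRing.ResidueField O'')) (_ : CharZero O'')
      (_ : Algebra O' O'') (_ : Module.Finite O' O'') (_ : IsLocalHom (algebraMap O' O'')),
      Function.Injective (algebraMap O' O'') ∧
      ∃ ρ : GaloisRepAdic O'',
        (∀ (ℓ : ℕ) (hℓ : ℓ.Prime) (hℓM : ¬ ℓ ∣ M) (hℓS : ℓ ∉ (↑S : Set ℕ)),
          ∀ A : ValuationSubring (AlgebraicClosure ℚ), A.LiesOverPrime ℓ →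
            ∀ σ : AlgebraicClosure ℚ ≃ₐ[ℚ] AlgebraicClosure ℚ, A.IsFrobeniusAt σ ℓ →
              LinearMap.charpoly (ρ.ρ σ) =
                X ^ 2 - C (algebraMap O' O'' (χ (CuspForm.heckeAlgebra.T hℓ hℓM hℓS))) * X
                  + C ((ℓ : O''))) ∧
        (∀ q : ℕ, q.Prime → q ≠ lam → q ∣ M → ¬ q ^ 2 ∣ M →
          ∀ A : ValuationSubring (AlgebraicClosure ℚ), A.LiesOverPrime q →
            ∀ σ : AlgebraicClosure ℚ ≃ₐ[ℚ] AlgebraicClosure ℚ, A.IsFrobeniusAt σ q →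
              LinearMap.charpoly (ρ.ρ σ) = X ^ 2 - C ((q : O'') + 1) * X + C ((q : O'')) ∨
              LinearMap.charpoly (ρ.ρ σ) = X ^ 2 + C ((q : O'') + 1) * X + C ((q : O''))) :=
  result_of_detQ_oddRep hodd lam S O' hlamO' χ
    (detQStatement_of_levels hFD lam M S hlamS hMS O' hlamO' χ hLev)

end Fermat.Agent.S35.DetQ
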