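/-
S35, block [C] NEWNESS, leaf [C1] — NewPer.lean (helper27).

For a normalized eigenform `g` of level `M * q` (`q` prime, `q ∤ M`) whose good eigensystem does
not occur at level `M` (e.g. a newform), BOTH transfers of its period class to level `M` vanish:

  `tr₁ M q (periodHomPair (M * q) (g, 0)) = 0`,  `tr₂ M q (periodHomPair (M * q) (g, 0)) = 0`

(complex coefficients).  Indeed `u := tr_i (per g)` is a parabolic class of level `M`
(`S41.Coh.isParabolicHom_tr_i`) and an eigenclass of every `T_ℓ`, `ℓ ∤ M q`, with eigenvalue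
`a_ℓ(g)` (`S41.tr_i_heckeT`, `S16.HeckePairB`, `S41.FSEigen.heckeTLin_eq_smul`).  If `u ≠ 0` then
by Eichler–Shimura (`S21`) `u = per (s)` with `s ≠ 0` in the joint eigenspace of the `T_ℓ × T_ℓ`
on `S₂(Γ₀(M))²`; this eigenspace is stable under the whole (commutative) Hecke algebra of level
`M`, hence contains a common eigenvector, a nonzero component of which is normalised by
`S49.Normalize` to a normalized eigenform of level `M` with `a_ℓ = a_ℓ(g)` for all `ℓ ∤ M q`: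
the good eigensystem of `g` occurs at level `M`.

* `exists_common_eigenvector` : commuting operators on a nonzero invariant subspace of a
  finite-dimensional complex vector space have a common eigenvector in it (Mathlib only);
* `eq_zero_of_eigenclass`     : a parabolic complex class of level `M` which is a `T_ℓ`-eigenclass
  with eigenvalue `a_ℓ(g)` for all primes `ℓ ∤ M q` vanishes if the good eigensystem of `g` does
  not occur at level `M`;
* `tr_periodHomPair_eq_zero`  : the statement above.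
-/
import Mathlib
import Fermat.Prelude.Def_CuspForm_Newforms
import Fermat.Agent.S41.Coh
import Fermat.Agent.S41.NewCore
import Fermat.Agent.S41.FSEigen

set_option autoImplicit false

open CongruenceSubgroup ModularCurve ModularCurve.Period
open scoped MatrixGroups

namespace Fermat.Agent.S35.NewPer

open Fermat.Agent.S16 (heckeTHom heckeUHom)
open Fermat.Agent.S41 (tr₁ tr₂)

/-! ### A common eigenvector of a commuting family -/

/-- Commuting operators on a finite-dimensional complex vector space have a common eigenvector in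
every nonzero subspace stable under all of them. -/
theorem exists_common_eigenvector {V : Type*} [AddCommGroup V] [Module ℂ V]
    [FiniteDimensional ℂ V] (G : Set (Module.End ℂ V)) (hG : ∀ s ∈ G, ∀ t ∈ G, s * t = t * s) :
    ∀ (n : ℕ) (W : Submodule ℂ V), Module.finrank ℂ W = n → W ≠ ⊥ →
      (∀ t ∈ G, ∀ x ∈ W, t x ∈ W) →
      ∃ v ∈ W, v ≠ 0 ∧ ∀ t ∈ G, ∃ μ : ℂ, t v = μ • v := by
  intro n
  induction n using Nat.strong_induction_on with
  | _ n ih =>
    intro W hn hW hstab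
    by_cases hsc : ∀ t ∈ G, ∃ μ : ℂ, ∀ x ∈ W, t x = μ • x
    · obtain ⟨v, hvW, hv0⟩ := (Submodule.ne_bot_iff W).mp hW
      exact ⟨v, hvW, hv0, fun t ht => (hsc t ht).imp fun μ hμ => hμ v hvW⟩
    · push Not at hsc
      obtain ⟨t, ht, hnot⟩ := hsc
      -- an eigenvalue of `t` on `W`
      have hnt : Nontrivial W := Submodule.nontrivial_iff_ne_bot.mpr hW
      let tW : Module.End ℂ W := t.restrict (fun x hx => hstab t ht x hx)
      obtain ⟨μ, hμ⟩ := Module.End.exists_eigenvalue tW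
      obtain ⟨w, hw⟩ := hμ.exists_hasEigenvector
      obtain ⟨y, hyW, hy⟩ := hnot μ
      -- the eigenspace inside `W`
      let W' : Submodule ℂ V := W ⊓ LinearMap.ker (t - μ • (1 : Module.End ℂ V))
      have hW'le : W' ≤ W := inf_le_left
      have hmem : ∀ x, x ∈ W' ↔ x ∈ W ∧ t x = μ • x := by
        intro x
        simp only [W', Submodule.mem_inf, LinearMap.mem_ker, LinearMap.sub_apply,
          LinearMap.smul_apply, Module.End.one_apply, sub_eq_zero]
      have hwV : (w : V) ∈ W' := by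
        rw [hmem]
        refine ⟨w.2, ?_⟩
        have h1 := hw.apply_eq_smul
        have h2 := congrArg (Subtype.val : W → V) h1
        simpa [tW] using h2
      have hw0 : (w : V) ≠ 0 := fun h => hw.2 (Subtype.ext h)
      have hW'ne : W' ≠ ⊥ := fun h => hw0 (by rw [h] at hwV; exact (Submodule.mem_bot ℂ).mp hwV)
      have hlt : W' < W := by
        refine lt_of_le_of_ne hW'le fun h => hy ?_
        have : y ∈ W' := h ▸ hyW
        exact ((hmem y).mp this).2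
      have hfr : Module.finrank ℂ W' < n := hn ▸ Submodule.finrank_lt_finrank_of_lt hlt
      have hstab' : ∀ s ∈ G, ∀ x ∈ W', s x ∈ W' := by
        intro s hs x hx
        obtain ⟨hxW, hxt⟩ := (hmem x).mp hx
        rw [hmem]
        refine ⟨hstab s hs x hxW, ?_⟩
        have hc := congrArg (fun f : Module.End ℂ V => f x) (hG t ht s hs)
        simp only [Module.End.mul_apply] at hc
        rw [hc, hxt, map_smul]
      obtain ⟨v, hvW', hv0, hv⟩ := ih _ hfr W' rfl hW'ne hstab'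
      exact ⟨v, hW'le hvW', hv0, hv⟩

/-! ### Eigenclasses of level `M` -/

/-- Scalars commute with `tr₁` (complex coefficients). -/
theorem tr₁_smul (M q : ℕ) (c : ℂ) (ψ : Additive (Gamma0 (M * q)) →+ ℂ) :
    tr₁ M q (c • ψ) = c • tr₁ M q ψ := by
  have h1 : c • ψ = (AddMonoidHom.mulLeft c).comp ψ := by
    refine AddMonoidHom.ext fun γ => ?_
    simp
  have h2 : c • tr₁ M q ψ = (AddMonoidHom.mulLeft c).comp (tr₁ M q ψ) := by
    refine AddMonoidHom.ext fun γ => ?_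
    simp
  rw [h1, h2, Fermat.Agent.S41.tr₁_comp]

/-- Scalars commute with `tr₂` (complex coefficients). -/
theorem tr₂_smul (M q : ℕ) (c : ℂ) (ψ : Additive (Gamma0 (M * q)) →+ ℂ) :
    tr₂ M q (c • ψ) = c • tr₂ M q ψ := by
  have h1 : c • ψ = (AddMonoidHom.mulLeft c).comp ψ := by
    refine AddMonoidHom.ext fun γ => ?_
    simp
  have h2 : c • tr₂ M q ψ = (AddMonoidHom.mulLeft c).comp (tr₂ M q ψ) := by
    refine AddMonoidHom.ext fun γ => ?_
    simp
  rw [h1, h2, Fermat.Agent.S41.tr₂_comp]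

/-- A complex parabolic class of level `M` which is an eigenclass of every `T_ℓ` (`ℓ ∤ M q`
prime) with eigenvalue `a_ℓ(g)` vanishes, if the good eigensystem of `g` does not occur at
level `M`. -/
theorem eq_zero_of_eigenclass (M q : ℕ) [NeZero M] [NeZero (M * q)]
    (g : CuspForm (Gamma0 (M * q)) 2) (hnew : ¬ g.GoodEigensystemOccursAt M)
    (u : Additive (Gamma0 M) →+ ℂ) (hu : u ∈ parabolicHoms ℂ (Gamma0 M) ℂ)
    (heig : ∀ (ℓ : ℕ) [Fact ℓ.Prime] (hℓ : ¬ ℓ ∣ M), ¬ ℓ ∣ M * q →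
      heckeTHom M ℓ hℓ u = ModularFormClass.qCoeff g ℓ • u) : u = 0 := by
  classical
  by_contra hu0
  obtain ⟨f₁, f₂, hf⟩ := Fermat.Agent.S41.CohLat.exists_periodHomPair_eq M hu
  have hinj := (Fermat.Agent.S21.result M).1
  have hs0 : ((f₁, f₂) : CuspForm (Gamma0 M) 2 × CuspForm (Gamma0 M) 2) ≠ 0 := by
    intro h
    apply hu0
    rw [← hf, h, map_zero]
  -- the eigen-equation of `s = (f₁, f₂)`
  have hsT : ∀ (ℓ : ℕ) (hℓ : ℓ.Prime) (hℓM : ¬ ℓ ∣ M), ¬ ℓ ∣ M * q →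
      Fermat.Agent.S41.NewCore.pairT M hℓ hℓM (f₁, f₂) =
        ModularFormClass.qCoeff g ℓ • ((f₁, f₂) : CuspForm (Gamma0 M) 2 × CuspForm (Gamma0 M) 2) := by
    intro ℓ hℓ hℓM hℓN
    have : Fact ℓ.Prime := ⟨hℓ⟩
    apply hinj
    rw [Fermat.Agent.S41.NewCore.period_pairT, map_smul, hf]
    exact heig ℓ hℓM hℓN
  -- the joint eigenspace
  let W : Submodule ℂ (CuspForm (Gamma0 M) 2 × CuspForm (Gamma0 M) 2) :=
    { carrier := {v | ∀ (ℓ : ℕ) (hℓ : ℓ.Prime) (hℓM : ¬ ℓ ∣ M), ¬ ℓ ∣ M * q →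
        Fermat.Agent.S41.NewCore.pairT M hℓ hℓM v = ModularFormClass.qCoeff g ℓ • v}
      add_mem' := by
        intro a b ha hb ℓ hℓ hℓM hℓN
        rw [map_add, ha ℓ hℓ hℓM hℓN, hb ℓ hℓ hℓM hℓN, smul_add]
      zero_mem' := by
        intro ℓ hℓ hℓM hℓN
        rw [map_zero, smul_zero]
      smul_mem' := by
        intro c a ha ℓ hℓ hℓM hℓN
        rw [map_smul, ha ℓ hℓ hℓM hℓN, smul_comm] }
  have hsW : ((f₁, f₂) : CuspForm (Gamma0 M) 2 × CuspForm (Gamma0 M) 2) ∈ W := hsT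
  have hWne : W ≠ ⊥ := fun h => hs0 (by rw [h] at hsW; exact (Submodule.mem_bot ℂ).mp hsW)
  have hstab : ∀ t ∈ Fermat.Agent.S41.NewCore.opSet M, ∀ x ∈ W, t x ∈ W := by
    intro t ht x hx ℓ hℓ hℓM hℓN
    have hc := congrArg (fun f : Module.End ℂ (CuspForm (Gamma0 M) 2 × CuspForm (Gamma0 M) 2) =>
      f x) (Fermat.Agent.S41.NewCore.opSet_comm M _
        (Fermat.Agent.S41.NewCore.pairT_mem_opSet M hℓ hℓM) t ht)
    simp only [Module.End.mul_apply] at hc
    rw [hc, hx ℓ hℓ hℓM hℓN, map_smul]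
  have : Module.Finite ℂ (CuspForm (Gamma0 M) 2) := Fermat.Agent.S21.finite_cuspForm_Gamma0 M
  obtain ⟨v, hvW, hv0, hv⟩ := exists_common_eigenvector (Fermat.Agent.S41.NewCore.opSet M)
    (Fermat.Agent.S41.NewCore.opSet_comm M) _ W rfl hWne hstab
  choose! μ hμ using hv
  -- eigenvalues
  set lam : ℕ → ℂ := fun ℓ =>
    if h : ℓ.Prime then
      (if hM : ℓ ∣ M then μ (Fermat.Agent.S41.NewCore.pairU M hM)
        else μ (Fermat.Agent.S41.NewCore.pairT M h hM))
    else 0 with hlam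
  have hlamT : ∀ (ℓ : ℕ) (hℓ : ℓ.Prime) (hℓM : ¬ ℓ ∣ M),
      lam ℓ = μ (Fermat.Agent.S41.NewCore.pairT M hℓ hℓM) := by
    intro ℓ hℓ hℓM
    simp only [hlam, dif_pos hℓ, dif_neg hℓM]
  have hlamU : ∀ (ℓ : ℕ) (_ : ℓ.Prime) (hℓM : ℓ ∣ M),
      lam ℓ = μ (Fermat.Agent.S41.NewCore.pairU M hℓM) := by
    intro ℓ hℓ hℓM
    simp only [hlam, dif_pos hℓ, dif_pos hℓM]
  have hTv : ∀ (ℓ : ℕ) (hℓ : ℓ.Prime) (hℓM : ¬ ℓ ∣ M),
      Fermat.Agent.S41.NewCore.pairT M hℓ hℓM v = lam ℓ • v := by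
    intro ℓ hℓ hℓM
    rw [hμ _ (Fermat.Agent.S41.NewCore.pairT_mem_opSet M hℓ hℓM), hlamT ℓ hℓ hℓM]
  have hUv : ∀ (ℓ : ℕ) (_ : ℓ.Prime) (hℓM : ℓ ∣ M),
      Fermat.Agent.S41.NewCore.pairU M hℓM v = lam ℓ • v := by
    intro ℓ hℓ hℓM
    rw [hμ _ (Fermat.Agent.S41.NewCore.pairU_mem_opSet M hℓ hℓM), hlamU ℓ hℓ hℓM]
  -- the eigenvalues at the primes `ℓ ∤ M q` are those of `g`
  have hlam_g : ∀ ℓ : ℕ, ℓ.Prime → ¬ ℓ ∣ M * q → lam ℓ = ModularFormClass.qCoeff g ℓ := by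
    intro ℓ hℓ hℓN
    have hℓM : ¬ ℓ ∣ M := fun h => hℓN (Dvd.dvd.mul_right h q)
    have h1 := hTv ℓ hℓ hℓM
    rw [hvW ℓ hℓ hℓM hℓN] at h1
    have h2 : (ModularFormClass.qCoeff g ℓ - lam ℓ) • v = 0 := by
      rw [sub_smul, h1, sub_self]
    rcases smul_eq_zero.mp h2 with h3 | h3
    · exact (sub_eq_zero.mp h3).symm
    · exact absurd h3 hv0
  -- a nonzero component
  obtain ⟨g', hg'0, hTg', hUg'⟩ : ∃ g' : CuspForm (Gamma0 M) 2, g' ≠ 0 ∧
      (∀ (ℓ : ℕ) (hℓ : ℓ.Prime) (hℓM : ¬ ℓ ∣ M),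
        CuspForm.heckeTLin 2 hℓ hℓM g' = lam ℓ • g') ∧
      (∀ (ℓ : ℕ) (_ : ℓ.Prime) (hℓM : ℓ ∣ M), CuspForm.heckeULin 2 hℓM g' = lam ℓ • g') := by
    by_cases h1 : v.1 = 0
    · have h2 : v.2 ≠ 0 := fun h2 => hv0 (Prod.ext h1 h2)
      exact ⟨v.2, h2, fun ℓ hℓ hℓM => congrArg Prod.snd (hTv ℓ hℓ hℓM),
        fun ℓ hℓ hℓM => congrArg Prod.snd (hUv ℓ hℓ hℓM)⟩
    · exact ⟨v.1, h1, fun ℓ hℓ hℓM => congrArg Prod.fst (hTv ℓ hℓ hℓM),
        fun ℓ hℓ hℓM => congrArg Prod.fst (hUv ℓ hℓ hℓM)⟩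
  obtain ⟨f, hf', hfq⟩ :=
    Fermat.Agent.S49.exists_normalizedEigenform_of_eigenvector g' hg'0 lam hTg' hUg'
  exact hnew ⟨f, hf', fun ℓ hℓ hℓN => by rw [hfq ℓ hℓ, hlam_g ℓ hℓ hℓN]⟩

/-! ### The transfers of the period class of a newform -/

/-- **[C1]** Both transfers to level `M` of the period class of a normalized eigenform of level
`M * q` whose good eigensystem does not occur at level `M` vanish. -/
theorem tr_periodHomPair_eq_zero (M q : ℕ) [NeZero M] [Fact q.Prime] (hqM : ¬ q ∣ M)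
    [NeZero (M * q)] (g : CuspForm (Gamma0 (M * q)) 2) (hg : g.IsNormalizedEigenform)
    (hnew : ¬ g.GoodEigensystemOccursAt M) :
    tr₁ M q (periodHomPair (M * q) (g, 0)) = 0 ∧ tr₂ M q (periodHomPair (M * q) (g, 0)) = 0 := by
  have hΦ : IsParabolicHom (Gamma0 (M * q)) (periodHomPair (M * q) (g, 0)) :=
    mem_parabolicHoms_iff.mp (Fermat.Agent.S41.CohLat.periodHomPair_mem (M * q) g 0)
  have heigΦ : ∀ (ℓ : ℕ) [Fact ℓ.Prime] (hℓ' : ¬ ℓ ∣ M * q),
      heckeTHom (M * q) ℓ hℓ' (periodHomPair (M * q) (g, 0)) =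
        ModularFormClass.qCoeff g ℓ • periodHomPair (M * q) (g, 0) := by
    intro ℓ _ hℓ'
    have hℓ : ℓ.Prime := Fact.out
    rw [← Fermat.Agent.S16.HeckePairB.periodHomPair_heckeTLin hℓ hℓ' g 0,
      Fermat.Agent.S41.FSEigen.heckeTLin_eq_smul g hg hℓ hℓ', map_zero, ← map_smul]
    congr 1
    rw [Prod.smul_mk, smul_zero]
  constructor
  · apply eq_zero_of_eigenclass M q g hnew _
      (mem_parabolicHoms_iff.mpr (Fermat.Agent.S41.Coh.isParabolicHom_tr₁ hqM hΦ))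
    intro ℓ _ hℓ hℓ'
    rw [← Fermat.Agent.S41.tr₁_heckeT M q hℓ hℓ', heigΦ ℓ hℓ', tr₁_smul]
  · apply eq_zero_of_eigenclass M q g hnew _
      (mem_parabolicHoms_iff.mpr (Fermat.Agent.S41.Coh.isParabolicHom_tr₂ hqM hΦ))
    intro ℓ _ hℓ hℓ'
    rw [← Fermat.Agent.S41.tr₂_heckeT M q hℓ hℓ', heigΦ ℓ hℓ', tr₂_smul]

end Fermat.Agent.S35.NewPer
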