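/-
S35, block [C2] (owner: helper97) — the primitive NEW eigenvector.

For a normalized eigenform `g` of level `N`, a point `chig` of the Hecke algebra with
`chig (T_ℓ) = a_ℓ(g)`, a ring homomorphism `iota : chig.range →+* 𝒪` into a valuation ring and
ANY family of integral linear constraints `lam κ` on `Hom(Γ₀(N), ℤ)` whose complex companions
kill the period class `periodHomPair N (g, 0)` (e.g. the two transfers `tr₁`, `tr₂` to a lower
level when `g` is new: block [C1]), there are primitive eigen-coordinates `x : Fin r → 𝒪` in a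
`ℤ`-basis of `Lpar N` satisfying all the constraints; the vector `e = ∑ x n ⊗ b n` lies in the
`𝒪`-span of the pure tensors `1 ⊗ c` with `c` in the common kernel of the constraints.

Route: the coordinates of the period class over `ℂ` are a nonzero solution of the linear system
`{T_ℓ - a_ℓ (ℓ ∉ S), lam κ}`, whose entries are images under `chig` of elements of the Hecke
algebra `𝕋`; so all `r × r` minors vanish in `ℂ`, hence lie in `ker chig`, hence vanish after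
`iota ∘ chig` (no injectivity of `iota` is needed), and `S41/FSAlg` gives a nonzero solution over
`Frac 𝒪`, which is scaled to a primitive one.  The flat form is `Module.Flat.lTensor_exact`
(`𝒪` is torsion-free over `ℤ`).

* `exists_coord_of_complex`     : **(V0)** the descent along minors (abstract, any field);
* `exists_finset_forall_eq_zero`, `sum_tmul_mem_span`, `sum_tmul_map_mem_span` :
                                  **(V1)** the flat form (abstract);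
* `exists_coord_complex_constr` : complex coordinates of an eigenvector with constraints;
* `exists_newCoord`             : **(V2)** primitive eigen-coordinates with constraints;
* `exists_newVec`               : **(V2′)** the tensor form `e ∈ 𝒪 ⊗ Lpar N`;
* `trLam`, `trLamC`, `exists_newCoord_tr`, `exists_newVec_tr` :
                                  **(V3)** the instance `tr₁ = tr₂ = 0` at level `M * q`.
-/
import Mathlib
import Fermat.Prelude.Def_CuspForm_HeckeAlgebra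
import Fermat.Prelude.Def_CuspForm_Newforms
import Fermat.Agent.S21.Main
import Fermat.Agent.S16.HeckePairB
import Fermat.Agent.S16.LiftLemma
import Fermat.Agent.S22.GammaFG
import Fermat.Agent.S41.Defs
import Fermat.Agent.S41.ParMem
import Fermat.Agent.S41.LparFree
import Fermat.Agent.S41.FSEigen
import Fermat.Agent.S41.FSAlg
import Fermat.Agent.S29.Defs
import Fermat.Agent.S29.EigAlgB
import Fermat.Agent.S30.EigInf

set_option autoImplicit false

open CongruenceSubgroup ModularCurve ModularCurve.Period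
open scoped MatrixGroups TensorProduct

namespace Fermat.Agent.S35.NewVecB

open Fermat.Agent.S16 (heckeTHom heckeUHom tData)
open Fermat.Agent.S41 (Lpar tr₁ tr₂)
open Fermat.Agent.S29 (heckeLpar)
open Module

/-! ### (V0) Descent along the minors -/

/-- **(V0)** Let `Mat i` be integer matrices, `R κ` integer rows, `t i` elements of a commutative
ring `𝕋` and `χ : 𝕋 →+* ℂ`.  If the system `{Mat i - χ (t i), R κ}` has a nonzero complex
solution, then for every ring homomorphism `ψ` from `𝕋` to a field which kills `ker χ` the system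
`{Mat i - ψ (t i), R κ}` has a nonzero solution. -/
theorem exists_coord_of_complex {I J : Type*} {r : ℕ}
    (Mat : I → Fin r → Fin r → ℤ) (R : J → Fin r → ℤ)
    {𝕋 : Type*} [CommRing 𝕋] (t : I → 𝕋) (χ : 𝕋 →+* ℂ)
    (c : Fin r → ℂ) (hc : c ≠ 0)
    (hM : ∀ i m, ∑ n, ((Mat i m n : ℤ) : ℂ) * c n = χ (t i) * c m)
    (hR : ∀ κ, ∑ n, ((R κ n : ℤ) : ℂ) * c n = 0)
    {k : Type*} [Field k] (ψ : 𝕋 →+* k) (hker : ∀ a, χ a = 0 → ψ a = 0) :
    ∃ x : Fin r → k, x ≠ 0 ∧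
      (∀ i m, ∑ n, ((Mat i m n : ℤ) : k) * x n = ψ (t i) * x m) ∧
      ∀ κ, ∑ n, ((R κ n : ℤ) : k) * x n = 0 := by
  classical
  -- the rows over `𝕋`
  let A : (I × Fin r) ⊕ J → Fin r → 𝕋 := fun s n =>
    Sum.elim (fun im : I × Fin r => ((Mat im.1 im.2 n : ℤ) : 𝕋) - if im.2 = n then t im.1 else 0)
      (fun κ => ((R κ n : ℤ) : 𝕋)) s
  -- the complex rows kill `c`
  have hAc : ∀ s, ∑ n, χ (A s n) * c n = 0 := by
    rintro (⟨i, m⟩ | κ)
    · simp only [A, Sum.elim_inl, map_sub, map_intCast, sub_mul, Finset.sum_sub_distrib,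
        apply_ite χ, map_zero, ite_mul, zero_mul, Finset.sum_ite_eq, Finset.mem_univ, if_true]
      rw [hM i m, sub_self]
    · simp only [A, Sum.elim_inr, map_intCast]
      exact hR κ
  -- all minors vanish over `𝕋` after `χ`, hence after `ψ`
  have hdet : ∀ g : Fin r → (I × Fin r) ⊕ J,
      (Matrix.of fun a => fun n => ψ (A (g a) n)).det = 0 := by
    intro g
    have h1 : (Matrix.of fun a => fun n => χ (A (g a) n)).det = 0 := by
      apply Matrix.exists_mulVec_eq_zero_iff.mp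
      refine ⟨c, hc, ?_⟩
      funext a
      simp only [Matrix.mulVec, dotProduct, Matrix.of_apply, Pi.zero_apply]
      exact hAc (g a)
    have h2 : χ (Matrix.of fun a => fun n => A (g a) n).det = 0 := by
      rw [RingHom.map_det]
      exact h1
    have h3 := hker _ h2
    rw [RingHom.map_det] at h3
    exact h3
  obtain ⟨x, hx0, hx⟩ := Fermat.Agent.S41.FSAlg.exists_ne_zero_dotProduct_eq_zero
    (fun s => fun n => ψ (A s n)) hdet
  refine ⟨x, hx0, ?_, ?_⟩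
  · intro i m
    have h1 := hx (Sum.inl (i, m))
    simp only [dotProduct, A, Sum.elim_inl, map_sub, map_intCast, sub_mul, Finset.sum_sub_distrib,
      apply_ite ψ, map_zero, ite_mul, zero_mul, Finset.sum_ite_eq, Finset.mem_univ, if_true] at h1
    exact sub_eq_zero.mp h1
  · intro κ
    have h1 := hx (Sum.inr κ)
    simp only [dotProduct, A, Sum.elim_inr, map_intCast] at h1
    exact h1

/-! ### (V1) The flat form -/

/-- A common kernel of a family of integer functionals on a finite free `ℤ`-module is cut out by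
finitely many of them. -/
theorem exists_finset_forall_eq_zero {L : Type*} [AddCommGroup L] [Module.Finite ℤ L]
    [Module.Free ℤ L] {J : Type*} (lam : J → L →+ ℤ) :
    ∃ T : Finset J, ∀ c : L, (∀ κ ∈ T, lam κ c = 0) → ∀ κ, lam κ c = 0 := by
  classical
  let Λ : J → (L →ₗ[ℤ] ℤ) := fun κ => (lam κ).toIntLinearMap
  have hfg : (Submodule.span ℤ (Set.range Λ)).FG := IsNoetherian.noetherian _
  obtain ⟨T', hT', hspan⟩ := (Submodule.fg_span_iff_fg_span_finset_subset _).mp hfg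
  choose f hf using fun y : T' => hT' y.2
  refine ⟨T'.attach.image f, fun c hc κ => ?_⟩
  have hmem : Λ κ ∈ Submodule.span ℤ (T' : Set (L →ₗ[ℤ] ℤ)) := by
    rw [← hspan]
    exact Submodule.subset_span ⟨κ, rfl⟩
  have hker : Submodule.span ℤ (T' : Set (L →ₗ[ℤ] ℤ))
      ≤ LinearMap.ker (LinearMap.applyₗ (R := ℤ) (M := L) (M₂ := ℤ) c) := by
    rw [Submodule.span_le]
    intro y hy
    have h1 := hc (f ⟨y, hy⟩) (Finset.mem_image.mpr ⟨⟨y, hy⟩, Finset.mem_attach _ _, rfl⟩)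
    have h2 : Λ (f ⟨y, hy⟩) = y := hf ⟨y, hy⟩
    simp only [SetLike.mem_coe, LinearMap.mem_ker, LinearMap.applyₗ_apply_apply]
    rw [← h2]
    exact h1
  have h3 := hker hmem
  simpa [Λ] using h3

/-- **(V1) The flat form.**  If the coefficients `x n ∈ 𝒪` (a domain of characteristic zero)
satisfy the integer constraints `∑ n, x n * lam κ (b n) = 0`, then `∑ n, x n ⊗ b n` lies in the
`𝒪`-span of the pure tensors `1 ⊗ c` with `c` in the common kernel of the `lam κ`. -/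
theorem sum_tmul_mem_span {L : Type*} [AddCommGroup L] [Module.Finite ℤ L] [Module.Free ℤ L]
    {r : ℕ} (b : Fin r → L) {J : Type*} (lam : J → L →+ ℤ)
    {𝒪 : Type*} [CommRing 𝒪] [IsDomain 𝒪] [CharZero 𝒪] (x : Fin r → 𝒪)
    (hx : ∀ κ, ∑ n, x n * ((lam κ (b n) : ℤ) : 𝒪) = 0) :
    (∑ n, x n ⊗ₜ[ℤ] b n : 𝒪 ⊗[ℤ] L) ∈
      Submodule.span 𝒪 {z | ∃ c : L, (∀ κ, lam κ c = 0) ∧ z = (1 : 𝒪) ⊗ₜ[ℤ] c} := by
  classical
  obtain ⟨T, hT⟩ := exists_finset_forall_eq_zero lam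
  let Φ : L →ₗ[ℤ] (T → ℤ) := LinearMap.pi fun κ : T => (lam κ.1).toIntLinearMap
  have hexact : Function.Exact (LinearMap.ker Φ).subtype Φ := Φ.exact_subtype_ker_map
  have hex2 : Function.Exact ((LinearMap.ker Φ).subtype.lTensor 𝒪) (Φ.lTensor 𝒪) :=
    Module.Flat.lTensor_exact 𝒪 hexact
  have h0 : Φ.lTensor 𝒪 (∑ n, x n ⊗ₜ[ℤ] b n) = 0 := by
    apply (TensorProduct.piScalarRight ℤ ℤ 𝒪 T).injective
    rw [map_zero, map_sum, map_sum]
    funext κ
    simp only [LinearMap.lTensor_tmul, TensorProduct.piScalarRight_apply,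
      TensorProduct.piScalarRightHom_tmul, Finset.sum_apply, Pi.zero_apply]
    rw [← hx κ.1]
    refine Finset.sum_congr rfl fun n _ => ?_
    simp [Φ, mul_comm]
  have key : ∀ y : 𝒪 ⊗[ℤ] (LinearMap.ker Φ), (LinearMap.ker Φ).subtype.lTensor 𝒪 y ∈
      Submodule.span 𝒪 {z | ∃ c : L, (∀ κ, lam κ c = 0) ∧ z = (1 : 𝒪) ⊗ₜ[ℤ] c} := by
    intro y
    induction y using TensorProduct.induction_on with
    | zero => rw [map_zero]; exact Submodule.zero_mem _
    | tmul a c =>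
      rw [LinearMap.lTensor_tmul]
      have h1 : a ⊗ₜ[ℤ] ((LinearMap.ker Φ).subtype c) = a • ((1 : 𝒪) ⊗ₜ[ℤ] (c : L)) := by
        rw [TensorProduct.smul_tmul', smul_eq_mul, mul_one]
        rfl
      rw [h1]
      refine Submodule.smul_mem _ _ (Submodule.subset_span ⟨c, hT c ?_, rfl⟩)
      intro κ hκ
      have h2 : Φ c = 0 := c.2
      exact congrFun h2 ⟨κ, hκ⟩
    | add y₁ y₂ h₁ h₂ => rw [map_add]; exact Submodule.add_mem _ h₁ h₂
  obtain ⟨y, hy⟩ := (hex2 _).mp h0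
  rw [← hy]
  exact key y

/-- **(V1′)** The flat form pushed along an additive map `θ : L →+ X`: under the hypotheses of
`sum_tmul_mem_span`, `∑ n, x n ⊗ θ (b n)` lies in the `𝒪`-span of the `1 ⊗ θ c`, `c` in the
common kernel of the constraints. -/
theorem sum_tmul_map_mem_span {L : Type*} [AddCommGroup L] [Module.Finite ℤ L] [Module.Free ℤ L]
    {r : ℕ} (b : Fin r → L) {J : Type*} (lam : J → L →+ ℤ)
    {𝒪 : Type*} [CommRing 𝒪] [IsDomain 𝒪] [CharZero 𝒪] (x : Fin r → 𝒪)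
    (hx : ∀ κ, ∑ n, x n * ((lam κ (b n) : ℤ) : 𝒪) = 0)
    {X : Type*} [AddCommGroup X] (θ : L →+ X) :
    (∑ n, x n ⊗ₜ[ℤ] θ (b n) : 𝒪 ⊗[ℤ] X) ∈
      Submodule.span 𝒪 {z | ∃ c : L, (∀ κ, lam κ c = 0) ∧ z = (1 : 𝒪) ⊗ₜ[ℤ] θ c} := by
  classical
  have h1 := Submodule.mem_map_of_mem (f := θ.toIntLinearMap.baseChange 𝒪)
    (sum_tmul_mem_span b lam x hx)
  rw [map_sum] at h1
  simp only [LinearMap.baseChange_tmul, AddMonoidHom.coe_toIntLinearMap] at h1
  refine Submodule.map_le_iff_le_comap.mpr (Submodule.span_le.mpr ?_) h1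
  rintro _ ⟨c, hc, rfl⟩
  rw [SetLike.mem_coe, Submodule.mem_comap, LinearMap.baseChange_tmul]
  exact Submodule.subset_span ⟨c, hc, rfl⟩

/-! ### Complex coordinates -/

/-- Coordinates of an eigenvector lying in the complex span of a lattice, with linear
constraints. -/
theorem exists_coord_complex_constr {I J : Type*} {L : Type*} [AddCommGroup L] {r : ℕ}
    (b : Basis (Fin r) ℤ L) {V : Type*} [AddCommGroup V] [Module ℂ V] (j : L →+ V)
    (hind : LinearIndependent ℂ (fun n => j (b n)))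
    (T : I → L →+ L) (TV : I → V →ₗ[ℂ] V) (hj : ∀ i x, j (T i x) = TV i (j x))
    (lam : J → L →+ ℤ) (lamV : J → V →ₗ[ℂ] ℂ)
    (hlam : ∀ κ x, lamV κ (j x) = ((lam κ x : ℤ) : ℂ))
    (v : V) (hv0 : v ≠ 0) (hvspan : v ∈ Submodule.span ℂ (Set.range j))
    (a : I → ℂ) (ha : ∀ i, TV i v = a i • v) (hv : ∀ κ, lamV κ v = 0) :
    ∃ c : Fin r → ℂ, c ≠ 0 ∧
      (∀ i m, ∑ n, ((b.repr (T i (b n)) m : ℤ) : ℂ) * c n = a i * c m) ∧
      ∀ κ, ∑ n, ((lam κ (b n) : ℤ) : ℂ) * c n = 0 := by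
  classical
  let e : Fin r → V := fun k => j (b k)
  let M : I → Fin r → Fin r → ℤ := fun i m k => b.repr (T i (b k)) m
  have hTb : ∀ i k, T i (b k) = ∑ m, M i m k • b m := fun i k => (b.sum_repr (T i (b k))).symm
  have hjx : ∀ x : L, j x = ∑ k, ((b.repr x k : ℤ) : ℂ) • e k := by
    intro x
    conv_lhs => rw [← b.sum_repr x]
    rw [map_sum]
    refine Finset.sum_congr rfl fun k _ => ?_
    rw [map_zsmul, Int.cast_smul_eq_zsmul]
  have hspan_le : Submodule.span ℂ (Set.range j) ≤ Submodule.span ℂ (Set.range e) := by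
    rw [Submodule.span_le]
    rintro _ ⟨x, rfl⟩
    rw [hjx x]
    exact Submodule.sum_mem _ fun k _ => Submodule.smul_mem _ _ (Submodule.subset_span ⟨k, rfl⟩)
  obtain ⟨c, hc⟩ := (Submodule.mem_span_range_iff_exists_fun ℂ).mp (hspan_le hvspan)
  have hc0 : c ≠ 0 := by
    rintro rfl
    apply hv0
    rw [← hc]
    simp
  refine ⟨c, hc0, ?_, ?_⟩
  · intro i m
    have h1 : TV i v = ∑ m, (∑ k, ((M i m k : ℤ) : ℂ) * c k) • e m := by
      rw [← hc, map_sum]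
      have h0 : ∀ k, TV i (c k • e k) = ∑ m, (((M i m k : ℤ) : ℂ) * c k) • e m := by
        intro k
        rw [map_smul, ← hj, hTb, map_sum, Finset.smul_sum]
        refine Finset.sum_congr rfl fun m _ => ?_
        rw [map_zsmul, ← Int.cast_smul_eq_zsmul ℂ, smul_smul, mul_comm]
      simp_rw [h0]
      rw [Finset.sum_comm]
      refine Finset.sum_congr rfl fun m _ => ?_
      rw [Finset.sum_smul]
    have h2 : a i • v = ∑ m, (a i * c m) • e m := by
      rw [← hc, Finset.smul_sum]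
      refine Finset.sum_congr rfl fun m _ => ?_
      rw [smul_smul]
    have h3 : ∑ m, (∑ k, ((M i m k : ℤ) : ℂ) * c k - a i * c m) • e m = 0 := by
      simp_rw [sub_smul]
      rw [Finset.sum_sub_distrib, ← h1, ← h2, ha i, sub_self]
    have h4 := Fintype.linearIndependent_iff.mp hind _ h3 m
    exact sub_eq_zero.mp h4
  · intro κ
    have h1 := hv κ
    rw [← hc, map_sum] at h1
    rw [← h1]
    refine Finset.sum_congr rfl fun n _ => ?_
    rw [map_smul, hlam, smul_eq_mul, mul_comm]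

/-! ### (V2) The primitive new eigen-coordinates -/

/-- The complex coordinate vector of the period class of a normalized eigenform: a common
eigenvector of the integer matrices of the `T_ℓ` (`ℓ ∤ N`, `ℓ ∉ S`) which satisfies every
integral constraint whose complex companion kills the period class. -/
theorem exists_coord_complex_of_eigenform_constr (N : ℕ) [NeZero N] (S : Set ℕ)
    (g : CuspForm (Gamma0 N) 2) (hg : g.IsNormalizedEigenform)
    {J : Type*} (lam : J → (Additive (Gamma0 N) →+ ℤ) →+ ℤ)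
    (lamC : J → (Additive (Gamma0 N) →+ ℂ) →ₗ[ℂ] ℂ)
    (hlam : ∀ κ (u : Additive (Gamma0 N) →+ ℤ),
      lamC κ ((Int.castAddHom ℂ).comp u) = ((lam κ u : ℤ) : ℂ))
    (hper : ∀ κ, lamC κ (periodHomPair N (g, 0)) = 0)
    {r : ℕ} (b : Module.Basis (Fin r) ℤ (Lpar N)) :
    ∃ c : Fin r → ℂ, c ≠ 0 ∧
      (∀ (ℓ : ℕ) (hℓ : ℓ.Prime) (hℓN : ¬ ℓ ∣ N) (_ : ℓ ∉ S) (m : Fin r),
        ∑ n, ((b.repr (heckeLpar N ℓ hℓ hℓN (b n)) m : ℤ) : ℂ) * c n
          = ModularFormClass.qCoeff g ℓ * c m) ∧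
      ∀ κ, ∑ n, ((lam κ (b n).1 : ℤ) : ℂ) * c n = 0 := by
  classical
  have hfg : Group.FG ↥(Gamma0 N) := Fermat.Agent.S22.gamma0_fg N
  -- the index type
  let I : Type := {ℓ : ℕ // ℓ.Prime ∧ ¬ ℓ ∣ N ∧ ℓ ∉ S}
  have hprime : ∀ i : I, Fact (i.1.Prime) := fun i => ⟨i.2.1⟩
  -- the operators on the lattice
  let T : I → (Lpar N →+ Lpar N) := fun i => (heckeLpar N i.1 i.2.1 i.2.2.1).toAddMonoidHom
  -- the operators on complex classes
  let TV : I → ((Additive (Gamma0 N) →+ ℂ) →ₗ[ℂ] (Additive (Gamma0 N) →+ ℂ)) := fun i =>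
    haveI := hprime i
    { toFun := fun φ => heckeTHom N i.1 i.2.2.1 φ
      map_add' := fun φ ψ => (tData N i.1 i.2.2.1).op_add φ ψ
      map_smul' := fun c φ => (tData N i.1 i.2.2.1).op_smul c φ }
  -- complexification
  let j : Lpar N →+ (Additive (Gamma0 N) →+ ℂ) :=
    { toFun := fun x => (Int.castAddHom ℂ).comp x.1
      map_zero' := AddMonoidHom.comp_zero _
      map_add' := fun x y => AddMonoidHom.comp_add _ x.1 y.1 }
  have hj : ∀ i x, j (T i x) = TV i (j x) := fun i x =>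
    haveI := hprime i
    ((tData N i.1 i.2.2.1).op_comp (Int.castAddHom ℂ) x.1).symm
  have hind : LinearIndependent ℂ (fun n => j (b n)) :=
    Fermat.Agent.S41.FSAlg.linearIndependent_intCast_comp (fun n => (b n).1)
      (b.linearIndependent.map' (Lpar N).subtype (Submodule.ker_subtype _))
  -- the constraints on the lattice
  let lamL : J → (Lpar N →+ ℤ) := fun κ => (lam κ).comp (Lpar N).subtype.toAddMonoidHom
  have hlamL : ∀ κ x, lamC κ (j x) = ((lamL κ x : ℤ) : ℂ) := fun κ x => hlam κ x.1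
  -- the eigenvector
  set v : Additive (Gamma0 N) →+ ℂ := periodHomPair N (g, 0) with hv
  have hv0 : v ≠ 0 := by
    intro h0
    have h1 : periodHomPair N (g, 0) = periodHomPair N 0 := by
      rw [← hv, h0, map_zero]
    exact hg.ne_zero (congrArg Prod.fst (Fermat.Agent.S21.periodHomPair_injective_Gamma0 N h1))
  have hvpar : v ∈ parabolicHoms ℂ (Gamma0 N) ℂ :=
    Fermat.Agent.S21.range_periodHomPair_le_Gamma0 N ⟨(g, 0), rfl⟩
  have hvspan : v ∈ Submodule.span ℂ (Set.range j) := by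
    have h1 := Fermat.Agent.S16.LiftLemma.mem_span_toC
      {γ : Gamma0 N | ((γ : SL(2, ℤ)) : Matrix (Fin 2) (Fin 2) ℤ).trace ^ 2 = 4} v
      (fun γ hγ => hvpar γ hγ)
    refine Submodule.span_mono ?_ h1
    rintro _ ⟨ψ, hψ, rfl⟩
    exact ⟨⟨ψ, fun γ hγ => hψ γ hγ⟩, rfl⟩
  have ha : ∀ i : I, TV i v = ModularFormClass.qCoeff g i.1 • v := by
    intro i
    have := hprime i
    have h1 := Fermat.Agent.S16.HeckePairB.periodHomPair_heckeTLin i.2.1 i.2.2.1 g 0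
    rw [map_zero, Fermat.Agent.S41.FSEigen.heckeTLin_eq_smul g hg i.2.1 i.2.2.1] at h1
    have h2 : ((ModularFormClass.qCoeff g i.1 • g, (0 : CuspForm (Gamma0 N) 2)) :
        CuspForm (Gamma0 N) 2 × CuspForm (Gamma0 N) 2)
        = ModularFormClass.qCoeff g i.1 • (g, 0) := by
      rw [Prod.smul_mk, smul_zero]
    rw [h2, map_smul] at h1
    exact h1.symm
  obtain ⟨c, hc0, hc, hcR⟩ := exists_coord_complex_constr b j hind T TV hj lamL lamC hlamL
    v hv0 hvspan (fun i => ModularFormClass.qCoeff g i.1) ha hper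
  exact ⟨c, hc0, fun ℓ hℓ hℓN hℓS m => hc ⟨ℓ, hℓ, hℓN, hℓS⟩ m, hcR⟩

/-- **(V2)** Primitive new eigen-coordinates.  For a normalized eigenform `g`, a point `chig` of
the Hecke algebra with `chig (T_ℓ) = a_ℓ(g)`, `iota : chig.range →+* 𝒪` (`𝒪` a valuation ring)
and a family of integral constraints whose complex companions kill the period class of `g`:
in any `ℤ`-basis `b` of `Lpar N` there is `x : Fin r → 𝒪` with one coordinate equal to `1`, a
common eigenvector of the integer matrices of all `T_ℓ` (`ℓ ∤ N`, `ℓ ∉ S`) with eigenvalues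
`iota (chig (T_ℓ))`, satisfying all the constraints. -/
theorem exists_newCoord (N : ℕ) [NeZero N] (S : Set ℕ)
    (g : CuspForm (Gamma0 N) 2) (hg : g.IsNormalizedEigenform)
    (chig : CuspForm.heckeAlgebra N 2 S →+* ℂ)
    (hchig : ∀ (ℓ : ℕ) (hℓ : ℓ.Prime) (hℓN : ¬ ℓ ∣ N) (hℓS : ℓ ∉ S),
      chig (CuspForm.heckeAlgebra.T hℓ hℓN hℓS) = ModularFormClass.qCoeff g ℓ)
    {𝒪 : Type*} [CommRing 𝒪] [IsDomain 𝒪] [ValuationRing 𝒪]
    (iota : chig.range →+* 𝒪)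
    {J : Type*} (lam : J → (Additive (Gamma0 N) →+ ℤ) →+ ℤ)
    (lamC : J → (Additive (Gamma0 N) →+ ℂ) →ₗ[ℂ] ℂ)
    (hlam : ∀ κ (u : Additive (Gamma0 N) →+ ℤ),
      lamC κ ((Int.castAddHom ℂ).comp u) = ((lam κ u : ℤ) : ℂ))
    (hper : ∀ κ, lamC κ (periodHomPair N (g, 0)) = 0)
    {r : ℕ} (b : Module.Basis (Fin r) ℤ (Lpar N)) :
    ∃ x : Fin r → 𝒪, (∃ i, x i = 1) ∧
      (∀ (ℓ : ℕ) (hℓ : ℓ.Prime) (hℓN : ¬ ℓ ∣ N) (hℓS : ℓ ∉ S) (m : Fin r),
        ∑ n, ((b.repr (heckeLpar N ℓ hℓ hℓN (b n)) m : ℤ) : 𝒪) * x n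
          = (iota.comp chig.rangeRestrict) (CuspForm.heckeAlgebra.T hℓ hℓN hℓS) * x m) ∧
      ∀ κ, ∑ n, x n * ((lam κ (b n).1 : ℤ) : 𝒪) = 0 := by
  classical
  obtain ⟨c, hc0, hc, hcR⟩ :=
    exists_coord_complex_of_eigenform_constr N S g hg lam lamC hlam hper b
  let I : Type := {ℓ : ℕ // ℓ.Prime ∧ ¬ ℓ ∣ N ∧ ℓ ∉ S}
  let ψ : CuspForm.heckeAlgebra N 2 S →+* FractionRing 𝒪 :=
    (algebraMap 𝒪 (FractionRing 𝒪)).comp (iota.comp chig.rangeRestrict)
  have hker : ∀ a, chig a = 0 → ψ a = 0 := by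
    intro a ha
    have h1 : chig.rangeRestrict a = 0 := Subtype.ext ha
    simp only [ψ, RingHom.comp_apply, h1, map_zero]
  obtain ⟨x, hx0, hx, hxR⟩ := exists_coord_of_complex
    (fun (i : I) m n => b.repr (heckeLpar N i.1 i.2.1 i.2.2.1 (b n)) m)
    (fun (κ : J) n => lam κ (b n).1)
    (fun i : I => CuspForm.heckeAlgebra.T i.2.1 i.2.2.1 i.2.2.2) chig c hc0
    (fun i m => by rw [hchig]; exact hc i.1 i.2.1 i.2.2.1 i.2.2.2 m) hcR ψ hker
  obtain ⟨i, y, hxi, hyi, hy⟩ :=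
    Fermat.Agent.S30.EigInf.exists_primitive_of_ne_zero (𝒪 := 𝒪) x hx0
  refine ⟨y, ⟨i, hyi⟩, ?_, ?_⟩
  · intro ℓ hℓ hℓN hℓS m
    apply IsFractionRing.injective 𝒪 (FractionRing 𝒪)
    rw [map_sum, map_mul, hy m]
    have h1 := hx ⟨ℓ, hℓ, hℓN, hℓS⟩ m
    simp only [ψ, RingHom.comp_apply] at h1
    simp only [RingHom.comp_apply]
    rw [← mul_div_assoc, ← h1, Finset.sum_div]
    refine Finset.sum_congr rfl fun n _ => ?_
    rw [map_mul, hy n, map_intCast, mul_div_assoc]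
  · intro κ
    apply IsFractionRing.injective 𝒪 (FractionRing 𝒪)
    rw [map_sum, map_zero]
    have h1 := hxR κ
    have h2 : ∑ n, algebraMap 𝒪 (FractionRing 𝒪) (y n * ((lam κ (b n).1 : ℤ) : 𝒪))
        = (∑ n, ((lam κ (b n).1 : ℤ) : FractionRing 𝒪) * x n) / x i := by
      rw [Finset.sum_div]
      refine Finset.sum_congr rfl fun n _ => ?_
      rw [map_mul, hy n, map_intCast, mul_div_assoc, mul_comm]
    rw [h2, h1, zero_div]

/-- **(V2′) = [C2], tensor form.**  The primitive new eigenvector `e ∈ 𝒪 ⊗ Lpar N`: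
* primitive: `a • e = c • e' → c ∣ a`;
* eigen: `(1 ⊗ T_ℓ) e = iota (chig (T_ℓ)) • e` for all primes `ℓ ∤ N`, `ℓ ∉ S`;
* new: `e` lies in the `𝒪`-span of the `1 ⊗ c`, `c ∈ Lpar N` killed by all the constraints. -/
theorem exists_newVec (N : ℕ) [NeZero N] (S : Set ℕ)
    (g : CuspForm (Gamma0 N) 2) (hg : g.IsNormalizedEigenform)
    (chig : CuspForm.heckeAlgebra N 2 S →+* ℂ)
    (hchig : ∀ (ℓ : ℕ) (hℓ : ℓ.Prime) (hℓN : ¬ ℓ ∣ N) (hℓS : ℓ ∉ S),
      chig (CuspForm.heckeAlgebra.T hℓ hℓN hℓS) = ModularFormClass.qCoeff g ℓ)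
    {𝒪 : Type*} [CommRing 𝒪] [IsDomain 𝒪] [ValuationRing 𝒪] [CharZero 𝒪]
    (iota : chig.range →+* 𝒪)
    {J : Type*} (lam : J → (Additive (Gamma0 N) →+ ℤ) →+ ℤ)
    (lamC : J → (Additive (Gamma0 N) →+ ℂ) →ₗ[ℂ] ℂ)
    (hlam : ∀ κ (u : Additive (Gamma0 N) →+ ℤ),
      lamC κ ((Int.castAddHom ℂ).comp u) = ((lam κ u : ℤ) : ℂ))
    (hper : ∀ κ, lamC κ (periodHomPair N (g, 0)) = 0) :
    ∃ e : 𝒪 ⊗[ℤ] (Lpar N),
      (∀ (a c : 𝒪) (e' : 𝒪 ⊗[ℤ] (Lpar N)), a • e = c • e' → c ∣ a) ∧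
      (∀ (ℓ : ℕ) (hℓ : ℓ.Prime) (hℓN : ¬ ℓ ∣ N) (hℓS : ℓ ∉ S),
        (heckeLpar N ℓ hℓ hℓN).baseChange 𝒪 e
          = (iota.comp chig.rangeRestrict) (CuspForm.heckeAlgebra.T hℓ hℓN hℓS) • e) ∧
      e ∈ Submodule.span 𝒪
        {z | ∃ c : Lpar N, (∀ κ, lam κ c.1 = 0) ∧ z = (1 : 𝒪) ⊗ₜ[ℤ] c} := by
  classical
  have hfin : Module.Finite ℤ (Lpar N) := Fermat.Agent.S41.LparFree.lpar_finite N
  have hfree : Module.Free ℤ (Lpar N) := Fermat.Agent.S41.LparFree.lpar_free N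
  set b := Module.finBasis ℤ (Lpar N) with hb
  obtain ⟨x, ⟨i, hxi⟩, hx, hxR⟩ := exists_newCoord N S g hg chig hchig iota lam lamC hlam hper b
  refine ⟨∑ n, x n ⊗ₜ[ℤ] (b n), ?_, ?_, ?_⟩
  · intro a c e' h
    have h1 : (∑ n, x n ⊗ₜ[ℤ] (b n) : 𝒪 ⊗[ℤ] (Lpar N))
        = ∑ n, x n • (Algebra.TensorProduct.basis 𝒪 b) n := by
      refine Finset.sum_congr rfl fun n _ => ?_
      rw [Algebra.TensorProduct.basis_apply, TensorProduct.smul_tmul', smul_eq_mul, mul_one]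
    have h2 := congrArg (fun z => (Algebra.TensorProduct.basis 𝒪 b).repr z i) h
    simp only [h1, map_smul, Module.Basis.repr_sum_self, Finsupp.smul_apply, smul_eq_mul, hxi,
      mul_one] at h2
    exact ⟨_, h2⟩
  · intro ℓ hℓ hℓN hℓS
    exact Fermat.Agent.S29.EigB.baseChange_sum_tmul (k := 𝒪) (AddMonoidHom.id (Lpar N)) b x
      (heckeLpar N ℓ hℓ hℓN) (heckeLpar N ℓ hℓ hℓN) (fun u => rfl)
      (Matrix.of fun i j => b.repr (heckeLpar N ℓ hℓ hℓN (b i)) j)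
      (fun i => (b.sum_repr _).symm)
      ((iota.comp chig.rangeRestrict) (CuspForm.heckeAlgebra.T hℓ hℓN hℓS))
      (fun j => by
        rw [← hx ℓ hℓ hℓN hℓS j]
        refine Finset.sum_congr rfl fun i _ => ?_
        rw [mul_comm]
        rfl)
  · exact sum_tmul_mem_span (fun n => b n)
      (fun κ => (lam κ).comp (Lpar N).subtype.toAddMonoidHom) x hxR

/-! ### (V3) The transfer constraints at level `M * q` -/

section Tr

variable (M q : ℕ)

/-- The integral constraints `u ↦ (tr₁ u) γ`, `u ↦ (tr₂ u) γ` (`γ ∈ Γ₀(M)`). -/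
noncomputable def trLam (κ : Gamma0 M ⊕ Gamma0 M) : (Additive (Gamma0 (M * q)) →+ ℤ) →+ ℤ :=
  Sum.elim
    (fun γ : Gamma0 M =>
      { toFun := fun u => tr₁ M q u (Additive.ofMul γ)
        map_zero' := by rw [Fermat.Agent.S41.tr₁_zero]; rfl
        map_add' := fun u u' => by rw [Fermat.Agent.S41.tr₁_add]; rfl })
    (fun γ : Gamma0 M =>
      { toFun := fun u => tr₂ M q u (Additive.ofMul γ)
        map_zero' := by rw [Fermat.Agent.S41.tr₂_zero]; rfl
        map_add' := fun u u' => by rw [Fermat.Agent.S41.tr₂_add]; rfl }) κ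

@[simp] theorem trLam_inl (γ : Gamma0 M) (u : Additive (Gamma0 (M * q)) →+ ℤ) :
    trLam M q (Sum.inl γ) u = tr₁ M q u (Additive.ofMul γ) := rfl

@[simp] theorem trLam_inr (γ : Gamma0 M) (u : Additive (Gamma0 (M * q)) →+ ℤ) :
    trLam M q (Sum.inr γ) u = tr₂ M q u (Additive.ofMul γ) := rfl

/-- All the constraints vanish iff both transfers vanish. -/
theorem trLam_eq_zero_iff (u : Additive (Gamma0 (M * q)) →+ ℤ) :
    (∀ κ, trLam M q κ u = 0) ↔ tr₁ M q u = 0 ∧ tr₂ M q u = 0 := by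
  constructor
  · intro h
    exact ⟨AddMonoidHom.ext fun a => h (Sum.inl (Additive.toMul a)),
      AddMonoidHom.ext fun a => h (Sum.inr (Additive.toMul a))⟩
  · rintro ⟨h1, h2⟩ (γ | γ)
    · rw [trLam_inl, h1]; rfl
    · rw [trLam_inr, h2]; rfl

theorem smul_eq_mulLeft_comp {G : Type*} [AddGroup G] (c : ℂ) (φ : G →+ ℂ) :
    c • φ = (AddMonoidHom.mulLeft c).comp φ := by
  ext x
  rfl

/-- The complex companions of the constraints. -/
noncomputable def trLamC (κ : Gamma0 M ⊕ Gamma0 M) : (Additive (Gamma0 (M * q)) →+ ℂ) →ₗ[ℂ] ℂ :=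
  Sum.elim
    (fun γ : Gamma0 M =>
      { toFun := fun φ => tr₁ M q φ (Additive.ofMul γ)
        map_add' := fun φ φ' => by rw [Fermat.Agent.S41.tr₁_add]; rfl
        map_smul' := fun c φ => by
          rw [smul_eq_mulLeft_comp, Fermat.Agent.S41.tr₁_comp]; rfl })
    (fun γ : Gamma0 M =>
      { toFun := fun φ => tr₂ M q φ (Additive.ofMul γ)
        map_add' := fun φ φ' => by rw [Fermat.Agent.S41.tr₂_add]; rfl
        map_smul' := fun c φ => by
          rw [smul_eq_mulLeft_comp, Fermat.Agent.S41.tr₂_comp]; rfl }) κ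

theorem trLamC_inl (γ : Gamma0 M) (φ : Additive (Gamma0 (M * q)) →+ ℂ) :
    trLamC M q (Sum.inl γ) φ = tr₁ M q φ (Additive.ofMul γ) := rfl

theorem trLamC_inr (γ : Gamma0 M) (φ : Additive (Gamma0 (M * q)) →+ ℂ) :
    trLamC M q (Sum.inr γ) φ = tr₂ M q φ (Additive.ofMul γ) := rfl

theorem trLamC_intCast (κ : Gamma0 M ⊕ Gamma0 M) (u : Additive (Gamma0 (M * q)) →+ ℤ) :
    trLamC M q κ ((Int.castAddHom ℂ).comp u) = ((trLam M q κ u : ℤ) : ℂ) := by
  rcases κ with γ | γ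
  · rw [trLamC_inl, Fermat.Agent.S41.tr₁_comp]; rfl
  · rw [trLamC_inr, Fermat.Agent.S41.tr₂_comp]; rfl

theorem trLamC_eq_zero {φ : Additive (Gamma0 (M * q)) →+ ℂ}
    (h : tr₁ M q φ = 0 ∧ tr₂ M q φ = 0) (κ : Gamma0 M ⊕ Gamma0 M) : trLamC M q κ φ = 0 := by
  rcases κ with γ | γ
  · rw [trLamC_inl, h.1]; rfl
  · rw [trLamC_inr, h.2]; rfl

variable [NeZero (M * q)]

/-- **(V3), coordinates.**  Level `M * q`; `g` a normalized eigenform whose period class is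
killed by both transfers to level `M` (block [C1] for `g` new at `q`). -/
theorem exists_newCoord_tr (S : Set ℕ)
    (g : CuspForm (Gamma0 (M * q)) 2) (hg : g.IsNormalizedEigenform)
    (hC1 : tr₁ M q (periodHomPair (M * q) (g, 0)) = 0 ∧
      tr₂ M q (periodHomPair (M * q) (g, 0)) = 0)
    (chig : CuspForm.heckeAlgebra (M * q) 2 S →+* ℂ)
    (hchig : ∀ (ℓ : ℕ) (hℓ : ℓ.Prime) (hℓN : ¬ ℓ ∣ M * q) (hℓS : ℓ ∉ S),
      chig (CuspForm.heckeAlgebra.T hℓ hℓN hℓS) = ModularFormClass.qCoeff g ℓ)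
    {𝒪 : Type*} [CommRing 𝒪] [IsDomain 𝒪] [ValuationRing 𝒪]
    (iota : chig.range →+* 𝒪) {r : ℕ} (b : Module.Basis (Fin r) ℤ (Lpar (M * q))) :
    ∃ x : Fin r → 𝒪, (∃ i, x i = 1) ∧
      (∀ (ℓ : ℕ) (hℓ : ℓ.Prime) (hℓN : ¬ ℓ ∣ M * q) (hℓS : ℓ ∉ S) (m : Fin r),
        ∑ n, ((b.repr (heckeLpar (M * q) ℓ hℓ hℓN (b n)) m : ℤ) : 𝒪) * x n
          = (iota.comp chig.rangeRestrict) (CuspForm.heckeAlgebra.T hℓ hℓN hℓS) * x m) ∧
      (∀ γ : Gamma0 M, ∑ n, x n * ((tr₁ M q (b n).1 (Additive.ofMul γ) : ℤ) : 𝒪) = 0) ∧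
      ∀ γ : Gamma0 M, ∑ n, x n * ((tr₂ M q (b n).1 (Additive.ofMul γ) : ℤ) : 𝒪) = 0 := by
  obtain ⟨x, hx1, hx, hxR⟩ := exists_newCoord (M * q) S g hg chig hchig iota
    (trLam M q) (trLamC M q) (trLamC_intCast M q) (trLamC_eq_zero M q hC1) b
  exact ⟨x, hx1, hx, fun γ => hxR (Sum.inl γ), fun γ => hxR (Sum.inr γ)⟩

/-- **(V3), tensor form = [C2] at level `M * q`.**  The primitive eigenvector
`e ∈ 𝒪 ⊗ Lpar (M * q)` in the `𝒪`-span of the `1 ⊗ c` with `tr₁ c = tr₂ c = 0`. -/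
theorem exists_newVec_tr (S : Set ℕ)
    (g : CuspForm (Gamma0 (M * q)) 2) (hg : g.IsNormalizedEigenform)
    (hC1 : tr₁ M q (periodHomPair (M * q) (g, 0)) = 0 ∧
      tr₂ M q (periodHomPair (M * q) (g, 0)) = 0)
    (chig : CuspForm.heckeAlgebra (M * q) 2 S →+* ℂ)
    (hchig : ∀ (ℓ : ℕ) (hℓ : ℓ.Prime) (hℓN : ¬ ℓ ∣ M * q) (hℓS : ℓ ∉ S),
      chig (CuspForm.heckeAlgebra.T hℓ hℓN hℓS) = ModularFormClass.qCoeff g ℓ)
    {𝒪 : Type*} [CommRing 𝒪] [IsDomain 𝒪] [ValuationRing 𝒪] [CharZero 𝒪]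
    (iota : chig.range →+* 𝒪) :
    ∃ e : 𝒪 ⊗[ℤ] (Lpar (M * q)),
      (∀ (a c : 𝒪) (e' : 𝒪 ⊗[ℤ] (Lpar (M * q))), a • e = c • e' → c ∣ a) ∧
      (∀ (ℓ : ℕ) (hℓ : ℓ.Prime) (hℓN : ¬ ℓ ∣ M * q) (hℓS : ℓ ∉ S),
        (heckeLpar (M * q) ℓ hℓ hℓN).baseChange 𝒪 e
          = (iota.comp chig.rangeRestrict) (CuspForm.heckeAlgebra.T hℓ hℓN hℓS) • e) ∧
      e ∈ Submodule.span 𝒪 {z | ∃ c : Lpar (M * q),
        tr₁ M q c.1 = 0 ∧ tr₂ M q c.1 = 0 ∧ z = (1 : 𝒪) ⊗ₜ[ℤ] c} := by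
  obtain ⟨e, he1, he2, he3⟩ := exists_newVec (M * q) S g hg chig hchig iota
    (trLam M q) (trLamC M q) (trLamC_intCast M q) (trLamC_eq_zero M q hC1)
  refine ⟨e, he1, he2, Submodule.span_mono ?_ he3⟩
  rintro _ ⟨c, hc, rfl⟩
  obtain ⟨h1, h2⟩ := (trLam_eq_zero_iff M q c.1).mp hc
  exact ⟨c, h1, h2, rfl⟩

end Tr

/-! ### (V4) All decompositions `N = M' * q` at once -/

section All

/-- Transport of a homomorphism along an equality of levels. -/
def castHom {A : Type*} [AddCommGroup A] {N N' : ℕ} (h : N = N') :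
    (Additive (Gamma0 N) →+ A) →+ (Additive (Gamma0 N') →+ A) :=
  h ▸ AddMonoidHom.id _

@[simp] theorem castHom_rfl {A : Type*} [AddCommGroup A] {N : ℕ}
    (u : Additive (Gamma0 N) →+ A) : castHom (rfl : N = N) u = u := rfl

/-- Transport of a complex homomorphism along an equality of levels, as a linear map. -/
def castHomC {N N' : ℕ} (h : N = N') :
    (Additive (Gamma0 N) →+ ℂ) →ₗ[ℂ] (Additive (Gamma0 N') →+ ℂ) :=
  h ▸ LinearMap.id

@[simp] theorem castHomC_rfl {N : ℕ} (φ : Additive (Gamma0 N) →+ ℂ) :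
    castHomC (rfl : N = N) φ = φ := rfl

theorem castHomC_intCast {N N' : ℕ} (h : N = N') (u : Additive (Gamma0 N) →+ ℤ) :
    castHomC h ((Int.castAddHom ℂ).comp u) = (Int.castAddHom ℂ).comp (castHom h u) := by
  subst h
  rfl

/-- The pushed flat form for the transfer constraints of one decomposition `N = M' * q`. -/
theorem sum_tmul_map_mem_span_tr {N M' q : ℕ} [NeZero N] (h : N = M' * q) {r : ℕ}
    (b : Fin r → Lpar N) {𝒪 : Type*} [CommRing 𝒪] [IsDomain 𝒪] [CharZero 𝒪] (x : Fin r → 𝒪)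
    (hx1 : ∀ γ : Gamma0 M',
      ∑ n, x n * ((tr₁ M' q (castHom h (b n).1) (Additive.ofMul γ) : ℤ) : 𝒪) = 0)
    (hx2 : ∀ γ : Gamma0 M',
      ∑ n, x n * ((tr₂ M' q (castHom h (b n).1) (Additive.ofMul γ) : ℤ) : 𝒪) = 0)
    {X : Type*} [AddCommGroup X] (θ : Lpar N →+ X) :
    (∑ n, x n ⊗ₜ[ℤ] θ (b n) : 𝒪 ⊗[ℤ] X) ∈
      Submodule.span 𝒪 {z | ∃ c : Lpar N, tr₁ M' q (castHom h c.1) = 0 ∧
        tr₂ M' q (castHom h c.1) = 0 ∧ z = (1 : 𝒪) ⊗ₜ[ℤ] θ c} := by
  have hfin : Module.Finite ℤ (Lpar N) := Fermat.Agent.S41.LparFree.lpar_finite N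
  have hfree : Module.Free ℤ (Lpar N) := Fermat.Agent.S41.LparFree.lpar_free N
  have h1 := sum_tmul_map_mem_span b
    (fun κ : Gamma0 M' ⊕ Gamma0 M' =>
      (trLam M' q κ).comp ((castHom h).comp (Lpar N).subtype.toAddMonoidHom)) x
    (by
      rintro (γ | γ)
      · exact hx1 γ
      · exact hx2 γ) θ
  refine Submodule.span_mono ?_ h1
  rintro _ ⟨c, hc, rfl⟩
  obtain ⟨h2, h3⟩ := (trLam_eq_zero_iff M' q (castHom h c.1)).mp hc
  exact ⟨c, h2, h3, rfl⟩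

variable (N : ℕ) [NeZero N] (S : Set ℕ)

/-- **(V4), coordinates: ONE primitive eigen-coordinate vector for all `q ∥ N`.**  `g` a newform
of level `N`; block [C1] enters as the hypothesis `hC1` (its statement at every level `M * q`).
For every decomposition `N = M' * q` (`q` prime, `q ∤ M'`) the coordinates satisfy the transfer
constraints `tr₁ = tr₂ = 0` to level `M'`. -/
theorem exists_newCoord_all (g : CuspForm (Gamma0 N) 2) (hg : g.IsNewform)
    (hC1 : ∀ (M q : ℕ) [NeZero M] [Fact q.Prime] (_ : ¬ q ∣ M) [NeZero (M * q)]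
      (g : CuspForm (Gamma0 (M * q)) 2), g.IsNormalizedEigenform →
      ¬ g.GoodEigensystemOccursAt M →
      tr₁ M q (periodHomPair (M * q) (g, 0)) = 0 ∧ tr₂ M q (periodHomPair (M * q) (g, 0)) = 0)
    (chig : CuspForm.heckeAlgebra N 2 S →+* ℂ)
    (hchig : ∀ (ℓ : ℕ) (hℓ : ℓ.Prime) (hℓN : ¬ ℓ ∣ N) (hℓS : ℓ ∉ S),
      chig (CuspForm.heckeAlgebra.T hℓ hℓN hℓS) = ModularFormClass.qCoeff g ℓ)
    {𝒪 : Type*} [CommRing 𝒪] [IsDomain 𝒪] [ValuationRing 𝒪]
    (iota : chig.range →+* 𝒪) {r : ℕ} (b : Module.Basis (Fin r) ℤ (Lpar N)) :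
    ∃ x : Fin r → 𝒪, (∃ i, x i = 1) ∧
      (∀ (ℓ : ℕ) (hℓ : ℓ.Prime) (hℓN : ¬ ℓ ∣ N) (hℓS : ℓ ∉ S) (m : Fin r),
        ∑ n, ((b.repr (heckeLpar N ℓ hℓ hℓN (b n)) m : ℤ) : 𝒪) * x n
          = (iota.comp chig.rangeRestrict) (CuspForm.heckeAlgebra.T hℓ hℓN hℓS) * x m) ∧
      ∀ (M' q : ℕ) (h : N = M' * q), q.Prime → ¬ q ∣ M' →
        (∀ γ : Gamma0 M',
          ∑ n, x n * ((tr₁ M' q (castHom h (b n).1) (Additive.ofMul γ) : ℤ) : 𝒪) = 0) ∧
        ∀ γ : Gamma0 M',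
          ∑ n, x n * ((tr₂ M' q (castHom h (b n).1) (Additive.ofMul γ) : ℤ) : 𝒪) = 0 := by
  classical
  -- the index type of all the constraints
  let J : Type := Σ p : {p : ℕ × ℕ // N = p.1 * p.2 ∧ p.2.Prime ∧ ¬ p.2 ∣ p.1},
    (Gamma0 p.1.1 ⊕ Gamma0 p.1.1)
  let lam : J → (Additive (Gamma0 N) →+ ℤ) →+ ℤ := fun κ =>
    (trLam κ.1.1.1 κ.1.1.2 κ.2).comp (castHom κ.1.2.1)
  let lamC : J → (Additive (Gamma0 N) →+ ℂ) →ₗ[ℂ] ℂ := fun κ =>
    (trLamC κ.1.1.1 κ.1.1.2 κ.2).comp (castHomC κ.1.2.1)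
  have hlam : ∀ κ (u : Additive (Gamma0 N) →+ ℤ),
      lamC κ ((Int.castAddHom ℂ).comp u) = ((lam κ u : ℤ) : ℂ) := by
    intro κ u
    simp only [lam, lamC, LinearMap.comp_apply, AddMonoidHom.comp_apply]
    rw [castHomC_intCast, trLamC_intCast]
  have hper : ∀ κ, lamC κ (periodHomPair N (g, 0)) = 0 := by
    rintro ⟨⟨⟨M', q⟩, h, hq, hqM⟩, κ⟩
    simp only [lamC, LinearMap.comp_apply]
    simp only at h hq hqM κ ⊢
    subst h
    have hM' : M' ≠ 0 := fun h0 => NeZero.ne (M' * q) (by rw [h0, zero_mul])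
    have : NeZero M' := ⟨hM'⟩
    have : Fact q.Prime := ⟨hq⟩
    have hne : M' ≠ M' * q := by
      intro h1
      have h2 : M' * 1 = M' * q := by rw [mul_one]; exact h1
      exact hq.one_lt.ne (Nat.eq_of_mul_eq_mul_left (Nat.pos_of_ne_zero hM') h2)
    have hnew : ¬ g.GoodEigensystemOccursAt M' := hg.2 M' (Dvd.intro q rfl) hne
    rw [castHomC_rfl]
    exact trLamC_eq_zero M' q (hC1 M' q hqM g hg.1 hnew) κ
  obtain ⟨x, hx1, hx, hxR⟩ :=
    exists_newCoord N S g hg.1 chig hchig iota lam lamC hlam hper b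
  refine ⟨x, hx1, hx, ?_⟩
  intro M' q h hq hqM
  exact ⟨fun γ => hxR ⟨⟨(M', q), h, hq, hqM⟩, Sum.inl γ⟩,
    fun γ => hxR ⟨⟨(M', q), h, hq, hqM⟩, Sum.inr γ⟩⟩

/-- **(V4), tensor form = [C2], all `q ∥ N` at once.**  ONE primitive eigenvector
`e ∈ 𝒪 ⊗ Lpar N` which, for every decomposition `N = M' * q` (`q` prime, `q ∤ M'`), lies in the
`𝒪`-span of the `1 ⊗ c` with `tr₁ c = tr₂ c = 0` (transfers to level `M'`). -/
theorem exists_newVec_all (g : CuspForm (Gamma0 N) 2) (hg : g.IsNewform)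
    (hC1 : ∀ (M q : ℕ) [NeZero M] [Fact q.Prime] (_ : ¬ q ∣ M) [NeZero (M * q)]
      (g : CuspForm (Gamma0 (M * q)) 2), g.IsNormalizedEigenform →
      ¬ g.GoodEigensystemOccursAt M →
      tr₁ M q (periodHomPair (M * q) (g, 0)) = 0 ∧ tr₂ M q (periodHomPair (M * q) (g, 0)) = 0)
    (chig : CuspForm.heckeAlgebra N 2 S →+* ℂ)
    (hchig : ∀ (ℓ : ℕ) (hℓ : ℓ.Prime) (hℓN : ¬ ℓ ∣ N) (hℓS : ℓ ∉ S),
      chig (CuspForm.heckeAlgebra.T hℓ hℓN hℓS) = ModularFormClass.qCoeff g ℓ)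
    {𝒪 : Type*} [CommRing 𝒪] [IsDomain 𝒪] [ValuationRing 𝒪] [CharZero 𝒪]
    (iota : chig.range →+* 𝒪) :
    ∃ e : 𝒪 ⊗[ℤ] (Lpar N),
      (∀ (a c : 𝒪) (e' : 𝒪 ⊗[ℤ] (Lpar N)), a • e = c • e' → c ∣ a) ∧
      (∀ (ℓ : ℕ) (hℓ : ℓ.Prime) (hℓN : ¬ ℓ ∣ N) (hℓS : ℓ ∉ S),
        (heckeLpar N ℓ hℓ hℓN).baseChange 𝒪 e
          = (iota.comp chig.rangeRestrict) (CuspForm.heckeAlgebra.T hℓ hℓN hℓS) • e) ∧
      ∀ (M' q : ℕ) (h : N = M' * q), q.Prime → ¬ q ∣ M' →
        e ∈ Submodule.span 𝒪 {z | ∃ c : Lpar N, tr₁ M' q (castHom h c.1) = 0 ∧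
          tr₂ M' q (castHom h c.1) = 0 ∧ z = (1 : 𝒪) ⊗ₜ[ℤ] c} := by
  classical
  have hfin : Module.Finite ℤ (Lpar N) := Fermat.Agent.S41.LparFree.lpar_finite N
  have hfree : Module.Free ℤ (Lpar N) := Fermat.Agent.S41.LparFree.lpar_free N
  set b := Module.finBasis ℤ (Lpar N) with hb
  obtain ⟨x, ⟨i, hxi⟩, hx, hxR⟩ := exists_newCoord_all N S g hg hC1 chig hchig iota b
  refine ⟨∑ n, x n ⊗ₜ[ℤ] (b n), ?_, ?_, ?_⟩
  · intro a c e' h
    have h1 : (∑ n, x n ⊗ₜ[ℤ] (b n) : 𝒪 ⊗[ℤ] (Lpar N))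
        = ∑ n, x n • (Algebra.TensorProduct.basis 𝒪 b) n := by
      refine Finset.sum_congr rfl fun n _ => ?_
      rw [Algebra.TensorProduct.basis_apply, TensorProduct.smul_tmul', smul_eq_mul, mul_one]
    have h2 := congrArg (fun z => (Algebra.TensorProduct.basis 𝒪 b).repr z i) h
    simp only [h1, map_smul, Module.Basis.repr_sum_self, Finsupp.smul_apply, smul_eq_mul, hxi,
      mul_one] at h2
    exact ⟨_, h2⟩
  · intro ℓ hℓ hℓN hℓS
    exact Fermat.Agent.S29.EigB.baseChange_sum_tmul (k := 𝒪) (AddMonoidHom.id (Lpar N)) b x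
      (heckeLpar N ℓ hℓ hℓN) (heckeLpar N ℓ hℓ hℓN) (fun u => rfl)
      (Matrix.of fun i j => b.repr (heckeLpar N ℓ hℓ hℓN (b i)) j)
      (fun i => (b.sum_repr _).symm)
      ((iota.comp chig.rangeRestrict) (CuspForm.heckeAlgebra.T hℓ hℓN hℓS))
      (fun j => by
        rw [← hx ℓ hℓ hℓN hℓS j]
        refine Finset.sum_congr rfl fun i _ => ?_
        rw [mul_comm]
        rfl)
  · intro M' q h hq hqM
    obtain ⟨h1, h2⟩ := hxR M' q h hq hqM
    exact sum_tmul_map_mem_span_tr h (fun n => b n) x h1 h2 (AddMonoidHom.id (Lpar N))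

end All

end Fermat.Agent.S35.NewVecB
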