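/-
S35, block [C2] of record (owner: helper97) — `NewPlan.NewVecStatement` from block [C1].

`newVecStatement_of_newPer` : the statement of [C1] (the two transfers of the period class of a
normalized eigenform of level `M * q` which is new at `q` vanish; `S35/NewPer.lean`, helper27)
implies `NewPlan.NewVecStatement` (helper39's interface): ONE primitive eigen-coordinate vector
whose tensor lies in the `𝒪`-span of the NEW classes (new for every factorisation `N = M * q`).

Everything is in `S35/NewVecB.lean` (`exists_newCoord_all`, `sum_tmul_mem_span`); here only the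
repackaging of the constraint family into `NewPlan.IsNewAt`.
-/
import Mathlib
import Fermat.Agent.S35.NewVecB
import Fermat.Agent.S35.NewPlan

set_option autoImplicit false

open CongruenceSubgroup ModularCurve ModularCurve.Period
open scoped MatrixGroups TensorProduct

namespace Fermat.Agent.S35.NewVecTop

open Fermat.Agent.S41 (Lpar tr₁ tr₂)
open Fermat.Agent.S29 (heckeLpar)
open Fermat.Agent.S35.NewVecB
open Fermat.Agent.S35.NewPlan (castLevel IsNewAt NewVecStatement)

/-- The two transports along an equality of levels agree. -/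
theorem coe_castLevel {N N' : ℕ} (h : N = N') (c : Lpar N) :
    ((castLevel h c : Lpar N') : Additive (Gamma0 N') →+ ℤ) = castHom h c.1 := by
  subst h
  rfl

/-- **[C2] of record, from [C1].** -/
theorem newVecStatement_of_newPer
    (hC1 : ∀ (M q : ℕ) [NeZero M] [Fact q.Prime] (_ : ¬ q ∣ M) [NeZero (M * q)]
      (g : CuspForm (Gamma0 (M * q)) 2), g.IsNormalizedEigenform →
      ¬ g.GoodEigensystemOccursAt M →
      tr₁ M q (periodHomPair (M * q) (g, 0)) = 0 ∧ tr₂ M q (periodHomPair (M * q) (g, 0)) = 0) :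
    NewVecStatement := by
  intro N _ g hg S chig hchig 𝒪 _ _ _ _ iota r b
  classical
  have hfin : Module.Finite ℤ (Lpar N) := Fermat.Agent.S41.LparFree.lpar_finite N
  have hfree : Module.Free ℤ (Lpar N) := Fermat.Agent.S41.LparFree.lpar_free N
  obtain ⟨x, hx1, hx, hxR⟩ := exists_newCoord_all N S g hg hC1 chig hchig iota b
  refine ⟨x, hx1, hx, ?_⟩
  -- the family of all the constraints
  let J : Type := Σ p : {p : ℕ × ℕ // N = p.1 * p.2 ∧ p.2.Prime ∧ ¬ p.2 ∣ p.1},
    (Gamma0 p.1.1 ⊕ Gamma0 p.1.1)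
  let lamL : J → (Lpar N →+ ℤ) := fun κ =>
    (trLam κ.1.1.1 κ.1.1.2 κ.2).comp ((castHom κ.1.2.1).comp (Lpar N).subtype.toAddMonoidHom)
  have hxL : ∀ κ : J, ∑ n, x n * ((lamL κ (b n) : ℤ) : 𝒪) = 0 := by
    rintro ⟨⟨⟨M', q⟩, h, hq, hqM⟩, (γ | γ)⟩
    · exact (hxR M' q h hq hqM).1 γ
    · exact (hxR M' q h hq hqM).2 γ
  have h1 := sum_tmul_mem_span (fun n => b n) lamL x hxL
  refine Submodule.span_mono ?_ h1
  rintro _ ⟨c, hc, rfl⟩
  refine ⟨c, ?_, rfl⟩
  intro M q h hq hqM
  rw [coe_castLevel]
  exact (trLam_eq_zero_iff M q (castHom h c.1)).mp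
    (fun κ => hc ⟨⟨(M, q), h, hq, hqM⟩, κ⟩)

end Fermat.Agent.S35.NewVecTop
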