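/-
S35, block [B] (B-copy; helper68) + the FINAL GLUE in hypothesis form.

* `nonempty_levelQ_of_vector` — the `S30` level datum attached to an eigenvector
  `v ∈ 𝒪 ⊗ J₀(N)[pⁿ]` (as `S30/LevelGlue.nonempty_level_of_vector`), together with
  `PseudoQ.FrobQ` at every special prime `q`, provided that for every Frobenius element `σ` at `q`
  the vector `v` lies in the `𝒪`-span of the pure tensors `1 ⊗ k` with
  `(σ² − q²)(σ² − 1)² k = 0` (`NewPlan.frobPoly`).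
* `exists_vectorQ` — the vector `v = ∑ x_i ⊗ θ (b_i)` for the NEW primitive eigen-coordinates `x`
  of `NewPlan.NewVecStatement` and a Kummer map `θ`; it lies in the `𝒪`-span of the `1 ⊗ θ c`,
  `c` new.
* `levelQStatement_of_blocks` — **`DetQ.LevelQStatement`** (the single input of the top
  `DetQ.result_of_levelQ`) from the three blocks
  `[C] = NewPlan.NewVecStatement`, `[D] = NewPlan.KTrStatement`, `[E] = NewPlan.FrobNewStatement`
  and the graph-keeping `θ` of `KGraph.kGraphStatement` (all special primes at once: the level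
  `N` is written `M' * q` inside the proof of `FrobQ` only).
-/
import Mathlib
import Fermat.Agent.S29.Defs
import Fermat.Agent.S29.ESGH
import Fermat.Agent.S29.SpecCoreS37
import Fermat.Agent.S30.LimLevel
import Fermat.Agent.S30.ModOrbitR
import Fermat.Agent.S30.Defs
import Fermat.Agent.S30.EigLevel
import Fermat.Agent.S30.LevelGlue
import Fermat.Agent.S35.PseudoQ
import Fermat.Agent.S35.DetQ
import Fermat.Agent.S35.NewPlan
import Fermat.Agent.S35.KGraph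
import Fermat.Agent.S35.NewVecTop
import Fermat.Agent.S35.NewPer
import Fermat.Agent.S30.OddRepB
import Fermat.Agent.S29.FD

set_option autoImplicit false

noncomputable section

open ModularCurve AlgebraicCurve CongruenceSubgroup
open scoped TensorProduct

namespace Fermat.Agent.S35.LevelQB

open Fermat.Agent.S29 (Qb GQ Jp galJp heckeJp mem_Jp_iff heckeLpar)
open Fermat.Agent.S30
open Fermat.Agent.S41 (Lpar)

/-! ### Two abstract lemmas -/

/-- Transport of the relation `(s² − c)(s² − 1)² w = 0` along an injective intertwiner. -/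
theorem frobQ_of_intertwine {𝒪 V T : Type*} [CommRing 𝒪] [AddCommGroup V] [Module 𝒪 V]
    [AddCommGroup T] [Module 𝒪 T] (ι : V →ₗ[𝒪] T) (hι : Function.Injective ι)
    (s : Module.End 𝒪 V) (B : T →ₗ[𝒪] T) (hs : ∀ x, ι (s x) = B (ι x)) (c : 𝒪) (w : V)
    (hw : B (B (B (B (B (B (ι w)) - ι w)) - (B (B (ι w)) - ι w)))
      - c • (B (B (B (B (ι w)) - ι w)) - (B (B (ι w)) - ι w)) = 0) :
    (s * s - c • (1 : Module.End 𝒪 V)) ((s * s - 1) ((s * s - 1) ((1 : 𝒪) • w))) = 0 := by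
  apply hι
  have h1 : ∀ x : V, ι ((s * s - 1) x) = B (B (ι x)) - ι x := by
    intro x
    rw [LinearMap.sub_apply, Module.End.mul_apply, Module.End.one_apply, map_sub, hs, hs]
  have hc : ∀ x : V, ι ((s * s - c • (1 : Module.End 𝒪 V)) x) = B (B (ι x)) - c • ι x := by
    intro x
    rw [LinearMap.sub_apply, Module.End.mul_apply, LinearMap.smul_apply, Module.End.one_apply,
      map_sub, hs, hs, map_smul]
  rw [hc, h1, h1, one_smul, map_zero]
  exact hw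

/-- The polynomial `(a² − Q)(a² − 1)²` in the base change `B = 1 ⊗ a` of an additive
endomorphism `a` kills the `𝒪`-span of the pure tensors `1 ⊗ k` with `(a² − Q)(a² − 1)² k = 0`. -/
theorem poly_baseChange_eq_zero {𝒪 : Type*} [CommRing 𝒪] {M : Type*} [AddCommGroup M]
    (a : M →+ M) (Q : ℕ) (v : 𝒪 ⊗[ℤ] M)
    (hv : v ∈ Submodule.span 𝒪 {z : 𝒪 ⊗[ℤ] M | ∃ k : M,
      a (a (a (a (a (a k) - k)) - (a (a k) - k)))
        - Q • (a (a (a (a k) - k)) - (a (a k) - k)) = 0 ∧ z = (1 : 𝒪) ⊗ₜ[ℤ] k}) :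
    LinearMap.baseChange 𝒪 a.toIntLinearMap (LinearMap.baseChange 𝒪 a.toIntLinearMap
        (LinearMap.baseChange 𝒪 a.toIntLinearMap (LinearMap.baseChange 𝒪 a.toIntLinearMap
          (LinearMap.baseChange 𝒪 a.toIntLinearMap (LinearMap.baseChange 𝒪 a.toIntLinearMap v)
            - v))
          - (LinearMap.baseChange 𝒪 a.toIntLinearMap
              (LinearMap.baseChange 𝒪 a.toIntLinearMap v) - v)))
      - (Q : 𝒪) • (LinearMap.baseChange 𝒪 a.toIntLinearMap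
          (LinearMap.baseChange 𝒪 a.toIntLinearMap
            (LinearMap.baseChange 𝒪 a.toIntLinearMap
              (LinearMap.baseChange 𝒪 a.toIntLinearMap v) - v))
          - (LinearMap.baseChange 𝒪 a.toIntLinearMap
              (LinearMap.baseChange 𝒪 a.toIntLinearMap v) - v)) = 0 := by
  obtain ⟨B, hB⟩ : ∃ B : 𝒪 ⊗[ℤ] M →ₗ[𝒪] 𝒪 ⊗[ℤ] M, B = LinearMap.baseChange 𝒪 a.toIntLinearMap :=
    ⟨_, rfl⟩
  rw [← hB]
  have hBt : ∀ m : M, B ((1 : 𝒪) ⊗ₜ[ℤ] m) = (1 : 𝒪) ⊗ₜ[ℤ] (a m) := by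
    intro m
    rw [hB, LinearMap.baseChange_tmul]
    rfl
  have hQ : ∀ m : M, (Q : 𝒪) • ((1 : 𝒪) ⊗ₜ[ℤ] m) = (1 : 𝒪) ⊗ₜ[ℤ] (Q • m) := by
    intro m
    rw [TensorProduct.tmul_smul, Nat.cast_smul_eq_nsmul]
  obtain ⟨Pq, hPq⟩ : ∃ Pq : 𝒪 ⊗[ℤ] M →ₗ[𝒪] 𝒪 ⊗[ℤ] M, Pq =
      (B ∘ₗ B - (Q : 𝒪) • LinearMap.id) ∘ₗ (B ∘ₗ B - LinearMap.id) ∘ₗ
        (B ∘ₗ B - LinearMap.id) := ⟨_, rfl⟩
  have hgoal : B (B (B (B (B (B v) - v)) - (B (B v) - v)))
      - (Q : 𝒪) • (B (B (B (B v) - v)) - (B (B v) - v)) = Pq v := by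
    rw [hPq]
    simp only [LinearMap.comp_apply, LinearMap.sub_apply, LinearMap.smul_apply,
      LinearMap.id_apply, map_sub, smul_sub]
    abel
  rw [hgoal]
  have hle : Submodule.span 𝒪 {z : 𝒪 ⊗[ℤ] M | ∃ k : M,
      a (a (a (a (a (a k) - k)) - (a (a k) - k)))
        - Q • (a (a (a (a k) - k)) - (a (a k) - k)) = 0 ∧ z = (1 : 𝒪) ⊗ₜ[ℤ] k}
      ≤ LinearMap.ker Pq := by
    rw [Submodule.span_le]
    rintro _ ⟨k, hk, rfl⟩
    rw [SetLike.mem_coe, LinearMap.mem_ker, hPq]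
    simp only [LinearMap.comp_apply, LinearMap.sub_apply, LinearMap.smul_apply,
      LinearMap.id_apply, hBt, hQ, ← TensorProduct.tmul_sub]
    rw [hk, TensorProduct.tmul_zero]
  exact LinearMap.mem_ker.mp (hle hv)

/-! ### The orbit module with the polynomial relation -/

/-- **The orbit module of `S30/ModOrbitR`, with the relation `(σ² − Q)(σ² − 1)² w = 0`** whenever
the generating vector `v` is an `R`-combination of pure tensors `1 ⊗ k`, `k ∈ K`, with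
`(σ² − Q)(σ² − 1)² k = 0`. -/
theorem exists_orbit_module_poly {M : Type} [AddCommGroup M]
    (act : (AlgebraicClosure ℚ ≃ₐ[ℚ] AlgebraicClosure ℚ) →* AddMonoid.End M)
    (hFL : ∀ m : M, ∃ L : IntermediateField ℚ (AlgebraicClosure ℚ), FiniteDimensional ℚ L ∧
      ∀ σ : AlgebraicClosure ℚ ≃ₐ[ℚ] AlgebraicClosure ℚ, (∀ z ∈ L, σ z = z) → act σ m = m)
    {R : Type} [CommRing R] {I : Type*} (TM : I → (M →+ M)) (lam : I → R)
    (hGH : ∀ (i : I) (σ : AlgebraicClosure ℚ ≃ₐ[ℚ] AlgebraicClosure ℚ) (m : M),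
      act σ (TM i m) = TM i (act σ m))
    (v : R ⊗[ℤ] M)
    (hv : ∀ i, LinearMap.baseChange R (TM i).toIntLinearMap v = lam i • v) :
    ∃ (V : Type) (_ : AddCommGroup V) (_ : Module R V)
      (r : (AlgebraicClosure ℚ ≃ₐ[ℚ] AlgebraicClosure ℚ) →* Module.End R V) (w : V),
      (∀ a : R, a • w = 0 ↔ a • v = 0) ∧
      (∀ c : ℤ, (∀ m : M, c • m = 0) → ∀ x : V, (c : R) • x = 0) ∧
      GaloisFactorsThroughFiniteLevel r ∧
      (∀ σ : AlgebraicClosure ℚ ≃ₐ[ℚ] AlgebraicClosure ℚ, (∀ m : M, act σ m = m) → r σ = 1) ∧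
      (∀ (σ : AlgebraicClosure ℚ ≃ₐ[ℚ] AlgebraicClosure ℚ) (i : I) (c : ℤ),
        (∀ m : M, act σ (act σ m) - TM i (act σ m) + c • m = 0) →
          r σ * r σ - lam i • r σ + (c : R) • (1 : Module.End R V) = 0) ∧
      (∀ (σ : AlgebraicClosure ℚ ≃ₐ[ℚ] AlgebraicClosure ℚ) (Q : ℕ) (K : Set M),
        (∀ k ∈ K, act σ (act σ (act σ (act σ (act σ (act σ k) - k)) - (act σ (act σ k) - k)))
            - Q • (act σ (act σ (act σ (act σ k) - k)) - (act σ (act σ k) - k)) = 0) →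
        v ∈ Submodule.span R ((fun k : M => (1 : R) ⊗ₜ[ℤ] k) '' K) →
        (r σ * r σ - (Q : R) • (1 : Module.End R V))
          ((r σ * r σ - 1) ((r σ * r σ - 1) ((1 : R) • w))) = 0) := by
  obtain ⟨V, i1, i2, -, r, w, ι, hι, hιw, hιr, -, hfin, htriv, hquad⟩ :=
    ModOrbitR.exists_orbit_module act hFL TM lam hGH v hv
  refine ⟨V, i1, i2, r, w, fun a => ?_, fun c hc x => ?_, hfin, htriv, hquad, ?_⟩
  · rw [← hιw, ← map_smul]
    exact ⟨fun h => by rw [h, map_zero], fun h => hι (by rw [h, map_zero])⟩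
  · apply hι
    rw [map_smul, map_zero]
    exact ModOrbitR.intCast_smul_eq_zero R c hc (ι x)
  · intro σ Q K hK hvK
    refine frobQ_of_intertwine ι hι (r σ) (LinearMap.baseChange R (act σ).toIntLinearMap)
      (hιr σ) (Q : R) w ?_
    rw [hιw]
    refine poly_baseChange_eq_zero (act σ) Q v ?_
    refine Submodule.span_mono ?_ hvK
    rintro _ ⟨k, hk, rfl⟩
    exact ⟨k, hK k hk, rfl⟩

/-! ### The level with `FrobQ` from a vector -/

/-- **[B]**: the level-`n` datum from an eigenvector `v ∈ 𝒪 ⊗ J₀(N)[pⁿ]`, with `FrobQ` (constant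
`1`) at every prime `q` such that, for every Frobenius element `σ` at `q`, `v` is an
`𝒪`-combination of pure tensors `1 ⊗ k` with `(σ² − q²)(σ² − 1)² k = 0`. -/
theorem nonempty_levelQ_of_vector (N p : ℕ) [NeZero N] (hp : p.Prime) (S : Set ℕ) (hpS : p ∈ S)
    {𝒪 : Type} [CommRing 𝒪] (χ : CuspForm.heckeAlgebra N 2 S →+* 𝒪) (n : ℕ)
    (v : 𝒪 ⊗[ℤ] (Jp N (p ^ n)))
    (hann : ∀ a : 𝒪, a • v = 0 → (p : 𝒪) ^ n ∣ a)
    (hv : ∀ (ℓ : ℕ) (hℓ : ℓ.Prime) (hℓN : ¬ ℓ ∣ N) (hℓS : ℓ ∉ S),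
      (heckeJp N (p ^ n) ⟨ℓ, hℓ⟩).baseChange 𝒪 v = χ (CuspForm.heckeAlgebra.T hℓ hℓN hℓS) • v)
    (spec : ℕ → Prop)
    (hspec : ∀ q : ℕ, spec q → ∀ A : ValuationSubring Qb, A.LiesOverPrime q → ∀ σ : GQ,
      A.IsFrobeniusAt σ q →
      v ∈ Submodule.span 𝒪 {z : 𝒪 ⊗[ℤ] (Jp N (p ^ n)) | ∃ k : Jp N (p ^ n),
        NewPlan.frobPoly q σ (k : JZero N) = 0 ∧ z = (1 : 𝒪) ⊗ₜ[ℤ] k}) :
    ∃ Lv : LimLevel.Level 𝒪 p n (LimLevel.goodPrime N S) (LimLevel.heckeEig N S χ)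
      (LimLevel.unrPrime N p), ∀ q : ℕ, spec q → PseudoQ.FrobQ Lv q 1 := by
  classical
  have hIn := Fermat.Agent.S29.inertiaStatement_of_specCore N (p ^ n)
    (Fermat.Agent.S29.specCoreStatement N (p ^ n))
  have hES := Fermat.Agent.S29.esStatement_of_specCore N (p ^ n)
    (Fermat.Agent.S29.specCoreStatement N (p ^ n))
  have hGH := Fermat.Agent.S29.ghStatement N (p ^ n)
  have hFL := Fermat.Agent.S29.flStatement N (p ^ n) (pow_ne_zero n hp.ne_zero)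
  -- the action by additive maps
  let act : GQ →* AddMonoid.End (Jp N (p ^ n)) :=
    { toFun := fun σ => (galJp N (p ^ n) σ).toAddMonoidHom
      map_one' := by rw [map_one]; rfl
      map_mul' := fun σ τ => by rw [map_mul]; rfl }
  have hact : ∀ (σ : GQ) (m : Jp N (p ^ n)),
      ((act σ m : Jp N (p ^ n)) : JZero N) = σ • (m : JZero N) := fun _ _ => rfl
  have hm : ∀ m : Jp N (p ^ n), p ^ n • (m : JZero N) = 0 :=
    fun m => (mem_Jp_iff N (p ^ n) _).mp m.2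
  -- index set: the good primes
  let I : Type := {ℓ : ℕ // LimLevel.goodPrime N S ℓ}
  have hIp : ∀ i : I, i.1 ≠ p := fun i h => i.2.2.2 (h ▸ hpS)
  have hIdvd : ∀ i : I, ¬ i.1 ∣ N * p ^ n := fun i =>
    LevelGlue.not_dvd_mul_pow hp i.2.1 i.2.2.1 (hIp i) n
  let TM : I → (Jp N (p ^ n) →+ Jp N (p ^ n)) :=
    fun i => (heckeJp N (p ^ n) ⟨i.1, i.2.1⟩).toAddMonoidHom
  have hTM : ∀ (i : I) (m : Jp N (p ^ n)),
      ((TM i m : Jp N (p ^ n)) : JZero N) = heckeOperatorBar N ⟨i.1, i.2.1⟩ (m : JZero N) :=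
    fun _ _ => rfl
  have Horb :=
    exists_orbit_module_poly act
      (fun m => by
        obtain ⟨L, hL, hfix⟩ := hFL (m : JZero N) (hm m)
        exact ⟨L, hL, fun σ hσ => Subtype.ext (hfix σ hσ)⟩)
      TM (fun i : I => χ (CuspForm.heckeAlgebra.T i.2.1 i.2.2.1 i.2.2.2))
      (fun i σ m => Subtype.ext (by
        rw [hact, hTM, hTM, hact]
        exact (hGH i.1 i.2.1 (hIdvd i) σ (m : JZero N) (hm m)).symm))
      v
      (fun i => by
        have e : (TM i).toIntLinearMap = heckeJp N (p ^ n) ⟨i.1, i.2.1⟩ :=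
          LinearMap.ext fun _ => rfl
        rw [e]
        exact hv i.1 i.2.1 i.2.2.1 i.2.2.2)
  obtain ⟨V, i1, i2, r, w, hw, htors, hfin, htriv, hquad, hpoly⟩ := Horb
  have hkill : ∀ m : Jp N (p ^ n), ((p : ℤ) ^ n) • m = 0 := fun m => Subtype.ext (by
    have h1 := hm m
    rw [Submodule.coe_smul, ZeroMemClass.coe_zero]
    rw [← h1]
    norm_cast)
  refine ⟨{ V := V, r := r, w := w, tors := ?_, ann := ?_, level := hfin, frob := ?_,
            inert := ?_ }, ?_⟩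
  · intro x
    have h := htors ((p : ℤ) ^ n) hkill x
    rw [← h]
    norm_cast
  · intro c hc
    exact hann c ((hw c).mp hc)
  · intro ℓ hℓg A hA σ hσ
    let i : I := ⟨ℓ, hℓg⟩
    have h := hquad σ i (ℓ : ℤ) (fun m => Subtype.ext (by
      have h1 := hES ℓ hℓg.1 (hIdvd i) A hA σ hσ (m : JZero N) (hm m)
      rw [Submodule.coe_add, Submodule.coe_sub, Submodule.coe_smul, hact, hact, hTM, hact,
        natCast_zsmul]
      exact h1))
    rw [Int.cast_natCast] at h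
    rw [LimLevel.heckeEig_eq N S χ hℓg.1 hℓg.2.1 hℓg.2.2]
    exact h
  · intro q hq P hP τ hτ
    refine htriv τ (fun m => Subtype.ext ?_)
    rw [hact]
    exact hIn q hq.1 (LevelGlue.not_dvd_mul_pow hp hq.1 hq.2.1 hq.2.2 n) P hP τ hτ
      (m : JZero N) (hm m)
  · -- `FrobQ`
    intro q hq A hA σ hσ
    have h := hpoly σ (q ^ 2) {k : Jp N (p ^ n) | NewPlan.frobPoly q σ (k : JZero N) = 0}
      (fun k hk => Subtype.ext (by
        have hk' : NewPlan.frobPoly q σ (k : JZero N) = 0 := hk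
        unfold NewPlan.frobPoly at hk'
        simp only [Submodule.coe_sub, AddSubmonoidClass.coe_nsmul, hact, ZeroMemClass.coe_zero]
        exact hk'))
      (by
        refine Submodule.span_mono ?_ (hspec q hq A hA σ hσ)
        rintro _ ⟨k, hk, rfl⟩
        exact ⟨k, hk, rfl⟩)
    rw [Nat.cast_pow] at h
    exact h

/-! ### The new eigenvector at level `pⁿ` -/

/-- **The new eigenvector at level `pⁿ`**: `v = ∑ x_i ⊗ θ (b_i)` for the new primitive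
eigen-coordinates `x` of `NewPlan.NewVecStatement`; it lies in the `𝒪`-span of the pure tensors
`1 ⊗ θ c` with `c` new. -/
theorem exists_vectorQ (hNew : NewPlan.NewVecStatement) (N p : ℕ) [NeZero N]
    {g : CuspForm (Gamma0 N) 2} (hg : g.IsNewform) (S : Set ℕ) (hpS : p ∈ S)
    (chig : CuspForm.heckeAlgebra N 2 S →+* ℂ)
    (hchig : ∀ (ℓ : ℕ) (hℓ : ℓ.Prime) (hℓN : ¬ ℓ ∣ N) (hℓS : ℓ ∉ S),
      chig (CuspForm.heckeAlgebra.T hℓ hℓN hℓS) = ModularFormClass.qCoeff g ℓ)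
    (𝒪 : Type) [CommRing 𝒪] [IsDomain 𝒪] [ValuationRing 𝒪] [CharZero 𝒪]
    (iota : chig.range →+* 𝒪) (n : ℕ)
    (θ : Lpar N →+ JZero N) (hθ1 : ∀ u : Lpar N, p ^ n • θ u = 0)
    (hθ2 : ∀ u : Lpar N, θ u = 0 → ∃ z : Lpar N, u = ((p ^ n : ℕ) : ℤ) • z)
    (hθ3 : ∀ (ℓ : ℕ) (hℓ : ℓ.Prime) (hℓN : ¬ ℓ ∣ N), ℓ ≠ p → ∀ u : Lpar N,
      θ (heckeLpar N ℓ hℓ hℓN u) = heckeOperatorBar N ⟨ℓ, hℓ⟩ (θ u)) :
    ∃ v : 𝒪 ⊗[ℤ] (Jp N (p ^ n)), (∀ a : 𝒪, a • v = 0 → (p : 𝒪) ^ n ∣ a) ∧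
      (∀ (ℓ : ℕ) (hℓ : ℓ.Prime) (hℓN : ¬ ℓ ∣ N) (hℓS : ℓ ∉ S),
        (heckeJp N (p ^ n) ⟨ℓ, hℓ⟩).baseChange 𝒪 v
          = (iota.comp chig.rangeRestrict) (CuspForm.heckeAlgebra.T hℓ hℓN hℓS) • v) ∧
      v ∈ Submodule.span 𝒪 {z : 𝒪 ⊗[ℤ] (Jp N (p ^ n)) | ∃ (c : Lpar N) (k : Jp N (p ^ n)),
        NewPlan.IsNewAt N c ∧ (k : JZero N) = θ c ∧ z = (1 : 𝒪) ⊗ₜ[ℤ] k} := by
  classical
  have hfin : Module.Finite ℤ (Lpar N) := Fermat.Agent.S41.LparFree.lpar_finite N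
  have hfree : Module.Free ℤ (Lpar N) := Fermat.Agent.S41.LparFree.lpar_free N
  set b := Module.finBasis ℤ (Lpar N) with hb
  obtain ⟨x, hx1, hx, hxnew⟩ := hNew N g hg S chig hchig 𝒪 iota b
  -- corestriction of `θ` to the `pⁿ`-torsion
  let θ' : Lpar N →+ Jp N (p ^ n) :=
    { toFun := fun u => ⟨θ u, (mem_Jp_iff N (p ^ n) (θ u)).mpr (hθ1 u)⟩
      map_zero' := Subtype.ext (map_zero θ)
      map_add' := fun u v => Subtype.ext (map_add θ u v) }
  have hker : ∀ u, θ'.toIntLinearMap u = 0 → ∃ z, u = ((p ^ n : ℕ) : ℤ) • z := by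
    intro u hu
    apply hθ2 u
    have h : ((θ' u : Jp N (p ^ n)) : JZero N) = 0 := congrArg Subtype.val hu
    exact h
  have hheck : ∀ (ℓ : ℕ) (hℓ : ℓ.Prime) (hℓN : ¬ ℓ ∣ N), ℓ ≠ p → ∀ u,
      heckeJp N (p ^ n) ⟨ℓ, hℓ⟩ (θ' u) = θ' (heckeLpar N ℓ hℓ hℓN u) := by
    intro ℓ hℓ hℓN hℓp u
    apply Subtype.ext
    change heckeOperatorBar N ⟨ℓ, hℓ⟩ (θ u) = θ (heckeLpar N ℓ hℓ hℓN u)
    exact (hθ3 ℓ hℓ hℓN hℓp u).symm
  refine ⟨∑ i, x i ⊗ₜ[ℤ] θ' (b i), ?_, ?_, ?_⟩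
  · intro a ha
    have h := EigLevel.dvd_of_smul_sum_tmul_eq_zero b θ'.toIntLinearMap (p ^ n) hker x hx1 a ha
    rwa [Nat.cast_pow] at h
  · intro ℓ hℓ hℓN hℓS
    have hℓp : ℓ ≠ p := fun h => hℓS (h ▸ hpS)
    rw [map_sum]
    simp_rw [LinearMap.baseChange_tmul, hheck ℓ hℓ hℓN hℓp]
    exact EigLevel.sum_tmul_map_eq_smul b (heckeLpar N ℓ hℓ hℓN)
      θ'.toIntLinearMap x _ (fun k => hx ℓ hℓ hℓN hℓS k)
  · have hmap : (∑ i, x i ⊗ₜ[ℤ] θ' (b i) : 𝒪 ⊗[ℤ] (Jp N (p ^ n)))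
        = LinearMap.baseChange 𝒪 θ'.toIntLinearMap (∑ i, x i ⊗ₜ[ℤ] b i) := by
      rw [map_sum]
      refine Finset.sum_congr rfl fun i _ => ?_
      rw [LinearMap.baseChange_tmul]
      rfl
    rw [hmap]
    have h1 := Submodule.mem_map_of_mem (f := LinearMap.baseChange 𝒪 θ'.toIntLinearMap) hxnew
    rw [Submodule.map_span] at h1
    refine Submodule.span_mono ?_ h1
    rintro _ ⟨_, ⟨c, hc, rfl⟩, rfl⟩
    refine ⟨c, θ' c, hc, rfl, ?_⟩
    rw [LinearMap.baseChange_tmul]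
    rfl

/-! ### The final glue -/

/-- **[B] + [C] + [D] + [E] ⇒ `DetQ.LevelQStatement`.**  For a newform `g` of level `N` with
eigencharacter `chig` and `iota : chig.range → 𝒪`: from the new eigenvector
(`NewPlan.NewVecStatement`), the norms of the Kummer generators of new classes
(`NewPlan.KTrStatement`, at every level `M * q` and every torsion order) and the Frobenius
relation on such classes (`NewPlan.FrobNewStatement`), together with the graph-keeping Kummer map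
of `KGraph.kGraphStatement`, there is a level at every `n` satisfying `FrobQ` (constant `1`) at
every special prime `q ∥ N`, `q ≠ p`. -/
theorem levelQStatement_of_blocks (hNew : NewPlan.NewVecStatement)
    (hK : ∀ (M q m : ℕ) [NeZero M] [NeZero q], q.Prime → ¬ q ∣ M → m ≠ 0 →
      NewPlan.KTrStatement M q m)
    (hE : NewPlan.FrobNewStatement)
    {N : ℕ} [NeZero N] {g : CuspForm (Gamma0 N) 2} (hg : g.IsNewform)
    (p : ℕ) (hp : p.Prime) (S : Finset ℕ) (hpS : p ∈ S)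
    (𝒪 : Type) [CommRing 𝒪] [IsDomain 𝒪] [ValuationRing 𝒪] [CharZero 𝒪]
    (chig : CuspForm.heckeAlgebra N 2 (↑S : Set ℕ) →+* ℂ)
    (hchig : ∀ (ℓ : ℕ) (hℓ : ℓ.Prime) (hℓN : ¬ ℓ ∣ N) (hℓS : ℓ ∉ (↑S : Set ℕ)),
      chig (CuspForm.heckeAlgebra.T hℓ hℓN hℓS) = ModularFormClass.qCoeff g ℓ)
    (iota : chig.range →+* 𝒪) :
    DetQ.LevelQStatement p N S 𝒪 (iota.comp chig.rangeRestrict) := by
  refine ⟨fun _ => 1, fun _ _ => one_ne_zero, fun n => ?_⟩
  have hpn : p ^ n ≠ 0 := pow_ne_zero n hp.ne_zero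
  obtain ⟨θ, h1, h2, h3, h4⟩ := KGraph.kGraphStatement N (p ^ n) hpn
  have h3' : ∀ (ℓ : ℕ) (hℓ : ℓ.Prime) (hℓN : ¬ ℓ ∣ N), ℓ ≠ p → ∀ u : Lpar N,
      θ (heckeLpar N ℓ hℓ hℓN u) = heckeOperatorBar N ⟨ℓ, hℓ⟩ (θ u) := by
    intro ℓ hℓ hℓN hℓp u
    refine h3 ℓ hℓ hℓN ?_ u
    intro h
    rcases Nat.lt_trichotomy n 1 with hn | hn | hn
    · have hn0 : n = 0 := by omega
      rw [hn0, pow_zero] at h
      exact hℓ.one_lt.ne' h
    · rw [hn, pow_one] at h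
      exact hℓp h
    · rw [h] at hℓ
      exact Nat.Prime.not_prime_pow (by omega) hℓ
  obtain ⟨v, hann, hv, hspan⟩ := exists_vectorQ hNew N p hg (↑S : Set ℕ)
    (Finset.mem_coe.mpr hpS) chig hchig 𝒪 iota n θ h1 h2 h3'
  refine nonempty_levelQ_of_vector N p hp (↑S : Set ℕ) (Finset.mem_coe.mpr hpS)
    (iota.comp chig.rangeRestrict) n v hann hv (DetQ.specPrime N p) ?_
  rintro q ⟨hq, hqp, hqN, hq2⟩ A hA σ hσ
  refine Submodule.span_mono ?_ hspan
  rintro _ ⟨c, k, hc, hk, rfl⟩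
  refine ⟨k, ?_, rfl⟩
  rw [hk]
  -- write `N = M' * q`
  obtain ⟨M', hM'⟩ := hqN
  have hN : N = M' * q := by rw [hM', mul_comm]
  clear hM'
  subst hN
  have : NeZero M' := ⟨fun h0 => NeZero.ne (M' * q) (by rw [h0, zero_mul])⟩
  have : NeZero q := ⟨hq.ne_zero⟩
  have hqM : ¬ q ∣ M' := by
    rintro ⟨d, hd⟩
    exact hq2 ⟨d, by rw [hd]; ring⟩
  obtain ⟨y, f, hy, hf, hf0⟩ := KGraph.exists_wit (M' * q) (p ^ n) hpn c
  obtain ⟨D, hD, hθD⟩ := h4 c y hy f hf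
  exact NewPlan.frob_theta_eq_zero hE hq hqM hp (Ne.symm hqp) (hK M' q (p ^ n) hq hqM hpn)
    ⟨y, f, D, hy, hf, hD, hθD⟩ hc A hA σ hσ

/-! ### The statement S35 from the two open blocks -/

open Polynomial in
/-- **S35 from [D] and [E]** (the frozen conclusion, verbatim): block [C] is closed on main
(`NewVecTop.newVecStatement_of_newPer NewPer.tr_periodHomPair_eq_zero`), block [A] is
`DetQ.result_of_levelQ`, and [B] is `levelQStatement_of_blocks`. -/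
theorem result_of_blocks
    (hK : ∀ (M q m : ℕ) [NeZero M] [NeZero q], q.Prime → ¬ q ∣ M → m ≠ 0 →
      NewPlan.KTrStatement M q m)
    (hE : NewPlan.FrobNewStatement)
    {M : ℕ} [NeZero M] {g : CuspForm (CongruenceSubgroup.Gamma0 M) 2} (hg : g.IsNewform)
    (lam : ℕ) [Fact lam.Prime]
    (S : Finset ℕ)
    (O' : Type) [CommRing O'] [IsDomain O'] [IsDiscreteValuationRing O']
    [IsAdicComplete (IsLocalRing.maximalIdeal O') O'] [Finite (IsLocalRing.ResidueField O')]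
    [CharZero O'] (hlamO' : (lam : O') ∈ IsLocalRing.maximalIdeal O')
    (chig : CuspForm.heckeAlgebra M 2 (↑S : Set ℕ) →+* ℂ)
    (hchig : ∀ (ℓ : ℕ) (hℓ : ℓ.Prime) (hℓM : ¬ ℓ ∣ M) (hℓS : ℓ ∉ (↑S : Set ℕ)),
      chig (CuspForm.heckeAlgebra.T hℓ hℓM hℓS) = ModularFormClass.qCoeff g ℓ)
    (iota : chig.range →+* O')
    (hlamS : lam ∈ S) (hMS : ∀ q : ℕ, q.Prime → q ∣ M → q ∈ S) :
    ∃ (O'' : Type) (_ : CommRing O'') (_ : IsDomain O'') (_ : IsDiscreteValuationRing O'')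
      (_ : IsAdicComplete (IsLocalRing.maximalIdeal O'') O'')
      (_ : Finite (IsLocalRing.ResidueField O''))
      (_ : CharZero O'') (_ : Algebra O' O'') (_ : Module.Finite O' O'')
      (_ : IsLocalHom (algebraMap O' O'')),
      Function.Injective (algebraMap O' O'') ∧
      ∃ ρ : GaloisRepAdic O'',
        (∀ (ℓ : ℕ) (hℓ : ℓ.Prime) (hℓM : ¬ ℓ ∣ M) (hℓS : ℓ ∉ (↑S : Set ℕ)),
          ∀ A : ValuationSubring (AlgebraicClosure ℚ), A.LiesOverPrime ℓ →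
            ∀ σ : AlgebraicClosure ℚ ≃ₐ[ℚ] AlgebraicClosure ℚ, A.IsFrobeniusAt σ ℓ →
              LinearMap.charpoly (ρ.ρ σ) =
                X ^ 2 - C (algebraMap O' O'' ((iota.comp chig.rangeRestrict)
                  (CuspForm.heckeAlgebra.T hℓ hℓM hℓS))) * X + C ((ℓ : O''))) ∧
        (∀ q : ℕ, q.Prime → q ≠ lam → q ∣ M → ¬ q ^ 2 ∣ M →
          ∀ A : ValuationSubring (AlgebraicClosure ℚ), A.LiesOverPrime q →
            ∀ σ : AlgebraicClosure ℚ ≃ₐ[ℚ] AlgebraicClosure ℚ, A.IsFrobeniusAt σ q →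
              LinearMap.charpoly (ρ.ρ σ) = X ^ 2 - C ((q : O'') + 1) * X + C ((q : O'')) ∨
              LinearMap.charpoly (ρ.ρ σ) = X ^ 2 + C ((q : O'') + 1) * X + C ((q : O''))) :=
  DetQ.result_of_levelQ Fermat.Agent.S30.OddRepB.oddRepStatement
    Fermat.Agent.S29.FD.fdStatement lam S O' hlamO' (iota.comp chig.rangeRestrict) hlamS hMS
    (levelQStatement_of_blocks
      (NewVecTop.newVecStatement_of_newPer NewPer.tr_periodHomPair_eq_zero) hK hE hg lam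
      Fact.out S hlamS O' chig hchig iota)

end Fermat.Agent.S35.LevelQB
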