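/-
S35 — bridge [D], leaf [ALQx] (helper115): the analytic Atkin–Lehner transform of a function on
the upper half plane and its `q`-expansion dictionary with the formal involution `WK.wBar`.

Level `M * q`, `q` prime, `q ∤ M`; `γ₀ = !![a, b; M, q] ∈ SL(2, ℤ)` (so `γ₀ ∈ Γ₀(M)` and
`γ₀ · diag(q, 1) = !![a q, b; M q, q]` is an Atkin–Lehner matrix of level `M q`).

* `AW γ₀ q w A`       : `z ↦ (A ∣[w] γ₀) (q z)`;
* `jAtFam_swapDiv`    : `j (swap(e) · z) = j (e · γ₀ (q z))` for every `e ∣ M q`;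
* `AW_mem_niceSub`    : `A ∈ MFchi (M q) w χ`, `χ` trivial on parabolic elements ⇒ `AW γ₀ q w A`
                        is `1`-periodic, holomorphic, bounded at `i∞`;
* `AW_pow`, `AW_ne_zero`;
* `alqx`              : **the dictionary**: if `g ∈ F̄_{Mq}` and `coeffMap embC g · qx B = qx A`
                        then `coeffMap embC (wBar g) · qx (AW B) = qx (AW A)`;
* `alqx_pow`          : the form used for the witnesses of block [K]:
                        `(y · qx B = qx A)`, `coeffMap embC f = y ^ m` ⇒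
                        `coeffMap embC (wBar f) · qx (AW B) ^ m = qx (AW A) ^ m`.
-/
import Mathlib
import Fermat.Agent.S24.AnBridge
import Fermat.Agent.S24.Bridge
import Fermat.Agent.S24.EmbFormal
import Fermat.Agent.S37.W.AL
import Fermat.Agent.S37.W.ALHecke
import Fermat.Agent.S34.WK
import Fermat.Agent.S29.KDefs
import Fermat.Agent.S29.KBasic
import Fermat.Agent.S29.HeckeProd
import Fermat.Agent.S29.HeckeProdQxB

set_option autoImplicit false

noncomputable section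

namespace Fermat.Agent.S35.ALQx

open UpperHalfPlane ModularCurve CongruenceSubgroup
open Fermat.Agent.S24 Fermat.Agent.S23 Fermat.Agent.S29
open scoped MatrixGroups ModularForm Manifold

local notation "Qb" => AlgebraicClosure ℚ

/-! ### The point map `z ↦ γ₀ (q z)` -/

section Point

variable (M q : ℕ) [NeZero M] [NeZero q]

/-- `j (d · γ₀ (q z)) = j (d q z)` and `j (d q · γ₀ (q z)) = j (d z)` for `d ∣ M`. -/
theorem jAt_point (γ₀ : SL(2, ℤ)) (a b : ℤ)
    (h₀ : (γ₀ : Matrix (Fin 2) (Fin 2) ℤ) = !![a, b; (M : ℤ), (q : ℤ)])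
    (d : ℕ) [NeZero d] [NeZero (d * q)] (hd : d ∣ M) (z : ℍ) :
    jAt d (γ₀ • mulN q z) = jAt (d * q) z ∧ jAt (d * q) (γ₀ • mulN q z) = jAt d z := by
  have hdet : a * q - b * M = 1 := by
    have := γ₀.det_coe
    rw [h₀, Matrix.det_fin_two_of] at this
    exact this
  have hdet1 : Matrix.det !![a * q, b; (M : ℤ), 1] = 1 := by
    rw [Matrix.det_fin_two_of]; linarith
  let γ₁ : SL(2, ℤ) := ⟨!![a * q, b; (M : ℤ), 1], hdet1⟩
  have e10 : (γ₀ 1 0 : ℤ) = M := by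
    have := congrFun (congrFun h₀ 1) 0; simpa using this
  have hγ₀ : γ₀ ∈ Gamma0 M := by
    rw [Gamma0_mem, e10]
    simp
  have hγ₁ : γ₁ ∈ Gamma0 M := by
    rw [Gamma0_mem]
    show (((M : ℤ) : ℤ) : ZMod M) = 0
    simp
  constructor
  · rw [S37.W.jAt_smul_of_mem_Gamma0 M d hd hγ₀, jAt_apply, jAt_apply, S37.W.mulN_mulN]
  · rw [jAt_apply, ← S37.W.mulN_mulN d q, S37.W.mulN_smul_mulN_eq M q γ₀ γ₁ a b h₀ rfl z,
      ← jAt_apply, S37.W.jAt_smul_of_mem_Gamma0 M d hd hγ₁]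

/-- The swap of the analytic generators is realised by `z ↦ γ₀ (q z)`. -/
theorem jAtFam_swapDiv (hq : q.Prime) (γ₀ : SL(2, ℤ)) (a b : ℤ)
    (h₀ : (γ₀ : Matrix (Fin 2) (Fin 2) ℤ) = !![a, b; (M : ℤ), (q : ℤ)])
    (e : ↥(M * q).divisors) (z : ℍ) :
    jAtFam (M * q) (S37.W.swapDiv M q hq e) z = jAtFam (M * q) e (γ₀ • mulN q z) := by
  have hdvd : (e : ℕ) ∣ M * q := Nat.dvd_of_mem_divisors e.2
  show jAt ((S37.W.swapDiv M q hq e : ↥(M * q).divisors) : ℕ) z = jAt (e : ℕ) (γ₀ • mulN q z)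
  by_cases h : q ∣ (e : ℕ)
  · have h1 := S37.W.coe_swapDiv_of_dvd M q hq e h
    have hd : (e : ℕ) / q ∣ M := by
      obtain ⟨e', he'⟩ := h
      rw [he', Nat.mul_div_cancel_left _ hq.pos]
      rw [he', mul_comm q e'] at hdvd
      exact Nat.dvd_of_mul_dvd_mul_right hq.pos hdvd
    have : NeZero ((e : ℕ) / q) := ⟨fun h0 => by
      rw [h0] at hd; exact NeZero.ne M (Nat.eq_zero_of_zero_dvd hd)⟩
    have : NeZero ((e : ℕ) / q * q) := ⟨Nat.mul_ne_zero (NeZero.ne _) (NeZero.ne q)⟩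
    have he : (e : ℕ) = (e : ℕ) / q * q := (Nat.div_mul_cancel h).symm
    rw [S37.W.jAt_congr h1, S37.W.jAt_congr he]
    exact ((jAt_point M q γ₀ a b h₀ ((e : ℕ) / q) hd z).2).symm
  · have h1 := S37.W.coe_swapDiv_of_not_dvd M q hq e h
    have hd : (e : ℕ) ∣ M := S37.W.dvd_of_dvd_mul_of_not_dvd M q hq hdvd h
    have : NeZero ((e : ℕ) * q) :=
      ⟨Nat.mul_ne_zero (Nat.pos_of_mem_divisors e.2).ne' (NeZero.ne q)⟩
    rw [S37.W.jAt_congr h1]
    exact ((jAt_point M q γ₀ a b h₀ (e : ℕ) hd z).1).symm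

end Point

/-! ### The transform `AW` -/

section Transform

/-- The analytic Atkin–Lehner transform `z ↦ (A ∣[w] γ) (q z)`. -/
def AW (γ : SL(2, ℤ)) (q : ℕ) [NeZero q] (w : ℤ) (A : ℍ → ℂ) : ℍ → ℂ :=
  fun z => (A ∣[w] γ) (mulN q z)

theorem AW_apply (γ : SL(2, ℤ)) (q : ℕ) [NeZero q] (w : ℤ) (A : ℍ → ℂ) (z : ℍ) :
    AW γ q w A z = A (γ • mulN q z) * denom γ (mulN q z) ^ (-w) := by
  rw [AW, ModularForm.SL_slash_apply]

theorem AW_pow (γ : SL(2, ℤ)) (q : ℕ) [NeZero q] (w : ℤ) (A : ℍ → ℂ) (n : ℕ) :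
    AW γ q (w * n) (A ^ n) = AW γ q w A ^ n := by
  funext z
  rw [Pi.pow_apply, AW_apply, AW_apply, Pi.pow_apply, mul_pow, ← zpow_natCast (_ ^ (-w)) n,
    ← zpow_mul]
  congr 2
  ring

theorem AW_mul (γ : SL(2, ℤ)) (q : ℕ) [NeZero q] (w₁ w₂ : ℤ) (A B : ℍ → ℂ) :
    AW γ q (w₁ + w₂) (A * B) = AW γ q w₁ A * AW γ q w₂ B := by
  funext z
  have hd : denom γ (mulN q z) ≠ 0 := denom_ne_zero _ _
  rw [Pi.mul_apply, AW_apply, AW_apply, AW_apply, Pi.mul_apply, neg_add, zpow_add₀ hd]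
  ring

/-- `z ↦ γ (q z)` is onto: the transform of a nonzero function is nonzero. -/
theorem AW_ne_zero (γ : SL(2, ℤ)) (q : ℕ) [NeZero q] (w : ℤ) {A : ℍ → ℂ} (hA : A ≠ 0) :
    AW γ q w A ≠ 0 := by
  obtain ⟨z₀, hz₀⟩ : ∃ z₀, A z₀ ≠ 0 := by
    by_contra h
    exact hA (funext fun z => by
      by_contra hz
      exact h ⟨z, hz⟩)
  have hq : (0 : ℝ) < q := Nat.cast_pos.mpr (NeZero.pos q)
  obtain ⟨z₁, hz₁⟩ : ∃ z₁ : ℍ, γ • z₁ = z₀ := ⟨γ⁻¹ • z₀, smul_inv_smul γ z₀⟩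
  have him : 0 < ((z₁ : ℂ) / (q : ℂ)).im := by
    have h1 : ((z₁ : ℂ) / (q : ℂ)).im = z₁.im / q := by
      have : ((q : ℂ)) = ((q : ℝ) : ℂ) := by push_cast; rfl
      rw [this, Complex.div_ofReal_im]
      rfl
    rw [h1]
    exact div_pos z₁.im_pos hq
  have h2 : mulN q ⟨(z₁ : ℂ) / (q : ℂ), him⟩ = z₁ := by
    apply UpperHalfPlane.ext
    rw [coe_mulN]
    show (q : ℂ) * ((z₁ : ℂ) / (q : ℂ)) = z₁
    have hq0 : (q : ℂ) ≠ 0 := Nat.cast_ne_zero.mpr (NeZero.ne q)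
    field_simp
  intro h0
  have h3 := congrFun h0 ⟨(z₁ : ℂ) / (q : ℂ), him⟩
  rw [AW_apply, h2, hz₁] at h3
  have hd : denom γ z₁ ^ (-w) ≠ 0 := zpow_ne_zero _ (denom_ne_zero _ _)
  exact (mul_ne_zero hz₀ hd) h3

end Transform

/-! ### Niceness of the transform of a multiplier form -/

section Nice

variable (M q : ℕ) [NeZero M] [NeZero q]

/-- The translation `z ↦ z + q` as an element of `SL(2, ℤ)`. -/
def Tq : SL(2, ℤ) := ⟨!![1, (q : ℤ); 0, 1], by rw [Matrix.det_fin_two_of]; ring⟩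

omit [NeZero q] in
theorem Tq_smul (z : ℍ) : Tq q • z = ((q : ℝ)) +ᵥ z := by
  apply UpperHalfPlane.ext
  rw [UpperHalfPlane.coe_specialLinearGroup_apply, UpperHalfPlane.coe_vadd]
  simp [Tq, add_comm]

omit [NeZero q] in
theorem denom_Tq (z : ℍ) : denom (Tq q) z = 1 := by
  rw [ModularGroup.denom_apply]
  simp [Tq]

/-- The parabolic element `δ = γ₀ T^q γ₀⁻¹ = !![1 - a M q, a² q; -M² q, 1 + a M q]`. -/
def delta (a : ℤ) : SL(2, ℤ) :=
  ⟨!![1 - a * M * q, a * a * q; -((M : ℤ) * M * q), 1 + a * M * q], by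
    rw [Matrix.det_fin_two_of]; ring⟩

omit [NeZero M] [NeZero q] in
theorem delta_mem (a : ℤ) : delta M q a ∈ Gamma0 (M * q) := by
  rw [Fermat.Agent.S16.mem_Gamma0_iff_dvd]
  show ((M * q : ℕ) : ℤ) ∣ -((M : ℤ) * M * q)
  exact ⟨-(M : ℤ), by push_cast; ring⟩

omit [NeZero M] [NeZero q] in
theorem delta_trace (a : ℤ) :
    ((delta M q a : SL(2, ℤ)) : Matrix (Fin 2) (Fin 2) ℤ).trace ^ 2 = 4 := by
  rw [Matrix.trace_fin_two]
  show ((1 - a * M * q) + (1 + a * M * q)) ^ 2 = 4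
  ring

omit [NeZero M] [NeZero q] in
theorem delta_mul (γ₀ : SL(2, ℤ)) (a b : ℤ)
    (h₀ : (γ₀ : Matrix (Fin 2) (Fin 2) ℤ) = !![a, b; (M : ℤ), (q : ℤ)]) :
    delta M q a * γ₀ = γ₀ * Tq q := by
  have hdet : a * q - b * M = 1 := by
    have := γ₀.det_coe
    rw [h₀, Matrix.det_fin_two_of] at this
    exact this
  apply Subtype.ext
  rw [Matrix.SpecialLinearGroup.coe_mul, Matrix.SpecialLinearGroup.coe_mul, h₀]
  show !![1 - a * M * q, a * a * q; -((M : ℤ) * M * q), 1 + a * M * q] * !![a, b; (M : ℤ), (q : ℤ)]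
    = !![a, b; (M : ℤ), (q : ℤ)] * !![1, (q : ℤ); 0, 1]
  rw [Matrix.mul_fin_two, Matrix.mul_fin_two]
  have key : ∀ x y z t x' y' z' t' : ℤ, x = x' → y = y' → z = z' → t = t' →
      !![x, y; z, t] = !![x', y'; z', t'] := by
    rintro _ _ _ _ _ _ _ _ rfl rfl rfl rfl
    rfl
  exact key _ _ _ _ _ _ _ _ (by ring) (by linear_combination (a * q) * hdet) (by ring)
    (by linear_combination ((M : ℤ) * q) * hdet)

omit [NeZero M] in
/-- The transform of a form with multiplier trivial on parabolic elements is `1`-periodic. -/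
theorem AW_vadd_one (γ₀ : SL(2, ℤ)) (a b : ℤ)
    (h₀ : (γ₀ : Matrix (Fin 2) (Fin 2) ℤ) = !![a, b; (M : ℤ), (q : ℤ)])
    {w : ℤ} {χ : ↥(Gamma0 (M * q)) →* ℂˣ}
    (hχ : ∀ γ : ↥(Gamma0 (M * q)),
      ((γ : SL(2, ℤ)) : Matrix (Fin 2) (Fin 2) ℤ).trace ^ 2 = 4 → χ γ = 1)
    {A : ℍ → ℂ} (hA : A ∈ K.MFchi (M * q) w χ) (z : ℍ) :
    AW γ₀ q w A ((1 : ℝ) +ᵥ z) = AW γ₀ q w A z := by
  have h1 : mulN q ((1 : ℝ) +ᵥ z) = Tq q • mulN q z := by
    rw [Tq_smul]
    apply UpperHalfPlane.ext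
    rw [coe_mulN, UpperHalfPlane.coe_vadd, UpperHalfPlane.coe_vadd, coe_mulN]
    push_cast
    ring
  have h2 : (A ∣[w] γ₀) ∣[w] Tq q = A ∣[w] γ₀ := by
    rw [← SlashAction.slash_mul, ← delta_mul M q γ₀ a b h₀, SlashAction.slash_mul]
    have h3 := K.slash_of_mem_MFchi hA ⟨delta M q a, delta_mem M q a⟩
    have h4 : χ ⟨delta M q a, delta_mem M q a⟩ = 1 := hχ _ (delta_trace M q a)
    rw [h4] at h3
    have h5 : A ∣[w] (delta M q a) = A := by
      rw [h3]
      simp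
    rw [h5]
  have h6 := congrFun h2 (mulN q z)
  rw [ModularForm.SL_slash_apply, denom_Tq, one_zpow, mul_one] at h6
  show (A ∣[w] γ₀) (mulN q ((1 : ℝ) +ᵥ z)) = (A ∣[w] γ₀) (mulN q z)
  rw [h1, h6]

omit [NeZero M] in
/-- **Niceness.** For a form `A` of level `M q` with multiplier trivial on parabolic elements,
`AW γ₀ q w A` is `1`-periodic, holomorphic and bounded at `i∞`. -/
theorem AW_mem_niceSub (γ₀ : SL(2, ℤ)) (a b : ℤ)
    (h₀ : (γ₀ : Matrix (Fin 2) (Fin 2) ℤ) = !![a, b; (M : ℤ), (q : ℤ)])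
    {w : ℤ} {χ : ↥(Gamma0 (M * q)) →* ℂˣ}
    (hχ : ∀ γ : ↥(Gamma0 (M * q)),
      ((γ : SL(2, ℤ)) : Matrix (Fin 2) (Fin 2) ℤ).trace ^ 2 = 4 → χ γ = 1)
    {A : ℍ → ℂ} (hA : A ∈ K.MFchi (M * q) w χ) : AW γ₀ q w A ∈ S23.niceSub := by
  have hF1 : MDiff (A ∣[w] γ₀) := hA.1.slash w _
  have hF2 : IsBoundedAtImInfty (A ∣[w] γ₀) := hA.2.2 γ₀
  have hrep : ∀ z : ℍ,
      P2MW.S_ModularForm_heckeT_slash_eq_self_of_mem_Gamma0.ModularForm.HeckeSlashInvariance.heckeRep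
        q (OnePoint.infty : OnePoint (ZMod q)) • z = mulN q z :=
    fun z => HeckeProdQxB.heckeDiagMatrix_smul_eq q z
  refine ⟨?_, ?_, ?_⟩
  · have h := S24.anCuspShift_periodic (h := 1) (f := AW γ₀ q w A)
      (AW_vadd_one M q γ₀ a b h₀ hχ hA)
    simpa using h
  · have h := HeckeProd.mdifferentiable_comp_heckeRep q (OnePoint.infty : OnePoint (ZMod q))
      (A ∣[w] γ₀) hF1
    simp only [hrep] at h
    exact h
  · have h := HeckeProdQxB.isBoundedAtImInfty_comp_heckeRep q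
      (OnePoint.infty : OnePoint (ZMod q)) hF2
    simp only [hrep] at h
    exact h

end Nice

/-! ### Formal side: `wBar` on polynomials in the generators -/

section Formal

variable (M q : ℕ) [NeZero M] [NeZero q] (hq : q.Prime) (hqM : ¬ q ∣ M)

/-- `wBar` permutes the generators by `swapDiv`. -/
theorem wBar_genFam (e : ↥(M * q).divisors) :
    S34.WK.wBar M q hq hqM (genFam (M * q) e) = genFam (M * q) (S37.W.swapDiv M q hq e) := by
  rcases S34.WK.exists_low_or_high M q hq e with ⟨d, rfl⟩ | ⟨d, rfl⟩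
  · rw [S34.WK.wBar_low, S37.W.swapDiv_divLow M q hq hqM]
  · rw [S34.WK.wBar_high, S37.W.swapDiv_divHigh M q hq]

/-- `wBar` on a polynomial in the generators. -/
theorem wBar_aeval (P : MvPolynomial ↥(M * q).divisors Qb) :
    S34.WK.wBar M q hq hqM (MvPolynomial.aeval (genFam (M * q)) P) =
      MvPolynomial.aeval (genFam (M * q)) (MvPolynomial.rename (S37.W.swapDiv M q hq) P) := by
  rw [MvPolynomial.aeval_rename]
  have h := MvPolynomial.comp_aeval (R := Qb) (f := genFam (M * q))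
    (φ := (S34.WK.wBar M q hq hqM :
      modularFunctionFieldBar (M * q) →ₐ[Qb] modularFunctionFieldBar (M * q)))
  have h2 := congrArg (fun g => g P) h
  simp only [AlgHom.comp_apply] at h2
  refine Eq.trans h2 ?_
  congr 2
  funext e
  exact wBar_genFam M q hq hqM e

end Formal

section Eval

variable (N : ℕ) [NeZero N]

/-- The Laurent series of a polynomial in the generators. -/
theorem coe_aeval_genFam (P : MvPolynomial ↥N.divisors Qb) :
    ((MvPolynomial.aeval (genFam N) P : modularFunctionFieldBar N) : LaurentSeries Qb) =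
      MvPolynomial.aeval (JFam N) P := by
  rw [← coe_polyToRN', coe_polyToRN]

/-- Its base change to `ℂ`. -/
theorem coeffMap_coe_aeval (P : MvPolynomial ↥N.divisors Qb) :
    coeffMap embC ((MvPolynomial.aeval (genFam N) P : modularFunctionFieldBar N) :
      LaurentSeries Qb) = MvPolynomial.aeval (AnBridge.GN N) (MvPolynomial.map embC P) := by
  rw [coe_aeval_genFam, AnBridge.coeffMap_aeval_JFam]
  rfl

omit [NeZero N] in
/-- Pointwise evaluation of a complex polynomial in functions on the upper half plane. -/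
theorem aeval_fun_applyC {σ : Type*} (f : σ → (ℍ → ℂ)) (P : MvPolynomial σ ℂ) (z : ℍ) :
    (MvPolynomial.aeval f P) z = MvPolynomial.aeval (fun i => f i z) P := by
  have h := MvPolynomial.comp_aeval (R := ℂ) (f := f)
    (φ := Pi.evalAlgHom ℂ (fun _ : ℍ => ℂ) z)
  have h2 := congrArg (fun g => g P) h
  simp only [AlgHom.comp_apply] at h2
  exact h2

omit [NeZero N] in
/-- A relation between `q`-expansions with polynomial coefficients in the generators gives the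
pointwise relation on the upper half plane. -/
theorem pointwise_of_series (Pc Rc : MvPolynomial ↥N.divisors ℂ) {A B : ℍ → ℂ}
    (hA : A ∈ S23.niceSub) (hB : B ∈ S23.niceSub)
    (h : MvPolynomial.aeval (AnBridge.GN N) Pc * K.qx B =
      MvPolynomial.aeval (AnBridge.GN N) Rc * K.qx A) (z : ℍ) :
    (MvPolynomial.aeval (jAtFam N) Pc) z * B z = (MvPolynomial.aeval (jAtFam N) Rc) z * A z := by
  obtain ⟨m₁, F₁, h₁, h₁'⟩ := AnBridge.exists_clear (N := N) jRel Pc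
  obtain ⟨m₂, F₂, h₂, h₂'⟩ := AnBridge.exists_clear (N := N) jRel Rc
  have key : F₁ * AnBridge.DN N ^ m₂ * (⟨B, hB⟩ : S23.niceSub) =
      F₂ * AnBridge.DN N ^ m₁ * (⟨A, hA⟩ : S23.niceSub) := by
    apply AnBridge.Phi_injective
    simp only [map_mul, map_pow]
    rw [← h₁', ← h₂', ← K.qx_eq_Phi hB, ← K.qx_eq_Phi hA]
    linear_combination (AnBridge.Phi (AnBridge.DN N)) ^ m₁ * (AnBridge.Phi (AnBridge.DN N)) ^ m₂ * h
  have hz := congrArg (fun F : S23.niceSub => (F : ℍ → ℂ) z) key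
  have hz' : (F₁ : ℍ → ℂ) z * (AnBridge.DN N : ℍ → ℂ) z ^ m₂ * B z =
      (F₂ : ℍ → ℂ) z * (AnBridge.DN N : ℍ → ℂ) z ^ m₁ * A z := hz
  rw [← h₁ z, ← h₂ z] at hz'
  have hD := AnBridge.DN_apply_ne_zero N z
  apply mul_left_cancel₀ (pow_ne_zero (m₁ + m₂) hD)
  rw [pow_add]
  linear_combination hz'

omit [NeZero N] in
/-- Conversely, a pointwise relation gives the relation between the `q`-expansions. -/
theorem series_of_pointwise (Pc Rc : MvPolynomial ↥N.divisors ℂ) {A B : ℍ → ℂ}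
    (hA : A ∈ S23.niceSub) (hB : B ∈ S23.niceSub)
    (h : ∀ z : ℍ, (MvPolynomial.aeval (jAtFam N) Pc) z * B z =
      (MvPolynomial.aeval (jAtFam N) Rc) z * A z) :
    MvPolynomial.aeval (AnBridge.GN N) Pc * K.qx B =
      MvPolynomial.aeval (AnBridge.GN N) Rc * K.qx A := by
  obtain ⟨m₁, F₁, h₁, h₁'⟩ := AnBridge.exists_clear (N := N) jRel Pc
  obtain ⟨m₂, F₂, h₂, h₂'⟩ := AnBridge.exists_clear (N := N) jRel Rc
  have key : F₁ * AnBridge.DN N ^ m₂ * (⟨B, hB⟩ : S23.niceSub) =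
      F₂ * AnBridge.DN N ^ m₁ * (⟨A, hA⟩ : S23.niceSub) := by
    apply Subtype.ext
    funext z
    show (F₁ : ℍ → ℂ) z * (AnBridge.DN N : ℍ → ℂ) z ^ m₂ * B z =
      (F₂ : ℍ → ℂ) z * (AnBridge.DN N : ℍ → ℂ) z ^ m₁ * A z
    rw [← h₁ z, ← h₂ z]
    linear_combination
      ((AnBridge.DN N : ℍ → ℂ) z ^ m₁ * (AnBridge.DN N : ℍ → ℂ) z ^ m₂) * h z
  have hk := congrArg AnBridge.Phi key
  simp only [map_mul, map_pow] at hk
  rw [← h₁', ← h₂', ← K.qx_eq_Phi hB, ← K.qx_eq_Phi hA] at hk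
  have hD : AnBridge.Phi (AnBridge.DN N) ≠ 0 := fun h0 =>
    AnBridge.DN_ne_zero N (AnBridge.Phi_injective (by rw [h0, map_zero]))
  apply mul_left_cancel₀ (pow_ne_zero (m₁ + m₂) hD)
  rw [pow_add]
  linear_combination hk

end Eval

/-! ### The dictionary -/

section Dictionary

variable (M q : ℕ) [NeZero M] [NeZero q] (hq : q.Prime) (hqM : ¬ q ∣ M)

/-- **[ALQx], the dictionary.**  Let `γ₀ = !![a, b; M, q]`.  If `g ∈ F̄_{Mq}` and
`coeffMap embC g · qx B = qx A` for nice functions `A`, `B` whose transforms are nice, then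
`coeffMap embC (wBar g) · qx (AW B) = qx (AW A)`: the analytic substitution `z ↦ γ₀ (q z)`
(with the automorphy factor of weight `w`) corresponds to the formal Atkin–Lehner involution. -/
theorem alqx (γ₀ : SL(2, ℤ)) (a b : ℤ)
    (h₀ : (γ₀ : Matrix (Fin 2) (Fin 2) ℤ) = !![a, b; (M : ℤ), (q : ℤ)]) (w : ℤ)
    {A B : ℍ → ℂ} (hA : A ∈ S23.niceSub) (hB : B ∈ S23.niceSub)
    (hAW : AW γ₀ q w A ∈ S23.niceSub) (hBW : AW γ₀ q w B ∈ S23.niceSub)
    (g : modularFunctionFieldBar (M * q))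
    (h : coeffMap embC (g : LaurentSeries Qb) * K.qx B = K.qx A) :
    coeffMap embC ((S34.WK.wBar M q hq hqM g : modularFunctionFieldBar (M * q)) :
      LaurentSeries Qb) * K.qx (AW γ₀ q w B) = K.qx (AW γ₀ q w A) := by
  obtain ⟨r, s, hs, hg⟩ := IsFractionRing.div_surjective (A := ↥(RN (M * q))) g
  obtain ⟨P, rfl⟩ := polyToRN_surjective (M * q) r
  obtain ⟨R, rfl⟩ := polyToRN_surjective (M * q) s
  have hg' : g = MvPolynomial.aeval (genFam (M * q)) P / MvPolynomial.aeval (genFam (M * q)) R :=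
    hg.symm
  have hR0 : MvPolynomial.aeval (genFam (M * q)) R ≠ 0 := by
    intro h0
    have h1 : polyToRN (M * q) R = 0 := Subtype.ext h0
    rw [h1] at hs
    exact zero_notMem_nonZeroDivisors hs
  have hinj : ∀ x : modularFunctionFieldBar (M * q), x ≠ 0 →
      coeffMap embC (x : LaurentSeries Qb) ≠ 0 := by
    intro x hx h0
    apply hx
    apply Subtype.ext
    exact AnBridge.coeffMap_embC_injective (by
      rw [h0]
      exact (map_zero (coeffMap embC)).symm)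
  have hxR : MvPolynomial.aeval (AnBridge.GN (M * q)) (MvPolynomial.map embC R) ≠ 0 := by
    rw [← coeffMap_coe_aeval]
    exact hinj _ hR0
  have hgC : coeffMap embC (g : LaurentSeries Qb) =
      MvPolynomial.aeval (AnBridge.GN (M * q)) (MvPolynomial.map embC P) /
        MvPolynomial.aeval (AnBridge.GN (M * q)) (MvPolynomial.map embC R) := by
    rw [hg', IntermediateField.coe_div, map_div₀, coeffMap_coe_aeval, coeffMap_coe_aeval]
  have h1 : MvPolynomial.aeval (AnBridge.GN (M * q)) (MvPolynomial.map embC P) * K.qx B =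
      MvPolynomial.aeval (AnBridge.GN (M * q)) (MvPolynomial.map embC R) * K.qx A := by
    rw [hgC, div_mul_eq_mul_div, div_eq_iff hxR] at h
    rw [h]
    ring
  have hpt := pointwise_of_series (M * q) _ _ hA hB h1
  -- the substitution
  have e : ∀ (Q : MvPolynomial ↥(M * q).divisors Qb) (z : ℍ),
      (MvPolynomial.aeval (jAtFam (M * q))
        (MvPolynomial.map embC (MvPolynomial.rename (S37.W.swapDiv M q hq) Q))) z =
      (MvPolynomial.aeval (jAtFam (M * q)) (MvPolynomial.map embC Q)) (γ₀ • mulN q z) := by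
    intro Q z
    rw [MvPolynomial.map_rename, aeval_fun_applyC, MvPolynomial.aeval_rename, aeval_fun_applyC]
    congr 2
    funext e
    exact jAtFam_swapDiv M q hq γ₀ a b h₀ e z
  have hpt' : ∀ z : ℍ,
      (MvPolynomial.aeval (jAtFam (M * q))
        (MvPolynomial.map embC (MvPolynomial.rename (S37.W.swapDiv M q hq) P))) z *
          AW γ₀ q w B z =
      (MvPolynomial.aeval (jAtFam (M * q))
        (MvPolynomial.map embC (MvPolynomial.rename (S37.W.swapDiv M q hq) R))) z *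
          AW γ₀ q w A z := by
    intro z
    rw [e P z, e R z, AW_apply, AW_apply]
    linear_combination (denom γ₀ (mulN q z) ^ (-w)) * hpt (γ₀ • mulN q z)
  have h2 := series_of_pointwise (M * q) _ _ hAW hBW hpt'
  have hwg : S34.WK.wBar M q hq hqM g =
      MvPolynomial.aeval (genFam (M * q)) (MvPolynomial.rename (S37.W.swapDiv M q hq) P) /
        MvPolynomial.aeval (genFam (M * q)) (MvPolynomial.rename (S37.W.swapDiv M q hq) R) := by
    rw [hg', map_div₀, wBar_aeval, wBar_aeval]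
  have hR0' : MvPolynomial.aeval (genFam (M * q))
      (MvPolynomial.rename (S37.W.swapDiv M q hq) R) ≠ 0 := by
    rw [← wBar_aeval M q hq hqM]
    exact (map_ne_zero _).mpr hR0
  have hxR' : MvPolynomial.aeval (AnBridge.GN (M * q))
      (MvPolynomial.map embC (MvPolynomial.rename (S37.W.swapDiv M q hq) R)) ≠ 0 := by
    rw [← coeffMap_coe_aeval]
    exact hinj _ hR0'
  rw [hwg, IntermediateField.coe_div, map_div₀, coeffMap_coe_aeval, coeffMap_coe_aeval,
    div_mul_eq_mul_div, div_eq_iff hxR', h2]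
  ring

/-- **[ALQx], witness form.**  `A` a form of level `M q`, weight `w`, with a multiplier trivial on
parabolic elements, `B` a form with trivial multiplier, `y · qx B = qx A`, and `f ∈ F̄_{Mq}` with
`coeffMap embC f = y ^ m`.  Then `coeffMap embC (wBar f) · qx (AW B) ^ m = qx (AW A) ^ m`, i.e. the
`q`-series `y_W := qx (AW A) / qx (AW B)` satisfies `y_W ^ m = coeffMap embC (wBar f)`. -/
theorem alqx_pow (γ₀ : SL(2, ℤ)) (a b : ℤ)
    (h₀ : (γ₀ : Matrix (Fin 2) (Fin 2) ℤ) = !![a, b; (M : ℤ), (q : ℤ)])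
    {w : ℤ} {χ : ↥(Gamma0 (M * q)) →* ℂˣ}
    (hχ : ∀ γ : ↥(Gamma0 (M * q)),
      ((γ : SL(2, ℤ)) : Matrix (Fin 2) (Fin 2) ℤ).trace ^ 2 = 4 → χ γ = 1)
    {A B : ℍ → ℂ} (hA : A ∈ K.MFchi (M * q) w χ) (hB : B ∈ S20.MF (M * q) w)
    (m : ℕ) (y : LaurentSeries ℂ) (hy : y * K.qx B = K.qx A)
    (f : modularFunctionFieldBar (M * q))
    (hf : coeffMap embC (f : LaurentSeries Qb) = y ^ m) :
    coeffMap embC ((S34.WK.wBar M q hq hqM f : modularFunctionFieldBar (M * q)) :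
      LaurentSeries Qb) * K.qx (AW γ₀ q w B) ^ m = K.qx (AW γ₀ q w A) ^ m := by
  have hT : χ (K.TG (M * q)) = 1 := hχ _ (by simp [K.TG, ModularGroup.T, Matrix.trace_fin_two])
  have hB' : B ∈ K.MFchi (M * q) w 1 := K.mem_MFchi_one_iff.mpr hB
  have hχ1 : ∀ γ : ↥(Gamma0 (M * q)),
      ((γ : SL(2, ℤ)) : Matrix (Fin 2) (Fin 2) ℤ).trace ^ 2 = 4 →
        (1 : ↥(Gamma0 (M * q)) →* ℂˣ) γ = 1 := fun _ _ => rfl
  have hAn : A ∈ S23.niceSub := K.mem_niceSub_of_mem_MFchi hT hA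
  have hBn : B ∈ S23.niceSub := K.mem_niceSub_of_mem_MF hB
  have hAWn : AW γ₀ q w A ∈ S23.niceSub := AW_mem_niceSub M q γ₀ a b h₀ hχ hA
  have hBWn : AW γ₀ q w B ∈ S23.niceSub := AW_mem_niceSub M q γ₀ a b h₀ hχ1 hB'
  have h1 : coeffMap embC (f : LaurentSeries Qb) * K.qx (B ^ m) = K.qx (A ^ m) := by
    rw [hf, K.qx_pow hBn, K.qx_pow hAn, ← mul_pow, hy]
  have h2 := alqx M q hq hqM γ₀ a b h₀ (w * m) (S23.niceSub.pow_mem hAn m)
    (S23.niceSub.pow_mem hBn m)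
    (by rw [AW_pow]; exact S23.niceSub.pow_mem hAWn m)
    (by rw [AW_pow]; exact S23.niceSub.pow_mem hBWn m) f h1
  rw [AW_pow, AW_pow, K.qx_pow hBWn, K.qx_pow hAWn] at h2
  exact h2

end Dictionary

end Fermat.Agent.S35.ALQx
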