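/-
S35 — KTrPlan.lean (helper88, captain of row [D] = [K-tr]).  Definitions / `Prop`s only.

COMMON EXPORT of the row [D] (the bridge between the analytic comparison `[K]` and the two
degeneracy maps), agreed with helper98 (sub-captain) — both routes R1 (characteristic
polynomial) and R2 (Atkin–Lehner dictionary) prove this statement:

`KTrStatement M q m` : for `u ∈ Lpar (M q)`, a witness `y` of `u` (`KPlan.Wit (M q) m u y`) and
`f ∈ F̄_{M q}` with `f = y ^ m`:
* if `tr₁ u = 0` then `Nm_α f = c · h ^ m` with `h ∈ F̄_M`, `h ≠ 0`, `c ∈ ℚ̄ˣ`;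
* if `tr₂ u = 0` then `Nm_β f = c · h ^ m` likewise
(`Nm_α = PushPic.alphaNorm`, `Nm_β = PushPic.betaNorm`, the norms of `F̄_{M q}` over `F̄_M` for the
algebra structures `algebraAlong (heckeAlphaBar …)`, `algebraAlong (heckeBetaBar …)`).

This is verbatim the converse shape of `PushPic.exists_norm_eq_of_alphaPush_eq_zero` and the
hypothesis shape of `PushZero.alphaPush_eq_zero_of_norm_eq` / `betaPush_eq_zero_of_norm_eq`.
-/
import Mathlib
import Fermat.Agent.S29.KPlanDefs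
import Fermat.Agent.S41.Defs
import Fermat.Agent.S35.PushPic

set_option autoImplicit false

open ModularCurve AlgebraicCurve CongruenceSubgroup HahnSeries

namespace Fermat.Agent.S35.KTrPlan

open Fermat.Agent.S29 Fermat.Agent.S41

local notation "Qb" => AlgebraicClosure ℚ

/-- **[K-tr], `α`-half.** -/
def KTrAlphaStatement (M q m : ℕ) [NeZero M] [NeZero q] : Prop :=
  ∀ (u : Lpar (M * q)) (y : LaurentSeries Qb),
    KPlan.Wit (M * q) m (u : Additive (Gamma0 (M * q)) →+ ℤ) y →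
    ∀ f : ↥(modularFunctionFieldBar (M * q)), (f : LaurentSeries Qb) = y ^ m →
    tr₁ M q (u : Additive (Gamma0 (M * q)) →+ ℤ) = 0 →
      ∃ (h : ↥(modularFunctionFieldBar M)) (c : Qb), h ≠ 0 ∧ c ≠ 0 ∧
        PushPic.alphaNorm M q f = algebraMap Qb ↥(modularFunctionFieldBar M) c * h ^ m

/-- **[K-tr], `β`-half.** -/
def KTrBetaStatement (M q m : ℕ) [NeZero M] [NeZero q] : Prop :=
  ∀ (u : Lpar (M * q)) (y : LaurentSeries Qb),
    KPlan.Wit (M * q) m (u : Additive (Gamma0 (M * q)) →+ ℤ) y →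
    ∀ f : ↥(modularFunctionFieldBar (M * q)), (f : LaurentSeries Qb) = y ^ m →
    tr₂ M q (u : Additive (Gamma0 (M * q)) →+ ℤ) = 0 →
      ∃ (h : ↥(modularFunctionFieldBar M)) (c : Qb), h ≠ 0 ∧ c ≠ 0 ∧
        PushPic.betaNorm M q f = algebraMap Qb ↥(modularFunctionFieldBar M) c * h ^ m

/-- **[K-tr]** = the common export of the row [D]. -/
def KTrStatement (M q m : ℕ) [NeZero M] [NeZero q] : Prop :=
  ∀ (u : Lpar (M * q)) (y : LaurentSeries Qb),
    KPlan.Wit (M * q) m (u : Additive (Gamma0 (M * q)) →+ ℤ) y →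
    ∀ f : ↥(modularFunctionFieldBar (M * q)), (f : LaurentSeries Qb) = y ^ m →
    (tr₁ M q (u : Additive (Gamma0 (M * q)) →+ ℤ) = 0 →
      ∃ (h : ↥(modularFunctionFieldBar M)) (c : Qb), h ≠ 0 ∧ c ≠ 0 ∧
        PushPic.alphaNorm M q f = algebraMap Qb ↥(modularFunctionFieldBar M) c * h ^ m) ∧
    (tr₂ M q (u : Additive (Gamma0 (M * q)) →+ ℤ) = 0 →
      ∃ (h : ↥(modularFunctionFieldBar M)) (c : Qb), h ≠ 0 ∧ c ≠ 0 ∧
        PushPic.betaNorm M q f = algebraMap Qb ↥(modularFunctionFieldBar M) c * h ^ m)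

theorem kTrStatement_of_halves {M q m : ℕ} [NeZero M] [NeZero q]
    (hα : KTrAlphaStatement M q m) (hβ : KTrBetaStatement M q m) : KTrStatement M q m :=
  fun u y hy f hf => ⟨hα u y hy f hf, hβ u y hy f hf⟩

end Fermat.Agent.S35.KTrPlan
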