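/-
S35 block [D] (bridge), leaf [TrNorm] part 1 — TrDesc.lean (helper17).

Two level-`M` descent tools used by the transfer-norm step:

* `mem_FC_of_forms`      : a quotient `A / B` of two forms of level `Γ₀(M)`, same weight, TRIVIAL
                           multiplier, has its `q`-expansion in the function field `F_ℂ(M)`
                           (this is (K1), `S29.K.mem_Mchi_one_iff`);
* `exists_root_of_pow_eq`: if `g ∈ F̄_M` is nonzero and the base change of `g` to `ℂ` is an
                           `m`-th power `C ^ m` of some `C ∈ F_ℂ(M)`, then `g = c · h ^ m` with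
                           `h ∈ F̄_M`, `c ∈ ℚ̄ˣ` (p-th roots of series are rational up to a
                           constant + descent of membership `F_ℂ ∩ ℚ̄((q)) = F̄_M`).
-/
import Mathlib
import Fermat.Agent.S29.KDefs
import Fermat.Agent.S29.K1
import Fermat.Agent.S29.PthRootSeries
import Fermat.Agent.S29.RatDescent
import Fermat.Agent.S24.AnDefs
import Fermat.Agent.S24.AnBridge

set_option autoImplicit false

namespace Fermat.Agent.S35.TrDesc

open UpperHalfPlane ModularForm CongruenceSubgroup ModularCurve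
open scoped MatrixGroups ModularForm Manifold
open Fermat.Agent.S29
open Fermat.Agent.S24 (embC)

local notation "Qb" => AlgebraicClosure ℚ

/-- A quotient of two forms of level `Γ₀(M)` of the same weight with trivial multiplier lies in
the function field `F_ℂ(M)` (this is (K1)). -/
theorem mem_FC_of_forms {M : ℕ} [NeZero M] {w : ℤ} {A B : ℍ → ℂ} (hA : A ∈ K.MFchi M w 1)
    (hB : B ∈ Fermat.Agent.S20.MF M w) (hB0 : B ≠ 0) {x : LaurentSeries ℂ}
    (hx : x * K.qx B = K.qx A) : x ∈ K.FC M :=
  K.mem_Mchi_one_iff.mp ⟨w, A, B, hA, hB, hB0, hx⟩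

/-- A constant multiple: `HahnSeries.C c * x ∈ F_ℂ(M)` for `x ∈ F_ℂ(M)`. -/
theorem C_mul_mem_FC {M : ℕ} (c : ℂ) {x : LaurentSeries ℂ} (hx : x ∈ K.FC M) :
    HahnSeries.C c * x ∈ K.FC M := by
  rw [HahnSeries.C_apply, ← algebraMap_laurentSeries_eq_single]
  exact mul_mem (algebraMap_mem _ c) hx

/-- **Descent of an `m`-th root.**  If `g ∈ F̄_M` is nonzero and its base change to `ℂ` is the
`m`-th power of an element of `F_ℂ(M)`, then `g = c · h ^ m` with `h ∈ F̄_M` and `c ∈ ℚ̄ˣ`. -/
theorem exists_root_of_pow_eq {M m : ℕ} (hm : m ≠ 0)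
    (g : ↥(modularFunctionFieldBar M)) (hg : g ≠ 0) (hC : LaurentSeries ℂ)
    (hmem : hC ∈ K.FC M)
    (hpow : hC ^ m = coeffMap embC (g : LaurentSeries Qb)) :
    ∃ (h : ↥(modularFunctionFieldBar M)) (c : Qb), h ≠ 0 ∧ c ≠ 0 ∧
      g = algebraMap Qb ↥(modularFunctionFieldBar M) c * h ^ m := by
  have hinj := Fermat.Agent.S24.AnBridge.coeffMap_embC_injective
  have hg' : (g : LaurentSeries Qb) ≠ 0 := fun h => hg (Subtype.ext h)
  have hC0 : hC ≠ 0 := by
    rintro rfl
    rw [zero_pow hm] at hpow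
    exact hg' (hinj (by rw [← hpow, map_zero]))
  let _ : Algebra Qb ℂ := embC.toAlgebra
  obtain ⟨c, z, hc, hz⟩ := PthRootSeries.exists_C_mul_mem_range_of_pow_eq (K := Qb) (L := ℂ) m
    (Nat.cast_ne_zero.mpr hm) (g : LaurentSeries Qb) hC hC0 hpow
  have hz' : coeffMap embC z = HahnSeries.C c * hC := hz
  -- `z ∈ F̄_M`
  have hzmem : z ∈ modularFunctionFieldBar M := by
    rw [← RatDescent.coeffMap_mem_iff_mem_modularFunctionFieldBar embC M z, hz']
    exact C_mul_mem_FC c hmem
  -- `embC (z ^ m) = C (c ^ m) * embC g`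
  have hzm : coeffMap embC (z ^ m) =
      HahnSeries.C (c ^ m) * coeffMap embC (g : LaurentSeries Qb) := by
    rw [map_pow, hz', mul_pow, hpow, map_pow]
  -- a nonzero coefficient of `g`
  obtain ⟨k, hk⟩ : ∃ k : ℤ, (g : LaurentSeries Qb).coeff k ≠ 0 := by
    by_contra hcon
    exact hg' (HahnSeries.ext (funext fun k => not_not.mp fun h => hcon ⟨k, h⟩))
  have hck := congrArg (fun s : LaurentSeries ℂ => s.coeff k) hzm
  simp only [coeffMap_coeff, HahnSeries.C_apply, HahnSeries.coeff_single_zero_mul] at hck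
  set d : Qb := (z ^ m).coeff k / (g : LaurentSeries Qb).coeff k with hd
  have hek : embC ((g : LaurentSeries Qb).coeff k) ≠ 0 :=
    fun h => hk (Fermat.Agent.S24.embC_injective (by rw [h, map_zero]))
  have hcm : c ^ m = embC d := by
    rw [hd, map_div₀, hck, mul_div_assoc, div_self hek, mul_one]
  have hd0 : d ≠ 0 := by
    rintro h0
    rw [h0, map_zero] at hcm
    exact hc ((pow_eq_zero_iff hm).mp hcm)
  -- `z ^ m = C d * g`
  have hzg : z ^ m = HahnSeries.C d * (g : LaurentSeries Qb) := by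
    apply hinj
    rw [hzm, hcm, map_mul, HahnSeries.C_apply, HahnSeries.C_apply, coeffMap_single]
  have hz0 : z ≠ 0 := by
    rintro rfl
    rw [zero_pow hm] at hzg
    rcases mul_eq_zero.mp hzg.symm with h | h
    · exact hd0 (by simpa using h)
    · exact hg' h
  refine ⟨⟨z, hzmem⟩, d⁻¹, fun h => hz0 (congrArg Subtype.val h), inv_ne_zero hd0, ?_⟩
  apply Subtype.ext
  change (g : LaurentSeries Qb) = algebraMap Qb (LaurentSeries Qb) d⁻¹ * z ^ m
  rw [hzg, algebraMap_laurentSeries_eq_single, ← HahnSeries.C_apply, ← mul_assoc, ← map_mul,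
    inv_mul_cancel₀ hd0, map_one, one_mul]

end Fermat.Agent.S35.TrDesc
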