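/-
S35 block [D] (bridge `J ↔ Lpar`, compatibility of the Kummer witnesses with the transfer),
leaf [TrQx] (helper23): the q-expansion of the transfer product.

For a function `A` on `ℍ` (in the application a form of weight `w` on `Γ₀(Mq)` with multiplier
`χ_u`) and a matrix `γ₀ ∈ SL₂(ℤ)` the functions `A ∣[w] (γ₀ T^j)`, `j mod q`, are the translates
`z ↦ AW((z + j)/q)` of the ONE function `AW := z ↦ (A ∣[w] γ₀)(q z)`; if `AW` is `1`-periodic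
(which holds when `γ₀ T^q γ₀⁻¹ ∈ Γ₀(Mq)` is killed by the multiplier), then

  `qx (A * ∏_{j mod q} A ∣[w] (γ₀ T^j)) = qx A * NP q (qx AW)`,
  `NP q X := qContract q (∏_{i<q} twist (ζ^i) X)`   ("formal coset norm", `ζ = exp(2πi/q)`).

* `slash_mul_T_zpow_apply`, `prod_slash_eq_uProd`   — the pointwise identities;
* `NP`, `NP_mul`, `NP_one`, `NP_pow`, `NP_smul`, `NP_twist`, `NP_ne_zero` — the formal coset norm;
* `aw_mem_niceSub`, `slash_mul_T_pow_of_mem_MFchi`, `aw_mem_niceSub_of_mem_MFchi`;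
* `qx_trProd`                                       — the q-expansion, generic `γ₀`;
* `prod_onePoint_slash`                             — index set `OnePoint (ZMod q)`;
* `prod_slash_rep₁_eq`, `qx_prod_slash_rep₁`        — the `S41.rep₁` system (`γ₀ = !![1,0;M,1]`);
* `aw_conv`, `NP_qx_aw_conv`                        — change of the matrix `γ₀`.
-/
import Mathlib
import Fermat.Agent.S29.KDefs
import Fermat.Agent.S29.KBasic
import Fermat.Agent.S29.HeckeProd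
import Fermat.Agent.S29.HeckeProdQx
import Fermat.Agent.S29.HeckeProdQxB
import Fermat.Agent.S24.AnBridge
import Fermat.Agent.S24.AnCuspShift
import Fermat.Agent.S37.KC
import Fermat.Agent.S41.TrReps

set_option autoImplicit false

noncomputable section

namespace Fermat.Agent.S35.TrQx

open UpperHalfPlane ModularForm ModularCurve Filter Function CongruenceSubgroup
open scoped MatrixGroups ModularForm Manifold Real
open P2MW.S_ModularForm_heckeT_slash_eq_self_of_mem_Gamma0.ModularForm.HeckeSlashInvariance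
open Fermat.Agent.S29 Fermat.Agent.S29.K Fermat.Agent.S37

/-! ### Pointwise identities -/

theorem denom_T_zpow_eq_one (n : ℤ) (z : ℍ) : denom (ModularGroup.T ^ n : SL(2, ℤ)) z = 1 := by
  rw [ModularGroup.denom_apply, ModularGroup.coe_T_zpow]
  simp

/-- (Q1) slashing with `γ₀ T^n` is slashing with `γ₀` followed by the translation by `n`. -/
theorem slash_mul_T_zpow_apply (w : ℤ) (γ₀ : SL(2, ℤ)) (A : ℍ → ℂ) (n : ℤ) (z : ℍ) :
    (A ∣[w] (γ₀ * ModularGroup.T ^ n)) z = (A ∣[w] γ₀) ((n : ℝ) +ᵥ z) := by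
  rw [SlashAction.slash_mul, ModularForm.SL_slash_apply, UpperHalfPlane.modular_T_zpow_smul,
    denom_T_zpow_eq_one, one_zpow, mul_one]

theorem mulN_heckeMatrix_smul (q : ℕ) [NeZero q] (j : ℕ) (z : ℍ) :
    S23.mulN q (heckeMatrix q j • z) = (((j : ℤ) : ℝ)) +ᵥ z := by
  have hq : (q : ℂ) ≠ 0 := Nat.cast_ne_zero.mpr (NeZero.ne q)
  ext
  rw [S23.coe_mulN, coe_heckeMatrix_smul (NeZero.ne q), UpperHalfPlane.coe_vadd]
  push_cast
  field_simp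
  ring

/-- (Q2) the product over the translates `γ₀ T^j` is the `U`-product of `z ↦ (A ∣ γ₀)(q z)`. -/
theorem prod_slash_eq_uProd (q : ℕ) [NeZero q] (w : ℤ) (γ₀ : SL(2, ℤ)) (A : ℍ → ℂ) :
    (∏ j : ZMod q, A ∣[w] (γ₀ * ModularGroup.T ^ (j.val : ℤ))) =
      HeckeProdQxB.uProd q (fun z => (A ∣[w] γ₀) (S23.mulN q z)) := by
  funext z
  rw [Finset.prod_apply]
  unfold HeckeProdQxB.uProd
  refine Finset.prod_congr rfl fun j _ => ?_
  rw [slash_mul_T_zpow_apply]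
  show _ = (A ∣[w] γ₀) (S23.mulN q (heckeMatrix q j.val • z))
  rw [mulN_heckeMatrix_smul]

/-! ### The formal coset norm -/

/-- The formal coset norm `NP q X = (∏_{i<q} X(ζ^i Q))(Q^{1/q})`, `ζ = exp(2πi/q)`. -/
def NP (q : ℕ) [NeZero q] (X : LaurentSeries ℂ) : LaurentSeries ℂ :=
  KC.qContract q (∏ i ∈ Finset.range q, KC.twist (HeckeProdQxB.zetaUnit q ^ i) X)

theorem qExpand_NP (q : ℕ) [NeZero q] (X : LaurentSeries ℂ) :
    qExpand ℂ q (NP q X) = ∏ i ∈ Finset.range q, KC.twist (HeckeProdQxB.zetaUnit q ^ i) X :=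
  KC.qExpand_qContract_prod_twist (HeckeProdQxB.isPrimitiveRoot_zetaUnit q) X

theorem NP_mul (q : ℕ) [NeZero q] (X Y : LaurentSeries ℂ) : NP q (X * Y) = NP q X * NP q Y := by
  have h1 : ∏ i ∈ Finset.range q, KC.twist (HeckeProdQxB.zetaUnit q ^ i) (X * Y) =
      (∏ i ∈ Finset.range q, KC.twist (HeckeProdQxB.zetaUnit q ^ i) X) *
        ∏ i ∈ Finset.range q, KC.twist (HeckeProdQxB.zetaUnit q ^ i) Y := by
    rw [← Finset.prod_mul_distrib]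
    exact Finset.prod_congr rfl fun i _ => map_mul _ _ _
  have h2 : NP q (X * Y) = KC.qContract q (qExpand ℂ q (NP q X) * qExpand ℂ q (NP q Y)) := by
    rw [qExpand_NP, qExpand_NP, ← h1]
    rfl
  rw [h2, KC.qContract_qExpand_mul]

theorem NP_one (q : ℕ) [NeZero q] : NP q 1 = 1 := by
  unfold NP
  simp only [map_one, Finset.prod_const_one]
  have h : (1 : LaurentSeries ℂ) = qExpand ℂ q 1 := (map_one _).symm
  conv_lhs => rw [h, KC.qContract_qExpand]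

theorem NP_pow (q : ℕ) [NeZero q] (X : LaurentSeries ℂ) (n : ℕ) : NP q (X ^ n) = NP q X ^ n := by
  induction n with
  | zero => rw [pow_zero, pow_zero, NP_one]
  | succ n ih => rw [pow_succ, pow_succ, NP_mul, ih]

theorem NP_ne_zero (q : ℕ) [NeZero q] {X : LaurentSeries ℂ} (hX : X ≠ 0) : NP q X ≠ 0 := by
  intro h
  have h1 := qExpand_NP q X
  rw [h, map_zero] at h1
  have h3 : ∏ i ∈ Finset.range q, KC.twist (HeckeProdQxB.zetaUnit q ^ i) X ≠ 0 := by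
    rw [Finset.prod_ne_zero_iff]
    intro i _
    exact (map_ne_zero_iff _ (KC.twist_injective (HeckeProdQxB.zetaUnit q ^ i))).mpr hX
  exact h3 h1.symm

theorem twist_C (ζ : ℂˣ) (c : ℂ) : KC.twist ζ (HahnSeries.C c) = HahnSeries.C c := by
  ext n
  rw [KC.twist_coeff]
  show ((ζ ^ n : ℂˣ) : ℂ) * (HahnSeries.single (0 : ℤ) c).coeff n =
    (HahnSeries.single (0 : ℤ) c).coeff n
  by_cases h : n = 0
  · subst h
    simp
  · rw [HahnSeries.coeff_single_of_ne h, mul_zero]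

theorem NP_C (q : ℕ) [NeZero q] (c : ℂ) : NP q (HahnSeries.C c) = HahnSeries.C (c ^ q) := by
  unfold NP
  simp only [twist_C]
  rw [Finset.prod_const, Finset.card_range, ← map_pow]
  conv_lhs => rw [← qExpand_C (N := q) (c ^ q), KC.qContract_qExpand]

/-- `NP q (c • X) = c ^ q • NP q X`. -/
theorem NP_smul (q : ℕ) [NeZero q] (c : ℂ) (X : LaurentSeries ℂ) :
    NP q (c • X) = c ^ q • NP q X := by
  rw [← HahnSeries.C_mul_eq_smul, NP_mul, NP_C, HahnSeries.C_mul_eq_smul]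

/-- `NP q` does not see a twist by a power of `ζ`. -/
theorem NP_twist (q : ℕ) [NeZero q] (t : ℕ) (X : LaurentSeries ℂ) :
    NP q (KC.twist (HeckeProdQxB.zetaUnit q ^ t) X) = NP q X := by
  have hζ : (HeckeProdQxB.zetaUnit q) ^ q = 1 := by
    apply Units.ext
    rw [Units.val_pow_eq_pow_val, Units.val_one]
    exact (HeckeProdQxB.isPrimitiveRoot_zetaUnit q).pow_eq_one
  have h1 : ∀ i : ℕ, KC.twist (HeckeProdQxB.zetaUnit q ^ i)
      (KC.twist (HeckeProdQxB.zetaUnit q ^ t) X) =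
      KC.twist (HeckeProdQxB.zetaUnit q ^ ((i + t) % q)) X := by
    intro i
    rw [KC.twist_twist, ← pow_add]
    congr 1
    conv_lhs => rw [← Nat.mod_add_div (i + t) q, pow_add, pow_mul, hζ, one_pow, mul_one]
  unfold NP
  congr 1
  simp only [h1]
  -- reindex `i ↦ (i + t) % q` on `range q`
  rw [← HeckeProdQxB.prod_zmod_val q
      (fun i => KC.twist (HeckeProdQxB.zetaUnit q ^ ((i + t) % q)) X),
    ← HeckeProdQxB.prod_zmod_val q (fun i => KC.twist (HeckeProdQxB.zetaUnit q ^ i) X)]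
  have h2 : ∀ j : ZMod q, (j.val + t) % q = (j + (t : ZMod q)).val := by
    intro j
    rw [ZMod.val_add, ZMod.val_natCast, Nat.add_mod_mod]
  simp only [h2]
  exact Equiv.prod_comp (Equiv.addRight (t : ZMod q))
    (fun j : ZMod q => KC.twist (HeckeProdQxB.zetaUnit q ^ j.val) X)

/-! ### `z ↦ (A ∣ γ₀)(q z)` is a nice function -/

/-- (Q3) the function `z ↦ (A ∣[w] γ₀)(q z)` is `1`-periodic, holomorphic and bounded at `i∞`
as soon as `A` is holomorphic, `A ∣ γ₀` is bounded at `i∞` and `A ∣ γ₀ T^q = A ∣ γ₀`. -/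
theorem aw_mem_niceSub (q : ℕ) [NeZero q] (w : ℤ) (γ₀ : SL(2, ℤ)) (A : ℍ → ℂ)
    (hdiff : MDiff A) (hbdd : IsBoundedAtImInfty (A ∣[w] γ₀))
    (hper : A ∣[w] (γ₀ * ModularGroup.T ^ (q : ℤ)) = A ∣[w] γ₀) :
    (fun z => (A ∣[w] γ₀) (S23.mulN q z)) ∈ S23.niceSub := by
  have hF : MDiff (A ∣[w] γ₀) := hdiff.slash w _
  refine ⟨?_, ?_, ?_⟩
  · have h := S24.anCuspShift_periodic (h := 1)
      (f := fun z => (A ∣[w] γ₀) (S23.mulN q z)) (fun z => ?_)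
    · simpa using h
    · show (A ∣[w] γ₀) (S23.mulN q ((1 : ℝ) +ᵥ z)) = (A ∣[w] γ₀) (S23.mulN q z)
      have e : S23.mulN q ((1 : ℝ) +ᵥ z) = (((q : ℤ) : ℝ)) +ᵥ S23.mulN q z := by
        ext
        rw [S23.coe_mulN, UpperHalfPlane.coe_vadd, UpperHalfPlane.coe_vadd, S23.coe_mulN]
        push_cast
        ring
      rw [e, ← slash_mul_T_zpow_apply, hper]
  · have h := HeckeProd.mdifferentiable_comp_heckeRep q (none : OnePoint (ZMod q)) (A ∣[w] γ₀) hF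
    have e : (fun z : ℍ => (A ∣[w] γ₀) (heckeRep q (none : OnePoint (ZMod q)) • z)) =
        fun z => (A ∣[w] γ₀) (S23.mulN q z) := by
      funext z
      show (A ∣[w] γ₀) (heckeDiagMatrix q • z) = _
      rw [HeckeProdQxB.heckeDiagMatrix_smul_eq]
    rw [e] at h
    exact h
  · have h := HeckeProdQxB.isBoundedAtImInfty_comp_heckeRep q (none : OnePoint (ZMod q)) hbdd
    have e : (fun z : ℍ => (A ∣[w] γ₀) (heckeRep q (none : OnePoint (ZMod q)) • z)) =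
        fun z => (A ∣[w] γ₀) (S23.mulN q z) := by
      funext z
      show (A ∣[w] γ₀) (heckeDiagMatrix q • z) = _
      rw [HeckeProdQxB.heckeDiagMatrix_smul_eq]
    rw [e] at h
    exact h

/-! ### The q-expansion of the transfer product -/

/-- (Q4) **the q-expansion of the transfer product**, generic matrix `γ₀`. -/
theorem qx_trProd (q : ℕ) [NeZero q] (w : ℤ) (γ₀ : SL(2, ℤ)) (A : ℍ → ℂ) (hA : A ∈ S23.niceSub)
    (hAW : (fun z => (A ∣[w] γ₀) (S23.mulN q z)) ∈ S23.niceSub) :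
    (A * ∏ j : ZMod q, A ∣[w] (γ₀ * ModularGroup.T ^ (j.val : ℤ))) ∈ S23.niceSub ∧
    qx (A * ∏ j : ZMod q, A ∣[w] (γ₀ * ModularGroup.T ^ (j.val : ℤ))) =
      qx A * NP q (qx (fun z => (A ∣[w] γ₀) (S23.mulN q z))) := by
  rw [prod_slash_eq_uProd]
  have hP := HeckeProdQxB.uProd_mem_niceSub q hAW
  exact ⟨S23.niceSub.mul_mem hA hP, by rw [qx_mul hA hP, HeckeProdQxB.qx_uProd q hAW]; rfl⟩

/-- (Q5) the product over a system of representatives indexed by `OnePoint (ZMod q)` with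
`r ∞ = 1` and `r j = γ₀ T^j`. -/
theorem prod_onePoint_slash (q : ℕ) [NeZero q] (w : ℤ) (γ₀ : SL(2, ℤ)) (A : ℍ → ℂ)
    (r : OnePoint (ZMod q) → SL(2, ℤ)) (hr0 : r (none : OnePoint (ZMod q)) = 1)
    (hr : ∀ j : ZMod q, r (some j : OnePoint (ZMod q)) = γ₀ * ModularGroup.T ^ (j.val : ℤ)) :
    (∏ x : OnePoint (ZMod q), A ∣[w] r x) =
      A * ∏ j : ZMod q, A ∣[w] (γ₀ * ModularGroup.T ^ (j.val : ℤ)) := by
  have h := Fintype.prod_option (fun x : OnePoint (ZMod q) => A ∣[w] r x)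
  refine h.trans ?_
  rw [hr0, SlashAction.slash_one]
  simp only [hr]

/-! ### Periodicity from the multiplier -/

/-- If `δ γ₀ = γ₀ T^n` with `δ ∈ Γ₀(N)` killed by the multiplier, then `A ∣ γ₀ T^n = A ∣ γ₀`. -/
theorem slash_mul_T_zpow_of_mem_MFchi {N : ℕ} {w : ℤ} {χ : ↥(Gamma0 N) →* ℂˣ} {A : ℍ → ℂ}
    (hA : A ∈ MFchi N w χ) (γ₀ : SL(2, ℤ)) (n : ℤ) (δ : ↥(Gamma0 N))
    (hδ : (δ : SL(2, ℤ)) * γ₀ = γ₀ * ModularGroup.T ^ n) (hχ : χ δ = 1) :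
    A ∣[w] (γ₀ * ModularGroup.T ^ n) = A ∣[w] γ₀ := by
  rw [← hδ, SlashAction.slash_mul, hA.2.1 δ, hχ, Units.val_one, one_smul]

/-- The lower left entry of `γ₀ T^n γ₀⁻¹` is `-n c²` (`c` the lower left entry of `γ₀`). -/
theorem conj_T_zpow_lower_left (γ₀ : SL(2, ℤ)) (n : ℤ) :
    (γ₀ * ModularGroup.T ^ n * γ₀⁻¹ : SL(2, ℤ)) 1 0 = -(n * (γ₀ 1 0) ^ 2) := by
  have h : ((γ₀ * ModularGroup.T ^ n * γ₀⁻¹ : SL(2, ℤ)) : Matrix (Fin 2) (Fin 2) ℤ) =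
      (γ₀ : Matrix (Fin 2) (Fin 2) ℤ) * !![1, n; 0, 1] *
        !![γ₀ 1 1, -γ₀ 0 1; -γ₀ 1 0, γ₀ 0 0] := by
    rw [Matrix.SpecialLinearGroup.coe_mul, Matrix.SpecialLinearGroup.coe_mul,
      ModularGroup.coe_T_zpow, Matrix.SpecialLinearGroup.coe_inv, Matrix.adjugate_fin_two]
  show ((γ₀ * ModularGroup.T ^ n * γ₀⁻¹ : SL(2, ℤ)) : Matrix (Fin 2) (Fin 2) ℤ) 1 0 = _
  rw [h]
  simp only [Matrix.mul_apply, Fin.sum_univ_two, Matrix.of_apply, Matrix.cons_val_zero,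
    Matrix.cons_val_one, Matrix.cons_val', Matrix.cons_val_fin_one]
  ring

/-- The trace of `γ₀ T^n γ₀⁻¹` is `2`. -/
theorem conj_T_zpow_trace (γ₀ : SL(2, ℤ)) (n : ℤ) :
    ((γ₀ * ModularGroup.T ^ n * γ₀⁻¹ : SL(2, ℤ)) : Matrix (Fin 2) (Fin 2) ℤ).trace = 2 := by
  rw [Matrix.SpecialLinearGroup.coe_mul, Matrix.trace_mul_comm, ← Matrix.SpecialLinearGroup.coe_mul,
    inv_mul_cancel_left, ModularGroup.coe_T_zpow, Matrix.trace_fin_two_of]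
  norm_num

/-- (Q3') for a form `A` on `Γ₀(N)` whose multiplier kills the elements of trace `2`, and a matrix
`γ₀` with `N ∣ q c²` (`c` its lower left entry): `z ↦ (A ∣ γ₀)(q z)` is a nice function. -/
theorem aw_mem_niceSub_of_mem_MFchi {N : ℕ} (q : ℕ) [NeZero q] {w : ℤ} {χ : ↥(Gamma0 N) →* ℂˣ}
    {A : ℍ → ℂ} (hA : A ∈ MFchi N w χ)
    (hpar : ∀ δ : ↥(Gamma0 N),
      ((δ : SL(2, ℤ)) : Matrix (Fin 2) (Fin 2) ℤ).trace = 2 → χ δ = 1)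
    (γ₀ : SL(2, ℤ)) (hγ₀ : (N : ℤ) ∣ (q : ℤ) * (γ₀ 1 0) ^ 2) :
    (fun z => (A ∣[w] γ₀) (S23.mulN q z)) ∈ S23.niceSub := by
  have hmem : γ₀ * ModularGroup.T ^ (q : ℤ) * γ₀⁻¹ ∈ Gamma0 N := by
    rw [Fermat.Agent.S16.mem_Gamma0_iff_dvd, conj_T_zpow_lower_left]
    exact (dvd_neg).mpr hγ₀
  refine aw_mem_niceSub q w γ₀ A hA.1 (hA.2.2 γ₀) ?_
  refine slash_mul_T_zpow_of_mem_MFchi hA γ₀ (q : ℤ) ⟨_, hmem⟩ ?_ (hpar ⟨_, hmem⟩ ?_)
  · show γ₀ * ModularGroup.T ^ (q : ℤ) * γ₀⁻¹ * γ₀ = γ₀ * ModularGroup.T ^ (q : ℤ)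
    rw [inv_mul_cancel_right]
  · exact conj_T_zpow_trace γ₀ (q : ℤ)

/-! ### The system of representatives `S41.rep₁` -/

section Rep₁

open Fermat.Agent.S41

variable (M q : ℕ) [Fact q.Prime]

theorem rep₁Mat_eq_mul_T_zpow (t : ℤ) : rep₁Mat M t = rep₁Mat M 0 * ModularGroup.T ^ t := by
  apply Subtype.ext
  rw [Matrix.SpecialLinearGroup.coe_mul, ModularGroup.coe_T_zpow]
  show !![1, t; (M : ℤ), (M : ℤ) * t + 1] = !![1, 0; (M : ℤ), (M : ℤ) * 0 + 1] * !![1, t; 0, 1]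
  rw [Matrix.mul_fin_two]
  congr 1
  ring_nf

/-- The product over `S41.rep₁` is `A` times the product over `!![1,0;M,1] T^j`, `j mod q`. -/
theorem prod_slash_rep₁_eq (w : ℤ) (A : ℍ → ℂ) :
    (∏ x : OnePoint (ZMod q), A ∣[w] ((rep₁ M q x : ↥(Gamma0 M)) : SL(2, ℤ))) =
      A * ∏ j : ZMod q, A ∣[w] (rep₁Mat M 0 * ModularGroup.T ^ (j.val : ℤ)) := by
  have h := Fintype.prod_option
    (fun x : OnePoint (ZMod q) => A ∣[w] ((rep₁ M q x : ↥(Gamma0 M)) : SL(2, ℤ)))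
  refine h.trans ?_
  have h0 : ((rep₁ M q (none : OnePoint (ZMod q)) : ↥(Gamma0 M)) : SL(2, ℤ)) = 1 := rfl
  have h1 : ∀ j : ZMod q, ((rep₁ M q (some j : OnePoint (ZMod q)) : ↥(Gamma0 M)) : SL(2, ℤ)) =
      rep₁Mat M 0 * ModularGroup.T ^ (((j - ((M : ℕ) : ZMod q)⁻¹).val : ℕ) : ℤ) := by
    intro j
    rw [← rep₁Mat_eq_mul_T_zpow]
    rfl
  rw [h0, SlashAction.slash_one]
  simp only [h1]
  congr 1
  exact Equiv.prod_comp (Equiv.subRight (((M : ℕ) : ZMod q)⁻¹))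
    (fun j : ZMod q => A ∣[w] (rep₁Mat M 0 * ModularGroup.T ^ ((j.val : ℕ) : ℤ)))

/-- **[TrQx] for `S41.rep₁`**: for a form `A` on `Γ₀(Mq)` whose multiplier kills the elements of
trace `2`, the transfer product `∏_x A ∣ rep₁ x` has q-expansion `qx A * NP q (qx AW)`,
`AW = z ↦ (A ∣ !![1,0;M,1])(q z)`. -/
theorem qx_prod_slash_rep₁ [NeZero q] {w : ℤ} {χ : ↥(Gamma0 (M * q)) →* ℂˣ} {A : ℍ → ℂ}
    (hA : A ∈ MFchi (M * q) w χ)
    (hpar : ∀ δ : ↥(Gamma0 (M * q)),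
      ((δ : SL(2, ℤ)) : Matrix (Fin 2) (Fin 2) ℤ).trace = 2 → χ δ = 1) :
    (fun z => (A ∣[w] rep₁Mat M 0) (S23.mulN q z)) ∈ S23.niceSub ∧
    (∏ x : OnePoint (ZMod q), A ∣[w] ((rep₁ M q x : ↥(Gamma0 M)) : SL(2, ℤ))) ∈ S23.niceSub ∧
    qx (∏ x : OnePoint (ZMod q), A ∣[w] ((rep₁ M q x : ↥(Gamma0 M)) : SL(2, ℤ))) =
      qx A * NP q (qx (fun z => (A ∣[w] rep₁Mat M 0) (S23.mulN q z))) := by
  have hT : χ (TG (M * q)) = 1 := hpar _ (by simp [TG, ModularGroup.T, Matrix.trace_fin_two])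
  have hAn : A ∈ S23.niceSub := mem_niceSub_of_mem_MFchi hT hA
  have hAW : (fun z => (A ∣[w] rep₁Mat M 0) (S23.mulN q z)) ∈ S23.niceSub := by
    refine aw_mem_niceSub_of_mem_MFchi q hA hpar (rep₁Mat M 0) ?_
    have e : (rep₁Mat M 0 : SL(2, ℤ)) 1 0 = (M : ℤ) := rfl
    rw [e]
    exact ⟨(M : ℤ), by push_cast; ring⟩
  have h := qx_trProd q w (rep₁Mat M 0) A hAn hAW
  rw [prod_slash_rep₁_eq]
  exact ⟨hAW, h.1, h.2⟩

end Rep₁

/-! ### Change of the matrix `γ₀` -/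

/-- If `A ∣ γ₀ = c • A ∣ γ₁ T^t`, then `AW_{γ₀} = c • (z ↦ AW_{γ₁}(t/q + z))`. -/
theorem aw_conv (q : ℕ) [NeZero q] (w : ℤ) (γ₀ γ₁ : SL(2, ℤ)) (A : ℍ → ℂ) (t : ℕ) (c : ℂ)
    (h : A ∣[w] γ₀ = c • (A ∣[w] (γ₁ * ModularGroup.T ^ (t : ℤ)))) :
    (fun z => (A ∣[w] γ₀) (S23.mulN q z)) =
      c • (fun z : ℍ => (fun z' => (A ∣[w] γ₁) (S23.mulN q z')) (((t : ℝ) / q) +ᵥ z)) := by
  have hq : (q : ℂ) ≠ 0 := Nat.cast_ne_zero.mpr (NeZero.ne q)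
  funext z
  rw [h, Pi.smul_apply, Pi.smul_apply, slash_mul_T_zpow_apply]
  have e : ((((t : ℤ) : ℝ)) +ᵥ S23.mulN q z : ℍ) = S23.mulN q (((t : ℝ) / q) +ᵥ z) := by
    ext
    rw [UpperHalfPlane.coe_vadd, S23.coe_mulN, S23.coe_mulN, UpperHalfPlane.coe_vadd]
    push_cast
    field_simp
  show c • (A ∣[w] γ₁) ((((t : ℤ) : ℝ)) +ᵥ S23.mulN q z) =
    c • (A ∣[w] γ₁) (S23.mulN q (((t : ℝ) / q) +ᵥ z))
  rw [e]

/-- **Change of matrix**: if `A ∣ γ₀ = c • A ∣ γ₁ T^t`, then `AW_{γ₀}` is nice as soon as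
`AW_{γ₁}` is, `qx AW_{γ₀} = c • twist (ζ^t) (qx AW_{γ₁})` and the formal coset norms differ by
the constant `c ^ q`. -/
theorem NP_qx_aw_conv (q : ℕ) [NeZero q] (w : ℤ) (γ₀ γ₁ : SL(2, ℤ)) (A : ℍ → ℂ) (t : ℕ) (c : ℂ)
    (h : A ∣[w] γ₀ = c • (A ∣[w] (γ₁ * ModularGroup.T ^ (t : ℤ))))
    (hAW₁ : (fun z => (A ∣[w] γ₁) (S23.mulN q z)) ∈ S23.niceSub) :
    (fun z => (A ∣[w] γ₀) (S23.mulN q z)) ∈ S23.niceSub ∧
    qx (fun z => (A ∣[w] γ₀) (S23.mulN q z)) =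
      c • KC.twist (HeckeProdQxB.zetaUnit q ^ t) (qx (fun z => (A ∣[w] γ₁) (S23.mulN q z))) ∧
    NP q (qx (fun z => (A ∣[w] γ₀) (S23.mulN q z))) =
      c ^ q • NP q (qx (fun z => (A ∣[w] γ₁) (S23.mulN q z))) := by
  have hs := HeckeProdQxB.shift_mem_niceSub ((t : ℝ) / q) hAW₁
  have hqx : qx (fun z => (A ∣[w] γ₀) (S23.mulN q z)) =
      c • KC.twist (HeckeProdQxB.zetaUnit q ^ t)
        (qx (fun z => (A ∣[w] γ₁) (S23.mulN q z))) := by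
    rw [aw_conv q w γ₀ γ₁ A t c h, qx_smul c hs, HeckeProdQxB.qx_shift _ hAW₁,
      HeckeProdQxB.expUnit_nat_div]
  refine ⟨?_, hqx, ?_⟩
  · rw [aw_conv q w γ₀ γ₁ A t c h]
    exact S23.niceSub.smul_mem hs c
  · rw [hqx, NP_smul, NP_twist]

/-- The hypothesis of `NP_qx_aw_conv` for a form with multiplier: `γ₀ = g γ₁ T^t`, `g ∈ Γ₀(N)`. -/
theorem slash_eq_smul_of_eq_mul {N : ℕ} {w : ℤ} {χ : ↥(Gamma0 N) →* ℂˣ} {A : ℍ → ℂ}
    (hA : A ∈ MFchi N w χ) (γ₀ γ₁ : SL(2, ℤ)) (t : ℤ) (g : ↥(Gamma0 N))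
    (hg : γ₀ = (g : SL(2, ℤ)) * (γ₁ * ModularGroup.T ^ t)) :
    A ∣[w] γ₀ = ((χ g : ℂˣ) : ℂ) • (A ∣[w] (γ₁ * ModularGroup.T ^ t)) := by
  rw [hg, SlashAction.slash_mul, hA.2.1 g, ModularForm.SL_smul_slash]

/-! ### Atkin–Lehner type matrices versus `S41.rep₁` -/

section AL

open Fermat.Agent.S41

variable (M q : ℕ) [Fact q.Prime]

/-- A matrix `γ₀ = !![a, b; M, d]` with `q ∣ d` (for instance the Atkin–Lehner matrix
`!![a, b; M, q]`) lies in `Γ₀(Mq) · !![1,0;M,1] · T^t` for a suitable `t`. -/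
theorem exists_eq_mul_rep₁Mat (hqM : ¬ q ∣ M) (γ₀ : SL(2, ℤ)) (h10 : γ₀ 1 0 = (M : ℤ))
    (h11 : (q : ℤ) ∣ γ₀ 1 1) :
    ∃ (g : ↥(Gamma0 (M * q))) (t : ℕ),
      γ₀ = (g : SL(2, ℤ)) * (rep₁Mat M 0 * ModularGroup.T ^ (t : ℤ)) := by
  set t : ℕ := (-(((M : ℕ) : ZMod q)⁻¹)).val with ht
  have hM0 : ((M : ℕ) : ZMod q) ≠ 0 := natCast_N_ne_zero hqM
  have hqt : (q : ℤ) ∣ (M : ℤ) * (t : ℤ) + 1 := by
    rw [← intCast_q_eq_zero_iff]
    push_cast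
    rw [ht, ZMod.natCast_val, ZMod.cast_id', id_eq, mul_neg, mul_inv_cancel₀ hM0]
    ring
  have hmem : γ₀ * (rep₁Mat M (t : ℤ))⁻¹ ∈ Gamma0 (M * q) := by
    rw [Fermat.Agent.S16.mem_Gamma0_iff_dvd]
    have e : (γ₀ * (rep₁Mat M (t : ℤ))⁻¹ : SL(2, ℤ)) 1 0 =
        (M : ℤ) * ((M : ℤ) * (t : ℤ) + 1 - γ₀ 1 1) := by
      have h : ((γ₀ * (rep₁Mat M (t : ℤ))⁻¹ : SL(2, ℤ)) : Matrix (Fin 2) (Fin 2) ℤ) =
          (γ₀ : Matrix (Fin 2) (Fin 2) ℤ) *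
            !![(M : ℤ) * (t : ℤ) + 1, -(t : ℤ); -(M : ℤ), 1] := by
        rw [Matrix.SpecialLinearGroup.coe_mul, Matrix.SpecialLinearGroup.coe_inv]
        show _ * Matrix.adjugate !![1, (t : ℤ); (M : ℤ), (M : ℤ) * (t : ℤ) + 1] = _
        rw [Matrix.adjugate_fin_two_of]
      show ((γ₀ * (rep₁Mat M (t : ℤ))⁻¹ : SL(2, ℤ)) : Matrix (Fin 2) (Fin 2) ℤ) 1 0 = _
      rw [h]
      simp only [Matrix.mul_apply, Fin.sum_univ_two, Matrix.of_apply, Matrix.cons_val_zero,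
        Matrix.cons_val_one, Matrix.cons_val', Matrix.cons_val_fin_one]
      have h10' : (γ₀ : Matrix (Fin 2) (Fin 2) ℤ) 1 0 = (M : ℤ) := h10
      rw [h10']
      ring
    rw [e]
    push_cast
    exact mul_dvd_mul_left _ (dvd_sub hqt h11)
  refine ⟨⟨_, hmem⟩, t, ?_⟩
  show γ₀ = γ₀ * (rep₁Mat M (t : ℤ))⁻¹ * (rep₁Mat M 0 * ModularGroup.T ^ (t : ℤ))
  rw [← rep₁Mat_eq_mul_T_zpow, inv_mul_cancel_right]

/-- **[TrQx], Atkin–Lehner form.**  For a form `A` on `Γ₀(Mq)` whose multiplier `χ` kills the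
elements of trace `2` and ANY matrix `γ₀ = !![a, b; M, d]`, `q ∣ d`: the function
`AW = z ↦ (A ∣ γ₀)(q z)` is nice, and the transfer product `∏_x A ∣ rep₁ x` has q-expansion
`qx A * NP q (qx AW)` up to the constant `χ(g) ^ q` (`g ∈ Γ₀(Mq)` depending only on `γ₀`). -/
theorem exists_qx_prod_slash_rep₁_AL [NeZero q] (hqM : ¬ q ∣ M) (γ₀ : SL(2, ℤ))
    (h10 : γ₀ 1 0 = (M : ℤ)) (h11 : (q : ℤ) ∣ γ₀ 1 1) :
    ∃ g : ↥(Gamma0 (M * q)), ∀ {w : ℤ} {χ : ↥(Gamma0 (M * q)) →* ℂˣ} {A : ℍ → ℂ},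
      A ∈ MFchi (M * q) w χ →
      (∀ δ : ↥(Gamma0 (M * q)),
        ((δ : SL(2, ℤ)) : Matrix (Fin 2) (Fin 2) ℤ).trace = 2 → χ δ = 1) →
      (fun z => (A ∣[w] γ₀) (S23.mulN q z)) ∈ S23.niceSub ∧
      qx A * NP q (qx (fun z => (A ∣[w] γ₀) (S23.mulN q z))) =
        ((χ g : ℂˣ) : ℂ) ^ q •
          qx (∏ x : OnePoint (ZMod q), A ∣[w] ((rep₁ M q x : ↥(Gamma0 M)) : SL(2, ℤ))) := by
  obtain ⟨g, t, hg⟩ := exists_eq_mul_rep₁Mat M q hqM γ₀ h10 h11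
  refine ⟨g, fun {w χ A} hA hpar => ?_⟩
  obtain ⟨hAW₁, -, hqx⟩ := qx_prod_slash_rep₁ M q hA hpar
  have hsl := slash_eq_smul_of_eq_mul hA γ₀ (rep₁Mat M 0) (t : ℤ) g hg
  obtain ⟨h1, -, h3⟩ := NP_qx_aw_conv q w γ₀ (rep₁Mat M 0) A t _ hsl hAW₁
  refine ⟨h1, ?_⟩
  rw [h3, hqx, ← HahnSeries.C_mul_eq_smul, ← HahnSeries.C_mul_eq_smul]
  ring

end AL

end Fermat.Agent.S35.TrQx
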