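/-
S35 block [D] (bridge `J ↔ Lpar`), leaf [D1] — TrProdMem.lean (helper26): the TRANSFER PRODUCT OF
A MULTIPLIER FORM, in the vocabulary of `S29/KDefs.lean` (analogue of `S29/HeckeProdMem.lean`
for the coset data of a finite-index pair `Γ₀(N) ≤ Γ₀(N')` instead of a Hecke double coset).

* `prod_slash_mem`         : GENERIC.  For representatives `r : ι → SL₂(ℤ)` with coset data
                             `r i * γ = part γ i * r (perm γ i)` (`γ ∈ Γ₀(N')`, `part γ i ∈ Γ₀(N)`):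
                             `A ∈ MFchi N w χ ⇒ ∏ i, A ∣[w] r i ∈ MFchi N' (w * card ι) χ'`,
                             `χ' γ = ∏ i, χ (part γ i)` (the transfer of `χ`);
* `chiU_tr₁`               : the transfer of `χ_u = ζ_p ^ u` along `incl₁` is `χ_{tr₁ u}`;
* `prod_slash_rep₁_mem`    : the `tr₁` instance with the representatives `S41.rep₁ M q`;
* `prod_slash_reps_mem`    : the same for ANY system of representatives `r : ι → Γ₀(M)` of
                             `Γ₀(Mq) \ Γ₀(M)` (hypotheses of `S41.tr₁_apply_of_reps`);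
* `prod_slash_reps_mem_MF` : trivial multiplier (denominators): `S20.MF (Mq) w → S20.MF M (w·card ι)`;
* `prod_slash_ne_zero`     : the product of the slashes of a nonzero holomorphic function is nonzero.
-/
import Mathlib
import Fermat.Agent.S29.KDefs
import Fermat.Agent.S29.KPlanDefs
import Fermat.Agent.S29.HeckeProdMem
import Fermat.Agent.S29.HolIC
import Fermat.Agent.S41.Defs
import Fermat.Agent.S41.TrReps

set_option autoImplicit false

noncomputable section

namespace Fermat.Agent.S35.TrProdMem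

open CongruenceSubgroup UpperHalfPlane Matrix.SpecialLinearGroup Filter
open scoped MatrixGroups Manifold ModularForm
open ModularForm
open Fermat.Agent.S29 Fermat.Agent.S41

/-! ### Generic form -/

/-- Slashing a finite product by an element of `SL₂(ℤ)`. -/
theorem prod_slash_SL {ι : Type} [Fintype ι] (w : ℤ) (f : ι → ℍ → ℂ) (g : SL(2, ℤ)) :
    (∏ i, f i) ∣[w * (Fintype.card ι : ℤ)] g = ∏ i, (f i) ∣[w] g := by
  have h := ModularForm.prod_slash (k := w) (g := (mapGL ℝ g)) (f := f)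
    (s := (Finset.univ : Finset ι))
  rw [Finset.card_univ] at h
  change (∏ i, f i) ∣[w * (Fintype.card ι : ℤ)] (mapGL ℝ g) = ∏ i, (f i) ∣[w] (mapGL ℝ g)
  rw [h]
  simp

/-- **[D1], generic form.**  The product of the slashes of a form `A` of weight `w` and
multiplier `χ` on `Γ₀(N)` through a system of representatives `r i ∈ SL₂(ℤ)` with coset data
`r i * γ = part γ i * r (perm γ i)` (`γ ∈ Γ₀(N')`) is a form of weight `w · card ι` on `Γ₀(N')`
with multiplier the transfer `γ ↦ ∏ i, χ (part γ i)` of `χ` (holomorphic, bounded at all cusps). -/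
theorem prod_slash_mem {N N' : ℕ} {ι : Type} [Fintype ι] (r : ι → SL(2, ℤ))
    (perm : ↥(Gamma0 N') → Equiv.Perm ι) (part : ↥(Gamma0 N') → ι → ↥(Gamma0 N))
    (hspec : ∀ (γ : ↥(Gamma0 N')) (i : ι),
      r i * (γ : SL(2, ℤ)) = ((part γ i : ↥(Gamma0 N)) : SL(2, ℤ)) * r (perm γ i))
    (w : ℤ) (χ : ↥(Gamma0 N) →* ℂˣ) (χ' : ↥(Gamma0 N') →* ℂˣ)
    (hχ' : ∀ γ : ↥(Gamma0 N'), χ' γ = ∏ i, χ (part γ i)) {A : ℍ → ℂ}
    (hA : A ∈ K.MFchi N w χ) :
    (∏ i, A ∣[w] r i) ∈ K.MFchi N' (w * (Fintype.card ι : ℤ)) χ' := by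
  obtain ⟨hA1, hA2, hA3⟩ := hA
  refine ⟨?_, fun γ => ?_, fun g => ?_⟩
  · exact MDifferentiable.prod (fun x _ => hA1.slash w _)
  · rw [prod_slash_SL]
    have h1 : ∀ i, (A ∣[w] r i) ∣[w] (γ : SL(2, ℤ)) =
        ((χ (part γ i) : ℂˣ) : ℂ) • (A ∣[w] r (perm γ i)) := by
      intro i
      rw [← SlashAction.slash_mul, hspec, SlashAction.slash_mul, hA2, ModularForm.SL_smul_slash]
    simp only [h1]
    rw [Finset.prod_smul, hχ', Units.coe_prod]
    congr 1
    exact Equiv.prod_comp (perm γ) (fun i => A ∣[w] r i)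
  · rw [prod_slash_SL]
    refine BoundedAtFilter.prod _ (fun i _ => ?_)
    rw [← SlashAction.slash_mul]
    exact hA3 _

/-- The product of the slashes of a nonzero holomorphic function is nonzero. -/
theorem prod_slash_ne_zero {ι : Type} [Fintype ι] (r : ι → SL(2, ℤ)) (w : ℤ) {B : ℍ → ℂ}
    (hB : MDiff B) (hB0 : B ≠ 0) : (∏ i, B ∣[w] r i) ≠ 0 := by
  classical
  have := HolIC.isDomain_holSub
  have hmem : ∀ i, B ∣[w] r i ∈ S24.holSub := fun i =>
    S24.mem_holSub.mpr (hB.slash w _)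
  have hne : ∀ i, (⟨B ∣[w] r i, hmem i⟩ : S24.holSub) ≠ 0 := by
    intro i h
    have h' : B ∣[w] r i = 0 := congrArg Subtype.val h
    rw [SlashAction.slash_eq_zero_iff] at h'
    exact hB0 h'
  have hprod : (∏ i, (⟨B ∣[w] r i, hmem i⟩ : S24.holSub)) ≠ 0 :=
    Finset.prod_ne_zero_iff.mpr (fun i _ => hne i)
  intro h
  apply hprod
  apply Subtype.ext
  rw [SubmonoidClass.coe_finsetProd]
  exact h

/-! ### The transfer of `χ_u` -/

/-- a product of integer powers of a group element is the power with the summed exponent. -/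
theorem prod_zpow_eq {ι G : Type*} [CommGroup G] (s : Finset ι) (ζ : G) (f : ι → ℤ) :
    ∏ i ∈ s, ζ ^ f i = ζ ^ ∑ i ∈ s, f i := by
  classical
  induction s using Finset.induction_on with
  | empty => simp
  | insert a s ha ih => rw [Finset.prod_insert ha, Finset.sum_insert ha, ih, zpow_add]

variable (M q : ℕ)

/-- **Character form**: for ANY system of representatives of `Γ₀(Mq) \ Γ₀(M)` with coset data
`r i * γ = incl₁ (part i) * r (σ i)`, `χ_{tr₁ u}(γ) = ∏ i, χ_u (part i)`. -/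
theorem chiU_tr₁_apply_of_reps (p : ℕ) (u : Additive (Gamma0 (M * q)) →+ ℤ)
    {ι : Type*} [Fintype ι] (r : ι → Gamma0 M)
    (hcov : ∀ g : Gamma0 M, ∃ i, ∃ h : Gamma0 (M * q), g = incl₁ M q h * r i)
    (hinj : ∀ i j, (∃ h : Gamma0 (M * q), r i = incl₁ M q h * r j) → i = j)
    (γ : Gamma0 M) (σ : ι → ι) (part : ι → Gamma0 (M * q))
    (hspec : ∀ i, r i * γ = incl₁ M q (part i) * r (σ i)) :
    KPlan.chiU p (tr₁ M q u) γ = ∏ i, KPlan.chiU p u (part i) := by
  rw [KPlan.chiU_apply, tr₁_apply_of_reps M q r hcov hinj γ σ part hspec u]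
  simp only [KPlan.chiU_apply]
  exact (prod_zpow_eq Finset.univ _ _).symm

/-! ### Any system of representatives -/

section Reps

variable {M q}
variable {ι : Type} [Fintype ι] (r : ι → Gamma0 M)

/-- the index of the coset of `r i * γ`. -/
def repIdx (hcov : ∀ g : Gamma0 M, ∃ i, ∃ h : Gamma0 (M * q), g = incl₁ M q h * r i)
    (γ : Gamma0 M) (i : ι) : ι := (hcov (r i * γ)).choose

/-- the `Γ₀(Mq)`-part of `r i * γ`. -/
def repPart (hcov : ∀ g : Gamma0 M, ∃ i, ∃ h : Gamma0 (M * q), g = incl₁ M q h * r i)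
    (γ : Gamma0 M) (i : ι) : Gamma0 (M * q) := (hcov (r i * γ)).choose_spec.choose

omit [Fintype ι] in
theorem rep_spec (hcov : ∀ g : Gamma0 M, ∃ i, ∃ h : Gamma0 (M * q), g = incl₁ M q h * r i)
    (γ : Gamma0 M) (i : ι) :
    r i * γ = incl₁ M q (repPart r hcov γ i) * r (repIdx r hcov γ i) :=
  (hcov (r i * γ)).choose_spec.choose_spec

omit [Fintype ι] in
theorem repIdx_injective
    (hcov : ∀ g : Gamma0 M, ∃ i, ∃ h : Gamma0 (M * q), g = incl₁ M q h * r i)
    (hinj : ∀ i j, (∃ h : Gamma0 (M * q), r i = incl₁ M q h * r j) → i = j)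
    (γ : Gamma0 M) : Function.Injective (repIdx r hcov γ) := by
  intro i j hij
  apply hinj
  have hi := rep_spec r hcov γ i
  have hj := rep_spec r hcov γ j
  rw [hij] at hi
  refine ⟨repPart r hcov γ i * (repPart r hcov γ j)⁻¹, ?_⟩
  have h1 : r i = incl₁ M q (repPart r hcov γ i) * r (repIdx r hcov γ j) * γ⁻¹ := by
    rw [← hi, mul_inv_cancel_right]
  have h2 : r (repIdx r hcov γ j) * γ⁻¹ = (incl₁ M q (repPart r hcov γ j))⁻¹ * r j := by
    rw [eq_inv_mul_iff_mul_eq, ← mul_assoc, ← hj, mul_inv_cancel_right]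
  rw [h1, mul_assoc, h2, map_mul, map_inv, mul_assoc]

/-- the permutation of the index set induced by right multiplication by `γ`. -/
def repPerm (hcov : ∀ g : Gamma0 M, ∃ i, ∃ h : Gamma0 (M * q), g = incl₁ M q h * r i)
    (hinj : ∀ i j, (∃ h : Gamma0 (M * q), r i = incl₁ M q h * r j) → i = j)
    (γ : Gamma0 M) : Equiv.Perm ι :=
  Equiv.ofBijective (repIdx r hcov γ)
    (Finite.injective_iff_bijective.mp (repIdx_injective r hcov hinj γ))

theorem repPerm_apply (hcov : ∀ g : Gamma0 M, ∃ i, ∃ h : Gamma0 (M * q), g = incl₁ M q h * r i)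
    (hinj : ∀ i j, (∃ h : Gamma0 (M * q), r i = incl₁ M q h * r j) → i = j)
    (γ : Gamma0 M) (i : ι) :
    repPerm r hcov hinj γ i = repIdx r hcov γ i := rfl

/-- **[D1] for any system of representatives of `Γ₀(Mq) \ Γ₀(M)`**: if `A` is a form of weight
`w` on `Γ₀(Mq)` with multiplier `χ_u`, then `∏ i, A ∣[w] r i` is a form of weight `w · card ι`
on `Γ₀(M)` with multiplier `χ_{tr₁ u}`. -/
theorem prod_slash_reps_mem
    (hcov : ∀ g : Gamma0 M, ∃ i, ∃ h : Gamma0 (M * q), g = incl₁ M q h * r i)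
    (hinj : ∀ i j, (∃ h : Gamma0 (M * q), r i = incl₁ M q h * r j) → i = j)
    (p : ℕ) (u : Additive (Gamma0 (M * q)) →+ ℤ) {w : ℤ} {A : ℍ → ℂ}
    (hA : A ∈ K.MFchi (M * q) w (KPlan.chiU p u)) :
    (∏ i, A ∣[w] ((r i : Gamma0 M) : SL(2, ℤ))) ∈
      K.MFchi M (w * (Fintype.card ι : ℤ)) (KPlan.chiU p (tr₁ M q u)) := by
  refine prod_slash_mem (fun i => ((r i : Gamma0 M) : SL(2, ℤ))) (repPerm r hcov hinj)
    (repPart r hcov) (fun γ i => ?_) w _ _ (fun γ => ?_) hA
  · have h := congrArg (fun g : Gamma0 M => (g : SL(2, ℤ))) (rep_spec r hcov γ i)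
    exact h
  · exact chiU_tr₁_apply_of_reps M q p u r hcov hinj γ (repIdx r hcov γ) (repPart r hcov γ)
      (rep_spec r hcov γ)

/-- **[D1], kernel of the transfer**: if `tr₁ u = 0`, the product has trivial multiplier. -/
theorem prod_slash_reps_mem_MF_of_tr₁_eq_zero [NeZero M]
    (hcov : ∀ g : Gamma0 M, ∃ i, ∃ h : Gamma0 (M * q), g = incl₁ M q h * r i)
    (hinj : ∀ i j, (∃ h : Gamma0 (M * q), r i = incl₁ M q h * r j) → i = j)
    (p : ℕ) (u : Additive (Gamma0 (M * q)) →+ ℤ) (hu : tr₁ M q u = 0) {w : ℤ} {A : ℍ → ℂ}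
    (hA : A ∈ K.MFchi (M * q) w (KPlan.chiU p u)) :
    (∏ i, A ∣[w] ((r i : Gamma0 M) : SL(2, ℤ))) ∈ S20.MF M (w * (Fintype.card ι : ℤ)) := by
  have h := prod_slash_reps_mem r hcov hinj p u hA
  rw [hu, KPlan.chiU_zero] at h
  exact HeckeProdMem.mem_MF_iff_mem_MFchi_one.mpr h

/-- **[D1] for the denominators**: the product of the slashes of a form with trivial multiplier
on `Γ₀(Mq)` is a form with trivial multiplier on `Γ₀(M)`. -/
theorem prod_slash_reps_mem_MF [NeZero M] [NeZero (M * q)]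
    (hcov : ∀ g : Gamma0 M, ∃ i, ∃ h : Gamma0 (M * q), g = incl₁ M q h * r i)
    (hinj : ∀ i j, (∃ h : Gamma0 (M * q), r i = incl₁ M q h * r j) → i = j)
    {w : ℤ} {B : ℍ → ℂ} (hB : B ∈ S20.MF (M * q) w) :
    (∏ i, B ∣[w] ((r i : Gamma0 M) : SL(2, ℤ))) ∈ S20.MF M (w * (Fintype.card ι : ℤ)) := by
  have hB' : B ∈ K.MFchi (M * q) w (KPlan.chiU 1 (0 : Additive (Gamma0 (M * q)) →+ ℤ)) := by
    rw [KPlan.chiU_zero]
    exact HeckeProdMem.mem_MF_iff_mem_MFchi_one.mp hB
  have h := prod_slash_reps_mem r hcov hinj 1 0 hB'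
  have h0 : tr₁ M q (0 : Additive (Gamma0 (M * q)) →+ ℤ) = 0 := tr₁_zero M q
  rw [h0, KPlan.chiU_zero] at h
  exact HeckeProdMem.mem_MF_iff_mem_MFchi_one.mpr h

end Reps

/-! ### The representatives `S41.rep₁` -/

section Rep₁

variable {M q}
variable [Fact q.Prime] (hqM : ¬ q ∣ M)

include hqM in
/-- **[D1], `tr₁` instance** with the representatives `S41.rep₁ M q` of `Γ₀(Mq) \ Γ₀(M)`
(indexed by `ℙ¹(𝔽_q)`): weight `w (q + 1)`, multiplier `χ_{tr₁ u}`. -/
theorem prod_slash_rep₁_mem (p : ℕ) (u : Additive (Gamma0 (M * q)) →+ ℤ) {w : ℤ} {A : ℍ → ℂ}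
    (hA : A ∈ K.MFchi (M * q) w (KPlan.chiU p u)) :
    (∏ x : OnePoint (ZMod q), A ∣[w] ((rep₁ M q x : Gamma0 M) : SL(2, ℤ))) ∈
      K.MFchi M (w * ((q : ℤ) + 1)) (KPlan.chiU p (tr₁ M q u)) := by
  have h := prod_slash_reps_mem (rep₁ M q) (rep₁_cov hqM) (rep₁_dis hqM) p u hA
  have hc : (Fintype.card (OnePoint (ZMod q)) : ℤ) = (q : ℤ) + 1 := by
    rw [card_onePoint_zmod]
    push_cast
    rfl
  rwa [hc] at h

end Rep₁

end Fermat.Agent.S35.TrProdMem
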