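/-
S35 block [D] (bridge `J ↔ Lpar`), leaf [D1b] — TrRepsW.lean (helper26): the ATKIN–LEHNER-SHAPED
SYSTEM OF REPRESENTATIVES `{1} ∪ {γ₀ T^j : j ∈ ℤ/q}` of `Γ₀(Mq) \ Γ₀(M)`, for any `γ₀ ∈ SL₂(ℤ)`
with bottom row `(M, q)` (e.g. the matrix `γ₀ = !![a, b; M, q]` of `S37/AtkinLehner`), and the
transfer product of `S35/TrProdMem.lean` for these representatives:

  `A ∈ MFchi (Mq) w χ_u  ⇒  A * ∏ j : ZMod q, A ∣[w] (γ₀ T^j) ∈ MFchi M (w (q + 1)) χ_{tr₁ u}`.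

* `mem_Gamma0_mul_T_zpow`, `repW`, `p1Act_repW`, `isActReps_repW`, `repW_cov`, `repW_dis`;
* `mul_prod_slash_mem`, `mul_prod_slash_mem_MF_of_tr₁_eq_zero`, `mul_prod_slash_mem_MF`,
  `mul_prod_slash_ne_zero`;
* `deltaW` : `δ = γ₀ T^q γ₀⁻¹ ∈ Γ₀(Mq)`, `deltaW_mul : δ * γ₀ = γ₀ * T^q`, `chiU_deltaW : χ_u δ = 1`
  for `u ∈ Lpar (Mq)`, hence `slash_mul_T_zpow_q : A ∣[w] (γ₀ * T^q) = A ∣[w] γ₀`
  (the period of `z ↦ (A ∣[w] γ₀)(q z)`).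
-/
import Mathlib
import Fermat.Agent.S29.KDefs
import Fermat.Agent.S29.KPlanDefs
import Fermat.Agent.S41.Defs
import Fermat.Agent.S41.TrGen
import Fermat.Agent.S41.TrReps
import Fermat.Agent.S35.TrProdMem

set_option autoImplicit false

noncomputable section

namespace Fermat.Agent.S35.TrRepsW

open CongruenceSubgroup UpperHalfPlane Matrix.SpecialLinearGroup Filter OnePoint
open scoped MatrixGroups Manifold ModularForm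
open ModularForm
open Fermat.Agent.S29 Fermat.Agent.S41

variable {M q : ℕ}

/-! ### The representatives -/

theorem mul_T_zpow_apply_one_zero (γ₀ : SL(2, ℤ)) (n : ℤ) :
    (γ₀ * ModularGroup.T ^ n) 1 0 = γ₀ 1 0 := by
  rw [Matrix.SpecialLinearGroup.coe_mul, ModularGroup.coe_T_zpow, Matrix.mul_apply,
    Fin.sum_univ_two]
  simp

theorem mul_T_zpow_apply_one_one (γ₀ : SL(2, ℤ)) (n : ℤ) :
    (γ₀ * ModularGroup.T ^ n) 1 1 = γ₀ 1 0 * n + γ₀ 1 1 := by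
  rw [Matrix.SpecialLinearGroup.coe_mul, ModularGroup.coe_T_zpow, Matrix.mul_apply,
    Fin.sum_univ_two]
  simp

theorem mem_Gamma0_mul_T_zpow (γ₀ : SL(2, ℤ)) (h10 : γ₀ 1 0 = (M : ℤ)) (n : ℤ) :
    γ₀ * ModularGroup.T ^ n ∈ Gamma0 M := by
  rw [Fermat.Agent.S16.mem_Gamma0_iff_dvd, mul_T_zpow_apply_one_zero, h10]

/-- The representatives `r ∞ = 1`, `r j = γ₀ T^j` of `Γ₀(Mq) \ Γ₀(M)`. -/
def repW (γ₀ : SL(2, ℤ)) (h10 : γ₀ 1 0 = (M : ℤ)) (x : OnePoint (ZMod q)) : Gamma0 M :=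
  x.elim 1 (fun j => ⟨γ₀ * ModularGroup.T ^ (j.val : ℤ), mem_Gamma0_mul_T_zpow γ₀ h10 _⟩)

theorem repW_infty (γ₀ : SL(2, ℤ)) (h10 : γ₀ 1 0 = (M : ℤ)) :
    repW (q := q) γ₀ h10 ∞ = 1 := rfl

theorem coe_repW_coe (γ₀ : SL(2, ℤ)) (h10 : γ₀ 1 0 = (M : ℤ)) (j : ZMod q) :
    ((repW γ₀ h10 (j : OnePoint (ZMod q)) : Gamma0 M) : SL(2, ℤ)) =
      γ₀ * ModularGroup.T ^ (j.val : ℤ) := rfl

variable [Fact q.Prime]

theorem p1Act_repW (hqM : ¬ q ∣ M) (γ₀ : SL(2, ℤ)) (h10 : γ₀ 1 0 = (M : ℤ))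
    (h11 : γ₀ 1 1 = (q : ℤ)) (x : OnePoint (ZMod q)) :
    p1Act M q (repW γ₀ h10 x) ∞ = x := by
  induction x using OnePoint.rec with
  | infty =>
    rw [p1Act_infty]
    have : (((repW γ₀ h10 (∞ : OnePoint (ZMod q)) : Gamma0 M) : SL(2, ℤ)) 1 0 : ℤ) = 0 := by
      show ((1 : Gamma0 M) : SL(2, ℤ)) 1 0 = 0
      simp
    rw [this, Int.cast_zero, if_pos rfl]
  | coe j =>
    rw [p1Act_infty, coe_repW_coe, mul_T_zpow_apply_one_zero, mul_T_zpow_apply_one_one, h10, h11]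
    have hM := natCast_N_ne_zero hqM
    push_cast
    rw [if_neg hM, ZMod.natCast_zmod_val, ZMod.natCast_self, add_zero]
    congr 1
    field_simp

/-- The representatives `{1} ∪ {γ₀ T^j}` form a system of representatives of
`Γ₀(Mq) \ Γ₀(M)` adapted to the action on `ℙ¹(𝔽_q)`. -/
theorem isActReps_repW (hqM : ¬ q ∣ M) (γ₀ : SL(2, ℤ)) (h10 : γ₀ 1 0 = (M : ℤ))
    (h11 : γ₀ 1 1 = (q : ℤ)) :
    IsActReps (incl₁ M q) (p1Act M q) (∞ : OnePoint (ZMod q)) (repW γ₀ h10) where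
  inj := (isActReps₁ M q hqM).inj
  act_mul := (isActReps₁ M q hqM).act_mul
  fix := (isActReps₁ M q hqM).fix
  stab := (isActReps₁ M q hqM).stab
  rep := p1Act_repW hqM γ₀ h10 h11

theorem repW_cov (hqM : ¬ q ∣ M) (γ₀ : SL(2, ℤ)) (h10 : γ₀ 1 0 = (M : ℤ))
    (h11 : γ₀ 1 1 = (q : ℤ)) (g : Gamma0 M) :
    ∃ x : OnePoint (ZMod q), ∃ h : Gamma0 (M * q), g = incl₁ M q h * repW γ₀ h10 x :=
  (isActReps_repW hqM γ₀ h10 h11).cov g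

theorem repW_dis (hqM : ¬ q ∣ M) (γ₀ : SL(2, ℤ)) (h10 : γ₀ 1 0 = (M : ℤ))
    (h11 : γ₀ 1 1 = (q : ℤ)) (x y : OnePoint (ZMod q))
    (h : ∃ h : Gamma0 (M * q), repW γ₀ h10 x = incl₁ M q h * repW γ₀ h10 y) : x = y :=
  (isActReps_repW hqM γ₀ h10 h11).dis x y h

/-! ### The transfer product for these representatives -/

omit [Fact q.Prime] in
/-- The product over `ℙ¹(𝔽_q)` splits off the factor at `∞`. -/
theorem prod_repW_eq (γ₀ : SL(2, ℤ)) (h10 : γ₀ 1 0 = (M : ℤ)) [NeZero q] (w : ℤ) (A : ℍ → ℂ) :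
    (∏ x : OnePoint (ZMod q), A ∣[w] ((repW γ₀ h10 x : Gamma0 M) : SL(2, ℤ))) =
      A * ∏ j : ZMod q, A ∣[w] (γ₀ * ModularGroup.T ^ (j.val : ℤ)) := by
  have h := Fintype.prod_option
    (fun x : Option (ZMod q) => A ∣[w] ((repW γ₀ h10 x : Gamma0 M) : SL(2, ℤ)))
  have h1 : (A ∣[w] ((repW γ₀ h10 (none : Option (ZMod q)) : Gamma0 M) : SL(2, ℤ))) = A := by
    show A ∣[w] ((1 : Gamma0 M) : SL(2, ℤ)) = A
    rw [Subgroup.coe_one, SlashAction.slash_one]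
  rw [h1] at h
  exact h

theorem card_onePoint : (Fintype.card (OnePoint (ZMod q)) : ℤ) = (q : ℤ) + 1 := by
  rw [card_onePoint_zmod]
  push_cast
  rfl

/-- **[D1] for the representatives `{1} ∪ {γ₀ T^j}`**: if `A` is a form of weight `w` on
`Γ₀(Mq)` with multiplier `χ_u`, then `A * ∏ j, A ∣[w] (γ₀ T^j)` is a form of weight `w (q + 1)`
on `Γ₀(M)` with multiplier `χ_{tr₁ u}`. -/
theorem mul_prod_slash_mem (hqM : ¬ q ∣ M) (γ₀ : SL(2, ℤ)) (h10 : γ₀ 1 0 = (M : ℤ))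
    (h11 : γ₀ 1 1 = (q : ℤ)) (p : ℕ) (u : Additive (Gamma0 (M * q)) →+ ℤ) {w : ℤ} {A : ℍ → ℂ}
    (hA : A ∈ K.MFchi (M * q) w (KPlan.chiU p u)) :
    (A * ∏ j : ZMod q, A ∣[w] (γ₀ * ModularGroup.T ^ (j.val : ℤ))) ∈
      K.MFchi M (w * ((q : ℤ) + 1)) (KPlan.chiU p (tr₁ M q u)) := by
  have : NeZero q := ⟨(Fact.out : q.Prime).ne_zero⟩
  have h := TrProdMem.prod_slash_reps_mem (repW γ₀ h10) (repW_cov hqM γ₀ h10 h11)
    (repW_dis hqM γ₀ h10 h11) p u hA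
  rwa [card_onePoint, prod_repW_eq] at h

/-- **[D1], kernel of the transfer**: if `tr₁ u = 0`, the product has trivial multiplier. -/
theorem mul_prod_slash_mem_MF_of_tr₁_eq_zero [NeZero M] (hqM : ¬ q ∣ M) (γ₀ : SL(2, ℤ))
    (h10 : γ₀ 1 0 = (M : ℤ)) (h11 : γ₀ 1 1 = (q : ℤ)) (p : ℕ)
    (u : Additive (Gamma0 (M * q)) →+ ℤ) (hu : tr₁ M q u = 0) {w : ℤ} {A : ℍ → ℂ}
    (hA : A ∈ K.MFchi (M * q) w (KPlan.chiU p u)) :
    (A * ∏ j : ZMod q, A ∣[w] (γ₀ * ModularGroup.T ^ (j.val : ℤ))) ∈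
      S20.MF M (w * ((q : ℤ) + 1)) := by
  have h := mul_prod_slash_mem hqM γ₀ h10 h11 p u hA
  rw [hu, KPlan.chiU_zero] at h
  exact HeckeProdMem.mem_MF_iff_mem_MFchi_one.mpr h

/-- **[D1] for the denominators**: trivial multiplier on `Γ₀(Mq)` gives trivial multiplier on
`Γ₀(M)`. -/
theorem mul_prod_slash_mem_MF [NeZero M] (hqM : ¬ q ∣ M) (γ₀ : SL(2, ℤ))
    (h10 : γ₀ 1 0 = (M : ℤ)) (h11 : γ₀ 1 1 = (q : ℤ)) {w : ℤ} {B : ℍ → ℂ}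
    (hB : B ∈ S20.MF (M * q) w) :
    (B * ∏ j : ZMod q, B ∣[w] (γ₀ * ModularGroup.T ^ (j.val : ℤ))) ∈
      S20.MF M (w * ((q : ℤ) + 1)) := by
  have : NeZero q := ⟨(Fact.out : q.Prime).ne_zero⟩
  have : NeZero (M * q) := ⟨Nat.mul_ne_zero (NeZero.ne M) (NeZero.ne q)⟩
  have h := TrProdMem.prod_slash_reps_mem_MF (repW γ₀ h10) (repW_cov hqM γ₀ h10 h11)
    (repW_dis hqM γ₀ h10 h11) hB
  rwa [card_onePoint, prod_repW_eq] at h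

omit [Fact q.Prime] in
/-- The product is nonzero for a nonzero holomorphic function. -/
theorem mul_prod_slash_ne_zero [NeZero q] (γ₀ : SL(2, ℤ)) (w : ℤ) {B : ℍ → ℂ}
    (hB : MDiff B) (hB0 : B ≠ 0) :
    (B * ∏ j : ZMod q, B ∣[w] (γ₀ * ModularGroup.T ^ (j.val : ℤ))) ≠ 0 := by
  have h := TrProdMem.prod_slash_ne_zero
    (fun x : Option (ZMod q) => x.elim (1 : SL(2, ℤ)) (fun j => γ₀ * ModularGroup.T ^ (j.val : ℤ)))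
    w hB hB0
  rw [Fintype.prod_option] at h
  have h1 : B ∣[w] (1 : SL(2, ℤ)) = B := SlashAction.slash_one w B
  simpa [h1] using h

/-! ### The period of `z ↦ (A ∣[w] γ₀)(q z)` -/

omit [Fact q.Prime] in
/-- `δ = γ₀ T^q γ₀⁻¹` lies in `Γ₀(Mq)` when the bottom left entry of `γ₀` is `M`. -/
theorem conj_T_zpow_mem (γ₀ : SL(2, ℤ)) (h10 : γ₀ 1 0 = (M : ℤ)) :
    γ₀ * ModularGroup.T ^ (q : ℤ) * γ₀⁻¹ ∈ Gamma0 (M * q) := by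
  rw [Fermat.Agent.S16.mem_Gamma0_iff_dvd]
  have h : (γ₀ * ModularGroup.T ^ (q : ℤ) * γ₀⁻¹) 1 0 = -((q : ℤ) * (γ₀ 1 0) ^ 2) := by
    rw [Matrix.SpecialLinearGroup.coe_mul, Matrix.SpecialLinearGroup.coe_mul,
      ModularGroup.coe_T_zpow, Matrix.SpecialLinearGroup.coe_inv, Matrix.adjugate_fin_two]
    simp [Matrix.mul_apply, Fin.sum_univ_two]
    ring
  rw [h, h10]
  refine (Dvd.intro ((M : ℤ)) ?_).neg_right
  push_cast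
  ring

/-- `δ = γ₀ T^q γ₀⁻¹` as an element of `Γ₀(Mq)`. -/
def deltaW (γ₀ : SL(2, ℤ)) (h10 : γ₀ 1 0 = (M : ℤ)) : Gamma0 (M * q) :=
  ⟨γ₀ * ModularGroup.T ^ (q : ℤ) * γ₀⁻¹, conj_T_zpow_mem γ₀ h10⟩

omit [Fact q.Prime] in
theorem deltaW_mul (γ₀ : SL(2, ℤ)) (h10 : γ₀ 1 0 = (M : ℤ)) :
    ((deltaW (q := q) γ₀ h10 : Gamma0 (M * q)) : SL(2, ℤ)) * γ₀ = γ₀ * ModularGroup.T ^ (q : ℤ) := by
  show γ₀ * ModularGroup.T ^ (q : ℤ) * γ₀⁻¹ * γ₀ = _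
  rw [inv_mul_cancel_right]

omit [Fact q.Prime] in
theorem trace_deltaW (γ₀ : SL(2, ℤ)) (h10 : γ₀ 1 0 = (M : ℤ)) :
    (((deltaW (q := q) γ₀ h10 : Gamma0 (M * q)) : SL(2, ℤ)) :
      Matrix (Fin 2) (Fin 2) ℤ).trace = 2 := by
  show ((γ₀ * ModularGroup.T ^ (q : ℤ) * γ₀⁻¹ : SL(2, ℤ)) : Matrix (Fin 2) (Fin 2) ℤ).trace = 2
  rw [Matrix.SpecialLinearGroup.coe_mul, Matrix.SpecialLinearGroup.coe_mul, Matrix.trace_mul_comm,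
    ← Matrix.mul_assoc, ← Matrix.SpecialLinearGroup.coe_mul, inv_mul_cancel,
    Matrix.SpecialLinearGroup.coe_one, Matrix.one_mul, ModularGroup.coe_T_zpow,
    Matrix.trace_fin_two_of]
  norm_num

omit [Fact q.Prime] in
/-- `χ_u(δ) = 1` for `u ∈ Lpar (Mq)` (`δ` is parabolic). -/
theorem chiU_deltaW (γ₀ : SL(2, ℤ)) (h10 : γ₀ 1 0 = (M : ℤ)) (p : ℕ) (u : Lpar (M * q)) :
    KPlan.chiU p (u : Additive (Gamma0 (M * q)) →+ ℤ) (deltaW γ₀ h10) = 1 := by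
  apply KPlan.chiU_eq_one_of_trace
  rw [trace_deltaW]
  norm_num

omit [Fact q.Prime] in
/-- **Period**: for `A` with multiplier `χ_u`, `u ∈ Lpar (Mq)`: `A ∣[w] (γ₀ T^q) = A ∣[w] γ₀`. -/
theorem slash_mul_T_zpow_q (γ₀ : SL(2, ℤ)) (h10 : γ₀ 1 0 = (M : ℤ)) (p : ℕ) (u : Lpar (M * q))
    {w : ℤ} {A : ℍ → ℂ}
    (hA : A ∈ K.MFchi (M * q) w (KPlan.chiU p (u : Additive (Gamma0 (M * q)) →+ ℤ))) :
    A ∣[w] (γ₀ * ModularGroup.T ^ (q : ℤ)) = A ∣[w] γ₀ := by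
  rw [← deltaW_mul γ₀ h10, SlashAction.slash_mul, hA.2.1, chiU_deltaW, Units.val_one, one_smul]

end Fermat.Agent.S35.TrRepsW
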