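/-
S35 block [D] (bridge), leaf [TrNorm] — TrNorm.lean (helper17): the GLUE of the transfer norm,
`α`-half closed, and the formal core used by both halves.

Level `M q`, `q` prime, `q ∤ M`; `u ∈ Lpar (M q)`, `y` a witness of `u` at torsion order `m`
(forms `(A, B)` of level `M q`: `embC y · qx B = qx A`, `A` with multiplier `χ_u`), `f ∈ F̄_{M q}`
with `f = y ^ m`.  If `tr₁ u = 0` then the norm of `f` along `α` is `c · h ^ m` with `h ∈ F̄_M`,
`c ∈ ℚ̄ˣ`  (`KTrPlan.KTrAlphaStatement M q m`).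

Proof.  `A' := A · ∏_j A ∣ γ₀ T^j`, `B' := B · ∏_j B ∣ γ₀ T^j` are forms of level `M` with TRIVIAL
multiplier (`TrRepsW`), so `hC := qx A' / qx B' ∈ F_ℂ(M)` (`TrDesc.mem_FC_of_forms` = (K1));
`qx A' = qx A · NP (qx (AW A))` (`TrQx.qx_trProd`), hence
`hC(Q^q) = embC y (Q^q) · ∏_{i<q} y_W(ζ^i Q)` with `y_W = qx (AW A) / qx (AW B)`, and
`y_W ^ m = embC (wBar f)` (`ALQx.alqx_pow`); so `hC ^ m = embC (Nm_α f)` by the norm formula
`NormRed.qExpand_norm_alpha`; finally `TrDesc.exists_root_of_pow_eq`.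

* `rotProd`, `coeffMap_prod_rotHom` : the product of the `q` rotations, over `ℂ` and over `ℚ̄`;
* `qExpand_div_eq`                  : the formal core (both halves; constant `c` allowed);
* `exists_gamma0`                   : a matrix `γ₀ = !![a, b; M, q] ∈ SL(2, ℤ)`;
* `kTrAlpha`                        : **`KTrPlan.KTrAlphaStatement M q m`**.
-/
import Mathlib
import Fermat.Prelude.Thm_ModularCurve_coeffMap_qExpand
import Fermat.Agent.S29.KDefs
import Fermat.Agent.S29.KBasic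
import Fermat.Agent.S29.KPlanDefs
import Fermat.Agent.S29.HeckeProdQxB
import Fermat.Agent.S29.K6Hecke
import Fermat.Agent.S37.KC
import Fermat.Agent.S35.TrDesc
import Fermat.Agent.S35.ALQx
import Fermat.Agent.S35.TrRepsW
import Fermat.Agent.S35.TrQx
import Fermat.Agent.S35.NormRed
import Fermat.Agent.S35.PushPic
import Fermat.Agent.S35.KTrPlan

set_option autoImplicit false

noncomputable section

namespace Fermat.Agent.S35.TrNorm

open UpperHalfPlane ModularForm CongruenceSubgroup ModularCurve AlgebraicCurve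
open scoped MatrixGroups ModularForm Manifold
open Fermat.Agent.S29 Fermat.Agent.S37 Fermat.Agent.S24 Fermat.Agent.S41

local notation "Qb" => AlgebraicClosure ℚ

/-! ### The product of the `q` rotations -/

/-- `X ↦ ∏_{i<q} X(ζ^i Q)`, `ζ = exp(2πi/q)`. -/
def rotProd (q : ℕ) (X : LaurentSeries ℂ) : LaurentSeries ℂ :=
  ∏ i ∈ Finset.range q, KC.twist (HeckeProdQxB.zetaUnit q ^ i) X

theorem rotProd_mul (q : ℕ) (X Y : LaurentSeries ℂ) :
    rotProd q (X * Y) = rotProd q X * rotProd q Y := by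
  unfold rotProd
  rw [← Finset.prod_mul_distrib]
  exact Finset.prod_congr rfl fun i _ => map_mul _ _ _

theorem rotProd_pow (q : ℕ) (X : LaurentSeries ℂ) (n : ℕ) :
    rotProd q (X ^ n) = rotProd q X ^ n := by
  unfold rotProd
  rw [← Finset.prod_pow]
  exact Finset.prod_congr rfl fun i _ => map_pow _ _ _

theorem rotProd_ne_zero (q : ℕ) {X : LaurentSeries ℂ} (hX : X ≠ 0) : rotProd q X ≠ 0 := by
  unfold rotProd
  rw [Finset.prod_ne_zero_iff]
  intro i _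
  exact (map_ne_zero_iff _ (KC.twist_injective (HeckeProdQxB.zetaUnit q ^ i))).mpr hX

theorem qExpand_NP (q : ℕ) [NeZero q] (X : LaurentSeries ℂ) :
    qExpand ℂ q (TrQx.NP q X) = rotProd q X :=
  TrQx.qExpand_NP q X

/-- Base change of the product of rotations from `ℚ̄` (any primitive root) to `ℂ`. -/
theorem coeffMap_prod_rotHom (q : ℕ) [NeZero q] (ζ : Qb) (hζ : IsPrimitiveRoot ζ q)
    (hz : ∀ i : ℕ, ζ ^ i ≠ 0) (z : LaurentSeries Qb) :
    coeffMap embC (∏ i ∈ Finset.range q, rotHom (ζ ^ i) (hz i) z) =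
      rotProd q (coeffMap embC z) := by
  have hζ0 : ζ ≠ 0 := by simpa using hz 1
  set ζu : Qbˣ := Units.mk0 ζ hζ0 with hζu
  set ζ' : ℂˣ := Units.map (embC : Qb →* ℂ) ζu with hζ'
  have hprim : IsPrimitiveRoot ((ζ' : ℂˣ) : ℂ) q := by
    have : ((ζ' : ℂˣ) : ℂ) = embC ζ := rfl
    rw [this]
    exact hζ.map_of_injective embC.injective
  have h1 : ∀ i ∈ Finset.range q, coeffMap embC (rotHom (ζ ^ i) (hz i) z) =
      KC.twist (ζ' ^ i) (coeffMap embC z) := by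
    intro i _
    have e : rotHom (ζ ^ i) (hz i) z = KC.twist (ζu ^ i) z := by
      rw [KC.twist_eq_rotHom]
      congr 1
    rw [e, KC.coeffMap_twist, map_pow]
  rw [map_prod, Finset.prod_congr rfl h1]
  exact K6Hecke.prod_pow_eq_of_isPrimitiveRoot hprim (HeckeProdQxB.isPrimitiveRoot_zetaUnit q)
    (fun ξ => KC.twist ξ (coeffMap embC z))

/-! ### The formal core -/

/-- **The formal core** of the transfer-norm glue.  If `a' = c • (a · NP aW)`,
`b' = c • (b · NP bW)` and `a = Y · b`, `aW = YW · bW`, then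
`(a' / b')(Q^q) = Y(Q^q) · ∏_{i<q} YW(ζ^i Q)`. -/
theorem qExpand_div_eq (q : ℕ) [NeZero q] {c : ℂ} (hc : c ≠ 0)
    {a b aW bW a' b' Y YW : LaurentSeries ℂ} (hb : b ≠ 0) (hbW : bW ≠ 0)
    (ha' : a' = c • (a * TrQx.NP q aW)) (hb' : b' = c • (b * TrQx.NP q bW))
    (hY : Y * b = a) (hYW : YW * bW = aW) :
    b' ≠ 0 ∧ qExpand ℂ q (a' / b') = qExpand ℂ q Y * rotProd q YW := by
  have hC0 : (HahnSeries.C c : LaurentSeries ℂ) ≠ 0 := HahnSeries.C_ne_zero hc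
  have hb'0 : b' ≠ 0 := by
    rw [hb', ← HahnSeries.C_mul_eq_smul]
    exact mul_ne_zero hC0 (mul_ne_zero hb (TrQx.NP_ne_zero q hbW))
  refine ⟨hb'0, ?_⟩
  have e : a' / b' = Y * TrQx.NP q YW := by
    rw [div_eq_iff hb'0, ha', hb', ← hY, ← hYW, TrQx.NP_mul, ← HahnSeries.C_mul_eq_smul,
      ← HahnSeries.C_mul_eq_smul]
    ring
  rw [e, map_mul, qExpand_NP]

/-! ### A matrix `γ₀ = !![a, b; M, q]` -/

theorem exists_gamma0 (M q : ℕ) (hcop : Nat.Coprime q M) :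
    ∃ (γ₀ : SL(2, ℤ)) (a b : ℤ),
      (γ₀ : Matrix (Fin 2) (Fin 2) ℤ) = !![a, b; (M : ℤ), (q : ℤ)] := by
  obtain ⟨γ₀, _, _, _, a, b, h₀, _⟩ := Fermat.Agent.S37.W.exists_atkinLehner_matrices M q hcop
  exact ⟨γ₀, a, b, h₀⟩

/-! ### The `α`-half -/

/-- **[K-tr], `α`-half**: for a witness `y` of `u ∈ Lpar (M q)` with `tr₁ u = 0` and `f = y ^ m`,
the norm of `f` along `α` is `c · h ^ m`. -/
theorem kTrAlpha (M q m : ℕ) [NeZero M] [NeZero q] (hq : q.Prime) (hqM : ¬ q ∣ M) (hm : m ≠ 0) :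
    KTrPlan.KTrAlphaStatement M q m := by
  intro u y hy f hf hu
  have : Fact q.Prime := ⟨hq⟩
  obtain ⟨γ₀, a, b, h₀⟩ := exists_gamma0 M q ((Nat.Prime.coprime_iff_not_dvd hq).mpr hqM)
  have h10 : γ₀ 1 0 = (M : ℤ) := by
    have := congrFun (congrFun h₀ 1) 0
    simpa using this
  have h11 : γ₀ 1 1 = (q : ℤ) := by
    have := congrFun (congrFun h₀ 1) 1
    simpa using this
  obtain ⟨hy0, w, A, B, hA, hB, hB0, hyAB⟩ := hy
  -- niceness
  have hχ : ∀ γ : ↥(Gamma0 (M * q)),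
      ((γ : SL(2, ℤ)) : Matrix (Fin 2) (Fin 2) ℤ).trace ^ 2 = 4 →
        KPlan.chiU m (u : Additive (Gamma0 (M * q)) →+ ℤ) γ = 1 :=
    fun γ hγ => KPlan.chiU_eq_one_of_trace m u γ hγ
  have hχ1 : ∀ γ : ↥(Gamma0 (M * q)),
      ((γ : SL(2, ℤ)) : Matrix (Fin 2) (Fin 2) ℤ).trace ^ 2 = 4 →
        (1 : ↥(Gamma0 (M * q)) →* ℂˣ) γ = 1 := fun _ _ => rfl
  have : NeZero (M * q) := ⟨Nat.mul_ne_zero (NeZero.ne M) (NeZero.ne q)⟩
  have hB1 : B ∈ K.MFchi (M * q) w 1 := K.mem_MFchi_one_iff.mpr hB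
  have hAn : A ∈ S23.niceSub := K.mem_niceSub_of_mem_MFchi (KPlan.chiU_TG m u) hA
  have hBn : B ∈ S23.niceSub := K.mem_niceSub_of_mem_MF hB
  have hAWn : ALQx.AW γ₀ q w A ∈ S23.niceSub := ALQx.AW_mem_niceSub M q γ₀ a b h₀ hχ hA
  have hBWn : ALQx.AW γ₀ q w B ∈ S23.niceSub := ALQx.AW_mem_niceSub M q γ₀ a b h₀ hχ1 hB1
  -- the transfer products: forms of level `M` with trivial multiplier
  have hA'mem := TrRepsW.mul_prod_slash_mem_MF_of_tr₁_eq_zero hqM γ₀ h10 h11 m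
    (u : Additive (Gamma0 (M * q)) →+ ℤ) hu hA
  have hB'mem := TrRepsW.mul_prod_slash_mem_MF hqM γ₀ h10 h11 hB
  have hB'0 := TrRepsW.mul_prod_slash_ne_zero (q := q) γ₀ w hB1.1 hB0
  -- their q-expansions
  obtain ⟨-, hqA⟩ := TrQx.qx_trProd q w γ₀ A hAn hAWn
  obtain ⟨hB'n, hqB⟩ := TrQx.qx_trProd q w γ₀ B hBn hBWn
  have hb0 : K.qx B ≠ 0 := K.qx_ne_zero hBn hB0
  have hbW0 : K.qx (ALQx.AW γ₀ q w B) ≠ 0 :=
    K.qx_ne_zero hBWn (ALQx.AW_ne_zero γ₀ q w hB0)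
  have hqA' : K.qx (A * ∏ j : ZMod q, A ∣[w] (γ₀ * ModularGroup.T ^ (j.val : ℤ))) =
      (1 : ℂ) • (K.qx A * TrQx.NP q (K.qx (ALQx.AW γ₀ q w A))) := by
    rw [one_smul]; exact hqA
  have hqB' : K.qx (B * ∏ j : ZMod q, B ∣[w] (γ₀ * ModularGroup.T ^ (j.val : ℤ))) =
      (1 : ℂ) • (K.qx B * TrQx.NP q (K.qx (ALQx.AW γ₀ q w B))) := by
    rw [one_smul]; exact hqB
  obtain ⟨hb'0, hcore⟩ := qExpand_div_eq q one_ne_zero hb0 hbW0 hqA' hqB' hyAB
    (div_mul_cancel₀ _ hbW0)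
  -- `hC ∈ F_ℂ(M)`
  have hCmem := TrDesc.mem_FC_of_forms (K.mem_MFchi_one_iff.mpr hA'mem) hB'mem hB'0
    (div_mul_cancel₀ _ hb'0)
  -- `y_W ^ m = embC (wBar f)`
  have hfC : coeffMap embC (f : LaurentSeries Qb) = coeffMap embC y ^ m := by
    rw [hf, map_pow]
  have hW := ALQx.alqx_pow M q hq hqM γ₀ a b h₀ hχ hA hB m (coeffMap embC y) hyAB f hfC
  have hYW : (K.qx (ALQx.AW γ₀ q w A) / K.qx (ALQx.AW γ₀ q w B)) ^ m =
      coeffMap embC ((S34.WK.wBar M q hq hqM f : ↥(modularFunctionFieldBar (M * q))) :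
        LaurentSeries Qb) := by
    rw [div_pow, div_eq_iff (pow_ne_zero m hbW0)]
    exact hW.symm
  -- the norm formula
  obtain ⟨ζ, hζ⟩ := HasEnoughRootsOfUnity.exists_primitiveRoot Qb q
  have hz : ∀ i : ℕ, ζ ^ i ≠ 0 := fun i => pow_ne_zero i (hζ.ne_zero (NeZero.ne q))
  have hnorm := NormRed.qExpand_norm_alpha M q hq hqM ζ hζ hz f
  have key : (K.qx (A * ∏ j : ZMod q, A ∣[w] (γ₀ * ModularGroup.T ^ (j.val : ℤ))) /
      K.qx (B * ∏ j : ZMod q, B ∣[w] (γ₀ * ModularGroup.T ^ (j.val : ℤ)))) ^ m =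
      coeffMap embC ((PushPic.alphaNorm M q f : ↥(modularFunctionFieldBar M)) :
        LaurentSeries Qb) := by
    apply qExpand_injective (R := ℂ) q
    rw [map_pow, hcore, mul_pow, ← map_pow, ← rotProd_pow, hYW, ← hfC, ← coeffMap_qExpand,
      ← coeffMap_prod_rotHom q ζ hζ hz, ← map_mul, ← coeffMap_qExpand]
    congr 1
    exact hnorm.symm
  have hf0 : f ≠ 0 := by
    intro h0
    apply pow_ne_zero m hy0
    rw [← hf, h0]
    rfl
  exact TrDesc.exists_root_of_pow_eq hm (PushPic.alphaNorm M q f)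
    (PushPic.normAlong_ne_zero _ (PushPic.alpha_finiteAlong M q) hf0) _ hCmem key

end Fermat.Agent.S35.TrNorm
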