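/-
S35 block [D] (bridge `J ↔ Lpar`), leaf [TrQx₂] — TrQx2.lean (helper23; dealt by the row captain
helper88, board #2717): the `tr₂` TWIN of `S35/TrQx.lean`, i.e. the q-expansion of the transfer
product along `ι₂`.

With `α₀ = ModularForm.heckeMatrix q 0 = diag(1, q)`, Atkin–Lehner data `wAL : ALData M q`
(`S41/ALConj`) and the representatives `r = S41.IwahoriU.r₂ wAL` of `ι₂(Γ₀(Mq)) \ Γ₀(M)`
(`r none = h_w`, `r (some x) = [[1, x], [0, 1]]`) — EXACTLY the product of helper26's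
`TrProdMem2.prod_slash_r₂_mem` — we prove, with `g_w = wAL.gmat = [[a, b], [M c, q d]]`:

* `slash_zero_slash_umat`  : `(A ∣ α₀) ∣ [[1, n], [0, 1]] = A ∣ heckeMatrix q n`;
* `slash_zero_slash_hmat`  : `(A ∣ α₀) ∣ h_w = q^(w-1) • (z ↦ (A ∣ g_w)(q z))`
                             (`α₀ · h_w = w = g_w · diag(q, 1)`);
* `prod_slash_r₂_eq`       : `∏ i, (A ∣[w] α₀) ∣[w] r i
                               = slashConst q w • ((z ↦ (A ∣ g_w)(q z)) * uProd q A)`;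
* `qx_prod_slash_r₂`       : for nice `A` and nice `z ↦ (A ∣ g_w)(q z)` the product is nice and
                             `qx (∏ …) = slashConst q w • (qx (z ↦ (A ∣ g_w)(q z)) * NP q (qx A))`
                             (`NP` = the formal coset norm of `S35/TrQx`);
* `qx_prod_slash_r₂_of_mem_MFchi_gen` : the same for `A ∈ MFchi (M q) w χ`, `χ` trivial on the
                             elements of trace `2` (both niceness hypotheses then hold);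
* `alDataOf`, `gmat_alDataOf` : the data `⟨a, b, 1, 1⟩` of a matrix `γ₀ = [[a, b], [M, q]]`, for
                             which `g_w = γ₀` — the SAME `γ₀` as on the `tr₁` side;
* `prod_slash_r₂_alDataOf_eq`, `qx_prod_slash_r₂_alDataOf`, `exists_qx_prod_slash_r₂` :
                             the statements for `wAL = alDataOf γ₀`, in terms of `γ₀`;
* `qx_prod_slash_r₂_of_mem_MFchi` : the `γ₀`-form for `A ∈ MFchi (M q) w χ`, `χ` trivial on the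
                             elements of trace `2`.
-/
import Mathlib
import Fermat.Agent.S29.KDefs
import Fermat.Agent.S29.KBasic
import Fermat.Agent.S29.HeckeProd
import Fermat.Agent.S29.HeckeProdQxB
import Fermat.Agent.S24.AnBridge
import Fermat.Agent.S37.KC
import Fermat.Agent.S41.ALConj
import Fermat.Agent.S41.IwahoriU
import Fermat.Agent.S35.TrQx

set_option autoImplicit false

noncomputable section

namespace Fermat.Agent.S35.TrQx2

open UpperHalfPlane ModularForm ModularCurve Filter Function CongruenceSubgroup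
open Matrix.SpecialLinearGroup
open scoped MatrixGroups ModularForm Manifold Real
open P2MW.S_ModularForm_heckeT_slash_eq_self_of_mem_Gamma0.ModularForm.HeckeSlashInvariance
open Fermat.Agent.S29 Fermat.Agent.S29.K Fermat.Agent.S37 Fermat.Agent.S41
open Fermat.Agent.S41.ALConj

variable {M q : ℕ}

/-! ### Matrix identities -/

/-- `w = g_w · diag(q, 1)` in `GL₂(ℝ)`. -/
theorem mat_eq_gmat_mul (wAL : ALData M q) (hq : q ≠ 0) :
    wAL.mat hq = mapGL ℝ ((wAL.gmat : Gamma0 M) : SL(2, ℤ)) * ModularForm.heckeDiagMatrix q := by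
  apply Matrix.GeneralLinearGroup.ext
  intro i j
  fin_cases i <;> fin_cases j <;>
    simp [Matrix.mul_apply, Fin.sum_univ_two, ALData.val_mat, ModularForm.val_heckeDiagMatrix hq,
      ALData.gmat_apply]
    <;> ring

/-! ### The two kinds of factors -/

/-- `(A ∣ α₀) ∣ [[1, n], [0, 1]] = A ∣ heckeMatrix q n`. -/
theorem slash_zero_slash_umat (hq : q ≠ 0) (w : ℤ) (A : ℍ → ℂ) (n : ℕ) :
    (A ∣[w] ModularForm.heckeMatrix q 0) ∣[w] ((IwahoriU.umat M (n : ℤ) : Gamma0 M) : SL(2, ℤ)) =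
      A ∣[w] ModularForm.heckeMatrix q n := by
  change (A ∣[w] ModularForm.heckeMatrix q 0) ∣[w]
      (mapGL ℝ ((IwahoriU.umat M (n : ℤ) : Gamma0 M) : SL(2, ℤ))) = _
  rw [← SlashAction.slash_mul, ← IwahoriU.heckeMatrix_eq hq]

/-- `(A ∣ α₀) ∣ h_w = q^(w-1) • (z ↦ (A ∣ g_w)(q z))`. -/
theorem slash_zero_slash_hmat [NeZero q] (wAL : ALData M q) (w : ℤ) (A : ℍ → ℂ) :
    (A ∣[w] ModularForm.heckeMatrix q 0) ∣[w] ((wAL.hmat : Gamma0 M) : SL(2, ℤ)) =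
      ((q : ℂ) ^ (w - 1)) •
        fun z => (A ∣[w] ((wAL.gmat : Gamma0 M) : SL(2, ℤ))) (S23.mulN q z) := by
  have hq : q ≠ 0 := NeZero.ne q
  change (A ∣[w] ModularForm.heckeMatrix q 0) ∣[w]
      (mapGL ℝ ((wAL.hmat : Gamma0 M) : SL(2, ℤ))) = _
  rw [← SlashAction.slash_mul, ← wAL.mat_eq hq, mat_eq_gmat_mul wAL hq, SlashAction.slash_mul]
  funext z
  rw [slash_heckeDiagMatrix_apply w hq, HeckeProdQxB.heckeDiagMatrix_smul_eq, Pi.smul_apply,
    smul_eq_mul]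
  rfl

/-! ### The transfer product along `ι₂` -/

/-- **[TrQx₂], function level**: the `tr₂` transfer product over the representatives
`S41.IwahoriU.r₂ wAL` is, up to the constant `slashConst q w`, the product of the Atkin–Lehner
transform `z ↦ (A ∣ g_w)(q z)` and the `U`-product of `A`. -/
theorem prod_slash_r₂_eq [NeZero q] (wAL : ALData M q) (w : ℤ) (A : ℍ → ℂ) :
    (∏ i : Option (ZMod q), (A ∣[w] ModularForm.heckeMatrix q 0) ∣[w]
        ((IwahoriU.r₂ wAL i : Gamma0 M) : SL(2, ℤ))) =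
      HeckeProdQxB.slashConst q w •
        ((fun z => (A ∣[w] ((wAL.gmat : Gamma0 M) : SL(2, ℤ))) (S23.mulN q z)) *
          HeckeProdQxB.uProd q A) := by
  have hq : q ≠ 0 := NeZero.ne q
  funext z
  rw [Finset.prod_apply, Pi.smul_apply, Pi.mul_apply, smul_eq_mul]
  have h := Fintype.prod_option (fun i : Option (ZMod q) =>
    ((A ∣[w] ModularForm.heckeMatrix q 0) ∣[w] ((IwahoriU.r₂ wAL i : Gamma0 M) : SL(2, ℤ))) z)
  refine h.trans ?_
  have h1 : ((A ∣[w] ModularForm.heckeMatrix q 0) ∣[w]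
      ((IwahoriU.r₂ wAL none : Gamma0 M) : SL(2, ℤ))) z =
      (q : ℂ) ^ (w - 1) * (A ∣[w] ((wAL.gmat : Gamma0 M) : SL(2, ℤ))) (S23.mulN q z) := by
    rw [IwahoriU.r₂_none, slash_zero_slash_hmat, Pi.smul_apply, smul_eq_mul]
  have h2 : ∀ j : ZMod q, ((A ∣[w] ModularForm.heckeMatrix q 0) ∣[w]
      ((IwahoriU.r₂ wAL (some j) : Gamma0 M) : SL(2, ℤ))) z =
      (q : ℂ)⁻¹ * A (ModularForm.heckeMatrix q j.val • z) := by
    intro j
    rw [IwahoriU.r₂_some, slash_zero_slash_umat hq, slash_heckeMatrix_apply w hq]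
  simp only [h1, h2, Finset.prod_mul_distrib, Finset.prod_const, Finset.card_univ, ZMod.card]
  unfold HeckeProdQxB.uProd HeckeProdQxB.slashConst
  ring

/-- **[TrQx₂]**: the q-expansion of the `tr₂` transfer product. -/
theorem qx_prod_slash_r₂ [NeZero q] (wAL : ALData M q) (w : ℤ) (A : ℍ → ℂ)
    (hA : A ∈ S23.niceSub)
    (hAW : (fun z => (A ∣[w] ((wAL.gmat : Gamma0 M) : SL(2, ℤ))) (S23.mulN q z)) ∈ S23.niceSub) :
    (∏ i : Option (ZMod q), (A ∣[w] ModularForm.heckeMatrix q 0) ∣[w]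
        ((IwahoriU.r₂ wAL i : Gamma0 M) : SL(2, ℤ))) ∈ S23.niceSub ∧
    qx (∏ i : Option (ZMod q), (A ∣[w] ModularForm.heckeMatrix q 0) ∣[w]
        ((IwahoriU.r₂ wAL i : Gamma0 M) : SL(2, ℤ))) =
      HeckeProdQxB.slashConst q w •
        (qx (fun z => (A ∣[w] ((wAL.gmat : Gamma0 M) : SL(2, ℤ))) (S23.mulN q z)) *
          TrQx.NP q (qx A)) := by
  rw [prod_slash_r₂_eq]
  have hP := HeckeProdQxB.uProd_mem_niceSub q hA
  have hmul := S23.niceSub.mul_mem hAW hP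
  refine ⟨S23.niceSub.smul_mem hmul _, ?_⟩
  rw [qx_smul _ hmul, qx_mul hAW hP, HeckeProdQxB.qx_uProd q hA]
  rfl

/-- **[TrQx₂] for forms with multiplier, generic data**: if `A ∈ MFchi (M q) w χ` and `χ` kills
the elements of trace `2`, then `A` and `z ↦ (A ∣ g_w)(q z)` are nice, hence the q-expansion
formula holds for the product of `TrProdMem2.prod_slash_r₂_mem`. -/
theorem qx_prod_slash_r₂_of_mem_MFchi_gen [NeZero q] (wAL : ALData M q) {w : ℤ}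
    {χ : ↥(Gamma0 (M * q)) →* ℂˣ} {A : ℍ → ℂ} (hA : A ∈ MFchi (M * q) w χ)
    (hpar : ∀ δ : ↥(Gamma0 (M * q)),
      ((δ : SL(2, ℤ)) : Matrix (Fin 2) (Fin 2) ℤ).trace = 2 → χ δ = 1) :
    (fun z => (A ∣[w] ((wAL.gmat : Gamma0 M) : SL(2, ℤ))) (S23.mulN q z)) ∈ S23.niceSub ∧
    (∏ i : Option (ZMod q), (A ∣[w] ModularForm.heckeMatrix q 0) ∣[w]
        ((IwahoriU.r₂ wAL i : Gamma0 M) : SL(2, ℤ))) ∈ S23.niceSub ∧
    qx (∏ i : Option (ZMod q), (A ∣[w] ModularForm.heckeMatrix q 0) ∣[w]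
        ((IwahoriU.r₂ wAL i : Gamma0 M) : SL(2, ℤ))) =
      HeckeProdQxB.slashConst q w •
        (qx (fun z => (A ∣[w] ((wAL.gmat : Gamma0 M) : SL(2, ℤ))) (S23.mulN q z)) *
          TrQx.NP q (qx A)) := by
  have hT : χ (TG (M * q)) = 1 := hpar _ (by simp [TG, ModularGroup.T, Matrix.trace_fin_two])
  have hAn : A ∈ S23.niceSub := mem_niceSub_of_mem_MFchi hT hA
  have hAW : (fun z => (A ∣[w] ((wAL.gmat : Gamma0 M) : SL(2, ℤ))) (S23.mulN q z)) ∈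
      S23.niceSub := by
    refine TrQx.aw_mem_niceSub_of_mem_MFchi q hA hpar _ ?_
    have e : ((wAL.gmat : Gamma0 M) : SL(2, ℤ)) 1 0 = (M : ℤ) * wAL.c := rfl
    rw [e]
    exact ⟨(M : ℤ) * wAL.c ^ 2, by push_cast; ring⟩
  have h := qx_prod_slash_r₂ wAL w A hAn hAW
  exact ⟨hAW, h.1, h.2⟩

/-! ### The data of a matrix `γ₀ = [[a, b], [M, q]]` -/

/-- The Atkin–Lehner data `⟨a, b, 1, 1⟩` attached to a matrix `γ₀ = [[a, b], [M, q]]` of
determinant one. -/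
def alDataOf (γ₀ : SL(2, ℤ)) (h10 : γ₀ 1 0 = (M : ℤ)) (h11 : γ₀ 1 1 = (q : ℤ)) : ALData M q :=
  ⟨γ₀ 0 0, γ₀ 0 1, 1, 1, by
    have hdet := Matrix.SpecialLinearGroup.det_coe γ₀
    rw [Matrix.det_fin_two] at hdet
    rw [h10, h11] at hdet
    linear_combination hdet⟩

/-- For the data of `γ₀ = [[a, b], [M, q]]` the matrix `g_w` is `γ₀` itself. -/
theorem gmat_alDataOf (γ₀ : SL(2, ℤ)) (h10 : γ₀ 1 0 = (M : ℤ)) (h11 : γ₀ 1 1 = (q : ℤ)) :
    (((alDataOf γ₀ h10 h11).gmat : Gamma0 M) : SL(2, ℤ)) = γ₀ := by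
  ext i j
  rw [ALData.gmat_apply]
  fin_cases i <;> fin_cases j
  · rfl
  · rfl
  · show (M : ℤ) * 1 = γ₀ 1 0
    rw [h10, mul_one]
  · show (q : ℤ) * 1 = γ₀ 1 1
    rw [h11, mul_one]

/-- **[TrQx₂], function level, in terms of `γ₀`**. -/
theorem prod_slash_r₂_alDataOf_eq [NeZero q] (γ₀ : SL(2, ℤ)) (h10 : γ₀ 1 0 = (M : ℤ))
    (h11 : γ₀ 1 1 = (q : ℤ)) (w : ℤ) (A : ℍ → ℂ) :
    (∏ i : Option (ZMod q), (A ∣[w] ModularForm.heckeMatrix q 0) ∣[w]
        ((IwahoriU.r₂ (alDataOf γ₀ h10 h11) i : Gamma0 M) : SL(2, ℤ))) =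
      HeckeProdQxB.slashConst q w •
        ((fun z => (A ∣[w] γ₀) (S23.mulN q z)) * HeckeProdQxB.uProd q A) := by
  rw [prod_slash_r₂_eq, gmat_alDataOf]

/-- **[TrQx₂], in terms of `γ₀`**: the q-expansion of the `tr₂` transfer product is
`slashConst q w • (qx (AW A) * NP q (qx A))`, `AW A = z ↦ (A ∣ γ₀)(q z)`. -/
theorem qx_prod_slash_r₂_alDataOf [NeZero q] (γ₀ : SL(2, ℤ)) (h10 : γ₀ 1 0 = (M : ℤ))
    (h11 : γ₀ 1 1 = (q : ℤ)) (w : ℤ) (A : ℍ → ℂ) (hA : A ∈ S23.niceSub)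
    (hAW : (fun z => (A ∣[w] γ₀) (S23.mulN q z)) ∈ S23.niceSub) :
    (∏ i : Option (ZMod q), (A ∣[w] ModularForm.heckeMatrix q 0) ∣[w]
        ((IwahoriU.r₂ (alDataOf γ₀ h10 h11) i : Gamma0 M) : SL(2, ℤ))) ∈ S23.niceSub ∧
    qx (∏ i : Option (ZMod q), (A ∣[w] ModularForm.heckeMatrix q 0) ∣[w]
        ((IwahoriU.r₂ (alDataOf γ₀ h10 h11) i : Gamma0 M) : SL(2, ℤ))) =
      HeckeProdQxB.slashConst q w •
        (qx (fun z => (A ∣[w] γ₀) (S23.mulN q z)) * TrQx.NP q (qx A)) := by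
  have h := qx_prod_slash_r₂ (alDataOf γ₀ h10 h11) w A hA (by rw [gmat_alDataOf]; exact hAW)
  rw [gmat_alDataOf] at h
  exact h

/-- **[TrQx₂], consumer shape**: a nonzero constant `c` (depending only on `q`, `w`) with
`qx (∏ i, (A ∣ α₀) ∣ r₂ i) = c • (qx (AW A) * NP q (qx A))` for all nice `A` with nice `AW A`. -/
theorem exists_qx_prod_slash_r₂ [NeZero q] (γ₀ : SL(2, ℤ)) (h10 : γ₀ 1 0 = (M : ℤ))
    (h11 : γ₀ 1 1 = (q : ℤ)) (w : ℤ) :
    ∃ c : ℂ, c ≠ 0 ∧ ∀ A : ℍ → ℂ, A ∈ S23.niceSub →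
      (fun z => (A ∣[w] γ₀) (S23.mulN q z)) ∈ S23.niceSub →
      (∏ i : Option (ZMod q), (A ∣[w] ModularForm.heckeMatrix q 0) ∣[w]
          ((IwahoriU.r₂ (alDataOf γ₀ h10 h11) i : Gamma0 M) : SL(2, ℤ))) ∈ S23.niceSub ∧
      qx (∏ i : Option (ZMod q), (A ∣[w] ModularForm.heckeMatrix q 0) ∣[w]
          ((IwahoriU.r₂ (alDataOf γ₀ h10 h11) i : Gamma0 M) : SL(2, ℤ))) =
        c • (qx (fun z => (A ∣[w] γ₀) (S23.mulN q z)) * TrQx.NP q (qx A)) :=
  ⟨HeckeProdQxB.slashConst q w, HeckeProdQxB.slashConst_ne_zero q w,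
    fun A hA hAW => qx_prod_slash_r₂_alDataOf γ₀ h10 h11 w A hA hAW⟩

/-- **[TrQx₂] for forms with multiplier**: if `A ∈ MFchi (M q) w χ` and `χ` kills the elements
of trace `2`, both niceness hypotheses hold. -/
theorem qx_prod_slash_r₂_of_mem_MFchi [NeZero q] (γ₀ : SL(2, ℤ)) (h10 : γ₀ 1 0 = (M : ℤ))
    (h11 : γ₀ 1 1 = (q : ℤ)) {w : ℤ} {χ : ↥(Gamma0 (M * q)) →* ℂˣ} {A : ℍ → ℂ}
    (hA : A ∈ MFchi (M * q) w χ)
    (hpar : ∀ δ : ↥(Gamma0 (M * q)),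
      ((δ : SL(2, ℤ)) : Matrix (Fin 2) (Fin 2) ℤ).trace = 2 → χ δ = 1) :
    (∏ i : Option (ZMod q), (A ∣[w] ModularForm.heckeMatrix q 0) ∣[w]
        ((IwahoriU.r₂ (alDataOf γ₀ h10 h11) i : Gamma0 M) : SL(2, ℤ))) ∈ S23.niceSub ∧
    qx (∏ i : Option (ZMod q), (A ∣[w] ModularForm.heckeMatrix q 0) ∣[w]
        ((IwahoriU.r₂ (alDataOf γ₀ h10 h11) i : Gamma0 M) : SL(2, ℤ))) =
      HeckeProdQxB.slashConst q w •
        (qx (fun z => (A ∣[w] γ₀) (S23.mulN q z)) * TrQx.NP q (qx A)) := by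
  have hT : χ (TG (M * q)) = 1 := hpar _ (by simp [TG, ModularGroup.T, Matrix.trace_fin_two])
  refine qx_prod_slash_r₂_alDataOf γ₀ h10 h11 w A (mem_niceSub_of_mem_MFchi hT hA) ?_
  refine TrQx.aw_mem_niceSub_of_mem_MFchi q hA hpar γ₀ ?_
  rw [h10]
  exact ⟨(M : ℤ), by push_cast; ring⟩

end Fermat.Agent.S35.TrQx2
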