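/-
S35 block [D] (bridge), leaf [TrNorm₂] — TrNorm2.lean (helper17): the GLUE of the transfer norm,
`β`-half.

Level `M q`, `q` prime, `q ∤ M`; `u ∈ Lpar (M q)`, `y` a witness of `u` at torsion order `m`
(forms `(A, B)`), `f ∈ F̄_{M q}` with `f = y ^ m`.  If `tr₂ u = 0` then the norm of `f` along `β`
is `c · h ^ m` with `h ∈ F̄_M`, `c ∈ ℚ̄ˣ`  (`KTrPlan.KTrBetaStatement M q m`).

Proof.  `A'' := ∏_i (A ∣ α₀) ∣ r₂ i`, `B''` likewise (`α₀ = diag(1, q)`, `r₂` the representatives of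
`ι₂(Γ₀(M q)) \ Γ₀(M)`) are forms of level `M` with TRIVIAL multiplier (`TrProdMem2`), so
`hC := qx A'' / qx B'' ∈ F_ℂ(M)`; `qx A'' = c • (qx (AW A) · NP (qx A))` ([TrQx₂]), hence
`hC(Q^q) = y_W(Q^q) · ∏_{i<q} (embC y)(ζ^i Q)`, `y_W = qx (AW A) / qx (AW B)`,
`y_W ^ m = embC (wBar f)`; so `hC ^ m = embC (Nm_β f)` by `NormRed.qExpand_norm_beta_w`; finally
`TrDesc.exists_root_of_pow_eq`.
-/
import Mathlib
import Fermat.Agent.S35.TrNorm
import Fermat.Agent.S35.TrProdMem2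
import Fermat.Agent.S35.TrQx2
import Fermat.Agent.S35.NewPlan

set_option autoImplicit false

noncomputable section

namespace Fermat.Agent.S35.TrNorm2

open UpperHalfPlane ModularForm CongruenceSubgroup ModularCurve AlgebraicCurve
open scoped MatrixGroups ModularForm Manifold
open Fermat.Agent.S29 Fermat.Agent.S37 Fermat.Agent.S24 Fermat.Agent.S41

local notation "Qb" => AlgebraicClosure ℚ

/-- The `q`-expansion input [TrQx₂] of the `β`-half, in the shape consumed by the glue: the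
`q`-expansion of the `tr₂`-product of a nice function is a nonzero constant (depending only on
the weight) times `qx (AW A) · NP (qx A)`. -/
def TrQx2Statement (M q : ℕ) [NeZero q] (wAL : ALConj.ALData M q) (γ₀ : SL(2, ℤ)) : Prop :=
  ∀ w : ℤ, ∃ c : ℂ, c ≠ 0 ∧ ∀ A : ℍ → ℂ, A ∈ S23.niceSub → ALQx.AW γ₀ q w A ∈ S23.niceSub →
    K.qx (∏ i : Option (ZMod q), (A ∣[w] ModularForm.heckeMatrix q 0) ∣[w]
        ((IwahoriU.r₂ wAL i : Gamma0 M) : SL(2, ℤ))) =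
      c • (K.qx (ALQx.AW γ₀ q w A) * TrQx.NP q (K.qx A))

/-- **[K-tr], `β`-half**, from [TrQx₂]. -/
theorem kTrBeta_of_qx (M q m : ℕ) [NeZero M] [NeZero q] (hq : q.Prime) (hqM : ¬ q ∣ M)
    (hm : m ≠ 0) (wAL : ALConj.ALData M q) (γ₀ : SL(2, ℤ)) (a b : ℤ)
    (h₀ : (γ₀ : Matrix (Fin 2) (Fin 2) ℤ) = !![a, b; (M : ℤ), (q : ℤ)])
    (hQ : TrQx2Statement M q wAL γ₀) : KTrPlan.KTrBetaStatement M q m := by
  intro u y hy f hf hu
  have : Fact q.Prime := ⟨hq⟩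
  obtain ⟨hy0, w, A, B, hA, hB, hB0, hyAB⟩ := hy
  -- niceness
  have hχ : ∀ γ : ↥(Gamma0 (M * q)),
      ((γ : SL(2, ℤ)) : Matrix (Fin 2) (Fin 2) ℤ).trace ^ 2 = 4 →
        KPlan.chiU m (u : Additive (Gamma0 (M * q)) →+ ℤ) γ = 1 :=
    fun γ hγ => KPlan.chiU_eq_one_of_trace m u γ hγ
  have hχ1 : ∀ γ : ↥(Gamma0 (M * q)),
      ((γ : SL(2, ℤ)) : Matrix (Fin 2) (Fin 2) ℤ).trace ^ 2 = 4 →
        (1 : ↥(Gamma0 (M * q)) →* ℂˣ) γ = 1 := fun _ _ => rfl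
  have : NeZero (M * q) := ⟨Nat.mul_ne_zero (NeZero.ne M) (NeZero.ne q)⟩
  have hB1 : B ∈ K.MFchi (M * q) w 1 := K.mem_MFchi_one_iff.mpr hB
  have hAn : A ∈ S23.niceSub := K.mem_niceSub_of_mem_MFchi (KPlan.chiU_TG m u) hA
  have hBn : B ∈ S23.niceSub := K.mem_niceSub_of_mem_MF hB
  have hAWn : ALQx.AW γ₀ q w A ∈ S23.niceSub := ALQx.AW_mem_niceSub M q γ₀ a b h₀ hχ hA
  have hBWn : ALQx.AW γ₀ q w B ∈ S23.niceSub := ALQx.AW_mem_niceSub M q γ₀ a b h₀ hχ1 hB1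
  -- the transfer products: forms of level `M` with trivial multiplier
  have hA'mem := TrProdMem2.prod_slash_r₂_mem_MF_of_tr₂_eq_zero wAL m
    (u : Additive (Gamma0 (M * q)) →+ ℤ) hu hA
  have hB'mem := TrProdMem2.prod_slash_r₂_mem_MF wAL hB
  have hB'0 := TrProdMem2.prod_slash_reps₂_ne_zero (q := q) (IwahoriU.r₂ wAL) w hB1.1 hB0
  -- their q-expansions
  obtain ⟨c, hc, hqx⟩ := hQ w
  have hqA := hqx A hAn hAWn
  have hqB := hqx B hBn hBWn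
  have hb0 : K.qx B ≠ 0 := K.qx_ne_zero hBn hB0
  have hbW0 : K.qx (ALQx.AW γ₀ q w B) ≠ 0 :=
    K.qx_ne_zero hBWn (ALQx.AW_ne_zero γ₀ q w hB0)
  obtain ⟨hb'0, hcore⟩ := TrNorm.qExpand_div_eq q hc hbW0 hb0 hqA hqB
    (div_mul_cancel₀ _ hbW0) hyAB
  -- `hC ∈ F_ℂ(M)`
  have hCmem := TrDesc.mem_FC_of_forms (K.mem_MFchi_one_iff.mpr hA'mem) hB'mem hB'0
    (div_mul_cancel₀ _ hb'0)
  -- `y_W ^ m = embC (wBar f)`
  have hfC : coeffMap embC (f : LaurentSeries Qb) = coeffMap embC y ^ m := by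
    rw [hf, map_pow]
  have hW := ALQx.alqx_pow M q hq hqM γ₀ a b h₀ hχ hA hB m (coeffMap embC y) hyAB f hfC
  have hYW : (K.qx (ALQx.AW γ₀ q w A) / K.qx (ALQx.AW γ₀ q w B)) ^ m =
      coeffMap embC ((S34.WK.wBar M q hq hqM f : ↥(modularFunctionFieldBar (M * q))) :
        LaurentSeries Qb) := by
    rw [div_pow, div_eq_iff (pow_ne_zero m hbW0)]
    exact hW.symm
  -- the norm formula
  obtain ⟨ζ, hζ⟩ := HasEnoughRootsOfUnity.exists_primitiveRoot Qb q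
  have hz : ∀ i : ℕ, ζ ^ i ≠ 0 := fun i => pow_ne_zero i (hζ.ne_zero (NeZero.ne q))
  have hnorm := NormRed.qExpand_norm_beta_w M q hq hqM ζ hζ hz f
  have key : (K.qx (∏ i : Option (ZMod q), (A ∣[w] ModularForm.heckeMatrix q 0) ∣[w]
        ((IwahoriU.r₂ wAL i : Gamma0 M) : SL(2, ℤ))) /
      K.qx (∏ i : Option (ZMod q), (B ∣[w] ModularForm.heckeMatrix q 0) ∣[w]
        ((IwahoriU.r₂ wAL i : Gamma0 M) : SL(2, ℤ)))) ^ m =
      coeffMap embC ((PushPic.betaNorm M q f : ↥(modularFunctionFieldBar M)) :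
        LaurentSeries Qb) := by
    apply qExpand_injective (R := ℂ) q
    rw [map_pow, hcore, mul_pow, ← map_pow, ← TrNorm.rotProd_pow, hYW, ← hfC, ← coeffMap_qExpand,
      ← TrNorm.coeffMap_prod_rotHom q ζ hζ hz, ← map_mul, ← coeffMap_qExpand]
    congr 1
    exact hnorm.symm
  have hf0 : f ≠ 0 := by
    intro h0
    apply pow_ne_zero m hy0
    rw [← hf, h0]
    rfl
  exact TrDesc.exists_root_of_pow_eq hm (PushPic.betaNorm M q f)
    (PushPic.normAlong_ne_zero _ (PushPic.beta_finiteAlong M q) hf0) _ hCmem key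

/-- **[K-tr]** (the common export of the row [D], `NewPlan` form), from the two halves. -/
theorem kTr_of_halves {M q m : ℕ} [NeZero M] [NeZero q]
    (hα : KTrPlan.KTrAlphaStatement M q m) (hβ : KTrPlan.KTrBetaStatement M q m) :
    NewPlan.KTrStatement M q m :=
  fun u y hy f hf => ⟨hα u y hy f hf, hβ u y hy f hf⟩

/-- **[K-tr]** from [TrQx₂] (`NewPlan` form and `KTrPlan` form). -/
theorem kTr_of_qx (M q m : ℕ) [NeZero M] [NeZero q] (hq : q.Prime) (hqM : ¬ q ∣ M)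
    (hm : m ≠ 0) (wAL : ALConj.ALData M q) (γ₀ : SL(2, ℤ)) (a b : ℤ)
    (h₀ : (γ₀ : Matrix (Fin 2) (Fin 2) ℤ) = !![a, b; (M : ℤ), (q : ℤ)])
    (hQ : TrQx2Statement M q wAL γ₀) : NewPlan.KTrStatement M q m :=
  kTr_of_halves (TrNorm.kTrAlpha M q m hq hqM hm)
    (kTrBeta_of_qx M q m hq hqM hm wAL γ₀ a b h₀ hQ)

/-- [TrQx₂] holds for the data attached to `γ₀ = !![a, b; M, q]` (`S35/TrQx2.lean`). -/
theorem trQx2Statement (M q : ℕ) [NeZero q] (γ₀ : SL(2, ℤ)) (h10 : γ₀ 1 0 = (M : ℤ))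
    (h11 : γ₀ 1 1 = (q : ℤ)) : TrQx2Statement M q (TrQx2.alDataOf γ₀ h10 h11) γ₀ := by
  intro w
  obtain ⟨c, hc, h⟩ := TrQx2.exists_qx_prod_slash_r₂ γ₀ h10 h11 w
  exact ⟨c, hc, fun A hA hAW => (h A hA hAW).2⟩

/-- **[K-tr], `β`-half**: for a witness `y` of `u ∈ Lpar (M q)` with `tr₂ u = 0` and `f = y ^ m`,
the norm of `f` along `β` is `c · h ^ m`. -/
theorem kTrBeta (M q m : ℕ) [NeZero M] [NeZero q] (hq : q.Prime) (hqM : ¬ q ∣ M) (hm : m ≠ 0) :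
    KTrPlan.KTrBetaStatement M q m := by
  obtain ⟨γ₀, a, b, h₀⟩ :=
    TrNorm.exists_gamma0 M q ((Nat.Prime.coprime_iff_not_dvd hq).mpr hqM)
  have h10 : γ₀ 1 0 = (M : ℤ) := by rw [h₀]; rfl
  have h11 : γ₀ 1 1 = (q : ℤ) := by rw [h₀]; rfl
  exact kTrBeta_of_qx M q m hq hqM hm (TrQx2.alDataOf γ₀ h10 h11) γ₀ a b h₀
    (trQx2Statement M q γ₀ h10 h11)

/-- **[K-tr] = the common export of the row [D]** (`NewPlan` form, the Prop of record). -/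
theorem kTr (M q m : ℕ) [NeZero M] [NeZero q] (hq : q.Prime) (hqM : ¬ q ∣ M) (hm : m ≠ 0) :
    NewPlan.KTrStatement M q m :=
  kTr_of_halves (TrNorm.kTrAlpha M q m hq hqM hm) (kTrBeta M q m hq hqM hm)

/-- **[K-tr]**, `KTrPlan` form. -/
theorem kTr' (M q m : ℕ) [NeZero M] [NeZero q] (hq : q.Prime) (hqM : ¬ q ∣ M) (hm : m ≠ 0) :
    KTrPlan.KTrStatement M q m :=
  KTrPlan.kTrStatement_of_halves (TrNorm.kTrAlpha M q m hq hqM hm) (kTrBeta M q m hq hqM hm)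

end Fermat.Agent.S35.TrNorm2
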