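import Fermat.Agent.S34.AbsTop

/-!
# S35, [E]-abstract, top: a two-chart Čech-bis setting for a GENERAL function `w`

The analogue of `S34/AbsTop.lean` with the second difference replaced by an arbitrary `w`
(for S35: `w = Σ G / G ^ Q`, `Σ` the square of a Frobenius lift, `Q = q ^ 2`, `G ≡ 1` modulo
`π (V 0 ⊓ V 1)` a normalised Kummer generator).

* `LocAt R π V w m n` — the local input at a closed point `n` of the special fibre of the chart
  `R`, in the shape of the conclusion of `LocPlan.LocAStatement` with `w` in place of the second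
  difference: `∃ a ≡ 1` modulo `π (V i)` (both `i`) with `w * a ^ m ∈ 1 + π R_n`;
* `HypW π m j R0 Rinf V w` — the complete input: the chart-side fields of `Cech2Plan.Setting`,
  `LocPlan.ChartHyp` on both charts, `w ≡ 1` modulo `π (V i)`, and `LocAt` at every closed point
  of the special fibre of either chart;
* `settingW` — the resulting `Cech2Plan.Setting O E` (`m`, `j`, `R0`, `Rinf`, `w` as given,
  `V = V 0 ⊓ V 1`); `exists_rootW` — the conclusion of the Čech-bis block for it;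
* `hw_frob`, `hw_frob_fin2` — the `hw` field for `w = Σ G / G ^ Q`.

`LocPlan.LocAdapterStatement` enters as a hypothesis (proved on main as `LocHw.locAdapter`).
-/

set_option autoImplicit false

namespace Fermat.Agent.S35.AbsTopW

open Fermat.Agent.S34 Fermat.Agent.S34.LocPlan Fermat.Agent.S34.AbsTop

/-! ### Units `1 + ϖ z` of a valuation ring under a ring endomorphism -/

section Frob

variable {E : Type*} [Field E]

/-- `(1 + ϖ z) ^ Q ∈ 1 + ϖ W`. -/
theorem pow_sub_one_mem (W : ValuationSubring E) (ϖ : E) (hϖ : ϖ ∈ W) (G : E) (Q : ℕ)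
    (hG : ∃ z ∈ W, G - 1 = ϖ * z) : ∃ z ∈ W, G ^ Q - 1 = ϖ * z := by
  obtain ⟨z, hz, hGz⟩ := hG
  have hGW : G ∈ W := by
    have : G = 1 + ϖ * z := by rw [← hGz]; ring
    rw [this]
    exact W.add_mem _ _ W.one_mem (W.mul_mem _ _ hϖ hz)
  induction Q with
  | zero => exact ⟨0, W.zero_mem, by simp⟩
  | succ k ih =>
    obtain ⟨y, hy, hk⟩ := ih
    refine ⟨y * G + z, W.add_mem _ _ (W.mul_mem _ _ hy hGW) hz, ?_⟩
    have : G ^ (k + 1) - 1 = (G ^ k - 1) * G + (G - 1) := by ring
    rw [this, hk, hGz]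
    ring

/-- **The `hw` field for a Frobenius difference**: if `G ≡ 1` modulo `ϖ W`, `Σ` maps the
valuation ring `W` into itself and `Σ ϖ = ϖ * u` with `u ∈ W`, then `Σ G / G ^ Q ≡ 1` modulo
`ϖ W`. -/
theorem hw_frob (W : ValuationSubring E) (ϖ : E) (hϖ : ϖ ∈ W) (hϖ' : ϖ⁻¹ ∉ W) (Sg : E →+* E)
    (hSW : ∀ x ∈ W, Sg x ∈ W) (hSϖ : ∃ u ∈ W, Sg ϖ = ϖ * u) (G : E) (Q : ℕ)
    (hG : ∃ z ∈ W, G - 1 = ϖ * z) : ∃ z ∈ W, Sg G / G ^ Q - 1 = ϖ * z := by
  obtain ⟨y, hy, hQ⟩ := pow_sub_one_mem W ϖ hϖ G Q hG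
  obtain ⟨z, hz, hGz⟩ := hG
  obtain ⟨u, hu, hSu⟩ := hSϖ
  have hGQ : G ^ Q = 1 + ϖ * y := by rw [← hQ]; ring
  have hinv : (G ^ Q)⁻¹ ∈ W := by
    rw [hGQ]
    exact inv_one_add_mem W ϖ hϖ' y hy
  have hne : G ^ Q ≠ 0 := by
    intro h0
    have h1 : ϖ * (-y) = 1 := by
      have h3 := hGQ
      rw [h0] at h3
      linear_combination h3
    apply hϖ'
    have h2 : ϖ⁻¹ = -y := (eq_inv_of_mul_eq_one_right h1).symm
    rw [h2]
    exact W.neg_mem _ hy
  have hS : Sg G = 1 + ϖ * (u * Sg z) := by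
    have : G = 1 + ϖ * z := by rw [← hGz]; ring
    rw [this, map_add, map_one, map_mul, hSu]
    ring
  refine ⟨(u * Sg z - y) * (G ^ Q)⁻¹,
    W.mul_mem _ _ (sub_mem (W.mul_mem _ _ hu (hSW z hz)) hy) hinv, ?_⟩
  rw [div_sub_one hne, hS, hGQ, div_eq_mul_inv]
  ring

end Frob

/-! ### The local input and the `loc` fields -/

section Loc

variable {O : Type} [CommRing O] {E : Type} [Field E] [Algebra O E]

/-- The local input at the closed point `n` of the chart `R`: the conclusion of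
`LocPlan.LocAStatement` with a general `w` in place of the second difference. -/
def LocAt (R : Subalgebra O E) (π : O) (V : Fin 2 → ValuationSubring E) (w : E) (m : ℕ)
    (n : Ideal R) : Prop :=
  ∃ a : E, (∀ i : Fin 2, ∃ v ∈ V i, a - 1 = algebraMap R E (algebraMap O R π) * v) ∧
    ∃ s : R, s ∉ n ∧ ∃ r : R,
      algebraMap R E s * (w * a ^ m - 1) = algebraMap R E (algebraMap O R π) * algebraMap R E r

/-- `LocAt` gives the `loc0` / `locInf` field of `Cech2Plan.Setting` (via the adapter). -/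
theorem loc_of_locAt (hAd : LocAdapterStatement) (R : Subalgebra O E) {π : O}
    {V : Fin 2 → ValuationSubring E} {P : Fin 2 → Ideal R} (hC : ChartHyp π V P) {w : E} {m : ℕ}
    (hm : 0 < m) (n : Ideal R) (h : LocAt R π V w m n) :
    ∃ g : E, w * g ^ m ∈ R ∧
      ∃ r : R, r ∉ n ∧ ∃ z ∈ vSub V, g - (r : E) = algebraMap O E π * z := by
  obtain ⟨a, ha, s, hs, r, hr⟩ := h
  obtain ⟨⟨x, hx⟩, hz⟩ :=
    hAd R E (algebraMap O R π) V w a m s r hm (fun i x => hC.le i x) ha hr
  refine ⟨(s : E) * a, ?_, s, hs, ?_⟩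
  · have : w * ((s : E) * a) ^ m = (x : E) := hx.symm
    rw [this]
    exact x.2
  · exact exists_vSub R hC _ hz

/-- The `hw` field of `HypW` for `w = Σ G / G ^ Q`: `G ≡ 1` modulo `π (V i)`, `Σ` maps each
`V i` into itself and `Σ π = π * u` with `u ∈ V i`. -/
theorem hw_frob_fin2 (R : Subalgebra O E) {π : O} {V : Fin 2 → ValuationSubring E}
    {P : Fin 2 → Ideal R} (hC : ChartHyp π V P) (Sg : E →+* E)
    (hSV : ∀ i : Fin 2, ∀ x ∈ V i, Sg x ∈ V i)
    (hSπ : ∀ i : Fin 2, ∃ u ∈ V i, Sg (algebraMap O E π) = algebraMap O E π * u)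
    (G : E) (Q : ℕ) (hG : ∀ i : Fin 2, ∃ z ∈ V i, G - 1 = algebraMap O E π * z) :
    ∀ i : Fin 2, ∃ z ∈ V i, Sg G / G ^ Q - 1 = algebraMap O E π * z := by
  intro i
  have hπV : algebraMap O E π ∈ V i := hC.le i (algebraMap O R π)
  exact hw_frob (V i) _ hπV (pi_inv_not_mem R hC i) Sg (hSV i) (hSπ i) G Q (hG i)

end Loc

/-! ### The setting and the conclusion -/

section Top

variable {O : Type} [CommRing O] [IsDomain O] [IsDiscreteValuationRing O]
  {E : Type} [Field E] [Algebra O E]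

/-- The complete input of the Čech-bis block for a general `w` on two charts `R0`, `Rinf`. -/
structure HypW (π : O) (m : ℕ) (j : E) (R0 Rinf : Subalgebra O E)
    (V : Fin 2 → ValuationSubring E) (w : E) : Prop where
  inj : Function.Injective (algebraMap O E)
  irr : Irreducible π
  hm : IsUnit (m : O)
  j_ne : j ≠ 0
  j_mem : j ∈ R0
  jinv_mem : j⁻¹ ∈ Rinf
  /-- `R0 ⊆ Rinf[j]` -/
  glue0 : ∀ x ∈ R0, ∃ n : ℕ, x * j⁻¹ ^ n ∈ Rinf
  /-- `Rinf ⊆ R0[1/j]` -/
  glueInf : ∀ x ∈ Rinf, ∃ n : ℕ, x * j ^ n ∈ R0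
  root0 : ∀ x : E, x ^ m ∈ R0 → x ∈ R0
  rootInf : ∀ x : E, x ^ m ∈ Rinf → x ∈ Rinf
  /-- `R0` is contained in a finitely generated `O[j]`-submodule of `E` -/
  fin0 : ∃ s : Finset E, (R0 : Set E) ⊆ Submodule.span (Algebra.adjoin O {j}) (s : Set E)
  /-- the vertical primes of the two charts and the chart hypotheses -/
  chart0 : ∃ P : Fin 2 → Ideal R0, ChartHyp π V P
  chartInf : ∃ P : Fin 2 → Ideal Rinf, ChartHyp π V P
  /-- `w ≡ 1` modulo `π (V i)` on both components -/
  hw : ∀ i : Fin 2, ∃ z ∈ V i, w - 1 = algebraMap O E π * z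
  /-- the local input at the closed points of the special fibre of `R0` -/
  loc0 : ∀ n : Ideal R0, n.IsMaximal → algebraMap O R0 π ∈ n → LocAt R0 π V w m n
  /-- the local input at the closed points of the special fibre of `Rinf` -/
  locInf : ∀ n : Ideal Rinf, n.IsMaximal → algebraMap O Rinf π ∈ n → LocAt Rinf π V w m n

variable {π : O} {m : ℕ} {j : E} {R0 Rinf : Subalgebra O E}
  {V : Fin 2 → ValuationSubring E} {w : E}

theorem HypW.m_pos (H : HypW π m j R0 Rinf V w) : 0 < m := by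
  rcases Nat.eq_zero_or_pos m with h | h
  · exfalso
    have h0 := H.hm
    rw [h, Nat.cast_zero] at h0
    exact not_isUnit_zero h0
  · exact h

/-- **The Čech-bis setting for a general `w`.** -/
noncomputable def settingW (hAd : LocAdapterStatement) (H : HypW π m j R0 Rinf V w) :
    Cech2Plan.Setting O E where
  π := π
  m := m
  j := j
  w := w
  R0 := R0
  Rinf := Rinf
  V := vSub V
  inj := H.inj
  irr := H.irr
  hm := H.hm
  j_ne := H.j_ne
  j_mem := H.j_mem
  jinv_mem := H.jinv_mem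
  glue0 := H.glue0
  glueInf := H.glueInf
  root0 := H.root0
  rootInf := H.rootInf
  fin0 := H.fin0
  R0_le := by
    obtain ⟨P, hC⟩ := H.chart0
    exact le_vSub R0 hC
  Rinf_le := by
    obtain ⟨P, hC⟩ := H.chartInf
    exact le_vSub Rinf hC
  rootV := by
    intro x hx
    rw [mem_vSub] at hx ⊢
    intro i
    exact mem_of_pow_mem (V i) H.m_pos x (hx i)
  one_not := by
    obtain ⟨P, hC⟩ := H.chart0
    exact one_not R0 hC
  invV := by
    obtain ⟨P, hC⟩ := H.chart0
    exact invV R0 hC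
  desc0 := by
    obtain ⟨P, hC⟩ := H.chart0
    exact desc R0 hC
  descInf := by
    obtain ⟨P, hC⟩ := H.chartInf
    exact desc Rinf hC
  hw := by
    obtain ⟨P, hC⟩ := H.chart0
    exact exists_vSub R0 hC _ H.hw
  loc0 := by
    intro n hn hπn
    obtain ⟨P, hC⟩ := H.chart0
    exact loc_of_locAt hAd R0 hC H.m_pos n (H.loc0 n hn hπn)
  locInf := by
    intro n hn hπn
    obtain ⟨P, hC⟩ := H.chartInf
    exact loc_of_locAt hAd Rinf hC H.m_pos n (H.locInf n hn hπn)

section Simp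

variable (hAd : LocAdapterStatement) (H : HypW π m j R0 Rinf V w)

@[simp] theorem settingW_π : (settingW hAd H).π = π := rfl
@[simp] theorem settingW_m : (settingW hAd H).m = m := rfl
@[simp] theorem settingW_j : (settingW hAd H).j = j := rfl
@[simp] theorem settingW_w : (settingW hAd H).w = w := rfl
@[simp] theorem settingW_R0 : (settingW hAd H).R0 = R0 := rfl
@[simp] theorem settingW_Rinf : (settingW hAd H).Rinf = Rinf := rfl
@[simp] theorem settingW_V : (settingW hAd H).V = vSub V := rfl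

end Simp

/-- **Top of the abstract block for a general `w`**: `w` times an `m`-th power is a global
function (lies in both charts). -/
theorem exists_rootW (hAd : LocAdapterStatement) (H : HypW π m j R0 Rinf V w) :
    ∃ h : E, h ≠ 0 ∧ w * h ^ m ∈ R0 ∧ w * h ^ m ∈ Rinf ∧
      ∃ z ∈ vSub V, h - 1 = algebraMap O E π * z :=
  Cech2.exists_root (settingW hAd H)

end Top

end Fermat.Agent.S35.AbsTopW
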