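import Fermat.Agent.S35.LocFPlan
import Fermat.Agent.S35.AbsTopW

/-!
# S35, [E]-abstract, top: from the leaves of `LocFPlan` to the conclusion of `Cech2`

The `Σ`-analogue of `S34/AbsTop.lean` (helper44).  Input: a discrete valuation ring `O` with
uniformizer `π`, a field `E ⊇ O`, two `O`-subalgebras `R0`, `Rinf` of `E` (the charts) glued
along `j`, the two component valuation rings `V 0`, `V 1`, an automorphism `Sg` of `E`
(`Σ = σ²`, `Q = q²`), a function `f` and a corrector `H`, with `LocFPlan.LocFHyp` on both charts.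

Output: `settingF` — a complete `Cech2Plan.Setting O E` with `m`, `j`, `R0`, `Rinf` as given,
`V = V 0 ⊓ V 1` and `w = wFun Sg Q (gFun Sg f H m) = Σ G / G ^ Q`, `G = Σ²f·f/(Σf)² · H ^ m`;
`exists_rootF` — the conclusion of the Čech-bis block for it: `w * h ^ m ∈ R0 ∩ Rinf` for some
`h ≠ 0`.

The leaves `LocFPlan.LocFStatement` and `LocPlan.LocAdapterStatement` enter as hypotheses;
`LocFPlan.HwFStatement` is PROVED here (`hwF`).
-/

set_option autoImplicit false

namespace Fermat.Agent.S35.AbsTopF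

open Fermat.Agent.S34 Fermat.Agent.S34.LocPlan Fermat.Agent.S34.AbsTop
open Fermat.Agent.S35.LocFPlan Fermat.Agent.S35.AbsTopW

/-! ### `HwFStatement` -/

/-- **[HwF]**: `w = Σ G / G ^ Q ≡ 1` modulo `π (V i)` if `G ≡ 1` modulo `π (V i)`. -/
theorem hwF : HwFStatement := by
  intro O _ R _ _ E _ _ π V P Sg Q G hC hF hG i
  have hπV : algebraMap R E (algebraMap O R π) ∈ V i := hC.le i (algebraMap O R π)
  obtain ⟨u, hu, -, hSu⟩ := hF.pi i
  exact hw_frob (V i) _ hπV (hC.pi_not i) (Sg : E →+* E) (hF.map_V i) ⟨u, hu, hSu⟩ G Q (hG i)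

/-! ### The setting and the conclusion -/

section Top

variable {O : Type} [CommRing O] [IsDomain O] [IsDiscreteValuationRing O]
  {E : Type} [Field E] [Algebra O E]

/-- The complete input of the abstract block of [E] on two charts `R0`, `Rinf ⊆ E`. -/
structure HypF (π : O) (m : ℕ) (j : E) (R0 Rinf : Subalgebra O E)
    (V : Fin 2 → ValuationSubring E) (Sg : E ≃+* E) (Q : ℕ) (f H : E) : Prop where
  inj : Function.Injective (algebraMap O E)
  irr : Irreducible π
  hm : IsUnit (m : O)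
  j_ne : j ≠ 0
  j_mem : j ∈ R0
  jinv_mem : j⁻¹ ∈ Rinf
  /-- `R0 ⊆ Rinf[j]` -/
  glue0 : ∀ x ∈ R0, ∃ n : ℕ, x * j⁻¹ ^ n ∈ Rinf
  /-- `Rinf ⊆ R0[1/j]` -/
  glueInf : ∀ x ∈ Rinf, ∃ n : ℕ, x * j ^ n ∈ R0
  root0 : ∀ x : E, x ^ m ∈ R0 → x ∈ R0
  rootInf : ∀ x : E, x ^ m ∈ Rinf → x ∈ Rinf
  /-- `R0` is contained in a finitely generated `O[j]`-submodule of `E` -/
  fin0 : ∃ s : Finset E, (R0 : Set E) ⊆ Submodule.span (Algebra.adjoin O {j}) (s : Set E)
  noeth0 : IsNoetherianRing R0
  noethInf : IsNoetherianRing Rinf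
  closed0 : IsIntegrallyClosed R0
  closedInf : IsIntegrallyClosed Rinf
  frac0 : IsFractionRing R0 E
  fracInf : IsFractionRing Rinf E
  /-- the vertical primes of `R0` and the local hypotheses of `LocFPlan` on `R0` -/
  loc0 : ∃ P : Fin 2 → Ideal R0, LocFHyp π V P Sg Q f H m
  /-- the vertical primes of `Rinf` and the local hypotheses of `LocFPlan` on `Rinf` -/
  locInf : ∃ P : Fin 2 → Ideal Rinf, LocFHyp π V P Sg Q f H m

variable {π : O} {m : ℕ} {j : E} {R0 Rinf : Subalgebra O E}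
  {V : Fin 2 → ValuationSubring E} {Sg : E ≃+* E} {Q : ℕ} {f H : E}

theorem HypF.m_pos (h : HypF π m j R0 Rinf V Sg Q f H) : 0 < m := by
  rcases Nat.eq_zero_or_pos m with h0 | h0
  · exfalso
    have h1 := h.hm
    rw [h0, Nat.cast_zero] at h1
    exact not_isUnit_zero h1
  · exact h0

/-- The input of the general-`w` block `AbsTopW` for `w = Σ G / G ^ Q`. -/
theorem hypW_of_hypF (hLocF : LocFStatement) (h : HypF π m j R0 Rinf V Sg Q f H) :
    HypW π m j R0 Rinf V (wFun Sg Q (gFun Sg f H m)) where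
  inj := h.inj
  irr := h.irr
  hm := h.hm
  j_ne := h.j_ne
  j_mem := h.j_mem
  jinv_mem := h.jinv_mem
  glue0 := h.glue0
  glueInf := h.glueInf
  root0 := h.root0
  rootInf := h.rootInf
  fin0 := h.fin0
  chart0 := by
    obtain ⟨P, hP⟩ := h.loc0
    exact ⟨P, hP.chart⟩
  chartInf := by
    obtain ⟨P, hP⟩ := h.locInf
    exact ⟨P, hP.chart⟩
  hw := by
    obtain ⟨P, hP⟩ := h.loc0
    exact hwF O R0 E π V P Sg Q (gFun Sg f H m) hP.chart hP.frob hP.cong
  loc0 := by
    intro n hn hπn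
    obtain ⟨P, hP⟩ := h.loc0
    have := h.noeth0
    have := h.closed0
    have := h.frac0
    exact hLocF O R0 E π V P Sg Q f H m n h.irr hn hπn h.m_pos hP
  locInf := by
    intro n hn hπn
    obtain ⟨P, hP⟩ := h.locInf
    have := h.noethInf
    have := h.closedInf
    have := h.fracInf
    exact hLocF O Rinf E π V P Sg Q f H m n h.irr hn hπn h.m_pos hP

/-- **The Čech-bis setting of the abstract block of [E].** -/
noncomputable def settingF (hLocF : LocFStatement) (hAd : LocAdapterStatement)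
    (h : HypF π m j R0 Rinf V Sg Q f H) : Cech2Plan.Setting O E :=
  settingW hAd (hypW_of_hypF hLocF h)

section Simp

variable (hLocF : LocFStatement) (hAd : LocAdapterStatement)
  (h : HypF π m j R0 Rinf V Sg Q f H)

@[simp] theorem settingF_π : (settingF hLocF hAd h).π = π := rfl
@[simp] theorem settingF_m : (settingF hLocF hAd h).m = m := rfl
@[simp] theorem settingF_j : (settingF hLocF hAd h).j = j := rfl
@[simp] theorem settingF_w :
    (settingF hLocF hAd h).w = wFun Sg Q (gFun Sg f H m) := rfl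
@[simp] theorem settingF_R0 : (settingF hLocF hAd h).R0 = R0 := rfl
@[simp] theorem settingF_Rinf : (settingF hLocF hAd h).Rinf = Rinf := rfl
@[simp] theorem settingF_V : (settingF hLocF hAd h).V = vSub V := rfl

/-- `w` unfolded: `Σ G / G ^ Q` with `G = Σ(Σ f) · f / (Σ f · Σ f) · H ^ m`. -/
theorem settingF_w' :
    (settingF hLocF hAd h).w =
      Sg (Sg (Sg f) * f / (Sg f * Sg f) * H ^ m) / (Sg (Sg f) * f / (Sg f * Sg f) * H ^ m) ^ Q :=
  rfl

end Simp

/-- **Top of the abstract block of [E]**: `w = Σ G / G ^ Q` times an `m`-th power is a global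
function (lies in both charts). -/
theorem exists_rootF (hLocF : LocFStatement) (hAd : LocAdapterStatement)
    (h : HypF π m j R0 Rinf V Sg Q f H) :
    ∃ h' : E, h' ≠ 0 ∧ wFun Sg Q (gFun Sg f H m) * h' ^ m ∈ R0 ∧
      wFun Sg Q (gFun Sg f H m) * h' ^ m ∈ Rinf ∧
      ∃ z ∈ vSub V, h' - 1 = algebraMap O E π * z :=
  exists_rootW hAd (hypW_of_hypF hLocF h)

end Top

end Fermat.Agent.S35.AbsTopF
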