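/-
S35 — BaseFB.lean (helper48).  Row [BaseF] of helper5's deal #2738, B-copy (A = helper30,
`S35/BaseF.lean`; same statement shapes).

The two-level base field of the Frobenius model: for finitely many functions `fs ⊆ F̄_N`,
`hs ⊆ F̄_{N'}` and finitely many constants `S ⊆ ℚ̄` there is ONE intermediate field `K` with

* `S ⊆ K`, `BaseFacts ℓ A K`, `K` stable under `Gal(ℚ̄/ℚ)`;
* `fs ⊆ F_K` at level `N`, `hs ⊆ F_K` at level `N'`;
* the zeros and poles of the functions of `fs` (resp. `hs`) are `K`-rational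
  (the clause of `S34/BaseNormal.exists_base`, at both levels).
-/
import Mathlib
import Fermat.Agent.S34.BaseNormal
import Fermat.Agent.S34.TauAct

set_option autoImplicit false

noncomputable section

namespace Fermat.Agent.S35.BaseFB

open ModularCurve AlgebraicCurve HahnSeries Fermat.Agent.S18.Arith Fermat.Agent.S34

/-- A Galois-stable field is `TauAct.Stable` for every `τ`. -/
theorem tauStable_of_stable {K : IntermediateField ℚ Qb} (hK : BaseNormal.Stable K)
    (τ : Qb ≃ₐ[ℚ] Qb) : TauAct.Stable K τ :=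
  ⟨fun c hc => hK τ c hc, fun c hc => hK τ.symm c hc⟩

/-- **[BaseF]** The two-level base field. -/
theorem exists_base2 (N N' : ℕ) [NeZero N] [NeZero N'] (ℓ : ℕ) [Fact ℓ.Prime]
    (A : ValuationSubring Qb) (hA : A.LiesOverPrime ℓ)
    (fs : Finset (modularFunctionFieldBar N)) (hs : Finset (modularFunctionFieldBar N'))
    (S : Finset Qb) :
    ∃ K : IntermediateField ℚ Qb, (↑S ⊆ (K : Set Qb)) ∧ BaseFacts ℓ A K ∧ BaseNormal.Stable K ∧
      (∀ f ∈ fs, (f : LaurentSeries Qb) ∈ FK N K) ∧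
      (∀ h ∈ hs, (h : LaurentSeries Qb) ∈ FK N' K) ∧
      (∀ f ∈ fs, f ≠ 0 → ∀ P : Place Qb (modularFunctionFieldBar N), P.ord f ≠ 0 →
        (∀ σ : Qb ≃ₐ[ℚ] Qb, (∀ a ∈ K, σ a = a) →
          arithmeticGalois (modularFunctionFieldFull N) σ • P = P) ∧
        ∀ x : modularFunctionFieldBar N, (x : LaurentSeries Qb) ∈ FK N K → 0 ≤ P.ord x →
          ∃ c : Qb, c ∈ K ∧ (x = algebraMap Qb (modularFunctionFieldBar N) c ∨
            0 < P.ord (x - algebraMap Qb (modularFunctionFieldBar N) c))) ∧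
      (∀ h ∈ hs, h ≠ 0 → ∀ P : Place Qb (modularFunctionFieldBar N'), P.ord h ≠ 0 →
        (∀ σ : Qb ≃ₐ[ℚ] Qb, (∀ a ∈ K, σ a = a) →
          arithmeticGalois (modularFunctionFieldFull N') σ • P = P) ∧
        ∀ x : modularFunctionFieldBar N', (x : LaurentSeries Qb) ∈ FK N' K → 0 ≤ P.ord x →
          ∃ c : Qb, c ∈ K ∧ (x = algebraMap Qb (modularFunctionFieldBar N') c ∨
            0 < P.ord (x - algebraMap Qb (modularFunctionFieldBar N') c))) := by
  obtain ⟨L, hL, hd, hl⟩ := BaseNormal.exists_level_data N fs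
  obtain ⟨L', hL', hd', hl'⟩ := BaseNormal.exists_level_data N' hs
  have h₂ : FiniteDimensional ℚ (IntermediateField.adjoin ℚ (S : Set Qb)) :=
    IntermediateField.finiteDimensional_adjoin
      (fun x _ => (AlgebraicClosure.isAlgebraic ℚ).isIntegral.isIntegral x)
  have h₁₂ : FiniteDimensional ℚ ↥(L ⊔ L') := IntermediateField.finiteDimensional_sup L L'
  have h₃ : FiniteDimensional ℚ ↥(L ⊔ L' ⊔ IntermediateField.adjoin ℚ (S : Set Qb)) :=
    IntermediateField.finiteDimensional_sup (L ⊔ L') _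
  obtain ⟨K, hLK, hB, hst⟩ :=
    BaseNormal.exists_stable_base_of_le ℓ A hA (L ⊔ L' ⊔ IntermediateField.adjoin ℚ (S : Set Qb))
  have hLK1 : L ≤ K := (le_sup_left.trans le_sup_left).trans hLK
  have hLK2 : L' ≤ K := (le_sup_right.trans le_sup_left).trans hLK
  refine ⟨K, fun x hx => hLK ((le_sup_right : _ ≤ L ⊔ L' ⊔ _)
      (IntermediateField.subset_adjoin ℚ _ hx)), hB, hst,
    fun f hf => hd f hf K hLK1, fun h hh => hd' h hh K hLK2,
    fun f hf hne P hP => ?_, fun h hh hne P hP => ?_⟩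
  · have hfix : ∀ σ : Qb ≃ₐ[ℚ] Qb, (∀ a ∈ K, σ a = a) →
        arithmeticGalois (modularFunctionFieldFull N) σ • P = P := fun σ hσ =>
      hl f hf hne σ (fun a ha => hσ a (hLK1 ha)) P hP
    exact ⟨hfix, fun x hx hord => BaseNormal.exists_residue_mem N K P hfix x hx hord⟩
  · have hfix : ∀ σ : Qb ≃ₐ[ℚ] Qb, (∀ a ∈ K, σ a = a) →
        arithmeticGalois (modularFunctionFieldFull N') σ • P = P := fun σ hσ =>
      hl' h hh hne σ (fun a ha => hσ a (hLK2 ha)) P hP
    exact ⟨hfix, fun x hx hord => BaseNormal.exists_residue_mem N' K P hfix x hx hord⟩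

end Fermat.Agent.S35.BaseFB
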