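/-
S35 — CoreAsmFB.lean (helper56).  B-copy of THE ASSEMBLY of block [E] (A = `S35/CoreAsmF.lean`,
which goes through `AbsTopWB`; this copy goes through `AbsTopF`):

    `frobCoreAt_of_modelF :
       LocPlan.CutAtStatement → LocFPlan.LocFStatement → LocPlan.LocAdapterStatement →
       f ≠ 0 → ModelFPlan.ModelF N A m Q τ f → FCorePlanG.FrobCoreAt N A τ Q m f`   (per function)
    `frobCore_of_modelF :
       LocPlan.CutAtStatement → LocFPlan.LocFStatement → LocPlan.LocAdapterStatement →
       ModelFPlan.ModelFStatement M q m → FCorePlan.FrobCoreStatement M q m`.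

From a `ModelFPlan.ModelF` (what the modular block supplies for one function `f` and the square
`τ = σs * σs` of a Frobenius lift) we build the complete input `AbsTopF.HypF` of the abstract
block on the two charts `chart t`, `chart t⁻¹`:

* chart-side fields from `S34/ChartJ.lean` (as in `S34/CoreAsm.lean`);
* `LocFPlan.FrobHyp` (the `V`-forms) from `ModelFPlan.FrobHyp` (the `O`-forms) and `ChartHyp.le`;
* `branch`, `trans`, `node` verbatim; `root` from `res` (closed points are `O`-rational);
* the horizontal hypothesis `LocFPlan.HorHyp` from `LocPlan.CutAtStatement` and the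
  `branch` / `trans` / `hor` fields (`S34/CoreAsm.cutHyp_of_cutAt`);
* `cong` is `ModelF.H_cong`;

take the Čech-bis setting `AbsTopF.settingF`, and identify its function
`w = wFun Σ Q (gFun Σ fK H m)` with `FCorePlan.wBar N τ Q m f (toBar H)`.
-/
import Mathlib
import Fermat.Agent.S34.CoreAsm
import Fermat.Agent.S35.ModelFPlan
import Fermat.Agent.S35.FCorePlan
import Fermat.Agent.S35.FCorePlanG
import Fermat.Agent.S35.AbsTopF

set_option autoImplicit false

open ModularCurve AlgebraicCurve HahnSeries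

namespace Fermat.Agent.S35.CoreAsmFB

open Fermat.Agent.S18.Arith Fermat.Agent.S34 Fermat.Agent.S34.LocPlan

noncomputable section

/-! ### The `O`-forms of the Frobenius hypotheses imply the `V`-forms -/

section Adapter

variable {O : Type*} [CommRing O] {R : Type*} [CommRing R] [Algebra O R]
  {E : Type*} [Field E] [Algebra R E]

/-- `ModelFPlan.FrobHyp` (constants and the unit in `O`) implies `LocFPlan.FrobHyp` (constants
and the unit in `V i`), since `R ⊆ V i`. -/
theorem locFrobHyp_of_frobHyp {π : O} {V : Fin 2 → ValuationSubring E} {P : Fin 2 → Ideal R}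
    {Q : ℕ} {σ : E ≃+* E} (hC : ChartHyp π V P) (h : ModelFPlan.FrobHyp (R := R) π V Q σ) :
    LocFPlan.FrobHyp (R := R) π V σ Q where
  map_R := h.map_R
  symm_R := h.symm_R
  map_V := h.map_V
  symm_V := h.symm_V
  pi := fun i => by
    obtain ⟨u, hu, hσ⟩ := h.pi
    obtain ⟨u', huu'⟩ := hu.exists_right_inv
    refine ⟨algebraMap R E (algebraMap O R u), hC.le i (algebraMap O R u), ?_, hσ⟩
    have hinv : (algebraMap R E (algebraMap O R u))⁻¹ = algebraMap R E (algebraMap O R u') := by
      apply inv_eq_of_mul_eq_one_right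
      rw [← map_mul, ← map_mul, huu', map_one, map_one]
    rw [hinv]
    exact hC.le i _
  const := fun c i => by
    obtain ⟨c', hc'⟩ := h.frob c
    exact ⟨algebraMap R E (algebraMap O R c'), hC.le i (algebraMap O R c'), hc'⟩

end Adapter

/-! ### From a `ModelF` to the Čech-bis setting -/

section Asm

open Fermat.Agent.S35.ModelFPlan

variable {N : ℕ} [NeZero N] {A : ValuationSubring Qb} {m Q : ℕ} {τ : Qb ≃ₐ[ℚ] Qb}
  {f : modularFunctionFieldBar N}

/-- `f`, descended to `F_K`, is nonzero. -/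
theorem fK_ne_zero (M : ModelF N A m Q τ f) (hf : f ≠ 0) : M.fK ≠ 0 := by
  intro h
  apply hf
  rw [← M.fK_coe, h, map_zero]

/-- The exponent of a `ModelF` is nonzero. -/
theorem m_ne_zero (M : ModelF N A m Q τ f) : m ≠ 0 := by
  have := M.dvr
  rintro rfl
  have h0 := M.hm
  rw [Nat.cast_zero] at h0
  exact not_isUnit_zero h0

/-- The corrector of a `ModelF` is nonzero. -/
theorem H_ne_zero (M : ModelF N A m Q τ f) : M.H ≠ 0 := by
  intro h0
  obtain ⟨z, hz, hcong⟩ := M.H_cong 0
  rw [h0, zero_pow (m_ne_zero M), mul_zero, zero_sub] at hcong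
  apply M.c0.hyp.pi_not 0
  have hπ : algebraMap (OK A M.K) (FK N M.K) M.π * (-z) = 1 := by
    rw [mul_neg, ← hcong, neg_neg]
  have hinv : (algebraMap (chart N A M.K M.t) (FK N M.K)
      (algebraMap (OK A M.K) (chart N A M.K M.t) M.π))⁻¹ = -z :=
    inv_eq_of_mul_eq_one_right hπ
  rw [hinv]
  exact (M.V 0).neg_mem _ hz

/-- The local hypotheses of `LocFPlan` on one chart of a `ModelF`. -/
theorem locFHyp_of_chart (hCut : CutAtStatement) {K : IntermediateField ℚ Qb}
    [IsDiscreteValuationRing (OK A K)] {π : OK A K} (hπ : Irreducible π)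
    {V : Fin 2 → ValuationSubring (FK N K)} {σ : FK N K ≃+* FK N K} {fK H : FK N K}
    {R : Subalgebra (OK A K) (FK N K)} (c : ChartModelF N A K π m Q V σ fK R) (hf : fK ≠ 0)
    (hH : ∀ i : Fin 2, ∃ z ∈ V i,
      LocPlan.secondDiff σ σ fK * H ^ m - 1 = algebraMap (OK A K) (FK N K) π * z) :
    LocFPlan.LocFHyp π V c.P σ Q fK H m where
  chart := c.hyp
  frob := locFrobHyp_of_frobHyp c.hyp c.frob
  branch := fun n hn hπn => c.branch n hn hπn
  trans := fun n hn hπn => c.trans n hn hπn
  node := fun n hn hπn h0 h1 => c.node n hn hπn h0 h1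
  root := fun n hn hπn _ _ x _ => c.res n hn hπn x
  hor := fun n hn hπn =>
    haveI := c.noeth
    CoreAsm.cutHyp_of_cutAt hCut R hπ c.hyp n hn hπn (c.branch n hn hπn) (c.trans n hn hπn)
      (c.hor n hn hπn)
  f_ne := hf
  cong := hH

/-- The complete input of the abstract block of [E] attached to a `ModelF`. -/
theorem hypF_of_modelF (hCut : CutAtStatement) (M : ModelF N A m Q τ f) (hf : f ≠ 0) :
    haveI := M.dvr
    AbsTopF.HypF M.π m M.t (chart N A M.K M.t) (chart N A M.K M.t⁻¹) M.V M.σ Q M.fK M.H := by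
  have := M.dvr
  have hm0 : m ≠ 0 := m_ne_zero M
  exact
    { inj := Fermat.Agent.S18.FinalCore.algebraMap_injective_OK N A M.K
      irr := M.irr
      hm := M.hm
      j_ne := M.t_ne
      j_mem := ChartJ.self_mem_chart N A M.K M.t
      jinv_mem := ChartJ.self_mem_chart N A M.K M.t⁻¹
      glue0 := fun x hx => ChartJ.glue N A M.K M.t_ne hx
      glueInf := fun x hx => ChartJ.glue' N A M.K M.t_ne hx
      root0 := fun x hx => ChartJ.root_chart N A M.K hm0 hx
      rootInf := fun x hx => ChartJ.root_chart N A M.K hm0 hx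
      fin0 := M.fin0
      noeth0 := M.c0.noeth
      noethInf := M.cInf.noeth
      closed0 := M.c0.intcl
      closedInf := M.cInf.intcl
      frac0 := M.c0.frac
      fracInf := M.cInf.frac
      loc0 := ⟨M.c0.P, locFHyp_of_chart hCut M.irr M.c0 (fK_ne_zero M hf) M.H_cong⟩
      locInf := ⟨M.cInf.P, locFHyp_of_chart hCut M.irr M.cInf (fK_ne_zero M hf) M.H_cong⟩ }

/-- The function `w = Σ G / G ^ Q`, `G = (Σ²f · f / (Σf)²) · H ^ m`, commutes with the inclusion
`F_K → F̄`. -/
theorem toBar_wFun (M : ModelF N A m Q τ f) :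
    Fermat.Agent.S18.Glob.toBar N M.K (LocFPlan.wFun M.σ Q (LocFPlan.gFun M.σ M.fK M.H m)) =
      FCorePlan.wBar N τ Q m f (Fermat.Agent.S18.Glob.toBar N M.K M.H) := by
  have hG : Fermat.Agent.S18.Glob.toBar N M.K (LocFPlan.gFun M.σ M.fK M.H m) =
      FCorePlan.gBar N τ m f (Fermat.Agent.S18.Glob.toBar N M.K M.H) := by
    unfold LocFPlan.gFun secondDiff FCorePlan.gBar UPlan.sdFun
    rw [map_mul, map_div₀, map_mul, map_mul, map_pow, M.σ_coe, M.σ_coe, M.fK_coe]
  unfold LocFPlan.wFun FCorePlan.wBar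
  rw [map_div₀, map_pow, M.σ_coe, hG]

/-- **One instance of `FCorePlan.FrobCoreStatement`** from a `ModelF`. -/
theorem core_of_modelF (hCut : CutAtStatement) (hLocF : LocFPlan.LocFStatement)
    (hAd : LocAdapterStatement) (M : ModelF N A m Q τ f) (hf : f ≠ 0) :
    ∃ (K : IntermediateField ℚ Qb) (_ : IsDiscreteValuationRing (OK A K))
      (S : Cech2Plan.Setting (OK A K) (FK N K)) (t : FK N K)
      (H : modularFunctionFieldBar N),
      H ≠ 0 ∧ S.m = m ∧ S.R0 = chart N A K t ∧ S.Rinf = chart N A K t⁻¹ ∧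
        ((S.w : FK N K) : LaurentSeries Qb) =
          ((FCorePlan.wBar N τ Q m f H : modularFunctionFieldBar N) : LaurentSeries Qb) := by
  have := M.dvr
  refine ⟨M.K, M.dvr, AbsTopF.settingF hLocF hAd (hypF_of_modelF hCut M hf), M.t,
    Fermat.Agent.S18.Glob.toBar N M.K M.H, ?_, rfl, rfl, rfl, ?_⟩
  · intro h0
    apply H_ne_zero M
    have hinj : Function.Injective (Fermat.Agent.S18.Glob.toBar N M.K) :=
      (Fermat.Agent.S18.Glob.toBar N M.K).injective
    apply hinj
    rw [h0, map_zero]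
  · rw [AbsTopF.settingF_w, ← toBar_wFun M]
    rfl

/-- **[CoreAsmF], per-function form**: a `ModelF` for ONE function `f` (any level `N`, any `τ`,
any `Q`) gives the conclusion `FCorePlanG.FrobCoreAt` of the assembly for `f`. -/
theorem frobCoreAt_of_modelF (hCut : CutAtStatement) (hLocF : LocFPlan.LocFStatement)
    (hAd : LocAdapterStatement) (hf : f ≠ 0) (M : ModelF N A m Q τ f) :
    FCorePlanG.FrobCoreAt N A τ Q m f :=
  core_of_modelF hCut hLocF hAd M hf

end Asm

/-- **[CoreAsmF]** for an arbitrary condition `Cond σs f` (`FCorePlanG.ModelFStatementOf`). -/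
theorem frobCoreAt_of_statementOf (hCut : CutAtStatement) (hLocF : LocFPlan.LocFStatement)
    (hAd : LocAdapterStatement) (M q m : ℕ) [NeZero M] [NeZero q] [NeZero (M * q)]
    (Cond : (Qb ≃ₐ[ℚ] Qb) → modularFunctionFieldBar (M * q) → Prop)
    (hM : FCorePlanG.ModelFStatementOf M q m Cond)
    (A : ValuationSubring Qb) (hA : A.LiesOverPrime q) (σs : Qb ≃ₐ[ℚ] Qb)
    (hσs : A.IsFrobeniusAt σs q) (f : modularFunctionFieldBar (M * q)) (hf : f ≠ 0)
    (hdvd : ∀ P : Place Qb (modularFunctionFieldBar (M * q)), (m : ℤ) ∣ P.ord f)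
    (hC : Cond σs f) : FCorePlanG.FrobCoreAt (M * q) A (σs * σs) (q ^ 2) m f := by
  obtain ⟨Mo⟩ := hM A hA σs hσs f hf hdvd hC
  exact frobCoreAt_of_modelF hCut hLocF hAd hf Mo

/-- **[CoreAsmF]** the assembly of block [E]: the abstract leaves of `LocFPlan` (+ `CutAt`,
`LocAdapter` of `S34/LocPlan`) turn a `ModelF` into the Čech-bis setting required by
`FCorePlan.FrobCoreStatement`. -/
theorem frobCore_of_modelF (hCut : CutAtStatement) (hLocF : LocFPlan.LocFStatement)
    (hAd : LocAdapterStatement) (M q m : ℕ) [NeZero M] [NeZero q] [NeZero (M * q)]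
    (hM : ModelFPlan.ModelFStatement M q m) : FCorePlan.FrobCoreStatement M q m := by
  intro A hA σs hσs f hf hdvd hnorm
  obtain ⟨Mo⟩ := hM A hA σs hσs f hf hdvd hnorm
  exact core_of_modelF hCut hLocF hAd Mo hf

end

end Fermat.Agent.S35.CoreAsmFB
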