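/-
S35 — CoreAsmFBTop.lean (helper56).  CLOSED forms of the assembly of block [E] (B-copy): with

* `S34/CutAtTop.cutAtStatement : LocPlan.CutAtStatement`,
* `S34/LocHw.locAdapter : LocPlan.LocAdapterStatement`,
* `S35/LocFAll.locFStatement : LocFPlan.LocFStatement`,
* `S34/Cech2.cech2Statement : Cech2Plan.Cech2Statement`,
* `S35/FJSide` (the J-side),

no abstract leaf remains: a `ModelFPlan.ModelF` for one function `f` gives `FrobCoreAt` and
`FrobDivAt` for `f`; `ModelFStatement M q m` gives `FrobCoreStatement`, `FrobDivStatement` and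
(for `m ≠ 0`) `FrobTorsStatement M q m`:  `(τ - q²)(τ - 1)² = 0` on the `m`-torsion of
`ker α_* ∩ ker β_*`, `τ = σs²`.
-/
import Mathlib
import Fermat.Agent.S34.CutAtTop
import Fermat.Agent.S34.LocHw
import Fermat.Agent.S34.Cech2
import Fermat.Agent.S35.LocFAll
import Fermat.Agent.S35.CoreAsmFB
import Fermat.Agent.S35.FJSide

set_option autoImplicit false

open ModularCurve AlgebraicCurve HahnSeries

namespace Fermat.Agent.S35.CoreAsmFBTop

open Fermat.Agent.S18.Arith Fermat.Agent.S34

noncomputable section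

section PerFunction

variable {N : ℕ} [NeZero N] {A : ValuationSubring Qb} {m Q : ℕ} {τ : Qb ≃ₐ[ℚ] Qb}
  {f : modularFunctionFieldBar N}

/-- **[CoreAsmF], closed, per function**: a `ModelF` for `f` gives a Čech-bis setting with
`w = τ G / G ^ Q`, `G = (τ²f · f / (τf)²) · H ^ m`. -/
theorem frobCoreAt (hf : f ≠ 0) (M : ModelFPlan.ModelF N A m Q τ f) :
    FCorePlanG.FrobCoreAt N A τ Q m f :=
  CoreAsmFB.frobCoreAt_of_modelF CutAtTop.cutAtStatement LocFAll.locFStatement LocHw.locAdapter
    hf M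

/-- **Block [E] for one function, closed**: a `ModelF` for `f` makes `(τ - Q)(τ - 1)² D`
principal whenever `div f = m • D`. -/
theorem frobDivAt (hf : f ≠ 0) (M : ModelFPlan.ModelF N A m Q τ f) :
    FCorePlanG.FrobDivAt N τ Q m f := fun D hD =>
  FJSide.isPrincipal_fDiv_of_exists N τ Q m (CoreAsmFB.m_ne_zero M) Cech2.cech2Statement A f hf
    (frobCoreAt hf M) D hD

end PerFunction

section Statements

variable (M q m : ℕ) [NeZero M] [NeZero q] [NeZero (M * q)]

/-- `FrobCoreAt` from `ModelFStatementOf` (arbitrary condition `Cond σs f`), closed. -/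
theorem frobCoreAt_of_statementOf
    (Cond : (Qb ≃ₐ[ℚ] Qb) → modularFunctionFieldBar (M * q) → Prop)
    (hM : FCorePlanG.ModelFStatementOf M q m Cond)
    (A : ValuationSubring Qb) (hA : A.LiesOverPrime q) (σs : Qb ≃ₐ[ℚ] Qb)
    (hσs : A.IsFrobeniusAt σs q) (f : modularFunctionFieldBar (M * q)) (hf : f ≠ 0)
    (hdvd : ∀ P : Place Qb (modularFunctionFieldBar (M * q)), (m : ℤ) ∣ P.ord f)
    (hC : Cond σs f) : FCorePlanG.FrobCoreAt (M * q) A (σs * σs) (q ^ 2) m f := by
  obtain ⟨Mo⟩ := hM A hA σs hσs f hf hdvd hC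
  exact frobCoreAt hf Mo

/-- `FrobDivAt` from `ModelFStatementOf` (arbitrary condition `Cond σs f`), closed. -/
theorem frobDivAt_of_statementOf
    (Cond : (Qb ≃ₐ[ℚ] Qb) → modularFunctionFieldBar (M * q) → Prop)
    (hM : FCorePlanG.ModelFStatementOf M q m Cond)
    (A : ValuationSubring Qb) (hA : A.LiesOverPrime q) (σs : Qb ≃ₐ[ℚ] Qb)
    (hσs : A.IsFrobeniusAt σs q) (f : modularFunctionFieldBar (M * q)) (hf : f ≠ 0)
    (hdvd : ∀ P : Place Qb (modularFunctionFieldBar (M * q)), (m : ℤ) ∣ P.ord f)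
    (hC : Cond σs f) : FCorePlanG.FrobDivAt (M * q) (σs * σs) (q ^ 2) m f := by
  obtain ⟨Mo⟩ := hM A hA σs hσs f hf hdvd hC
  exact frobDivAt hf Mo

/-- **[FrobCore], closed**: `ModelFStatement M q m → FrobCoreStatement M q m`. -/
theorem frobCoreStatement (hM : ModelFPlan.ModelFStatement M q m) :
    FCorePlan.FrobCoreStatement M q m :=
  CoreAsmFB.frobCore_of_modelF CutAtTop.cutAtStatement LocFAll.locFStatement LocHw.locAdapter
    M q m hM

/-- **(FD), closed**: `ModelFStatement M q m → FrobDivStatement M q m`. -/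
theorem frobDivStatement (hM : ModelFPlan.ModelFStatement M q m) :
    FCorePlan.FrobDivStatement M q m := by
  intro A hA σs hσs f hf D hD hnorm
  obtain ⟨Mo⟩ := hM A hA σs hσs f hf (fun P => ⟨D P, (hD P).symm⟩) hnorm
  exact frobDivAt hf Mo D hD

/-- **(FT), closed — block [E]**: `ModelFStatement M q m → FrobTorsStatement M q m`:
`(τ - q²)(τ - 1)²` kills the `m`-torsion of `ker α_* ∩ ker β_*` in `J₀(M q)`, `τ = σs²`. -/
theorem frobTorsStatement (hM : ModelFPlan.ModelFStatement M q m) :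
    FCorePlan.FrobTorsStatement M q m :=
  FJSide.frobTors_of_div M q m (frobDivStatement M q m hM)

end Statements

end

end Fermat.Agent.S35.CoreAsmFBTop
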