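/-
S35 — CoreAsmFC.lean (helper19; B2 of row [CoreAsmF], helper5 DEAL #1b, board #2738).
THE ASSEMBLY of block [E], per function:

    frobCore_of_modelF : CutAtStatement → LocFPlan.LocFStatement → LocAdapterStatement →
      f ≠ 0 → ModelFPlan.ModelF N A m Q τ f → FCorePlanG.FrobCoreAt N A τ Q m f

(any level `N`, exponent `Q`, automorphism `τ`; `H := Glob.toBar` of `ModelF.H`), and its
corollary `frobCoreStatement_of_modelF : … → ModelFStatement M q m → FrobCoreStatement M q m`.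

Independent of `S35/CoreAsmF.lean` (helper9): the Čech-bis setting is `AbsTopF.settingF`
(helper44) on `AbsTopF.HypF`, whose fields `loc0` / `locInf` are `LocFPlan.LocFHyp` for the two
charts.  Adapters proved here:
* `frobHyp_of_model`  — `ModelFPlan.FrobHyp` (constants in `O`) ⇒ `LocFPlan.FrobHyp`;
* `locFHyp_of_chart`  — the fields of `ModelFPlan.ChartModelF` ⇒ `LocFPlan.LocFHyp`
                         (`res` ⇒ `root`; `hor` ⇒ `HorHyp` via `CutAt`, by
                         `S34/CoreAsm.cutHyp_of_cutAt`);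
* `toBar_wFun`        — `toBar (Σ G / G ^ Q) = FCorePlan.wBar N τ Q m f (toBar H)`.
-/
import Mathlib
import Fermat.Agent.S34.CoreAsm
import Fermat.Agent.S35.ModelFPlan
import Fermat.Agent.S35.FCorePlan
import Fermat.Agent.S35.FCorePlanG
import Fermat.Agent.S35.LocFPlan
import Fermat.Agent.S35.AbsTopF

set_option autoImplicit false

open ModularCurve AlgebraicCurve HahnSeries

namespace Fermat.Agent.S35.CoreAsmFC

open Fermat.Agent.S18.Arith Fermat.Agent.S34 Fermat.Agent.S34.LocPlan Fermat.Agent.S35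

noncomputable section

set_option synthInstance.maxHeartbeats 400000

/-! ### `ModelFPlan.FrobHyp` (constants in `O`) gives `LocFPlan.FrobHyp` (constants in `V i`) -/

section Adapter

variable {O : Type*} [CommRing O] {R : Type*} [CommRing R] [Algebra O R]
  {E : Type*} [Field E] [Algebra R E]
  {π : O} {V : Fin 2 → ValuationSubring E} {P : Fin 2 → Ideal R} {σ : E ≃+* E} {Q : ℕ}

theorem frobHyp_of_model (hC : ChartHyp π V P) (F : ModelFPlan.FrobHyp (R := R) π V Q σ) :
    LocFPlan.FrobHyp (R := R) π V σ Q where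
  map_R := F.map_R
  symm_R := F.symm_R
  map_V := F.map_V
  symm_V := F.symm_V
  pi := by
    intro i
    obtain ⟨u, hu, h⟩ := F.pi
    obtain ⟨u', hu'⟩ := hu.exists_right_inv
    refine ⟨algebraMap R E (algebraMap O R u), hC.le i _, ?_, h⟩
    have hinv : (algebraMap R E (algebraMap O R u))⁻¹ = algebraMap R E (algebraMap O R u') :=
      inv_eq_of_mul_eq_one_right (by rw [← map_mul, ← map_mul, hu', map_one, map_one])
    rw [hinv]
    exact hC.le i _
  const := by
    intro c i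
    obtain ⟨c', h⟩ := F.frob c
    exact ⟨_, hC.le i _, h⟩

end Adapter

/-! ### `LocFPlan.LocFHyp` for one chart -/

section Chart

/-- The local hypotheses of the abstract block on one chart `R ⊆ E`, from the fields of
`ModelFPlan.ChartModelF` and `LocPlan.CutAtStatement`. -/
theorem locFHyp_of_chart (hCut : CutAtStatement)
    {O : Type} [CommRing O] [IsDomain O] [IsDiscreteValuationRing O]
    {E : Type} [Field E] [Algebra O E] (R : Subalgebra O E) [IsNoetherianRing R]
    {π : O} (hπ : Irreducible π) {V : Fin 2 → ValuationSubring E} {P : Fin 2 → Ideal R}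
    (hC : ChartHyp π V P) {σ : E ≃+* E} {Q : ℕ} (F : ModelFPlan.FrobHyp (R := R) π V Q σ)
    {f H : E} {m : ℕ} (hf : f ≠ 0)
    (hbr : ∀ n : Ideal R, n.IsMaximal → algebraMap O R π ∈ n → ∀ i : Fin 2, P i ≤ n →
      (∃ x ∈ n, x ∉ P i) ∧
        ∃ u ∈ n, ∀ x ∈ n, ∃ s : R, s ∉ n ∧ ∃ c : R, s * x - c * u ∈ P i)
    (htr : ∀ n : Ideal R, n.IsMaximal → algebraMap O R π ∈ n → P 0 ≤ n → P 1 ≤ n →
      ∀ x ∈ n, ∃ s : R, s ∉ n ∧ s * x ∈ P 0 ⊔ P 1)
    (hhor : ∀ n : Ideal R, n.IsMaximal → algebraMap O R π ∈ n →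
      ∀ 𝔮 : Ideal R, 𝔮.IsPrime → 𝔮 ≤ n → algebraMap O R π ∉ 𝔮 → PrincAt 𝔮 →
        UnitAt 𝔮 f ∨ ((∀ r : R, ∃ c : O, r - algebraMap O R c ∈ 𝔮) ∧
          ∃ x : E, x ≠ 0 ∧ UnitAt 𝔮 (f * x ^ m)))
    (hres : ∀ n : Ideal R, n.IsMaximal → algebraMap O R π ∈ n →
      ∀ r : R, ∃ c : O, r - algebraMap O R c ∈ n)
    (hnode : ∀ n : Ideal R, n.IsMaximal → algebraMap O R π ∈ n → P 0 ≤ n → P 1 ≤ n →
      ∀ r r' : R, σ (algebraMap R E r) = algebraMap R E r' → (r ∈ n ↔ r' ∈ n))
    (hcong : ∀ i : Fin 2, ∃ z ∈ V i,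
      secondDiff σ σ f * H ^ m - 1 = algebraMap O E π * z) :
    LocFPlan.LocFHyp π V P σ Q f H m where
  chart := hC
  frob := frobHyp_of_model hC F
  branch := fun n hn hπn => hbr n hn hπn
  trans := fun n hn hπn => htr n hn hπn
  node := fun n hn hπn h0 h1 => hnode n hn hπn h0 h1
  root := fun n hn hπn _ _ x _ => hres n hn hπn x
  hor := fun n hn hπn =>
    CoreAsm.cutHyp_of_cutAt hCut R hπ hC n hn hπn (hbr n hn hπn) (htr n hn hπn) (hhor n hn hπn)
  f_ne := hf
  cong := hcong

end Chart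

/-! ### From a `ModelF` to the Čech-bis setting -/

section Asm

open Fermat.Agent.S35.ModelFPlan

variable {N : ℕ} [NeZero N] {A : ValuationSubring Qb} {m Q : ℕ} {τ : Qb ≃ₐ[ℚ] Qb}
  {f : modularFunctionFieldBar N}

/-- `f`, descended to `F_K`, is nonzero. -/
theorem fK_ne_zero (M : ModelF N A m Q τ f) (hf : f ≠ 0) : M.fK ≠ 0 := by
  intro h
  apply hf
  rw [← M.fK_coe, h, map_zero]

theorem m_ne_zero (M : ModelF N A m Q τ f) : m ≠ 0 := by
  rintro rfl
  have h0 := M.hm
  rw [Nat.cast_zero] at h0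
  have := M.dvr
  exact not_isUnit_zero h0

/-- The corrector is nonzero. -/
theorem H_ne_zero (M : ModelF N A m Q τ f) : M.H ≠ 0 := by
  intro h
  obtain ⟨z, hz, hcong⟩ := M.H_cong 0
  rw [h, zero_pow (m_ne_zero M), mul_zero, zero_sub] at hcong
  have hC := M.c0.hyp
  apply hC.pi_not 0
  have hϖ : algebraMap (chart N A M.K M.t) (FK N M.K)
      (algebraMap (OK A M.K) (chart N A M.K M.t) M.π) = algebraMap (OK A M.K) (FK N M.K) M.π :=
    rfl
  rw [hϖ]
  have h1 : (algebraMap (OK A M.K) (FK N M.K) M.π)⁻¹ = -z := by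
    apply inv_eq_of_mul_eq_one_right
    linear_combination hcong
  rw [h1]
  exact neg_mem hz

/-- The complete input of the abstract block of [E] attached to a `ModelF`. -/
theorem hypF_of_modelF (hCut : CutAtStatement) (M : ModelF N A m Q τ f) (hf : f ≠ 0) :
    haveI := M.dvr
    AbsTopF.HypF M.π m M.t (chart N A M.K M.t) (chart N A M.K M.t⁻¹) M.V M.σ Q M.fK M.H := by
  have := M.dvr
  have hm0 : m ≠ 0 := m_ne_zero M
  exact
    { inj := Fermat.Agent.S18.FinalCore.algebraMap_injective_OK N A M.K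
      irr := M.irr
      hm := M.hm
      j_ne := M.t_ne
      j_mem := ChartJ.self_mem_chart N A M.K M.t
      jinv_mem := ChartJ.self_mem_chart N A M.K M.t⁻¹
      glue0 := fun x hx => ChartJ.glue N A M.K M.t_ne hx
      glueInf := fun x hx => ChartJ.glue' N A M.K M.t_ne hx
      root0 := fun x hx => ChartJ.root_chart N A M.K hm0 hx
      rootInf := fun x hx => ChartJ.root_chart N A M.K hm0 hx
      fin0 := M.fin0
      noeth0 := M.c0.noeth
      noethInf := M.cInf.noeth
      closed0 := M.c0.intcl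
      closedInf := M.cInf.intcl
      frac0 := M.c0.frac
      fracInf := M.cInf.frac
      loc0 :=
        have := M.c0.noeth
        ⟨M.c0.P, locFHyp_of_chart hCut (chart N A M.K M.t) M.irr M.c0.hyp M.c0.frob
          (fK_ne_zero M hf) M.c0.branch M.c0.trans M.c0.hor M.c0.res M.c0.node M.H_cong⟩
      locInf :=
        have := M.cInf.noeth
        ⟨M.cInf.P, locFHyp_of_chart hCut (chart N A M.K M.t⁻¹) M.irr M.cInf.hyp M.cInf.frob
          (fK_ne_zero M hf) M.cInf.branch M.cInf.trans M.cInf.hor M.cInf.res M.cInf.node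
          M.H_cong⟩ }

/-- `w = Σ G / G ^ Q` commutes with the inclusion `F_K → F̄`. -/
theorem toBar_wFun (M : ModelF N A m Q τ f) :
    Fermat.Agent.S18.Glob.toBar N M.K (LocFPlan.wFun M.σ Q (LocFPlan.gFun M.σ M.fK M.H m)) =
      FCorePlan.wBar N τ Q m f (Fermat.Agent.S18.Glob.toBar N M.K M.H) := by
  have hG : Fermat.Agent.S18.Glob.toBar N M.K (LocFPlan.gFun M.σ M.fK M.H m) =
      FCorePlan.gBar N τ m f (Fermat.Agent.S18.Glob.toBar N M.K M.H) := by
    unfold LocFPlan.gFun FCorePlan.gBar secondDiff UPlan.sdFun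
    rw [map_mul, map_pow, map_div₀, map_mul, map_mul, M.σ_coe, M.σ_coe, M.fK_coe]
  unfold LocFPlan.wFun FCorePlan.wBar
  rw [map_div₀, map_pow, M.σ_coe, hG]

/-- **[CoreAsmF], per function**: a `ModelF` for `f` gives the Čech-bis setting
`FCorePlanG.FrobCoreAt` for `f` (any level `N`, exponent `Q`, automorphism `τ`). -/
theorem frobCore_of_modelF (hCut : CutAtStatement) (hLocF : LocFPlan.LocFStatement)
    (hAd : LocAdapterStatement) (hf : f ≠ 0) (M : ModelF N A m Q τ f) :
    FCorePlanG.FrobCoreAt N A τ Q m f := by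
  have := M.dvr
  refine ⟨M.K, M.dvr, AbsTopF.settingF hLocF hAd (hypF_of_modelF hCut M hf), M.t,
    Fermat.Agent.S18.Glob.toBar N M.K M.H, ?_, rfl, rfl, rfl, ?_⟩
  · intro h0
    apply H_ne_zero M
    exact (Fermat.Agent.S18.Glob.toBar N M.K).injective (by rw [h0, map_zero])
  · rw [AbsTopF.settingF_w, ← toBar_wFun M]
    rfl

end Asm

/-- **[CoreAsmF]** the assembly of block [E]: the abstract leaves + `ModelFStatement` give
`FrobCoreStatement`. -/
theorem frobCoreStatement_of_modelF (hCut : CutAtStatement) (hLocF : LocFPlan.LocFStatement)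
    (hAd : LocAdapterStatement) (M q m : ℕ) [NeZero M] [NeZero q] [NeZero (M * q)]
    (hM : ModelFPlan.ModelFStatement M q m) : FCorePlan.FrobCoreStatement M q m := by
  intro A hA σs hσ f hf hdvd hnorm
  obtain ⟨Mo⟩ := hM A hA σs hσ f hf hdvd hnorm
  exact frobCore_of_modelF hCut hLocF hAd hf Mo

/-- The same for an arbitrary condition `Cond σs f` (`FCorePlanG.ModelFStatementOf`). -/
theorem frobCoreAt_of_modelFStatementOf (hCut : CutAtStatement)
    (hLocF : LocFPlan.LocFStatement) (hAd : LocAdapterStatement)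
    (M q m : ℕ) [NeZero M] [NeZero q] [NeZero (M * q)]
    (Cond : (Qb ≃ₐ[ℚ] Qb) → modularFunctionFieldBar (M * q) → Prop)
    (hM : FCorePlanG.ModelFStatementOf M q m Cond)
    (A : ValuationSubring Qb) (hA : A.LiesOverPrime q) (σs : Qb ≃ₐ[ℚ] Qb)
    (hσ : A.IsFrobeniusAt σs q) (f : modularFunctionFieldBar (M * q)) (hf : f ≠ 0)
    (hdvd : ∀ P : Place Qb (modularFunctionFieldBar (M * q)), (m : ℤ) ∣ P.ord f)
    (hC : Cond σs f) : FCorePlanG.FrobCoreAt (M * q) A (σs * σs) (q ^ 2) m f := by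
  obtain ⟨Mo⟩ := hM A hA σs hσ f hf hdvd hC
  exact frobCore_of_modelF hCut hLocF hAd hf Mo

end

end Fermat.Agent.S35.CoreAsmFC
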