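/-
S35 — CoreAsmFG.lean (helper9; deal helper5 #2738).  `[CoreAsmF]` in the PER-FUNCTION vocabulary
of `S35/FCorePlanG.lean`:

    `frobCoreAt_of_modelF : CutAt → LocF → HwF → LocAdapter → f ≠ 0 →
        ModelFPlan.ModelF N A m Q τ f → FCorePlanG.FrobCoreAt N A τ Q m f`

(general level `N`, exponent `Q`, automorphism `τ`; no condition on `f` other than `f ≠ 0`), and
the statement-level corollary for an arbitrary condition `Cond σs f`.  Everything is
`S35/CoreAsmF.core_of_modelF` (on main, 6e8a28e) read through the definitions of `FCorePlanG`.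
-/
import Mathlib
import Fermat.Agent.S35.CoreAsmF
import Fermat.Agent.S35.FCorePlanG

set_option autoImplicit false

open ModularCurve AlgebraicCurve HahnSeries

namespace Fermat.Agent.S35.CoreAsmFG

open Fermat.Agent.S18.Arith Fermat.Agent.S34 Fermat.Agent.S34.LocPlan

/-- **[CoreAsmF], per function**: a `ModelF` for `f` gives `FrobCoreAt` for `f`. -/
theorem frobCoreAt_of_modelF (hCut : CutAtStatement) (hLocF : LocFPlan.LocFStatement)
    (hHwF : LocFPlan.HwFStatement) (hAd : LocAdapterStatement)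
    {N : ℕ} [NeZero N] {A : ValuationSubring Qb} {m Q : ℕ} {τ : Qb ≃ₐ[ℚ] Qb}
    {f : modularFunctionFieldBar N} (hf : f ≠ 0) (M : ModelFPlan.ModelF N A m Q τ f) :
    FCorePlanG.FrobCoreAt N A τ Q m f :=
  CoreAsmF.core_of_modelF hCut hLocF hHwF hAd M hf

/-- The same in the binder shape of deal #2738 (`hm` is not needed: `m ≠ 0` follows from
`ModelF.hm`). -/
theorem frobCore_of_modelF (hCut : CutAtStatement) (hLocF : LocFPlan.LocFStatement)
    (hHwF : LocFPlan.HwFStatement) (hAd : LocAdapterStatement)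
    {N : ℕ} [NeZero N] {A : ValuationSubring Qb} {m Q : ℕ} {τ : Qb ≃ₐ[ℚ] Qb}
    {f : modularFunctionFieldBar N} (hf : f ≠ 0) (_hm : 0 < m) :
    ModelFPlan.ModelF N A m Q τ f → FCorePlanG.FrobCoreAt N A τ Q m f :=
  fun M => frobCoreAt_of_modelF hCut hLocF hHwF hAd hf M

/-- **[CoreAsmF], statement level, arbitrary condition** `Cond σs f`: from
`FCorePlanG.ModelFStatementOf M q m Cond` to `FrobCoreAt` for every `f` satisfying `Cond`. -/
theorem frobCoreAt_of_modelFStatementOf (hCut : CutAtStatement) (hLocF : LocFPlan.LocFStatement)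
    (hHwF : LocFPlan.HwFStatement) (hAd : LocAdapterStatement)
    (M q m : ℕ) [NeZero M] [NeZero q] [NeZero (M * q)]
    (Cond : (Qb ≃ₐ[ℚ] Qb) → modularFunctionFieldBar (M * q) → Prop)
    (hM : FCorePlanG.ModelFStatementOf M q m Cond) :
    ∀ A : ValuationSubring Qb, A.LiesOverPrime q →
    ∀ σs : Qb ≃ₐ[ℚ] Qb, A.IsFrobeniusAt σs q →
    ∀ f : modularFunctionFieldBar (M * q), f ≠ 0 →
      (∀ P : Place Qb (modularFunctionFieldBar (M * q)), (m : ℤ) ∣ P.ord f) →
      Cond σs f → FCorePlanG.FrobCoreAt (M * q) A (σs * σs) (q ^ 2) m f := by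
  intro A hA σs hσs f hf hdvd hc
  obtain ⟨Md⟩ := hM A hA σs hσs f hf hdvd hc
  exact frobCoreAt_of_modelF hCut hLocF hHwF hAd hf Md

end Fermat.Agent.S35.CoreAsmFG
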