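/-
S35 — CorrAdapt.lean (helper10): glue for the corrector statement of the modular assembly.

* `exists_finset_level`  : finitely many functions of `F̄_N` are defined over every intermediate
                           field containing ONE finite set of constants;
* `corrStatement_of_funs`: `ModelFAsm.CorrStatement` from its natural form, in which the base
                           field is required to contain a finite set `S` of constants AND to be a
                           field of definition of a finite set `hs` of functions of the lower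
                           level `M` (the `h`, `h'` of the norm conditions).
-/
import Mathlib
import Fermat.Agent.S35.ModelFAsm

set_option autoImplicit false

open ModularCurve AlgebraicCurve HahnSeries

namespace Fermat.Agent.S35.CorrAdapt

open Fermat.Agent.S18 Fermat.Agent.S18.Arith Fermat.Agent.S34

noncomputable section

set_option synthInstance.maxHeartbeats 400000

/-- A finite-dimensional intermediate field is contained in every intermediate field containing
one finite set. -/
theorem exists_finset_le (L : IntermediateField ℚ Qb) [FiniteDimensional ℚ L] :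
    ∃ S : Finset Qb, ∀ K : IntermediateField ℚ Qb, ↑S ⊆ (K : Set Qb) → L ≤ K := by
  classical
  let b := Module.finBasis ℚ L
  refine ⟨Finset.univ.image fun i => ((b i : L) : Qb), fun K hK x hx => ?_⟩
  have hb : ∀ i, ((b i : L) : Qb) ∈ K := fun i =>
    hK (Finset.mem_coe.mpr (Finset.mem_image_of_mem _ (Finset.mem_univ i)))
  have hx' : (⟨x, hx⟩ : L) = ∑ i, b.repr ⟨x, hx⟩ i • b i := (b.sum_repr ⟨x, hx⟩).symm
  have h2 : x = ∑ i, b.repr ⟨x, hx⟩ i • ((b i : L) : Qb) := by
    have h3 := congrArg (fun y : L => (y : Qb)) hx'
    simp only [AddSubmonoidClass.coe_finsetSum] at h3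
    exact h3
  rw [h2]
  exact K.sum_mem fun i _ => K.smul_mem (hb i)

/-- Finitely many functions of `F̄_N` are defined over every intermediate field containing one
finite set of constants. -/
theorem exists_finset_level (N : ℕ) [NeZero N] (fs : Finset (modularFunctionFieldBar N)) :
    ∃ S : Finset Qb, ∀ K : IntermediateField ℚ Qb, ↑S ⊆ (K : Set Qb) →
      ∀ f ∈ fs, (f : LaurentSeries Qb) ∈ FK N K := by
  obtain ⟨L, hL, hd, -⟩ := BaseNormal.exists_level_data N fs
  obtain ⟨S, hS⟩ := exists_finset_le L
  exact ⟨S, fun K hK f hf => hd f hf K (hS K hK)⟩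

variable (M q : ℕ) [NeZero M] [NeZero q] (hq : q.Prime) (hqM : ¬ q ∣ M)

/-- **`CorrStatement` from its natural form**: the base field is required to contain a finite set
`S` of constants and to be a field of definition of a finite set `hs` of functions of level
`M`. -/
theorem corrStatement_of_funs (m : ℕ)
    (Cond : (Qb ≃ₐ[ℚ] Qb) → modularFunctionFieldBar (M * q) → Prop)
    (h : ∀ A : ValuationSubring Qb, A.LiesOverPrime q →
      ∀ σs : Qb ≃ₐ[ℚ] Qb, A.IsFrobeniusAt σs q →
      ∀ f : modularFunctionFieldBar (M * q), f ≠ 0 →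
        (∀ P : Place Qb (modularFunctionFieldBar (M * q)), (m : ℤ) ∣ P.ord f) → Cond σs f →
      ∃ (S : Finset Qb) (hs : Finset (modularFunctionFieldBar M)),
        ∀ K : IntermediateField ℚ Qb, ↑S ⊆ (K : Set Qb) →
        (∀ g ∈ hs, (g : LaurentSeries Qb) ∈ FK M K) →
        ∀ (hB : BaseFacts q A K) (_ : BaseNormal.Stable K) (hK : TauAct.Stable K (σs * σs))
          (π : OK A K), Irreducible π →
        ∀ fK : FK (M * q) K, Glob.toBar (M * q) K fK = f →
        ∃ H : FK (M * q) K,
          (∀ i : Fin 2, H ∈ ModelFAsm.Vc M q hq hqM A K hB.dvr i ∧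
            H⁻¹ ∈ ModelFAsm.Vc M q hq hqM A K hB.dvr i) ∧
          ∀ i : Fin 2, ∃ z ∈ ModelFAsm.Vc M q hq hqM A K hB.dvr i,
            LocPlan.secondDiff (TauAct.tauE (M * q) hK) (TauAct.tauE (M * q) hK) fK * H ^ m - 1 =
              algebraMap (OK A K) (FK (M * q) K) π * z) :
    ModelFAsm.CorrStatement M q hq hqM m Cond := by
  intro A hA σs hσ f hf hdiv hcond
  classical
  obtain ⟨S, hs, hS⟩ := h A hA σs hσ f hf hdiv hcond
  obtain ⟨S', hS'⟩ := exists_finset_level M hs
  refine ⟨S ∪ S', fun K hK hB hst hKτ π hπ fK hfK => ?_⟩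
  have h1 : ↑S ⊆ (K : Set Qb) := fun x hx => hK (by rw [Finset.coe_union]; exact Or.inl hx)
  have h2 : ↑S' ⊆ (K : Set Qb) := fun x hx => hK (by rw [Finset.coe_union]; exact Or.inr hx)
  exact hS K h1 (hS' K h2) hB hst hKτ π hπ fK hfK

end

end Fermat.Agent.S35.CorrAdapt
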