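/-
S35 block [D] (bridge `J ↔ Lpar`), route R1 — CosetProd.lean (helper37): the TRANSFER PRODUCT OF A
MULTIPLIER FORM THROUGH REPRESENTATIVES IN `GL₂(ℝ)`, and its two instances at level `M q`:

* `prod_slash_gl_mem`  : GENERIC.  For `ρ : ι → GL₂(ℝ)` of positive determinant with coset data
                         `ρ i * γ = part γ i * ρ (perm γ i)` (`γ ∈ Γ₀(N')`, `part γ i ∈ Γ₀(N)`) and
                         the cusp condition `ρ i * g = g' * τ`, `τ` upper triangular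
                         (`g, g' ∈ SL₂(ℤ)`): `A ∈ MFchi N w χ ⇒ ∏ i, A ∣[w] ρ i ∈
                         MFchi N' (w * card ι) χ'`, `χ' γ = ∏ i, χ (part γ i)`;
* `repA M q x`         : `S41.rep₁ M q x` in `GL₂(ℝ)` (representatives of `Γ₀(Mq) \ Γ₀(M)`);
* `repB M q hqM x`     : `diag(1, q) · S41.rep₂ M q hqM x` (the representatives which compute the
                         norm along `β`);
* `prod_slash_repB_mem`: `A ∈ MFchi (M q) w χ_u ⇒ ∏ x, A ∣[w] repB x ∈ MFchi M (w (q+1)) χ_{tr₂ u}`;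
* `prod_slash_repA_mem`: the same for `repA` and `tr₁` (from `TrProdMem.prod_slash_rep₁_mem`);
* `hdetA/hmemA/hneA/hbaseA`, `hdetB/hmemB/hneB/hbaseB` : the four hypotheses of the generic
  vocabulary of route R1 (`SymForms`, `RepPair`) for the two families.
-/
import Mathlib
import Fermat.Agent.S29.KDefs
import Fermat.Agent.S29.KBasic
import Fermat.Agent.S29.KPlanDefs
import Fermat.Agent.S29.HeckeProdMem
import Fermat.Agent.S29.HeckeProdQxB
import Fermat.Agent.S29.HolIC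
import Fermat.Agent.S41.Defs
import Fermat.Agent.S41.TrReps
import Fermat.Agent.S41.TrResT
import Fermat.Agent.S35.TrProdMem

set_option autoImplicit false

noncomputable section

namespace Fermat.Agent.S35.CosetProd

open CongruenceSubgroup UpperHalfPlane Matrix.SpecialLinearGroup Fermat.Agent.S16 Filter
open scoped MatrixGroups Manifold ModularForm
open P2MW.S_ModularForm_heckeT_slash_eq_self_of_mem_Gamma0.ModularForm.HeckeSlashInvariance
open ModularForm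
open Fermat.Agent.S29 Fermat.Agent.S41

/-! ### Generic form -/

/-- Scalars pass through the slash by a matrix of positive determinant. -/
theorem smul_slash_of_det_pos (w : ℤ) (c : ℂ) (A : ℍ → ℂ) (g : GL (Fin 2) ℝ)
    (hg : 0 < (g : Matrix (Fin 2) (Fin 2) ℝ).det) : (c • A) ∣[w] g = c • (A ∣[w] g) := by
  rw [ModularForm.smul_slash]
  have h : σ g c = c := by
    simp [σ, hg]
  rw [h]

/-- **Generic transfer product through `GL₂(ℝ)`-representatives.** -/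
theorem prod_slash_gl_mem {N N' : ℕ} {ι : Type} [Fintype ι] (ρ : ι → GL (Fin 2) ℝ)
    (hdet : ∀ i, 0 < ((ρ i : GL (Fin 2) ℝ) : Matrix (Fin 2) (Fin 2) ℝ).det)
    (perm : ↥(Gamma0 N') → Equiv.Perm ι) (part : ↥(Gamma0 N') → ι → ↥(Gamma0 N))
    (hspec : ∀ (γ : ↥(Gamma0 N')) (i : ι),
      ρ i * mapGL ℝ (γ : SL(2, ℤ)) =
        mapGL ℝ ((part γ i : ↥(Gamma0 N)) : SL(2, ℤ)) * ρ (perm γ i))
    (hcusp : ∀ (g : SL(2, ℤ)) (i : ι), ∃ (g' : SL(2, ℤ)) (τ : GL (Fin 2) ℝ),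
      ρ i * mapGL ℝ g = mapGL ℝ g' * τ ∧ (τ : GL (Fin 2) ℝ) 1 0 = 0)
    (w : ℤ) (χ : ↥(Gamma0 N) →* ℂˣ) (χ' : ↥(Gamma0 N') →* ℂˣ)
    (hχ' : ∀ γ : ↥(Gamma0 N'), χ' γ = ∏ i, χ (part γ i)) {A : ℍ → ℂ}
    (hA : A ∈ K.MFchi N w χ) :
    (∏ i, A ∣[w] ρ i) ∈ K.MFchi N' (w * (Fintype.card ι : ℤ)) χ' := by
  obtain ⟨hA1, hA2, hA3⟩ := hA
  refine ⟨?_, fun γ => ?_, fun g => ?_⟩
  · exact MDifferentiable.prod (fun x _ => hA1.slash w _)
  · rw [TrProdMem.prod_slash_SL]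
    have h1 : ∀ i, (A ∣[w] ρ i) ∣[w] (γ : SL(2, ℤ)) =
        ((χ (part γ i) : ℂˣ) : ℂ) • (A ∣[w] ρ (perm γ i)) := by
      intro i
      change (A ∣[w] ρ i) ∣[w] (mapGL ℝ (γ : SL(2, ℤ))) = _
      rw [← SlashAction.slash_mul, hspec, SlashAction.slash_mul]
      change (A ∣[w] ((part γ i : ↥(Gamma0 N)) : SL(2, ℤ))) ∣[w] ρ (perm γ i) = _
      rw [hA2, smul_slash_of_det_pos _ _ _ _ (hdet _)]
    simp only [h1]
    rw [Finset.prod_smul, hχ', Units.coe_prod]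
    congr 1
    exact Equiv.prod_comp (perm γ) (fun i => A ∣[w] ρ i)
  · rw [TrProdMem.prod_slash_SL]
    refine BoundedAtFilter.prod _ (fun i _ => ?_)
    obtain ⟨g', τ, hg', hτ⟩ := hcusp g i
    change IsBoundedAtImInfty ((A ∣[w] ρ i) ∣[w] (mapGL ℝ g))
    rw [← SlashAction.slash_mul, hg', SlashAction.slash_mul]
    exact (hA3 g').slash w hτ

/-- The product of the slashes of a nonzero holomorphic function is nonzero. -/
theorem prod_slash_gl_ne_zero {ι : Type} [Fintype ι] (ρ : ι → GL (Fin 2) ℝ) (w : ℤ) {B : ℍ → ℂ}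
    (hB : MDiff B) (hB0 : B ≠ 0) : (∏ i, B ∣[w] ρ i) ≠ 0 := by
  classical
  have := HolIC.isDomain_holSub
  have hmem : ∀ i, B ∣[w] ρ i ∈ S24.holSub := fun i =>
    S24.mem_holSub.mpr (hB.slash w _)
  have hne : ∀ i, (⟨B ∣[w] ρ i, hmem i⟩ : S24.holSub) ≠ 0 := by
    intro i h
    have h' : B ∣[w] ρ i = 0 := congrArg Subtype.val h
    rw [SlashAction.slash_eq_zero_iff] at h'
    exact hB0 h'
  have hprod : (∏ i, (⟨B ∣[w] ρ i, hmem i⟩ : S24.holSub)) ≠ 0 :=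
    Finset.prod_ne_zero_iff.mpr (fun i _ => hne i)
  intro h
  apply hprod
  apply Subtype.ext
  rw [SubmonoidClass.coe_finsetProd]
  exact h

/-! ### The two families at level `M q` -/

section Families

variable (M q : ℕ) [Fact q.Prime] (hqM : ¬ q ∣ M)

/-- The representatives `S41.rep₁ M q x` of `Γ₀(Mq) \ Γ₀(M)`, in `GL₂(ℝ)`. -/
def repA (x : OnePoint (ZMod q)) : GL (Fin 2) ℝ :=
  mapGL ℝ ((rep₁ M q x : Gamma0 M) : SL(2, ℤ))

/-- The representatives `diag(1, q) · S41.rep₂ M q hqM x`, which compute the norm along `β`. -/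
def repB (x : OnePoint (ZMod q)) : GL (Fin 2) ℝ :=
  heckeRep q ((0 : ZMod q) : OnePoint (ZMod q)) *
    mapGL ℝ ((rep₂ M q hqM x : Gamma0 M) : SL(2, ℤ))

theorem card_onePoint : (Fintype.card (OnePoint (ZMod q)) : ℤ) = (q : ℤ) + 1 := by
  have h := HeckeProdMem.card_onePoint_zmod (q := q)
  rw [Finset.card_univ] at h
  rw [h]
  push_cast
  rfl

theorem det_mapGL (r : SL(2, ℤ)) :
    ((mapGL ℝ r : GL (Fin 2) ℝ) : Matrix (Fin 2) (Fin 2) ℝ).det = 1 := by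
  have h := (Matrix.SpecialLinearGroup.map (Int.castRingHom ℝ) r).det_coe
  exact h

theorem det_repA_pos (x : OnePoint (ZMod q)) :
    0 < ((repA M q x : GL (Fin 2) ℝ) : Matrix (Fin 2) (Fin 2) ℝ).det := by
  unfold repA
  rw [det_mapGL]
  exact one_pos

theorem det_repB_pos (x : OnePoint (ZMod q)) :
    0 < ((repB M q hqM x : GL (Fin 2) ℝ) : Matrix (Fin 2) (Fin 2) ℝ).det := by
  have : NeZero q := ⟨(Fact.out : q.Prime).ne_zero⟩
  have hd : 0 < (heckeRep q ((0 : ZMod q) : OnePoint (ZMod q)) :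
      Matrix (Fin 2) (Fin 2) ℝ).det := by
    simpa using HeckeProd.det_heckeRep_pos q ((0 : ZMod q) : OnePoint (ZMod q))
  unfold repB
  rw [Matrix.GeneralLinearGroup.coe_mul, Matrix.det_mul, det_mapGL, mul_one]
  exact hd

/-- The coset relation of `repB`. -/
theorem repB_spec (γ : Gamma0 M) (x : OnePoint (ZMod q)) :
    repB M q hqM x * mapGL ℝ (γ : SL(2, ℤ)) =
      mapGL ℝ ((((trData₂ M q hqM).part γ x : Gamma0 (M * q))) : SL(2, ℤ)) *
        repB M q hqM ((trData₂ M q hqM).perm γ x) := by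
  have h := trData₂_spec hqM γ x
  have h' : ((rep₂ M q hqM x : Gamma0 M) : SL(2, ℤ)) * (γ : SL(2, ℤ)) =
      ((incl₂ M q ((trData₂ M q hqM).part γ x) : Gamma0 M) : SL(2, ℤ)) *
        ((rep₂ M q hqM ((trData₂ M q hqM).perm γ x) : Gamma0 M) : SL(2, ℤ)) := by
    have h2 := congrArg (fun g : Gamma0 M => (g : SL(2, ℤ))) h
    simpa using h2
  unfold repB
  rw [mul_assoc, ← map_mul, h', map_mul, ← mul_assoc, TrResT.heckeRep_zero_mul, mul_assoc]
  rfl

/-- The cusp condition of `repB`. -/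
theorem repB_cusp (g : SL(2, ℤ)) (x : OnePoint (ZMod q)) :
    ∃ (g' : SL(2, ℤ)) (τ : GL (Fin 2) ℝ),
      repB M q hqM x * mapGL ℝ g = mapGL ℝ g' * τ ∧ (τ : GL (Fin 2) ℝ) 1 0 = 0 := by
  have : NeZero q := ⟨(Fact.out : q.Prime).ne_zero⟩
  obtain ⟨g', hg'⟩ := HeckeProd.exists_heckeRep_mul q
    (((rep₂ M q hqM x : Gamma0 M) : SL(2, ℤ)) * g) ((0 : ZMod q) : OnePoint (ZMod q))
  refine ⟨g', heckeRep q (redMatrix q (((rep₂ M q hqM x : Gamma0 M) : SL(2, ℤ)) * g) •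
    ((0 : ZMod q) : OnePoint (ZMod q))), ?_, heckeRep_apply_one_zero' q _⟩
  unfold repB
  rw [mul_assoc, ← map_mul]
  exact hg'

/-- The transfer of `χ_u` along `incl₂` is `χ_{tr₂ u}`. -/
theorem chiU_tr₂_apply (p : ℕ) (u : Additive (Gamma0 (M * q)) →+ ℤ) (γ : Gamma0 M) :
    KPlan.chiU p (tr₂ M q u) γ =
      ∏ x : OnePoint (ZMod q), KPlan.chiU p u ((trData₂ M q hqM).part γ x) := by
  rw [KPlan.chiU_apply, tr₂_apply hqM]
  simp only [KPlan.chiU_apply]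
  exact (TrProdMem.prod_zpow_eq Finset.univ _ _).symm

/-- **The `β`-transfer product of a multiplier form.** -/
theorem prod_slash_repB_mem (p : ℕ) (u : Additive (Gamma0 (M * q)) →+ ℤ) {w : ℤ} {A : ℍ → ℂ}
    (hA : A ∈ K.MFchi (M * q) w (KPlan.chiU p u)) :
    (∏ x : OnePoint (ZMod q), A ∣[w] repB M q hqM x) ∈
      K.MFchi M (w * (Fintype.card (OnePoint (ZMod q)) : ℤ)) (KPlan.chiU p (tr₂ M q u)) :=
  prod_slash_gl_mem (repB M q hqM) (det_repB_pos M q hqM) (trData₂ M q hqM).perm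
    (trData₂ M q hqM).part (repB_spec M q hqM) (repB_cusp M q hqM) w _ _
    (chiU_tr₂_apply M q hqM p u) hA

include hqM in
/-- **The `α`-transfer product of a multiplier form** (`TrProdMem.prod_slash_rep₁_mem`). -/
theorem prod_slash_repA_mem (p : ℕ) (u : Additive (Gamma0 (M * q)) →+ ℤ) {w : ℤ} {A : ℍ → ℂ}
    (hA : A ∈ K.MFchi (M * q) w (KPlan.chiU p u)) :
    (∏ x : OnePoint (ZMod q), A ∣[w] repA M q x) ∈
      K.MFchi M (w * (Fintype.card (OnePoint (ZMod q)) : ℤ)) (KPlan.chiU p (tr₁ M q u)) := by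
  have h := TrProdMem.prod_slash_rep₁_mem hqM p u hA
  rw [card_onePoint]
  exact h

/-! ### The hypotheses of the generic vocabulary of route R1 -/

include hqM in
/-- `hmem` for `repA`. -/
theorem hmemA [NeZero M] (w : ℤ) (A : ℍ → ℂ) (hA : A ∈ S20.MF (M * q) w) :
    (∏ x : OnePoint (ZMod q), A ∣[w] repA M q x) ∈
      S20.MF M (w * (Fintype.card (OnePoint (ZMod q)) : ℤ)) := by
  have : NeZero q := ⟨(Fact.out : q.Prime).ne_zero⟩
  rw [← K.mem_MFchi_one_iff] at hA ⊢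
  have h := prod_slash_repA_mem M q hqM 1 0 (w := w) (A := A) (by rwa [KPlan.chiU_zero])
  rwa [tr₁_zero, KPlan.chiU_zero] at h

/-- `hmem` for `repB`. -/
theorem hmemB [NeZero M] (w : ℤ) (A : ℍ → ℂ) (hA : A ∈ S20.MF (M * q) w) :
    (∏ x : OnePoint (ZMod q), A ∣[w] repB M q hqM x) ∈
      S20.MF M (w * (Fintype.card (OnePoint (ZMod q)) : ℤ)) := by
  have : NeZero q := ⟨(Fact.out : q.Prime).ne_zero⟩
  rw [← K.mem_MFchi_one_iff] at hA ⊢
  have h := prod_slash_repB_mem M q hqM 1 0 (w := w) (A := A) (by rwa [KPlan.chiU_zero])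
  rwa [tr₂_zero, KPlan.chiU_zero] at h

/-- `hne` for `repA`. -/
theorem hneA (w : ℤ) (B : ℍ → ℂ) (hB : B ∈ S20.MF (M * q) w) (hB0 : B ≠ 0) :
    (∏ x : OnePoint (ZMod q), B ∣[w] repA M q x) ≠ 0 := by
  obtain ⟨F, rfl⟩ := hB
  exact prod_slash_gl_ne_zero _ w F.holo' hB0

/-- `hne` for `repB`. -/
theorem hneB (w : ℤ) (B : ℍ → ℂ) (hB : B ∈ S20.MF (M * q) w) (hB0 : B ≠ 0) :
    (∏ x : OnePoint (ZMod q), B ∣[w] repB M q hqM x) ≠ 0 := by
  obtain ⟨F, rfl⟩ := hB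
  exact prod_slash_gl_ne_zero _ w F.holo' hB0

/-- the base representative of `repA` is the identity. -/
theorem repA_infty : repA M q (OnePoint.infty : OnePoint (ZMod q)) = 1 := by
  unfold repA
  have h : rep₁ M q (OnePoint.infty : OnePoint (ZMod q)) = 1 := rfl
  rw [h]
  simp

/-- `hx₀` for `repA` (`x₀ = ∞`, `d = 1`, `κ = 1`). -/
theorem hbaseA (w : ℤ) (A : ℍ → ℂ) (z : ℍ) :
    (A ∣[w] repA M q (OnePoint.infty : OnePoint (ZMod q))) (S23.mulN 1 z) = 1 * A z := by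
  rw [repA_infty, SlashAction.slash_one, one_mul]
  congr 1
  ext
  rw [S23.coe_mulN]
  simp

/-- the base representative of `repB` is `diag(1, q)`. -/
theorem repB_zero : repB M q hqM ((0 : ZMod q) : OnePoint (ZMod q)) =
    heckeRep q ((0 : ZMod q) : OnePoint (ZMod q)) := by
  unfold repB
  have h : ((rep₂ M q hqM ((0 : ZMod q) : OnePoint (ZMod q)) : Gamma0 M) : SL(2, ℤ)) = 1 := by
    have h1 : ((rep₂ M q hqM ((0 : ZMod q) : OnePoint (ZMod q)) : Gamma0 M) : SL(2, ℤ)) =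
        rep₂Mat (((0 : ZMod q).val : ℕ) : ℤ) := rfl
    rw [h1, ZMod.val_zero]
    ext i j
    fin_cases i <;> fin_cases j <;> simp [rep₂Mat]
  rw [h]
  simp

/-- `hx₀` for `repB` (`x₀ = 0`, `d = q`, `κ = q⁻¹`). -/
theorem hbaseB [NeZero q] (w : ℤ) (A : ℍ → ℂ) (z : ℍ) :
    (A ∣[w] repB M q hqM ((0 : ZMod q) : OnePoint (ZMod q))) (S23.mulN q z) =
      (q : ℂ)⁻¹ * A z := by
  rw [repB_zero]
  have h : (A ∣[w] heckeRep q ((0 : ZMod q) : OnePoint (ZMod q))) (S23.mulN q z) =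
      (q : ℂ)⁻¹ * A (heckeMatrix q ((0 : ZMod q).val) • S23.mulN q z) := by
    show (A ∣[w] heckeMatrix q (0 : ZMod q).val) (S23.mulN q z) = _
    rw [slash_heckeMatrix_apply w (NeZero.ne q)]
  rw [h, HeckeProdQxB.heckeMatrix_smul_mulN, ZMod.val_zero]
  congr 2
  ext
  simp

end Families

end Fermat.Agent.S35.CosetProd
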