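/-
S35 — KGraph.lean (helper50).  Leaf [KGraph] of the BRIDGE [D] of the S35 blueprint (board #2585,
leaf split #2654): block [K] of S29 WITH ITS GRAPH.

`S29.KStatement N p` is an existential (`∃ θ`, `p • θ = 0`, kernel `p • Lpar N`, Hecke
equivariance) and forgets how `θ` is built.  The bridge [D] needs to know that `θ u` IS the class
of `(1/p)·div (y ^ p)` for EVERY witness `y` of `u`.  This file re-runs the top assembly of
block [K] (`KPlan.kStatement_of_leaves`, all leaves are on main) keeping that information: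

* `inputs N p hp`            — `KTheta.Inputs N p (Wit N p)` on main (every torsion order `p ≠ 0`);
* `KGraphStatement N p`      — `∃ θ`, the three clauses of `KStatement N p`, AND for every witness
                               `y` of `u` and every `f ∈ F̄_N` with `f = y ^ p` a degree-zero divisor
                               `D` with `p·D = div f` and `θ u = [D]`;
* `kGraphStatement N p hp`   — the proof;
* `exists_wit N p hp u`      — witnesses exist, with `y ^ p ∈ F̄_N`;
* `pushPic0_mk_eq_zero_of_norm`, `alphaPush_mk_eq_zero_of_norm`, `betaPush_mk_eq_zero_of_norm`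
                             — the converse of `PushPic.exists_norm_eq_of_pushPic0_eq_zero`:
                               `m·D = div f`, `Nm f = c · h ^ m` ⇒ `φ_* [D] = 0`;
* `KPlusStatement`, `kPlus_of_norms`
                             — **[KPlus]**: `θ` as above together with
                               `α_* (θ u) = 0` / `β_* (θ u) = 0` for the `u` selected by `P₁` / `P₂`,
                               from the norm statements [TrNorm] for witnesses
                               (used with `P₁ u := tr₁ u = 0`, `P₂ u := tr₂ u = 0`).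
-/
import Mathlib
import Fermat.Agent.S29.KTop
import Fermat.Agent.S35.PushPic

set_option autoImplicit false
set_option linter.style.haveILetI false

open ModularCurve AlgebraicCurve CongruenceSubgroup
open scoped MatrixGroups

namespace Fermat.Agent.S35.KGraph

open Fermat.Agent.S29
open Fermat.Agent.S29.K
open Fermat.Agent.S41 (Lpar)
open Fermat.Agent.S35.PushPic

noncomputable section

/-- `ℚ̄`. -/
local notation "Qb" => AlgebraicClosure ℚ

set_option synthInstance.maxHeartbeats 400000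

/-! ### Block [K] with its graph -/

/-- The closure properties of the Θ-assembly for the witness relation `KPlan.Wit`, on main, for
every level `N ≠ 0` and every torsion order `p ≠ 0`. -/
theorem inputs (N p : ℕ) [NeZero N] (hp : p ≠ 0) :
    KTheta.Inputs N p (fun u y => KPlan.Wit N p (u : Additive (Gamma0 N) →+ ℤ) y) :=
  KPlan.inputs_of_leaves N p hp
    (KTopInv.weStatement_of_kpInv N p hp
      (fun σ G G' hG hG' hG0 hq hord => KPInvNP.kpInv N p σ p G G' hG hG' hG0 hq hord))
    (WQB.wqStatement N p) (K6Hecke.whStatement N p)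
    (K2Div.k1Statement N) (KTopOf.k2SubStatement N) (KTopOf.k2VMStatement N)
    (K2Stmt.k2MulStatement N) (K2Div.k2DivStatement N) (K2Stmt.k2SepStatement N)

/-- **Block [K] with its graph**: the comparison `θ : Lpar N → J₀(N)` of `KStatement N p`
together with its description on witnesses: for EVERY witness `y` of `u` and every `f ∈ F̄_N`
with `f = y ^ p`, `θ u` is the class of a degree-zero divisor `D` with `p·D = div f`. -/
def KGraphStatement (N p : ℕ) [NeZero N] : Prop :=
  ∃ θ : Lpar N →+ JZero N,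
    (∀ u : Lpar N, p • θ u = 0) ∧
    (∀ u : Lpar N, θ u = 0 → ∃ z : Lpar N, u = (p : ℤ) • z) ∧
    (∀ (ℓ : ℕ) (hℓ : ℓ.Prime) (hℓN : ¬ ℓ ∣ N), ℓ ≠ p → ∀ u : Lpar N,
      θ (heckeLpar N ℓ hℓ hℓN u) = heckeOperatorBar N ⟨ℓ, hℓ⟩ (θ u)) ∧
    (∀ (u : Lpar N) (y : LaurentSeries Qb), KPlan.Wit N p (u : Additive (Gamma0 N) →+ ℤ) y →
      ∀ f : ↥(modularFunctionFieldBar N), (f : LaurentSeries Qb) = y ^ p →
        ∃ D : Divisor.degZero (K := Qb) (F := ↥(modularFunctionFieldBar N)),
          (∀ P : Place Qb ↥(modularFunctionFieldBar N),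
            (p : ℤ) * (D : Divisor Qb ↥(modularFunctionFieldBar N)) P = P.ord f) ∧
          θ u = Pic0.mk D)

/-- The graph statement contains `KStatement`. -/
theorem KGraphStatement.kStatement {N p : ℕ} [NeZero N] (h : KGraphStatement N p) :
    KStatement N p := by
  obtain ⟨θ, h1, h2, h3, -⟩ := h
  exact ⟨θ, h1, h2, h3⟩

/-- **Block [K] with its graph, on main** (every level `N ≠ 0`, every torsion order `p ≠ 0`). -/
theorem kGraphStatement (N p : ℕ) [NeZero N] (hp : p ≠ 0) : KGraphStatement N p := by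
  have h := inputs N p hp
  choose θ hθ using KTheta.Graph.exists h hp
  have hadd : ∀ u u' : Lpar N, θ (u + u') = θ u + θ u' := fun u u' =>
    KTheta.Graph.unique h hp (KTheta.Graph.add h (hθ u) (hθ u')) (hθ (u + u'))
  refine ⟨AddMonoidHom.mk' θ hadd, fun u => ?_, fun u hu => ?_, fun ℓ hℓ hℓN hℓp u => ?_,
    fun u y hy f hf => ?_⟩
  · exact KTheta.Graph.nsmul_eq_zero h (hθ u)
  · have h1 := hθ u
    rw [show θ u = 0 from hu] at h1
    exact KTheta.Graph.eq_smul_of_zero h hp h1
  · exact KTheta.Graph.unique h hp (KTheta.Graph.hecke h ℓ hℓ hℓN hℓp (hθ u))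
      (hθ (heckeLpar N ℓ hℓ hℓN u))
  · -- the class built from the given witness `y` is `θ u`
    obtain ⟨f', hf', hdvd⟩ := h.pow hy
    obtain ⟨c, hc⟩ := KTheta.RootClass.exists (KTheta.isFF1_bar N) hp (h.ne_zero hy) f' hf' hdvd
    have hcθ : c = θ u := KTheta.Graph.unique h hp (hθ u) ⟨y, hy, hc⟩
    obtain ⟨f'', D, hf'', hD, hcD⟩ := hc
    have hff : f'' = f := Subtype.ext (hf''.trans hf.symm)
    subst hff
    exact ⟨D, hD, hcθ.symm.trans hcD⟩

/-- Witnesses exist, and the `p`-th power of a witness is a nonzero element of `F̄_N`. -/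
theorem exists_wit (N p : ℕ) [NeZero N] (hp : p ≠ 0) (u : Lpar N) :
    ∃ (y : LaurentSeries Qb) (f : ↥(modularFunctionFieldBar N)),
      KPlan.Wit N p (u : Additive (Gamma0 N) →+ ℤ) y ∧ (f : LaurentSeries Qb) = y ^ p ∧ f ≠ 0 := by
  have h := inputs N p hp
  obtain ⟨y, hy⟩ := h.exists_wit u
  obtain ⟨f, hf, -⟩ := h.pow hy
  refine ⟨y, f, hy, hf, fun h0 => ?_⟩
  exact pow_ne_zero p (h.ne_zero hy) (by rw [← hf, h0]; rfl)

/-- The `p`-th power of any witness lies in `F̄_N`. -/
theorem pow_mem_of_wit (N p : ℕ) [NeZero N] (hp : p ≠ 0) {u : Lpar N} {y : LaurentSeries Qb}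
    (hy : KPlan.Wit N p (u : Additive (Gamma0 N) →+ ℤ) y) :
    y ^ p ∈ modularFunctionFieldBar N := by
  obtain ⟨f, hf, -⟩ := (inputs N p hp).pow hy
  rw [← hf]
  exact f.2

end

/-! ### The converse norm criterion: `Nm f = c · h ^ m ⇒ φ_* [D] = 0` -/

section Generic

variable {K F F' : Type*} [Field K] [Field F] [Field F'] [Algebra K F] [Algebra K F']
variable (φ : F →ₐ[K] F') (hφ : φ.toRingHom.IsIntegral)
variable (hfin : FiniteAlong K φ) (hN : NormFormulaAlong K φ hfin)

/-- **`Nm f = c · h ^ m ⇒ φ_* x = 0`** for a Kummer generator `f` of `x` (`x = [D]`,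
`m D = div f`, `m ≠ 0`). -/
theorem pushPic0_mk_eq_zero_of_norm {m : ℕ} (hm : m ≠ 0)
    (D : Divisor.degZero (K := K) (F := F')) (f : F') (hf : f ≠ 0)
    (hD : ∀ w : Place K F', (m : ℤ) * (D : Divisor K F') w = w.ord f)
    (h : F) (c : K) (hnorm : normAlong φ f = algebraMap K F c * h ^ m) :
    pushPic0 φ hφ hfin hN (Pic0.mk D) = 0 := by
  have hNf : normAlong φ f ≠ 0 := normAlong_ne_zero φ hfin hf
  have hc0 : algebraMap K F c ≠ 0 := fun h0 => hNf (by rw [hnorm, h0, zero_mul])
  have hhm : h ^ m ≠ 0 := fun h0 => hNf (by rw [hnorm, h0, mul_zero])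
  have hh : h ≠ 0 := fun h0 => hhm (by rw [h0, zero_pow hm])
  have hE : ∀ w : Place K F', ((m : ℤ) • (D : Divisor K F')) w = w.ord f := by
    intro w
    rw [Finsupp.smul_apply, smul_eq_mul]
    exact hD w
  rw [pushPic0_mk]
  refine Fermat.Agent.S29.KTheta.mk_eq_zero_of_ord hh (fun v => ?_)
  rw [coe_degZeroPush]
  have h1 : (m : ℤ) * Divisor.pushforwardAlong φ hφ (D : Divisor K F') v
      = (m : ℤ) * v.ord h := by
    have h2 := pushforwardAlong_eq_ord_normAlong φ hφ hfin hN hf hE v
    rw [map_zsmul, Finsupp.smul_apply, smul_eq_mul] at h2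
    rw [h2, hnorm, v.ord_mul hc0 hhm, Fermat.Agent.S24.principal_ord_algebraMap, zero_add,
      ← zpow_natCast h m, v.ord_zpow]
  exact mul_left_cancel₀ (by exact_mod_cast hm) h1

end Generic

noncomputable section

/-- `ℚ̄`. -/
local notation "Qb" => AlgebraicClosure ℚ

set_option synthInstance.maxHeartbeats 400000

variable (M q : ℕ) [NeZero M] [NeZero q]

/-- **`Nm_α f = c · h ^ m ⇒ α_* [D] = 0`** (`m D = div f`, `m ≠ 0`). -/
theorem alphaPush_mk_eq_zero_of_norm {m : ℕ} (hm : m ≠ 0)
    (D : Divisor.degZero (K := Qb) (F := modularFunctionFieldBar (M * q)))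
    (f : modularFunctionFieldBar (M * q)) (hf : f ≠ 0)
    (hD : ∀ w : Place Qb (modularFunctionFieldBar (M * q)),
      (m : ℤ) * (D : Divisor Qb (modularFunctionFieldBar (M * q))) w = w.ord f)
    (h : modularFunctionFieldBar M) (c : Qb)
    (hnorm : alphaNorm M q f = algebraMap Qb (modularFunctionFieldBar M) c * h ^ m) :
    alphaPush M q (Pic0.mk D) = 0 :=
  pushPic0_mk_eq_zero_of_norm (heckeAlphaBar Qb M q) (alpha_isIntegral M q)
    (alpha_finiteAlong M q) (alpha_normFormulaAlong M q) hm D f hf hD h c hnorm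

/-- **`Nm_β f = c · h ^ m ⇒ β_* [D] = 0`** (`m D = div f`, `m ≠ 0`). -/
theorem betaPush_mk_eq_zero_of_norm {m : ℕ} (hm : m ≠ 0)
    (D : Divisor.degZero (K := Qb) (F := modularFunctionFieldBar (M * q)))
    (f : modularFunctionFieldBar (M * q)) (hf : f ≠ 0)
    (hD : ∀ w : Place Qb (modularFunctionFieldBar (M * q)),
      (m : ℤ) * (D : Divisor Qb (modularFunctionFieldBar (M * q))) w = w.ord f)
    (h : modularFunctionFieldBar M) (c : Qb)
    (hnorm : betaNorm M q f = algebraMap Qb (modularFunctionFieldBar M) c * h ^ m) :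
    betaPush M q (Pic0.mk D) = 0 :=
  pushPic0_mk_eq_zero_of_norm (heckeBetaBar Qb M q) (beta_isIntegral M q)
    (beta_finiteAlong M q) (beta_normFormulaAlong M q) hm D f hf hD h c hnorm

/-! ### [KPlus] -/

/-- The norm statement [TrNorm] for a push-forward norm `Nm : F̄_{M q} →* F̄_M` and a class `P`
of lattice vectors: the `p`-th power of a witness of `u ∈ P` has norm `c · h ^ p`. -/
def NormWitStatement (p : ℕ) (Nm : modularFunctionFieldBar (M * q) →* modularFunctionFieldBar M)
    (P : Lpar (M * q) → Prop) : Prop :=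
  ∀ u : Lpar (M * q), P u → ∀ (y : LaurentSeries Qb),
    KPlan.Wit (M * q) p (u : Additive (Gamma0 (M * q)) →+ ℤ) y →
    ∀ f : ↥(modularFunctionFieldBar (M * q)), (f : LaurentSeries Qb) = y ^ p →
      ∃ (h : modularFunctionFieldBar M) (c : Qb),
        Nm f = algebraMap Qb (modularFunctionFieldBar M) c * h ^ p

/-- **[KPlus]**: the comparison `θ` of block [K] at level `M q` kills, after `α_*` (resp. `β_*`),
the lattice vectors selected by `P₁` (resp. `P₂`). -/
def KPlusStatement (p : ℕ) (P₁ P₂ : Lpar (M * q) → Prop) : Prop :=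
  ∃ θ : Lpar (M * q) →+ JZero (M * q),
    (∀ u : Lpar (M * q), p • θ u = 0) ∧
    (∀ u : Lpar (M * q), θ u = 0 → ∃ z : Lpar (M * q), u = (p : ℤ) • z) ∧
    (∀ (ℓ : ℕ) (hℓ : ℓ.Prime) (hℓN : ¬ ℓ ∣ M * q), ℓ ≠ p → ∀ u : Lpar (M * q),
      θ (heckeLpar (M * q) ℓ hℓ hℓN u) = heckeOperatorBar (M * q) ⟨ℓ, hℓ⟩ (θ u)) ∧
    (∀ u : Lpar (M * q), P₁ u → alphaPush M q (θ u) = 0) ∧
    (∀ u : Lpar (M * q), P₂ u → betaPush M q (θ u) = 0)

/-- `KPlusStatement` contains `KStatement`. -/
theorem KPlusStatement.kStatement {p : ℕ} {P₁ P₂ : Lpar (M * q) → Prop}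
    (h : KPlusStatement M q p P₁ P₂) : KStatement (M * q) p := by
  obtain ⟨θ, h1, h2, h3, -⟩ := h
  exact ⟨θ, h1, h2, h3⟩

/-- **[KPlus] from the norm statements** (any torsion order `p ≠ 0`). -/
theorem kPlus_of_norms (p : ℕ) (hp : p ≠ 0) (P₁ P₂ : Lpar (M * q) → Prop)
    (hα : NormWitStatement M q p (alphaNorm M q) P₁)
    (hβ : NormWitStatement M q p (betaNorm M q) P₂) :
    KPlusStatement M q p P₁ P₂ := by
  obtain ⟨θ, h1, h2, h3, h4⟩ := kGraphStatement (M * q) p hp
  refine ⟨θ, h1, h2, h3, fun u hu => ?_, fun u hu => ?_⟩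
  · obtain ⟨y, f, hy, hf, hf0⟩ := exists_wit (M * q) p hp u
    obtain ⟨D, hD, hθ⟩ := h4 u y hy f hf
    obtain ⟨h, c, hnorm⟩ := hα u hu y hy f hf
    rw [hθ]
    exact alphaPush_mk_eq_zero_of_norm M q hp D f hf0 hD h c hnorm
  · obtain ⟨y, f, hy, hf, hf0⟩ := exists_wit (M * q) p hp u
    obtain ⟨D, hD, hθ⟩ := h4 u y hy f hf
    obtain ⟨h, c, hnorm⟩ := hβ u hu y hy f hf
    rw [hθ]
    exact betaPush_mk_eq_zero_of_norm M q hp D f hf0 hD h c hnorm

end

end Fermat.Agent.S35.KGraph
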