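/-
S35 — DTop.lean (helper50).  The TOP of the bridge [D] (blueprint #2585; Props of record in
`S35/NewPlan.lean` (helper39) and `S35/KTrPlan.lean` (helper88)): everything which follows from
the ONE open leaf of the row, the analytic core [K-tr]

    `NewPlan.KTrStatement M q m`  (= `KTrPlan.KTrStatement M q m`),

together with the graph-keeping comparison `θ` of `S35/KGraph.lean` (on main, no hypothesis).

* `kGraphStatement`           — `NewPlan.KGraphStatement N m` (CLOSED: every level `N ≠ 0`, every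
                                 torsion order `m ≠ 0`);
* `kTr_iff`                    — the two typings of [K-tr] agree;
* `kPlus_of_kTr`               — [K-tr] ⇒ `KGraph.KPlusStatement` for the classes killed by
                                 `tr₁` / `tr₂`:  `α_* (θ u) = 0` / `β_* (θ u) = 0`;
* `theta_mem_newKer_of_kTr`    — [K-tr] ⇒ a `θ` with `θ u ∈ PushPic.newKer M q` whenever
                                 `tr₁ u = tr₂ u = 0`;
* `KAwayNew`, `kAwayNew_of_leaves`
                               — **(D-out) + (E-out) bundled in the shape of `S30.KAway`**: a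
                                 comparison `θ` at torsion order `p ^ n` (Hecke clause for
                                 `ℓ ≠ p`) such that `(σ² - q²)(σ² - 1)² (θ c) = 0` for every class
                                 `c` killed by both transfers and every Frobenius lift `σ` at
                                 `q`;  from `NewPlan.FrobNewStatement` and [K-tr] at `p ^ n`.
-/
import Mathlib
import Fermat.Agent.S30.Defs
import Fermat.Agent.S35.KGraph
import Fermat.Agent.S35.NewPlan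
import Fermat.Agent.S35.KTrPlan

set_option autoImplicit false
set_option linter.style.haveILetI false

open ModularCurve AlgebraicCurve CongruenceSubgroup
open scoped MatrixGroups

namespace Fermat.Agent.S35.DTop

open Fermat.Agent.S29 (Qb GQ heckeLpar KStatement)
open Fermat.Agent.S41 (Lpar tr₁ tr₂)
open Fermat.Agent.S35.PushPic

noncomputable section

set_option synthInstance.maxHeartbeats 400000

/-- **`NewPlan.KGraphStatement`, CLOSED**: the comparison `θ` of block [K] with its graph, for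
every level `N ≠ 0` and every torsion order `m ≠ 0`. -/
theorem kGraphStatement (N m : ℕ) [NeZero N] (hm : m ≠ 0) : NewPlan.KGraphStatement N m := by
  obtain ⟨θ, h1, h2, h3, h4⟩ := KGraph.kGraphStatement N m hm
  refine ⟨θ, h1, h2, h3, fun u => ?_⟩
  obtain ⟨y, f, hy, hf, -⟩ := KGraph.exists_wit N m hm u
  obtain ⟨D, hD, hθ⟩ := h4 u y hy f hf
  exact ⟨y, f, D, hy, hf, hD, hθ⟩

variable {M q : ℕ} [NeZero M] [NeZero q]

/-- The two typings of [K-tr] (`NewPlan`, `KTrPlan`) agree. -/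
theorem kTr_iff {m : ℕ} : NewPlan.KTrStatement M q m ↔ KTrPlan.KTrStatement M q m :=
  Iff.rfl

/-- [K-tr] from its two halves, in the `NewPlan` typing. -/
theorem kTr_of_halves {m : ℕ} (hα : KTrPlan.KTrAlphaStatement M q m)
    (hβ : KTrPlan.KTrBetaStatement M q m) : NewPlan.KTrStatement M q m :=
  kTr_iff.mpr (KTrPlan.kTrStatement_of_halves hα hβ)

/-- **[K-tr] ⇒ [KPlus]**: the comparison `θ` at level `M q` satisfies `α_* (θ u) = 0` when
`tr₁ u = 0` and `β_* (θ u) = 0` when `tr₂ u = 0` (any torsion order `m ≠ 0`). -/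
theorem kPlus_of_kTr {m : ℕ} (hm : m ≠ 0) (hK : NewPlan.KTrStatement M q m) :
    KGraph.KPlusStatement M q m
      (fun u => tr₁ M q (u : Additive (Gamma0 (M * q)) →+ ℤ) = 0)
      (fun u => tr₂ M q (u : Additive (Gamma0 (M * q)) →+ ℤ) = 0) := by
  refine KGraph.kPlus_of_norms M q m hm _ _ (fun u hu y hy f hf => ?_)
    (fun u hu y hy f hf => ?_)
  · obtain ⟨h, c, -, -, e⟩ := (hK u y hy f hf).1 hu
    exact ⟨h, c, e⟩
  · obtain ⟨h, c, -, -, e⟩ := (hK u y hy f hf).2 hu
    exact ⟨h, c, e⟩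

/-- **[K-tr] ⇒ `θ u` is `q`-new**: a comparison `θ` (the three clauses of `KStatement`) with
`θ u ∈ ker α_* ∩ ker β_*` for every `u` killed by both transfers. -/
theorem theta_mem_newKer_of_kTr {m : ℕ} (hm : m ≠ 0) (hK : NewPlan.KTrStatement M q m) :
    ∃ θ : Lpar (M * q) →+ JZero (M * q),
      (∀ u : Lpar (M * q), m • θ u = 0) ∧
      (∀ u : Lpar (M * q), θ u = 0 → ∃ z : Lpar (M * q), u = (m : ℤ) • z) ∧
      (∀ (ℓ : ℕ) (hℓ : ℓ.Prime) (hℓN : ¬ ℓ ∣ M * q), ℓ ≠ m → ∀ u : Lpar (M * q),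
        θ (heckeLpar (M * q) ℓ hℓ hℓN u) = heckeOperatorBar (M * q) ⟨ℓ, hℓ⟩ (θ u)) ∧
      (∀ u : Lpar (M * q), tr₁ M q (u : Additive (Gamma0 (M * q)) →+ ℤ) = 0 →
        tr₂ M q (u : Additive (Gamma0 (M * q)) →+ ℤ) = 0 → θ u ∈ newKer M q) := by
  obtain ⟨θ, h1, h2, h3, h4, h5⟩ := kPlus_of_kTr hm hK
  exact ⟨θ, h1, h2, h3, fun u hu1 hu2 => (mem_newKer M q).mpr ⟨h4 u hu1, h5 u hu2⟩⟩

/-! ### (D-out) + (E-out) in the shape of `S30.KAway` -/

/-- **[K] away from `p` at torsion order `p ^ n`, with the Frobenius relation at `q`**: the three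
clauses of `S30.KAway (M * q) p n` VERBATIM, and `(σ² - q²)(σ² - 1)² (θ c) = 0`
(`NewPlan.frobPoly`) for every class `c` killed by both transfers to level `M` and every
Frobenius lift `σ` at `q`. -/
def KAwayNew (M q p n : ℕ) [NeZero M] [NeZero q] : Prop :=
  ∃ θ : Lpar (M * q) →+ JZero (M * q),
    (∀ u : Lpar (M * q), p ^ n • θ u = 0) ∧
    (∀ u : Lpar (M * q), θ u = 0 → ∃ z : Lpar (M * q), u = ((p ^ n : ℕ) : ℤ) • z) ∧
    (∀ (ℓ : ℕ) (hℓ : ℓ.Prime) (hℓN : ¬ ℓ ∣ M * q), ℓ ≠ p → ∀ u : Lpar (M * q),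
      θ (heckeLpar (M * q) ℓ hℓ hℓN u) = heckeOperatorBar (M * q) ⟨ℓ, hℓ⟩ (θ u)) ∧
    (∀ c : Lpar (M * q), tr₁ M q (c : Additive (Gamma0 (M * q)) →+ ℤ) = 0 →
      tr₂ M q (c : Additive (Gamma0 (M * q)) →+ ℤ) = 0 →
      ∀ A : ValuationSubring Qb, A.LiesOverPrime q → ∀ σ : GQ, A.IsFrobeniusAt σ q →
        NewPlan.frobPoly q σ (θ c) = 0)

/-- `KAwayNew` contains `S30.KAway`. -/
theorem KAwayNew.kAway {p n : ℕ} (h : KAwayNew M q p n) :
    Fermat.Agent.S30.KAway (M * q) p n := by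
  obtain ⟨θ, h1, h2, h3, -⟩ := h
  exact ⟨θ, h1, h2, h3⟩

/-- **(D-out) + (E-out)**: from the consumer statement `NewPlan.FrobNewStatement` of block [E] and
the analytic core [K-tr] at torsion order `p ^ n`. -/
theorem kAwayNew_of_leaves (hE : NewPlan.FrobNewStatement) (hq : q.Prime) (hqM : ¬ q ∣ M)
    {p : ℕ} (hp : p.Prime) (hpq : p ≠ q) (n : ℕ) (hK : NewPlan.KTrStatement M q (p ^ n)) :
    KAwayNew M q p n := by
  have hm : p ^ n ≠ 0 := pow_ne_zero n hp.ne_zero
  obtain ⟨θ, h1, h2, h3, h4⟩ := kGraphStatement (M * q) (p ^ n) hm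
  refine ⟨θ, h1, h2, fun ℓ hℓ hℓN hℓp u => h3 ℓ hℓ hℓN ?_ u, fun c hc1 hc2 A hA σ hσ => ?_⟩
  · intro hℓpn
    rcases Nat.eq_zero_or_pos n with hn | hn
    · rw [hn, pow_zero] at hℓpn
      exact hℓ.one_lt.ne' hℓpn
    · have hdvd : p ∣ ℓ := hℓpn ▸ dvd_pow_self p hn.ne'
      exact hℓp ((Nat.prime_dvd_prime_iff_eq hp hℓ).mp hdvd).symm
  · obtain ⟨f, D, hf0, hD, hx, hN⟩ := NewPlan.theta_normCond hK (h4 c) hc1 hc2
    rw [hx]
    exact hE M q hq hqM p n hp hpq f D hf0 (by simpa using hD) hN A hA σ hσ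

omit [NeZero M] [NeZero q] in
/-- The Frobenius clause of `KAwayNew` for the NEW classes of `NewPlan.IsNewAt`. -/
theorem frobPoly_of_isNewAt (hq : q.Prime) (hqM : ¬ q ∣ M)
    {θ : Lpar (M * q) →+ JZero (M * q)}
    (hθ : ∀ c : Lpar (M * q), tr₁ M q (c : Additive (Gamma0 (M * q)) →+ ℤ) = 0 →
      tr₂ M q (c : Additive (Gamma0 (M * q)) →+ ℤ) = 0 →
      ∀ A : ValuationSubring Qb, A.LiesOverPrime q → ∀ σ : GQ, A.IsFrobeniusAt σ q →
        NewPlan.frobPoly q σ (θ c) = 0)
    {c : Lpar (M * q)} (hc : NewPlan.IsNewAt (M * q) c)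
    (A : ValuationSubring Qb) (hA : A.LiesOverPrime q) (σ : GQ) (hσ : A.IsFrobeniusAt σ q) :
    NewPlan.frobPoly q σ (θ c) = 0 :=
  hθ c (hc.tr hq hqM).1 (hc.tr hq hqM).2 A hA σ hσ

end

end Fermat.Agent.S35.DTop
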