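/-
S35 — Decomp.lean (helper83): leaf [Decomp] of the abstract plan `S35/LocFPlan.lean`
(architect helper25), copy A.

    decomp_of_leaves : KrullUnitStatement → PrincMinStatement → PrincOrdStatement →
      LocFPlan.DecompStatement
    decompStatement  : LocFPlan.DecompStatement            (closed, over `S34/KrullStmt`)

Statement: at a closed point `n` of the special fibre of a chart `R`, with `n' = Σ⁻¹ n` (equal to
`n` if both branches pass through `n`), the first difference `Σ f / f` is an `m`-th power times a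
unit of `R_n`.

Proof.  `p = algebraMap O R π`, `ϖ` its image in `E`, `ρ` the restriction of `Σ` to `R`.
(D0) `ρ` is a ring automorphism of `R` (`FrobHyp.map_R`, `symm_R`) with `ρ p = p * unit`
     (`FrobHyp.pi`, `symm_V`, reduced special fibre); `n' = ρ⁻¹ n` (`IsPre`); the pull-back
     `ρ⁻¹ 𝔮` of a horizontal `PrincAt` prime `𝔮 ≤ n` is a horizontal `PrincAt` prime `≤ n'`, and
     `Σ` maps the units at `ρ⁻¹ 𝔮` to the units at `𝔮`.
(D1) `HorProd.exists_unitAt_div_pow` at `n` and at `n'`: `φ := f / e ^ m` is a unit at every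
     horizontal `PrincAt` prime `≤ n`, `φ' := f / e' ^ m` at every such prime `≤ n'`.  At a
     crossing point `n' = n` and we take `e' = e`.
(D2) `d : ℤ` with `e / e' / ϖ ^ d` a unit of `V i` for every branch `P i ≤ n`: `d = 0` at a
     crossing point (`e' = e`); at a one-branch point `d` is the `ϖ`-adic order of `e / e'` in
     the valuation ring of that branch.
(D3) `g := Σ e' / e * ϖ ^ d`, `ε := Σ φ' / φ / (ϖ ^ d) ^ m`: `Σ f / f = g ^ m * ε`.
(D4) `ε` is a unit at every `PrincAt` prime `𝔮 ≤ n`: horizontal — (D0), (D1) and `ϖ` is a unit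
     at `𝔮`; vertical — `𝔮 = P i` (`PrincMin`), and
     `ε = (Σ φ' / φ') * (e / e' / ϖ ^ d) ^ m` is a unit of `V i` (`Σ x / x` is a unit of `V i`
     for every `x ≠ 0`), hence a unit at `P i` (`LocAB.unitAt_of_vu`, `PrincOrd`).
(D5) `KrullUnit`: `ε` is a unit at `n`.
-/
import Mathlib
import Fermat.Agent.S34.LocPlan
import Fermat.Agent.S34.HorProd
import Fermat.Agent.S34.LocAB
import Fermat.Agent.S34.KrullStmt
import Fermat.Agent.S35.LocFPlan

set_option autoImplicit false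
set_option linter.unusedSectionVars false

namespace Fermat.Agent.S35.Decomp

open Fermat.Agent.S34.LocPlan Fermat.Agent.S35.LocFPlan
open Fermat.Agent.S34 Fermat.Agent.S34.LocAB

/-! ### Field identities -/

section Ident

variable {E : Type*} [Field E]

/-- The field identity behind (D3). -/
theorem split_identity (f e F E' w : E) (m : ℕ) (hf : f ≠ 0) (he : e ≠ 0) (hE' : E' ≠ 0)
    (hw : w ≠ 0) :
    F / f = (E' / e * w) ^ m * (F / E' ^ m / (f / e ^ m) / w ^ m) := by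
  rw [mul_pow, div_pow]
  field_simp

/-- The field identity behind the vertical part of (D4). -/
theorem vert_identity (f e e' S w : E) (m : ℕ) (hf : f ≠ 0) (he : e ≠ 0) (he' : e' ≠ 0)
    (hw : w ≠ 0) :
    S / (f / e ^ m) / w ^ m = S / (f / e' ^ m) * (e / e' / w) ^ m := by
  rw [div_pow, div_pow]
  field_simp

end Ident

section Chart

variable {O : Type*} [CommRing O] {R : Type*} [CommRing R] [Algebra O R]
  {E : Type*} [Field E] [Algebra R E]
  {π : O} {V : Fin 2 → ValuationSubring E} {P : Fin 2 → Ideal R} {Sg : E ≃+* E} {Q : ℕ}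

/-! ### Automorphisms with `FrobHyp` and the valuation rings -/

theorem frob_vu (F : FrobHyp (R := R) π V Sg Q) (i : Fin 2) {x : E} (hx : VU (V i) x) :
    VU (V i) (Sg x) :=
  ⟨(map_ne_zero Sg).mpr hx.1, F.map_V i x hx.2.1, by
    rw [← map_inv₀]; exact F.map_V i _ hx.2.2⟩

/-- `Σ x / x` is a unit of `V i` for every `x ≠ 0`. -/
theorem frob_quot_vu (H : ChartHyp π V P) (F : FrobHyp (R := R) π V Sg Q) (i : Fin 2) {x : E}
    (hx : x ≠ 0) : VU (V i) (Sg x / x) := by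
  obtain ⟨k, u, hu, hu', rfl⟩ := H.disc i x hx
  obtain ⟨c, hc, hc', hσ⟩ := F.pi i
  have hϖ := pi_ne_zero H
  have hu0 : u ≠ 0 := right_ne_zero_of_mul hx
  have hc0 : c ≠ 0 := by
    rintro rfl
    rw [mul_zero] at hσ
    exact hϖ ((map_eq_zero Sg).mp hσ)
  have huu : VU (V i) u := ⟨hu0, hu, hu'⟩
  have hϖk : algebraMap R E (algebraMap O R π) ^ k ≠ 0 := zpow_ne_zero k hϖ
  have key : Sg (algebraMap R E (algebraMap O R π) ^ k * u)
      / (algebraMap R E (algebraMap O R π) ^ k * u) = c ^ k * (Sg u / u) := by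
    rw [map_mul, map_zpow₀, hσ, mul_zpow, mul_assoc, mul_div_mul_left _ _ hϖk, mul_div_assoc]
  rw [key]
  exact (VU.zpow ⟨hc0, hc, hc'⟩ k).mul ((frob_vu F i huu).div huu)

/-! ### (D0) the restriction of `Σ` to `R` -/

variable [IsDomain R] [IsFractionRing R E]

theorem frob_resR_symm_resR (F : FrobHyp (R := R) π V Sg Q) (r : R) :
    resR Sg F.map_R (resR Sg.symm F.symm_R r) = r := by
  apply IsFractionRing.injective R E
  rw [algebraMap_resR, algebraMap_resR, RingEquiv.apply_symm_apply]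

theorem frob_resR_resR_symm (F : FrobHyp (R := R) π V Sg Q) (r : R) :
    resR Sg.symm F.symm_R (resR Sg F.map_R r) = r := by
  apply IsFractionRing.injective R E
  rw [algebraMap_resR, algebraMap_resR, RingEquiv.symm_apply_apply]

/-- `ρ p = p * unit`. -/
theorem frob_exists_unit_resR_pi (H : ChartHyp π V P) (F : FrobHyp (R := R) π V Sg Q) :
    ∃ c : R, IsUnit c ∧ resR Sg F.map_R (algebraMap O R π) = algebraMap O R π * c := by
  have hϖ := pi_ne_zero H
  have h1 : ∀ i : Fin 2, resR Sg F.map_R (algebraMap O R π) ∈ P i := by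
    intro i
    obtain ⟨u, hu, -, h⟩ := F.pi i
    rw [H.mem_P]
    exact ⟨u, hu, by rw [algebraMap_resR, h]⟩
  have h2 : ∀ i : Fin 2, resR Sg.symm F.symm_R (algebraMap O R π) ∈ P i := by
    intro i
    obtain ⟨u, hu, hu', h⟩ := F.pi i
    rw [H.mem_P]
    have hu0 : u ≠ 0 := by
      rintro rfl
      rw [mul_zero] at h
      exact hϖ ((map_eq_zero Sg).mp h)
    refine ⟨Sg.symm u⁻¹, F.symm_V i _ hu', ?_⟩
    rw [algebraMap_resR]
    have h3 : Sg.symm (Sg (algebraMap R E (algebraMap O R π))) =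
        algebraMap R E (algebraMap O R π) := RingEquiv.symm_apply_apply _ _
    rw [h, map_mul] at h3
    have h4 : Sg.symm u ≠ 0 := (map_ne_zero Sg.symm).mpr hu0
    rw [map_inv₀]
    exact (eq_mul_inv_iff_mul_eq₀ h4).mpr h3
  obtain ⟨c, hc⟩ := H.red _ h1
  obtain ⟨c', hc'⟩ := H.red _ h2
  refine ⟨c, ?_, hc⟩
  have h4 := frob_resR_symm_resR F (algebraMap O R π)
  rw [hc', map_mul, hc] at h4
  have h5 : algebraMap O R π * (c * resR Sg F.map_R c') = algebraMap O R π * 1 := by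
    linear_combination h4
  exact IsUnit.of_mul_eq_one _ (mul_left_cancel₀ (pi_ne_zero' H) h5)

/-- `n' = ρ⁻¹ n`. -/
theorem mem_pre_iff (F : FrobHyp (R := R) π V Sg Q) {n n' : Ideal R} (hpre : IsPre Sg n' n)
    (r : R) : r ∈ n' ↔ resR Sg F.map_R r ∈ n :=
  hpre r _ (algebraMap_resR Sg F.map_R r).symm

theorem frob_comap_le (F : FrobHyp (R := R) π V Sg Q) {n n' 𝔮 : Ideal R}
    (hpre : IsPre Sg n' n) (h𝔮 : 𝔮 ≤ n) : 𝔮.comap (resR Sg F.map_R) ≤ n' :=
  fun r hr => (mem_pre_iff F hpre r).mpr (h𝔮 hr)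

theorem frob_pi_notMem_comap (H : ChartHyp π V P) (F : FrobHyp (R := R) π V Sg Q)
    {𝔮 : Ideal R} (h𝔮 : 𝔮.IsPrime) (hπ : algebraMap O R π ∉ 𝔮) :
    algebraMap O R π ∉ 𝔮.comap (resR Sg F.map_R) := by
  intro h
  rw [Ideal.mem_comap] at h
  obtain ⟨c, hc, hpc⟩ := frob_exists_unit_resR_pi H F
  rw [hpc] at h
  rcases h𝔮.mem_or_mem h with h | h
  · exact hπ h
  · exact h𝔮.ne_top (Ideal.eq_top_of_isUnit_mem _ h hc)

theorem frob_princAt_comap (F : FrobHyp (R := R) π V Sg Q) {𝔮 : Ideal R} (h : PrincAt 𝔮) :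
    PrincAt (𝔮.comap (resR Sg F.map_R)) := by
  obtain ⟨hne, t, ht, hgen⟩ := h
  refine ⟨?_, resR Sg.symm F.symm_R t, ?_, ?_⟩
  · obtain ⟨y, hy, hy0⟩ := Submodule.exists_mem_ne_zero_of_ne_bot hne
    intro hbot
    have hmem : resR Sg.symm F.symm_R y ∈ 𝔮.comap (resR Sg F.map_R) := by
      rw [Ideal.mem_comap, frob_resR_symm_resR F]
      exact hy
    rw [hbot, Ideal.mem_bot] at hmem
    apply hy0
    have h2 := frob_resR_symm_resR F y
    rw [hmem, map_zero] at h2
    exact h2.symm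
  · rw [Ideal.mem_comap, frob_resR_symm_resR F]
    exact ht
  · intro y hy
    rw [Ideal.mem_comap] at hy
    obtain ⟨s, hs, c, hc⟩ := hgen _ hy
    refine ⟨resR Sg.symm F.symm_R s, ?_, resR Sg.symm F.symm_R c, ?_⟩
    · rw [Ideal.mem_comap, frob_resR_symm_resR F]
      exact hs
    · have h2 := congrArg (resR Sg.symm F.symm_R) hc
      rw [map_mul, map_mul, frob_resR_resR_symm F] at h2
      exact h2

theorem frob_unitAt_map (F : FrobHyp (R := R) π V Sg Q) {𝔮 : Ideal R} {x : E}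
    (h : UnitAt (𝔮.comap (resR Sg F.map_R)) x) : UnitAt 𝔮 (Sg x) := by
  obtain ⟨a, s, ha, hs, h⟩ := h
  refine ⟨resR Sg F.map_R a, resR Sg F.map_R s, ha, hs, ?_⟩
  rw [algebraMap_resR, algebraMap_resR, ← map_mul, h]

end Chart

/-! ### (D1) the product of cut functions at a closed point -/

/-- (S1)–(S3) of `LocA` as a lemma: under the horizontal hypothesis at `n` there is `e ≠ 0` with
`f / e ^ m` a unit at every horizontal `PrincAt` prime `≤ n`. -/
theorem exists_cutProd (hMin : PrincMinStatement) (hOrd : PrincOrdStatement)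
    {O : Type} [CommRing O] {R : Type} [CommRing R] [IsDomain R] [IsNoetherianRing R]
    [Algebra O R] {E : Type} [Field E] [Algebra R E] [IsFractionRing R E]
    (π : O) (f : E) (m : ℕ) (n : Ideal R) (hf : f ≠ 0) (hloc : HorHyp π f m n) :
    ∃ e : E, e ≠ 0 ∧ ∀ 𝔮 : Ideal R, 𝔮.IsPrime → 𝔮 ≤ n →
      algebraMap O R π ∉ 𝔮 → PrincAt 𝔮 → UnitAt 𝔮 (f / e ^ m) := by
  refine HorProd.exists_unitAt_div_pow (R := R) (E := E) n
    (fun 𝔮 => algebraMap O R π ∉ 𝔮) (fun 𝔮 => PrincAt 𝔮) ?_ m f hf ?_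
  · intro 𝔮 h𝔮 hD
    refine ⟨hD.1, fun 𝔮' h𝔮' hle => ?_⟩
    by_cases hbot : 𝔮' = ⊥
    · exact Or.inl hbot
    · exact Or.inr (hMin R 𝔮' 𝔮 h𝔮' h𝔮 hD hle hbot)
  · intro 𝔮 h𝔮 hle hhor hD
    rcases hloc 𝔮 h𝔮 hle hhor hD with hu | ⟨⟨x, hx0, hx⟩, e, he, hcut, hgen⟩
    · exact Or.inl hu
    · right
      refine ⟨e, he, fun 𝔮' h𝔮' hle' hhor' hmem => hcut 𝔮' h𝔮' hle' hmem hhor', ?_⟩
      obtain ⟨j, hj⟩ := hOrd R E 𝔮 e h𝔮 hD.1 he hgen x hx0
      refine ⟨j, ?_⟩
      have h1 : HorProd.UnitAt 𝔮 (f * x ^ m) := hx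
      have h2 : HorProd.UnitAt 𝔮 ((x * algebraMap R E e ^ j) ^ m) :=
        HorProd.UnitAt.pow (show HorProd.UnitAt 𝔮 _ from hj) m
      have h3 : f / algebraMap R E e ^ ((m : ℤ) * j)
          = f * x ^ m / (x * algebraMap R E e ^ j) ^ m := by
        rw [mul_pow, zpow_mul', zpow_natCast, mul_comm f,
          mul_div_mul_left _ _ (pow_ne_zero m hx0)]
      rw [h3]
      exact h1.div h2

/-! ### The leaf -/

/-- **[Decomp]**, hypothesis form over the [N3] leaves of `S34/LocPlan`. -/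
theorem decomp_of_leaves (hK : KrullUnitStatement) (hMin : PrincMinStatement)
    (hOrd : PrincOrdStatement) : DecompStatement := by
  intro O _ _ _ R _ _ _ _ _ E _ _ _ π V P Sg Q f m n n' _ hn _ _ hf _ H F hpre hnode hhor hhor'
  classical
  have hnp : n.IsPrime := hn.isPrime
  have hϖ : algebraMap R E (algebraMap O R π) ≠ 0 := pi_ne_zero H
  -- (D1), (D2)
  obtain ⟨e, e', he0, he'0, hφ, hφ', d, hd⟩ : ∃ e e' : E, e ≠ 0 ∧ e' ≠ 0 ∧
      (∀ 𝔮 : Ideal R, 𝔮.IsPrime → 𝔮 ≤ n → algebraMap O R π ∉ 𝔮 → PrincAt 𝔮 →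
        UnitAt 𝔮 (f / e ^ m)) ∧
      (∀ 𝔮 : Ideal R, 𝔮.IsPrime → 𝔮 ≤ n' → algebraMap O R π ∉ 𝔮 → PrincAt 𝔮 →
        UnitAt 𝔮 (f / e' ^ m)) ∧
      ∃ d : ℤ, ∀ i : Fin 2, P i ≤ n →
        VU (V i) (e / e' / algebraMap R E (algebraMap O R π) ^ d) := by
    obtain ⟨e, he0, hφ⟩ := exists_cutProd hMin hOrd π f m n hf hhor
    by_cases hboth : P 0 ≤ n ∧ P 1 ≤ n
    · have hnn : n' = n := hnode hboth.1 hboth.2
      refine ⟨e, e, he0, he0, hφ, by rw [hnn]; exact hφ, 0, fun i _ => ?_⟩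
      rw [div_self he0, zpow_zero, div_one]
      exact ⟨one_ne_zero, one_mem _, by rw [inv_one]; exact one_mem _⟩
    · obtain ⟨e', he'0, hφ'⟩ := exists_cutProd hMin hOrd π f m n' hf hhor'
      refine ⟨e, e', he0, he'0, hφ, hφ', ?_⟩
      have key : ∀ i₀ : Fin 2, (∀ i : Fin 2, P i ≤ n → i = i₀) → ∃ d : ℤ, ∀ i : Fin 2,
          P i ≤ n → VU (V i) (e / e' / algebraMap R E (algebraMap O R π) ^ d) := by
        intro i₀ hi₀
        have hee : e / e' ≠ 0 := div_ne_zero he0 he'0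
        obtain ⟨k, u, hu, hu', hk⟩ := H.disc i₀ (e / e') hee
        have hu0 : u ≠ 0 := by
          rintro rfl
          rw [mul_zero] at hk
          exact hee hk
        refine ⟨k, fun i hi => ?_⟩
        rw [hi₀ i hi, hk, mul_div_cancel_left₀ _ (zpow_ne_zero k hϖ)]
        exact ⟨hu0, hu, hu'⟩
      by_cases h0 : P 0 ≤ n
      · refine key 0 (fun i hi => ?_)
        fin_cases i
        · rfl
        · exact absurd ⟨h0, hi⟩ hboth
      · refine key 1 (fun i hi => ?_)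
        fin_cases i
        · exact absurd hi h0
        · rfl
  have hφ0 : f / e ^ m ≠ 0 := div_ne_zero hf (pow_ne_zero m he0)
  have hφ'0 : f / e' ^ m ≠ 0 := div_ne_zero hf (pow_ne_zero m he'0)
  have hSe' : Sg e' ≠ 0 := (map_ne_zero Sg).mpr he'0
  have hSφ' : Sg (f / e' ^ m) ≠ 0 := (map_ne_zero Sg).mpr hφ'0
  have hw : algebraMap R E (algebraMap O R π) ^ d ≠ 0 := zpow_ne_zero d hϖ
  -- (D3)
  refine ⟨Sg e' / e * algebraMap R E (algebraMap O R π) ^ d,
    Sg (f / e' ^ m) / (f / e ^ m) / (algebraMap R E (algebraMap O R π) ^ d) ^ m,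
    mul_ne_zero (div_ne_zero hSe' he0) hw, ?_, ?_⟩
  · have h1 : Sg (f / e' ^ m) = Sg f / Sg e' ^ m := by rw [map_div₀, map_pow]
    rw [firstDiff, h1]
    exact split_identity f e (Sg f) (Sg e') _ m hf he0 hSe' hw
  -- (D4), (D5)
  refine hK R E n _ hnp (div_ne_zero (div_ne_zero hSφ' hφ0) (pow_ne_zero m hw)) ?_
  intro 𝔮 h𝔮 hle hD
  by_cases hhorq : algebraMap O R π ∈ 𝔮
  · -- vertical
    have hvert : ∀ i : Fin 2, P i ≤ 𝔮 → UnitAt 𝔮
        (Sg (f / e' ^ m) / (f / e ^ m) / (algebraMap R E (algebraMap O R π) ^ d) ^ m) := by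
      intro i hi
      have hPne : P i ≠ ⊥ := by
        intro hbot
        have h1 := pi_mem_P H i
        rw [hbot, Ideal.mem_bot] at h1
        exact pi_ne_zero' H h1
      have heq : P i = 𝔮 := hMin R (P i) 𝔮 (P_isPrime H i) h𝔮 hD hi hPne
      have hPn : P i ≤ n := hi.trans hle
      obtain ⟨-, t, ht, hgen⟩ := hD
      rw [← heq] at ht hgen ⊢
      refine unitAt_of_vu H i ht
        (fun x hx => hOrd R E (P i) t (P_isPrime H i) hPne ht hgen x hx) ?_
      rw [vert_identity f e e' _ _ m hf he0 he'0 hw]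
      exact (frob_quot_vu H F i hφ'0).mul ((hd i hPn).pow m)
    have hinf : P 0 ⊓ P 1 ≤ 𝔮 := by
      rintro r ⟨h0, h1⟩
      obtain ⟨r', rfl⟩ := H.red r (fun i => by
        fin_cases i
        · exact h0
        · exact h1)
      exact 𝔮.mul_mem_right _ hhorq
    rcases (Ideal.IsPrime.inf_le h𝔮).mp hinf with hi | hi
    · exact hvert 0 hi
    · exact hvert 1 hi
  · -- horizontal
    have h1 : UnitAt (𝔮.comap (resR Sg F.map_R)) (f / e' ^ m) :=
      hφ' _ (Ideal.comap_isPrime _ _) (frob_comap_le F hpre hle)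
        (frob_pi_notMem_comap H F h𝔮 hhorq) (frob_princAt_comap F hD)
    have h2 : HorProd.UnitAt 𝔮 (Sg (f / e' ^ m)) := frob_unitAt_map F h1
    have h3 : HorProd.UnitAt 𝔮 (f / e ^ m) := hφ 𝔮 h𝔮 hle hhorq hD
    have h4 : HorProd.UnitAt 𝔮 (algebraMap R E (algebraMap O R π)) :=
      HorProd.UnitAt.of_notMem hhorq
    exact (h2.div h3).div ((h4.zpow d).pow m)

/-- **[Decomp]** (`LocFPlan.DecompStatement`), closed over the [N3] leaves of
`S34/KrullStmt`. -/
theorem decompStatement : DecompStatement :=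
  decomp_of_leaves KrullStmt.krullUnitStatement KrullStmt.princMinStatement
    KrullStmt.princOrdStatement

end Fermat.Agent.S35.Decomp
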