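/-
S35 — DecompAct.lean (helper3): B-copy of row [FrobAct], general decomposition-group form.
Block [FrobAct] of helper25's S35 blueprint (#2585): the action of an element `σ` of the
DECOMPOSITION group of a valuation subring `A` of `ℚ̄` (e.g. a Frobenius lift) on Gauss-integral
series and on `F_K`.  Generalises `S34/TauAct` (inertia: trivial residual action) to an arbitrary
residual automorphism `resAut A hσ` of `k = ResidueField A`:

* `residue_tauA`, `coeffMap_residue_tauA` : reduction intertwines `σ` and `resAut`;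
* `gRel_coeffMap_decomp` : `GRel A x y → GRel A (σ x) (resAut y)`;
* `resAut_of_isFrobeniusAt` : for a Frobenius lift `resAut = (· ^ q)`; `resAut_mul`;
* on `F_K` (`K` stable): `tauE` preserves `V1` and (given commutation with `w`) `V2`, with
  `red1 (σ x) = resAut (red1 x)`, `red2 (σ x) = resAut (red2 x)`.
-/
import Mathlib
import Fermat.Agent.S34.TauAct
import Fermat.Agent.S34.GaussV
import Fermat.Agent.S18.ResOKEquiv

set_option autoImplicit false

noncomputable section

namespace Fermat.Agent.S35.DecompAct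

open ModularCurve HahnSeries AlgebraicCurve Fermat.Agent.S18.Arith Fermat.Agent.S34
open scoped Pointwise

/-- `Gal(ℚ̄/ℚ)`. -/
abbrev GQ : Type := Qb ≃ₐ[ℚ] Qb

section Res

variable (A : ValuationSubring Qb)

/-- The automorphism of the residue field induced by a decomposition-group element. -/
def resAut {σ : GQ} (hσ : σ ∈ A.decompositionSubgroup ℚ) :
    IsLocalRing.ResidueField A ≃+* IsLocalRing.ResidueField A :=
  MulSemiringAction.toRingAut (A.decompositionSubgroup ℚ) (IsLocalRing.ResidueField A) ⟨σ, hσ⟩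

theorem resAut_apply {σ : GQ} (hσ : σ ∈ A.decompositionSubgroup ℚ)
    (x : IsLocalRing.ResidueField A) :
    resAut A hσ x = (⟨σ, hσ⟩ : A.decompositionSubgroup ℚ) • x := rfl

/-- Reduction intertwines `σ` on `A` with `resAut` on the residue field. -/
theorem residue_tauA {σ : GQ} (hσ : σ ∈ A.decompositionSubgroup ℚ) (a : A) :
    IsLocalRing.residue A (TauAct.tauA A hσ a) = resAut A hσ (IsLocalRing.residue A a) := by
  have h1 : TauAct.tauA A hσ a = (⟨σ, hσ⟩ : A.decompositionSubgroup ℚ) • a := by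
    apply Subtype.ext
    rw [TauAct.coe_tauA]
    rfl
  rw [h1, IsLocalRing.ResidueField.residue_smul]
  rfl

theorem coeffMap_residue_tauA {σ : GQ} (hσ : σ ∈ A.decompositionSubgroup ℚ)
    (z : LaurentSeries A) :
    coeffMap (IsLocalRing.residue A) (coeffMap (TauAct.tauA A hσ) z)
      = coeffMap (resAut A hσ : IsLocalRing.ResidueField A →+* IsLocalRing.ResidueField A)
          (coeffMap (IsLocalRing.residue A) z) := by
  rw [coeffMap_coeffMap, coeffMap_coeffMap]
  exact coeffMap_congr (RingHom.ext fun a => residue_tauA A hσ a) z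

/-- **Decomposition-group elements preserve the Gauss relation, twisting the reduction by the
residual automorphism.** -/
theorem gRel_coeffMap_decomp {σ : GQ} (hσ : σ ∈ A.decompositionSubgroup ℚ)
    {x : LaurentSeries Qb} {y : LaurentSeries (IsLocalRing.ResidueField A)} (h : GRel A x y) :
    GRel A (coeffMap (σ : Qb →+* Qb) x)
      (coeffMap (resAut A hσ : IsLocalRing.ResidueField A →+* IsLocalRing.ResidueField A) y) := by
  obtain ⟨u, p, hu, hx, hp⟩ := h
  refine ⟨coeffMap (TauAct.tauA A hσ) u, coeffMap (TauAct.tauA A hσ) p, ?_, ?_, ?_⟩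
  · rw [coeffMap_residue_tauA A hσ, hu, map_one]
  · rw [TauAct.coeffMap_subtype_tauA, TauAct.coeffMap_subtype_tauA, ← map_mul, hx]
  · rw [coeffMap_residue_tauA A hσ, hp]

/-- For a Frobenius lift at `q` the residual automorphism is `x ↦ x ^ q`. -/
theorem resAut_of_isFrobeniusAt {σ : GQ} {q : ℕ} (h : A.IsFrobeniusAt σ q)
    (x : IsLocalRing.ResidueField A) :
    resAut A h.mem_decompositionSubgroup x = x ^ q :=
  h.smul_residue_eq x

theorem resAut_mul {σ σ' : GQ} (hσ : σ ∈ A.decompositionSubgroup ℚ)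
    (hσ' : σ' ∈ A.decompositionSubgroup ℚ) (x : IsLocalRing.ResidueField A) :
    resAut A ((A.decompositionSubgroup ℚ).mul_mem hσ hσ') x = resAut A hσ (resAut A hσ' x) := by
  rw [resAut_apply, resAut_apply, resAut_apply, ← mul_smul]
  rfl

/-- The square of a Frobenius lift acts on the residue field by `x ↦ x ^ (q ^ 2)`. -/
theorem resAut_sq_of_isFrobeniusAt {σ : GQ} {q : ℕ} (h : A.IsFrobeniusAt σ q)
    (x : IsLocalRing.ResidueField A) :
    resAut A ((A.decompositionSubgroup ℚ).mul_mem h.mem_decompositionSubgroup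
      h.mem_decompositionSubgroup) x = x ^ (q ^ 2) := by
  rw [resAut_mul A h.mem_decompositionSubgroup h.mem_decompositionSubgroup,
    resAut_of_isFrobeniusAt A h, resAut_of_isFrobeniusAt A h, ← pow_mul, pow_two]

end Res

section FKAct

variable {N : ℕ} [NeZero N] {A : ValuationSubring Qb} {K : IntermediateField ℚ Qb}

/-- `σ` preserves the Gauss valuation ring `V1` of `F_K`. -/
theorem tauE_mem_V1 (hdvr : IsDiscreteValuationRing (OK A K)) {σ : GQ}
    (hσ : σ ∈ A.decompositionSubgroup ℚ) (hK : TauAct.Stable K σ) {x : FK N K}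
    (hx : x ∈ GaussV.V1 N A K hdvr) : TauAct.tauE N hK x ∈ GaussV.V1 N A K hdvr := by
  obtain ⟨y, hy⟩ := (GaussV.mem_V1_iff hdvr).mp hx
  refine (GaussV.mem_V1_iff hdvr).mpr
    ⟨coeffMap (resAut A hσ : IsLocalRing.ResidueField A →+* IsLocalRing.ResidueField A) y, ?_⟩
  rw [TauAct.coe_tauE]
  exact gRel_coeffMap_decomp A hσ hy

/-- `red1 (σ x) = resAut (red1 x)`. -/
theorem red1_tauE (hdvr : IsDiscreteValuationRing (OK A K)) {σ : GQ}
    (hσ : σ ∈ A.decompositionSubgroup ℚ) (hK : TauAct.Stable K σ) (x : GaussV.V1 N A K hdvr) :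
    GaussV.red1 hdvr ⟨TauAct.tauE N hK (x : FK N K), tauE_mem_V1 hdvr hσ hK x.2⟩
      = coeffMap (resAut A hσ : IsLocalRing.ResidueField A →+* IsLocalRing.ResidueField A)
          (GaussV.red1 hdvr x) := by
  apply GaussV.red1_eq_of_gRel
  show GRel A ((TauAct.tauE N hK (x : FK N K) : FK N K) : LaurentSeries Qb) _
  rw [TauAct.coe_tauE]
  exact gRel_coeffMap_decomp A hσ (GaussV.gRel_red1 hdvr x)

variable (w : FK N K ≃+* FK N K)

/-- `σ` preserves the second valuation ring `V2 = w⁻¹ V1` when it commutes with `w`. -/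
theorem tauE_mem_V2 (hdvr : IsDiscreteValuationRing (OK A K)) {σ : GQ}
    (hσ : σ ∈ A.decompositionSubgroup ℚ) (hK : TauAct.Stable K σ)
    (hcomm : ∀ x : FK N K, w (TauAct.tauE N hK x) = TauAct.tauE N hK (w x)) {x : FK N K}
    (hx : x ∈ GaussV.V2 w hdvr) : TauAct.tauE N hK x ∈ GaussV.V2 w hdvr := by
  rw [GaussV.mem_V2_iff] at hx ⊢
  rw [hcomm]
  exact tauE_mem_V1 hdvr hσ hK hx

/-- `red2 (σ x) = resAut (red2 x)`. -/
theorem red2_tauE (hdvr : IsDiscreteValuationRing (OK A K)) {σ : GQ}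
    (hσ : σ ∈ A.decompositionSubgroup ℚ) (hK : TauAct.Stable K σ)
    (hcomm : ∀ x : FK N K, w (TauAct.tauE N hK x) = TauAct.tauE N hK (w x))
    (x : GaussV.V2 w hdvr) :
    GaussV.red2 w hdvr ⟨TauAct.tauE N hK (x : FK N K), tauE_mem_V2 w hdvr hσ hK hcomm x.2⟩
      = coeffMap (resAut A hσ : IsLocalRing.ResidueField A →+* IsLocalRing.ResidueField A)
          (GaussV.red2 w hdvr x) := by
  rw [GaussV.red2_apply, GaussV.red2_apply]
  have h := red1_tauE hdvr hσ hK (⟨w (x : FK N K), x.2⟩ : GaussV.V1 N A K hdvr)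
  rw [← h]
  congr 1
  exact Subtype.ext (hcomm _)

end FKAct

/-! ### Constants: the action on `O = A ∩ K` -/

section Const

variable (A : ValuationSubring Qb) {K : IntermediateField ℚ Qb}

/-- The ring automorphism of `O = A ∩ K` induced by a decomposition-group element stabilising
`K`. -/
def sigO {σ : GQ} (hσ : σ ∈ A.decompositionSubgroup ℚ) (hK : TauAct.Stable K σ) :
    OK A K ≃+* OK A K where
  toFun c := ⟨⟨σ ((c : K) : Qb), hK.1 _ (c : K).2⟩, TauAct.apply_mem_OK A hσ hK c⟩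
  invFun c := ⟨⟨σ.symm ((c : K) : Qb), hK.2 _ (c : K).2⟩,
    TauAct.apply_mem_OK A (TauAct.symm_mem_decomp A hσ) hK.symm c⟩
  left_inv _ := Subtype.ext (Subtype.ext (σ.symm_apply_apply _))
  right_inv _ := Subtype.ext (Subtype.ext (σ.apply_symm_apply _))
  map_mul' _ _ := Subtype.ext (Subtype.ext (map_mul σ _ _))
  map_add' _ _ := Subtype.ext (Subtype.ext (map_add σ _ _))

theorem coe_sigO {σ : GQ} (hσ : σ ∈ A.decompositionSubgroup ℚ) (hK : TauAct.Stable K σ)
    (c : OK A K) : (((sigO A hσ hK c : OK A K) : K) : Qb) = σ ((c : K) : Qb) := rfl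

/-- `σ` on constants of `F_K`. -/
theorem tauE_algebraMap (N : ℕ) {σ : GQ} (hσ : σ ∈ A.decompositionSubgroup ℚ)
    (hK : TauAct.Stable K σ) (c : OK A K) :
    TauAct.tauE N hK (algebraMap (OK A K) (FK N K) c)
      = algebraMap (OK A K) (FK N K) (sigO A hσ hK c) :=
  TauAct.tauE_algebraMap N A hσ hK c

/-- Reduction of constants intertwines `σ` and `resAut`. -/
theorem resO_sigO {σ : GQ} (hσ : σ ∈ A.decompositionSubgroup ℚ) (hK : TauAct.Stable K σ)
    (c : OK A K) : resO A K (sigO A hσ hK c) = resAut A hσ (resO A K c) := by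
  rw [Fermat.Agent.S18.ResOKEquiv.resO_eq, Fermat.Agent.S18.ResOKEquiv.resO_eq,
    ← residue_tauA A hσ]
  congr 1

/-- `σ π = π · u`, `u ∈ Oˣ`, for a uniformizer `π` of the DVR `O`. -/
theorem exists_unit_sigO_pi [IsDiscreteValuationRing (OK A K)] {σ : GQ}
    (hσ : σ ∈ A.decompositionSubgroup ℚ) (hK : TauAct.Stable K σ) {π : OK A K}
    (hπ : Irreducible π) : ∃ u : (OK A K)ˣ, sigO A hσ hK π = π * (u : OK A K) := by
  have h1 : Irreducible (sigO A hσ hK π) := (MulEquiv.irreducible_iff (sigO A hσ hK)).mpr hπ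
  obtain ⟨u, hu⟩ := IsDiscreteValuationRing.associated_of_irreducible (OK A K) hπ h1
  exact ⟨u, hu.symm⟩

/-- If `σ` acts on the residue field by `x ↦ x ^ n` then `σ c ≡ c ^ n` modulo `π` on `O`. -/
theorem exists_sigO_eq_pow_add [IsDiscreteValuationRing (OK A K)] {σ : GQ}
    (hσ : σ ∈ A.decompositionSubgroup ℚ) (hK : TauAct.Stable K σ) {n : ℕ}
    (hres : ∀ x : IsLocalRing.ResidueField A, resAut A hσ x = x ^ n) {π : OK A K}
    (hπ : Irreducible π) (c : OK A K) : ∃ z : OK A K, sigO A hσ hK c = c ^ n + π * z := by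
  have h0 : resO A K (sigO A hσ hK c - c ^ n) = 0 := by
    rw [map_sub, map_pow, resO_sigO, hres, sub_self]
  obtain ⟨z, hz⟩ := (Fermat.Agent.S18.ResOKEquiv.resO_eq_zero_iff_dvd A K π hπ _).mp h0
  exact ⟨z, by rw [← hz]; ring⟩

/-- A Frobenius lift: `σ c ≡ c ^ q` modulo `π`. -/
theorem exists_sigO_frob [IsDiscreteValuationRing (OK A K)] {σ : GQ} {q : ℕ}
    (h : A.IsFrobeniusAt σ q) (hK : TauAct.Stable K σ) {π : OK A K} (hπ : Irreducible π)
    (c : OK A K) :
    ∃ z : OK A K, sigO A h.mem_decompositionSubgroup hK c = c ^ q + π * z :=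
  exists_sigO_eq_pow_add A h.mem_decompositionSubgroup hK (resAut_of_isFrobeniusAt A h) hπ c

/-- The square of a Frobenius lift: `σ² c ≡ c ^ (q ^ 2)` modulo `π`. -/
theorem exists_sigO_frob_sq [IsDiscreteValuationRing (OK A K)] {σ : GQ} {q : ℕ}
    (h : A.IsFrobeniusAt σ q) (hK2 : TauAct.Stable K (σ * σ)) {π : OK A K} (hπ : Irreducible π)
    (c : OK A K) :
    ∃ z : OK A K, sigO A ((A.decompositionSubgroup ℚ).mul_mem h.mem_decompositionSubgroup
      h.mem_decompositionSubgroup) hK2 c = c ^ (q ^ 2) + π * z :=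
  exists_sigO_eq_pow_add A _ hK2 (resAut_sq_of_isFrobeniusAt A h) hπ c

/-- `F_K`-form: `σ (c) = c ^ n + π z` for constants. -/
theorem exists_tauE_algebraMap_eq (N : ℕ) [IsDiscreteValuationRing (OK A K)] {σ : GQ}
    (hσ : σ ∈ A.decompositionSubgroup ℚ) (hK : TauAct.Stable K σ) {n : ℕ}
    (hres : ∀ x : IsLocalRing.ResidueField A, resAut A hσ x = x ^ n) {π : OK A K}
    (hπ : Irreducible π) (c : OK A K) :
    ∃ z : OK A K, TauAct.tauE N hK (algebraMap (OK A K) (FK N K) c)
      = algebraMap (OK A K) (FK N K) c ^ n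
        + algebraMap (OK A K) (FK N K) π * algebraMap (OK A K) (FK N K) z := by
  obtain ⟨z, hz⟩ := exists_sigO_eq_pow_add A hσ hK hres hπ c
  exact ⟨z, by rw [tauE_algebraMap A N hσ hK, hz, map_add, map_pow, map_mul]⟩

/-- `F_K`-form: `σ π = π · u` with `u ∈ Oˣ`. -/
theorem exists_unit_tauE_pi (N : ℕ) [IsDiscreteValuationRing (OK A K)] {σ : GQ}
    (hσ : σ ∈ A.decompositionSubgroup ℚ) (hK : TauAct.Stable K σ) {π : OK A K}
    (hπ : Irreducible π) :
    ∃ u : (OK A K)ˣ, TauAct.tauE N hK (algebraMap (OK A K) (FK N K) π)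
      = algebraMap (OK A K) (FK N K) π * algebraMap (OK A K) (FK N K) (u : OK A K) := by
  obtain ⟨u, hu⟩ := exists_unit_sigO_pi A hσ hK hπ
  exact ⟨u, by rw [tauE_algebraMap A N hσ hK, hu, map_mul]⟩

end Const

end Fermat.Agent.S35.DecompAct
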