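/-
S35 route, block [A'] — PseudoQ2.lean (helper114).

The twin of `S35/PseudoQ.lean` (helper65) with GENERAL EXPONENTS: the extra datum on a level is

    `(σ² − q²) ^ ea (σ² − 1) ^ eb (c • w_n) = 0`      for every Frobenius element `σ` at `q`

(`FrobQPow Lv q c ea eb`; `ea = 1`, `eb = 2` is `PseudoQ.FrobQ`, and `ea = eb = 2` is the datum of
the "[U]-route", where the `q`-new classes are cut out by `U_q² = 1`).

Algebra: `s := r σ` satisfies `s² − t s + q = 0` on `V_n`; if `(s² − c²) ^ k y = 0` then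
`(F(c) F(−c)) ^ k • y = 0` with `F(c) = c² − t c + q`; hence
`(q² ((q+1)² − t²)) ^ ea ((q+1)² − t²) ^ eb • (c • w_n) = 0`.  The annihilator of `w_n` is
contained in `pⁿ 𝒪` and `𝒪` is a `p`-adically separated domain, so `t² = (q+1)²` as soon as
`ea + eb ≠ 0`.

* `smul_eq_zero_of_sq_pow_apply_eq`, `smul_eq_zero_of_frobQPow` : the algebra;
* `FrobQPow`, `frobQPow_of_frobQ`, `frobQ_of_frobQPow`, `FrobQPow.mono` : the datum;
* `exists_pseudoQPow` : `PseudoQ.exists_pseudoQ` with `FrobQPow` in place of `FrobQ`.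
-/
import Mathlib
import Fermat.Agent.S35.PseudoQ

set_option autoImplicit false

namespace Fermat.Agent.S35.PseudoQ2

open Fermat.Agent.S29 (FDStatement)
open Fermat.Agent.S30.LimLevel (Level)
open Fermat.Agent.S30.LimCore (IsTrace)
open Fermat.Agent.S35.PseudoQ

/-- `ℚ̄`. -/
local notation "Qb" => AlgebraicClosure ℚ

/-- `Gal(ℚ̄/ℚ)`. -/
local notation "GQ" => (AlgebraicClosure ℚ ≃ₐ[ℚ] AlgebraicClosure ℚ)

/-! ### Algebra of one operator with `s² − t s + q = 0` -/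

section Alg

variable {𝒪 : Type*} [CommRing 𝒪] {X : Type*} [AddCommGroup X] [Module 𝒪 X]

/-- If `s² − t s + q = 0` and `(s² − c²) ^ k y = 0` then `(F(c) F(−c)) ^ k • y = 0`,
`F(c) = c² − t c + q`. -/
theorem smul_eq_zero_of_sq_pow_apply_eq (s : Module.End 𝒪 X) (t q : 𝒪)
    (hq : s * s - t • s + q • (1 : Module.End 𝒪 X) = 0) (c : 𝒪) :
    ∀ (k : ℕ) (y : X), ((s * s - (c * c) • (1 : Module.End 𝒪 X)) ^ k) y = 0 →
      (((c * c - t * c + q) * (c * c + t * c + q)) ^ k) • y = 0 := by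
  intro k
  induction k with
  | zero =>
    intro y hy
    rw [pow_zero, Module.End.one_apply] at hy
    rw [hy, smul_zero]
  | succ k ih =>
    intro y hy
    set T : Module.End 𝒪 X := s * s - (c * c) • (1 : Module.End 𝒪 X) with hT
    set a : 𝒪 := (c * c - t * c + q) * (c * c + t * c + q) with ha
    rw [pow_succ, Module.End.mul_apply] at hy
    have h1 : a ^ k • T y = 0 := ih (T y) hy
    have h2 : T (a ^ k • y) = 0 := by rw [map_smul]; exact h1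
    have h3 : s (s (a ^ k • y)) = (c * c) • (a ^ k • y) := by
      rw [hT, LinearMap.sub_apply, LinearMap.smul_apply, Module.End.mul_apply,
        Module.End.one_apply, sub_eq_zero] at h2
      exact h2
    have h4 := smul_eq_zero_of_sq_apply_eq s t q hq c (a ^ k • y) h3
    rw [smul_smul, ← pow_succ'] at h4
    exact h4

/-- **The algebra of [A'].**  If `s² − t s + q = 0` and
`(s² − q²) ^ ea (s² − 1) ^ eb w = 0` then `(q² ((q + 1)² − t²)) ^ ea ((q + 1)² − t²) ^ eb • w = 0`. -/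
theorem smul_eq_zero_of_frobQPow (s : Module.End 𝒪 X) (t q : 𝒪)
    (hq : s * s - t • s + q • (1 : Module.End 𝒪 X) = 0) (ea eb : ℕ) (w : X)
    (hw : ((s * s - (q ^ 2) • (1 : Module.End 𝒪 X)) ^ ea * (s * s - 1) ^ eb) w = 0) :
    ((q ^ 2 * ((q + 1) ^ 2 - t ^ 2)) ^ ea * ((q + 1) ^ 2 - t ^ 2) ^ eb) • w = 0 := by
  have e1 : s * s - (q ^ 2) • (1 : Module.End 𝒪 X) = s * s - (q * q) • (1 : Module.End 𝒪 X) := by
    rw [pow_two]
  have e2 : s * s - (1 : Module.End 𝒪 X) = s * s - ((1 : 𝒪) * 1) • (1 : Module.End 𝒪 X) := by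
    rw [mul_one, one_smul]
  rw [Module.End.mul_apply, e1] at hw
  -- the factor at `q`
  have h1 := smul_eq_zero_of_sq_pow_apply_eq s t q hq q ea _ hw
  set a : 𝒪 := (q * q - t * q + q) * (q * q + t * q + q) with ha
  -- the factor at `1`
  have h2 : ((s * s - ((1 : 𝒪) * 1) • (1 : Module.End 𝒪 X)) ^ eb) (a ^ ea • w) = 0 := by
    rw [map_smul, ← e2]
    exact h1
  have h3 := smul_eq_zero_of_sq_pow_apply_eq s t q hq 1 eb _ h2
  rw [smul_smul] at h3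
  have e : ((1 * 1 - t * 1 + q) * (1 * 1 + t * 1 + q)) ^ eb * a ^ ea
      = (q ^ 2 * ((q + 1) ^ 2 - t ^ 2)) ^ ea * ((q + 1) ^ 2 - t ^ 2) ^ eb := by
    have ea' : a = q ^ 2 * ((q + 1) ^ 2 - t ^ 2) := by rw [ha]; ring
    have eb' : (1 * 1 - t * 1 + q) * (1 * 1 + t * 1 + q) = (q + 1) ^ 2 - t ^ 2 := by ring
    rw [ea', eb', mul_comm]
  rw [e] at h3
  exact h3

/-- The two factors `s² − a` and `s² − 1` commute. -/
theorem commute_factors (s : Module.End 𝒪 X) (a : 𝒪) :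
    Commute (s * s - a • (1 : Module.End 𝒪 X)) (s * s - 1) := by
  have h1 : Commute (s * s) (s * s - 1) :=
    (Commute.refl (s * s)).sub_right (Commute.one_right _)
  have h2 : Commute (a • (1 : Module.End 𝒪 X)) (s * s - 1) :=
    (Commute.one_left _).smul_left a
  exact h1.sub_left h2

end Alg

/-! ### The extra datum with general exponents -/

/-- **The extra datum at a special prime `q`, general exponents**:
`(σ² − q²) ^ ea (σ² − 1) ^ eb (c • w) = 0` for every Frobenius element `σ` at `q`. -/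
def FrobQPow {𝒪 : Type} [CommRing 𝒪] {p n : ℕ} {good : ℕ → Prop} {a : ℕ → 𝒪} {unr : ℕ → Prop}
    (Lv : Level 𝒪 p n good a unr) (q : ℕ) (c : 𝒪) (ea eb : ℕ) : Prop :=
  ∀ A : ValuationSubring Qb, A.LiesOverPrime q → ∀ σ : GQ, A.IsFrobeniusAt σ q →
    ((Lv.r σ * Lv.r σ - ((q : 𝒪) ^ 2) • (1 : Module.End 𝒪 Lv.V)) ^ ea *
      (Lv.r σ * Lv.r σ - 1) ^ eb) (c • Lv.w) = 0

section Datum

variable {𝒪 : Type} [CommRing 𝒪] {p n : ℕ} {good : ℕ → Prop} {a : ℕ → 𝒪} {unr : ℕ → Prop}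
  (Lv : Level 𝒪 p n good a unr) (q : ℕ) (c : 𝒪)

/-- `PseudoQ.FrobQ` is `FrobQPow` with exponents `(1, 2)`. -/
theorem frobQPow_one_two_iff : FrobQPow Lv q c 1 2 ↔ FrobQ Lv q c := by
  unfold FrobQPow FrobQ
  refine forall_congr' fun A => forall_congr' fun _ => forall_congr' fun σ =>
    forall_congr' fun _ => ?_
  rw [pow_one, pow_two (Lv.r σ * Lv.r σ - 1), Module.End.mul_apply, Module.End.mul_apply]

theorem frobQPow_of_frobQ (h : FrobQ Lv q c) : FrobQPow Lv q c 1 2 :=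
  (frobQPow_one_two_iff Lv q c).mpr h

theorem frobQ_of_frobQPow (h : FrobQPow Lv q c 1 2) : FrobQ Lv q c :=
  (frobQPow_one_two_iff Lv q c).mp h

/-- The unfolded form of `FrobQPow` with exponents `(2, 2)`:
`(σ² − q²) ((σ² − q²) ((σ² − 1) ((σ² − 1) (c • w)))) = 0`. -/
theorem frobQPow_two_two_iff :
    FrobQPow Lv q c 2 2 ↔
      ∀ A : ValuationSubring Qb, A.LiesOverPrime q → ∀ σ : GQ, A.IsFrobeniusAt σ q →
        (Lv.r σ * Lv.r σ - ((q : 𝒪) ^ 2) • (1 : Module.End 𝒪 Lv.V))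
          ((Lv.r σ * Lv.r σ - ((q : 𝒪) ^ 2) • (1 : Module.End 𝒪 Lv.V))
            ((Lv.r σ * Lv.r σ - 1) ((Lv.r σ * Lv.r σ - 1) (c • Lv.w)))) = 0 := by
  unfold FrobQPow
  refine forall_congr' fun A => forall_congr' fun _ => forall_congr' fun σ =>
    forall_congr' fun _ => ?_
  rw [pow_two (Lv.r σ * Lv.r σ - ((q : 𝒪) ^ 2) • (1 : Module.End 𝒪 Lv.V)),
    pow_two (Lv.r σ * Lv.r σ - 1)]
  simp only [Module.End.mul_apply]

variable {Lv q c}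

/-- Raising the exponents. -/
theorem FrobQPow.mono {ea eb ea' eb' : ℕ} (h : FrobQPow Lv q c ea eb) (hea : ea ≤ ea')
    (heb : eb ≤ eb') : FrobQPow Lv q c ea' eb' := by
  intro A hA σ hσ
  have h0 := h A hA σ hσ
  set T1 : Module.End 𝒪 Lv.V := Lv.r σ * Lv.r σ - ((q : 𝒪) ^ 2) • (1 : Module.End 𝒪 Lv.V)
    with hT1
  set T2 : Module.End 𝒪 Lv.V := Lv.r σ * Lv.r σ - 1 with hT2
  have hc : Commute T1 T2 := commute_factors (Lv.r σ) ((q : 𝒪) ^ 2)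
  obtain ⟨k, rfl⟩ := Nat.exists_eq_add_of_le hea
  obtain ⟨l, rfl⟩ := Nat.exists_eq_add_of_le heb
  have e : T1 ^ (ea + k) * T2 ^ (eb + l) = (T1 ^ k * T2 ^ l) * (T1 ^ ea * T2 ^ eb) := by
    have hc' : Commute (T1 ^ ea) (T2 ^ l) := (hc.pow_left ea).pow_right l
    calc T1 ^ (ea + k) * T2 ^ (eb + l)
        = (T1 ^ k * T1 ^ ea) * (T2 ^ l * T2 ^ eb) := by
          rw [add_comm ea k, add_comm eb l, pow_add, pow_add]
      _ = T1 ^ k * ((T1 ^ ea * T2 ^ l) * T2 ^ eb) := by simp only [mul_assoc]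
      _ = T1 ^ k * ((T2 ^ l * T1 ^ ea) * T2 ^ eb) := by rw [hc'.eq]
      _ = (T1 ^ k * T2 ^ l) * (T1 ^ ea * T2 ^ eb) := by simp only [mul_assoc]
  rw [e, Module.End.mul_apply, h0, map_zero]

end Datum

/-! ### The determinant -/

/-- **The concrete limit step with special primes, general exponents.**
`PseudoQ.exists_pseudoQ` with `FrobQPow Lv q (cst q) ea eb` (`ea + eb ≠ 0`) in place of
`FrobQ Lv q (cst q)`: the determinant `(t, d)` satisfies `t σ ^ 2 = (q + 1) ^ 2` and `d σ = q`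
at every Frobenius element `σ` at a special prime `q`. -/
theorem exists_pseudoQPow {𝒪 : Type} [CommRing 𝒪] [IsDomain 𝒪] (p : ℕ) (hp : p ≠ 0)
    (hsep : ∀ a : 𝒪, (∀ n : ℕ, (p : 𝒪) ^ n ∣ a) → a = 0)
    (hcompl : ∀ f : ℕ → 𝒪, (∀ n : ℕ, (p : 𝒪) ^ n ∣ f (n + 1) - f n) →
      ∃ L : 𝒪, ∀ n : ℕ, (p : 𝒪) ^ n ∣ f n - L)
    (good : ℕ → Prop) (a : ℕ → 𝒪) (unr : ℕ → Prop) (S : Finset ℕ)
    (hS : ∀ ℓ : ℕ, ℓ.Prime → ℓ ∉ S → good ℓ) (hFD : FDStatement)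
    (d : GQ →* 𝒪ˣ)
    (hd : ∀ (g : GQ) (n k : ℕ), (∀ ζ : Qb, ζ ^ (p ^ n) = 1 → g ζ = ζ ^ k) →
      (p : 𝒪) ^ n ∣ ((d g : 𝒪ˣ) : 𝒪) - (k : 𝒪))
    (hcycL : ∀ n : ℕ, ∃ L : IntermediateField ℚ Qb, FiniteDimensional ℚ L ∧
      ∀ σ : GQ, (∀ x ∈ L, σ x = x) → ∀ ζ : Qb, ζ ^ (p ^ n) = 1 → σ ζ = ζ)
    (hcycF : ∀ ℓ : ℕ, good ℓ → ∀ A : ValuationSubring Qb, A.LiesOverPrime ℓ →
      ∀ σ : GQ, A.IsFrobeniusAt σ ℓ → ∀ (n : ℕ) (ζ : Qb), ζ ^ (p ^ n) = 1 → σ ζ = ζ ^ ℓ)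
    (hcycI : ∀ q : ℕ, unr q → ∀ P : ValuationSubring Qb, P.LiesOverPrime q →
      ∀ τ ∈ P.inertiaSubgroupIn ℚ, ∀ (n : ℕ) (ζ : Qb), ζ ^ (p ^ n) = 1 → τ ζ = ζ)
    (spec : ℕ → Prop) (hspec0 : ∀ q : ℕ, spec q → (q : 𝒪) ≠ 0)
    (cst : ℕ → 𝒪) (hcst : ∀ q : ℕ, spec q → cst q ≠ 0)
    (hcycQ : ∀ q : ℕ, spec q → ∀ A : ValuationSubring Qb, A.LiesOverPrime q →
      ∀ σ : GQ, A.IsFrobeniusAt σ q → ∀ (n : ℕ) (ζ : Qb), ζ ^ (p ^ n) = 1 → σ ζ = ζ ^ q)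
    (ea eb : ℕ) (hab : ea + eb ≠ 0)
    (lev : ∀ n : ℕ, ∃ Lv : Level 𝒪 p n good a unr,
      ∀ q : ℕ, spec q → FrobQPow Lv q (cst q) ea eb) :
    ∃ t : GQ → 𝒪,
      t 1 = 2 ∧ (∀ g h : GQ, t (g * h) = t (h * g)) ∧
      (∀ g h : GQ, t (g * h) + ((d h : 𝒪ˣ) : 𝒪) * t (g * h⁻¹) = t g * t h) ∧
      (∀ n : ℕ, ∃ L : IntermediateField ℚ Qb, FiniteDimensional ℚ L ∧
        ∀ σ : GQ, (∀ x ∈ L, σ x = x) → ∀ g : GQ, (p : 𝒪) ^ n ∣ t (σ * g) - t g) ∧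
      (∀ ℓ : ℕ, good ℓ → ∀ A : ValuationSubring Qb, A.LiesOverPrime ℓ →
        ∀ σ : GQ, A.IsFrobeniusAt σ ℓ → t σ = a ℓ ∧ ((d σ : 𝒪ˣ) : 𝒪) = (ℓ : 𝒪)) ∧
      (∀ q : ℕ, unr q → ∀ P : ValuationSubring Qb, P.LiesOverPrime q →
        ∀ τ ∈ P.inertiaSubgroupIn ℚ, ∀ g : GQ, t (τ * g) = t g) ∧
      (∃ c : GQ, c * c = 1 ∧ t c = 0 ∧ d c = -1) ∧
      (∀ q : ℕ, spec q → ∀ A : ValuationSubring Qb, A.LiesOverPrime q →
        ∀ σ : GQ, A.IsFrobeniusAt σ q →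
          t σ ^ 2 = ((q : 𝒪) + 1) ^ 2 ∧ ((d σ : 𝒪ˣ) : 𝒪) = (q : 𝒪)) := by
  classical
  -- the level data
  let Lv : ∀ n : ℕ, Level 𝒪 p n good a unr := fun n => (lev n).choose
  have hLvQ : ∀ (n : ℕ) (q : ℕ), spec q → FrobQPow (Lv n) q (cst q) ea eb :=
    fun n => (lev n).choose_spec
  let X : ℕ → Type := fun n => (Lv n).V
  let π : ∀ n : ℕ, GQ →* Module.End 𝒪 (X n) := fun n => (Lv n).r
  let w : ∀ n : ℕ, X n := fun n => (Lv n).w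
  have htors : ∀ (n : ℕ) (x : X n), (p : 𝒪) ^ n • x = 0 := fun n => (Lv n).tors
  have hann : ∀ (n : ℕ) (c : 𝒪), c • w n = 0 → (p : 𝒪) ^ n ∣ c := fun n => (Lv n).ann
  have hlevel : ∀ n : ℕ, ∃ L : IntermediateField ℚ Qb, FiniteDimensional ℚ L ∧
      ∀ σ : GQ, (∀ x ∈ L, σ x = x) → π n σ = 1 := fun n => (Lv n).level
  -- the cyclotomic character at Frobenius and inertia
  have hdFrob : ∀ ℓ : ℕ, good ℓ → ∀ A : ValuationSubring Qb, A.LiesOverPrime ℓ →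
      ∀ σ : GQ, A.IsFrobeniusAt σ ℓ → ((d σ : 𝒪ˣ) : 𝒪) = (ℓ : 𝒪) :=
    fun ℓ hℓ A hA σ hσ =>
      Fermat.Agent.S30.LimGlue.d_eq_natCast hsep d hd σ ℓ (hcycF ℓ hℓ A hA σ hσ)
  have hdIn : ∀ q : ℕ, unr q → ∀ P : ValuationSubring Qb, P.LiesOverPrime q →
      ∀ τ ∈ P.inertiaSubgroupIn ℚ, d τ = 1 :=
    fun q hq P hP τ hτ =>
      Fermat.Agent.S30.LimGlue.d_eq_one hsep d hd τ (hcycI q hq P hP τ hτ)
  have hdcont : ∀ m : ℕ, ∃ C : IntermediateField ℚ Qb, FiniteDimensional ℚ C ∧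
      ∀ σ : GQ, (∀ x ∈ C, σ x = x) → (p : 𝒪) ^ m ∣ ((d σ : 𝒪ˣ) : 𝒪) - 1 := by
    intro m
    obtain ⟨C, hC, h⟩ := hcycL m
    exact ⟨C, hC, fun σ hσ => Fermat.Agent.S30.LimGlue.d_sub_one_dvd d hd m σ (h σ hσ)⟩
  -- the relation on two consecutive levels (FD + Lucas)
  have hrel : ∀ (g : GQ) (n : ℕ), ∃ t' : 𝒪,
      (π n g + ((d g : 𝒪ˣ) : 𝒪) • π n g⁻¹ = t' • (1 : Module.End 𝒪 (X n))) ∧
      (π (n + 1) g + ((d g : 𝒪ˣ) : 𝒪) • π (n + 1) g⁻¹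
        = t' • (1 : Module.End 𝒪 (X (n + 1)))) :=
    Fermat.Agent.S30.LimFD.hrel_of_levels hFD (p : 𝒪) S a d
      (fun ℓ hℓ hℓS A hA σ hσ => hdFrob ℓ (hS ℓ hℓ hℓS) A hA σ hσ) hdcont π htors hlevel
      (fun n ℓ hℓ hℓS A hA σ hσ => (Lv n).frob ℓ (hS ℓ hℓ hℓS) A hA σ hσ)
  -- the limit
  obtain ⟨t, ht, ht1, htcomm, htmul, -⟩ :=
    Fermat.Agent.S30.LimCore.exists_trace (ϖ := (p : 𝒪)) (d := d) (X := X) (π := π) (w := w)
      hsep hcompl htors hann hrel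
  have hT : IsTrace d X π t := ht
  refine ⟨t, ht1, htcomm, htmul, ?_, ?_, ?_, ?_, ?_⟩
  · -- (P2)
    intro n
    obtain ⟨L₁, hL₁, h₁⟩ := hlevel n
    obtain ⟨L₂, hL₂, h₂⟩ := hdcont n
    refine ⟨L₁ ⊔ L₂, inferInstance, fun σ hσ g => ?_⟩
    exact hT.dvd_sub_of_eq htors hann n σ g
      (h₁ σ fun x hx => hσ x ((le_sup_left : L₁ ≤ L₁ ⊔ L₂) hx))
      (h₂ σ fun x hx => hσ x ((le_sup_right : L₂ ≤ L₁ ⊔ L₂) hx))
  · -- (P3), Frobenius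
    intro ℓ hℓ A hA σ hσ
    have hdσ := hdFrob ℓ hℓ A hA σ hσ
    refine ⟨?_, hdσ⟩
    apply hT.eq_of_forall_rel hsep hann σ (a ℓ)
    intro n
    have hq := (Lv n).frob ℓ hℓ A hA σ hσ
    have h1 := Fermat.Agent.S29.Lucas.add_smul_inv_of_quadratic (π n) σ (a ℓ) (ℓ : 𝒪) hq
    have h2 := congrArg (fun f : Module.End 𝒪 (X n) => f (w n)) h1
    simp only [LinearMap.add_apply, LinearMap.smul_apply, Module.End.one_apply] at h2
    rw [hdσ]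
    exact h2
  · -- (P3), inertia
    intro q hq P hP τ hτ g
    exact hT.apply_mul_of_forall_eq_one hsep htors hann τ
      (fun n => (Lv n).inert q hq P hP τ hτ) (hdIn q hq P hP τ hτ) g
  · -- (P4)
    obtain ⟨c, hc, hcζ⟩ := Fermat.Agent.S30.Conj.exists_conj
    have hdc : d c = -1 := Fermat.Agent.S30.LimGlue.d_eq_neg_one hsep d hd hp c
      (fun n ζ hζ => hcζ ζ (p ^ n) (pow_ne_zero n hp) hζ)
    exact ⟨c, hc, hT.eq_zero_of_involution hsep hann c hc hdc, hdc⟩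
  · -- the special primes
    intro q hq A hA σ hσ
    have hdσ : ((d σ : 𝒪ˣ) : 𝒪) = (q : 𝒪) :=
      Fermat.Agent.S30.LimGlue.d_eq_natCast hsep d hd σ q (hcycQ q hq A hA σ hσ)
    refine ⟨?_, hdσ⟩
    have hzero : ((q : 𝒪) ^ 2 * (((q : 𝒪) + 1) ^ 2 - t σ ^ 2)) ^ ea *
        (((q : 𝒪) + 1) ^ 2 - t σ ^ 2) ^ eb * cst q = 0 := by
      apply hsep
      intro n
      apply hann n
      have hTn := hT n σ
      rw [hdσ] at hTn
      have hquad := quad_of_trace (π n σ) (π n σ⁻¹) (t σ) (q : 𝒪)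
        (Fermat.Agent.S30.LimCore.map_mul_map_inv (π := π) n σ) hTn
      have h := smul_eq_zero_of_frobQPow (π n σ) (t σ) (q : 𝒪) hquad ea eb (cst q • w n)
        (hLvQ n q hq A hA σ hσ)
      rw [smul_smul] at h
      exact h
    have hq0 : (q : 𝒪) ≠ 0 := hspec0 q hq
    have h3 : (((q : 𝒪) + 1) ^ 2 - t σ ^ 2) ^ (ea + eb) = 0 := by
      rcases mul_eq_zero.mp hzero with h | h
      · rw [mul_pow, mul_assoc, ← pow_add] at h
        rcases mul_eq_zero.mp h with h | h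
        · exact absurd h (pow_ne_zero _ (pow_ne_zero _ hq0))
        · exact h
      · exact absurd h (hcst q hq)
    have h4 : ((q : 𝒪) + 1) ^ 2 - t σ ^ 2 = 0 := (pow_eq_zero_iff hab).mp h3
    exact (sub_eq_zero.mp h4).symm

end Fermat.Agent.S35.PseudoQ2
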