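/-
S35 route, block [A'] — DetQ2.lean (helper114).  The TOP of S35 with GENERAL EXPONENTS.

Twin of `S35/DetQ.lean` (helper65) for the datum `PseudoQ2.FrobQPow` (`S35/PseudoQ2.lean`):

* `LevelQPowStatement p N S 𝒪 χ ea eb` — a level (`S30/LimLevel.Level`) for every `n`, with
      `(σ² − q²) ^ ea (σ² − 1) ^ eb (c_q • w_n) = 0`
  for the Frobenius elements `σ` at every special prime `q` (`DetQ.specPrime`), constants
  `c_q ≠ 0` independent of `n`.  `(ea, eb) = (1, 2)` is `DetQ.LevelQStatement`; `(2, 2)` is the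
  target of the "[U]-route" (`q`-new classes cut out by `U_q² = 1`);
* `detQStatement_of_levelsPow` — `LevelQPowStatement ⟹ DetQ.DetQStatement` (`ea + eb ≠ 0`), the
  SAME `DetQStatement` as in `S35/DetQ.lean`, so `DetQ.result_of_detQ_oddRep` applies unchanged;
* `result_of_levelQPow` — the frozen conclusion of S35 (for a ring hom `χ : 𝕋 → 𝒪'`) from
  [OddRep], [FD] and `LevelQPowStatement`.
-/
import Mathlib
import Fermat.Agent.S35.DetQ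
import Fermat.Agent.S35.PseudoQ2

set_option autoImplicit false

open Polynomial

namespace Fermat.Agent.S35.DetQ2

open Fermat.Agent.S30Top (Qb GQ IsPseudo IsOddAt IsContAt OddRepStatement)
open Fermat.Agent.S30.LimLevel
open Fermat.Agent.S35.DetQ (specPrime LevelQStatement DetQStatement)

/-- **[LevelQPow]**: a level at every `n` with `PseudoQ2.FrobQPow` (exponents `ea`, `eb`) at the
special primes. -/
def LevelQPowStatement (p N : ℕ) [NeZero N] (S : Finset ℕ) (𝒪 : Type) [CommRing 𝒪]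
    (χ : CuspForm.heckeAlgebra N 2 (↑S : Set ℕ) →+* 𝒪) (ea eb : ℕ) : Prop :=
  ∃ cst : ℕ → 𝒪, (∀ q : ℕ, specPrime N p q → cst q ≠ 0) ∧
    ∀ n : ℕ, ∃ Lv : Level 𝒪 p n (goodPrime N (↑S : Set ℕ)) (heckeEig N (↑S : Set ℕ) χ)
        (unrPrime N p),
      ∀ q : ℕ, specPrime N p q → Fermat.Agent.S35.PseudoQ2.FrobQPow Lv q (cst q) ea eb

/-- `DetQ.LevelQStatement` is `LevelQPowStatement` with exponents `(1, 2)`. -/
theorem levelQPowStatement_one_two_iff (p N : ℕ) [NeZero N] (S : Finset ℕ) (𝒪 : Type)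
    [CommRing 𝒪] (χ : CuspForm.heckeAlgebra N 2 (↑S : Set ℕ) →+* 𝒪) :
    LevelQPowStatement p N S 𝒪 χ 1 2 ↔ LevelQStatement p N S 𝒪 χ := by
  constructor
  · rintro ⟨cst, hcst, h⟩
    refine ⟨cst, hcst, fun n => ?_⟩
    obtain ⟨Lv, hLv⟩ := h n
    exact ⟨Lv, fun q hq => Fermat.Agent.S35.PseudoQ2.frobQ_of_frobQPow Lv q (cst q) (hLv q hq)⟩
  · rintro ⟨cst, hcst, h⟩
    refine ⟨cst, hcst, fun n => ?_⟩
    obtain ⟨Lv, hLv⟩ := h n
    exact ⟨Lv, fun q hq => Fermat.Agent.S35.PseudoQ2.frobQPow_of_frobQ Lv q (cst q) (hLv q hq)⟩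

/-- Raising the exponents. -/
theorem LevelQPowStatement.mono {p N : ℕ} [NeZero N] {S : Finset ℕ} {𝒪 : Type} [CommRing 𝒪]
    {χ : CuspForm.heckeAlgebra N 2 (↑S : Set ℕ) →+* 𝒪} {ea eb ea' eb' : ℕ}
    (h : LevelQPowStatement p N S 𝒪 χ ea eb) (hea : ea ≤ ea') (heb : eb ≤ eb') :
    LevelQPowStatement p N S 𝒪 χ ea' eb' := by
  obtain ⟨cst, hcst, h⟩ := h
  refine ⟨cst, hcst, fun n => ?_⟩
  obtain ⟨Lv, hLv⟩ := h n
  exact ⟨Lv, fun q hq => (hLv q hq).mono hea heb⟩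

/-- **[DetQ] from the levels, general exponents.** -/
theorem detQStatement_of_levelsPow (hFD : Fermat.Agent.S29.FDStatement)
    (p : ℕ) [Fact p.Prime] (N : ℕ) [NeZero N] (S : Finset ℕ) (hpS : p ∈ S)
    (hNS : ∀ q : ℕ, q.Prime → q ∣ N → q ∈ S)
    (𝒪 : Type) [CommRing 𝒪] [IsDomain 𝒪] [IsDiscreteValuationRing 𝒪]
    [IsAdicComplete (IsLocalRing.maximalIdeal 𝒪) 𝒪] [CharZero 𝒪]
    (hp𝒪 : (p : 𝒪) ∈ IsLocalRing.maximalIdeal 𝒪)
    (χ : CuspForm.heckeAlgebra N 2 (↑S : Set ℕ) →+* 𝒪)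
    (ea eb : ℕ) (hab : ea + eb ≠ 0)
    (hLev : LevelQPowStatement p N S 𝒪 χ ea eb) :
    DetQStatement p N S 𝒪 χ := by
  have hp : p.Prime := Fact.out
  have hp0 : (p : 𝒪) ≠ 0 := Nat.cast_ne_zero.mpr hp.ne_zero
  have hsep : ∀ a : 𝒪, (∀ n : ℕ, (p : 𝒪) ^ n ∣ a) → a = 0 :=
    fun a h => Fermat.Agent.S30.LimCore.sep_of_dvr hp𝒪 a h
  have hcompl : ∀ f : ℕ → 𝒪, (∀ n, (p : 𝒪) ^ n ∣ f (n + 1) - f n) →
      ∃ L : 𝒪, ∀ n, (p : 𝒪) ^ n ∣ f n - L :=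
    fun f h => Fermat.Agent.S30.LimCore.compl_of_dvr hp𝒪 hp0 f h
  obtain ⟨d, hd⟩ :=
    Fermat.Agent.S30.CycInf.exists_cyclotomic (p := p) (𝒪 := 𝒪) hp.ne_zero hsep hcompl
  have hS : ∀ ℓ : ℕ, ℓ.Prime → ℓ ∉ S → goodPrime N (↑S : Set ℕ) ℓ := by
    intro ℓ hℓ hℓS
    exact ⟨hℓ, fun hℓN => hℓS (hNS ℓ hℓ hℓN), fun h => hℓS (Finset.mem_coe.mp h)⟩
  have hcycL : ∀ n : ℕ, ∃ L : IntermediateField ℚ Qb, FiniteDimensional ℚ L ∧
      ∀ σ : GQ, (∀ x ∈ L, σ x = x) → ∀ ζ : Qb, ζ ^ (p ^ n) = 1 → σ ζ = ζ := by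
    intro n
    obtain ⟨L, hL, h, -⟩ := Fermat.Agent.S30.CycInf.exists_level (p := p) hp.ne_zero n
    exact ⟨L, hL, h⟩
  have hcycF : ∀ ℓ : ℕ, goodPrime N (↑S : Set ℕ) ℓ → ∀ A : ValuationSubring Qb,
      A.LiesOverPrime ℓ → ∀ σ : GQ, A.IsFrobeniusAt σ ℓ → ∀ (n : ℕ) (ζ : Qb),
      ζ ^ (p ^ n) = 1 → σ ζ = ζ ^ ℓ := by
    intro ℓ hℓ A hA σ hσ n ζ hζ
    have hℓp : ℓ ≠ p := fun h => hℓ.2.2 (Finset.mem_coe.mpr (h ▸ hpS))
    exact Fermat.Agent.S30.CycN.frobenius_apply_of_pow_eq_one (pow_ne_zero n hp.ne_zero) hℓ.1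
      (Fermat.Agent.S30.CycN.not_dvd_prime_pow hℓ.1 hp hℓp n) A hA σ hσ ζ hζ
  have hcycI : ∀ q : ℕ, unrPrime N p q → ∀ P : ValuationSubring Qb, P.LiesOverPrime q →
      ∀ τ ∈ P.inertiaSubgroupIn ℚ, ∀ (n : ℕ) (ζ : Qb), ζ ^ (p ^ n) = 1 → τ ζ = ζ := by
    intro q hq P hP τ hτ n ζ hζ
    exact Fermat.Agent.S30.CycN.inertia_apply_of_pow_eq_one (pow_ne_zero n hp.ne_zero) hq.1
      (Fermat.Agent.S30.CycN.not_dvd_prime_pow hq.1 hp hq.2.2 n) P hP τ hτ ζ hζ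
  have hcycQ : ∀ q : ℕ, specPrime N p q → ∀ A : ValuationSubring Qb, A.LiesOverPrime q →
      ∀ σ : GQ, A.IsFrobeniusAt σ q → ∀ (n : ℕ) (ζ : Qb), ζ ^ (p ^ n) = 1 → σ ζ = ζ ^ q := by
    intro q hq A hA σ hσ n ζ hζ
    exact Fermat.Agent.S30.CycN.frobenius_apply_of_pow_eq_one (pow_ne_zero n hp.ne_zero) hq.1
      (Fermat.Agent.S30.CycN.not_dvd_prime_pow hq.1 hp hq.2.1 n) A hA σ hσ ζ hζ
  obtain ⟨cst, hcst, hlev⟩ := hLev
  obtain ⟨t, h1, h2, h3, hP2, hP3a, -, ⟨c, hc, htc, hdc⟩, hQ⟩ :=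
    Fermat.Agent.S35.PseudoQ2.exists_pseudoQPow p hp.ne_zero hsep hcompl
      (goodPrime N (↑S : Set ℕ)) (heckeEig N (↑S : Set ℕ) χ) (unrPrime N p) S hS hFD d
      (fun g n k hk => hd g n k hk) hcycL hcycF hcycI (specPrime N p)
      (fun q hq => Nat.cast_ne_zero.mpr hq.1.ne_zero) cst hcst hcycQ ea eb hab hlev
  refine ⟨t, d, ⟨h1, h2, h3⟩, ⟨c, hc, htc, hdc⟩, hP2, ?_, hQ⟩
  intro ℓ hℓ hℓN hℓS A hA σ hσ
  have h := hP3a ℓ ⟨hℓ, hℓN, hℓS⟩ A hA σ hσ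
  rw [heckeEig_eq N (↑S : Set ℕ) χ hℓ hℓN hℓS] at h
  exact h

/-- **S35 from the levels, general exponents**: the frozen conclusion of S35 for a ring hom
`χ : 𝕋 → 𝒪'`, from [OddRep], [FD] and `LevelQPowStatement` (`ea + eb ≠ 0`). -/
theorem result_of_levelQPow (hodd : OddRepStatement) (hFD : Fermat.Agent.S29.FDStatement)
    {M : ℕ} [NeZero M] (lam : ℕ) [Fact lam.Prime] (S : Finset ℕ)
    (O' : Type) [CommRing O'] [IsDomain O'] [IsDiscreteValuationRing O']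
    [IsAdicComplete (IsLocalRing.maximalIdeal O') O'] [Finite (IsLocalRing.ResidueField O')]
    [CharZero O'] (hlamO' : (lam : O') ∈ IsLocalRing.maximalIdeal O')
    (χ : CuspForm.heckeAlgebra M 2 (↑S : Set ℕ) →+* O')
    (hlamS : lam ∈ S) (hMS : ∀ q : ℕ, q.Prime → q ∣ M → q ∈ S)
    (ea eb : ℕ) (hab : ea + eb ≠ 0)
    (hLev : LevelQPowStatement lam M S O' χ ea eb) :
    ∃ (O'' : Type) (_ : CommRing O'') (_ : IsDomain O'') (_ : IsDiscreteValuationRing O'')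
      (_ : IsAdicComplete (IsLocalRing.maximalIdeal O'') O'')
      (_ : Finite (IsLocalRing.ResidueField O'')) (_ : CharZero O'')
      (_ : Algebra O' O'') (_ : Module.Finite O' O'') (_ : IsLocalHom (algebraMap O' O'')),
      Function.Injective (algebraMap O' O'') ∧
      ∃ ρ : GaloisRepAdic O'',
        (∀ (ℓ : ℕ) (hℓ : ℓ.Prime) (hℓM : ¬ ℓ ∣ M) (hℓS : ℓ ∉ (↑S : Set ℕ)),
          ∀ A : ValuationSubring (AlgebraicClosure ℚ), A.LiesOverPrime ℓ →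
            ∀ σ : AlgebraicClosure ℚ ≃ₐ[ℚ] AlgebraicClosure ℚ, A.IsFrobeniusAt σ ℓ →
              LinearMap.charpoly (ρ.ρ σ) =
                X ^ 2 - C (algebraMap O' O'' (χ (CuspForm.heckeAlgebra.T hℓ hℓM hℓS))) * X
                  + C ((ℓ : O''))) ∧
        (∀ q : ℕ, q.Prime → q ≠ lam → q ∣ M → ¬ q ^ 2 ∣ M →
          ∀ A : ValuationSubring (AlgebraicClosure ℚ), A.LiesOverPrime q →
            ∀ σ : AlgebraicClosure ℚ ≃ₐ[ℚ] AlgebraicClosure ℚ, A.IsFrobeniusAt σ q →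
              LinearMap.charpoly (ρ.ρ σ) = X ^ 2 - C ((q : O'') + 1) * X + C ((q : O'')) ∨
              LinearMap.charpoly (ρ.ρ σ) = X ^ 2 + C ((q : O'') + 1) * X + C ((q : O''))) :=
  Fermat.Agent.S35.DetQ.result_of_detQ_oddRep hodd lam S O' hlamO' χ
    (detQStatement_of_levelsPow hFD lam M S hlamS hMS O' hlamO' χ ea eb hab hLev)

end Fermat.Agent.S35.DetQ2
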