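/-
S35 route, block [A] with GENERAL exponents — PseudoQGen.lean (helper45).

Twin of `S35/PseudoQ.lean` (helper65) in which the extra datum at a special prime `q` is

    `(σ² − q²)^a (σ² − 1)^b (c • w_n) = 0`      for every Frobenius element `σ` at `q`,

with ARBITRARY exponents `a = ea q`, `b = eb q` (independent of the level `n`).  The blueprint of
record is `(a, b) = (1, 2)` (`PseudoQ.FrobQ`), the `U_q`-route uses `(a, b) = (2, 2)`; any other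
pair works the same way.

Algebra: `s := r σ` satisfies `s² − t s + q = 0` on `V_n`; if `(s² − c²) y = 0` then
`F(c) F(−c) • y = 0` with `F(c) = c² − t c + q` (`PseudoQ.smul_eq_zero_of_sq_apply_eq`); by
induction `(s² − c²)^a y = 0` gives `(F(c) F(−c))^a • y = 0`.  Here
`F(q) F(−q) = q² ((q+1)² − t²)` and `F(1) F(−1) = (q+1)² − t²`, so
`(q² ((q+1)² − t²))^a ((q+1)² − t²)^b • (c • w_n) = 0` for all `n`, hence `t² = (q+1)²`.
-/
import Mathlib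
import Fermat.Agent.S29.Defs
import Fermat.Agent.S29.Lucas
import Fermat.Agent.S30.LimLevel
import Fermat.Agent.S30.LimCore
import Fermat.Agent.S30.LimFD
import Fermat.Agent.S30.LimGlue
import Fermat.Agent.S30.Conj
import Fermat.Agent.S35.PseudoQ

set_option autoImplicit false

namespace Fermat.Agent.S35.PseudoQGen

open Fermat.Agent.S29 (FDStatement)
open Fermat.Agent.S30.LimLevel (Level)
open Fermat.Agent.S30.LimCore (IsTrace)
open Fermat.Agent.S35.PseudoQ (quad_of_trace smul_eq_zero_of_sq_apply_eq FrobQ)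

/-- `ℚ̄`. -/
local notation "Qb" => AlgebraicClosure ℚ

/-- `Gal(ℚ̄/ℚ)`. -/
local notation "GQ" => (AlgebraicClosure ℚ ≃ₐ[ℚ] AlgebraicClosure ℚ)

/-! ### Algebra of one operator with `s² − t s + q = 0` -/

section Alg

variable {𝒪 : Type*} [CommRing 𝒪] {X : Type*} [AddCommGroup X] [Module 𝒪 X]

/-- If `s² − t s + q = 0` and `(s² − c²)^a y = 0` then `(F(c) F(−c))^a • y = 0`. -/
theorem smul_eq_zero_of_pow_sq_apply (s : Module.End 𝒪 X) (t q : 𝒪)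
    (hq : s * s - t • s + q • (1 : Module.End 𝒪 X) = 0) (c : 𝒪) (a : ℕ) (y : X)
    (hy : ((s * s - (c * c) • (1 : Module.End 𝒪 X)) ^ a) y = 0) :
    (((c * c - t * c + q) * (c * c + t * c + q)) ^ a) • y = 0 := by
  induction a generalizing y with
  | zero =>
    rw [pow_zero, Module.End.one_apply] at hy
    rw [hy, smul_zero]
  | succ a ih =>
    rw [pow_succ, Module.End.mul_apply] at hy
    have h1 := ih _ hy
    rw [← map_smul] at h1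
    have h2 : s (s ((((c * c - t * c + q) * (c * c + t * c + q)) ^ a) • y))
        = (c * c) • ((((c * c - t * c + q) * (c * c + t * c + q)) ^ a) • y) := by
      rw [LinearMap.sub_apply, LinearMap.smul_apply, Module.End.mul_apply, Module.End.one_apply,
        sub_eq_zero] at h1
      exact h1
    have h3 := smul_eq_zero_of_sq_apply_eq s t q hq c _ h2
    rw [smul_smul] at h3
    rw [pow_succ']
    exact h3

/-- **The algebra of [A], general exponents.**  If `s² − t s + q = 0` and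
`(s² − q²)^a (s² − 1)^b w = 0` then `(q² ((q+1)² − t²))^a ((q+1)² − t²)^b • w = 0`. -/
theorem smul_eq_zero_of_frobQGen (s : Module.End 𝒪 X) (t q : 𝒪)
    (hq : s * s - t • s + q • (1 : Module.End 𝒪 X) = 0) (w : X) (a b : ℕ)
    (hw : ((s * s - (q ^ 2) • (1 : Module.End 𝒪 X)) ^ a) (((s * s - 1) ^ b) w) = 0) :
    ((q ^ 2 * ((q + 1) ^ 2 - t ^ 2)) ^ a * ((q + 1) ^ 2 - t ^ 2) ^ b) • w = 0 := by
  have e1 : s * s - (q ^ 2) • (1 : Module.End 𝒪 X) = s * s - (q * q) • (1 : Module.End 𝒪 X) := by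
    rw [pow_two]
  have e2 : s * s - (1 : Module.End 𝒪 X) = s * s - ((1 : 𝒪) * 1) • (1 : Module.End 𝒪 X) := by
    rw [mul_one, one_smul]
  rw [e1] at hw
  have h1 := smul_eq_zero_of_pow_sq_apply s t q hq q a _ hw
  rw [← map_smul, e2] at h1
  have h2 := smul_eq_zero_of_pow_sq_apply s t q hq 1 b _ h1
  rw [smul_smul] at h2
  have ea : (q * q - t * q + q) * (q * q + t * q + q) = q ^ 2 * ((q + 1) ^ 2 - t ^ 2) := by ring
  have eb : ((1 : 𝒪) * 1 - t * 1 + q) * (1 * 1 + t * 1 + q) = (q + 1) ^ 2 - t ^ 2 := by ring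
  rw [ea, eb, mul_comm] at h2
  exact h2

/-- `(T ^ 1) y = T y`. -/
theorem end_pow_one_apply (T : Module.End 𝒪 X) (y : X) : (T ^ 1) y = T y := by
  rw [pow_one]

/-- `(T ^ 2) y = T (T y)`. -/
theorem end_pow_two_apply (T : Module.End 𝒪 X) (y : X) : (T ^ 2) y = T (T y) := by
  rw [pow_two, Module.End.mul_apply]

end Alg

/-! ### The extra datum and the determinant -/

/-- **The extra datum at a special prime `q`, with exponents `(a, b)`**: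
`(σ² − q²)^a (σ² − 1)^b (c • w) = 0` for every Frobenius element `σ` at `q`. -/
def FrobQGen {𝒪 : Type} [CommRing 𝒪] {p n : ℕ} {good : ℕ → Prop} {a : ℕ → 𝒪} {unr : ℕ → Prop}
    (Lv : Level 𝒪 p n good a unr) (q : ℕ) (c : 𝒪) (ea eb : ℕ) : Prop :=
  ∀ A : ValuationSubring Qb, A.LiesOverPrime q → ∀ σ : GQ, A.IsFrobeniusAt σ q →
    ((Lv.r σ * Lv.r σ - ((q : 𝒪) ^ 2) • (1 : Module.End 𝒪 Lv.V)) ^ ea)
      (((Lv.r σ * Lv.r σ - 1) ^ eb) (c • Lv.w)) = 0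

/-- The datum of record `PseudoQ.FrobQ` is the case `(a, b) = (1, 2)`. -/
theorem frobQGen_one_two {𝒪 : Type} [CommRing 𝒪] {p n : ℕ} {good : ℕ → Prop} {a : ℕ → 𝒪}
    {unr : ℕ → Prop} (Lv : Level 𝒪 p n good a unr) (q : ℕ) (c : 𝒪) (h : FrobQ Lv q c) :
    FrobQGen Lv q c 1 2 := by
  intro A hA σ hσ
  have h1 := h A hA σ hσ
  rw [end_pow_one_apply, end_pow_two_apply]
  exact h1

/-- The `U_q`-route datum `(σ² − q²)² (σ² − 1)² (c • w) = 0`, written out, is the case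
`(a, b) = (2, 2)`. -/
theorem frobQGen_two_two {𝒪 : Type} [CommRing 𝒪] {p n : ℕ} {good : ℕ → Prop} {a : ℕ → 𝒪}
    {unr : ℕ → Prop} (Lv : Level 𝒪 p n good a unr) (q : ℕ) (c : 𝒪)
    (h : ∀ A : ValuationSubring Qb, A.LiesOverPrime q → ∀ σ : GQ, A.IsFrobeniusAt σ q →
      (Lv.r σ * Lv.r σ - ((q : 𝒪) ^ 2) • (1 : Module.End 𝒪 Lv.V))
        ((Lv.r σ * Lv.r σ - ((q : 𝒪) ^ 2) • (1 : Module.End 𝒪 Lv.V))
          ((Lv.r σ * Lv.r σ - 1) ((Lv.r σ * Lv.r σ - 1) (c • Lv.w)))) = 0) :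
    FrobQGen Lv q c 2 2 := by
  intro A hA σ hσ
  have h1 := h A hA σ hσ
  rw [end_pow_two_apply, end_pow_two_apply]
  exact h1

/-- Elementwise form of `FrobQGen` (iterated application instead of powers in `Module.End`). -/
theorem frobQGen_of_iterate {𝒪 : Type} [CommRing 𝒪] {p n : ℕ} {good : ℕ → Prop} {a : ℕ → 𝒪}
    {unr : ℕ → Prop} (Lv : Level 𝒪 p n good a unr) (q : ℕ) (c : 𝒪) (ea eb : ℕ)
    (h : ∀ A : ValuationSubring Qb, A.LiesOverPrime q → ∀ σ : GQ, A.IsFrobeniusAt σ q →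
      (fun y : Lv.V => Lv.r σ (Lv.r σ y) - ((q : 𝒪) ^ 2) • y)^[ea]
        ((fun y : Lv.V => Lv.r σ (Lv.r σ y) - y)^[eb] (c • Lv.w)) = 0) :
    FrobQGen Lv q c ea eb := by
  intro A hA σ hσ
  have h1 := h A hA σ hσ
  have e1 : ∀ (k : ℕ) (y : Lv.V),
      ((Lv.r σ * Lv.r σ - ((q : 𝒪) ^ 2) • (1 : Module.End 𝒪 Lv.V)) ^ k) y
        = (fun y : Lv.V => Lv.r σ (Lv.r σ y) - ((q : 𝒪) ^ 2) • y)^[k] y := by
    intro k
    induction k with
    | zero => intro y; rfl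
    | succ k ih =>
      intro y
      rw [pow_succ, Module.End.mul_apply, ih, Function.iterate_succ_apply]
      rfl
  have e2 : ∀ (k : ℕ) (y : Lv.V),
      ((Lv.r σ * Lv.r σ - (1 : Module.End 𝒪 Lv.V)) ^ k) y
        = (fun y : Lv.V => Lv.r σ (Lv.r σ y) - y)^[k] y := by
    intro k
    induction k with
    | zero => intro y; rfl
    | succ k ih =>
      intro y
      rw [pow_succ, Module.End.mul_apply, ih, Function.iterate_succ_apply]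
      rfl
  rw [e1, e2]
  exact h1

/-- **The concrete limit step with special primes, general exponents.**  As
`PseudoQ.exists_pseudoQ`, with `FrobQGen` (exponents `ea q`, `eb q` and constants `cst q ≠ 0` not
depending on the level) at the special primes; the determinant `(t, d)` satisfies
`t σ ^ 2 = (q + 1) ^ 2` and `d σ = q` at every Frobenius element `σ` at a special prime `q`. -/
theorem exists_pseudoQGen {𝒪 : Type} [CommRing 𝒪] [IsDomain 𝒪] (p : ℕ) (hp : p ≠ 0)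
    (hsep : ∀ a : 𝒪, (∀ n : ℕ, (p : 𝒪) ^ n ∣ a) → a = 0)
    (hcompl : ∀ f : ℕ → 𝒪, (∀ n : ℕ, (p : 𝒪) ^ n ∣ f (n + 1) - f n) →
      ∃ L : 𝒪, ∀ n : ℕ, (p : 𝒪) ^ n ∣ f n - L)
    (good : ℕ → Prop) (a : ℕ → 𝒪) (unr : ℕ → Prop) (S : Finset ℕ)
    (hS : ∀ ℓ : ℕ, ℓ.Prime → ℓ ∉ S → good ℓ) (hFD : FDStatement)
    (d : GQ →* 𝒪ˣ)
    (hd : ∀ (g : GQ) (n k : ℕ), (∀ ζ : Qb, ζ ^ (p ^ n) = 1 → g ζ = ζ ^ k) →
      (p : 𝒪) ^ n ∣ ((d g : 𝒪ˣ) : 𝒪) - (k : 𝒪))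
    (hcycL : ∀ n : ℕ, ∃ L : IntermediateField ℚ Qb, FiniteDimensional ℚ L ∧
      ∀ σ : GQ, (∀ x ∈ L, σ x = x) → ∀ ζ : Qb, ζ ^ (p ^ n) = 1 → σ ζ = ζ)
    (hcycF : ∀ ℓ : ℕ, good ℓ → ∀ A : ValuationSubring Qb, A.LiesOverPrime ℓ →
      ∀ σ : GQ, A.IsFrobeniusAt σ ℓ → ∀ (n : ℕ) (ζ : Qb), ζ ^ (p ^ n) = 1 → σ ζ = ζ ^ ℓ)
    (hcycI : ∀ q : ℕ, unr q → ∀ P : ValuationSubring Qb, P.LiesOverPrime q →
      ∀ τ ∈ P.inertiaSubgroupIn ℚ, ∀ (n : ℕ) (ζ : Qb), ζ ^ (p ^ n) = 1 → τ ζ = ζ)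
    (spec : ℕ → Prop) (hspec0 : ∀ q : ℕ, spec q → (q : 𝒪) ≠ 0)
    (cst : ℕ → 𝒪) (hcst : ∀ q : ℕ, spec q → cst q ≠ 0) (ea eb : ℕ → ℕ)
    (hcycQ : ∀ q : ℕ, spec q → ∀ A : ValuationSubring Qb, A.LiesOverPrime q →
      ∀ σ : GQ, A.IsFrobeniusAt σ q → ∀ (n : ℕ) (ζ : Qb), ζ ^ (p ^ n) = 1 → σ ζ = ζ ^ q)
    (lev : ∀ n : ℕ, ∃ Lv : Level 𝒪 p n good a unr,
      ∀ q : ℕ, spec q → FrobQGen Lv q (cst q) (ea q) (eb q)) :
    ∃ t : GQ → 𝒪,
      t 1 = 2 ∧ (∀ g h : GQ, t (g * h) = t (h * g)) ∧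
      (∀ g h : GQ, t (g * h) + ((d h : 𝒪ˣ) : 𝒪) * t (g * h⁻¹) = t g * t h) ∧
      (∀ n : ℕ, ∃ L : IntermediateField ℚ Qb, FiniteDimensional ℚ L ∧
        ∀ σ : GQ, (∀ x ∈ L, σ x = x) → ∀ g : GQ, (p : 𝒪) ^ n ∣ t (σ * g) - t g) ∧
      (∀ ℓ : ℕ, good ℓ → ∀ A : ValuationSubring Qb, A.LiesOverPrime ℓ →
        ∀ σ : GQ, A.IsFrobeniusAt σ ℓ → t σ = a ℓ ∧ ((d σ : 𝒪ˣ) : 𝒪) = (ℓ : 𝒪)) ∧
      (∀ q : ℕ, unr q → ∀ P : ValuationSubring Qb, P.LiesOverPrime q →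
        ∀ τ ∈ P.inertiaSubgroupIn ℚ, ∀ g : GQ, t (τ * g) = t g) ∧
      (∃ c : GQ, c * c = 1 ∧ t c = 0 ∧ d c = -1) ∧
      (∀ q : ℕ, spec q → ∀ A : ValuationSubring Qb, A.LiesOverPrime q →
        ∀ σ : GQ, A.IsFrobeniusAt σ q →
          t σ ^ 2 = ((q : 𝒪) + 1) ^ 2 ∧ ((d σ : 𝒪ˣ) : 𝒪) = (q : 𝒪)) := by
  classical
  -- the level data
  let Lv : ∀ n : ℕ, Level 𝒪 p n good a unr := fun n => (lev n).choose
  have hLvQ : ∀ (n : ℕ) (q : ℕ), spec q → FrobQGen (Lv n) q (cst q) (ea q) (eb q) :=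
    fun n => (lev n).choose_spec
  let X : ℕ → Type := fun n => (Lv n).V
  let π : ∀ n : ℕ, GQ →* Module.End 𝒪 (X n) := fun n => (Lv n).r
  let w : ∀ n : ℕ, X n := fun n => (Lv n).w
  have htors : ∀ (n : ℕ) (x : X n), (p : 𝒪) ^ n • x = 0 := fun n => (Lv n).tors
  have hann : ∀ (n : ℕ) (c : 𝒪), c • w n = 0 → (p : 𝒪) ^ n ∣ c := fun n => (Lv n).ann
  have hlevel : ∀ n : ℕ, ∃ L : IntermediateField ℚ Qb, FiniteDimensional ℚ L ∧
      ∀ σ : GQ, (∀ x ∈ L, σ x = x) → π n σ = 1 := fun n => (Lv n).level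
  -- the cyclotomic character at Frobenius and inertia
  have hdFrob : ∀ ℓ : ℕ, good ℓ → ∀ A : ValuationSubring Qb, A.LiesOverPrime ℓ →
      ∀ σ : GQ, A.IsFrobeniusAt σ ℓ → ((d σ : 𝒪ˣ) : 𝒪) = (ℓ : 𝒪) :=
    fun ℓ hℓ A hA σ hσ =>
      Fermat.Agent.S30.LimGlue.d_eq_natCast hsep d hd σ ℓ (hcycF ℓ hℓ A hA σ hσ)
  have hdIn : ∀ q : ℕ, unr q → ∀ P : ValuationSubring Qb, P.LiesOverPrime q →
      ∀ τ ∈ P.inertiaSubgroupIn ℚ, d τ = 1 :=
    fun q hq P hP τ hτ =>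
      Fermat.Agent.S30.LimGlue.d_eq_one hsep d hd τ (hcycI q hq P hP τ hτ)
  have hdcont : ∀ m : ℕ, ∃ C : IntermediateField ℚ Qb, FiniteDimensional ℚ C ∧
      ∀ σ : GQ, (∀ x ∈ C, σ x = x) → (p : 𝒪) ^ m ∣ ((d σ : 𝒪ˣ) : 𝒪) - 1 := by
    intro m
    obtain ⟨C, hC, h⟩ := hcycL m
    exact ⟨C, hC, fun σ hσ => Fermat.Agent.S30.LimGlue.d_sub_one_dvd d hd m σ (h σ hσ)⟩
  -- the relation on two consecutive levels (FD + Lucas)
  have hrel : ∀ (g : GQ) (n : ℕ), ∃ t' : 𝒪,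
      (π n g + ((d g : 𝒪ˣ) : 𝒪) • π n g⁻¹ = t' • (1 : Module.End 𝒪 (X n))) ∧
      (π (n + 1) g + ((d g : 𝒪ˣ) : 𝒪) • π (n + 1) g⁻¹
        = t' • (1 : Module.End 𝒪 (X (n + 1)))) :=
    Fermat.Agent.S30.LimFD.hrel_of_levels hFD (p : 𝒪) S a d
      (fun ℓ hℓ hℓS A hA σ hσ => hdFrob ℓ (hS ℓ hℓ hℓS) A hA σ hσ) hdcont π htors hlevel
      (fun n ℓ hℓ hℓS A hA σ hσ => (Lv n).frob ℓ (hS ℓ hℓ hℓS) A hA σ hσ)
  -- the limit
  obtain ⟨t, ht, ht1, htcomm, htmul, -⟩ :=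
    Fermat.Agent.S30.LimCore.exists_trace (ϖ := (p : 𝒪)) (d := d) (X := X) (π := π) (w := w)
      hsep hcompl htors hann hrel
  have hT : IsTrace d X π t := ht
  refine ⟨t, ht1, htcomm, htmul, ?_, ?_, ?_, ?_, ?_⟩
  · -- (P2)
    intro n
    obtain ⟨L₁, hL₁, h₁⟩ := hlevel n
    obtain ⟨L₂, hL₂, h₂⟩ := hdcont n
    refine ⟨L₁ ⊔ L₂, inferInstance, fun σ hσ g => ?_⟩
    exact hT.dvd_sub_of_eq htors hann n σ g
      (h₁ σ fun x hx => hσ x ((le_sup_left : L₁ ≤ L₁ ⊔ L₂) hx))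
      (h₂ σ fun x hx => hσ x ((le_sup_right : L₂ ≤ L₁ ⊔ L₂) hx))
  · -- (P3), Frobenius
    intro ℓ hℓ A hA σ hσ
    have hdσ := hdFrob ℓ hℓ A hA σ hσ
    refine ⟨?_, hdσ⟩
    apply hT.eq_of_forall_rel hsep hann σ (a ℓ)
    intro n
    have hq := (Lv n).frob ℓ hℓ A hA σ hσ
    have h1 := Fermat.Agent.S29.Lucas.add_smul_inv_of_quadratic (π n) σ (a ℓ) (ℓ : 𝒪) hq
    have h2 := congrArg (fun f : Module.End 𝒪 (X n) => f (w n)) h1
    simp only [LinearMap.add_apply, LinearMap.smul_apply, Module.End.one_apply] at h2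
    rw [hdσ]
    exact h2
  · -- (P3), inertia
    intro q hq P hP τ hτ g
    exact hT.apply_mul_of_forall_eq_one hsep htors hann τ
      (fun n => (Lv n).inert q hq P hP τ hτ) (hdIn q hq P hP τ hτ) g
  · -- (P4)
    obtain ⟨c, hc, hcζ⟩ := Fermat.Agent.S30.Conj.exists_conj
    have hdc : d c = -1 := Fermat.Agent.S30.LimGlue.d_eq_neg_one hsep d hd hp c
      (fun n ζ hζ => hcζ ζ (p ^ n) (pow_ne_zero n hp) hζ)
    exact ⟨c, hc, hT.eq_zero_of_involution hsep hann c hc hdc, hdc⟩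
  · -- the special primes
    intro q hq A hA σ hσ
    have hdσ : ((d σ : 𝒪ˣ) : 𝒪) = (q : 𝒪) :=
      Fermat.Agent.S30.LimGlue.d_eq_natCast hsep d hd σ q (hcycQ q hq A hA σ hσ)
    refine ⟨?_, hdσ⟩
    have hzero : ((q : 𝒪) ^ 2 * (((q : 𝒪) + 1) ^ 2 - t σ ^ 2)) ^ ea q
        * (((q : 𝒪) + 1) ^ 2 - t σ ^ 2) ^ eb q * cst q = 0 := by
      apply hsep
      intro n
      apply hann n
      have hTn := hT n σ
      rw [hdσ] at hTn
      have hquad := quad_of_trace (π n σ) (π n σ⁻¹) (t σ) (q : 𝒪)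
        (Fermat.Agent.S30.LimCore.map_mul_map_inv (π := π) n σ) hTn
      have h := smul_eq_zero_of_frobQGen (π n σ) (t σ) (q : 𝒪) hquad (cst q • w n) (ea q) (eb q)
        (hLvQ n q hq A hA σ hσ)
      rw [smul_smul] at h
      exact h
    by_contra hne
    have hX : ((q : 𝒪) + 1) ^ 2 - t σ ^ 2 ≠ 0 := fun h => hne (sub_eq_zero.mp h).symm
    have hq0 : (q : 𝒪) ^ 2 ≠ 0 := pow_ne_zero 2 (hspec0 q hq)
    exact mul_ne_zero (mul_ne_zero (pow_ne_zero _ (mul_ne_zero hq0 hX)) (pow_ne_zero _ hX))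
      (hcst q hq) hzero

end Fermat.Agent.S35.PseudoQGen
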