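/-
S35 route, block [A] with GENERAL exponents — DetQGen.lean (helper45).  Twin of `S35/DetQ.lean`.

* `LevelQGenStatement` — a level (`S30/LimLevel.Level`) for every `n`, with
                         `PseudoQGen.FrobQGen` at every special prime `q` (`q ∥ N`, `q ≠ p`):
                         `(σ² − q²)^(ea q) (σ² − 1)^(eb q) (c_q • w_n) = 0` for the Frobenius
                         elements `σ` at `q`; the exponents `ea q`, `eb q` and the constants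
                         `c_q ≠ 0` do not depend on `n`, and are otherwise ARBITRARY
                         (`(1, 2)` = blueprint of record, `(2, 2)` = the `U_q`-route);
* `detQStatement_of_levelsGen` — `LevelQGenStatement ⟹ DetQ.DetQStatement`;
* `result_of_levelQGen`        — the frozen conclusion of S35 from `LevelQGenStatement`
                         (through `DetQ.result_of_detQ_oddRep`);
* `levelQGen_of_levelQ`        — `DetQ.LevelQStatement ⟹ LevelQGenStatement`.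
-/
import Mathlib
import Fermat.Prelude.Def_CuspForm_HeckeGaloisRepDatum
import Fermat.Agent.S29.Defs
import Fermat.Agent.S30.Defs
import Fermat.Agent.S30.Top
import Fermat.Agent.S30.LimCore
import Fermat.Agent.S30.CycInf
import Fermat.Agent.S30.CycN
import Fermat.Agent.S35.PseudoQ
import Fermat.Agent.S35.DetQ
import Fermat.Agent.S35.PseudoQGen

set_option autoImplicit false

open Polynomial

namespace Fermat.Agent.S35.DetQGen

open Fermat.Agent.S30Top (Qb GQ IsPseudo IsOddAt IsContAt OddRepStatement)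
open Fermat.Agent.S30.LimLevel
open Fermat.Agent.S35.DetQ (specPrime LevelQStatement DetQStatement)

/-- **[LevelQGen]**: a level at every `n` with `FrobQGen` at the special primes, for exponents
`ea q`, `eb q` and constants `cst q ≠ 0` which do not depend on `n`. -/
def LevelQGenStatement (p N : ℕ) [NeZero N] (S : Finset ℕ) (𝒪 : Type) [CommRing 𝒪]
    (χ : CuspForm.heckeAlgebra N 2 (↑S : Set ℕ) →+* 𝒪) : Prop :=
  ∃ (cst : ℕ → 𝒪) (ea eb : ℕ → ℕ), (∀ q : ℕ, specPrime N p q → cst q ≠ 0) ∧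
    ∀ n : ℕ, ∃ Lv : Level 𝒪 p n (goodPrime N (↑S : Set ℕ)) (heckeEig N (↑S : Set ℕ) χ)
        (unrPrime N p),
      ∀ q : ℕ, specPrime N p q →
        Fermat.Agent.S35.PseudoQGen.FrobQGen Lv q (cst q) (ea q) (eb q)

/-- The statement of record `DetQ.LevelQStatement` is the case of exponents `(1, 2)`. -/
theorem levelQGen_of_levelQ (p N : ℕ) [NeZero N] (S : Finset ℕ) (𝒪 : Type) [CommRing 𝒪]
    (χ : CuspForm.heckeAlgebra N 2 (↑S : Set ℕ) →+* 𝒪) (h : LevelQStatement p N S 𝒪 χ) :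
    LevelQGenStatement p N S 𝒪 χ := by
  obtain ⟨cst, hcst, hlev⟩ := h
  refine ⟨cst, fun _ => 1, fun _ => 2, hcst, fun n => ?_⟩
  obtain ⟨Lv, hLv⟩ := hlev n
  exact ⟨Lv, fun q hq => Fermat.Agent.S35.PseudoQGen.frobQGen_one_two Lv q (cst q) (hLv q hq)⟩

/-- **[DetQ] from the levels, general exponents.** -/
theorem detQStatement_of_levelsGen (hFD : Fermat.Agent.S29.FDStatement)
    (p : ℕ) [Fact p.Prime] (N : ℕ) [NeZero N] (S : Finset ℕ) (hpS : p ∈ S)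
    (hNS : ∀ q : ℕ, q.Prime → q ∣ N → q ∈ S)
    (𝒪 : Type) [CommRing 𝒪] [IsDomain 𝒪] [IsDiscreteValuationRing 𝒪]
    [IsAdicComplete (IsLocalRing.maximalIdeal 𝒪) 𝒪] [CharZero 𝒪]
    (hp𝒪 : (p : 𝒪) ∈ IsLocalRing.maximalIdeal 𝒪)
    (χ : CuspForm.heckeAlgebra N 2 (↑S : Set ℕ) →+* 𝒪)
    (hLev : LevelQGenStatement p N S 𝒪 χ) :
    DetQStatement p N S 𝒪 χ := by
  have hp : p.Prime := Fact.out
  have hp0 : (p : 𝒪) ≠ 0 := Nat.cast_ne_zero.mpr hp.ne_zero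
  have hsep : ∀ a : 𝒪, (∀ n : ℕ, (p : 𝒪) ^ n ∣ a) → a = 0 :=
    fun a h => Fermat.Agent.S30.LimCore.sep_of_dvr hp𝒪 a h
  have hcompl : ∀ f : ℕ → 𝒪, (∀ n, (p : 𝒪) ^ n ∣ f (n + 1) - f n) →
      ∃ L : 𝒪, ∀ n, (p : 𝒪) ^ n ∣ f n - L :=
    fun f h => Fermat.Agent.S30.LimCore.compl_of_dvr hp𝒪 hp0 f h
  obtain ⟨d, hd⟩ :=
    Fermat.Agent.S30.CycInf.exists_cyclotomic (p := p) (𝒪 := 𝒪) hp.ne_zero hsep hcompl
  have hS : ∀ ℓ : ℕ, ℓ.Prime → ℓ ∉ S → goodPrime N (↑S : Set ℕ) ℓ := by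
    intro ℓ hℓ hℓS
    exact ⟨hℓ, fun hℓN => hℓS (hNS ℓ hℓ hℓN), fun h => hℓS (Finset.mem_coe.mp h)⟩
  have hcycL : ∀ n : ℕ, ∃ L : IntermediateField ℚ Qb, FiniteDimensional ℚ L ∧
      ∀ σ : GQ, (∀ x ∈ L, σ x = x) → ∀ ζ : Qb, ζ ^ (p ^ n) = 1 → σ ζ = ζ := by
    intro n
    obtain ⟨L, hL, h, -⟩ := Fermat.Agent.S30.CycInf.exists_level (p := p) hp.ne_zero n
    exact ⟨L, hL, h⟩
  have hcycF : ∀ ℓ : ℕ, goodPrime N (↑S : Set ℕ) ℓ → ∀ A : ValuationSubring Qb,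
      A.LiesOverPrime ℓ → ∀ σ : GQ, A.IsFrobeniusAt σ ℓ → ∀ (n : ℕ) (ζ : Qb),
      ζ ^ (p ^ n) = 1 → σ ζ = ζ ^ ℓ := by
    intro ℓ hℓ A hA σ hσ n ζ hζ
    have hℓp : ℓ ≠ p := fun h => hℓ.2.2 (Finset.mem_coe.mpr (h ▸ hpS))
    exact Fermat.Agent.S30.CycN.frobenius_apply_of_pow_eq_one (pow_ne_zero n hp.ne_zero) hℓ.1
      (Fermat.Agent.S30.CycN.not_dvd_prime_pow hℓ.1 hp hℓp n) A hA σ hσ ζ hζ
  have hcycI : ∀ q : ℕ, unrPrime N p q → ∀ P : ValuationSubring Qb, P.LiesOverPrime q →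
      ∀ τ ∈ P.inertiaSubgroupIn ℚ, ∀ (n : ℕ) (ζ : Qb), ζ ^ (p ^ n) = 1 → τ ζ = ζ := by
    intro q hq P hP τ hτ n ζ hζ
    exact Fermat.Agent.S30.CycN.inertia_apply_of_pow_eq_one (pow_ne_zero n hp.ne_zero) hq.1
      (Fermat.Agent.S30.CycN.not_dvd_prime_pow hq.1 hp hq.2.2 n) P hP τ hτ ζ hζ
  have hcycQ : ∀ q : ℕ, specPrime N p q → ∀ A : ValuationSubring Qb, A.LiesOverPrime q →
      ∀ σ : GQ, A.IsFrobeniusAt σ q → ∀ (n : ℕ) (ζ : Qb), ζ ^ (p ^ n) = 1 → σ ζ = ζ ^ q := by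
    intro q hq A hA σ hσ n ζ hζ
    exact Fermat.Agent.S30.CycN.frobenius_apply_of_pow_eq_one (pow_ne_zero n hp.ne_zero) hq.1
      (Fermat.Agent.S30.CycN.not_dvd_prime_pow hq.1 hp hq.2.1 n) A hA σ hσ ζ hζ
  obtain ⟨cst, ea, eb, hcst, hlev⟩ := hLev
  obtain ⟨t, h1, h2, h3, hP2, hP3a, -, ⟨c, hc, htc, hdc⟩, hQ⟩ :=
    Fermat.Agent.S35.PseudoQGen.exists_pseudoQGen p hp.ne_zero hsep hcompl
      (goodPrime N (↑S : Set ℕ)) (heckeEig N (↑S : Set ℕ) χ) (unrPrime N p) S hS hFD d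
      (fun g n k hk => hd g n k hk) hcycL hcycF hcycI (specPrime N p)
      (fun q hq => Nat.cast_ne_zero.mpr hq.1.ne_zero) cst hcst ea eb hcycQ hlev
  refine ⟨t, d, ⟨h1, h2, h3⟩, ⟨c, hc, htc, hdc⟩, hP2, ?_, hQ⟩
  intro ℓ hℓ hℓN hℓS A hA σ hσ
  have h := hP3a ℓ ⟨hℓ, hℓN, hℓS⟩ A hA σ hσ
  rw [heckeEig_eq N (↑S : Set ℕ) χ hℓ hℓN hℓS] at h
  exact h

/-- **S35 from the levels, general exponents**: the frozen conclusion of S35 for a ring hom
`χ : 𝕋 → 𝒪'`, from [OddRep], [FD] and `LevelQGenStatement`. -/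
theorem result_of_levelQGen (hodd : OddRepStatement) (hFD : Fermat.Agent.S29.FDStatement)
    {M : ℕ} [NeZero M] (lam : ℕ) [Fact lam.Prime] (S : Finset ℕ)
    (O' : Type) [CommRing O'] [IsDomain O'] [IsDiscreteValuationRing O']
    [IsAdicComplete (IsLocalRing.maximalIdeal O') O'] [Finite (IsLocalRing.ResidueField O')]
    [CharZero O'] (hlamO' : (lam : O') ∈ IsLocalRing.maximalIdeal O')
    (χ : CuspForm.heckeAlgebra M 2 (↑S : Set ℕ) →+* O')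
    (hlamS : lam ∈ S) (hMS : ∀ q : ℕ, q.Prime → q ∣ M → q ∈ S)
    (hLev : LevelQGenStatement lam M S O' χ) :
    ∃ (O'' : Type) (_ : CommRing O'') (_ : IsDomain O'') (_ : IsDiscreteValuationRing O'')
      (_ : IsAdicComplete (IsLocalRing.maximalIdeal O'') O'')
      (_ : Finite (IsLocalRing.ResidueField O'')) (_ : CharZero O'')
      (_ : Algebra O' O'') (_ : Module.Finite O' O'') (_ : IsLocalHom (algebraMap O' O'')),
      Function.Injective (algebraMap O' O'') ∧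
      ∃ ρ : GaloisRepAdic O'',
        (∀ (ℓ : ℕ) (hℓ : ℓ.Prime) (hℓM : ¬ ℓ ∣ M) (hℓS : ℓ ∉ (↑S : Set ℕ)),
          ∀ A : ValuationSubring (AlgebraicClosure ℚ), A.LiesOverPrime ℓ →
            ∀ σ : AlgebraicClosure ℚ ≃ₐ[ℚ] AlgebraicClosure ℚ, A.IsFrobeniusAt σ ℓ →
              LinearMap.charpoly (ρ.ρ σ) =
                X ^ 2 - C (algebraMap O' O'' (χ (CuspForm.heckeAlgebra.T hℓ hℓM hℓS))) * X
                  + C ((ℓ : O''))) ∧
        (∀ q : ℕ, q.Prime → q ≠ lam → q ∣ M → ¬ q ^ 2 ∣ M →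
          ∀ A : ValuationSubring (AlgebraicClosure ℚ), A.LiesOverPrime q →
            ∀ σ : AlgebraicClosure ℚ ≃ₐ[ℚ] AlgebraicClosure ℚ, A.IsFrobeniusAt σ q →
              LinearMap.charpoly (ρ.ρ σ) = X ^ 2 - C ((q : O'') + 1) * X + C ((q : O'')) ∨
              LinearMap.charpoly (ρ.ρ σ) = X ^ 2 + C ((q : O'') + 1) * X + C ((q : O''))) :=
  Fermat.Agent.S35.DetQ.result_of_detQ_oddRep hodd lam S O' hlamO' χ
    (detQStatement_of_levelsGen hFD lam M S hlamS hMS O' hlamO' χ hLev)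

end Fermat.Agent.S35.DetQGen
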