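/-
S35 route, block [A] — DetQU.lean (helper59).  PER-PRIME form of the top.

`DetQ.LevelQStatement` (helper65) asks for ONE level at every `n` carrying `PseudoQ.FrobQ` at ALL
special primes `q` simultaneously.  The geometric and the newness blocks naturally produce, for
EACH special prime `q` separately, a level family (built from an eigenvector which is new at that
`q`).  This file shows that this is enough:

* `pow_eq_of_eq`     — a pseudo-character is determined on the powers of `σ` by `t σ` and `d σ`;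
* `pseudo_unique`    — two `p`-adically continuous pseudo-characters of `G_ℚ` with the same `d`
                       which agree on the Frobenius elements of the good primes are equal ([FD]);
* `LevelQAt`         — the per-prime target: a level family with `FrobQ` at the ONE prime `q`;
* `detQStatement_of_levelQAt` — a base level family (S30) and `LevelQAt` at every special prime
                       give `DetQ.DetQStatement`;
* `result_of_levelQAt`        — the frozen conclusion of S35 from these data.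
-/
import Mathlib
import Fermat.Prelude.Def_CuspForm_HeckeGaloisRepDatum
import Fermat.Agent.S29.Defs
import Fermat.Agent.S30.Defs
import Fermat.Agent.S30.Top
import Fermat.Agent.S30.LimCore
import Fermat.Agent.S30.CycInf
import Fermat.Agent.S30.CycN
import Fermat.Agent.S35.PseudoQ
import Fermat.Agent.S35.DetQ

set_option autoImplicit false

open Polynomial

namespace Fermat.Agent.S35.DetQU

open Fermat.Agent.S30Top (Qb GQ IsPseudo IsOddAt IsContAt OddRepStatement)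
open Fermat.Agent.S30.LimLevel
open Fermat.Agent.S35.DetQ (specPrime DetQStatement)

/-! ### Uniqueness of the pseudo-character -/

/-- A pseudo-character is determined on the powers of `σ` by its value at `σ` (and `d σ`). -/
theorem pow_eq_of_eq {G : Type*} [Group G] {𝒪 : Type*} [CommRing 𝒪] (t t' : G → 𝒪)
    (d : G →* 𝒪ˣ) (h1 : t 1 = 2) (h1' : t' 1 = 2)
    (hm : ∀ g h : G, t (g * h) + ((d h : 𝒪ˣ) : 𝒪) * t (g * h⁻¹) = t g * t h)
    (hm' : ∀ g h : G, t' (g * h) + ((d h : 𝒪ˣ) : 𝒪) * t' (g * h⁻¹) = t' g * t' h)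
    (σ : G) (hσ : t σ = t' σ) : ∀ j : ℕ, t (σ ^ j) = t' (σ ^ j) := by
  have key : ∀ j : ℕ, t (σ ^ j) = t' (σ ^ j) ∧ t (σ ^ (j + 1)) = t' (σ ^ (j + 1)) := by
    intro j
    induction j with
    | zero =>
      refine ⟨?_, ?_⟩
      · rw [pow_zero, h1, h1']
      · rw [zero_add, pow_one]
        exact hσ
    | succ j ih =>
      refine ⟨ih.2, ?_⟩
      have e1 : σ ^ (j + 1 + 1) = σ ^ (j + 1) * σ := pow_succ σ (j + 1)
      have e2 : σ ^ (j + 1) * σ⁻¹ = σ ^ j := by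
        rw [pow_succ, mul_assoc, mul_inv_cancel, mul_one]
      have a := hm (σ ^ (j + 1)) σ
      have a' := hm' (σ ^ (j + 1)) σ
      rw [e2] at a a'
      rw [e1]
      have b : t (σ ^ (j + 1) * σ) = t (σ ^ (j + 1)) * t σ - ((d σ : 𝒪ˣ) : 𝒪) * t (σ ^ j) :=
        eq_sub_of_add_eq a
      have b' : t' (σ ^ (j + 1) * σ)
          = t' (σ ^ (j + 1)) * t' σ - ((d σ : 𝒪ˣ) : 𝒪) * t' (σ ^ j) := eq_sub_of_add_eq a'
      rw [b, b', ih.1, ih.2, hσ]
  exact fun j => (key j).1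

/-- **Uniqueness of the pseudo-character.**  Two `p`-adically continuous pseudo-characters of
`G_ℚ` (same `d`) which agree on the Frobenius elements of the good primes are equal, by the weak
Frobenius density `[FD]`. -/
theorem pseudo_unique {𝒪 : Type*} [CommRing 𝒪] (p : ℕ)
    (hsep : ∀ a : 𝒪, (∀ n : ℕ, (p : 𝒪) ^ n ∣ a) → a = 0)
    (hFD : Fermat.Agent.S29.FDStatement) (S : Finset ℕ) (good : ℕ → Prop)
    (hS : ∀ ℓ : ℕ, ℓ.Prime → ℓ ∉ S → good ℓ)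
    (t t' : GQ → 𝒪) (d : GQ →* 𝒪ˣ)
    (h1 : t 1 = 2) (hc : ∀ g h : GQ, t (g * h) = t (h * g))
    (hm : ∀ g h : GQ, t (g * h) + ((d h : 𝒪ˣ) : 𝒪) * t (g * h⁻¹) = t g * t h)
    (hcont : ∀ n : ℕ, ∃ L : IntermediateField ℚ Qb, FiniteDimensional ℚ L ∧
      ∀ σ : GQ, (∀ x ∈ L, σ x = x) → ∀ g : GQ, (p : 𝒪) ^ n ∣ t (σ * g) - t g)
    (h1' : t' 1 = 2) (hc' : ∀ g h : GQ, t' (g * h) = t' (h * g))
    (hm' : ∀ g h : GQ, t' (g * h) + ((d h : 𝒪ˣ) : 𝒪) * t' (g * h⁻¹) = t' g * t' h)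
    (hcont' : ∀ n : ℕ, ∃ L : IntermediateField ℚ Qb, FiniteDimensional ℚ L ∧
      ∀ σ : GQ, (∀ x ∈ L, σ x = x) → ∀ g : GQ, (p : 𝒪) ^ n ∣ t' (σ * g) - t' g)
    (hfrob : ∀ ℓ : ℕ, good ℓ → ∀ A : ValuationSubring Qb, A.LiesOverPrime ℓ →
      ∀ σ : GQ, A.IsFrobeniusAt σ ℓ → t σ = t' σ) :
    t = t' := by
  funext g
  apply sub_eq_zero.mp
  apply hsep
  intro n
  obtain ⟨L₁, hL₁, k₁⟩ := hcont n
  obtain ⟨L₂, hL₂, k₂⟩ := hcont' n
  have hfin : FiniteDimensional ℚ ↥(L₁ ⊔ L₂) := inferInstance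
  obtain ⟨ℓ, A, σ, j, hℓ, hℓS, hA, hσ, hg⟩ := hFD (L₁ ⊔ L₂) hfin S g
  -- `τ := σ^{-j} g` fixes `L₁ ⊔ L₂`
  set τ : GQ := (σ ^ j)⁻¹ * g with hτ
  have hτfix : ∀ x ∈ L₁ ⊔ L₂, τ x = x := by
    intro x hx
    rw [hτ, AlgEquiv.mul_apply, hg x hx, ← AlgEquiv.mul_apply, inv_mul_cancel, AlgEquiv.one_apply]
  have hgτ : g = σ ^ j * τ := by
    rw [hτ, ← mul_assoc, mul_inv_cancel, one_mul]
  have e1 : (p : 𝒪) ^ n ∣ t (τ * σ ^ j) - t (σ ^ j) :=
    k₁ τ (fun x hx => hτfix x ((le_sup_left : L₁ ≤ L₁ ⊔ L₂) hx)) (σ ^ j)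
  have e2 : (p : 𝒪) ^ n ∣ t' (τ * σ ^ j) - t' (σ ^ j) :=
    k₂ τ (fun x hx => hτfix x ((le_sup_right : L₂ ≤ L₁ ⊔ L₂) hx)) (σ ^ j)
  have e3 : t (σ ^ j) = t' (σ ^ j) :=
    pow_eq_of_eq t t' d h1 h1' hm hm' σ (hfrob ℓ (hS ℓ hℓ hℓS) A hA σ hσ) j
  have e4 : t g - t' g = (t (τ * σ ^ j) - t (σ ^ j)) - (t' (τ * σ ^ j) - t' (σ ^ j)) := by
    rw [hgτ, hc (σ ^ j) τ, hc' (σ ^ j) τ, e3]
    ring
  rw [e4]
  exact dvd_sub e1 e2

/-! ### The per-prime target and the top -/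

/-- **[LevelQAt]** the per-prime target: a level family carrying `PseudoQ.FrobQ` at the ONE
prime `q` (with a nonzero constant independent of the level). -/
def LevelQAt (p N : ℕ) [NeZero N] (S : Finset ℕ) (𝒪 : Type) [CommRing 𝒪]
    (χ : CuspForm.heckeAlgebra N 2 (↑S : Set ℕ) →+* 𝒪) (q : ℕ) : Prop :=
  ∃ c : 𝒪, c ≠ 0 ∧
    ∀ n : ℕ, ∃ Lv : Level 𝒪 p n (goodPrime N (↑S : Set ℕ)) (heckeEig N (↑S : Set ℕ) χ)
        (unrPrime N p),
      Fermat.Agent.S35.PseudoQ.FrobQ Lv q c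

/-- `DetQ.LevelQStatement` gives `LevelQAt` at every special prime (so the per-prime target is
weaker than the simultaneous one). -/
theorem levelQAt_of_levelQStatement (p N : ℕ) [NeZero N] (S : Finset ℕ) (𝒪 : Type) [CommRing 𝒪]
    (χ : CuspForm.heckeAlgebra N 2 (↑S : Set ℕ) →+* 𝒪)
    (h : Fermat.Agent.S35.DetQ.LevelQStatement p N S 𝒪 χ) (q : ℕ) (hq : specPrime N p q) :
    LevelQAt p N S 𝒪 χ q := by
  obtain ⟨cst, hcst, hlev⟩ := h
  refine ⟨cst q, hcst q hq, fun n => ?_⟩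
  obtain ⟨Lv, hLv⟩ := hlev n
  exact ⟨Lv, hLv q hq⟩

/-- **[DetQ] from per-prime level families.**  A base level family (as produced by S30) and, for
every special prime `q`, a level family with `FrobQ` at `q` give `DetQ.DetQStatement`. -/
theorem detQStatement_of_levelQAt (hFD : Fermat.Agent.S29.FDStatement)
    (p : ℕ) [Fact p.Prime] (N : ℕ) [NeZero N] (S : Finset ℕ) (hpS : p ∈ S)
    (hNS : ∀ q : ℕ, q.Prime → q ∣ N → q ∈ S)
    (𝒪 : Type) [CommRing 𝒪] [IsDomain 𝒪] [IsDiscreteValuationRing 𝒪]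
    [IsAdicComplete (IsLocalRing.maximalIdeal 𝒪) 𝒪] [CharZero 𝒪]
    (hp𝒪 : (p : 𝒪) ∈ IsLocalRing.maximalIdeal 𝒪)
    (χ : CuspForm.heckeAlgebra N 2 (↑S : Set ℕ) →+* 𝒪)
    (hbase : ∀ n : ℕ, Nonempty (Level 𝒪 p n (goodPrime N (↑S : Set ℕ))
      (heckeEig N (↑S : Set ℕ) χ) (unrPrime N p)))
    (hLev : ∀ q : ℕ, specPrime N p q → LevelQAt p N S 𝒪 χ q) :
    DetQStatement p N S 𝒪 χ := by
  have hp : p.Prime := Fact.out
  have hp0 : (p : 𝒪) ≠ 0 := Nat.cast_ne_zero.mpr hp.ne_zero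
  have hsep : ∀ a : 𝒪, (∀ n : ℕ, (p : 𝒪) ^ n ∣ a) → a = 0 :=
    fun a h => Fermat.Agent.S30.LimCore.sep_of_dvr hp𝒪 a h
  have hcompl : ∀ f : ℕ → 𝒪, (∀ n, (p : 𝒪) ^ n ∣ f (n + 1) - f n) →
      ∃ L : 𝒪, ∀ n, (p : 𝒪) ^ n ∣ f n - L :=
    fun f h => Fermat.Agent.S30.LimCore.compl_of_dvr hp𝒪 hp0 f h
  obtain ⟨d, hd⟩ :=
    Fermat.Agent.S30.CycInf.exists_cyclotomic (p := p) (𝒪 := 𝒪) hp.ne_zero hsep hcompl
  have hS : ∀ ℓ : ℕ, ℓ.Prime → ℓ ∉ S → goodPrime N (↑S : Set ℕ) ℓ := by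
    intro ℓ hℓ hℓS
    exact ⟨hℓ, fun hℓN => hℓS (hNS ℓ hℓ hℓN), fun h => hℓS (Finset.mem_coe.mp h)⟩
  have hcycL : ∀ n : ℕ, ∃ L : IntermediateField ℚ Qb, FiniteDimensional ℚ L ∧
      ∀ σ : GQ, (∀ x ∈ L, σ x = x) → ∀ ζ : Qb, ζ ^ (p ^ n) = 1 → σ ζ = ζ := by
    intro n
    obtain ⟨L, hL, h, -⟩ := Fermat.Agent.S30.CycInf.exists_level (p := p) hp.ne_zero n
    exact ⟨L, hL, h⟩
  have hcycF : ∀ ℓ : ℕ, goodPrime N (↑S : Set ℕ) ℓ → ∀ A : ValuationSubring Qb,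
      A.LiesOverPrime ℓ → ∀ σ : GQ, A.IsFrobeniusAt σ ℓ → ∀ (n : ℕ) (ζ : Qb),
      ζ ^ (p ^ n) = 1 → σ ζ = ζ ^ ℓ := by
    intro ℓ hℓ A hA σ hσ n ζ hζ
    have hℓp : ℓ ≠ p := fun h => hℓ.2.2 (Finset.mem_coe.mpr (h ▸ hpS))
    exact Fermat.Agent.S30.CycN.frobenius_apply_of_pow_eq_one (pow_ne_zero n hp.ne_zero) hℓ.1
      (Fermat.Agent.S30.CycN.not_dvd_prime_pow hℓ.1 hp hℓp n) A hA σ hσ ζ hζ
  have hcycI : ∀ q : ℕ, unrPrime N p q → ∀ P : ValuationSubring Qb, P.LiesOverPrime q →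
      ∀ τ ∈ P.inertiaSubgroupIn ℚ, ∀ (n : ℕ) (ζ : Qb), ζ ^ (p ^ n) = 1 → τ ζ = ζ := by
    intro q hq P hP τ hτ n ζ hζ
    exact Fermat.Agent.S30.CycN.inertia_apply_of_pow_eq_one (pow_ne_zero n hp.ne_zero) hq.1
      (Fermat.Agent.S30.CycN.not_dvd_prime_pow hq.1 hp hq.2.2 n) P hP τ hτ ζ hζ
  -- the base pseudo-character
  obtain ⟨t, h1, h2, h3, hP2, hP3a, -, ⟨c, hc, htc, hdc⟩, -⟩ :=
    Fermat.Agent.S35.PseudoQ.exists_pseudoQ p hp.ne_zero hsep hcompl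
      (goodPrime N (↑S : Set ℕ)) (heckeEig N (↑S : Set ℕ) χ) (unrPrime N p) S hS hFD d
      (fun g n k hk => hd g n k hk) hcycL hcycF hcycI (fun _ => False)
      (fun _ hq => hq.elim) (fun _ => 1) (fun _ hq => hq.elim)
      (fun _ hq => hq.elim) (fun n => ⟨(hbase n).some, fun _ hq => hq.elim⟩)
  refine ⟨t, d, ⟨h1, h2, h3⟩, ⟨c, hc, htc, hdc⟩, hP2, ?_, ?_⟩
  · intro ℓ hℓ hℓN hℓS A hA σ hσ
    have h := hP3a ℓ ⟨hℓ, hℓN, hℓS⟩ A hA σ hσ
    rw [heckeEig_eq N (↑S : Set ℕ) χ hℓ hℓN hℓS] at h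
    exact h
  · -- the special primes, one at a time
    intro q hq A hA σ hσ
    obtain ⟨cq, hcq, hlevq⟩ := hLev q hq
    obtain ⟨t', h1', h2', h3', hP2', hP3a', -, -, hQ'⟩ :=
      Fermat.Agent.S35.PseudoQ.exists_pseudoQ p hp.ne_zero hsep hcompl
        (goodPrime N (↑S : Set ℕ)) (heckeEig N (↑S : Set ℕ) χ) (unrPrime N p) S hS hFD d
        (fun g n k hk => hd g n k hk) hcycL hcycF hcycI (fun q' => q' = q)
        (fun q' hq' => by
          rw [hq']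
          exact Nat.cast_ne_zero.mpr hq.1.ne_zero)
        (fun _ => cq) (fun _ _ => hcq)
        (fun q' hq' A' hA' σ' hσ' n ζ hζ => by
          subst hq'
          exact Fermat.Agent.S30.CycN.frobenius_apply_of_pow_eq_one (pow_ne_zero n hp.ne_zero)
            hq.1 (Fermat.Agent.S30.CycN.not_dvd_prime_pow hq.1 hp hq.2.1 n) A' hA' σ' hσ' ζ hζ)
        (fun n => by
          obtain ⟨Lv, hLv⟩ := hlevq n
          exact ⟨Lv, fun q' hq' => by
            subst hq'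
            exact hLv⟩)
    have ht : t = t' :=
      pseudo_unique p hsep hFD S (goodPrime N (↑S : Set ℕ)) hS t t' d h1 h2 h3 hP2 h1' h2' h3'
        hP2' (fun ℓ hℓ A' hA' σ' hσ' => by
          rw [(hP3a ℓ hℓ A' hA' σ' hσ').1, (hP3a' ℓ hℓ A' hA' σ' hσ').1])
    rw [ht]
    exact hQ' q rfl A hA σ hσ

/-- **S35 from per-prime level families**: the frozen conclusion of S35 for a ring hom
`χ : 𝕋 → 𝒪'`, from [OddRep], [FD], a base level family and `LevelQAt` at every special prime. -/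
theorem result_of_levelQAt (hodd : OddRepStatement) (hFD : Fermat.Agent.S29.FDStatement)
    {M : ℕ} [NeZero M] (lam : ℕ) [Fact lam.Prime] (S : Finset ℕ)
    (O' : Type) [CommRing O'] [IsDomain O'] [IsDiscreteValuationRing O']
    [IsAdicComplete (IsLocalRing.maximalIdeal O') O'] [Finite (IsLocalRing.ResidueField O')]
    [CharZero O'] (hlamO' : (lam : O') ∈ IsLocalRing.maximalIdeal O')
    (χ : CuspForm.heckeAlgebra M 2 (↑S : Set ℕ) →+* O')
    (hlamS : lam ∈ S) (hMS : ∀ q : ℕ, q.Prime → q ∣ M → q ∈ S)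
    (hbase : ∀ n : ℕ, Nonempty (Level O' lam n (goodPrime M (↑S : Set ℕ))
      (heckeEig M (↑S : Set ℕ) χ) (unrPrime M lam)))
    (hLev : ∀ q : ℕ, specPrime M lam q → LevelQAt lam M S O' χ q) :
    ∃ (O'' : Type) (_ : CommRing O'') (_ : IsDomain O'') (_ : IsDiscreteValuationRing O'')
      (_ : IsAdicComplete (IsLocalRing.maximalIdeal O'') O'')
      (_ : Finite (IsLocalRing.ResidueField O'')) (_ : CharZero O'')
      (_ : Algebra O' O'') (_ : Module.Finite O' O'') (_ : IsLocalHom (algebraMap O' O'')),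
      Function.Injective (algebraMap O' O'') ∧
      ∃ ρ : GaloisRepAdic O'',
        (∀ (ℓ : ℕ) (hℓ : ℓ.Prime) (hℓM : ¬ ℓ ∣ M) (hℓS : ℓ ∉ (↑S : Set ℕ)),
          ∀ A : ValuationSubring (AlgebraicClosure ℚ), A.LiesOverPrime ℓ →
            ∀ σ : AlgebraicClosure ℚ ≃ₐ[ℚ] AlgebraicClosure ℚ, A.IsFrobeniusAt σ ℓ →
              LinearMap.charpoly (ρ.ρ σ) =
                X ^ 2 - C (algebraMap O' O'' (χ (CuspForm.heckeAlgebra.T hℓ hℓM hℓS))) * X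
                  + C ((ℓ : O''))) ∧
        (∀ q : ℕ, q.Prime → q ≠ lam → q ∣ M → ¬ q ^ 2 ∣ M →
          ∀ A : ValuationSubring (AlgebraicClosure ℚ), A.LiesOverPrime q →
            ∀ σ : AlgebraicClosure ℚ ≃ₐ[ℚ] AlgebraicClosure ℚ, A.IsFrobeniusAt σ q →
              LinearMap.charpoly (ρ.ρ σ) = X ^ 2 - C ((q : O'') + 1) * X + C ((q : O'')) ∨
              LinearMap.charpoly (ρ.ρ σ) = X ^ 2 + C ((q : O'') + 1) * X + C ((q : O''))) :=
  Fermat.Agent.S35.DetQ.result_of_detQ_oddRep hodd lam S O' hlamO' χ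
    (detQStatement_of_levelQAt hFD lam M S hlamS hMS O' hlamO' χ hbase hLev)

end Fermat.Agent.S35.DetQU
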