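import Mathlib
import Fermat.Agent.S35.ETop
import Fermat.Agent.S35.GNormCorr

/-!
# S35, block [E] CLOSED: `NewPlan.FrobNewStatement`

`ETop.frobNewStatement_of_corr` (helper5) with its single hypothesis, the corrector statement,
discharged by `GNormCorr.corrStatement`.
-/

set_option autoImplicit false

namespace Fermat.Agent.S35.EClosed

/-- **Block [E], divisor form, CLOSED.** -/
theorem frobDivStatement (M q m : ℕ) [NeZero M] [NeZero q] [NeZero (M * q)]
    (hq : q.Prime) (hqM : ¬ q ∣ M) (hqm : ¬ q ∣ m) : FCorePlan.FrobDivStatement M q m :=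
  ETop.frobDivStatement_of_corr M q m hq hqM hqm
    (GNormCorr.corrStatement M q hq hqM m (fun h0 => hqm (h0 ▸ dvd_zero q)))

/-- **Block [E], the (E-out) of record, CLOSED**: `(σ² - q²)(σ² - 1)² = 0` on the `q`-new
torsion, with no hypothesis. -/
theorem frobNewStatement : NewPlan.FrobNewStatement :=
  ETop.frobNewStatement_of_corr fun M q m _ _ hq hqM hqm =>
    GNormCorr.corrStatement M q hq hqM m (fun h0 => hqm (h0 ▸ dvd_zero q))

end Fermat.Agent.S35.EClosed
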