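/-
S35, block [C] CLOSED (owner: helper97) — newness at the lattice level, no open hypothesis.

[C1] (`S35/NewPer.lean`, helper27: the two transfers of the period class of an eigenform which is
new at `q` vanish) plugged into [C2] (`S35/NewVecB.lean`, `S35/NewVecTop.lean`):

* `newVecStatement`      : `NewPlan.NewVecStatement` (helper39's interface);
* `exists_newCoord_all`  : ONE primitive eigen-coordinate vector `x` for a newform `g` of level
                           `N`, satisfying the transfer constraints of EVERY factorisation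
                           `N = M' * q` (`q` prime, `q ∤ M'`);
* `exists_newVec_all`    : the tensor form `e ∈ 𝒪 ⊗ Lpar N` (primitive, eigen, in the `𝒪`-span of
                           the `1 ⊗ c`, `tr₁ c = tr₂ c = 0`, for every factorisation);
* `exists_newVec_isNewAt`: the tensor form with the simultaneous span `NewPlan.IsNewAt`.
-/
import Mathlib
import Fermat.Agent.S35.NewVecB
import Fermat.Agent.S35.NewVecTop
import Fermat.Agent.S35.NewPer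

set_option autoImplicit false

open CongruenceSubgroup ModularCurve ModularCurve.Period
open scoped MatrixGroups TensorProduct

namespace Fermat.Agent.S35.NewVecClosed

open Fermat.Agent.S41 (Lpar tr₁ tr₂)
open Fermat.Agent.S29 (heckeLpar)
open Fermat.Agent.S35.NewVecB (castHom)

/-- **[C] of record, closed**: `NewPlan.NewVecStatement`. -/
theorem newVecStatement : Fermat.Agent.S35.NewPlan.NewVecStatement :=
  Fermat.Agent.S35.NewVecTop.newVecStatement_of_newPer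
    (fun M q _ _ hqM _ g hg hnew =>
      Fermat.Agent.S35.NewPer.tr_periodHomPair_eq_zero M q hqM g hg hnew)

variable (N : ℕ) [NeZero N] (S : Set ℕ)

/-- **(C-out), coordinates, closed.**  ONE primitive eigen-coordinate vector for all `q ∥ N`. -/
theorem exists_newCoord_all (g : CuspForm (Gamma0 N) 2) (hg : g.IsNewform)
    (chig : CuspForm.heckeAlgebra N 2 S →+* ℂ)
    (hchig : ∀ (ℓ : ℕ) (hℓ : ℓ.Prime) (hℓN : ¬ ℓ ∣ N) (hℓS : ℓ ∉ S),
      chig (CuspForm.heckeAlgebra.T hℓ hℓN hℓS) = ModularFormClass.qCoeff g ℓ)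
    {𝒪 : Type*} [CommRing 𝒪] [IsDomain 𝒪] [ValuationRing 𝒪]
    (iota : chig.range →+* 𝒪) {r : ℕ} (b : Module.Basis (Fin r) ℤ (Lpar N)) :
    ∃ x : Fin r → 𝒪, (∃ i, x i = 1) ∧
      (∀ (ℓ : ℕ) (hℓ : ℓ.Prime) (hℓN : ¬ ℓ ∣ N) (hℓS : ℓ ∉ S) (m : Fin r),
        ∑ n, ((b.repr (heckeLpar N ℓ hℓ hℓN (b n)) m : ℤ) : 𝒪) * x n
          = (iota.comp chig.rangeRestrict) (CuspForm.heckeAlgebra.T hℓ hℓN hℓS) * x m) ∧
      ∀ (M' q : ℕ) (h : N = M' * q), q.Prime → ¬ q ∣ M' →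
        (∀ γ : Gamma0 M',
          ∑ n, x n * ((tr₁ M' q (castHom h (b n).1) (Additive.ofMul γ) : ℤ) : 𝒪) = 0) ∧
        ∀ γ : Gamma0 M',
          ∑ n, x n * ((tr₂ M' q (castHom h (b n).1) (Additive.ofMul γ) : ℤ) : 𝒪) = 0 :=
  Fermat.Agent.S35.NewVecB.exists_newCoord_all N S g hg
    (fun M q _ _ hqM _ g hg hnew =>
      Fermat.Agent.S35.NewPer.tr_periodHomPair_eq_zero M q hqM g hg hnew)
    chig hchig iota b

/-- **(C-out), tensor form, closed.**  ONE primitive eigenvector `e ∈ 𝒪 ⊗ Lpar N` lying, for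
every factorisation `N = M' * q`, in the `𝒪`-span of the `1 ⊗ c` with `tr₁ c = tr₂ c = 0`. -/
theorem exists_newVec_all (g : CuspForm (Gamma0 N) 2) (hg : g.IsNewform)
    (chig : CuspForm.heckeAlgebra N 2 S →+* ℂ)
    (hchig : ∀ (ℓ : ℕ) (hℓ : ℓ.Prime) (hℓN : ¬ ℓ ∣ N) (hℓS : ℓ ∉ S),
      chig (CuspForm.heckeAlgebra.T hℓ hℓN hℓS) = ModularFormClass.qCoeff g ℓ)
    {𝒪 : Type*} [CommRing 𝒪] [IsDomain 𝒪] [ValuationRing 𝒪] [CharZero 𝒪]
    (iota : chig.range →+* 𝒪) :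
    ∃ e : 𝒪 ⊗[ℤ] (Lpar N),
      (∀ (a c : 𝒪) (e' : 𝒪 ⊗[ℤ] (Lpar N)), a • e = c • e' → c ∣ a) ∧
      (∀ (ℓ : ℕ) (hℓ : ℓ.Prime) (hℓN : ¬ ℓ ∣ N) (hℓS : ℓ ∉ S),
        (heckeLpar N ℓ hℓ hℓN).baseChange 𝒪 e
          = (iota.comp chig.rangeRestrict) (CuspForm.heckeAlgebra.T hℓ hℓN hℓS) • e) ∧
      ∀ (M' q : ℕ) (h : N = M' * q), q.Prime → ¬ q ∣ M' →
        e ∈ Submodule.span 𝒪 {z | ∃ c : Lpar N, tr₁ M' q (castHom h c.1) = 0 ∧
          tr₂ M' q (castHom h c.1) = 0 ∧ z = (1 : 𝒪) ⊗ₜ[ℤ] c} :=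
  Fermat.Agent.S35.NewVecB.exists_newVec_all N S g hg
    (fun M q _ _ hqM _ g hg hnew =>
      Fermat.Agent.S35.NewPer.tr_periodHomPair_eq_zero M q hqM g hg hnew)
    chig hchig iota

/-- **(C-out), tensor form with the simultaneous span.**  ONE primitive eigenvector
`e ∈ 𝒪 ⊗ Lpar N` in the `𝒪`-span of the `1 ⊗ c`, `c` NEW (`NewPlan.IsNewAt N c`). -/
theorem exists_newVec_isNewAt (g : CuspForm (Gamma0 N) 2) (hg : g.IsNewform)
    (chig : CuspForm.heckeAlgebra N 2 S →+* ℂ)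
    (hchig : ∀ (ℓ : ℕ) (hℓ : ℓ.Prime) (hℓN : ¬ ℓ ∣ N) (hℓS : ℓ ∉ S),
      chig (CuspForm.heckeAlgebra.T hℓ hℓN hℓS) = ModularFormClass.qCoeff g ℓ)
    (𝒪 : Type) [CommRing 𝒪] [IsDomain 𝒪] [ValuationRing 𝒪] [CharZero 𝒪]
    (iota : chig.range →+* 𝒪) :
    ∃ e : 𝒪 ⊗[ℤ] (Lpar N),
      (∀ (a c : 𝒪) (e' : 𝒪 ⊗[ℤ] (Lpar N)), a • e = c • e' → c ∣ a) ∧
      (∀ (ℓ : ℕ) (hℓ : ℓ.Prime) (hℓN : ¬ ℓ ∣ N) (hℓS : ℓ ∉ S),
        (heckeLpar N ℓ hℓ hℓN).baseChange 𝒪 e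
          = (iota.comp chig.rangeRestrict) (CuspForm.heckeAlgebra.T hℓ hℓN hℓS) • e) ∧
      e ∈ Submodule.span 𝒪 {z : 𝒪 ⊗[ℤ] (Lpar N) |
        ∃ c : Lpar N, Fermat.Agent.S35.NewPlan.IsNewAt N c ∧ z = 1 ⊗ₜ[ℤ] c} := by
  classical
  have hfin : Module.Finite ℤ (Lpar N) := Fermat.Agent.S41.LparFree.lpar_finite N
  have hfree : Module.Free ℤ (Lpar N) := Fermat.Agent.S41.LparFree.lpar_free N
  set b := Module.finBasis ℤ (Lpar N) with hb
  obtain ⟨x, ⟨i, hxi⟩, hx, hspan⟩ := newVecStatement N g hg S chig hchig 𝒪 iota b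
  refine ⟨∑ n, x n ⊗ₜ[ℤ] (b n), ?_, ?_, hspan⟩
  · intro a c e' h
    have h1 : (∑ n, x n ⊗ₜ[ℤ] (b n) : 𝒪 ⊗[ℤ] (Lpar N))
        = ∑ n, x n • (Algebra.TensorProduct.basis 𝒪 b) n := by
      refine Finset.sum_congr rfl fun n _ => ?_
      rw [Algebra.TensorProduct.basis_apply, TensorProduct.smul_tmul', smul_eq_mul, mul_one]
    have h2 := congrArg (fun z => (Algebra.TensorProduct.basis 𝒪 b).repr z i) h
    simp only [h1, map_smul, Module.Basis.repr_sum_self, Finsupp.smul_apply, smul_eq_mul, hxi,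
      mul_one] at h2
    exact ⟨_, h2⟩
  · intro ℓ hℓ hℓN hℓS
    exact Fermat.Agent.S29.EigB.baseChange_sum_tmul (k := 𝒪) (AddMonoidHom.id (Lpar N)) b x
      (heckeLpar N ℓ hℓ hℓN) (heckeLpar N ℓ hℓ hℓN) (fun u => rfl)
      (Matrix.of fun i j => b.repr (heckeLpar N ℓ hℓ hℓN (b i)) j)
      (fun i => (b.sum_repr _).symm)
      ((iota.comp chig.rangeRestrict) (CuspForm.heckeAlgebra.T hℓ hℓN hℓS))
      (fun j => by
        rw [← hx ℓ hℓ hℓN hℓS j]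
        refine Finset.sum_congr rfl fun i _ => ?_
        rw [mul_comm]
        rfl)

end Fermat.Agent.S35.NewVecClosed
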