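/-
S35 — PushZero.lean (helper20).  The CONVERSE of the norm criterion of `S35/PushPic.lean`
(helper30), i.e. the `J`-side half of the bridge [D] / [KPlus] of the S35 blueprint (board #2585):

  if `x = [D]`, `m D = div f` (`m ≠ 0`) and `Nm f = c · h ^ m` with `c ≠ 0` a constant and
  `h ≠ 0`, then `φ_* x = 0`.

Generic part for `φ : F →ₐ[K] F'` (binders of `PushPic`), then the modular instances for
`α_* = PushPic.alphaPush M q`, `β_* = PushPic.betaPush M q` and membership in
`PushPic.newKer M q = ker α_* ⊓ ker β_*`.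
-/
import Mathlib
import Fermat.Agent.S35.PushPic

set_option autoImplicit false
set_option linter.style.haveILetI false

open AlgebraicCurve ModularCurve

namespace Fermat.Agent.S35.PushZero

open Fermat.Agent.S35.PushPic

noncomputable section

/-! ### Generic part -/

section Generic

variable {K F F' : Type*} [Field K] [Field F] [Field F'] [Algebra K F] [Algebra K F']
variable (φ : F →ₐ[K] F') (hφ : φ.toRingHom.IsIntegral)
variable (hfin : FiniteAlong K φ) (hN : NormFormulaAlong K φ hfin)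

include hN in
/-- The push-forward of a divisor `D` with `m D = div f` (`m ≠ 0`) whose norm is
`Nm f = c · h ^ m` is the divisor of `h`. -/
theorem pushforwardAlong_eq_ord_of_norm_eq {m : ℕ} (hm : m ≠ 0)
    (D : Divisor K F') (f : F') (hf : f ≠ 0)
    (hD : ∀ w : Place K F', (m : ℤ) * D w = w.ord f)
    (h : F) (c : K) (hh : h ≠ 0) (hc : c ≠ 0)
    (hnorm : normAlong φ f = algebraMap K F c * h ^ m) (v : Place K F) :
    Divisor.pushforwardAlong φ hφ D v = v.ord h := by
  have hE : ∀ w : Place K F', ((m : ℤ) • D) w = w.ord f := by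
    intro w
    rw [Finsupp.smul_apply, smul_eq_mul]
    exact hD w
  have h1 := pushforwardAlong_eq_ord_normAlong φ hφ hfin hN hf hE v
  have hc' : algebraMap K F c ≠ 0 := by
    rw [Ne, map_eq_zero]
    exact hc
  rw [map_zsmul, Finsupp.smul_apply, smul_eq_mul, hnorm, v.ord_mul hc' (pow_ne_zero m hh),
    Fermat.Agent.S24.ord_algebraMap, Fermat.Agent.S24.ord_pow, zero_add] at h1
  have hm' : (m : ℤ) ≠ 0 := by exact_mod_cast hm
  exact mul_left_cancel₀ hm' h1

/-- **`Nm f = c · h ^ m ⇒ φ_* x = 0`** for a Kummer generator `f` of `x` (`x = [D]`,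
`m D = div f`, `m ≠ 0`): the converse of `PushPic.exists_norm_eq_of_pushPic0_eq_zero`. -/
theorem pushPic0_eq_zero_of_norm_eq {m : ℕ} (hm : m ≠ 0)
    (D : Divisor.degZero (K := K) (F := F')) (f : F') (hf : f ≠ 0)
    (hD : ∀ w : Place K F', (m : ℤ) * (D : Divisor K F') w = w.ord f)
    (h : F) (c : K) (hh : h ≠ 0) (hc : c ≠ 0)
    (hnorm : normAlong φ f = algebraMap K F c * h ^ m) :
    pushPic0 φ hφ hfin hN (Pic0.mk D) = 0 := by
  rw [pushPic0_mk]
  refine (QuotientAddGroup.eq_zero_iff _).mpr ?_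
  rw [AddSubgroup.mem_addSubgroupOf]
  refine ⟨h, hh, fun v => ?_⟩
  rw [coe_degZeroPush]
  exact pushforwardAlong_eq_ord_of_norm_eq φ hφ hfin hN hm _ f hf hD h c hh hc hnorm v

end Generic

/-! ### The modular instance -/

section Modular

set_option synthInstance.maxHeartbeats 400000

/-- `ℚ̄`. -/
local notation "Qb" => AlgebraicClosure ℚ

variable (M q : ℕ) [NeZero M] [NeZero q]

/-- **`Nm_α f = c · h ^ m ⇒ α_* x = 0`** for a Kummer generator `f` of `x`. -/
theorem alphaPush_eq_zero_of_norm_eq {m : ℕ} (hm : m ≠ 0)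
    (D : Divisor.degZero (K := Qb) (F := modularFunctionFieldBar (M * q)))
    (f : modularFunctionFieldBar (M * q)) (hf : f ≠ 0)
    (hD : ∀ w : Place Qb (modularFunctionFieldBar (M * q)),
      (m : ℤ) * (D : Divisor Qb (modularFunctionFieldBar (M * q))) w = w.ord f)
    (h : modularFunctionFieldBar M) (c : Qb) (hh : h ≠ 0) (hc : c ≠ 0)
    (hnorm : alphaNorm M q f = algebraMap Qb (modularFunctionFieldBar M) c * h ^ m) :
    alphaPush M q (Pic0.mk D) = 0 :=
  pushPic0_eq_zero_of_norm_eq (heckeAlphaBar Qb M q) (alpha_isIntegral M q)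
    (alpha_finiteAlong M q) (alpha_normFormulaAlong M q) hm D f hf hD h c hh hc hnorm

/-- **`Nm_β f = c · h ^ m ⇒ β_* x = 0`** for a Kummer generator `f` of `x`. -/
theorem betaPush_eq_zero_of_norm_eq {m : ℕ} (hm : m ≠ 0)
    (D : Divisor.degZero (K := Qb) (F := modularFunctionFieldBar (M * q)))
    (f : modularFunctionFieldBar (M * q)) (hf : f ≠ 0)
    (hD : ∀ w : Place Qb (modularFunctionFieldBar (M * q)),
      (m : ℤ) * (D : Divisor Qb (modularFunctionFieldBar (M * q))) w = w.ord f)
    (h : modularFunctionFieldBar M) (c : Qb) (hh : h ≠ 0) (hc : c ≠ 0)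
    (hnorm : betaNorm M q f = algebraMap Qb (modularFunctionFieldBar M) c * h ^ m) :
    betaPush M q (Pic0.mk D) = 0 :=
  pushPic0_eq_zero_of_norm_eq (heckeBetaBar Qb M q) (beta_isIntegral M q)
    (beta_finiteAlong M q) (beta_normFormulaAlong M q) hm D f hf hD h c hh hc hnorm

/-- A class with a Kummer generator both of whose norms are `constant · m-th power` is `q`-new. -/
theorem mem_newKer_of_norms {m : ℕ} (hm : m ≠ 0)
    (D : Divisor.degZero (K := Qb) (F := modularFunctionFieldBar (M * q)))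
    (f : modularFunctionFieldBar (M * q)) (hf : f ≠ 0)
    (hD : ∀ w : Place Qb (modularFunctionFieldBar (M * q)),
      (m : ℤ) * (D : Divisor Qb (modularFunctionFieldBar (M * q))) w = w.ord f)
    (hα : ∃ (h : modularFunctionFieldBar M) (c : Qb), h ≠ 0 ∧ c ≠ 0 ∧
      alphaNorm M q f = algebraMap Qb (modularFunctionFieldBar M) c * h ^ m)
    (hβ : ∃ (h : modularFunctionFieldBar M) (c : Qb), h ≠ 0 ∧ c ≠ 0 ∧
      betaNorm M q f = algebraMap Qb (modularFunctionFieldBar M) c * h ^ m) :
    Pic0.mk D ∈ newKer M q := by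
  rw [mem_newKer]
  obtain ⟨h, c, hh, hc, hn⟩ := hα
  obtain ⟨h', c', hh', hc', hn'⟩ := hβ
  exact ⟨alphaPush_eq_zero_of_norm_eq M q hm D f hf hD h c hh hc hn,
    betaPush_eq_zero_of_norm_eq M q hm D f hf hD h' c' hh' hc' hn'⟩

end Modular

end

end Fermat.Agent.S35.PushZero
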