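/-
S35, block [B], producer half — VecQ.lean (helper39).

The vector `v = (1 ⊗ θ_n) e ∈ 𝒪 ⊗ J₀(N)[pⁿ]` of the S35 level datum, with the three properties
the level construction needs:

* (ann)   its annihilator is contained in `pⁿ 𝒪`;
* (eigen) it is an eigenvector of all `T_ℓ` (`ℓ ∤ N`, `ℓ ∉ S`) with eigenvalues `χ (T_ℓ)`,
          `χ = iota ∘ chig`;
* (new)   for EVERY special prime `q` (`q ∥ N`, `q ≠ p`) it lies in the `𝒪`-span of the pure
          tensors `1 ⊗ k`, `k ∈ J₀(N)[pⁿ]` killed by `(σ² - q²)(σ² - 1)²` for every Frobenius lift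
          `σ` at `q`.

Inputs: block [C] closed (`NewVecClosed.newVecStatement`: a primitive eigenvector in the span of
the classes killed by all transfers), the graph-keeping `θ` of block [K] (`KGraph`), and — as
HYPOTHESES, in the shapes of record — the bridge [D] (`KTrPlan.KTrStatement`, all levels `M * q`)
and the geometric block [E] (`FCorePlan.FrobTorsStatement`).  The factorisation `N = M * q` is
eliminated by `subst` inside `frobKilled_theta`.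
-/
import Mathlib
import Fermat.Agent.S30.LevelGlue
import Fermat.Agent.S35.NewPlan
import Fermat.Agent.S35.NewVecClosed
import Fermat.Agent.S35.KGraph
import Fermat.Agent.S35.KTrPlan
import Fermat.Agent.S35.PushZero
import Fermat.Agent.S35.FCorePlan
import Fermat.Agent.S35.DetQ

set_option autoImplicit false

noncomputable section

open ModularCurve AlgebraicCurve CongruenceSubgroup
open scoped TensorProduct

namespace Fermat.Agent.S35.VecQ

open Fermat.Agent.S29 (Qb GQ Jp galJp heckeJp mem_Jp_iff heckeLpar)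
open Fermat.Agent.S41 (Lpar tr₁ tr₂)
open Fermat.Agent.S30

/-- `(τ - q²)(τ - 1)² x`, `τ = σ²`, in the expanded form of `FCorePlan.FrobTorsStatement`. -/
def frobExpr {N : ℕ} (q : ℕ) (σ : GQ) (x : JZero N) : JZero N :=
  (σ * σ) • ((σ * σ) • (σ * σ) • x + x - ((σ * σ) • x + (σ * σ) • x)) -
    (q ^ 2) • ((σ * σ) • (σ * σ) • x + x - ((σ * σ) • x + (σ * σ) • x))

/-- `x` is killed by `(σ² - q²)(σ² - 1)²` for every Frobenius lift `σ` at `q`. -/
def FrobKilled (N q : ℕ) (x : JZero N) : Prop :=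
  ∀ A : ValuationSubring Qb, A.LiesOverPrime q → ∀ σ : GQ, A.IsFrobeniusAt σ q →
    frobExpr q σ x = 0

/-- **[D] + [E] at one level `M * q`**: for a graph-keeping `θ` of torsion order `m`, a class
`c` killed by both transfers has `θ c` killed by the Frobenius polynomial. -/
theorem frobKilled_of_tr {M q m : ℕ} [NeZero M] [NeZero q] (hm : m ≠ 0)
    (hK : KTrPlan.KTrStatement M q m) (hE : FCorePlan.FrobTorsStatement M q m)
    (θ : Lpar (M * q) →+ JZero (M * q)) (hθ1 : ∀ u : Lpar (M * q), m • θ u = 0)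
    (hθ4 : ∀ (u : Lpar (M * q)) (y : LaurentSeries Qb),
      Fermat.Agent.S29.KPlan.Wit (M * q) m (u : Additive (Gamma0 (M * q)) →+ ℤ) y →
      ∀ f : ↥(modularFunctionFieldBar (M * q)), (f : LaurentSeries Qb) = y ^ m →
        ∃ D : Divisor.degZero (K := Qb) (F := ↥(modularFunctionFieldBar (M * q))),
          (∀ P : Place Qb ↥(modularFunctionFieldBar (M * q)),
            (m : ℤ) * (D : Divisor Qb ↥(modularFunctionFieldBar (M * q))) P = P.ord f) ∧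
          θ u = Pic0.mk D)
    (c : Lpar (M * q))
    (h1 : tr₁ M q (c : Additive (Gamma0 (M * q)) →+ ℤ) = 0)
    (h2 : tr₂ M q (c : Additive (Gamma0 (M * q)) →+ ℤ) = 0) :
    FrobKilled (M * q) q (θ c) := by
  obtain ⟨y, f, hy, hf, hf0⟩ := KGraph.exists_wit (M * q) m hm c
  obtain ⟨D, hD, hθ⟩ := hθ4 c y hy f hf
  obtain ⟨ha, hb⟩ := hK c y hy f hf
  have hnew : (Pic0.mk D : JZero (M * q)) ∈ PushPic.newKer M q :=
    PushZero.mem_newKer_of_norms M q hm D f hf0 hD (ha h1) (hb h2)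
  intro A hA σ hσ
  have h := hE A hA σ hσ (θ c) (hθ1 c) (by rw [hθ]; exact hnew)
  exact h

/-- **The same at a level `N` with a special prime `q`** (`N = M * q` eliminated by `subst`). -/
theorem frobKilled_theta {N p n : ℕ} [NeZero N] (hp : p.Prime)
    (hK : ∀ (M q : ℕ) [NeZero M] [NeZero q], q.Prime → ¬ q ∣ M → q ≠ p →
      KTrPlan.KTrStatement M q (p ^ n))
    (hE : ∀ (M q : ℕ) [NeZero M] [NeZero q] [NeZero (M * q)], q.Prime → ¬ q ∣ M → q ≠ p →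
      FCorePlan.FrobTorsStatement M q (p ^ n))
    (θ : Lpar N →+ JZero N) (hθ1 : ∀ u : Lpar N, p ^ n • θ u = 0)
    (hθ4 : ∀ (u : Lpar N) (y : LaurentSeries Qb),
      Fermat.Agent.S29.KPlan.Wit N (p ^ n) (u : Additive (Gamma0 N) →+ ℤ) y →
      ∀ f : ↥(modularFunctionFieldBar N), (f : LaurentSeries Qb) = y ^ (p ^ n) →
        ∃ D : Divisor.degZero (K := Qb) (F := ↥(modularFunctionFieldBar N)),
          (∀ P : Place Qb ↥(modularFunctionFieldBar N),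
            ((p ^ n : ℕ) : ℤ) * (D : Divisor Qb ↥(modularFunctionFieldBar N)) P = P.ord f) ∧
          θ u = Pic0.mk D)
    {q : ℕ} (hq : DetQ.specPrime N p q) (c : Lpar N) (hc : NewPlan.IsNewAt N c) :
    FrobKilled N q (θ c) := by
  obtain ⟨hqp, hqne, hqN, hq2⟩ := hq
  obtain ⟨M, hM⟩ := hqN
  have hN : N = M * q := by rw [hM, mul_comm]
  subst hN
  have hqM : ¬ q ∣ M := by
    rintro ⟨k, rfl⟩
    exact hq2 ⟨k, by ring⟩
  have hM0 : M ≠ 0 := fun h0 => NeZero.ne (M * q) (by rw [h0, zero_mul])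
  haveI : NeZero M := ⟨hM0⟩
  haveI : NeZero q := ⟨hqp.ne_zero⟩
  obtain ⟨h1, h2⟩ := hc.tr hqp hqM
  exact frobKilled_of_tr (pow_ne_zero n hp.ne_zero) (hK M q hqp hqM hqne) (hE M q hqp hqM hqne)
    θ hθ1 hθ4 c h1 h2

/-- **The vector of the S35 level datum** (hypothesis form over [D] and [E]). -/
theorem exists_vectorQ (N p : ℕ) [NeZero N] (hp : p.Prime) (S : Set ℕ) (hpS : p ∈ S)
    (g : CuspForm (Gamma0 N) 2) (hg : g.IsNewform)
    (chig : CuspForm.heckeAlgebra N 2 S →+* ℂ)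
    (hchig : ∀ (ℓ : ℕ) (hℓ : ℓ.Prime) (hℓN : ¬ ℓ ∣ N) (hℓS : ℓ ∉ S),
      chig (CuspForm.heckeAlgebra.T hℓ hℓN hℓS) = ModularFormClass.qCoeff g ℓ)
    {𝒪 : Type} [CommRing 𝒪] [IsDomain 𝒪] [ValuationRing 𝒪] [CharZero 𝒪]
    (iota : chig.range →+* 𝒪) (n : ℕ)
    (hK : ∀ (M q : ℕ) [NeZero M] [NeZero q], q.Prime → ¬ q ∣ M → q ≠ p →
      KTrPlan.KTrStatement M q (p ^ n))
    (hE : ∀ (M q : ℕ) [NeZero M] [NeZero q] [NeZero (M * q)], q.Prime → ¬ q ∣ M → q ≠ p →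
      FCorePlan.FrobTorsStatement M q (p ^ n)) :
    ∃ v : 𝒪 ⊗[ℤ] (Jp N (p ^ n)),
      (∀ a : 𝒪, a • v = 0 → (p : 𝒪) ^ n ∣ a) ∧
      (∀ (ℓ : ℕ) (hℓ : ℓ.Prime) (hℓN : ¬ ℓ ∣ N) (hℓS : ℓ ∉ S),
        (heckeJp N (p ^ n) ⟨ℓ, hℓ⟩).baseChange 𝒪 v
          = (iota.comp chig.rangeRestrict) (CuspForm.heckeAlgebra.T hℓ hℓN hℓS) • v) ∧
      ∀ q : ℕ, DetQ.specPrime N p q →
        v ∈ Submodule.span 𝒪 {z : 𝒪 ⊗[ℤ] (Jp N (p ^ n)) |
          ∃ k : Jp N (p ^ n), FrobKilled N q (k : JZero N) ∧ z = 1 ⊗ₜ[ℤ] k} := by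
  classical
  have hfin : Module.Finite ℤ (Lpar N) := Fermat.Agent.S41.LparFree.lpar_finite N
  have hfree : Module.Free ℤ (Lpar N) := Fermat.Agent.S41.LparFree.lpar_free N
  set b := Module.finBasis ℤ (Lpar N) with hb
  obtain ⟨x, hx1, hx, hxnew⟩ := NewVecClosed.newVecStatement N g hg S chig hchig 𝒪 iota b
  have hpn : p ^ n ≠ 0 := pow_ne_zero n hp.ne_zero
  obtain ⟨θ, hθ1, hθ2, hθ3, hθ4⟩ := KGraph.kGraphStatement N (p ^ n) hpn
  -- corestriction of `θ` to the `pⁿ`-torsion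
  let θ' : Lpar N →+ Jp N (p ^ n) :=
    { toFun := fun u => ⟨θ u, (mem_Jp_iff N (p ^ n) (θ u)).mpr (hθ1 u)⟩
      map_zero' := Subtype.ext (map_zero θ)
      map_add' := fun u v => Subtype.ext (map_add θ u v) }
  have hker : ∀ u, θ'.toIntLinearMap u = 0 → ∃ z, u = ((p ^ n : ℕ) : ℤ) • z := by
    intro u hu
    apply hθ2 u
    have h : ((θ' u : Jp N (p ^ n)) : JZero N) = 0 := congrArg Subtype.val hu
    exact h
  have hheck : ∀ (ℓ : ℕ) (hℓ : ℓ.Prime) (hℓN : ¬ ℓ ∣ N), ℓ ≠ p → ∀ u,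
      heckeJp N (p ^ n) ⟨ℓ, hℓ⟩ (θ' u) = θ' (heckeLpar N ℓ hℓ hℓN u) := by
    intro ℓ hℓ hℓN hℓp u
    apply Subtype.ext
    change heckeOperatorBar N ⟨ℓ, hℓ⟩ (θ u) = θ (heckeLpar N ℓ hℓ hℓN u)
    refine (hθ3 ℓ hℓ hℓN ?_ u).symm
    intro hℓpn
    rcases Nat.eq_zero_or_pos n with hn | hn
    · rw [hn, pow_zero] at hℓpn
      exact hℓ.one_lt.ne' hℓpn
    · have hdvd : p ∣ ℓ := hℓpn ▸ dvd_pow_self p hn.ne'
      exact hℓp ((Nat.prime_dvd_prime_iff_eq hp hℓ).mp hdvd).symm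
  have hv : (∑ i, x i ⊗ₜ[ℤ] θ' (b i) : 𝒪 ⊗[ℤ] (Jp N (p ^ n)))
      = θ'.toIntLinearMap.baseChange 𝒪 (∑ i, x i ⊗ₜ[ℤ] b i) := by
    rw [map_sum]
    refine Finset.sum_congr rfl fun i _ => ?_
    rw [LinearMap.baseChange_tmul]
    rfl
  refine ⟨∑ i, x i ⊗ₜ[ℤ] θ' (b i), ?_, ?_, ?_⟩
  · intro a ha
    have h := EigLevel.dvd_of_smul_sum_tmul_eq_zero b θ'.toIntLinearMap (p ^ n) hker x hx1 a ha
    rwa [Nat.cast_pow] at h
  · intro ℓ hℓ hℓN hℓS
    have hℓp : ℓ ≠ p := fun h => hℓS (h ▸ hpS)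
    rw [map_sum]
    simp_rw [LinearMap.baseChange_tmul, hheck ℓ hℓ hℓN hℓp]
    exact EigLevel.sum_tmul_map_eq_smul b (heckeLpar N ℓ hℓ hℓN)
      θ'.toIntLinearMap x _ (fun k => hx ℓ hℓ hℓN hℓS k)
  · intro q hq
    rw [hv]
    have hmap := Submodule.apply_mem_span_image_of_mem_span
      (θ'.toIntLinearMap.baseChange 𝒪) hxnew
    refine Submodule.span_mono ?_ hmap
    rintro _ ⟨z, ⟨c, hc, rfl⟩, rfl⟩
    refine ⟨θ' c, ?_, ?_⟩
    · exact frobKilled_theta hp hK hE θ hθ1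
        (fun u y hy f hf => by
          obtain ⟨D, hD, hθD⟩ := hθ4 u y hy f hf
          exact ⟨D, hD, hθD⟩) hq c hc
    · rw [LinearMap.baseChange_tmul]
      rfl

end Fermat.Agent.S35.VecQ
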