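/-
S35 — NewTop.lean (helper39).  END-TO-END glue, ALL special primes at once
(the `DetQ.LevelQStatement` variant of the top; the per-prime variant is `S35/DetQU.lean`).

The frozen conclusion of S35 from three hypotheses, each in its shape of record:

* `LevelVecStatement`  — block [B]: the level attached to a vector `v ∈ 𝒪 ⊗ J₀(N)[pⁿ]`
                          (annihilator in `pⁿ 𝒪`, Hecke eigenvector), with `PseudoQ.FrobQ` at `q`
                          as soon as `v` lies in the span of the pure tensors `1 ⊗ k`, `k` in a set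
                          of classes killed by `NewPlan.frobPoly q σ` for the Frobenius lifts `σ`
                          at `q`;
* `KTrAllStatement`    — block [D]: `KTrPlan.KTrStatement M q m` for all `q` prime, `q ∤ M`,
                          `m ≠ 0`;
* `FrobTorsAllStatement` — block [E]: `FCorePlan.FrobTorsStatement M q m` for all `q` prime,
                          `q ∤ M`, `m ≠ 0`, `q ∤ m`.

Block [C] (`NewVecClosed`) and the graph-keeping `θ` (`KGraph`) are closed on main and enter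
through `VecQ.exists_vectorQ`.
-/
import Mathlib
import Fermat.Agent.S30.OddRepB
import Fermat.Agent.S29.FD
import Fermat.Agent.S35.VecQ

set_option autoImplicit false

noncomputable section

open ModularCurve AlgebraicCurve CongruenceSubgroup Polynomial
open scoped TensorProduct

namespace Fermat.Agent.S35.NewTop

open Fermat.Agent.S29 (Qb GQ Jp heckeJp)
open Fermat.Agent.S30.LimLevel

/-- The two expanded forms of `(σ² - q²)(σ² - 1)² x` agree. -/
theorem frobPoly_eq_frobExpr {N : ℕ} (q : ℕ) (σ : GQ) (x : JZero N) :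
    NewPlan.frobPoly q σ x = VecQ.frobExpr q σ x := by
  have hz : σ • σ • (σ • σ • x - x) - (σ • σ • x - x)
      = (σ * σ) • (σ * σ) • x + x - ((σ * σ) • x + (σ * σ) • x) := by
    simp only [mul_smul, smul_sub]
    abel
  unfold NewPlan.frobPoly VecQ.frobExpr
  rw [hz]
  congr 1
  exact (mul_smul σ σ _).symm

/-- **[B]** in the shape of record (captain's DM m264287241): the level of a vector, with
`FrobQ` from a spanning set of Frobenius-killed classes. -/
def LevelVecStatement : Prop :=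
  ∀ (N p : ℕ) [NeZero N], p.Prime → ∀ (S : Set ℕ), p ∈ S →
    ∀ (𝒪 : Type) [CommRing 𝒪] (χ : CuspForm.heckeAlgebra N 2 S →+* 𝒪) (n : ℕ)
      (v : 𝒪 ⊗[ℤ] (Jp N (p ^ n))),
      (∀ a : 𝒪, a • v = 0 → (p : 𝒪) ^ n ∣ a) →
      (∀ (ℓ : ℕ) (hℓ : ℓ.Prime) (hℓN : ¬ ℓ ∣ N) (hℓS : ℓ ∉ S),
        (heckeJp N (p ^ n) ⟨ℓ, hℓ⟩).baseChange 𝒪 v = χ (CuspForm.heckeAlgebra.T hℓ hℓN hℓS) • v) →
      ∃ Lv : Level 𝒪 p n (goodPrime N S) (heckeEig N S χ) (unrPrime N p),
        ∀ (q : ℕ) (Kq : Set (Jp N (p ^ n))),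
          v ∈ Submodule.span 𝒪 {z : 𝒪 ⊗[ℤ] (Jp N (p ^ n)) | ∃ k ∈ Kq, z = 1 ⊗ₜ[ℤ] k} →
          (∀ k ∈ Kq, ∀ A : ValuationSubring Qb, A.LiesOverPrime q → ∀ σ : GQ,
            A.IsFrobeniusAt σ q → NewPlan.frobPoly q σ ((k : Jp N (p ^ n)) : JZero N) = 0) →
          Fermat.Agent.S35.PseudoQ.FrobQ Lv q 1

/-- **[D]**, all levels and torsion orders. -/
def KTrAllStatement : Prop :=
  ∀ (M q m : ℕ) [NeZero M] [NeZero q], q.Prime → ¬ q ∣ M → m ≠ 0 → KTrPlan.KTrStatement M q m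

/-- **[E]**, all levels and torsion orders prime to `q`. -/
def FrobTorsAllStatement : Prop :=
  ∀ (M q m : ℕ) [NeZero M] [NeZero q] [NeZero (M * q)], q.Prime → ¬ q ∣ M → m ≠ 0 → ¬ q ∣ m →
    FCorePlan.FrobTorsStatement M q m

/-- **The level family with `FrobQ` at every special prime** (constants `1`). -/
theorem levelQStatement (hB : LevelVecStatement) (hD : KTrAllStatement)
    (hE : FrobTorsAllStatement) {N : ℕ} [NeZero N] {g : CuspForm (Gamma0 N) 2}
    (hg : g.IsNewform) (p : ℕ) (hp : p.Prime) (S : Finset ℕ) (hpS : p ∈ S)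
    (𝒪 : Type) [CommRing 𝒪] [IsDomain 𝒪] [ValuationRing 𝒪] [CharZero 𝒪]
    (chig : CuspForm.heckeAlgebra N 2 (↑S : Set ℕ) →+* ℂ)
    (hchig : ∀ (ℓ : ℕ) (hℓ : ℓ.Prime) (hℓN : ¬ ℓ ∣ N) (hℓS : ℓ ∉ (↑S : Set ℕ)),
      chig (CuspForm.heckeAlgebra.T hℓ hℓN hℓS) = ModularFormClass.qCoeff g ℓ)
    (iota : chig.range →+* 𝒪) :
    DetQ.LevelQStatement p N S 𝒪 (iota.comp chig.rangeRestrict) := by
  refine ⟨fun _ => 1, fun _ _ => one_ne_zero, fun n => ?_⟩
  have hpn : p ^ n ≠ 0 := pow_ne_zero n hp.ne_zero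
  have hK : ∀ (M q : ℕ) [NeZero M] [NeZero q], q.Prime → ¬ q ∣ M → q ≠ p →
      KTrPlan.KTrStatement M q (p ^ n) := fun M q _ _ hq hqM _ => hD M q (p ^ n) hq hqM hpn
  have hE' : ∀ (M q : ℕ) [NeZero M] [NeZero q] [NeZero (M * q)], q.Prime → ¬ q ∣ M → q ≠ p →
      FCorePlan.FrobTorsStatement M q (p ^ n) := fun M q _ _ _ hq hqM hqp =>
    hE M q (p ^ n) hq hqM hpn (fun h => hqp ((Nat.prime_dvd_prime_iff_eq hq hp).mp
      (hq.dvd_of_dvd_pow h)))
  obtain ⟨v, hann, hv, hspan⟩ := VecQ.exists_vectorQ N p hp (↑S : Set ℕ)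
    (Finset.mem_coe.mpr hpS) g hg chig hchig iota n hK hE'
  obtain ⟨Lv, hLv⟩ := hB N p hp (↑S : Set ℕ) (Finset.mem_coe.mpr hpS) 𝒪
    (iota.comp chig.rangeRestrict) n v hann hv
  refine ⟨Lv, fun q hq => ?_⟩
  refine hLv q {k : Jp N (p ^ n) | VecQ.FrobKilled N q (k : JZero N)} ?_ ?_
  · exact hspan q hq
  · intro k hk A hA σ hσ
    rw [frobPoly_eq_frobExpr]
    exact hk A hA σ hσ

/-- **S35, hypothesis form** (the frozen statement verbatim, from [B], [D], [E]). -/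
theorem result_of_leaves (hB : LevelVecStatement) (hD : KTrAllStatement)
    (hE : FrobTorsAllStatement)
    {M : ℕ} [NeZero M] {g : CuspForm (CongruenceSubgroup.Gamma0 M) 2} (hg : g.IsNewform)
    (lam : ℕ) [Fact lam.Prime]
    (S : Finset ℕ)
    (O' : Type) [CommRing O'] [IsDomain O'] [IsDiscreteValuationRing O']
    [IsAdicComplete (IsLocalRing.maximalIdeal O') O'] [Finite (IsLocalRing.ResidueField O')]
    [CharZero O'] (hlamO' : (lam : O') ∈ IsLocalRing.maximalIdeal O')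
    (chig : CuspForm.heckeAlgebra M 2 (↑S : Set ℕ) →+* ℂ)
    (hchig : ∀ (ℓ : ℕ) (hℓ : ℓ.Prime) (hℓM : ¬ ℓ ∣ M) (hℓS : ℓ ∉ (↑S : Set ℕ)),
      chig (CuspForm.heckeAlgebra.T hℓ hℓM hℓS) = ModularFormClass.qCoeff g ℓ)
    (iota : chig.range →+* O')
    (hlamS : lam ∈ S) (hMS : ∀ q : ℕ, q.Prime → q ∣ M → q ∈ S)
    :
    ∃ (O'' : Type) (_ : CommRing O'') (_ : IsDomain O'') (_ : IsDiscreteValuationRing O'')
      (_ : IsAdicComplete (IsLocalRing.maximalIdeal O'') O'') (_ : Finite (IsLocalRing.ResidueField O''))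
      (_ : CharZero O'') (_ : Algebra O' O'') (_ : Module.Finite O' O'') (_ : IsLocalHom (algebraMap O' O'')),
      Function.Injective (algebraMap O' O'') ∧
      ∃ ρ : GaloisRepAdic O'',
        (∀ (ℓ : ℕ) (hℓ : ℓ.Prime) (hℓM : ¬ ℓ ∣ M) (hℓS : ℓ ∉ (↑S : Set ℕ)),
          ∀ A : ValuationSubring (AlgebraicClosure ℚ), A.LiesOverPrime ℓ →
            ∀ σ : AlgebraicClosure ℚ ≃ₐ[ℚ] AlgebraicClosure ℚ, A.IsFrobeniusAt σ ℓ →
              LinearMap.charpoly (ρ.ρ σ) =
                X ^ 2 - C (algebraMap O' O'' ((iota.comp chig.rangeRestrict) (CuspForm.heckeAlgebra.T hℓ hℓM hℓS))) * X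
                  + C ((ℓ : O''))) ∧
        (∀ q : ℕ, q.Prime → q ≠ lam → q ∣ M → ¬ q ^ 2 ∣ M →
          ∀ A : ValuationSubring (AlgebraicClosure ℚ), A.LiesOverPrime q →
            ∀ σ : AlgebraicClosure ℚ ≃ₐ[ℚ] AlgebraicClosure ℚ, A.IsFrobeniusAt σ q →
              LinearMap.charpoly (ρ.ρ σ) = X ^ 2 - C ((q : O'') + 1) * X + C ((q : O'')) ∨
              LinearMap.charpoly (ρ.ρ σ) = X ^ 2 + C ((q : O'') + 1) * X + C ((q : O''))) :=
  DetQ.result_of_levelQ Fermat.Agent.S30.OddRepB.oddRepStatement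
    Fermat.Agent.S29.FD.fdStatement lam S O' hlamO' (iota.comp chig.rangeRestrict) hlamS hMS
    (levelQStatement hB hD hE hg lam Fact.out S hlamS O' chig hchig iota)

end Fermat.Agent.S35.NewTop
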