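/-
S35 — ETorsC.lean (helper5, [E]-modular architect).  BLOCK [E] CLOSED in the torsion form
consumed by the all-`q` end-to-end file `S35/NewTop.lean` (helper39):
`NewTop.FrobTorsAllStatement`, hypothesis-free (`FJSide.frobTors_of_div` applied to
`ETopC.frobDivStatement`).
-/
import Mathlib
import Fermat.Agent.S35.ETopC
import Fermat.Agent.S35.NewTop

set_option autoImplicit false

open ModularCurve AlgebraicCurve HahnSeries

namespace Fermat.Agent.S35.ETorsC

/-- **Block [E], torsion form**: `(τ - q²)(τ - 1)²` kills the `m`-torsion of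
`ker α_* ∩ ker β_* ⊆ J₀(M q)` (`τ = σs²`, `σs` a Frobenius lift at `q`, `q ∤ M`, `q ∤ m`). -/
theorem frobTorsStatement (M q m : ℕ) [NeZero M] [NeZero q] [NeZero (M * q)]
    (hq : q.Prime) (hqM : ¬ q ∣ M) (hqm : ¬ q ∣ m) : FCorePlan.FrobTorsStatement M q m :=
  FJSide.frobTors_of_div M q m (ETopC.frobDivStatement M q m hq hqM hqm)

/-- **[E]** in the shape of `NewTop.result_of_leaves`. -/
theorem frobTorsAllStatement : NewTop.FrobTorsAllStatement :=
  fun M q m _ _ _ hq hqM _ hqm => frobTorsStatement M q m hq hqM hqm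

end Fermat.Agent.S35.ETorsC
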