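/-
S35 — FJSideB.lean (helper57).  Row [FJSide] (B-copy) of helper5's DEAL #1 (board 'S35' #2702):
the J-side of block [E] in the vocabulary of `S35/FCorePlan.lean` (twin of `S34/UPlan.lean`).

* `frobDiv_of_setting`  — PER `f` (no norm condition): a Čech-bis setting on `chart t`,
                          `chart t⁻¹` with exponent `m` and `w = wBar N τ Q m f H` (`H ≠ 0`)
                          + `Cech2Statement` ⟹ `(τ - Q)(τ - 1)² D` is principal whenever
                          `div f = m • D` (ANY level `N`, ANY `τ`, ANY `Q`);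
* `frobDiv_at`          — the same in the per-function vocabulary of `S35/FCorePlanG.lean`:
                          `FrobCoreAt N A τ Q m f → FrobDivAt N τ Q m f` (DEAL #1b, #2738);
* `frobDiv_of_core`     — `Cech2Statement → FrobCoreStatement M q m → FrobDivStatement M q m`;
* `frobTors_of_prin`    — PER class: if `(τ - Q)(τ - 1)² D` is principal then
                          `(τ - Q)(τ - 1)² [D] = 0` in `JZero N` (the literal expression of
                          `FCorePlan.FrobTorsStatement`);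
* `normCond_of_mem_newKer` — a Kummer generator of a class in `PushPic.newKer M q` satisfies
                          `ModelFPlan.NormCond M q m`;
* `frobTors_of_div`     — `FrobDivStatement M q m → FrobTorsStatement M q m`;
* `frobTors_of_core`    — the composition.
-/
import Mathlib
import Fermat.Agent.S35.FCorePlan
import Fermat.Agent.S35.FCorePlanG
import Fermat.Agent.S34.UPlan
import Fermat.Agent.S34.Cech2Plan

set_option autoImplicit false

open ModularCurve AlgebraicCurve HahnSeries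

namespace Fermat.Agent.S35.FJSideB

open Fermat.Agent.S18.Arith
open Fermat.Agent.S34
open Fermat.Agent.S35

noncomputable section

set_option synthInstance.maxHeartbeats 400000

/-! ### Orders of `gBar`, `wBar` -/

section Ord

variable {N : ℕ}

/-- The Frobenius difference `τ H / H ^ Q` of the corrector. -/
def corr (N : ℕ) (τ : Qb ≃ₐ[ℚ] Qb) (Q : ℕ) (H : modularFunctionFieldBar N) :
    modularFunctionFieldBar N :=
  (UPlan.gal N τ • H) / H ^ Q

theorem corr_ne_zero (τ : Qb ≃ₐ[ℚ] Qb) (Q : ℕ) {H : modularFunctionFieldBar N} (hH : H ≠ 0) :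
    corr N τ Q H ≠ 0 :=
  div_ne_zero (UPlan.gal_smul_ne_zero τ hH) (pow_ne_zero Q hH)

/-- The Frobenius difference `τ S / S ^ Q` of the second difference `S = sdFun τ τ f`. -/
def frSd (N : ℕ) (τ : Qb ≃ₐ[ℚ] Qb) (Q : ℕ) (f : modularFunctionFieldBar N) :
    modularFunctionFieldBar N :=
  (UPlan.gal N τ • UPlan.sdFun N τ τ f) / UPlan.sdFun N τ τ f ^ Q

theorem frSd_ne_zero (τ : Qb ≃ₐ[ℚ] Qb) (Q : ℕ) {f : modularFunctionFieldBar N} (hf : f ≠ 0) :
    frSd N τ Q f ≠ 0 :=
  div_ne_zero (UPlan.gal_smul_ne_zero τ (UPlan.sdFun_ne_zero τ τ hf))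
    (pow_ne_zero Q (UPlan.sdFun_ne_zero τ τ hf))

/-- `wBar = (τ S / S ^ Q) · (τ H / H ^ Q) ^ m`. -/
theorem wBar_eq (τ : Qb ≃ₐ[ℚ] Qb) (Q m : ℕ) (f H : modularFunctionFieldBar N) :
    FCorePlan.wBar N τ Q m f H = frSd N τ Q f * corr N τ Q H ^ m := by
  unfold FCorePlan.wBar FCorePlan.gBar frSd corr
  rw [smul_mul', smul_pow', mul_pow, div_pow, ← pow_mul, ← pow_mul, mul_comm m Q,
    mul_div_mul_comm]

/-- `div (τ S / S ^ Q) = m • (τ - Q)(τ - 1)² D` if `div f = m • D`. -/
theorem ord_frSd (τ : Qb ≃ₐ[ℚ] Qb) (Q : ℕ) {m : ℕ} {f : modularFunctionFieldBar N} (hf : f ≠ 0)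
    {D : Divisor Qb (modularFunctionFieldBar N)}
    (hD : ∀ P : Place Qb (modularFunctionFieldBar N), (m : ℤ) * D P = P.ord f)
    (P : Place Qb (modularFunctionFieldBar N)) :
    (m : ℤ) * (FCorePlan.fDiv N τ Q D) P = P.ord (frSd N τ Q f) := by
  have hS0 : UPlan.sdFun N τ τ f ≠ 0 := UPlan.sdFun_ne_zero τ τ hf
  have h1 : ∀ P : Place Qb (modularFunctionFieldBar N),
      (m : ℤ) * (UPlan.sdDiv N τ τ D) P = P.ord (UPlan.sdFun N τ τ f) :=
    fun P => UPlan.ord_sdFun τ τ hf hD P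
  have h2 := UPlan.ord_gal_of_div τ h1 P
  unfold frSd FCorePlan.fDiv
  rw [Fermat.Agent.S24.ord_div P (UPlan.gal_smul_ne_zero τ hS0) (pow_ne_zero Q hS0),
    Fermat.Agent.S24.ord_pow, ← h2, ← h1 P]
  simp only [Finsupp.coe_sub, Pi.sub_apply, Finsupp.smul_apply, nsmul_eq_mul]
  ring

end Ord

/-! ### (i) `FrobCoreStatement` + `Cech2Statement` ⟹ `FrobDivStatement` -/

/-- **Per-`f` form of (i)** (no norm condition; any level, any `τ`, any `Q`): from a Čech-bis
setting on the charts `chart t`, `chart t⁻¹` with exponent `m` and `w = wBar N τ Q m f H`. -/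
theorem frobDiv_of_setting (N : ℕ) [NeZero N] (m : ℕ) (hm : m ≠ 0)
    (hCech : Cech2Plan.Cech2Statement) (A : ValuationSubring Qb) (τ : Qb ≃ₐ[ℚ] Qb) (Q : ℕ)
    (f : modularFunctionFieldBar N) (hf : f ≠ 0)
    (hS : ∃ (K : IntermediateField ℚ Qb) (_ : IsDiscreteValuationRing (OK A K))
      (S : Cech2Plan.Setting (OK A K) (FK N K)) (t : FK N K) (H : modularFunctionFieldBar N),
      H ≠ 0 ∧ S.m = m ∧ S.R0 = chart N A K t ∧ S.Rinf = chart N A K t⁻¹ ∧
        ((S.w : FK N K) : LaurentSeries Qb) =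
          ((FCorePlan.wBar N τ Q m f H : modularFunctionFieldBar N) : LaurentSeries Qb))
    (D : Divisor Qb (modularFunctionFieldBar N))
    (hD : ∀ P : Place Qb (modularFunctionFieldBar N), (m : ℤ) * D P = P.ord f) :
    Divisor.IsPrincipal (FCorePlan.fDiv N τ Q D) := by
  obtain ⟨K, hdvr, S, t, H, hH0, hSm, hS0, hSinf, hw⟩ := hS
  obtain ⟨h, hh0, hh1, hh2, -⟩ := hCech (OK A K) (FK N K) S
  rw [hS0] at hh1
  rw [hSinf] at hh2
  rw [hSm] at hh1 hh2
  -- the function `W = wBar` and its image in `F_K`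
  have hW : Fermat.Agent.S18.Glob.toBar N K S.w = FCorePlan.wBar N τ Q m f H := Subtype.ext hw
  have hF0 : frSd N τ Q f ≠ 0 := frSd_ne_zero τ Q hf
  have hC0 : corr N τ Q H ≠ 0 := corr_ne_zero τ Q hH0
  have hW0 : FCorePlan.wBar N τ Q m f H ≠ 0 := by
    rw [wBar_eq]
    exact mul_ne_zero hF0 (pow_ne_zero m hC0)
  have hw0 : S.w ≠ 0 := by
    intro h0
    apply hW0
    rw [← hW, h0, map_zero]
  have hne : S.w * h ^ m ≠ 0 := mul_ne_zero hw0 (pow_ne_zero m hh0)
  set hb : modularFunctionFieldBar N := Fermat.Agent.S18.Glob.toBar N K h with hhb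
  have hhb0 : hb ≠ 0 := fun h0 =>
    hh0 ((Fermat.Agent.S18.Glob.toBar N K).injective (by rw [← hhb, h0, map_zero]))
  refine ⟨(hb * corr N τ Q H)⁻¹, inv_ne_zero (mul_ne_zero hhb0 hC0), fun P => ?_⟩
  have h1 := UPlan.ord_eq_zero_of_mem_charts N A K t (S.w * h ^ m) hh1 hh2 hne P
  rw [map_mul, map_pow, hW, ← hhb, wBar_eq,
    P.ord_mul (mul_ne_zero hF0 (pow_ne_zero m hC0)) (pow_ne_zero m hhb0),
    P.ord_mul hF0 (pow_ne_zero m hC0), Fermat.Agent.S24.ord_pow, Fermat.Agent.S24.ord_pow,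
    ← ord_frSd τ Q hf hD P] at h1
  rw [P.ord_inv, P.ord_mul hhb0 hC0]
  have h2 : (m : ℤ) * (FCorePlan.fDiv N τ Q D) P =
      (m : ℤ) * (-(P.ord hb + P.ord (corr N τ Q H))) := by linarith
  exact mul_left_cancel₀ (Nat.cast_ne_zero.mpr hm) h2

/-- **(i), per-function form** (`S35/FCorePlanG.lean`, DEAL #1b): any level `N`, any `τ`, any
`Q`, no norm condition. -/
theorem frobDiv_at {m : ℕ} (hm : m ≠ 0) (hCech : Cech2Plan.Cech2Statement)
    {N : ℕ} [NeZero N] {A : ValuationSubring Qb} {τ : Qb ≃ₐ[ℚ] Qb} {Q : ℕ}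
    {f : modularFunctionFieldBar N} (hf : f ≠ 0) :
    FCorePlanG.FrobCoreAt N A τ Q m f → FCorePlanG.FrobDivAt N τ Q m f :=
  fun hS D hD => frobDiv_of_setting N m hm hCech A τ Q f hf hS D hD

/-- **(i)** `FrobCoreStatement` + `Cech2Statement` ⟹ `FrobDivStatement`. -/
theorem frobDiv_of_core (M q m : ℕ) [NeZero M] [NeZero q] [NeZero (M * q)] (hm : m ≠ 0)
    (hCech : Cech2Plan.Cech2Statement) (hCore : FCorePlan.FrobCoreStatement M q m) :
    FCorePlan.FrobDivStatement M q m := by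
  intro A hA σs hσs f hf D hD hNorm
  have hdvd : ∀ P : Place Qb (modularFunctionFieldBar (M * q)), (m : ℤ) ∣ P.ord f :=
    fun P => ⟨D P, (hD P).symm⟩
  exact frobDiv_of_setting (M * q) m hm hCech A (σs * σs) (q ^ 2) f hf
    (hCore A hA σs hσs f hf hdvd hNorm) D hD

/-! ### (ii) `FrobDivStatement` ⟹ `FrobTorsStatement` -/

/-- **Per-class form of (ii)**: if `(τ - Q)(τ - 1)² D` is principal then `(τ - Q)(τ - 1)²`
kills the class of `D` in `JZero N` (literal expression of `FCorePlan.FrobTorsStatement`). -/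
theorem frobTors_of_prin (N : ℕ) (τ : Qb ≃ₐ[ℚ] Qb) (Q : ℕ)
    (D : Divisor.degZero (K := Qb) (F := modularFunctionFieldBar N))
    (hprin : Divisor.IsPrincipal
      (FCorePlan.fDiv N τ Q (D : Divisor Qb (modularFunctionFieldBar N)))) :
    τ • (τ • τ • (Pic0.mk D : JZero N) + Pic0.mk D - (τ • Pic0.mk D + τ • Pic0.mk D)) -
      Q • (τ • τ • (Pic0.mk D : JZero N) + Pic0.mk D - (τ • Pic0.mk D + τ • Pic0.mk D)) = 0 := by
  set S₁ : Divisor.degZero (K := Qb) (F := modularFunctionFieldBar N) →+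
      Divisor.degZero (K := Qb) (F := modularFunctionFieldBar N) :=
    SemilinearAut.degZeroSMulHom (UPlan.gal N τ) with hS₁
  set E₂ : Divisor.degZero (K := Qb) (F := modularFunctionFieldBar N) :=
    S₁ (S₁ D) + D - (S₁ D + S₁ D) with hE₂
  set E₃ : Divisor.degZero (K := Qb) (F := modularFunctionFieldBar N) :=
    S₁ E₂ - Q • E₂ with hE₃
  have hcoe : ((E₃ : Divisor.degZero (K := Qb) (F := modularFunctionFieldBar N)) :
      Divisor Qb (modularFunctionFieldBar N)) =
      FCorePlan.fDiv N τ Q (D : Divisor Qb (modularFunctionFieldBar N)) := rfl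
  have hzero : (Pic0.mk E₃ : JZero N) = 0 := by
    refine (QuotientAddGroup.eq_zero_iff _).2 ?_
    show ((E₃ : Divisor.degZero (K := Qb) (F := modularFunctionFieldBar N)) :
      Divisor Qb (modularFunctionFieldBar N)) ∈ Divisor.principal
    rw [hcoe]
    exact hprin
  have e : ∀ D' : Divisor.degZero (K := Qb) (F := modularFunctionFieldBar N),
      τ • (Pic0.mk D' : JZero N) = Pic0.mk (S₁ D') := fun _ => rfl
  have hmk_sub : ∀ D' D'' : Divisor.degZero (K := Qb) (F := modularFunctionFieldBar N),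
      (Pic0.mk (D' - D'') : JZero N) = Pic0.mk D' - Pic0.mk D'' := fun D' D'' =>
    map_sub (QuotientAddGroup.mk' _) D' D''
  have hmk_add : ∀ D' D'' : Divisor.degZero (K := Qb) (F := modularFunctionFieldBar N),
      (Pic0.mk (D' + D'') : JZero N) = Pic0.mk D' + Pic0.mk D'' := fun D' D'' =>
    map_add (QuotientAddGroup.mk' _) D' D''
  have hmk_nsmul : ∀ (k : ℕ) (D' : Divisor.degZero (K := Qb) (F := modularFunctionFieldBar N)),
      (Pic0.mk (k • D') : JZero N) = k • Pic0.mk D' := fun k D' =>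
    map_nsmul (QuotientAddGroup.mk' _) k D'
  have h2 : τ • τ • (Pic0.mk D : JZero N) + Pic0.mk D - (τ • Pic0.mk D + τ • Pic0.mk D) =
      Pic0.mk E₂ := by
    rw [e, e, ← hmk_add, ← hmk_add, ← hmk_sub]
  have h3 : τ • (Pic0.mk E₂ : JZero N) - Q • Pic0.mk E₂ = Pic0.mk E₃ := by
    rw [e, ← hmk_nsmul, ← hmk_sub]
  rw [h2, h3, hzero]

/-- A Kummer generator of a class of `PushPic.newKer M q` satisfies the norm conditions. -/
theorem normCond_of_mem_newKer (M q m : ℕ) [NeZero M] [NeZero q]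
    (D : Divisor.degZero (K := Qb) (F := modularFunctionFieldBar (M * q)))
    (f : modularFunctionFieldBar (M * q)) (hf : f ≠ 0)
    (hD : ∀ P : Place Qb (modularFunctionFieldBar (M * q)),
      (m : ℤ) * (D : Divisor Qb (modularFunctionFieldBar (M * q))) P = P.ord f)
    (hx : (Pic0.mk D : JZero (M * q)) ∈ PushPic.newKer M q) :
    ModelFPlan.NormCond M q m f :=
  PushPic.exists_norms_of_mem_newKer M q D f hf hD hx

/-- **(ii)** `FrobDivStatement` ⟹ `FrobTorsStatement`. -/
theorem frobTors_of_div (M q m : ℕ) [NeZero M] [NeZero q] [NeZero (M * q)]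
    (hDiv : FCorePlan.FrobDivStatement M q m) : FCorePlan.FrobTorsStatement M q m := by
  intro A hA σs hσs x hx hnew
  obtain ⟨D, f, hDx, hf, hD⟩ := UPlan.exists_div_of_nsmul_eq_zero m x hx
  subst hDx
  exact frobTors_of_prin (M * q) (σs * σs) (q ^ 2) D
    (hDiv A hA σs hσs f hf D hD (normCond_of_mem_newKer M q m D f hf hD hnew))

/-- **[FJSide]** the composition: `Cech2Statement` + `FrobCoreStatement` ⟹ `FrobTorsStatement`. -/
theorem frobTors_of_core (M q m : ℕ) [NeZero M] [NeZero q] [NeZero (M * q)] (hm : m ≠ 0)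
    (hCech : Cech2Plan.Cech2Statement) (hCore : FCorePlan.FrobCoreStatement M q m) :
    FCorePlan.FrobTorsStatement M q m :=
  frobTors_of_div M q m (frobDiv_of_core M q m hm hCech hCore)

end

end Fermat.Agent.S35.FJSideB
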