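/-
S35 — FJSideG.lean (helper80).  Row [FJSide] (i) of helper5's Deal #1b, in the PER-FUNCTION
vocabulary of `S35/FCorePlanG.lean` (no norm condition inside; serves both bridges for [D]):

* `frobDiv_at`       : `FrobCoreAt N A τ Q m f → FrobDivAt N τ Q m f`  (`m ≠ 0`, `f ≠ 0`,
                       `Cech2Statement`);
* `frobDiv_at'`      : the same with the Čech-bis statement discharged from `S34/Cech2.lean`;
* `frobTors_at`      : if `FrobDivAt N τ Q m f` holds for every Kummer generator `f` of an
                       `m`-torsion class `x`, then `(τ - Q)(τ - 1)² x = 0`;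
* `frobTors_of_coreAt` : the composition, per class `x` (any condition selecting the `f`'s).

Everything is a restatement of `S35/FJSide.lean` (on main) on the `FCorePlanG` definitions.
-/
import Mathlib
import Fermat.Agent.S35.FCorePlanG
import Fermat.Agent.S35.FJSide
import Fermat.Agent.S34.Cech2

set_option autoImplicit false

open ModularCurve AlgebraicCurve HahnSeries

namespace Fermat.Agent.S35.FJSideG

open Fermat.Agent.S18.Arith Fermat.Agent.S34 Fermat.Agent.S35.FCorePlan
  Fermat.Agent.S35.FCorePlanG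

noncomputable section

set_option synthInstance.maxHeartbeats 400000

/-- **[FJSide] (i), per function**: a Čech-bis setting with `w = wBar N τ Q m f H` makes
`(τ - Q)(τ - 1)² D` principal for every `D` with `div f = m • D`. -/
theorem frobDiv_at {N : ℕ} [NeZero N] {A : ValuationSubring Qb} {τ : Qb ≃ₐ[ℚ] Qb} {Q m : ℕ}
    {f : modularFunctionFieldBar N} (hm : m ≠ 0) (hCech : Cech2Plan.Cech2Statement)
    (hf : f ≠ 0) (hcore : FrobCoreAt N A τ Q m f) : FrobDivAt N τ Q m f :=
  fun D hD => FJSide.isPrincipal_fDiv_of_exists N τ Q m hm hCech A f hf hcore D hD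

/-- The same with the Čech-bis statement of `S34/Cech2.lean` plugged in. -/
theorem frobDiv_at' {N : ℕ} [NeZero N] {A : ValuationSubring Qb} {τ : Qb ≃ₐ[ℚ] Qb} {Q m : ℕ}
    {f : modularFunctionFieldBar N} (hm : m ≠ 0) (hf : f ≠ 0)
    (hcore : FrobCoreAt N A τ Q m f) : FrobDivAt N τ Q m f :=
  frobDiv_at hm Cech2.cech2Statement hf hcore

/-- **[FJSide] (ii), per class**: if `FrobDivAt N τ Q m f` holds for every Kummer generator `f`
of the `m`-torsion class `x`, then `(τ - Q)(τ - 1)² x = 0`. -/
theorem frobTors_at {N : ℕ} (τ : Qb ≃ₐ[ℚ] Qb) (Q m : ℕ) (x : JZero N) (hx : m • x = 0)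
    (h : ∀ (D : Divisor.degZero (K := Qb) (F := modularFunctionFieldBar N))
      (f : modularFunctionFieldBar N), Pic0.mk D = x → f ≠ 0 →
      (∀ P : Place Qb (modularFunctionFieldBar N),
        (m : ℤ) * (D : Divisor Qb (modularFunctionFieldBar N)) P = P.ord f) →
      FrobDivAt N τ Q m f) :
    τ • (τ • τ • x + x - (τ • x + τ • x)) - Q • (τ • τ • x + x - (τ • x + τ • x)) = 0 :=
  FJSide.frobTors_of_forall N τ Q m x hx fun D f hDx hf hD => h D f hDx hf hD _ hD

/-- **[FJSide], per class, composed**: if every Kummer generator `f` of the `m`-torsion class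
`x` has a Čech-bis setting (`FrobCoreAt`), then `(τ - Q)(τ - 1)² x = 0`. -/
theorem frobTors_of_coreAt {N : ℕ} [NeZero N] (A : ValuationSubring Qb) (τ : Qb ≃ₐ[ℚ] Qb)
    (Q m : ℕ) (hm : m ≠ 0) (hCech : Cech2Plan.Cech2Statement) (x : JZero N) (hx : m • x = 0)
    (h : ∀ (D : Divisor.degZero (K := Qb) (F := modularFunctionFieldBar N))
      (f : modularFunctionFieldBar N), Pic0.mk D = x → f ≠ 0 →
      (∀ P : Place Qb (modularFunctionFieldBar N),
        (m : ℤ) * (D : Divisor Qb (modularFunctionFieldBar N)) P = P.ord f) →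
      FrobCoreAt N A τ Q m f) :
    τ • (τ • τ • x + x - (τ • x + τ • x)) - Q • (τ • τ • x + x - (τ • x + τ • x)) = 0 :=
  frobTors_at τ Q m x hx fun D f hDx hf hD => frobDiv_at hm hCech hf (h D f hDx hf hD)

end

end Fermat.Agent.S35.FJSideG
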