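/-
S35 — Final.lean (captain: helper85).  The frozen S35 statement in HYPOTHESIS FORM over the open
leaves of the route (blueprint #2585, Captain Order #1):

* `hB    : LevelBStatement`  — block [B]: the level of `S30/LevelGlue` built from a vector `v`,
                               with `PseudoQ.FrobQ` at `q` as soon as `v` lies in the span of the
                               pure tensors `1 ⊗ k`, `k` killed by `(σ² - q²)(σ² - 1)²`;
* `hKTr  : ∀ M q m, …, NewPlan.KTrStatement M q m`       — block [D] (the analytic core [K-tr]);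
* `hCorr : ∀ M q m, …, ModelFAsm.CorrStatement … NormCond` — block [E] (the corrector [GNorm]).

Everything else is on `origin/main`:
  [A]  `DetQU.result_of_levelQAt` (per-prime top), `S30.OddRepB`, `S29.FD`, S30's level family;
  [C]  `NewVecClosed.exists_newCoord_all` (newness at the lattice level);
  [D]  `DTop.kAwayNew_of_leaves` (graph-keeping `θ` + norm conditions ⇒ Frobenius relation);
  [E]  `FrobNew.frobNew_of_div ∘ FJSide.frobDiv_of_core ∘ CoreAsmF.coreAsmF ∘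
        ModelFTop.modelFStatement_of_corr`, with `Cech2.cech2Statement`, `CutAtTop.cutAtStatement`,
        `LocFAll.locFStatement`, `LocFAll.hwFStatement`, `LocHw.locAdapter`.
-/
import Mathlib
import Fermat.Agent.S29.FD
import Fermat.Agent.S29.KTop
import Fermat.Agent.S30.OddRepB
import Fermat.Agent.S30.LevelGlue
import Fermat.Agent.S34.Cech2
import Fermat.Agent.S34.CutAtTop
import Fermat.Agent.S34.LocHw
import Fermat.Agent.S35.DetQU
import Fermat.Agent.S35.DTop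
import Fermat.Agent.S35.NewVecClosed
import Fermat.Agent.S35.FrobNew
import Fermat.Agent.S35.FJSide
import Fermat.Agent.S35.CoreAsmF
import Fermat.Agent.S35.LocFAll
import Fermat.Agent.S35.ModelFTop

set_option autoImplicit false

open Polynomial
open ModularCurve AlgebraicCurve CongruenceSubgroup
open scoped TensorProduct

namespace Fermat.Agent.S35.Final

open Fermat.Agent.S29 (Qb GQ Jp galJp heckeJp mem_Jp_iff)
open Fermat.Agent.S41 (Lpar tr₁ tr₂)
open Fermat.Agent.S30 Fermat.Agent.S30.LimLevel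

noncomputable section

set_option synthInstance.maxHeartbeats 400000

/-! ### Block [E]: the consumer statement from the corrector -/

/-- **(E-out) from [GNorm]**: `NewPlan.FrobNewStatement` from the corrector statement of
`S35/ModelFAsm.lean` for the norm conditions, through the assembly of block [E]. -/
theorem frobNewStatement_of_corr
    (hCorr : ∀ (M q : ℕ) [NeZero M] [NeZero q] (hq : q.Prime) (hqM : ¬ q ∣ M) (m : ℕ), ¬ q ∣ m →
      ModelFAsm.CorrStatement M q hq hqM m (fun _ => ModelFPlan.NormCond M q m)) :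
    NewPlan.FrobNewStatement :=
  FrobNew.frobNew_of_div fun M q m _ _ _ hq hqM hqm =>
    FJSide.frobDiv_of_core M q m (fun h0 => hqm (h0 ▸ dvd_zero q))
      Fermat.Agent.S34.Cech2.cech2Statement
      (CoreAsmF.coreAsmF Fermat.Agent.S34.CutAtTop.cutAtStatement LocFAll.locFStatement
        LocFAll.hwFStatement Fermat.Agent.S34.LocHw.locAdapter M q m
        (ModelFTop.modelFStatement_of_corr M q hq hqM m hqm (hCorr M q hq hqM m hqm)))

/-! ### Block [B]: the interface -/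

/-- **[B]** the level attached to an eigenvector `v ∈ 𝒪 ⊗ J₀(N)[pⁿ]` (binders and the hypotheses
on `v` as in `S30.LevelGlue.nonempty_level_of_vector`), with the extra datum `PseudoQ.FrobQ` at
`q` whenever `v` lies in the `𝒪`-span of the pure tensors `1 ⊗ k`, `k` in a set `Kq` of classes
killed by `(σ² - q²)(σ² - 1)²` for the Frobenius lifts `σ` at `q`. -/
def LevelBStatement : Prop :=
  ∀ (N p : ℕ) [NeZero N], p.Prime → ∀ (S : Set ℕ), p ∈ S →
  ∀ (𝒪 : Type) [CommRing 𝒪] (χ : CuspForm.heckeAlgebra N 2 S →+* 𝒪) (n : ℕ)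
    (v : 𝒪 ⊗[ℤ] (Jp N (p ^ n))),
    (∀ a : 𝒪, a • v = 0 → (p : 𝒪) ^ n ∣ a) →
    (∀ (ℓ : ℕ) (hℓ : ℓ.Prime) (hℓN : ¬ ℓ ∣ N) (hℓS : ℓ ∉ S),
      (heckeJp N (p ^ n) ⟨ℓ, hℓ⟩).baseChange 𝒪 v = χ (CuspForm.heckeAlgebra.T hℓ hℓN hℓS) • v) →
    ∃ Lv : Level 𝒪 p n (goodPrime N S) (heckeEig N S χ) (unrPrime N p),
      ∀ (q : ℕ) (Kq : Set (Jp N (p ^ n))),
        v ∈ Submodule.span 𝒪 {z : 𝒪 ⊗[ℤ] (Jp N (p ^ n)) | ∃ k ∈ Kq, z = (1 : 𝒪) ⊗ₜ[ℤ] k} →
        (∀ k ∈ Kq, ∀ A : ValuationSubring Qb, A.LiesOverPrime q → ∀ σ : GQ,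
          A.IsFrobeniusAt σ q → NewPlan.frobPoly q σ ((k : Jp N (p ^ n)) : JZero N) = 0) →
        Fermat.Agent.S35.PseudoQ.FrobQ Lv q 1

/-! ### One special prime -/

/-- **The level family at one special prime `q`** of a newform of level `N`, from [B], (E-out)
and [K-tr]. -/
theorem levelQAt_of_leaves (hB : LevelBStatement) (hE : NewPlan.FrobNewStatement)
    (hKTr : ∀ (M q m : ℕ) [NeZero M] [NeZero q], q.Prime → ¬ q ∣ M → m ≠ 0 →
      NewPlan.KTrStatement M q m)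
    {N : ℕ} [NeZero N] {g : CuspForm (Gamma0 N) 2} (hg : g.IsNewform)
    (p : ℕ) (hp : p.Prime) (S : Finset ℕ) (hpS : p ∈ S)
    (𝒪 : Type) [CommRing 𝒪] [IsDomain 𝒪] [ValuationRing 𝒪] [CharZero 𝒪]
    (chig : CuspForm.heckeAlgebra N 2 (↑S : Set ℕ) →+* ℂ)
    (hchig : ∀ (ℓ : ℕ) (hℓ : ℓ.Prime) (hℓN : ¬ ℓ ∣ N) (hℓS : ℓ ∉ (↑S : Set ℕ)),
      chig (CuspForm.heckeAlgebra.T hℓ hℓN hℓS) = ModularFormClass.qCoeff g ℓ)
    (iota : chig.range →+* 𝒪) (q : ℕ) (hq : Fermat.Agent.S35.DetQ.specPrime N p q) :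
    Fermat.Agent.S35.DetQU.LevelQAt p N S 𝒪 (iota.comp chig.rangeRestrict) q := by
  classical
  obtain ⟨hqp, hqne, hqN, hq2⟩ := hq
  obtain ⟨M', hM'⟩ := hqN
  have hN : N = M' * q := by rw [hM', mul_comm]
  subst hN
  have hM0 : M' ≠ 0 := fun h => by
    subst h
    exact (NeZero.ne (0 * q)) (zero_mul q)
  have : NeZero M' := ⟨hM0⟩
  have : NeZero q := ⟨hqp.ne_zero⟩
  have hqM : ¬ q ∣ M' := by
    rintro ⟨c, rfl⟩
    apply hq2
    exact ⟨c, by ring⟩
  refine ⟨1, one_ne_zero, fun n => ?_⟩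
  -- the comparison map at torsion order `p ^ n`, with the Frobenius relation on the new classes
  obtain ⟨θ, hθ1, hθ2, hθ3, hθ4⟩ :=
    DTop.kAwayNew_of_leaves hE hqp hqM hp (Ne.symm hqne) n
      (hKTr M' q (p ^ n) hqp hqM (pow_ne_zero n hp.ne_zero))
  -- primitive new eigen-coordinates
  have hfin : Module.Finite ℤ (Lpar (M' * q)) := Fermat.Agent.S41.LparFree.lpar_finite (M' * q)
  have hfree : Module.Free ℤ (Lpar (M' * q)) := Fermat.Agent.S41.LparFree.lpar_free (M' * q)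
  set b := Module.finBasis ℤ (Lpar (M' * q)) with hb
  obtain ⟨x, hx1, hx, hxtr⟩ :=
    NewVecClosed.exists_newCoord_all (M' * q) (↑S : Set ℕ) g hg chig hchig iota b
  obtain ⟨hxa, hxb⟩ := hxtr M' q rfl hqp hqM
  -- corestriction of `θ` to the `pⁿ`-torsion
  let θ' : Lpar (M' * q) →+ Jp (M' * q) (p ^ n) :=
    { toFun := fun u => ⟨θ u, (mem_Jp_iff (M' * q) (p ^ n) (θ u)).mpr (hθ1 u)⟩
      map_zero' := Subtype.ext (map_zero θ)
      map_add' := fun u v => Subtype.ext (map_add θ u v) }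
  have hker : ∀ u, θ'.toIntLinearMap u = 0 → ∃ z, u = ((p ^ n : ℕ) : ℤ) • z := by
    intro u hu
    apply hθ2 u
    have h : ((θ' u : Jp (M' * q) (p ^ n)) : JZero (M' * q)) = 0 := congrArg Subtype.val hu
    exact h
  have hheck : ∀ (ℓ : ℕ) (hℓ : ℓ.Prime) (hℓN : ¬ ℓ ∣ M' * q), ℓ ≠ p → ∀ u,
      heckeJp (M' * q) (p ^ n) ⟨ℓ, hℓ⟩ (θ' u)
        = θ' (Fermat.Agent.S29.heckeLpar (M' * q) ℓ hℓ hℓN u) := by
    intro ℓ hℓ hℓN hℓp u
    apply Subtype.ext
    change heckeOperatorBar (M' * q) ⟨ℓ, hℓ⟩ (θ u)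
      = θ (Fermat.Agent.S29.heckeLpar (M' * q) ℓ hℓ hℓN u)
    exact (hθ3 ℓ hℓ hℓN hℓp u).symm
  have hpS' : p ∈ (↑S : Set ℕ) := Finset.mem_coe.mpr hpS
  -- the vector
  obtain ⟨Lv, hLv⟩ := hB (M' * q) p hp (↑S : Set ℕ) hpS' 𝒪 (iota.comp chig.rangeRestrict) n
    (∑ i, x i ⊗ₜ[ℤ] θ' (b i))
    (by
      intro a ha
      have h := EigLevel.dvd_of_smul_sum_tmul_eq_zero b θ'.toIntLinearMap (p ^ n) hker x hx1 a ha
      rwa [Nat.cast_pow] at h)
    (by
      intro ℓ hℓ hℓN hℓS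
      have hℓp : ℓ ≠ p := fun h => hℓS (h ▸ hpS')
      rw [map_sum]
      simp_rw [LinearMap.baseChange_tmul, hheck ℓ hℓ hℓN hℓp]
      exact EigLevel.sum_tmul_map_eq_smul b (Fermat.Agent.S29.heckeLpar (M' * q) ℓ hℓ hℓN)
        θ'.toIntLinearMap x _ (fun k => hx ℓ hℓ hℓN hℓS k))
  refine ⟨Lv, hLv q {k | ∃ c : Lpar (M' * q),
      tr₁ M' q (c : Additive (Gamma0 (M' * q)) →+ ℤ) = 0 ∧
      tr₂ M' q (c : Additive (Gamma0 (M' * q)) →+ ℤ) = 0 ∧ k = θ' c} ?_ ?_⟩
  · have h := NewVecB.sum_tmul_map_mem_span_tr (rfl : M' * q = M' * q) (fun i => b i) x hxa hxb θ'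
    refine Submodule.span_mono ?_ h
    rintro _ ⟨c, hc1, hc2, rfl⟩
    exact ⟨θ' c, ⟨c, hc1, hc2, rfl⟩, rfl⟩
  · rintro _ ⟨c, hc1, hc2, rfl⟩ A hA σ hσ
    exact hθ4 c hc1 hc2 A hA σ hσ

/-! ### The frozen statement in hypothesis form -/

/-- **S35 in hypothesis form** — the statement of `Fermat/Templates/S35.lean.txt` verbatim, with
the three open leaves [B], [K-tr], [GNorm] as hypotheses. -/
theorem s35_of_leaves (hB : LevelBStatement)
    (hKTr : ∀ (M q m : ℕ) [NeZero M] [NeZero q], q.Prime → ¬ q ∣ M → m ≠ 0 →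
      NewPlan.KTrStatement M q m)
    (hCorr : ∀ (M q : ℕ) [NeZero M] [NeZero q] (hq : q.Prime) (hqM : ¬ q ∣ M) (m : ℕ), ¬ q ∣ m →
      ModelFAsm.CorrStatement M q hq hqM m (fun _ => ModelFPlan.NormCond M q m))
    {M : ℕ} [NeZero M] {g : CuspForm (CongruenceSubgroup.Gamma0 M) 2} (hg : g.IsNewform)
    (lam : ℕ) [Fact lam.Prime]
    (S : Finset ℕ)
    (O' : Type) [CommRing O'] [IsDomain O'] [IsDiscreteValuationRing O']
    [IsAdicComplete (IsLocalRing.maximalIdeal O') O'] [Finite (IsLocalRing.ResidueField O')]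
    [CharZero O'] (hlamO' : (lam : O') ∈ IsLocalRing.maximalIdeal O')
    (chig : CuspForm.heckeAlgebra M 2 (↑S : Set ℕ) →+* ℂ)
    (hchig : ∀ (ℓ : ℕ) (hℓ : ℓ.Prime) (hℓM : ¬ ℓ ∣ M) (hℓS : ℓ ∉ (↑S : Set ℕ)),
      chig (CuspForm.heckeAlgebra.T hℓ hℓM hℓS) = ModularFormClass.qCoeff g ℓ)
    (iota : chig.range →+* O')
    (hlamS : lam ∈ S) (hMS : ∀ q : ℕ, q.Prime → q ∣ M → q ∈ S) :
    ∃ (O'' : Type) (_ : CommRing O'') (_ : IsDomain O'') (_ : IsDiscreteValuationRing O'')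
      (_ : IsAdicComplete (IsLocalRing.maximalIdeal O'') O'') (_ : Finite (IsLocalRing.ResidueField O''))
      (_ : CharZero O'') (_ : Algebra O' O'') (_ : Module.Finite O' O'') (_ : IsLocalHom (algebraMap O' O'')),
      Function.Injective (algebraMap O' O'') ∧
      ∃ ρ : GaloisRepAdic O'',
        (∀ (ℓ : ℕ) (hℓ : ℓ.Prime) (hℓM : ¬ ℓ ∣ M) (hℓS : ℓ ∉ (↑S : Set ℕ)),
          ∀ A : ValuationSubring (AlgebraicClosure ℚ), A.LiesOverPrime ℓ →
            ∀ σ : AlgebraicClosure ℚ ≃ₐ[ℚ] AlgebraicClosure ℚ, A.IsFrobeniusAt σ ℓ →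
              LinearMap.charpoly (ρ.ρ σ) =
                X ^ 2 - C (algebraMap O' O'' ((iota.comp chig.rangeRestrict) (CuspForm.heckeAlgebra.T hℓ hℓM hℓS))) * X
                  + C ((ℓ : O''))) ∧
        (∀ q : ℕ, q.Prime → q ≠ lam → q ∣ M → ¬ q ^ 2 ∣ M →
          ∀ A : ValuationSubring (AlgebraicClosure ℚ), A.LiesOverPrime q →
            ∀ σ : AlgebraicClosure ℚ ≃ₐ[ℚ] AlgebraicClosure ℚ, A.IsFrobeniusAt σ q →
              LinearMap.charpoly (ρ.ρ σ) = X ^ 2 - C ((q : O'') + 1) * X + C ((q : O'')) ∨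
              LinearMap.charpoly (ρ.ρ σ) = X ^ 2 + C ((q : O'') + 1) * X + C ((q : O''))) := by
  have hlam : lam.Prime := Fact.out
  have hE : NewPlan.FrobNewStatement := frobNewStatement_of_corr hCorr
  exact Fermat.Agent.S35.DetQU.result_of_levelQAt Fermat.Agent.S30.OddRepB.oddRepStatement
    Fermat.Agent.S29.FD.fdStatement lam S O' hlamO' (iota.comp chig.rangeRestrict) hlamS hMS
    (fun n => Fermat.Agent.S30.LevelGlue.levelStatement M lam hlam S hlamS hMS O'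
      (iota.comp chig.rangeRestrict) n
      (Fermat.Agent.S30.kAway_of_kStatement hlam n
        (Fermat.Agent.S29.kStatement M (lam ^ n) (pow_ne_zero n hlam.ne_zero))))
    (fun q hq => levelQAt_of_leaves hB hE hKTr hg lam hlam S hlamS O' chig hchig iota q hq)

end

end Fermat.Agent.S35.Final
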