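import Mathlib

/-!
# S35, block [A] (pure algebra): from an annihilating polynomial of a Frobenius lift to its trace

Let `s` be an endomorphism of a module `V` over a commutative ring `𝒪` with
`s² - t s + q = 0` (`t`, `q` scalars) and let `w ∈ V` be killed by `(s² - q²)(s² - 1)²`.
Then `q² ((q+1)² - t²)³ • w = 0` (`smul_eq_zero_of_annihilated`).

Reason: `(X - c)(t - X - c) = F(c) - F` for `F = X² - tX + q`, so multiplying
`(X-q)(X+q)(X-1)²(X+1)²` by the conjugate factors gives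
`F(q) F(-q) F(1)² F(-1)² = q² ((q+1)² - t²)³` modulo `F`.

Consequently (`sq_eq_of_levels`): if for every `n` there is such a datum `(V n, s n, w n)` in
which the annihilator of `w n` is contained in `ϖ ^ n 𝒪`, and `𝒪` is a `ϖ`-adically separated
domain in which `q ≠ 0`, then `t ^ 2 = (q + 1) ^ 2`, i.e. `t = q + 1` or `t = -(q + 1)`.
-/

set_option autoImplicit false

namespace Fermat.Agent.S35.FrobAlg

open Polynomial

variable {𝒪 : Type*} [CommRing 𝒪]

/-- `(X - c)(t - X - c) = F(c) - F`, `F = X² - tX + q`. -/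
theorem factor_identity (t q c : 𝒪) :
    ((X : 𝒪[X]) - C c) * (C t - X - C c) =
      C (c ^ 2 - t * c + q) - (X ^ 2 - C t * X + C q) := by
  simp only [map_sub, map_add, map_mul, map_pow]
  ring

/-- The product of the six conjugate factors. -/
noncomputable def conj (t q : 𝒪) : 𝒪[X] :=
  (C t - X - C q) * (C t - X - C (-q)) * ((C t - X - C 1) * (C t - X - C 1)) *
    ((C t - X - C (-1)) * (C t - X - C (-1)))

/-- The annihilating polynomial `(X² - q²)(X² - 1)²`, as a product of linear factors. -/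
noncomputable def annPoly (q : 𝒪) : 𝒪[X] :=
  (X - C q) * (X - C (-q)) * ((X - C 1) * (X - C 1)) * ((X - C (-1)) * (X - C (-1)))

theorem annPoly_eq (q : 𝒪) :
    annPoly q = ((X : 𝒪[X]) ^ 2 - C q ^ 2) * ((X ^ 2 - 1) * (X ^ 2 - 1)) := by
  simp only [annPoly, map_neg, map_one]
  ring

theorem annPoly_mul_conj (t q : 𝒪) :
    annPoly q * conj t q =
      (C (q ^ 2 - t * q + q) - (X ^ 2 - C t * X + C q)) *
        (C ((-q) ^ 2 - t * (-q) + q) - (X ^ 2 - C t * X + C q)) *
        ((C (1 ^ 2 - t * 1 + q) - (X ^ 2 - C t * X + C q)) *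
          (C (1 ^ 2 - t * 1 + q) - (X ^ 2 - C t * X + C q))) *
        ((C ((-1) ^ 2 - t * (-1) + q) - (X ^ 2 - C t * X + C q)) *
          (C ((-1) ^ 2 - t * (-1) + q) - (X ^ 2 - C t * X + C q))) := by
  rw [← factor_identity t q q, ← factor_identity t q (-q), ← factor_identity t q 1,
    ← factor_identity t q (-1)]
  simp only [annPoly, conj]
  ring

variable {V : Type*} [AddCommGroup V] [Module 𝒪 V]

/-- **Elimination.** If `s² - t s + q = 0` on `V` and `(s² - q²)(s² - 1)² w = 0`, then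
`q² ((q+1)² - t²)³ • w = 0`. -/
theorem smul_eq_zero_of_annihilated (s : Module.End 𝒪 V) (t q : 𝒪)
    (hs : s * s - t • s + q • (1 : Module.End 𝒪 V) = 0) (w : V)
    (hw : ((s * s - (q ^ 2) • (1 : Module.End 𝒪 V)) *
      ((s * s - 1) * (s * s - 1))) w = 0) :
    (q ^ 2 * ((q + 1) ^ 2 - t ^ 2) ^ 3) • w = 0 := by
  have hF : aeval s ((X : 𝒪[X]) ^ 2 - C t * X + C q) = 0 := by
    simp only [map_add, map_sub, map_mul, map_pow, aeval_X, aeval_C, Algebra.algebraMap_eq_smul_one]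
    rw [smul_mul_assoc, one_mul, pow_two]
    exact hs
  have hP : aeval s (annPoly q) w = 0 := by
    rw [annPoly_eq]
    simp only [map_sub, map_mul, map_pow, map_one, aeval_X, aeval_C,
      Algebra.algebraMap_eq_smul_one]
    rw [pow_two s, _root_.smul_pow, one_pow]
    exact hw
  have h1 : aeval s (annPoly q * conj t q) w = 0 := by
    rw [mul_comm, map_mul, Module.End.mul_apply, hP, map_zero]
  rw [annPoly_mul_conj] at h1
  simp only [map_mul, map_sub, hF, sub_zero, aeval_C, Algebra.algebraMap_eq_smul_one] at h1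
  have h2 : (((q ^ 2 - t * q + q) • (1 : Module.End 𝒪 V)) *
      (((-q) ^ 2 - t * (-q) + q) • (1 : Module.End 𝒪 V)) *
      (((1 ^ 2 - t * 1 + q) • (1 : Module.End 𝒪 V)) * ((1 ^ 2 - t * 1 + q) • (1 : Module.End 𝒪 V))) *
      ((((-1) ^ 2 - t * (-1) + q) • (1 : Module.End 𝒪 V)) *
        (((-1) ^ 2 - t * (-1) + q) • (1 : Module.End 𝒪 V)))) =
      (q ^ 2 * ((q + 1) ^ 2 - t ^ 2) ^ 3) • (1 : Module.End 𝒪 V) := by
    simp only [smul_mul_smul_comm, mul_one]
    congr 1
    ring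
  rw [h2] at h1
  simpa using h1

/-- **Trace of a Frobenius lift from the levels.** -/
theorem sq_eq_of_levels [IsDomain 𝒪] (ϖ : 𝒪)
    (hsep : ∀ a : 𝒪, (∀ n : ℕ, ϖ ^ n ∣ a) → a = 0)
    (X : ℕ → Type*) [∀ n, AddCommGroup (X n)] [∀ n, Module 𝒪 (X n)]
    (s : ∀ n, Module.End 𝒪 (X n)) (w : ∀ n, X n) (t q : 𝒪) (hq : q ≠ 0)
    (hann : ∀ (n : ℕ) (a : 𝒪), a • w n = 0 → ϖ ^ n ∣ a)
    (hs : ∀ n, s n * s n - t • s n + q • (1 : Module.End 𝒪 (X n)) = 0)
    (hw : ∀ n, ((s n * s n - (q ^ 2) • (1 : Module.End 𝒪 (X n))) *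
      ((s n * s n - 1) * (s n * s n - 1))) (w n) = 0) :
    t = q + 1 ∨ t = -(q + 1) := by
  have h0 : q ^ 2 * ((q + 1) ^ 2 - t ^ 2) ^ 3 = 0 :=
    hsep _ fun n => hann n _ (smul_eq_zero_of_annihilated (s n) t q (hs n) (w n) (hw n))
  have h1 : (q + 1) ^ 2 - t ^ 2 = 0 := by
    rcases mul_eq_zero.mp h0 with h | h
    · exact absurd ((pow_eq_zero_iff (two_ne_zero)).mp h) hq
    · exact (pow_eq_zero_iff (three_ne_zero)).mp h
  have h2 : (t - (q + 1)) * (t + (q + 1)) = 0 := by linear_combination -h1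
  rcases mul_eq_zero.mp h2 with h | h
  · exact Or.inl (sub_eq_zero.mp h)
  · exact Or.inr (eq_neg_of_add_eq_zero_left h)

end Fermat.Agent.S35.FrobAlg
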