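/-
S35 — FrobInst.lean (helper120), block [E]-modular, row [FrobInst] (A) of helper5's DEAL #1.

The `frob` field of `ModelFPlan.ChartModelF`, i.e. `ModelFPlan.FrobHyp` for a chart `R` of `F_K`
and the coefficientwise action `Σ = TauAct.tauE` of an element of the decomposition group
("square of a Frobenius lift"):

* `frobHyp_of_decomp` : GENERAL level `N`, GENERAL ring automorphism `w` of `F_K = FK N K`
                        commuting with `Σ` (second component `V2 = V1.comap w`), GENERAL `τ` in the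
                        decomposition group of `A` whose residual automorphism is `x ↦ x ^ Q`,
                        GENERAL subalgebra `R` stable under `Σ` and `Σ⁻¹`;
* `frobHyp`           : the row as dealt — level `M q`, `w = w_q` (`WK.wK`), `τ = σs * σs` for a
                        Frobenius lift `σs` at `A`, `Q = q ^ 2`, `R` any subalgebra stable under the
                        decomposition group (the `hR` shape of `S34.Model2AsmB.tau_of`);
* `frobHyp_JK`, `frobHyp_JK_inv` : closed forms for the two charts `chart J`, `chart J⁻¹`;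
* `locFrobHyp` (+ `_JK`, `_JK_inv`) : the same in the weaker `V`-forms of `LocFPlan.FrobHyp`
                        (the abstract block's structure), and the abstract adapter
                        `locFrobHyp_of_frobHyp : ModelFPlan.FrobHyp → LocFPlan.FrobHyp`.

Everything is assembled from `S35/FrobAct` (helper94: `tauE_mem_V1/V2`, `sigO`, `resO_sigO`,
`exists_unit_tauE_pi`, `resAut_sq_of_isFrobeniusAt`) and `S34/WKInst.wK_tauE` (helper79).
-/
import Mathlib
import Fermat.Agent.S34.WKInst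
import Fermat.Agent.S34.ChartHypInst
import Fermat.Agent.S35.FrobAct
import Fermat.Agent.S35.ModelFPlan
import Fermat.Agent.S35.LocFPlan

set_option autoImplicit false

noncomputable section

namespace Fermat.Agent.S35.FrobInst

open ModularCurve HahnSeries AlgebraicCurve Fermat.Agent.S18.Arith
open Fermat.Agent.S34

/-- `Gal(ℚ̄/ℚ)`. -/
local notation "GQ" => (Qb ≃ₐ[ℚ] Qb)

/-! ### The abstract adapter `ModelFPlan.FrobHyp → LocFPlan.FrobHyp` -/

section Adapter

variable {O : Type*} [CommRing O] {R : Type*} [CommRing R] [Algebra O R]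
  {E : Type*} [Field E] [Algebra R E]

/-- The `O`-forms of `ModelFPlan.FrobHyp` imply the `V`-forms of `LocFPlan.FrobHyp`, as soon as
the constants of `O` lie in both valuation rings (e.g. by `LocPlan.ChartHyp.le`). -/
theorem locFrobHyp_of_frobHyp {π : O} {V : Fin 2 → ValuationSubring E} {Q : ℕ} {σ : E ≃+* E}
    (h : ModelFPlan.FrobHyp (R := R) π V Q σ)
    (hO : ∀ (i : Fin 2) (c : O), algebraMap R E (algebraMap O R c) ∈ V i) :
    LocFPlan.FrobHyp (R := R) π V σ Q where
  map_R := h.map_R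
  symm_R := h.symm_R
  map_V := h.map_V
  symm_V := h.symm_V
  pi i := by
    obtain ⟨u, hu, hσ⟩ := h.pi
    obtain ⟨v, hv⟩ := hu
    refine ⟨algebraMap R E (algebraMap O R u), hO i u, ?_, hσ⟩
    have h1 : algebraMap R E (algebraMap O R u) * algebraMap R E (algebraMap O R (↑v⁻¹ : O))
        = 1 := by
      rw [← map_mul, ← map_mul, ← hv, Units.mul_inv, map_one, map_one]
    rw [inv_eq_of_mul_eq_one_right h1]
    exact hO i _
  const c i := by
    obtain ⟨c', hc'⟩ := h.frob c
    exact ⟨algebraMap R E (algebraMap O R c'), hO i c', hc'⟩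

end Adapter

/-! ### General level, general decomposition-group element -/

section General

variable {N : ℕ} [NeZero N] {A : ValuationSubring Qb} {K : IntermediateField ℚ Qb}

omit [NeZero N] in
/-- `w` commutes with `Σ⁻¹` if it commutes with `Σ`. -/
theorem comm_symm' (w : FK N K ≃+* FK N K) {τ : GQ} (hK : TauAct.Stable K τ)
    (hcomm : ∀ x, w (TauAct.tauE N hK x) = TauAct.tauE N hK (w x)) (x : FK N K) :
    w (TauAct.tauE N hK.symm x) = TauAct.tauE N hK.symm (w x) := by
  rw [← TauAct.tauE_symm_eq N hK, ← TauAct.tauE_symm_eq N hK, RingEquiv.eq_symm_apply, ← hcomm,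
    RingEquiv.apply_symm_apply]

/-- **[FrobInst], general form.** `ModelFPlan.FrobHyp` for a subalgebra `R ⊆ F_K` stable under
`Σ^{±1}`, the two component valuation rings `V1`, `V2 = V1.comap w`, and the coefficientwise
action `Σ = tauE` of an element `τ` of the decomposition group of `A` which commutes with `w` and
whose residual automorphism is `x ↦ x ^ Q`. -/
theorem frobHyp_of_decomp (hdvr : IsDiscreteValuationRing (OK A K)) {π : OK A K}
    (hπ : Irreducible π) (w : FK N K ≃+* FK N K) {τ : GQ}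
    (hτ : τ ∈ A.decompositionSubgroup ℚ) (hK : TauAct.Stable K τ)
    (hcomm : ∀ x, w (TauAct.tauE N hK x) = TauAct.tauE N hK (w x))
    (Q : ℕ) (hres : ∀ x : IsLocalRing.ResidueField A, FrobAct.resAut A hτ x = x ^ Q)
    (R : Subalgebra (OK A K) (FK N K))
    (hR : ∀ x ∈ R, TauAct.tauE N hK x ∈ R) (hR' : ∀ x ∈ R, TauAct.tauE N hK.symm x ∈ R) :
    ModelFPlan.FrobHyp (R := R) π (ChartHypInst.Vfam w hdvr) Q (TauAct.tauE N hK) where
  map_R r := ⟨⟨TauAct.tauE N hK (r : FK N K), hR _ r.2⟩, rfl⟩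
  symm_R r := ⟨⟨TauAct.tauE N hK.symm (r : FK N K), hR' _ r.2⟩, rfl⟩
  map_V i := by
    fin_cases i
    · exact fun x hx => FrobAct.tauE_mem_V1 hdvr hτ hK hx
    · exact fun x hx => FrobAct.tauE_mem_V2 w hdvr hτ hK hcomm hx
  symm_V i := by
    have hτ' := TauAct.symm_mem_decomp A hτ
    fin_cases i
    · exact fun x hx => FrobAct.tauE_mem_V1 hdvr hτ' hK.symm hx
    · exact fun x hx => FrobAct.tauE_mem_V2 w hdvr hτ' hK.symm (comm_symm' w hK hcomm) hx
  frob c := by
    have := hdvr
    have h0 : resO A K (FrobAct.sigO hτ hK c - c ^ Q) = 0 := by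
      rw [map_sub, map_pow, FrobAct.resO_sigO, hres, sub_self]
    obtain ⟨z, hz⟩ := (Fermat.Agent.S18.ResOKEquiv.resO_eq_zero_iff_dvd A K π hπ _).mp h0
    refine ⟨z, ?_⟩
    show TauAct.tauE N hK (algebraMap (OK A K) (FK N K) c) - algebraMap (OK A K) (FK N K) c ^ Q
      = algebraMap (OK A K) (FK N K) π * algebraMap (OK A K) (FK N K) z
    rw [FrobAct.tauE_algebraMap_sigO N hτ hK c, ← map_pow, ← map_sub, hz, map_mul]
  pi := by
    obtain ⟨u, hu⟩ := FrobAct.exists_unit_tauE_pi N hdvr hπ hτ hK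
    exact ⟨(u : OK A K), u.isUnit, hu⟩

end General

/-! ### Level `M q`, the square of a Frobenius lift -/

section Modular

variable (M q : ℕ) [NeZero M] [NeZero q] (hq : q.Prime) (hqM : ¬ q ∣ M)
variable {A : ValuationSubring Qb} {K : IntermediateField ℚ Qb}

/-- **[FrobInst]** (row of helper5's DEAL #1): `ModelFPlan.FrobHyp` with `Q = q ^ 2` for the
action `Σ = tauE` of `τ = σs * σs`, `σs` a Frobenius lift at `A`, on any subalgebra `R` of
`F_K = FK (M q) K` which is stable under the decomposition group. -/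
theorem frobHyp (hdvr : IsDiscreteValuationRing (OK A K)) {π : OK A K} (hπ : Irreducible π)
    {σs : GQ} (hσ : A.IsFrobeniusAt σs q) (hK : TauAct.Stable K (σs * σs))
    (R : Subalgebra (OK A K) (FK (M * q) K))
    (hR : ∀ (σ : GQ) (_ : σ ∈ A.decompositionSubgroup ℚ) (hσK : TauAct.Stable K σ),
      ∀ x ∈ R, TauAct.tauE (M * q) hσK x ∈ R) :
    ModelFPlan.FrobHyp (R := R) π (ChartHypInst.Vfam (WK.wK M q hq hqM K) hdvr) (q ^ 2)
      (TauAct.tauE (M * q) hK) :=
  have hτ : σs * σs ∈ A.decompositionSubgroup ℚ :=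
    mul_mem hσ.mem_decompositionSubgroup hσ.mem_decompositionSubgroup
  frobHyp_of_decomp hdvr hπ (WK.wK M q hq hqM K) hτ hK
    (fun x => WKInst.wK_tauE M q hq hqM hK x) (q ^ 2)
    (fun x => FrobAct.resAut_sq_of_isFrobeniusAt A hσ x) R
    (hR (σs * σs) hτ hK)
    (hR (σs * σs).symm (TauAct.symm_mem_decomp A hτ) hK.symm)

/-- **[FrobInst]** for the chart `chart J`, `J = j · j_q`. -/
theorem frobHyp_JK (hdvr : IsDiscreteValuationRing (OK A K)) {π : OK A K} (hπ : Irreducible π)
    {σs : GQ} (hσ : A.IsFrobeniusAt σs q) (hK : TauAct.Stable K (σs * σs)) :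
    ModelFPlan.FrobHyp (R := ↥(chart (M * q) A K (WKInst.JK M q hq hqM K))) π
      (ChartHypInst.Vfam (WK.wK M q hq hqM K) hdvr) (q ^ 2) (TauAct.tauE (M * q) hK) :=
  frobHyp M q hq hqM hdvr hπ hσ hK _
    (fun _ hσd hσK _ hx => WKInst.tauE_mem_chart_JK M q hq hqM A hσK hσd hx)

/-- **[FrobInst]** for the chart `chart J⁻¹`. -/
theorem frobHyp_JK_inv (hdvr : IsDiscreteValuationRing (OK A K)) {π : OK A K}
    (hπ : Irreducible π) {σs : GQ} (hσ : A.IsFrobeniusAt σs q)
    (hK : TauAct.Stable K (σs * σs)) :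
    ModelFPlan.FrobHyp (R := ↥(chart (M * q) A K (WKInst.JK M q hq hqM K)⁻¹)) π
      (ChartHypInst.Vfam (WK.wK M q hq hqM K) hdvr) (q ^ 2) (TauAct.tauE (M * q) hK) :=
  frobHyp M q hq hqM hdvr hπ hσ hK _
    (fun _ hσd hσK _ hx => WKInst.tauE_mem_chart_JK_inv M q hq hqM A hσK hσd hx)

/-! ### The `V`-forms of the abstract block (`LocFPlan.FrobHyp`) -/

/-- The constants of `O` lie in both component valuation rings. -/
theorem algebraMap_mem_Vfam (hdvr : IsDiscreteValuationRing (OK A K)) (i : Fin 2) (c : OK A K) :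
    algebraMap (OK A K) (FK (M * q) K) c ∈ ChartHypInst.Vfam (WK.wK M q hq hqM K) hdvr i := by
  fin_cases i
  · exact GaussV.algebraMap_mem_V1 hdvr c
  · exact GaussV.algebraMap_mem_V2 (WK.wK M q hq hqM K) (WK.wK_algebraMap_OK M q hq hqM K A)
      hdvr c

/-- `LocFPlan.FrobHyp` (the abstract block's form) for `Σ = tauE` of `τ = σs * σs` on any
subalgebra `R` stable under the decomposition group. -/
theorem locFrobHyp (hdvr : IsDiscreteValuationRing (OK A K)) {π : OK A K} (hπ : Irreducible π)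
    {σs : GQ} (hσ : A.IsFrobeniusAt σs q) (hK : TauAct.Stable K (σs * σs))
    (R : Subalgebra (OK A K) (FK (M * q) K))
    (hR : ∀ (σ : GQ) (_ : σ ∈ A.decompositionSubgroup ℚ) (hσK : TauAct.Stable K σ),
      ∀ x ∈ R, TauAct.tauE (M * q) hσK x ∈ R) :
    LocFPlan.FrobHyp (R := R) π (ChartHypInst.Vfam (WK.wK M q hq hqM K) hdvr)
      (TauAct.tauE (M * q) hK) (q ^ 2) :=
  locFrobHyp_of_frobHyp (frobHyp M q hq hqM hdvr hπ hσ hK R hR)
    (fun i c => algebraMap_mem_Vfam M q hq hqM hdvr i c)

/-- `LocFPlan.FrobHyp` for the chart `chart J`. -/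
theorem locFrobHyp_JK (hdvr : IsDiscreteValuationRing (OK A K)) {π : OK A K}
    (hπ : Irreducible π) {σs : GQ} (hσ : A.IsFrobeniusAt σs q)
    (hK : TauAct.Stable K (σs * σs)) :
    LocFPlan.FrobHyp (R := ↥(chart (M * q) A K (WKInst.JK M q hq hqM K))) π
      (ChartHypInst.Vfam (WK.wK M q hq hqM K) hdvr) (TauAct.tauE (M * q) hK) (q ^ 2) :=
  locFrobHyp M q hq hqM hdvr hπ hσ hK _
    (fun _ hσd hσK _ hx => WKInst.tauE_mem_chart_JK M q hq hqM A hσK hσd hx)

/-- `LocFPlan.FrobHyp` for the chart `chart J⁻¹`. -/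
theorem locFrobHyp_JK_inv (hdvr : IsDiscreteValuationRing (OK A K)) {π : OK A K}
    (hπ : Irreducible π) {σs : GQ} (hσ : A.IsFrobeniusAt σs q)
    (hK : TauAct.Stable K (σs * σs)) :
    LocFPlan.FrobHyp (R := ↥(chart (M * q) A K (WKInst.JK M q hq hqM K)⁻¹)) π
      (ChartHypInst.Vfam (WK.wK M q hq hqM K) hdvr) (TauAct.tauE (M * q) hK) (q ^ 2) :=
  locFrobHyp M q hq hqM hdvr hπ hσ hK _
    (fun _ hσd hσK _ hx => WKInst.tauE_mem_chart_JK_inv M q hq hqM A hσK hσd hx)

end Modular

end Fermat.Agent.S35.FrobInst
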