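import Mathlib
import Fermat.Agent.S35.FrobAct
import Fermat.Agent.S35.ModelFPlan
import Fermat.Agent.S34.ChartHypInst
import Fermat.Agent.S34.WKInst

/-!
# S35, block [E]-modular, row [FrobInst] (B-copy, helper76)

The field `frob : ModelFPlan.FrobHyp π V Q Σ` of `ModelFPlan.ChartModelF`: what the modular block
knows about the action `Σ = tauE` of (the square of) a Frobenius lift on one chart `R`.

* `frobHyp_of`        generic form: any level `N`, any automorphism `w` of `F_K(N)` commuting with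
                      `tauE`, any `τ` in the decomposition group with `K` `τ`-stable, any exponent
                      `Q` with `τ c ≡ c ^ Q` modulo `π` on the constants, any `tauE`-stable
                      subalgebra `R`;
* `frobHyp`           the row of record: level `M q`, `w = wK`, `τ = σs * σs` for a Frobenius lift
                      `σs` at `q`, `Q = q ^ 2`, `V = Vfam wK`;
* `frobHyp_chart_JK`, `frobHyp_chart_JK_inv` : the two charts of the model.
-/

set_option autoImplicit false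

noncomputable section

namespace Fermat.Agent.S35.FrobInstB

open ModularCurve HahnSeries AlgebraicCurve Fermat.Agent.S18.Arith
open Fermat.Agent.S34 Fermat.Agent.S34.TauAct

/-- **[FrobInst], generic form.** -/
theorem frobHyp_of {N : ℕ} [NeZero N] {A : ValuationSubring Qb} {K : IntermediateField ℚ Qb}
    (hdvr : IsDiscreteValuationRing (OK A K)) {π : OK A K} (hπ : Irreducible π)
    (w : FK N K ≃+* FK N K) {τ : GQ} (hτ : τ ∈ A.decompositionSubgroup ℚ) (hK : Stable K τ)
    (hcomm : ∀ x : FK N K, w (tauE N hK x) = tauE N hK (w x)) (Q : ℕ)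
    (hfrob : ∀ c : OK A K, ∃ z : OK A K,
      tauE N hK (algebraMap (OK A K) (FK N K) c) - algebraMap (OK A K) (FK N K) c ^ Q
        = algebraMap (OK A K) (FK N K) π * algebraMap (OK A K) (FK N K) z)
    (R : Subalgebra (OK A K) (FK N K)) (hR : ∀ x ∈ R, tauE N hK x ∈ R)
    (hR' : ∀ x ∈ R, (tauE N hK).symm x ∈ R) :
    ModelFPlan.FrobHyp (R := ↥R) π (ChartHypInst.Vfam w hdvr) Q (tauE N hK) where
  map_R r := ⟨⟨tauE N hK (r : FK N K), hR r r.2⟩, rfl⟩
  symm_R r := ⟨⟨(tauE N hK).symm (r : FK N K), hR' r r.2⟩, rfl⟩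
  map_V i x hx := by
    fin_cases i
    · exact FrobAct.tauE_mem_V1 hdvr hτ hK hx
    · exact FrobAct.tauE_mem_V2 w hdvr hτ hK hcomm hx
  symm_V i x hx := by
    fin_cases i
    · refine (FrobAct.tauE_mem_V1_iff hdvr hτ hK).mp ?_
      rw [RingEquiv.apply_symm_apply]
      exact hx
    · refine (FrobAct.tauE_mem_V2_iff w hdvr hτ hK hcomm).mp ?_
      rw [RingEquiv.apply_symm_apply]
      exact hx
  frob c := hfrob c
  pi := by
    obtain ⟨u, hu⟩ := FrobAct.exists_unit_tauE_pi N hdvr hπ hτ hK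
    exact ⟨(u : OK A K), u.isUnit, hu⟩

section Level

variable (M q : ℕ) [NeZero M] [NeZero q] (hq : q.Prime) (hqM : ¬ q ∣ M)
variable {A : ValuationSubring Qb} {K : IntermediateField ℚ Qb}

/-- **[FrobInst]** (row of record): the square of a Frobenius lift at `q` on a chart `R` of level
`M q` stable under the decomposition group. -/
theorem frobHyp (hdvr : IsDiscreteValuationRing (OK A K)) {π : OK A K} (hπ : Irreducible π)
    {σs : GQ} (hσ : A.IsFrobeniusAt σs q) (hK : Stable K (σs * σs))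
    (R : Subalgebra (OK A K) (FK (M * q) K))
    (hR : ∀ (σ : GQ) (_ : σ ∈ A.decompositionSubgroup ℚ) (hσK : Stable K σ),
      ∀ x ∈ R, tauE (M * q) hσK x ∈ R) :
    ModelFPlan.FrobHyp (R := ↥R) π (ChartHypInst.Vfam (WK.wK M q hq hqM K) hdvr) (q ^ 2)
      (tauE (M * q) hK) := by
  have hτ : σs * σs ∈ A.decompositionSubgroup ℚ :=
    mul_mem hσ.mem_decompositionSubgroup hσ.mem_decompositionSubgroup
  exact frobHyp_of hdvr hπ (WK.wK M q hq hqM K) hτ hK
    (fun x => WKInst.wK_tauE M q hq hqM hK x) (q ^ 2)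
    (fun c => FrobAct.exists_tauE_sq_algebraMap_sub_pow (M * q) hdvr hπ hσ hK c) R
    (fun x hx => hR (σs * σs) hτ hK x hx)
    (fun x hx => hR (σs * σs).symm (symm_mem_decomp A hτ) hK.symm x hx)

/-- `frob` for the chart `chart J`. -/
theorem frobHyp_chart_JK (hdvr : IsDiscreteValuationRing (OK A K)) {π : OK A K}
    (hπ : Irreducible π) {σs : GQ} (hσ : A.IsFrobeniusAt σs q) (hK : Stable K (σs * σs)) :
    ModelFPlan.FrobHyp (R := ↥(chart (M * q) A K (WKInst.JK M q hq hqM K))) π
      (ChartHypInst.Vfam (WK.wK M q hq hqM K) hdvr) (q ^ 2) (tauE (M * q) hK) :=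
  frobHyp M q hq hqM hdvr hπ hσ hK _
    (fun _ hσd hσK _ hx => WKInst.tauE_mem_chart_JK M q hq hqM A hσK hσd hx)

/-- `frob` for the chart `chart J⁻¹`. -/
theorem frobHyp_chart_JK_inv (hdvr : IsDiscreteValuationRing (OK A K)) {π : OK A K}
    (hπ : Irreducible π) {σs : GQ} (hσ : A.IsFrobeniusAt σs q) (hK : Stable K (σs * σs)) :
    ModelFPlan.FrobHyp (R := ↥(chart (M * q) A K (WKInst.JK M q hq hqM K)⁻¹)) π
      (ChartHypInst.Vfam (WK.wK M q hq hqM K) hdvr) (q ^ 2) (tauE (M * q) hK) :=
  frobHyp M q hq hqM hdvr hπ hσ hK _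
    (fun _ hσd hσK _ hx => WKInst.tauE_mem_chart_JK_inv M q hq hqM A hσK hσd hx)

end Level

end Fermat.Agent.S35.FrobInstB
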