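import Mathlib
import Fermat.Agent.S34.LocPlan
import Fermat.Agent.S34.LocAB
import Fermat.Agent.S35.LocFPlan

/-!
# S35, abstract block [E]: the `Σ`-transport library (helper78)

Shared lemmas on `LocFPlan.FrobHyp` (an automorphism `Sg` of `E` which stabilises `R` and the two
component valuation rings and multiplies `π` by a unit) for the leaves `[Decomp]`, `[YG]`,
`[LocF0]` of `S35/LocFPlan.lean`.  These are the `FrobHyp` versions of the `TauHyp` lemmas of
`S34/LocAB.lean` (no triviality on `V i / π` is used).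

* `map_vu`, `symm_vu`, `quot_vu`, `symm_quot_vu` : `Sg` preserves the units of `V i` and the
  valuations (`Sg x / x` is a unit of `V i`);
* `map_cong`, `map_sub_one`, `map_sub_const` : transport of congruences modulo `ϖ (V i)`
  (`x ≡ c ⇒ Sg x ≡ c ^ Q` for constants `c : O`);
* `vu_of_sub_one`, `sub_one_mul`, `sub_one_pow`, `sub_one_inv`, `sub_one_div` : calculus of
  `1 + ϖ (V i)`;
* `resF` : the restriction of `Sg` to `R` as a ring automorphism; `exists_unit_resF_pi`
  (`Sg π = π * c` with `c` a unit of `R`);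
* ideals: `isPre_comap`, `eq_comap_of_isPre`, `comap_eq_of_fixedBy`, `comap_isMaximal`,
  `pi_mem_comap_iff`, `P_comap`, `P_le_comap_iff`, `P_le_iff_of_isPre`, `princAt_comap`;
* `unitAt_map`, `unitAt_map_of_isPre`, `unitAt_symm_map` : transport of units of `R_𝔮`;
* `OnePlus ϖ n x` (`x ∈ 1 + ϖ R_n`, the shape of the conclusions of `LocFPlan`) with
  `mul`, `pow`, `inv`, `div`, `unitAt`, `sub_one_mem`, `map` (transport along `Sg`) and
  `onePlus_of_unitAt` (a unit of `R_n` which is `≡ 1` modulo `ϖ (V i)` on the branches through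
  `n` lies in `1 + ϖ R_n`: reducedness of the special fibre).
-/

set_option autoImplicit false
set_option linter.unusedSectionVars false

namespace Fermat.Agent.S35.FrobLoc

open Fermat.Agent.S34.LocPlan Fermat.Agent.S34.LocAB Fermat.Agent.S35.LocFPlan

section Val

variable {O : Type*} [CommRing O] {R : Type*} [CommRing R] [Algebra O R]
  {E : Type*} [Field E] [Algebra R E]
  {π : O} {V : Fin 2 → ValuationSubring E} {P : Fin 2 → Ideal R} {Sg : E ≃+* E} {Q : ℕ}

/-! ### `Sg` and the valuation rings -/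

theorem map_vu (F : FrobHyp (R := R) π V Sg Q) (i : Fin 2) {x : E} (hx : VU (V i) x) :
    VU (V i) (Sg x) :=
  ⟨(map_ne_zero Sg).mpr hx.1, F.map_V i x hx.2.1, by
    rw [← map_inv₀]; exact F.map_V i _ hx.2.2⟩

theorem symm_vu (F : FrobHyp (R := R) π V Sg Q) (i : Fin 2) {x : E} (hx : VU (V i) x) :
    VU (V i) (Sg.symm x) :=
  ⟨(map_ne_zero Sg.symm).mpr hx.1, F.symm_V i x hx.2.1, by
    rw [← map_inv₀]; exact F.symm_V i _ hx.2.2⟩

/-- `Sg x / x` is a unit of `V i` for every `x ≠ 0` (`Sg` preserves the valuation of `V i`). -/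
theorem quot_vu (H : ChartHyp π V P) (F : FrobHyp (R := R) π V Sg Q) (i : Fin 2) {x : E}
    (hx : x ≠ 0) : VU (V i) (Sg x / x) := by
  obtain ⟨k, u, hu, hu', rfl⟩ := H.disc i x hx
  obtain ⟨c, hc, hc', hσ⟩ := F.pi i
  have hϖ := pi_ne_zero H
  have hu0 : u ≠ 0 := right_ne_zero_of_mul hx
  have hc0 : c ≠ 0 := by
    rintro rfl
    rw [mul_zero] at hσ
    exact hϖ ((map_eq_zero Sg).mp hσ)
  have huu : VU (V i) u := ⟨hu0, hu, hu'⟩
  have hϖk : algebraMap R E (algebraMap O R π) ^ k ≠ 0 := zpow_ne_zero k hϖ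
  have key : Sg (algebraMap R E (algebraMap O R π) ^ k * u)
      / (algebraMap R E (algebraMap O R π) ^ k * u) = c ^ k * (Sg u / u) := by
    rw [map_mul, map_zpow₀, hσ, mul_zpow, mul_assoc, mul_div_mul_left _ _ hϖk, mul_div_assoc]
  rw [key]
  exact (VU.zpow ⟨hc0, hc, hc'⟩ k).mul ((map_vu F i huu).div huu)

/-- `Sg⁻¹ x / x` is a unit of `V i` for every `x ≠ 0`. -/
theorem symm_quot_vu (H : ChartHyp π V P) (F : FrobHyp (R := R) π V Sg Q) (i : Fin 2) {x : E}
    (hx : x ≠ 0) : VU (V i) (Sg.symm x / x) := by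
  have h := (quot_vu H F i ((map_ne_zero Sg.symm).mpr hx)).inv
  rwa [RingEquiv.apply_symm_apply, inv_div] at h

/-- `Sg⁻¹ π = π * unit`. -/
theorem symm_pi (H : ChartHyp π V P) (F : FrobHyp (R := R) π V Sg Q) (i : Fin 2) :
    ∃ u ∈ V i, u⁻¹ ∈ V i ∧
      Sg.symm (algebraMap R E (algebraMap O R π)) = algebraMap R E (algebraMap O R π) * u := by
  have hϖ := pi_ne_zero H
  obtain ⟨-, h1, h2⟩ := symm_quot_vu H F i hϖ
  exact ⟨_, h1, h2, by field_simp⟩

/-! ### Congruences modulo `ϖ (V i)` -/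

/-- `x ≡ y ⇒ Sg x ≡ Sg y` modulo `ϖ (V i)`. -/
theorem map_cong (F : FrobHyp (R := R) π V Sg Q) (i : Fin 2) {x y : E}
    (h : ∃ z ∈ V i, x - y = algebraMap R E (algebraMap O R π) * z) :
    ∃ z ∈ V i, Sg x - Sg y = algebraMap R E (algebraMap O R π) * z := by
  obtain ⟨z, hz, hxy⟩ := h
  obtain ⟨c, hc, -, hσ⟩ := F.pi i
  refine ⟨c * Sg z, mul_mem hc (F.map_V i z hz), ?_⟩
  rw [← map_sub, hxy, map_mul, hσ]
  ring

/-- `x ≡ 1 ⇒ Sg x ≡ 1` modulo `ϖ (V i)`. -/
theorem map_sub_one (F : FrobHyp (R := R) π V Sg Q) (i : Fin 2) {x : E}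
    (h : ∃ z ∈ V i, x - 1 = algebraMap R E (algebraMap O R π) * z) :
    ∃ z ∈ V i, Sg x - 1 = algebraMap R E (algebraMap O R π) * z := by
  have h' := map_cong F i h
  rwa [map_one] at h'

/-- `x ≡ c ⇒ Sg x ≡ c ^ Q` modulo `ϖ (V i)` for a constant `c : O`. -/
theorem map_sub_const (F : FrobHyp (R := R) π V Sg Q) (i : Fin 2) {x : E} (c : O)
    (h : ∃ z ∈ V i, x - algebraMap R E (algebraMap O R c) =
      algebraMap R E (algebraMap O R π) * z) :
    ∃ z ∈ V i, Sg x - algebraMap R E (algebraMap O R c) ^ Q =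
      algebraMap R E (algebraMap O R π) * z := by
  obtain ⟨z₁, hz₁, h₁⟩ := map_cong F i h
  obtain ⟨z₂, hz₂, h₂⟩ := F.const c i
  exact ⟨z₁ + z₂, add_mem hz₁ hz₂, by linear_combination h₁ + h₂⟩

/-- An element of `1 + ϖ (V i)` is a unit of `V i`. -/
theorem vu_of_sub_one (H : ChartHyp π V P) (i : Fin 2) {x : E}
    (h : ∃ z ∈ V i, x - 1 = algebraMap R E (algebraMap O R π) * z) : VU (V i) x := by
  obtain ⟨z, hz, hx⟩ := h
  have hxV : x ∈ V i := by
    have : x = 1 + algebraMap R E (algebraMap O R π) * z := by linear_combination hx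
    rw [this]
    exact add_mem (one_mem _) (mul_mem (pi_mem H i) hz)
  have hnot : ¬ ∃ y ∈ V i, x = algebraMap R E (algebraMap O R π) * y := by
    rintro ⟨y, hy, hxy⟩
    apply H.pi_not i
    have h1 : algebraMap R E (algebraMap O R π) * (y - z) = 1 := by
      linear_combination hx - hxy
    rw [inv_eq_of_mul_eq_one_right h1]
    exact sub_mem hy hz
  refine ⟨?_, hxV, inv_mem_of_not H i hxV hnot⟩
  rintro rfl
  exact hnot ⟨0, zero_mem _, by rw [mul_zero]⟩

/-- `1 + ϖ (V i)` is closed under products. -/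
theorem sub_one_mul (H : ChartHyp π V P) (i : Fin 2) {x y : E}
    (hx : ∃ z ∈ V i, x - 1 = algebraMap R E (algebraMap O R π) * z)
    (hy : ∃ z ∈ V i, y - 1 = algebraMap R E (algebraMap O R π) * z) :
    ∃ z ∈ V i, x * y - 1 = algebraMap R E (algebraMap O R π) * z := by
  obtain ⟨z₁, hz₁, h₁⟩ := hx
  obtain ⟨z₂, hz₂, h₂⟩ := hy
  refine ⟨z₁ * y + z₂, add_mem (mul_mem hz₁ (vu_of_sub_one H i ⟨z₂, hz₂, h₂⟩).2.1) hz₂, ?_⟩
  linear_combination y * h₁ + h₂

/-- `1 + ϖ (V i)` is closed under powers. -/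
theorem sub_one_pow (H : ChartHyp π V P) (i : Fin 2) {x : E}
    (hx : ∃ z ∈ V i, x - 1 = algebraMap R E (algebraMap O R π) * z) (k : ℕ) :
    ∃ z ∈ V i, x ^ k - 1 = algebraMap R E (algebraMap O R π) * z := by
  induction k with
  | zero => exact ⟨0, zero_mem _, by rw [pow_zero, sub_self, mul_zero]⟩
  | succ k ih =>
    rw [pow_succ]
    exact sub_one_mul H i ih hx

/-- `1 + ϖ (V i)` is closed under inverses. -/
theorem sub_one_inv (H : ChartHyp π V P) (i : Fin 2) {x : E}
    (hx : ∃ z ∈ V i, x - 1 = algebraMap R E (algebraMap O R π) * z) :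
    ∃ z ∈ V i, x⁻¹ - 1 = algebraMap R E (algebraMap O R π) * z := by
  have hu := vu_of_sub_one H i hx
  obtain ⟨z, hz, h⟩ := hx
  refine ⟨-(z * x⁻¹), neg_mem (mul_mem hz hu.2.2), ?_⟩
  have hx0 := hu.1
  field_simp
  linear_combination -h

/-- `1 + ϖ (V i)` is closed under quotients. -/
theorem sub_one_div (H : ChartHyp π V P) (i : Fin 2) {x y : E}
    (hx : ∃ z ∈ V i, x - 1 = algebraMap R E (algebraMap O R π) * z)
    (hy : ∃ z ∈ V i, y - 1 = algebraMap R E (algebraMap O R π) * z) :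
    ∃ z ∈ V i, x / y - 1 = algebraMap R E (algebraMap O R π) * z := by
  rw [div_eq_mul_inv]
  exact sub_one_mul H i hx (sub_one_inv H i hy)

/-- If `x ≡ c` and `y ≡ c` modulo `ϖ (V i)` with `c` a unit of `V i`, then `x / y ≡ 1`. -/
theorem div_sub_one_of_cong (H : ChartHyp π V P) (i : Fin 2) {x y c : E} (hc : VU (V i) c)
    (hx : ∃ z ∈ V i, x - c = algebraMap R E (algebraMap O R π) * z)
    (hy : ∃ z ∈ V i, y - c = algebraMap R E (algebraMap O R π) * z) :
    ∃ z ∈ V i, x / y - 1 = algebraMap R E (algebraMap O R π) * z := by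
  have h1 : ∀ t : E, (∃ z ∈ V i, t - c = algebraMap R E (algebraMap O R π) * z) →
      ∃ z ∈ V i, t / c - 1 = algebraMap R E (algebraMap O R π) * z := by
    rintro t ⟨z, hz, h⟩
    refine ⟨z * c⁻¹, mul_mem hz hc.2.2, ?_⟩
    have hc0 := hc.1
    field_simp
    linear_combination h
  have h2 := sub_one_div H i (h1 x hx) (h1 y hy)
  have hc0 := hc.1
  have hy0 : y ≠ 0 := by
    rintro rfl
    obtain ⟨z, hz, h⟩ := h1 0 hy
    apply H.pi_not i
    have h1' : algebraMap R E (algebraMap O R π) * (-z) = 1 := by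
      rw [zero_div] at h
      linear_combination h
    rw [inv_eq_of_mul_eq_one_right h1']
    exact neg_mem hz
  have e : x / c / (y / c) = x / y := by field_simp
  rwa [e] at h2

end Val

section Res

variable {O : Type*} [CommRing O] {R : Type*} [CommRing R] [Algebra O R]
  {E : Type*} [Field E] [Algebra R E] [IsDomain R] [IsFractionRing R E]
  {π : O} {V : Fin 2 → ValuationSubring E} {P : Fin 2 → Ideal R} {Sg : E ≃+* E} {Q : ℕ}

/-! ### The restriction of `Sg` to `R` -/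

/-- The restriction of `Sg` to `R`, a ring automorphism of `R`. -/
noncomputable def resF (F : FrobHyp (R := R) π V Sg Q) : R ≃+* R where
  toFun := resR Sg F.map_R
  invFun := resR Sg.symm F.symm_R
  left_inv r := by
    apply IsFractionRing.injective R E
    rw [algebraMap_resR, algebraMap_resR, RingEquiv.symm_apply_apply]
  right_inv r := by
    apply IsFractionRing.injective R E
    rw [algebraMap_resR, algebraMap_resR, RingEquiv.apply_symm_apply]
  map_mul' := map_mul _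
  map_add' := map_add _

theorem algebraMap_resF (F : FrobHyp (R := R) π V Sg Q) (r : R) :
    algebraMap R E (resF F r) = Sg (algebraMap R E r) :=
  algebraMap_resR Sg F.map_R r

theorem algebraMap_resF_symm (F : FrobHyp (R := R) π V Sg Q) (r : R) :
    algebraMap R E ((resF F).symm r) = Sg.symm (algebraMap R E r) :=
  algebraMap_resR Sg.symm F.symm_R r

/-- `resF F r` is THE element of `R` with image `Sg r`. -/
theorem resF_eq_of (F : FrobHyp (R := R) π V Sg Q) {r r' : R}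
    (h : Sg (algebraMap R E r) = algebraMap R E r') : resF F r = r' :=
  IsFractionRing.injective R E (by rw [algebraMap_resF, h])

/-- `Sg π = π * c` with `c` a unit of `R`. -/
theorem exists_unit_resF_pi (H : ChartHyp π V P) (F : FrobHyp (R := R) π V Sg Q) :
    ∃ c : R, IsUnit c ∧ resF F (algebraMap O R π) = algebraMap O R π * c := by
  have h1 : ∀ i : Fin 2, resF F (algebraMap O R π) ∈ P i := by
    intro i
    obtain ⟨u, hu, -, h⟩ := F.pi i
    rw [H.mem_P]
    exact ⟨u, hu, by rw [algebraMap_resF, h]⟩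
  have h2 : ∀ i : Fin 2, (resF F).symm (algebraMap O R π) ∈ P i := by
    intro i
    obtain ⟨u, hu, -, h⟩ := symm_pi H F i
    rw [H.mem_P]
    exact ⟨u, hu, by rw [algebraMap_resF_symm, h]⟩
  obtain ⟨c, hc⟩ := H.red _ h1
  obtain ⟨c', hc'⟩ := H.red _ h2
  refine ⟨c, ?_, hc⟩
  have h3 : resF F ((resF F).symm (algebraMap O R π)) = algebraMap O R π :=
    (resF F).apply_symm_apply _
  rw [hc', map_mul, hc] at h3
  have h4 : algebraMap O R π * (c * resF F c') = algebraMap O R π * 1 := by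
    linear_combination h3
  exact IsUnit.of_mul_eq_one _ (mul_left_cancel₀ (pi_ne_zero' H) h4)

/-! ### Ideals and `Sg` -/

/-- `Σ⁻¹ n = n.comap (resF F)`. -/
theorem isPre_comap (F : FrobHyp (R := R) π V Sg Q) (n : Ideal R) :
    IsPre Sg (n.comap (resF F)) n := by
  intro r r' h
  rw [Ideal.mem_comap, resF_eq_of F h]

theorem eq_comap_of_isPre (F : FrobHyp (R := R) π V Sg Q) {n' n : Ideal R}
    (h : IsPre Sg n' n) : n' = n.comap (resF F) := by
  ext r
  rw [Ideal.mem_comap]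
  exact h r (resF F r) (algebraMap_resF F r).symm

theorem comap_eq_of_fixedBy (F : FrobHyp (R := R) π V Sg Q) {n : Ideal R}
    (h : FixedBy Sg n) : n.comap (resF F) = n :=
  (eq_comap_of_isPre F h).symm

theorem resF_mem_iff_of_isPre (F : FrobHyp (R := R) π V Sg Q) {n' n : Ideal R}
    (h : IsPre Sg n' n) (r : R) : resF F r ∈ n ↔ r ∈ n' :=
  (h r (resF F r) (algebraMap_resF F r).symm).symm

theorem comap_isMaximal (F : FrobHyp (R := R) π V Sg Q) {n : Ideal R} (hn : n.IsMaximal) :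
    (n.comap (resF F)).IsMaximal :=
  Ideal.comap_isMaximal_of_surjective (resF F) (resF F).surjective

theorem comap_isPrime (F : FrobHyp (R := R) π V Sg Q) {n : Ideal R} (hn : n.IsPrime) :
    (n.comap (resF F)).IsPrime :=
  Ideal.comap_isPrime (resF F) n

theorem pi_mem_comap_iff (H : ChartHyp π V P) (F : FrobHyp (R := R) π V Sg Q) (𝔮 : Ideal R) :
    algebraMap O R π ∈ 𝔮.comap (resF F) ↔ algebraMap O R π ∈ 𝔮 := by
  obtain ⟨c, hc, hpc⟩ := exists_unit_resF_pi H F
  rw [Ideal.mem_comap, hpc]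
  exact Ideal.mul_unit_mem_iff_mem 𝔮 hc

/-- `Sg` stabilises the vertical primes. -/
theorem P_comap (H : ChartHyp π V P) (F : FrobHyp (R := R) π V Sg Q) (i : Fin 2) :
    (P i).comap (resF F) = P i := by
  ext r
  rw [Ideal.mem_comap, H.mem_P, H.mem_P, algebraMap_resF]
  constructor
  · rintro ⟨y, hy, h⟩
    obtain ⟨u, hu, -, hu'⟩ := symm_pi H F i
    refine ⟨u * Sg.symm y, mul_mem hu (F.symm_V i y hy), ?_⟩
    have h2 := congrArg Sg.symm h
    rw [RingEquiv.symm_apply_apply, map_mul, hu'] at h2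
    rw [h2]
    ring
  · rintro ⟨y, hy, h⟩
    obtain ⟨u, hu, -, hu'⟩ := F.pi i
    refine ⟨u * Sg y, mul_mem hu (F.map_V i y hy), ?_⟩
    rw [h, map_mul, hu']
    ring

theorem resF_mem_P_iff (H : ChartHyp π V P) (F : FrobHyp (R := R) π V Sg Q) (i : Fin 2)
    (r : R) : resF F r ∈ P i ↔ r ∈ P i := by
  rw [← Ideal.mem_comap, P_comap H F i]

theorem P_le_comap_iff (H : ChartHyp π V P) (F : FrobHyp (R := R) π V Sg Q) (i : Fin 2)
    (n : Ideal R) : P i ≤ n.comap (resF F) ↔ P i ≤ n := by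
  constructor
  · intro h r hr
    have h1 : (resF F).symm r ∈ P i := by
      rw [← resF_mem_P_iff H F i, RingEquiv.apply_symm_apply]
      exact hr
    have h2 := h h1
    rwa [Ideal.mem_comap, RingEquiv.apply_symm_apply] at h2
  · intro h r hr
    rw [Ideal.mem_comap]
    exact h ((resF_mem_P_iff H F i r).mpr hr)

theorem P_le_iff_of_isPre (H : ChartHyp π V P) (F : FrobHyp (R := R) π V Sg Q) (i : Fin 2)
    {n' n : Ideal R} (h : IsPre Sg n' n) : P i ≤ n' ↔ P i ≤ n := by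
  rw [eq_comap_of_isPre F h]
  exact P_le_comap_iff H F i n

theorem princAt_comap (F : FrobHyp (R := R) π V Sg Q) {𝔮 : Ideal R} (h : PrincAt 𝔮) :
    PrincAt (𝔮.comap (resF F)) := by
  obtain ⟨hne, t, ht, hgen⟩ := h
  refine ⟨?_, (resF F).symm t, ?_, ?_⟩
  · obtain ⟨y, hy, hy0⟩ := Submodule.exists_mem_ne_zero_of_ne_bot hne
    intro hbot
    have hmem : (resF F).symm y ∈ 𝔮.comap (resF F) := by
      rw [Ideal.mem_comap, RingEquiv.apply_symm_apply]
      exact hy
    rw [hbot, Ideal.mem_bot] at hmem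
    exact hy0 ((map_eq_zero_iff _ (resF F).symm.injective).mp hmem)
  · rw [Ideal.mem_comap, RingEquiv.apply_symm_apply]
    exact ht
  · intro y hy
    rw [Ideal.mem_comap] at hy
    obtain ⟨s, hs, c, hc⟩ := hgen _ hy
    refine ⟨(resF F).symm s, ?_, (resF F).symm c, ?_⟩
    · rw [Ideal.mem_comap, RingEquiv.apply_symm_apply]
      exact hs
    · have h2 := congrArg (resF F).symm hc
      rw [map_mul, map_mul, RingEquiv.symm_apply_apply] at h2
      exact h2

/-! ### Units of the localisations -/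

theorem unitAt_map (F : FrobHyp (R := R) π V Sg Q) {𝔮 : Ideal R} {x : E}
    (h : UnitAt (𝔮.comap (resF F)) x) : UnitAt 𝔮 (Sg x) := by
  obtain ⟨a, s, ha, hs, h⟩ := h
  refine ⟨resF F a, resF F s, ha, hs, ?_⟩
  rw [algebraMap_resF, algebraMap_resF, ← map_mul, h]

theorem unitAt_map_of_isPre (F : FrobHyp (R := R) π V Sg Q) {n' n : Ideal R}
    (hpre : IsPre Sg n' n) {x : E} (h : UnitAt n' x) : UnitAt n (Sg x) := by
  rw [eq_comap_of_isPre F hpre] at h
  exact unitAt_map F h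

theorem unitAt_symm_map (F : FrobHyp (R := R) π V Sg Q) {𝔮 : Ideal R} {x : E}
    (h : UnitAt 𝔮 x) : UnitAt (𝔮.comap (resF F)) (Sg.symm x) := by
  obtain ⟨a, s, ha, hs, h⟩ := h
  refine ⟨(resF F).symm a, (resF F).symm s, ?_, ?_, ?_⟩
  · rw [Ideal.mem_comap, RingEquiv.apply_symm_apply]
    exact ha
  · rw [Ideal.mem_comap, RingEquiv.apply_symm_apply]
    exact hs
  · rw [algebraMap_resF_symm, algebraMap_resF_symm, ← map_mul, h]

/-! ### `1 + ϖ R_n` -/

/-- `x ∈ 1 + ϖ R_n`: the shape of the conclusions of `LocFPlan` (`ϖ := algebraMap O R π`). -/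
def OnePlus (ϖ : R) (n : Ideal R) (x : E) : Prop :=
  ∃ s : R, s ∉ n ∧ ∃ r : R,
    algebraMap R E s * (x - 1) = algebraMap R E ϖ * algebraMap R E r

theorem OnePlus.one {ϖ : R} {n : Ideal R} (hn : n.IsPrime) : OnePlus (E := E) ϖ n 1 :=
  ⟨1, fun h => hn.ne_top ((Ideal.eq_top_iff_one n).mpr h), 0, by simp⟩

theorem OnePlus.mul {ϖ : R} {n : Ideal R} (hn : n.IsPrime) {x y : E}
    (hx : OnePlus ϖ n x) (hy : OnePlus ϖ n y) : OnePlus ϖ n (x * y) := by
  obtain ⟨s₁, hs₁, r₁, h₁⟩ := hx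
  obtain ⟨s₂, hs₂, r₂, h₂⟩ := hy
  refine ⟨s₁ * s₂, fun h => (hn.mem_or_mem h).elim hs₁ hs₂, ϖ * r₁ * r₂ + r₁ * s₂ + r₂ * s₁, ?_⟩
  simp only [map_mul, map_add]
  linear_combination (algebraMap R E s₂ * (y - 1) + algebraMap R E s₂) * h₁
    + (algebraMap R E ϖ * algebraMap R E r₁ + algebraMap R E s₁) * h₂

theorem OnePlus.pow {ϖ : R} {n : Ideal R} (hn : n.IsPrime) {x : E}
    (hx : OnePlus ϖ n x) (k : ℕ) : OnePlus ϖ n (x ^ k) := by
  induction k with
  | zero => rw [pow_zero]; exact OnePlus.one hn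
  | succ k ih => rw [pow_succ]; exact ih.mul hn hx

/-- An element of `1 + ϖ R_n` is a unit of `R_n` (`ϖ ∈ n`). -/
theorem OnePlus.unitAt {ϖ : R} {n : Ideal R} (hϖ : ϖ ∈ n) {x : E}
    (hx : OnePlus ϖ n x) : UnitAt n x := by
  obtain ⟨s, hs, r, h⟩ := hx
  refine ⟨s + ϖ * r, s, fun hmem => hs ?_, hs, ?_⟩
  · have : s = (s + ϖ * r) - ϖ * r := by ring
    rw [this]
    exact n.sub_mem hmem (n.mul_mem_right _ hϖ)
  · simp only [map_mul, map_add]
    linear_combination h

theorem OnePlus.inv {ϖ : R} {n : Ideal R} (hϖ : ϖ ∈ n) {x : E}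
    (hx : OnePlus ϖ n x) : OnePlus ϖ n x⁻¹ := by
  obtain ⟨s, hs, r, h⟩ := hx
  have hmem : s + ϖ * r ∉ n := by
    intro hmem
    apply hs
    have : s = (s + ϖ * r) - ϖ * r := by ring
    rw [this]
    exact n.sub_mem hmem (n.mul_mem_right _ hϖ)
  have hs0 : algebraMap R E s ≠ 0 := by
    intro h0
    apply hs
    rw [(map_eq_zero_iff _ (IsFractionRing.injective R E)).mp h0]
    exact n.zero_mem
  have hne : algebraMap R E (s + ϖ * r) ≠ 0 := by
    intro h0
    apply hmem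
    rw [(map_eq_zero_iff _ (IsFractionRing.injective R E)).mp h0]
    exact n.zero_mem
  have hx' : x = algebraMap R E (s + ϖ * r) / algebraMap R E s := by
    rw [eq_div_iff hs0]
    simp only [map_mul, map_add]
    linear_combination h
  refine ⟨s + ϖ * r, hmem, -r, ?_⟩
  rw [hx', inv_div]
  simp only [map_mul, map_add, map_neg] at hne ⊢
  field_simp
  ring

theorem OnePlus.div {ϖ : R} {n : Ideal R} (hn : n.IsPrime) (hϖ : ϖ ∈ n) {x y : E}
    (hx : OnePlus ϖ n x) (hy : OnePlus ϖ n y) : OnePlus ϖ n (x / y) := by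
  rw [div_eq_mul_inv]
  exact hx.mul hn (hy.inv hϖ)

/-- `1 + π R_n ⊆ 1 + ϖ (V i)` on a branch through `n`. -/
theorem OnePlus.sub_one_mem (H : ChartHyp π V P) {n : Ideal R} {i : Fin 2} (hi : P i ≤ n)
    {x : E} (hx : OnePlus (algebraMap O R π) n x) :
    ∃ z ∈ V i, x - 1 = algebraMap R E (algebraMap O R π) * z := by
  obtain ⟨s, hs, r, h⟩ := hx
  have hsu := vu_of_notMem_P H i (fun hmem => hs (hi hmem))
  refine ⟨algebraMap R E r * (algebraMap R E s)⁻¹, mul_mem (H.le i r) hsu.2.2, ?_⟩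
  have hs0 := hsu.1
  field_simp
  linear_combination h

/-- Transport of `1 + π R_{n'}` to `1 + π R_n` along `Sg`, `n' = Σ⁻¹ n`. -/
theorem OnePlus.map (H : ChartHyp π V P) (F : FrobHyp (R := R) π V Sg Q) {n' n : Ideal R}
    (hpre : IsPre Sg n' n) {x : E} (hx : OnePlus (algebraMap O R π) n' x) :
    OnePlus (algebraMap O R π) n (Sg x) := by
  obtain ⟨s, hs, r, h⟩ := hx
  obtain ⟨c, -, hc⟩ := exists_unit_resF_pi H F
  refine ⟨resF F s, fun hmem => hs ((resF_mem_iff_of_isPre F hpre s).mp hmem), c * resF F r, ?_⟩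
  have h2 := congrArg Sg h
  rw [map_mul, map_sub, map_one, map_mul, ← algebraMap_resF F, ← algebraMap_resF F,
    ← algebraMap_resF F, hc] at h2
  rw [h2]
  simp only [map_mul]
  ring

/-- A unit of `R_n` which is `≡ 1` modulo `ϖ (V i)` on every branch through `n` lies in
`1 + π R_n` (reduced special fibre; a branch not through `n` is killed by a unit at `n`). -/
theorem onePlus_of_unitAt (H : ChartHyp π V P) {n : Ideal R} (hn : n.IsPrime) {x : E}
    (hx : UnitAt n x)
    (h : ∀ i : Fin 2, P i ≤ n → ∃ z ∈ V i, x - 1 = algebraMap R E (algebraMap O R π) * z) :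
    OnePlus (algebraMap O R π) n x := by
  classical
  obtain ⟨a, s, -, hs, hxs⟩ := hx
  -- for each `i` a multiplier `t i ∉ n` with `t i * (a - s) ∈ P i`
  have key : ∀ i : Fin 2, ∃ t : R, t ∉ n ∧ t * (a - s) ∈ P i := by
    intro i
    by_cases hi : P i ≤ n
    · obtain ⟨z, hz, hz'⟩ := h i hi
      refine ⟨1, fun h1 => hn.ne_top ((Ideal.eq_top_iff_one n).mpr h1), ?_⟩
      rw [one_mul, H.mem_P]
      refine ⟨algebraMap R E s * z, mul_mem (H.le i s) hz, ?_⟩
      rw [map_sub, ← hxs]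
      linear_combination algebraMap R E s * hz'
    · obtain ⟨t, ht, htn⟩ := SetLike.not_le_iff_exists.mp hi
      exact ⟨t, htn, (P i).mul_mem_right _ ht⟩
  obtain ⟨t₀, ht₀, h₀⟩ := key 0
  obtain ⟨t₁, ht₁, h₁⟩ := key 1
  have hP : ∀ i : Fin 2, t₀ * t₁ * (a - s) ∈ P i := by
    intro i
    fin_cases i
    · have : t₀ * t₁ * (a - s) = t₁ * (t₀ * (a - s)) := by ring
      rw [this]
      exact (P 0).mul_mem_left _ h₀
    · have : t₀ * t₁ * (a - s) = t₀ * (t₁ * (a - s)) := by ring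
      rw [this]
      exact (P 1).mul_mem_left _ h₁
  obtain ⟨r, hr⟩ := H.red _ hP
  refine ⟨t₀ * t₁ * s, fun hmem => ?_, r, ?_⟩
  · rcases hn.mem_or_mem hmem with h' | h'
    · exact (hn.mem_or_mem h').elim ht₀ ht₁
    · exact hs h'
  · have hr' := congrArg (algebraMap R E) hr
    simp only [map_mul, map_sub] at hr' ⊢
    rw [← hr', ← hxs]
    ring

end Res

end Fermat.Agent.S35.FrobLoc
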