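/-
S35 — FrobNewGlue.lean (helper6).  (E-out) GLUE, pure logic + `Pic⁰` bookkeeping:

    FCorePlan.FrobTorsStatement M q (p ^ n)   (all `M q p n`)   ⟹   NewPlan.FrobNewStatement
    FCorePlan.FrobDivStatement  M q (p ^ n)   (all `M q p n`)   ⟹   NewPlan.FrobNewStatement

i.e. the target of block [E] in either of its two J-side forms (`FCorePlan`, helper5) implies the
form consumed by `NewPlan.frob_theta_eq_zero` (helper39) and by block [B].

* `frobPoly_eq`      — `NewPlan.frobPoly q σ x` is the expression of `FrobTorsStatement`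
                       (`τ = σ * σ`);
* `nsmul_mk_eq_zero` — `m • [D] = 0` when `m • D = div f`;
* `frobPoly_mk_eq_zero_of_tors`, `frobPoly_mk_eq_zero_of_div` — one `(M, q, m)`;
* `frobNewStatement_of_tors`, `frobNewStatement_of_div` — the statements of record.
-/
import Mathlib
import Fermat.Agent.S35.FCorePlan
import Fermat.Agent.S35.NewPlan
import Fermat.Agent.S35.PushZero

set_option autoImplicit false

open ModularCurve AlgebraicCurve

namespace Fermat.Agent.S35.FrobNewGlue

open Fermat.Agent.S29 (Qb GQ)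
open Fermat.Agent.S34 (UPlan.gal UPlan.sdDiv)

noncomputable section

/-- `NewPlan.frobPoly q σ x = (τ - q²)(τ - 1)² x` in the form of `FCorePlan.FrobTorsStatement`,
`τ = σ * σ`. -/
theorem frobPoly_eq {N : ℕ} (q : ℕ) (σ : GQ) (x : JZero N) :
    NewPlan.frobPoly q σ x =
      (σ * σ) • ((σ * σ) • (σ * σ) • x + x - ((σ * σ) • x + (σ * σ) • x)) -
        (q ^ 2) • ((σ * σ) • (σ * σ) • x + x - ((σ * σ) • x + (σ * σ) • x)) := by
  have h : σ • σ • (σ • σ • x - x) - (σ • σ • x - x) =
      (σ * σ) • (σ * σ) • x + x - ((σ * σ) • x + (σ * σ) • x) := by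
    simp only [mul_smul, smul_sub]
    abel
  unfold NewPlan.frobPoly
  rw [h, mul_smul σ σ ((σ * σ) • (σ * σ) • x + x - ((σ * σ) • x + (σ * σ) • x))]

/-- The class of a degree-zero divisor `D` with `m • D = div f` is `m`-torsion. -/
theorem nsmul_mk_eq_zero {N : ℕ} (m : ℕ)
    (D : Divisor.degZero (K := Qb) (F := modularFunctionFieldBar N))
    (f : modularFunctionFieldBar N) (hf : f ≠ 0)
    (hD : ∀ P : Place Qb (modularFunctionFieldBar N),
      (m : ℤ) * (D : Divisor Qb (modularFunctionFieldBar N)) P = P.ord f) :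
    m • (Pic0.mk D : JZero N) = 0 := by
  have h1 : m • (Pic0.mk D : JZero N) = Pic0.mk (m • D) :=
    (map_nsmul (QuotientAddGroup.mk' _) m D).symm
  rw [h1]
  refine (QuotientAddGroup.eq_zero_iff _).2 ?_
  refine ⟨f, hf, fun P => ?_⟩
  rw [← hD P]
  simp [Finsupp.smul_apply]

/-- One `(M, q, m)`: the torsion form of (E-out) gives the divisor form consumed by [B]. -/
theorem frobPoly_mk_eq_zero_of_tors {M q m : ℕ} [NeZero M] [NeZero q] [NeZero (M * q)]
    (hm : m ≠ 0) (hT : FCorePlan.FrobTorsStatement M q m)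
    (f : modularFunctionFieldBar (M * q))
    (D : Divisor.degZero (K := Qb) (F := modularFunctionFieldBar (M * q)))
    (hf : f ≠ 0)
    (hD : ∀ P : Place Qb (modularFunctionFieldBar (M * q)),
      (m : ℤ) * (D : Divisor Qb (modularFunctionFieldBar (M * q))) P = P.ord f)
    (hN : ModelFPlan.NormCond M q m f)
    (A : ValuationSubring Qb) (hA : A.LiesOverPrime q) (σ : GQ) (hσ : A.IsFrobeniusAt σ q) :
    NewPlan.frobPoly q σ (Pic0.mk D : JZero (M * q)) = 0 := by
  rw [frobPoly_eq]
  exact hT A hA σ hσ (Pic0.mk D) (nsmul_mk_eq_zero m D f hf hD)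
    (PushZero.mem_newKer_of_norms M q hm D f hf hD hN.1 hN.2)

/-- One `(M, q, m)`: the divisor form of (E-out) (`FrobDivStatement`) gives the form consumed by
[B] directly (no `newKer`). -/
theorem frobPoly_mk_eq_zero_of_div {M q m : ℕ} [NeZero M] [NeZero q] [NeZero (M * q)]
    (hDiv : FCorePlan.FrobDivStatement M q m)
    (f : modularFunctionFieldBar (M * q))
    (D : Divisor.degZero (K := Qb) (F := modularFunctionFieldBar (M * q)))
    (hf : f ≠ 0)
    (hD : ∀ P : Place Qb (modularFunctionFieldBar (M * q)),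
      (m : ℤ) * (D : Divisor Qb (modularFunctionFieldBar (M * q))) P = P.ord f)
    (hN : ModelFPlan.NormCond M q m f)
    (A : ValuationSubring Qb) (hA : A.LiesOverPrime q) (σ : GQ) (hσ : A.IsFrobeniusAt σ q) :
    NewPlan.frobPoly q σ (Pic0.mk D : JZero (M * q)) = 0 := by
  have hprin := hDiv A hA σ hσ f hf (D : Divisor Qb (modularFunctionFieldBar (M * q))) hD hN
  rw [frobPoly_eq]
  set τ : GQ := σ * σ with hτ
  set g : SemilinearAut Qb (modularFunctionFieldBar (M * q)) := UPlan.gal (M * q) τ with hg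
  -- the second difference and the Frobenius polynomial as degree-zero divisors
  set sd : Divisor.degZero (K := Qb) (F := modularFunctionFieldBar (M * q)) :=
    SemilinearAut.degZeroSMulHom g (SemilinearAut.degZeroSMulHom g D) + D -
      (SemilinearAut.degZeroSMulHom g D + SemilinearAut.degZeroSMulHom g D) with hsd
  set fd : Divisor.degZero (K := Qb) (F := modularFunctionFieldBar (M * q)) :=
    SemilinearAut.degZeroSMulHom g sd - (q ^ 2) • sd with hfd
  have hcoe : (fd : Divisor Qb (modularFunctionFieldBar (M * q))) =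
      FCorePlan.fDiv (M * q) τ (q ^ 2) (D : Divisor Qb (modularFunctionFieldBar (M * q))) := rfl
  have hzero : (Pic0.mk fd : JZero (M * q)) = 0 := by
    refine (QuotientAddGroup.eq_zero_iff _).2 ?_
    show (fd : Divisor Qb (modularFunctionFieldBar (M * q))) ∈ Divisor.principal
    rw [hcoe]
    exact hprin
  have e1 : ∀ E : Divisor.degZero (K := Qb) (F := modularFunctionFieldBar (M * q)),
      τ • (Pic0.mk E : JZero (M * q)) = Pic0.mk (SemilinearAut.degZeroSMulHom g E) := fun _ => rfl
  have hsdx : τ • τ • (Pic0.mk D : JZero (M * q)) + Pic0.mk D -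
      (τ • (Pic0.mk D : JZero (M * q)) + τ • (Pic0.mk D : JZero (M * q))) = Pic0.mk sd := by
    rw [e1, e1]
    rfl
  rw [hsdx, e1]
  exact hzero

/-- **(E-out), torsion form ⟹ the form consumed by [B].** -/
theorem frobNewStatement_of_tors
    (hT : ∀ (M q : ℕ) [NeZero M] [NeZero q] [NeZero (M * q)], q.Prime → ¬ q ∣ M →
      ∀ (p n : ℕ), p.Prime → p ≠ q → FCorePlan.FrobTorsStatement M q (p ^ n)) :
    NewPlan.FrobNewStatement := by
  intro M q _ _ hq hqM p n hp hpq f D hf hD hN A hA σ hσ
  exact frobPoly_mk_eq_zero_of_tors (pow_ne_zero n hp.ne_zero) (hT M q hq hqM p n hp hpq)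
    f D hf hD hN A hA σ hσ

/-- **(E-out), divisor form ⟹ the form consumed by [B].** -/
theorem frobNewStatement_of_div
    (hDiv : ∀ (M q : ℕ) [NeZero M] [NeZero q] [NeZero (M * q)], q.Prime → ¬ q ∣ M →
      ∀ (p n : ℕ), p.Prime → p ≠ q → FCorePlan.FrobDivStatement M q (p ^ n)) :
    NewPlan.FrobNewStatement := by
  intro M q _ _ hq hqM p n hp hpq f D hf hD hN A hA σ hσ
  exact frobPoly_mk_eq_zero_of_div (hDiv M q hq hqM p n hp hpq) f D hf hD hN A hA σ hσ

end

end Fermat.Agent.S35.FrobNewGlue
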