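/-
S35 — GNormB.lean (helper61): row [GNorm], the corrector statement of the modular assembly in
CLOSED form.

`ModelFAsm.CorrStatement M q hq hqM m (fun _ => ModelFPlan.NormCond M q m)` for every `m ≠ 0`:
for `f ≠ 0` of `F̄_{Mq}` with `N_α f = c · h ^ m`, `N_β f = c' · h' ^ m` the finite set of
constants is `{c, c'}` and the finite set of level-`M` functions is `{h, h'}`
(`CorrAdapt.corrStatement_of_funs`); over every Galois-stable base `K` containing them the
corrector is `GNorm.exists_H` (helper43).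

NB `m ≠ 0` cannot be dropped: for `m = 0` the function `f` is a constant and the second
difference of a constant is not `≡ 1` modulo `π` in general.
-/
import Mathlib
import Fermat.Agent.S35.GNorm
import Fermat.Agent.S35.CorrAdapt

set_option autoImplicit false

open ModularCurve AlgebraicCurve HahnSeries

namespace Fermat.Agent.S35.GNormB

open Fermat.Agent.S18 Fermat.Agent.S18.Arith Fermat.Agent.S34

noncomputable section

set_option synthInstance.maxHeartbeats 400000

/-- Constants: `F_K → F̄` maps `c ∈ K` to `c`. -/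
theorem toBar_constK (N : ℕ) (K : IntermediateField ℚ Qb) (c : K) :
    Glob.toBar N K (constK N K c) = algebraMap Qb (modularFunctionFieldBar N) (c : Qb) := by
  apply Subtype.ext
  rw [Glob.coe_toBar]
  show (HahnSeries.C ((c : Qb)) : LaurentSeries Qb) = algebraMap Qb (LaurentSeries Qb) _
  rw [algebraMap_laurentSeries_eq_single]
  rfl

/-- A function of `F̄_N` whose expansion lies in `F_K` is the image of its descent. -/
theorem toBar_mk (N : ℕ) (K : IntermediateField ℚ Qb) (h : modularFunctionFieldBar N)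
    (hh : (h : LaurentSeries Qb) ∈ FK N K) : Glob.toBar N K ⟨(h : LaurentSeries Qb), hh⟩ = h :=
  Subtype.ext rfl

/-- A Galois-stable field is stable under every automorphism and its inverse. -/
theorem stable_of_stable {K : IntermediateField ℚ Qb} (hst : BaseNormal.Stable K)
    (σ : Qb ≃ₐ[ℚ] Qb) : TauAct.Stable K σ :=
  ⟨fun x hx => hst σ x hx, fun x hx => hst σ.symm x hx⟩

variable (M q : ℕ) [NeZero M] [NeZero q] (hq : q.Prime) (hqM : ¬ q ∣ M)

/-- **[GNorm], closed form**: the corrector statement of `ModelFAsm` for the norm conditions. -/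
theorem corrStatement (m : ℕ) (hm : m ≠ 0) :
    ModelFAsm.CorrStatement M q hq hqM m (fun _ => ModelFPlan.NormCond M q m) := by
  apply CorrAdapt.corrStatement_of_funs
  intro A hA σs hσ f hf _ hN
  obtain ⟨⟨h, c, hh, hc, hα⟩, ⟨h', c', hh', hc', hβ⟩⟩ := hN
  classical
  refine ⟨{c, c'}, {h, h'}, fun K hS hfun hB hst hK π hπ fK hfK => ?_⟩
  have hcK : c ∈ K := hS (by simp)
  have hc'K : c' ∈ K := hS (by simp)
  have hhK : (h : LaurentSeries Qb) ∈ FK M K := hfun h (by simp)
  have hh'K : (h' : LaurentSeries Qb) ∈ FK M K := hfun h' (by simp)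
  have hfK0 : fK ≠ 0 := by
    rintro rfl
    exact hf (by rw [← hfK, map_zero])
  have hhK0 : (⟨(h : LaurentSeries Qb), hhK⟩ : FK M K) ≠ 0 := by
    intro h0
    apply hh
    rw [← toBar_mk M K h hhK, h0, map_zero]
  have hh'K0 : (⟨(h' : LaurentSeries Qb), hh'K⟩ : FK M K) ≠ 0 := by
    intro h0
    apply hh'
    rw [← toBar_mk M K h' hh'K, h0, map_zero]
  have hcK0 : (⟨c, hcK⟩ : K) ≠ 0 := fun h0 => hc (congrArg Subtype.val h0)
  have hc'K0 : (⟨c', hc'K⟩ : K) ≠ 0 := fun h0 => hc' (congrArg Subtype.val h0)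
  have hα' : ModelFPlan.alphaNm M q (Glob.toBar (M * q) K fK) =
      Glob.toBar M K (constK M K ⟨c, hcK⟩ * (⟨(h : LaurentSeries Qb), hhK⟩ : FK M K) ^ m) := by
    rw [hfK, hα, map_mul, map_pow, toBar_constK, toBar_mk]
  have hβ' : ModelFPlan.betaNm M q (Glob.toBar (M * q) K fK) =
      Glob.toBar M K (constK M K ⟨c', hc'K⟩ * (⟨(h' : LaurentSeries Qb), hh'K⟩ : FK M K) ^ m) := by
    rw [hfK, hβ, map_mul, map_pow, toBar_constK, toBar_mk]
  exact GNorm.exists_H M q hq hqM hB hA hπ hσ (stable_of_stable hst σs) hK fK hfK0 hm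
    ⟨c, hcK⟩ ⟨c', hc'K⟩ hcK0 hc'K0 ⟨(h : LaurentSeries Qb), hhK⟩ ⟨(h' : LaurentSeries Qb), hh'K⟩
    hhK0 hh'K0 hα' hβ'

end

end Fermat.Agent.S35.GNormB
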