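/-
S35 block [D] (bridge), charpoly route (#2659, step (3) [IndepC]) — feeder / B-copy (helper4):
COEFFICIENTWISE LINEAR DISJOINTNESS of `K((q))` and `L` over `K`.

For fields `K → L` (via `φ`) and an intermediate field `F` of `K((q)) / K`:

* `spanOf φ F`      : the `L`-span of `coeffMap φ '' F` (a subring of `L((q))`);
* `fieldOf φ F`     : the subfield of `L((q))` generated by the constants `L` and `coeffMap φ '' F`;
* `eq_zero_of_sum_eq_zero` : if `x i ∈ K((q))` are linearly independent over `F`, then there is no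
  nontrivial relation `∑ i, c i * coeffMap φ (x i) = 0` with `c i ∈ fieldOf φ F`;
* `linearIndependent_coeffMap` : the same as a `LinearIndependent` statement over `fieldOf φ F`;
* `eq_zero_of_sum_pow_eq_zero` : polynomial form: if `1, f, …, f ^ n` are independent over `F`, a
  relation `∑ k ≤ n, c k * coeffMap φ f ^ k = 0` with `c k ∈ fieldOf φ F` has all `c k = 0`;
* modular instances: `fieldOf embC F̄_N = F_ℂ(N)` (`fieldOf_modular`) and
  `fieldOf φ (F.map (qExpand))` ⊇ `qExpand '' fieldOf φ F` (`qExpand_mem_fieldOf_map`), so that the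
  statement applies to both degeneracy embeddings `α` (inclusion) and `β` (`q ↦ q^ℓ`).

Proof: clear denominators into `spanOf φ F`, then apply coefficientwise `K`-linear functionals
`l : L → K` (`S29/RatDescent`): `l_* (c * coeffMap φ x) = l_* c * x` and `l_* c ∈ F` for
`c ∈ spanOf φ F`.
-/
import Mathlib
import Fermat.Prelude.Def_ModularCurve_HeckeOperator
import Fermat.Prelude.Def_ModularCurve_X0ModL
import Fermat.Prelude.Thm_ModularCurve_coeffMap_qExpand
import Fermat.Agent.S24.AnDefs
import Fermat.Agent.S29.KDefs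
import Fermat.Agent.S29.RatDescent

set_option autoImplicit false

noncomputable section

namespace Fermat.Agent.S35.IndepCB

open ModularCurve Fermat.Agent.S29.RatDescent

section General

variable {K L : Type*} [Field K] [Field L] (φ : K →+* L)
variable (F : IntermediateField K (LaurentSeries K))

/-- The `L`-span of the coefficientwise image of `F`. -/
def spanOf : Submodule L (LaurentSeries L) :=
  Submodule.span L (⇑(coeffMap φ) '' (F : Set (LaurentSeries K)))

/-- The subfield of `L((q))` generated by the constants and the coefficientwise image of `F`. -/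
def fieldOf : Subfield (LaurentSeries L) :=
  Subfield.closure
    (Set.range (algebraMap L (LaurentSeries L)) ∪ (⇑(coeffMap φ) '' (F : Set (LaurentSeries K))))

variable {F}

theorem coeffMap_mem_spanOf {y : LaurentSeries K} (hy : y ∈ F) : coeffMap φ y ∈ spanOf φ F :=
  Submodule.subset_span ⟨y, hy, rfl⟩

theorem coeffMap_mem_fieldOf {y : LaurentSeries K} (hy : y ∈ F) : coeffMap φ y ∈ fieldOf φ F :=
  Subfield.subset_closure (Or.inr ⟨y, hy, rfl⟩)

variable (F)

theorem algebraMap_mem_fieldOf (a : L) : algebraMap L (LaurentSeries L) a ∈ fieldOf φ F :=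
  Subfield.subset_closure (Or.inl ⟨a, rfl⟩)

theorem one_mem_spanOf : (1 : LaurentSeries L) ∈ spanOf φ F := by
  have h := coeffMap_mem_spanOf φ (one_mem F)
  rwa [map_one] at h

variable {F}

theorem mul_mem_spanOf {u v : LaurentSeries L} (hu : u ∈ spanOf φ F) (hv : v ∈ spanOf φ F) :
    u * v ∈ spanOf φ F := by
  refine Submodule.span_induction (p := fun u _ => u * v ∈ spanOf φ F) ?_ ?_ ?_ ?_ hu
  · rintro _ ⟨f, hf, rfl⟩
    refine Submodule.span_induction (p := fun v _ => coeffMap φ f * v ∈ spanOf φ F) ?_ ?_ ?_ ?_ hv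
    · rintro _ ⟨g, hg, rfl⟩
      rw [← map_mul]
      exact coeffMap_mem_spanOf φ (mul_mem hf hg)
    · rw [mul_zero]
      exact zero_mem _
    · intro x y _ _ hx hy
      rw [mul_add]
      exact add_mem hx hy
    · intro a x _ hx
      rw [mul_smul']
      exact Submodule.smul_mem _ _ hx
  · rw [zero_mul]
    exact zero_mem _
  · intro x y _ _ hx hy
    rw [add_mul]
    exact add_mem hx hy
  · intro a x _ hx
    rw [Fermat.Agent.S29.RatDescent.smul_mul']
    exact Submodule.smul_mem _ _ hx

theorem spanOf_le_fieldOf {z : LaurentSeries L} (hz : z ∈ spanOf φ F) : z ∈ fieldOf φ F := by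
  refine Submodule.span_induction (p := fun z _ => z ∈ fieldOf φ F) ?_ ?_ ?_ ?_ hz
  · rintro _ ⟨y, hy, rfl⟩
    exact coeffMap_mem_fieldOf φ hy
  · exact zero_mem _
  · intro x y _ _ hx hy
    exact add_mem hx hy
  · intro a x _ hx
    have hC : HahnSeries.C a = algebraMap L (LaurentSeries L) a := by
      rw [algebraMap_laurentSeries_eq_single]
      rfl
    rw [smul_eq_C_mul, hC]
    exact mul_mem (algebraMap_mem_fieldOf φ F a) hx

/-- Every element of `fieldOf φ F` is a quotient of two elements of `spanOf φ F`. -/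
theorem exists_frac_spanOf {z : LaurentSeries L} (hz : z ∈ fieldOf φ F) :
    ∃ a ∈ spanOf φ F, ∃ b ∈ spanOf φ F, b ≠ 0 ∧ z * b = a := by
  induction hz using Subfield.closure_induction with
  | mem y hy =>
      rcases hy with ⟨c, rfl⟩ | ⟨w, hw, rfl⟩
      · refine ⟨algebraMap L (LaurentSeries L) c, ?_, 1, one_mem_spanOf φ F, one_ne_zero, mul_one _⟩
        rw [algebraMap_eq_smul_one']
        exact Submodule.smul_mem _ _ (one_mem_spanOf φ F)
      · exact ⟨_, coeffMap_mem_spanOf φ hw, 1, one_mem_spanOf φ F, one_ne_zero, mul_one _⟩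
  | one => exact ⟨1, one_mem_spanOf φ F, 1, one_mem_spanOf φ F, one_ne_zero, mul_one _⟩
  | add x y _ _ hx hy =>
      obtain ⟨a, ha, b, hb, hb0, hab⟩ := hx
      obtain ⟨a', ha', b', hb', hb0', hab'⟩ := hy
      refine ⟨a * b' + a' * b, add_mem (mul_mem_spanOf φ ha hb') (mul_mem_spanOf φ ha' hb),
        b * b', mul_mem_spanOf φ hb hb', mul_ne_zero hb0 hb0', ?_⟩
      rw [← hab, ← hab']
      ring
  | neg x _ hx =>
      obtain ⟨a, ha, b, hb, hb0, hab⟩ := hx
      exact ⟨-a, neg_mem ha, b, hb, hb0, by rw [neg_mul, hab]⟩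
  | inv x _ hx =>
      obtain ⟨a, ha, b, hb, hb0, hab⟩ := hx
      by_cases ha0 : a = 0
      · have hx0 : x = 0 := by
          rw [ha0] at hab
          exact (mul_eq_zero.mp hab).resolve_right hb0
        exact ⟨0, zero_mem _, 1, one_mem_spanOf φ F, one_ne_zero, by rw [hx0, inv_zero, zero_mul]⟩
      · have hx0 : x ≠ 0 := by
          rintro rfl
          rw [zero_mul] at hab
          exact ha0 hab.symm
        refine ⟨b, hb, a, ha, ha0, ?_⟩
        rw [← hab]
        field_simp
  | mul x y _ _ hx hy =>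
      obtain ⟨a, ha, b, hb, hb0, hab⟩ := hx
      obtain ⟨a', ha', b', hb', hb0', hab'⟩ := hy
      refine ⟨a * a', mul_mem_spanOf φ ha ha', b * b', mul_mem_spanOf φ hb hb',
        mul_ne_zero hb0 hb0', ?_⟩
      rw [← hab, ← hab']
      ring

/-- Key lemma: on `spanOf φ F`, coefficientwise `K`-linear functionals are `K((q))`-linear and
land in `F`. -/
theorem coeffAdd_spanOf {z : LaurentSeries L} (hz : z ∈ spanOf φ F) :
    ∀ l : L →+ K, KLin φ l →
      (∀ y : LaurentSeries K, coeffAdd l (z * coeffMap φ y) = coeffAdd l z * y) ∧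
        coeffAdd l z ∈ F := by
  refine Submodule.span_induction
    (p := fun z _ => ∀ l : L →+ K, KLin φ l →
      (∀ y : LaurentSeries K, coeffAdd l (z * coeffMap φ y) = coeffAdd l z * y) ∧
        coeffAdd l z ∈ F) ?_ ?_ ?_ ?_ hz
  · rintro _ ⟨f, hf, rfl⟩ l hl
    have h1 : ∀ e : LaurentSeries K, coeffAdd l (coeffMap φ e) = l 1 • e := by
      intro e
      have := coeffAdd_smul_coeffMap hl 1 e
      rwa [one_smul] at this
    refine ⟨fun y => ?_, ?_⟩
    · rw [← map_mul, h1, h1, Fermat.Agent.S29.RatDescent.smul_mul']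
    · rw [h1]
      have hC : HahnSeries.C (l 1) = algebraMap K (LaurentSeries K) (l 1) := by
        rw [algebraMap_laurentSeries_eq_single]
        rfl
      rw [smul_eq_C_mul, hC]
      exact mul_mem (F.algebraMap_mem _) hf
  · intro l _
    refine ⟨fun y => ?_, ?_⟩
    · rw [zero_mul, map_zero, zero_mul]
    · rw [map_zero]
      exact zero_mem _
  · intro u v _ _ hu hv l hl
    obtain ⟨hu1, hu2⟩ := hu l hl
    obtain ⟨hv1, hv2⟩ := hv l hl
    refine ⟨fun y => ?_, ?_⟩
    · rw [add_mul, map_add, map_add, hu1, hv1, add_mul]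
    · rw [map_add]
      exact add_mem hu2 hv2
  · intro a u _ hu l hl
    obtain ⟨hu1, hu2⟩ := hu _ (hl.comp_mulLeft a)
    refine ⟨fun y => ?_, ?_⟩
    · rw [Fermat.Agent.S29.RatDescent.smul_mul', coeffAdd_smul, coeffAdd_smul, hu1]
    · rw [coeffAdd_smul]
      exact hu2

/-- A Laurent series over `L` killed by all coefficientwise `K`-linear functionals is zero. -/
theorem eq_zero_of_forall_coeffAdd {c : LaurentSeries L}
    (h : ∀ l : L →+ K, KLin φ l → coeffAdd l c = 0) : c = 0 := by
  by_contra hc
  obtain ⟨n, hn⟩ : ∃ n : ℤ, c.coeff n ≠ 0 := by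
    by_contra hcon
    push Not at hcon
    exact hc (HahnSeries.ext (funext hcon))
  obtain ⟨l, hl, hln⟩ := exists_kLin_ne_zero φ hn
  apply hln
  have := congrArg (fun s : LaurentSeries K => s.coeff n) (h l hl)
  simpa using this

/-- **Linear disjointness, span form.** -/
theorem eq_zero_of_sum_eq_zero_of_mem_spanOf {ι : Type*} [Fintype ι] (x : ι → LaurentSeries K)
    (hx : LinearIndependent F x) (c : ι → LaurentSeries L) (hc : ∀ i, c i ∈ spanOf φ F)
    (h : ∑ i, c i * coeffMap φ (x i) = 0) : ∀ i, c i = 0 := by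
  have key : ∀ l : L →+ K, KLin φ l → ∀ i, coeffAdd l (c i) = 0 := by
    intro l hl
    have h1 : ∑ i, coeffAdd l (c i) * x i = 0 := by
      have h2 := congrArg (coeffAdd l) h
      rw [map_sum, map_zero] at h2
      rw [← h2]
      exact Finset.sum_congr rfl fun i _ => ((coeffAdd_spanOf φ (hc i) l hl).1 (x i)).symm
    have h3 := Fintype.linearIndependent_iff.mp hx
      (fun i => (⟨coeffAdd l (c i), (coeffAdd_spanOf φ (hc i) l hl).2⟩ : F)) h1
    intro i
    exact congrArg Subtype.val (h3 i)
  intro i
  exact eq_zero_of_forall_coeffAdd φ fun l hl => key l hl i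

/-- **Coefficientwise linear disjointness.**  If `x i ∈ K((q))` are linearly independent over
`F`, there is no nontrivial relation `∑ i, c i * coeffMap φ (x i) = 0` with coefficients
`c i` in the field generated by `L` and `coeffMap φ '' F`. -/
theorem eq_zero_of_sum_eq_zero {ι : Type*} [Fintype ι] (x : ι → LaurentSeries K)
    (hx : LinearIndependent F x) (c : ι → LaurentSeries L) (hc : ∀ i, c i ∈ fieldOf φ F)
    (h : ∑ i, c i * coeffMap φ (x i) = 0) : ∀ i, c i = 0 := by
  classical
  choose a ha b hb hb0 hab using fun i => exists_frac_spanOf φ (hc i)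
  -- common denominator
  have hB : ∀ s : Finset ι, (∏ j ∈ s, b j) ∈ spanOf φ F := by
    intro s
    induction s using Finset.induction_on with
    | empty => rw [Finset.prod_empty]; exact one_mem_spanOf φ F
    | insert j s hj ih => rw [Finset.prod_insert hj]; exact mul_mem_spanOf φ (hb j) ih
  have hB0 : (∏ j, b j) ≠ 0 := Finset.prod_ne_zero_iff.mpr fun j _ => hb0 j
  have hmem : ∀ i, c i * ∏ j, b j ∈ spanOf φ F := by
    intro i
    rw [← Finset.mul_prod_erase Finset.univ b (Finset.mem_univ i), ← mul_assoc, hab i]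
    exact mul_mem_spanOf φ (ha i) (hB _)
  have hsum : ∑ i, (c i * ∏ j, b j) * coeffMap φ (x i) = 0 := by
    have : ∑ i, (c i * ∏ j, b j) * coeffMap φ (x i)
        = (∑ i, c i * coeffMap φ (x i)) * ∏ j, b j := by
      rw [Finset.sum_mul]
      exact Finset.sum_congr rfl fun i _ => by ring
    rw [this, h, zero_mul]
  intro i
  have := eq_zero_of_sum_eq_zero_of_mem_spanOf φ x hx _ hmem hsum i
  exact (mul_eq_zero.mp this).resolve_right hB0

/-- The same as a `LinearIndependent` statement over the subfield `fieldOf φ F`. -/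
theorem linearIndependent_coeffMap {ι : Type*} (x : ι → LaurentSeries K)
    (hx : LinearIndependent F x) :
    LinearIndependent (fieldOf φ F) (fun i => coeffMap φ (x i)) := by
  classical
  rw [linearIndependent_iff']
  intro s g hg i hi
  have hxs : LinearIndependent F (fun j : s => x j) := hx.comp _ Subtype.val_injective
  have h := eq_zero_of_sum_eq_zero φ (fun j : s => x j) hxs (fun j => (g j : LaurentSeries L))
    (fun j => (g j).2) (by
      rw [← hg, ← Finset.sum_coe_sort s (fun j => g j • coeffMap φ (x j))]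
      rfl) ⟨i, hi⟩
  exact Subtype.ext h

/-- **Polynomial form.**  If `1, f, …, f ^ n` are linearly independent over `F` (e.g. `f` is a
primitive element of an extension of degree `n + 1` of `F`), then a relation
`∑ k ≤ n, c k * (coeffMap φ f) ^ k = 0` with `c k ∈ fieldOf φ F` is trivial. -/
theorem eq_zero_of_sum_pow_eq_zero (n : ℕ) (f : LaurentSeries K)
    (hf : LinearIndependent F (fun k : Fin (n + 1) => f ^ (k : ℕ)))
    (c : Fin (n + 1) → LaurentSeries L) (hc : ∀ k, c k ∈ fieldOf φ F)
    (h : ∑ k : Fin (n + 1), c k * coeffMap φ f ^ (k : ℕ) = 0) : ∀ k, c k = 0 := by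
  refine eq_zero_of_sum_eq_zero φ _ hf c hc ?_
  rw [← h]
  exact Finset.sum_congr rfl fun k _ => by rw [map_pow]

/-- Explicit form of `eq_zero_of_sum_eq_zero` (no `LinearIndependent`, no instances): if the only
relation `∑ i, g i * x i = 0` with `g i ∈ F` is the trivial one, then the only relation
`∑ i, c i * coeffMap φ (x i) = 0` with `c i ∈ fieldOf φ F` is the trivial one. -/
theorem eq_zero_of_sum_eq_zero' {ι : Type*} [Fintype ι] (x : ι → LaurentSeries K)
    (hx : ∀ g : ι → LaurentSeries K, (∀ i, g i ∈ F) → ∑ i, g i * x i = 0 → ∀ i, g i = 0)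
    (c : ι → LaurentSeries L) (hc : ∀ i, c i ∈ fieldOf φ F)
    (h : ∑ i, c i * coeffMap φ (x i) = 0) : ∀ i, c i = 0 := by
  refine eq_zero_of_sum_eq_zero φ x ?_ c hc h
  rw [Fintype.linearIndependent_iff]
  intro g hg i
  exact Subtype.ext (hx (fun i => (g i : LaurentSeries K)) (fun i => (g i).2) hg i)

end General


/-! ### Modular instances: the two degeneracy embeddings `α` (inclusion) and `β` (`q ↦ q ^ ℓ`) -/

section Modular

open Fermat.Agent.S24 (embC)
open Fermat.Agent.S29

local notation "Qb" => AlgebraicClosure ℚ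

/-- `F_ℂ(N)` is contained in the field generated by `ℂ` and the base change of `F̄_N`. -/
theorem mem_fieldOf_of_mem_FC (N : ℕ) {z : LaurentSeries ℂ} (hz : z ∈ K.FC N) :
    z ∈ fieldOf embC (modularFunctionFieldBar N) := by
  have hz' := mem_laurentBaseChange_iff.mp
    (show z ∈ laurentBaseChange ℂ (modularFunctionFieldFull N) from hz)
  clear hz
  induction hz' using Subfield.closure_induction with
  | mem y hy =>
      rcases hy with ⟨a, rfl⟩ | ⟨w, hw, rfl⟩
      · exact algebraMap_mem_fieldOf _ _ a
      · rw [← RatDescent.coeffMap_coeffEmb embC w]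
        exact coeffMap_mem_fieldOf _ (coeffEmb_mem_laurentBaseChange _ hw)
  | one => exact one_mem _
  | add x y _ _ hx hy => exact add_mem hx hy
  | neg x _ hx => exact neg_mem hx
  | inv x _ hx => exact inv_mem hx
  | mul x y _ _ hx hy => exact mul_mem hx hy

/-- `qExpand ℓ` maps `F_ℂ(N)` into the field generated by `ℂ` and the base change of
`qExpand ℓ '' F̄_N`. -/
theorem qExpand_mem_fieldOf_map (N ℓ : ℕ) [NeZero ℓ] {z : LaurentSeries ℂ} (hz : z ∈ K.FC N) :
    qExpand ℂ ℓ z ∈ fieldOf embC ((modularFunctionFieldBar N).map (qExpandAlgHomC Qb ℓ)) := by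
  have hz' := mem_laurentBaseChange_iff.mp
    (show z ∈ laurentBaseChange ℂ (modularFunctionFieldFull N) from hz)
  clear hz
  induction hz' using Subfield.closure_induction with
  | mem y hy =>
      rcases hy with ⟨a, rfl⟩ | ⟨w, hw, rfl⟩
      · rw [algebraMap_laurentSeries_eq_single, qExpand_single, mul_zero,
          ← algebraMap_laurentSeries_eq_single]
        exact algebraMap_mem_fieldOf _ _ a
      · rw [← RatDescent.coeffMap_coeffEmb embC w, ← coeffMap_qExpand]
        exact coeffMap_mem_fieldOf _ ((IntermediateField.mem_map _).mpr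
          ⟨_, coeffEmb_mem_laurentBaseChange _ hw, rfl⟩)
  | one => rw [map_one]; exact one_mem _
  | add x y _ _ hx hy => rw [map_add]; exact add_mem hx hy
  | neg x _ hx => rw [map_neg]; exact neg_mem hx
  | inv x _ hx => rw [map_inv₀]; exact inv_mem hx
  | mul x y _ _ hx hy => rw [map_mul]; exact mul_mem hx hy

/-- **[IndepC], `α`-form** (consumer shape of the charpoly route, #2659 (3)): elements of
`F̄_{Mq}` that are linearly independent over `α(F̄_M)` stay linearly independent over `F_ℂ(M)`
after base change to `ℂ`. -/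
theorem indepC_alpha (M q : ℕ) [NeZero M] [NeZero q] {m : ℕ}
    (v : Fin m → ↥(modularFunctionFieldBar (M * q)))
    (hv : ∀ a : Fin m → ↥(modularFunctionFieldBar M),
      ∑ i, heckeAlphaBar Qb M q (a i) * v i = 0 → ∀ i, a i = 0)
    (c : Fin m → LaurentSeries ℂ) (hc : ∀ i, c i ∈ K.FC M)
    (h : ∑ i, c i * coeffMap embC (v i : LaurentSeries Qb) = 0) : ∀ i, c i = 0 := by
  refine eq_zero_of_sum_eq_zero' embC (F := modularFunctionFieldBar M)
    (fun i => (v i : LaurentSeries Qb)) ?_ c (fun i => mem_fieldOf_of_mem_FC M (hc i)) h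
  intro g hg hsum i
  have h0 : ∑ i, heckeAlphaBar Qb M q ⟨g i, hg i⟩ * v i = 0 := by
    apply Subtype.ext
    rw [AddSubmonoidClass.coe_finsetSum]
    simpa using hsum
  exact congrArg Subtype.val (hv (fun i => ⟨g i, hg i⟩) h0 i)

/-- **[IndepC], `β`-form**: elements of `F̄_{Mq}` that are linearly independent over `β(F̄_M)`
(`β x = x(q^ℓ)`) stay linearly independent over `β(F_ℂ(M))` after base change to `ℂ`. -/
theorem indepC_beta (M q : ℕ) [NeZero M] [NeZero q] {m : ℕ}
    (v : Fin m → ↥(modularFunctionFieldBar (M * q)))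
    (hv : ∀ a : Fin m → ↥(modularFunctionFieldBar M),
      ∑ i, heckeBetaBar Qb M q (a i) * v i = 0 → ∀ i, a i = 0)
    (c : Fin m → LaurentSeries ℂ) (hc : ∀ i, c i ∈ K.FC M)
    (h : ∑ i, qExpand ℂ q (c i) * coeffMap embC (v i : LaurentSeries Qb) = 0) :
    ∀ i, c i = 0 := by
  have key := eq_zero_of_sum_eq_zero' embC
    (F := (modularFunctionFieldBar M).map (qExpandAlgHomC Qb q))
    (fun i => (v i : LaurentSeries Qb)) ?_ (fun i => qExpand ℂ q (c i))
    (fun i => qExpand_mem_fieldOf_map M q (hc i)) h
  · intro i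
    exact qExpand_injective q (by rw [key i, map_zero])
  · intro g hg hsum i
    choose a ha hag using fun i => (IntermediateField.mem_map _).mp (hg i)
    have h0 : ∑ i, heckeBetaBar Qb M q ⟨a i, ha i⟩ * v i = 0 := by
      apply Subtype.ext
      rw [AddSubmonoidClass.coe_finsetSum]
      have : ∀ i, ((heckeBetaBar Qb M q ⟨a i, ha i⟩ * v i : ↥(modularFunctionFieldBar (M * q))) :
          LaurentSeries Qb) = g i * (v i : LaurentSeries Qb) := by
        intro i
        rw [MulMemClass.coe_mul, coe_heckeBetaBar]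
        congr 1
        exact hag i
      simp only [this]
      simpa using hsum
    have hi := congrArg Subtype.val (hv (fun i => ⟨a i, ha i⟩) h0 i)
    rw [← hag i]
    show qExpandAlgHomC Qb q (a i) = 0
    rw [show a i = 0 from hi, map_zero]

end Modular

end Fermat.Agent.S35.IndepCB
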