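/-
S35 — IndepLD.lean (helper1).  [D] route R1 (charpoly), leaf [IndepC] (compiled copy; generic core + modular instances).

Linear disjointness of `ℚ̄((q))` and `ℂ`:  Laurent series over `K` which are linearly independent
over `ε(F_K)` (`F_K = laurentBaseChange K F₀`, `ε = id` or `ε = qExpand q`) stay linearly
independent over `ε(F_L)` after the coefficient change `K → L`.

* `core`            — generic form with an abstract twist `(EK, EL)` on spans;
* `indep`           — generic form over `laurentBaseChange L F₀`;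
* `indep_alpha`     — `F̄_{Mq}` over `F̄_M` along `heckeAlphaBar` (`ε = id`), against `F_ℂ(M)`;
* `indep_beta`      — `F̄_{Mq}` over `F̄_M` along `heckeBetaBar` (`ε = qExpand q`).
-/
import Mathlib
import Fermat.Prelude.Def_ModularCurve_HeckeOperator
import Fermat.Prelude.Def_AlgebraicCurve_Correspondence
import Fermat.Prelude.Thm_ModularCurve_coeffMap_qExpand
import Fermat.Agent.S29.RatDescent
import Fermat.Agent.S29.KDefs
import Fermat.Agent.S24.AnDefs

set_option autoImplicit false

noncomputable section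

namespace Fermat.Agent.S35.IndepLD

open ModularCurve AlgebraicCurve Fermat.Agent.S29.RatDescent

section Core

variable {K L : Type*} [Field K] [Field L] [Algebra ℚ K] [Algebra ℚ L] (φ : K →+* L)
variable (F₀ : IntermediateField ℚ (LaurentSeries ℚ))

theorem prod_mem_spanL {ι : Type*} (s : Finset ι) (b : ι → LaurentSeries L)
    (hb : ∀ i ∈ s, b i ∈ spanL L F₀) : ∏ i ∈ s, b i ∈ spanL L F₀ := by
  classical
  induction s using Finset.induction_on with
  | empty => rw [Finset.prod_empty]; exact one_mem_spanL F₀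
  | insert a s ha ih =>
    rw [Finset.prod_insert ha]
    exact mul_mem_spanL F₀ (hb a (Finset.mem_insert_self a s))
      (ih fun i hi => hb i (Finset.mem_insert_of_mem hi))

/-- Twisted form of `RatDescent.coeffAdd_spanL`. -/
theorem coeffAdd_twist (EK : LaurentSeries K →+* LaurentSeries K)
    (EL : LaurentSeries L →+* LaurentSeries L)
    (hEφ : ∀ e : LaurentSeries K, EL (coeffMap φ e) = coeffMap φ (EK e))
    (hEK : ∀ (a : K) (e : LaurentSeries K), EK (a • e) = a • EK e)
    (hEL : ∀ (a : L) (z : LaurentSeries L), EL (a • z) = a • EL z)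
    {z : LaurentSeries L} (hz : z ∈ spanL L F₀) :
    ∀ l : L →+ K, KLin φ l →
      ∀ y : LaurentSeries K, coeffAdd l (coeffMap φ y * EL z) = y * EK (coeffAdd l z) := by
  refine Submodule.span_induction
    (p := fun z _ => ∀ l : L →+ K, KLin φ l →
      ∀ y : LaurentSeries K, coeffAdd l (coeffMap φ y * EL z) = y * EK (coeffAdd l z))
    ?_ ?_ ?_ ?_ hz
  · rintro _ ⟨f, hf, rfl⟩ l hl y
    have h1 : ∀ e : LaurentSeries K, coeffAdd l (coeffMap φ e) = l 1 • e := by
      intro e
      have := coeffAdd_smul_coeffMap hl 1 e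
      rwa [one_smul] at this
    rw [← coeffMap_coeffEmb φ f, hEφ, ← map_mul, h1, h1, hEK, mul_smul']
  · intro l _ y
    rw [map_zero, mul_zero, map_zero, map_zero, mul_zero]
  · intro u v _ _ hu hv l hl y
    rw [map_add, mul_add, map_add, hu l hl, hv l hl, map_add, map_add, mul_add]
  · intro a u _ hu l hl y
    rw [hEL, mul_smul', coeffAdd_smul, coeffAdd_smul, hu _ (hl.comp_mulLeft a)]

/-- **Core**: independence over the twisted `K`-field gives independence against the twisted
`L`-span. -/
theorem core (EK : LaurentSeries K →+* LaurentSeries K)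
    (EL : LaurentSeries L →+* LaurentSeries L)
    (hEφ : ∀ e : LaurentSeries K, EL (coeffMap φ e) = coeffMap φ (EK e))
    (hEK : ∀ (a : K) (e : LaurentSeries K), EK (a • e) = a • EK e)
    (hEL : ∀ (a : L) (z : LaurentSeries L), EL (a • z) = a • EL z)
    {ι : Type*} [Fintype ι] (v : ι → LaurentSeries K)
    (hv : ∀ b : ι → LaurentSeries K, (∀ i, b i ∈ laurentBaseChange K F₀) →
      ∑ i, EK (b i) * v i = 0 → ∀ i, b i = 0)
    (x : ι → LaurentSeries L) (hx : ∀ i, x i ∈ spanL L F₀)
    (h : ∑ i, EL (x i) * coeffMap φ (v i) = 0) : ∀ i, x i = 0 := by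
  by_contra hcon
  push Not at hcon
  obtain ⟨i₀, hi₀⟩ := hcon
  obtain ⟨n, hn⟩ : ∃ n : ℤ, (x i₀).coeff n ≠ 0 := by
    by_contra hc
    push Not at hc
    exact hi₀ (HahnSeries.ext (funext hc))
  obtain ⟨l, hl, hln⟩ := exists_kLin_ne_zero φ hn
  have h2 : ∑ i, EK (coeffAdd l (x i)) * v i = 0 := by
    have h3 := congrArg (coeffAdd l) h
    rw [map_sum, map_zero] at h3
    rw [← h3]
    refine Finset.sum_congr rfl fun i _ => ?_
    rw [mul_comm (EL (x i)), coeffAdd_twist φ F₀ EK EL hEφ hEK hEL (hx i) l hl, mul_comm]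
  have h4 := hv (fun i => coeffAdd l (x i))
    (fun i => spanL_le F₀ (coeffAdd_spanL φ F₀ (hx i) l hl).2) h2 i₀
  apply hln
  have := congrArg (fun s : LaurentSeries K => s.coeff n) h4
  simpa using this

/-- **[IndepC], generic form**: independence over `EK (F_K)` gives independence over
`EL (F_L)`. -/
theorem indep (EK : LaurentSeries K →+* LaurentSeries K)
    (EL : LaurentSeries L →+* LaurentSeries L)
    (hEφ : ∀ e : LaurentSeries K, EL (coeffMap φ e) = coeffMap φ (EK e))
    (hEK : ∀ (a : K) (e : LaurentSeries K), EK (a • e) = a • EK e)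
    (hEL : ∀ (a : L) (z : LaurentSeries L), EL (a • z) = a • EL z)
    {ι : Type*} [Fintype ι] (v : ι → LaurentSeries K)
    (hv : ∀ b : ι → LaurentSeries K, (∀ i, b i ∈ laurentBaseChange K F₀) →
      ∑ i, EK (b i) * v i = 0 → ∀ i, b i = 0)
    (c : ι → LaurentSeries L) (hc : ∀ i, c i ∈ laurentBaseChange L F₀)
    (h : ∑ i, EL (c i) * coeffMap φ (v i) = 0) : ∀ i, c i = 0 := by
  classical
  choose a ha b hb hb0 hab using fun i => exists_frac_spanL F₀ (hc i)
  set B : LaurentSeries L := ∏ j, b j with hB
  have hB0 : B ≠ 0 := Finset.prod_ne_zero_iff.mpr fun j _ => hb0 j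
  set x : ι → LaurentSeries L := fun i => a i * ∏ j ∈ Finset.univ.erase i, b j with hxdef
  have hxB : ∀ i, c i * B = x i := by
    intro i
    rw [hB, hxdef, ← Finset.mul_prod_erase Finset.univ b (Finset.mem_univ i), ← mul_assoc, hab]
  have hx : ∀ i, x i ∈ spanL L F₀ := fun i =>
    mul_mem_spanL F₀ (ha i) (prod_mem_spanL F₀ _ _ fun j _ => hb j)
  have h2 : ∑ i, EL (x i) * coeffMap φ (v i) = 0 := by
    have h3 : ∑ i, EL (x i) * coeffMap φ (v i) =
        EL B * ∑ i, EL (c i) * coeffMap φ (v i) := by
      rw [Finset.mul_sum]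
      refine Finset.sum_congr rfl fun i _ => ?_
      rw [← hxB i, map_mul]
      ring
    rw [h3, h, mul_zero]
  have h5 := core φ F₀ EK EL hEφ hEK hEL v hv x hx h2
  intro i
  have h6 := hxB i
  rw [h5 i] at h6
  exact (mul_eq_zero.mp h6).resolve_right hB0

end Core

/-! ### The modular instances -/

section Modular

open Fermat.Agent.S24 (embC)
open Fermat.Agent.S29.K (FC)

/-- `ℚ̄`. -/
local notation "Qb" => AlgebraicClosure ℚ

variable (M q : ℕ) [NeZero M] [NeZero q]

/-- The coefficient change `F̄_{M q} → ℂ((q))`, `f ↦ coeffMap embC f`. -/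
def jBar : modularFunctionFieldBar (M * q) →+* LaurentSeries ℂ :=
  (coeffMap embC).comp (modularFunctionFieldBar (M * q)).val.toRingHom

omit [NeZero M] [NeZero q] in
@[simp]
theorem jBar_apply (f : modularFunctionFieldBar (M * q)) :
    jBar M q f = coeffMap embC ((f : modularFunctionFieldBar (M * q)) : LaurentSeries Qb) := rfl

/-- The inclusion `F_ℂ(M) → ℂ((q))`. -/
def eAlpha : FC M →+* LaurentSeries ℂ := (FC M).val.toRingHom

omit [NeZero M] in
@[simp]
theorem eAlpha_apply (c : FC M) : eAlpha M c = ((c : FC M) : LaurentSeries ℂ) := rfl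

/-- The twisted inclusion `F_ℂ(M) → ℂ((q))`, `c ↦ c(q^q)`. -/
def eBeta : FC M →+* LaurentSeries ℂ := (qExpand ℂ q).comp (FC M).val.toRingHom

omit [NeZero M] in
@[simp]
theorem eBeta_apply (c : FC M) :
    eBeta M q c = qExpand ℂ q ((c : FC M) : LaurentSeries ℂ) := rfl

omit [NeZero M] in
theorem qExpand_smul_aux {R : Type*} [CommRing R] (a : R) (e : LaurentSeries R) :
    qExpand R q (a • e) = a • qExpand R q e := by
  rw [← HahnSeries.C_mul_eq_smul, map_mul, qExpand_C, HahnSeries.C_mul_eq_smul]

/-- **[IndepC] along `α`**: a family of `F̄_{M q}` which is linearly independent over `F̄_M`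
(inclusion) stays linearly independent over `F_ℂ(M)` after the coefficient change `ℚ̄ → ℂ`. -/
theorem indep_alpha {ι : Type*} [Fintype ι] :
    letI := algebraAlong (heckeAlphaBar Qb M q)
    ∀ v : ι → modularFunctionFieldBar (M * q),
      LinearIndependent (modularFunctionFieldBar M) v →
      ∀ c : ι → FC M, ∑ i, eAlpha M (c i) * jBar M q (v i) = 0 → ∀ i, c i = 0 := by
  let _ := algebraAlong (heckeAlphaBar Qb M q)
  intro v hv c h
  have hv' : ∀ b : ι → LaurentSeries Qb,
      (∀ i, b i ∈ laurentBaseChange Qb (modularFunctionFieldFull M)) →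
      ∑ i, (RingHom.id (LaurentSeries Qb)) (b i) *
        ((v i : modularFunctionFieldBar (M * q)) : LaurentSeries Qb) = 0 → ∀ i, b i = 0 := by
    intro b hb hsum i
    have h1 := Fintype.linearIndependent_iff.mp hv
      (fun i => (⟨b i, hb i⟩ : modularFunctionFieldBar M)) ?_ i
    · exact congrArg Subtype.val h1
    · apply Subtype.ext
      rw [AddSubmonoidClass.coe_finsetSum, ZeroMemClass.coe_zero, ← hsum]
      refine Finset.sum_congr rfl fun i _ => ?_
      rw [Algebra.smul_def]
      rfl
  have h2 := indep (K := Qb) (L := ℂ) embC (modularFunctionFieldFull M)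
    (RingHom.id _) (RingHom.id _) (fun _ => rfl) (fun _ _ => rfl) (fun _ _ => rfl)
    (fun i => ((v i : modularFunctionFieldBar (M * q)) : LaurentSeries Qb)) hv'
    (fun i => ((c i : FC M) : LaurentSeries ℂ)) (fun i => (c i).2) h
  intro i
  exact Subtype.ext (h2 i)

/-- **[IndepC] along `β`**: a family of `F̄_{M q}` which is linearly independent over `F̄_M`
(acting through `f ↦ f(q^q)`) stays linearly independent over `F_ℂ(M)` (acting through
`c ↦ c(q^q)`) after the coefficient change `ℚ̄ → ℂ`. -/
theorem indep_beta {ι : Type*} [Fintype ι] :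
    letI := algebraAlong (heckeBetaBar Qb M q)
    ∀ v : ι → modularFunctionFieldBar (M * q),
      LinearIndependent (modularFunctionFieldBar M) v →
      ∀ c : ι → FC M, ∑ i, eBeta M q (c i) * jBar M q (v i) = 0 → ∀ i, c i = 0 := by
  let _ := algebraAlong (heckeBetaBar Qb M q)
  intro v hv c h
  have hv' : ∀ b : ι → LaurentSeries Qb,
      (∀ i, b i ∈ laurentBaseChange Qb (modularFunctionFieldFull M)) →
      ∑ i, (qExpand Qb q) (b i) *
        ((v i : modularFunctionFieldBar (M * q)) : LaurentSeries Qb) = 0 → ∀ i, b i = 0 := by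
    intro b hb hsum i
    have h1 := Fintype.linearIndependent_iff.mp hv
      (fun i => (⟨b i, hb i⟩ : modularFunctionFieldBar M)) ?_ i
    · exact congrArg Subtype.val h1
    · apply Subtype.ext
      rw [AddSubmonoidClass.coe_finsetSum, ZeroMemClass.coe_zero, ← hsum]
      refine Finset.sum_congr rfl fun i _ => ?_
      rw [Algebra.smul_def]
      rfl
  have h2 := indep (K := Qb) (L := ℂ) embC (modularFunctionFieldFull M)
    (qExpand Qb q) (qExpand ℂ q) (fun e => (coeffMap_qExpand embC q e).symm)
    (fun a e => qExpand_smul_aux q a e)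
    (fun a z => qExpand_smul_aux q a z)
    (fun i => ((v i : modularFunctionFieldBar (M * q)) : LaurentSeries Qb)) hv'
    (fun i => ((c i : FC M) : LaurentSeries ℂ)) (fun i => (c i).2) h
  intro i
  exact Subtype.ext (h2 i)

end Modular

end Fermat.Agent.S35.IndepLD
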