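/-
S35 block [D] (bridge), the `α`-half of [K-tr], CLOSED — KTrAlphaC.lean (helper27; B-copy of the
`α`-glue, named by the [C]+[D] architect).

`kTrAlpha : KTrPlan.KTrAlphaStatement M q m` for `q` prime, `q ∤ M`, `m ≠ 0`:
for `u ∈ Lpar (M q)` with `tr₁ u = 0`, a witness `y` of `u` and `f ∈ F̄_{Mq}` with `f = y ^ m`,
the norm `Nm_α f ∈ F̄_M` is `c · h ^ m` with `h ∈ F̄_M`, `h ≠ 0`, `c ∈ ℚ̄ˣ`.

Route R2 (Atkin–Lehner dictionary), assembled from landed leaves only: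
* `TrRepsW`  : `A · ∏_j A ∣ γ₀ T^j` is a form of level `M` with trivial multiplier (`tr₁ u = 0`);
* `TrQx`     : its `q`-expansion is `qx A · NP q (qx (AW A))`;
* `ALQx`     : `(qx (AW A) / qx (AW B)) ^ m = coeffMap embC (wBar f)`;
* `NormRed`  : `(Nm_α z)(Q^q) = z(Q^q) · ∏_{i<q} (w z)(ζ^i Q)` (here in the form
               `coeffMap embC (Nm_α z) = coeffMap embC z · NP q (coeffMap embC (w z))`);
* `TrDesc`   : (K1) at level `M` and the descent of `m`-th roots.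
-/
import Mathlib
import Fermat.Prelude.Thm_ModularCurve_coeffMap_qExpand
import Fermat.Agent.S29.KPlanDefs
import Fermat.Agent.S29.K6Hecke
import Fermat.Agent.S35.KTrPlan
import Fermat.Agent.S35.TrRepsW
import Fermat.Agent.S35.TrQx
import Fermat.Agent.S35.ALQx
import Fermat.Agent.S35.NormRed
import Fermat.Agent.S35.TrDesc

set_option autoImplicit false

noncomputable section

namespace Fermat.Agent.S35.KTrAlphaC

open UpperHalfPlane ModularCurve CongruenceSubgroup AlgebraicCurve HahnSeries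
open Fermat.Agent.S24 Fermat.Agent.S29 Fermat.Agent.S37 Fermat.Agent.S41
open scoped MatrixGroups ModularForm Manifold

local notation "Qb" => AlgebraicClosure ℚ

/-- A primitive `q`-th root of unity in `ℚ̄`. -/
theorem exists_primitiveRoot_Qb (q : ℕ) [NeZero q] : ∃ ζ : Qb, IsPrimitiveRoot ζ q :=
  HasEnoughRootsOfUnity.exists_primitiveRoot Qb q

/-- **Norm formula along `α` over `ℂ`, contracted**:
`coeffMap embC (Nm_α z) = coeffMap embC z · NP q (coeffMap embC (w z))`. -/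
theorem coeffMap_alphaNorm (M q : ℕ) [NeZero M] [NeZero q] (hq : q.Prime) (hqM : ¬ q ∣ M)
    (z : ↥(modularFunctionFieldBar (M * q))) :
    coeffMap embC ((PushPic.alphaNorm M q z : ↥(modularFunctionFieldBar M)) : LaurentSeries Qb) =
      coeffMap embC (z : LaurentSeries Qb) *
        TrQx.NP q (coeffMap embC
          ((S34.WK.wBar M q hq hqM z : ↥(modularFunctionFieldBar (M * q))) : LaurentSeries Qb)) := by
  obtain ⟨ζ, hζ⟩ := exists_primitiveRoot_Qb q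
  have hζ0 : ζ ≠ 0 := hζ.ne_zero (NeZero.ne q)
  have hz : ∀ i : ℕ, ζ ^ i ≠ 0 := fun i => pow_ne_zero i hζ0
  have h := NormRed.qExpand_norm_alpha M q hq hqM ζ hζ hz z
  have h' : qExpand Qb q
      ((PushPic.alphaNorm M q z : ↥(modularFunctionFieldBar M)) : LaurentSeries Qb)
      = qExpand Qb q (z : LaurentSeries Qb) *
          ∏ i ∈ Finset.range q, rotHom (ζ ^ i) (hz i)
            ((S34.WK.wBar M q hq hqM z : ↥(modularFunctionFieldBar (M * q))) :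
              LaurentSeries Qb) := h
  set W : LaurentSeries Qb :=
    ((S34.WK.wBar M q hq hqM z : ↥(modularFunctionFieldBar (M * q))) : LaurentSeries Qb) with hW
  let ζu : Qbˣ := Units.mk0 ζ hζ0
  let ζc : ℂˣ := Units.map (embC : Qb →* ℂ) ζu
  have hζc : IsPrimitiveRoot ((ζc : ℂˣ) : ℂ) q := by
    have : ((ζc : ℂˣ) : ℂ) = embC ζ := rfl
    rw [this]
    exact hζ.map_of_injective embC_injective
  have hrot : ∀ i : ℕ, coeffMap embC (rotHom (ζ ^ i) (hz i) W) =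
      KC.twist (ζc ^ i) (coeffMap embC W) := by
    intro i
    have e : rotHom (ζ ^ i) (hz i) W = KC.twist (ζu ^ i) W := by
      rw [KC.twist_eq_rotHom]
      rfl
    rw [e, KC.coeffMap_twist, map_pow]
  have h2 := congrArg (coeffMap embC) h'
  rw [coeffMap_qExpand, map_mul, coeffMap_qExpand, map_prod] at h2
  simp only [hrot] at h2
  rw [K6Hecke.prod_pow_eq_of_isPrimitiveRoot hζc (HeckeProdQxB.isPrimitiveRoot_zetaUnit q)
    (fun ξ => KC.twist ξ (coeffMap embC W)), ← TrQx.qExpand_NP, ← map_mul] at h2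
  exact qExpand_injective (R := ℂ) (N := q) h2

/-- **[K-tr], `α`-half**, closed. -/
theorem kTrAlpha (M q m : ℕ) [NeZero M] [NeZero q] (hq : q.Prime) (hqM : ¬ q ∣ M) (hm : m ≠ 0) :
    KTrPlan.KTrAlphaStatement M q m := by
  intro u y hWit f hf hu
  have : Fact q.Prime := ⟨hq⟩
  have : NeZero (M * q) := ⟨mul_ne_zero (NeZero.ne M) (NeZero.ne q)⟩
  obtain ⟨hy0, wt, A, B, hA, hB, hB0, hyAB⟩ := hWit
  obtain ⟨γ₀, -, -, -, a, b, h₀, -⟩ :=
    S37.W.exists_atkinLehner_matrices M q ((Nat.Prime.coprime_iff_not_dvd hq).mpr hqM)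
  have h10 : γ₀ 1 0 = (M : ℤ) := by
    show (γ₀ : Matrix (Fin 2) (Fin 2) ℤ) 1 0 = _
    rw [h₀]
    rfl
  have h11 : γ₀ 1 1 = (q : ℤ) := by
    show (γ₀ : Matrix (Fin 2) (Fin 2) ℤ) 1 1 = _
    rw [h₀]
    rfl
  have hχ : ∀ γ : ↥(Gamma0 (M * q)),
      ((γ : SL(2, ℤ)) : Matrix (Fin 2) (Fin 2) ℤ).trace ^ 2 = 4 →
        KPlan.chiU m (u : Additive (Gamma0 (M * q)) →+ ℤ) γ = 1 :=
    fun γ hγ => KPlan.chiU_eq_one_of_trace m u γ hγ
  have hT : KPlan.chiU m (u : Additive (Gamma0 (M * q)) →+ ℤ) (K.TG (M * q)) = 1 :=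
    KPlan.chiU_TG m u
  have hB' : B ∈ K.MFchi (M * q) wt 1 := K.mem_MFchi_one_iff.mpr hB
  have hAn : A ∈ S23.niceSub := K.mem_niceSub_of_mem_MFchi hT hA
  have hBn : B ∈ S23.niceSub := K.mem_niceSub_of_mem_MF hB
  have hAWn : ALQx.AW γ₀ q wt A ∈ S23.niceSub := ALQx.AW_mem_niceSub M q γ₀ a b h₀ hχ hA
  have hBWn : ALQx.AW γ₀ q wt B ∈ S23.niceSub :=
    ALQx.AW_mem_niceSub M q γ₀ a b h₀ (χ := 1) (fun _ _ => rfl) hB'
  -- the transfer products
  have hPA : (A * ∏ j : ZMod q, A ∣[wt] (γ₀ * ModularGroup.T ^ (j.val : ℤ))) ∈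
      S20.MF M (wt * ((q : ℤ) + 1)) :=
    TrRepsW.mul_prod_slash_mem_MF_of_tr₁_eq_zero hqM γ₀ h10 h11 m _ hu hA
  have hPB : (B * ∏ j : ZMod q, B ∣[wt] (γ₀ * ModularGroup.T ^ (j.val : ℤ))) ∈
      S20.MF M (wt * ((q : ℤ) + 1)) :=
    TrRepsW.mul_prod_slash_mem_MF hqM γ₀ h10 h11 hB
  have hPB0 : (B * ∏ j : ZMod q, B ∣[wt] (γ₀ * ModularGroup.T ^ (j.val : ℤ))) ≠ 0 :=
    TrRepsW.mul_prod_slash_ne_zero γ₀ wt hB'.1 hB0
  have hqA : K.qx (A * ∏ j : ZMod q, A ∣[wt] (γ₀ * ModularGroup.T ^ (j.val : ℤ))) =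
      K.qx A * TrQx.NP q (K.qx (ALQx.AW γ₀ q wt A)) := (TrQx.qx_trProd q wt γ₀ A hAn hAWn).2
  have hqB : K.qx (B * ∏ j : ZMod q, B ∣[wt] (γ₀ * ModularGroup.T ^ (j.val : ℤ))) =
      K.qx B * TrQx.NP q (K.qx (ALQx.AW γ₀ q wt B)) := (TrQx.qx_trProd q wt γ₀ B hBn hBWn).2
  -- the `W`-side witness series
  have hBW0 : K.qx (ALQx.AW γ₀ q wt B) ≠ 0 :=
    K.qx_ne_zero hBWn (ALQx.AW_ne_zero γ₀ q wt hB0)
  set yW : LaurentSeries ℂ := K.qx (ALQx.AW γ₀ q wt A) / K.qx (ALQx.AW γ₀ q wt B) with hyW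
  have hyW1 : yW * K.qx (ALQx.AW γ₀ q wt B) = K.qx (ALQx.AW γ₀ q wt A) :=
    div_mul_cancel₀ _ hBW0
  have hfC : coeffMap embC (f : LaurentSeries Qb) = coeffMap embC y ^ m := by
    rw [hf, map_pow]
  have hpow := ALQx.alqx_pow M q hq hqM γ₀ a b h₀ hχ hA hB m (coeffMap embC y) hyAB f hfC
  have hyWm : yW ^ m = coeffMap embC
      ((S34.WK.wBar M q hq hqM f : ↥(modularFunctionFieldBar (M * q))) : LaurentSeries Qb) := by
    rw [hyW, div_pow, div_eq_iff (pow_ne_zero m hBW0)]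
    exact hpow.symm
  -- the level-`M` function
  set X : LaurentSeries ℂ := coeffMap embC y * TrQx.NP q yW with hXdef
  have hX : X * K.qx (B * ∏ j : ZMod q, B ∣[wt] (γ₀ * ModularGroup.T ^ (j.val : ℤ))) =
      K.qx (A * ∏ j : ZMod q, A ∣[wt] (γ₀ * ModularGroup.T ^ (j.val : ℤ))) := by
    rw [hqA, hqB, ← hyAB, ← hyW1, TrQx.NP_mul, hXdef]
    ring
  have hXmem : X ∈ K.FC M :=
    TrDesc.mem_FC_of_forms (K.mem_MFchi_one_iff.mpr hPA) hPB hPB0 hX
  have hXm : X ^ m = coeffMap embC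
      ((PushPic.alphaNorm M q f : ↥(modularFunctionFieldBar M)) : LaurentSeries Qb) := by
    rw [coeffMap_alphaNorm M q hq hqM f, hXdef, mul_pow, ← TrQx.NP_pow, hyWm, hfC]
  -- nonvanishing of the norm
  have hinj := AnBridge.coeffMap_embC_injective
  have hyC : coeffMap embC y ≠ 0 := fun h => hy0 (hinj (by rw [h, map_zero]))
  have hB0' : K.qx B ≠ 0 := K.qx_ne_zero hBn hB0
  have hA0 : A ≠ 0 := by
    rintro rfl
    rw [K.qx_zero] at hyAB
    exact (mul_ne_zero hyC hB0') hyAB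
  have hyW0 : yW ≠ 0 :=
    div_ne_zero (K.qx_ne_zero hAWn (ALQx.AW_ne_zero γ₀ q wt hA0)) hBW0
  have hX0 : X ≠ 0 := mul_ne_zero hyC (TrQx.NP_ne_zero q hyW0)
  have hg : PushPic.alphaNorm M q f ≠ 0 := by
    intro h0
    rw [h0] at hXm
    have : X ^ m = 0 := by
      rw [hXm]
      exact map_zero _
    exact hX0 (pow_eq_zero_iff hm |>.mp this)
  exact TrDesc.exists_root_of_pow_eq hm _ hg X hXmem hXm

end Fermat.Agent.S35.KTrAlphaC
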