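/-
S35 — KTrTopB.lean (helper88, captain of row [D] = [K-tr]): the `α`-half glue of route R2
(Atkin–Lehner dictionary), from the landed leaves

* `TrRepsW` (helper26)  : `A * ∏_j A ∣ γ₀ T^j` is a form of level `M` when `tr₁ u = 0`;
* `TrQx` (helper23)     : its `q`-expansion is `qx A * NP q (qx (AW A))`;
* `ALQx` (helper115)    : `(qx (AW A) / qx (AW B)) ^ m = coeffMap embC (wBar f)`;
* `TrDesc` (helper17)   : descent of the `m`-th root from `F_ℂ(M)` to `F̄_M`;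

and the norm formula in `NP`-form (fact (N), `NormRed` + root-of-unity bookkeeping), taken
here as a hypothesis:

`kTrAlpha_of` : (N-α) ⇒ `KTrPlan.KTrAlphaStatement M q m`.
-/
import Mathlib
import Fermat.Agent.S35.KTrPlan
import Fermat.Agent.S35.TrRepsW
import Fermat.Agent.S35.TrQx
import Fermat.Agent.S35.ALQx
import Fermat.Agent.S35.TrDesc
import Fermat.Agent.S37.W.ALPoint

set_option autoImplicit false

noncomputable section

namespace Fermat.Agent.S35.KTrTopB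

open UpperHalfPlane ModularCurve AlgebraicCurve CongruenceSubgroup
open scoped MatrixGroups ModularForm Manifold
open Fermat.Agent.S29 Fermat.Agent.S41 Fermat.Agent.S34 Fermat.Agent.S35
open Fermat.Agent.S24 (embC)

local notation "Qb" => AlgebraicClosure ℚ

/-- The norm formula along `α` in `NP`-form (fact (N), `α`-half). -/
def NAlpha (M q : ℕ) [NeZero M] [NeZero q] (hq : q.Prime) (hqM : ¬ q ∣ M) : Prop :=
  ∀ z : ↥(modularFunctionFieldBar (M * q)),
    coeffMap embC ((PushPic.alphaNorm M q z : ↥(modularFunctionFieldBar M)) : LaurentSeries Qb)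
      = coeffMap embC (z : LaurentSeries Qb) *
          TrQx.NP q (coeffMap embC
            ((WK.wBar M q hq hqM z : ↥(modularFunctionFieldBar (M * q))) : LaurentSeries Qb))

/-- **`α`-half of [K-tr]** from the norm formula (N-α). -/
theorem kTrAlpha_of (M q m : ℕ) [NeZero M] [NeZero q] (hq : q.Prime) (hqM : ¬ q ∣ M)
    (hm : m ≠ 0) (hN : NAlpha M q hq hqM) : KTrPlan.KTrAlphaStatement M q m := by
  intro u y hW f hf htr
  obtain ⟨hy0, w, A, B, hA, hB, hB0, hx⟩ := hW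
  haveI : Fact q.Prime := ⟨hq⟩
  haveI : NeZero (M * q) := ⟨Nat.mul_ne_zero (NeZero.ne M) (NeZero.ne q)⟩
  have hcop : Nat.Coprime q M := (Nat.Prime.coprime_iff_not_dvd hq).mpr hqM
  obtain ⟨γ₀, -, -, -, a, b, h₀, -⟩ := Fermat.Agent.S37.W.exists_atkinLehner_matrices M q hcop
  have h10 : γ₀ 1 0 = (M : ℤ) := by
    have := congrFun (congrFun h₀ 1) 0
    simpa using this
  have h11 : γ₀ 1 1 = (q : ℤ) := by
    have := congrFun (congrFun h₀ 1) 1
    simpa using this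
  -- the multiplier is trivial on parabolic elements
  have hχ : ∀ γ : ↥(Gamma0 (M * q)),
      ((γ : SL(2, ℤ)) : Matrix (Fin 2) (Fin 2) ℤ).trace ^ 2 = 4 →
        KPlan.chiU m (u : Additive (Gamma0 (M * q)) →+ ℤ) γ = 1 :=
    fun γ hγ => KPlan.chiU_eq_one_of_trace m u γ hγ
  have hχ1 : ∀ γ : ↥(Gamma0 (M * q)),
      ((γ : SL(2, ℤ)) : Matrix (Fin 2) (Fin 2) ℤ).trace ^ 2 = 4 →
        (1 : ↥(Gamma0 (M * q)) →* ℂˣ) γ = 1 := fun _ _ => rfl
  have hT : KPlan.chiU m (u : Additive (Gamma0 (M * q)) →+ ℤ) (K.TG (M * q)) = 1 :=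
    hχ _ (by simp [K.TG, ModularGroup.T, Matrix.trace_fin_two])
  have hB' : B ∈ K.MFchi (M * q) w 1 := K.mem_MFchi_one_iff.mpr hB
  have hAn : A ∈ S23.niceSub := K.mem_niceSub_of_mem_MFchi hT hA
  have hBn : B ∈ S23.niceSub := K.mem_niceSub_of_mem_MF hB
  have hAWn : ALQx.AW γ₀ q w A ∈ S23.niceSub := ALQx.AW_mem_niceSub M q γ₀ a b h₀ hχ hA
  have hBWn : ALQx.AW γ₀ q w B ∈ S23.niceSub := ALQx.AW_mem_niceSub M q γ₀ a b h₀ hχ1 hB'
  have hBW0 : ALQx.AW γ₀ q w B ≠ 0 := ALQx.AW_ne_zero γ₀ q w hB0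
  have hqBW0 : K.qx (ALQx.AW γ₀ q w B) ≠ 0 := K.qx_ne_zero hBWn hBW0
  -- the Atkin–Lehner dictionary
  have hf' : coeffMap embC (f : LaurentSeries Qb) = (coeffMap embC y) ^ m := by
    rw [hf, map_pow]
  have hAL := ALQx.alqx_pow M q hq hqM γ₀ a b h₀ hχ hA hB m (coeffMap embC y) hx f hf'
  -- the transfer products
  have hA' := TrRepsW.mul_prod_slash_mem_MF_of_tr₁_eq_zero hqM γ₀ h10 h11 m
    (u : Additive (Gamma0 (M * q)) →+ ℤ) htr hA
  have hB'' := TrRepsW.mul_prod_slash_mem_MF hqM γ₀ h10 h11 hB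
  have hB0' := TrRepsW.mul_prod_slash_ne_zero (q := q) γ₀ w hB'.1 hB0
  have hqA := (TrQx.qx_trProd q w γ₀ A hAn hAWn).2
  have hqB := (TrQx.qx_trProd q w γ₀ B hBn hBWn).2
  have hNPB0 : TrQx.NP q (K.qx (ALQx.AW γ₀ q w B)) ≠ 0 := TrQx.NP_ne_zero q hqBW0
  -- the candidate root
  set hC : LaurentSeries ℂ := coeffMap embC y * TrQx.NP q (K.qx (ALQx.AW γ₀ q w A)) /
    TrQx.NP q (K.qx (ALQx.AW γ₀ q w B)) with hCdef
  have hCx : hC * K.qx (B * ∏ j : ZMod q, B ∣[w] (γ₀ * ModularGroup.T ^ (j.val : ℤ))) =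
      K.qx (A * ∏ j : ZMod q, A ∣[w] (γ₀ * ModularGroup.T ^ (j.val : ℤ))) := by
    rw [hqA, hqB, ← hx, hCdef]
    change _ * (K.qx B * TrQx.NP q (K.qx (ALQx.AW γ₀ q w B))) =
      coeffMap embC y * K.qx B * TrQx.NP q (K.qx (ALQx.AW γ₀ q w A))
    field_simp
  have hmem : hC ∈ K.FC M :=
    TrDesc.mem_FC_of_forms (K.mem_MFchi_one_iff.mpr hA') hB'' hB0' hCx
  have hpow : hC ^ m = coeffMap embC
      ((PushPic.alphaNorm M q f : ↥(modularFunctionFieldBar M)) : LaurentSeries Qb) := by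
    rw [hN f, hf', hCdef, div_pow, mul_pow, ← TrQx.NP_pow, ← TrQx.NP_pow, ← hAL, TrQx.NP_mul,
      TrQx.NP_pow q (K.qx (ALQx.AW γ₀ q w B))]
    have h0 : TrQx.NP q (K.qx (ALQx.AW γ₀ q w B)) ^ m ≠ 0 := pow_ne_zero _ hNPB0
    field_simp
  -- the norm is nonzero
  have hinj := Fermat.Agent.S24.AnBridge.coeffMap_embC_injective
  have hf0 : f ≠ 0 := by
    rintro rfl
    have h1 : y ^ m = 0 := hf.symm
    exact hy0 (pow_eq_zero_iff hm |>.mp h1)
  have hg : PushPic.alphaNorm M q f ≠ 0 := by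
    intro h0
    have h1 := hN f
    have h2 : coeffMap embC (f : LaurentSeries Qb) ≠ 0 := fun h3 =>
      hf0 (Subtype.ext (hinj (h3.trans (map_zero _).symm)))
    have h4 : (WK.wBar M q hq hqM f) ≠ 0 := fun h5 =>
      hf0 ((WK.wBar M q hq hqM).injective (h5.trans (map_zero _).symm))
    have h6 : coeffMap embC ((WK.wBar M q hq hqM f : ↥(modularFunctionFieldBar (M * q))) :
        LaurentSeries Qb) ≠ 0 := fun h3 =>
      h4 (Subtype.ext (hinj (h3.trans (map_zero _).symm)))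
    have h7 := mul_ne_zero h2 (TrQx.NP_ne_zero q h6)
    apply h7
    rw [← h1, h0]
    exact map_zero _
  exact TrDesc.exists_root_of_pow_eq hm (PushPic.alphaNorm M q f) hg hC hmem hpow

end Fermat.Agent.S35.KTrTopB
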