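/-
S35 route, block [B] — LevelQ.lean (helper65).  The level-`n` datum of `S30/LevelGlue` WITH the
Frobenius relation at a special prime.

* `frob_apply_eq_zero_of_mem_span` (Mathlib only) — `(B² − q²)(B² − 1)²`, `B = 1 ⊗ g`, vanishes
  on the `𝒪`-span of the pure tensors `1 ⊗ k`, `k ∈ Kq`, if the corresponding expression
  vanishes on `Kq`;
* `levelQ_of_vector` — as `S30/LevelGlue.nonempty_level_of_vector`: the `𝒪`-span of the Galois
  orbit of an eigenvector `v ∈ 𝒪 ⊗ J₀(N)[pⁿ]` is a `LimLevel.Level` `Lv`; moreover, for EVERY `q`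
  and every set `Kq ⊆ J₀(N)[pⁿ]` of classes killed by `(σ² − q²)(σ² − 1)²`
  (`NewPlan.frobPoly q σ`) for the Frobenius elements `σ` at `q`: if `v` lies in the `𝒪`-span of
  the pure tensors `1 ⊗ k`, `k ∈ Kq`, then `PseudoQ.FrobQ Lv q 1`;
* `levelVec` — the same in the ∀-form of the captain's `Final.LevelBStatement` /
  `NewTop.LevelVecStatement`.
-/
import Mathlib
import Fermat.Agent.S29.Defs
import Fermat.Agent.S29.ESGH
import Fermat.Agent.S29.SpecCoreS37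
import Fermat.Agent.S30.LimLevel
import Fermat.Agent.S30.ModOrbitR
import Fermat.Agent.S30.Defs
import Fermat.Agent.S30.LevelGlue
import Fermat.Agent.S35.PseudoQ
import Fermat.Agent.S35.NewPlan

set_option autoImplicit false

noncomputable section

open ModularCurve AlgebraicCurve
open scoped TensorProduct

namespace Fermat.Agent.S35.LevelQ

open Fermat.Agent.S29 (Qb GQ Jp galJp heckeJp mem_Jp_iff)
open Fermat.Agent.S30

/-! ### An abstract lemma on base change -/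

section Span

variable {𝒪 : Type*} [CommRing 𝒪] {M M' : Type*} [AddCommGroup M] [AddCommGroup M']

/-- `(B² − q²)(B² − 1)²` vanishes on the `𝒪`-span of the pure tensors `1 ⊗ k`, `k ∈ Kq`, for
`B = 1 ⊗ g`, as soon as the corresponding expression vanishes on the images of `Kq` under an
injective additive map `j` intertwining `g` with `g'`. -/
theorem frob_apply_eq_zero_of_mem_span (g : M →+ M) (j : M →+ M') (hj : Function.Injective j)
    (g' : M' → M') (hjg : ∀ m, j (g m) = g' (j m)) (q : ℕ) (Kq : Set M)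
    (hK : ∀ k ∈ Kq, g' (g' (g' (g' (g' (g' (j k)) - j k)) - (g' (g' (j k)) - j k)))
      - (q ^ 2) • (g' (g' (g' (g' (j k)) - j k)) - (g' (g' (j k)) - j k)) = 0)
    (y : 𝒪 ⊗[ℤ] M)
    (hy : y ∈ Submodule.span 𝒪 {z : 𝒪 ⊗[ℤ] M | ∃ k ∈ Kq, z = (1 : 𝒪) ⊗ₜ[ℤ] k}) :
    (LinearMap.baseChange 𝒪 g.toIntLinearMap * LinearMap.baseChange 𝒪 g.toIntLinearMap
        - ((q : 𝒪) ^ 2) • (1 : Module.End 𝒪 (𝒪 ⊗[ℤ] M)))
      ((LinearMap.baseChange 𝒪 g.toIntLinearMap * LinearMap.baseChange 𝒪 g.toIntLinearMap - 1)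
        ((LinearMap.baseChange 𝒪 g.toIntLinearMap * LinearMap.baseChange 𝒪 g.toIntLinearMap - 1)
          y)) = 0 := by
  set B : Module.End 𝒪 (𝒪 ⊗[ℤ] M) := LinearMap.baseChange 𝒪 g.toIntLinearMap with hB
  have hB1 : ∀ m : M, B ((1 : 𝒪) ⊗ₜ[ℤ] m) = (1 : 𝒪) ⊗ₜ[ℤ] (g m) := by
    intro m
    rw [hB, LinearMap.baseChange_tmul]
    rfl
  have hD1 : ∀ m : M, (B * B - 1) ((1 : 𝒪) ⊗ₜ[ℤ] m) = (1 : 𝒪) ⊗ₜ[ℤ] (g (g m) - m) := by
    intro m
    rw [LinearMap.sub_apply, Module.End.mul_apply, hB1, hB1, Module.End.one_apply,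
      TensorProduct.tmul_sub]
  have hDq : ∀ m : M, (B * B - ((q : 𝒪) ^ 2) • (1 : Module.End 𝒪 (𝒪 ⊗[ℤ] M)))
      ((1 : 𝒪) ⊗ₜ[ℤ] m) = (1 : 𝒪) ⊗ₜ[ℤ] (g (g m) - ((q ^ 2 : ℕ) : ℤ) • m) := by
    intro m
    have e1 : ((q : 𝒪) ^ 2) = (((q ^ 2 : ℕ) : ℤ) : 𝒪) := by push_cast; ring
    rw [LinearMap.sub_apply, Module.End.mul_apply, hB1, hB1, LinearMap.smul_apply,
      Module.End.one_apply, TensorProduct.tmul_sub, TensorProduct.tmul_smul, e1,
      Int.cast_smul_eq_zsmul]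
  have hker : Submodule.span 𝒪 {z : 𝒪 ⊗[ℤ] M | ∃ k ∈ Kq, z = (1 : 𝒪) ⊗ₜ[ℤ] k}
      ≤ LinearMap.ker ((B * B - ((q : 𝒪) ^ 2) • (1 : Module.End 𝒪 (𝒪 ⊗[ℤ] M)))
        * ((B * B - 1) * (B * B - 1))) := by
    rw [Submodule.span_le]
    rintro z ⟨k, hk, rfl⟩
    rw [SetLike.mem_coe, LinearMap.mem_ker, Module.End.mul_apply, Module.End.mul_apply, hD1, hD1,
      hDq]
    have h0 : g (g (g (g (g (g k) - k)) - (g (g k) - k)))
        - ((q ^ 2 : ℕ) : ℤ) • (g (g (g (g k) - k)) - (g (g k) - k)) = 0 := by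
      apply hj
      rw [map_zero, map_sub, map_zsmul, natCast_zsmul]
      simp only [map_sub j, hjg]
      exact hK k hk
    rw [h0, TensorProduct.tmul_zero]
  have h := hker hy
  rw [LinearMap.mem_ker, Module.End.mul_apply, Module.End.mul_apply] at h
  exact h

/-- Transfer of the relation `(R² − c)(R² − 1)² w = 0` along an injective linear map `ι`
intertwining `R` with `B`. -/
theorem frobQ_of_intertwine {V W : Type*} [AddCommGroup V] [Module 𝒪 V] [AddCommGroup W]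
    [Module 𝒪 W] (ι : V →ₗ[𝒪] W) (hι : Function.Injective ι) (R : Module.End 𝒪 V)
    (B : Module.End 𝒪 W) (hιr : ∀ x, ι (R x) = B (ι x)) (c : 𝒪) (w : V) (v : W) (hιw : ι w = v)
    (h : (B * B - c • (1 : Module.End 𝒪 W)) ((B * B - 1) ((B * B - 1) v)) = 0) :
    (R * R - c • (1 : Module.End 𝒪 V)) ((R * R - 1) ((R * R - 1) ((1 : 𝒪) • w))) = 0 := by
  have hι1 : ∀ x : V, ι ((R * R - 1) x) = (B * B - 1) (ι x) := by
    intro x
    rw [LinearMap.sub_apply, Module.End.mul_apply, Module.End.one_apply, map_sub, hιr, hιr,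
      LinearMap.sub_apply, Module.End.mul_apply, Module.End.one_apply]
  have hιq : ∀ x : V, ι ((R * R - c • (1 : Module.End 𝒪 V)) x)
      = (B * B - c • (1 : Module.End 𝒪 W)) (ι x) := by
    intro x
    rw [LinearMap.sub_apply, Module.End.mul_apply, LinearMap.smul_apply, Module.End.one_apply,
      map_sub, hιr, hιr, map_smul, LinearMap.sub_apply, Module.End.mul_apply,
      LinearMap.smul_apply, Module.End.one_apply]
  apply hι
  rw [map_zero, hιq, hι1, hι1, one_smul, hιw]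
  exact h

end Span

/-! ### The level from a vector -/

/-- **[B]: the level-`n` datum with `FrobQ`, from an eigenvector in `𝒪 ⊗ J₀(N)[pⁿ]`.** -/
theorem levelQ_of_vector (N p : ℕ) [NeZero N] (hp : p.Prime) (S : Set ℕ) (hpS : p ∈ S)
    {𝒪 : Type} [CommRing 𝒪] (χ : CuspForm.heckeAlgebra N 2 S →+* 𝒪) (n : ℕ)
    (v : 𝒪 ⊗[ℤ] (Jp N (p ^ n)))
    (hann : ∀ a : 𝒪, a • v = 0 → (p : 𝒪) ^ n ∣ a)
    (hv : ∀ (ℓ : ℕ) (hℓ : ℓ.Prime) (hℓN : ¬ ℓ ∣ N) (hℓS : ℓ ∉ S),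
      (heckeJp N (p ^ n) ⟨ℓ, hℓ⟩).baseChange 𝒪 v = χ (CuspForm.heckeAlgebra.T hℓ hℓN hℓS) • v) :
    ∃ Lv : LimLevel.Level 𝒪 p n (LimLevel.goodPrime N S) (LimLevel.heckeEig N S χ)
        (LimLevel.unrPrime N p),
      ∀ (q : ℕ) (Kq : Set (Jp N (p ^ n))),
        v ∈ Submodule.span 𝒪 {z : 𝒪 ⊗[ℤ] (Jp N (p ^ n)) | ∃ k ∈ Kq, z = (1 : 𝒪) ⊗ₜ[ℤ] k} →
        (∀ k ∈ Kq, ∀ A : ValuationSubring Qb, A.LiesOverPrime q → ∀ σ : GQ,
          A.IsFrobeniusAt σ q →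
            Fermat.Agent.S35.NewPlan.frobPoly q σ ((k : Jp N (p ^ n)) : JZero N) = 0) →
        Fermat.Agent.S35.PseudoQ.FrobQ Lv q 1 := by
  classical
  have hIn := Fermat.Agent.S29.inertiaStatement_of_specCore N (p ^ n)
    (Fermat.Agent.S29.specCoreStatement N (p ^ n))
  have hES := Fermat.Agent.S29.esStatement_of_specCore N (p ^ n)
    (Fermat.Agent.S29.specCoreStatement N (p ^ n))
  have hGH := Fermat.Agent.S29.ghStatement N (p ^ n)
  have hFL := Fermat.Agent.S29.flStatement N (p ^ n) (pow_ne_zero n hp.ne_zero)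
  -- the action by additive maps
  let act : GQ →* AddMonoid.End (Jp N (p ^ n)) :=
    { toFun := fun σ => (galJp N (p ^ n) σ).toAddMonoidHom
      map_one' := by rw [map_one]; rfl
      map_mul' := fun σ τ => by rw [map_mul]; rfl }
  have hact : ∀ (σ : GQ) (m : Jp N (p ^ n)),
      ((act σ m : Jp N (p ^ n)) : JZero N) = σ • (m : JZero N) := fun _ _ => rfl
  have hm : ∀ m : Jp N (p ^ n), p ^ n • (m : JZero N) = 0 :=
    fun m => (mem_Jp_iff N (p ^ n) _).mp m.2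
  -- index set: the good primes
  let I : Type := {ℓ : ℕ // LimLevel.goodPrime N S ℓ}
  have hIp : ∀ i : I, i.1 ≠ p := fun i h => i.2.2.2 (h ▸ hpS)
  have hIdvd : ∀ i : I, ¬ i.1 ∣ N * p ^ n := fun i =>
    Fermat.Agent.S30.LevelGlue.not_dvd_mul_pow hp i.2.1 i.2.2.1 (hIp i) n
  let TM : I → (Jp N (p ^ n) →+ Jp N (p ^ n)) :=
    fun i => (heckeJp N (p ^ n) ⟨i.1, i.2.1⟩).toAddMonoidHom
  have hTM : ∀ (i : I) (m : Jp N (p ^ n)),
      ((TM i m : Jp N (p ^ n)) : JZero N) = heckeOperatorBar N ⟨i.1, i.2.1⟩ (m : JZero N) :=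
    fun _ _ => rfl
  obtain ⟨V, i1, i2, -, r, w, ι, hι, hιw, hιr, -, hfin, htriv, hquad⟩ :=
    ModOrbitR.exists_orbit_module act
      (fun m => by
        obtain ⟨L, hL, hfix⟩ := hFL (m : JZero N) (hm m)
        exact ⟨L, hL, fun σ hσ => Subtype.ext (hfix σ hσ)⟩)
      TM (fun i : I => χ (CuspForm.heckeAlgebra.T i.2.1 i.2.2.1 i.2.2.2))
      (fun i σ m => Subtype.ext (by
        rw [hact, hTM, hTM, hact]
        exact (hGH i.1 i.2.1 (hIdvd i) σ (m : JZero N) (hm m)).symm))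
      v
      (fun i => by
        have e : (TM i).toIntLinearMap = heckeJp N (p ^ n) ⟨i.1, i.2.1⟩ :=
          LinearMap.ext fun _ => rfl
        rw [e]
        exact hv i.1 i.2.1 i.2.2.1 i.2.2.2)
  -- the four level fields
  have htors : ∀ x : V, (p : 𝒪) ^ n • x = 0 := by
    intro x
    apply hι
    rw [map_smul, map_zero]
    have h := ModOrbitR.intCast_smul_eq_zero 𝒪 ((p : ℤ) ^ n) (fun m => Subtype.ext (by
      have h1 := hm m
      rw [Submodule.coe_smul, ZeroMemClass.coe_zero]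
      rw [← h1]
      norm_cast)) (ι x)
    have e : (p : 𝒪) ^ n = (((p : ℤ) ^ n : ℤ) : 𝒪) := by push_cast; rfl
    rw [e]
    exact h
  have hannw : ∀ c : 𝒪, c • w = 0 → (p : 𝒪) ^ n ∣ c := by
    intro c hc
    apply hann c
    rw [← hιw, ← map_smul, hc, map_zero]
  have hfrob : ∀ ℓ : ℕ, LimLevel.goodPrime N S ℓ → ∀ A : ValuationSubring Qb,
      A.LiesOverPrime ℓ → ∀ σ : GQ, A.IsFrobeniusAt σ ℓ →
      r σ * r σ - LimLevel.heckeEig N S χ ℓ • r σ + (ℓ : 𝒪) • (1 : Module.End 𝒪 V) = 0 := by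
    intro ℓ hℓg A hA σ hσ
    let i : I := ⟨ℓ, hℓg⟩
    have h := hquad σ i (ℓ : ℤ) (fun m => Subtype.ext (by
      have h1 := hES ℓ hℓg.1 (hIdvd i) A hA σ hσ (m : JZero N) (hm m)
      rw [Submodule.coe_add, Submodule.coe_sub, Submodule.coe_smul, hact, hact, hTM, hact,
        natCast_zsmul]
      exact h1))
    rw [Int.cast_natCast] at h
    rw [LimLevel.heckeEig_eq N S χ hℓg.1 hℓg.2.1 hℓg.2.2]
    exact h
  have hinert : ∀ q : ℕ, LimLevel.unrPrime N p q → ∀ P : ValuationSubring Qb,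
      P.LiesOverPrime q → ∀ τ ∈ P.inertiaSubgroupIn ℚ, r τ = 1 := by
    intro q hq P hP τ hτ
    refine htriv τ (fun m => Subtype.ext ?_)
    rw [hact]
    exact hIn q hq.1 (Fermat.Agent.S30.LevelGlue.not_dvd_mul_pow hp hq.1 hq.2.1 hq.2.2 n) P hP τ
      hτ (m : JZero N) (hm m)
  -- the Frobenius relation, on `V`
  have hQ : ∀ (q : ℕ) (Kq : Set (Jp N (p ^ n))),
      v ∈ Submodule.span 𝒪 {z : 𝒪 ⊗[ℤ] (Jp N (p ^ n)) | ∃ k ∈ Kq, z = (1 : 𝒪) ⊗ₜ[ℤ] k} →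
      (∀ k ∈ Kq, ∀ A : ValuationSubring Qb, A.LiesOverPrime q → ∀ σ : GQ,
        A.IsFrobeniusAt σ q →
          Fermat.Agent.S35.NewPlan.frobPoly q σ ((k : Jp N (p ^ n)) : JZero N) = 0) →
      ∀ A : ValuationSubring Qb, A.LiesOverPrime q → ∀ σ : GQ, A.IsFrobeniusAt σ q →
        (r σ * r σ - ((q : 𝒪) ^ 2) • (1 : Module.End 𝒪 V))
          ((r σ * r σ - 1) ((r σ * r σ - 1) ((1 : 𝒪) • w))) = 0 := by
    intro q Kq hvK hK A hA σ hσ
    have hΦ := frob_apply_eq_zero_of_mem_span (𝒪 := 𝒪) (act σ)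
      (Jp N (p ^ n)).subtype.toAddMonoidHom (Submodule.injective_subtype _)
      (fun x : JZero N => σ • x) (fun m => hact σ m) q Kq
      (fun k hk => by
        have h1 := hK k hk A hA σ hσ
        unfold Fermat.Agent.S35.NewPlan.frobPoly at h1
        exact h1) v hvK
    exact frobQ_of_intertwine ι hι (r σ) (LinearMap.baseChange 𝒪 (act σ).toIntLinearMap) (hιr σ)
      ((q : 𝒪) ^ 2) w v hιw hΦ
  exact ⟨{ V := V, r := r, w := w, tors := htors, ann := hannw, level := hfin, frob := hfrob,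
           inert := hinert },
    fun q Kq hvK hK A hA σ hσ => hQ q Kq hvK hK A hA σ hσ⟩

/-- **[B]**, in the ∀-form of `Final.LevelBStatement` / `NewTop.LevelVecStatement`. -/
theorem levelVec :
    ∀ (N p : ℕ) [NeZero N], p.Prime → ∀ (S : Set ℕ), p ∈ S →
    ∀ (𝒪 : Type) [CommRing 𝒪] (χ : CuspForm.heckeAlgebra N 2 S →+* 𝒪) (n : ℕ)
      (v : 𝒪 ⊗[ℤ] (Jp N (p ^ n))),
      (∀ a : 𝒪, a • v = 0 → (p : 𝒪) ^ n ∣ a) →
      (∀ (ℓ : ℕ) (hℓ : ℓ.Prime) (hℓN : ¬ ℓ ∣ N) (hℓS : ℓ ∉ S),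
        (heckeJp N (p ^ n) ⟨ℓ, hℓ⟩).baseChange 𝒪 v
          = χ (CuspForm.heckeAlgebra.T hℓ hℓN hℓS) • v) →
      ∃ Lv : LimLevel.Level 𝒪 p n (LimLevel.goodPrime N S) (LimLevel.heckeEig N S χ)
          (LimLevel.unrPrime N p),
        ∀ (q : ℕ) (Kq : Set (Jp N (p ^ n))),
          v ∈ Submodule.span 𝒪 {z : 𝒪 ⊗[ℤ] (Jp N (p ^ n)) | ∃ k ∈ Kq, z = (1 : 𝒪) ⊗ₜ[ℤ] k} →
          (∀ k ∈ Kq, ∀ A : ValuationSubring Qb, A.LiesOverPrime q → ∀ σ : GQ,
            A.IsFrobeniusAt σ q →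
              Fermat.Agent.S35.NewPlan.frobPoly q σ ((k : Jp N (p ^ n)) : JZero N) = 0) →
          Fermat.Agent.S35.PseudoQ.FrobQ Lv q 1 :=
  fun N p _ hp S hpS _ _ χ n v hann hv => levelQ_of_vector N p hp S hpS χ n v hann hv

end Fermat.Agent.S35.LevelQ
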