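/-
S35, block [B] — LevelQB2.lean (helper87; B-copy of `S35/LevelQ.lean`, shape of the captain).

The level-`n` datum of `S30/LevelGlue.nonempty_level_of_vector` (the `𝒪`-span of the Galois orbit
of an eigenvector `v ∈ 𝒪 ⊗ J₀(N)[pⁿ]`), TOGETHER WITH the extra datum `PseudoQ.FrobQ` at every
prime `q` for which `v` lies in the `𝒪`-span of the pure tensors `1 ⊗ k`, `k ∈ Kq`, where `Kq` is
any set of `pⁿ`-torsion points killed by `(σ² - q²)(σ² - 1)²` (`NewPlan.frobPoly q σ`) for the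
Frobenius elements `σ` at `q`.

* `frobPoly_tmul`      — the operator `(A² - q²)(A² - 1)²`, `A = 1 ⊗ σ`, on a pure tensor;
* `levelQ_of_vector`   — the level with `FrobQ Lv q 1` (ONE level for all `q`, `Kq`).

Proof: that of `S30/LevelGlue.nonempty_level_of_vector`, with the equivariant embedding `ι` of
the orbit module into `𝒪 ⊗ J₀(N)[pⁿ]` (`S30/ModOrbitR.exists_orbit_module`) kept.
-/
import Mathlib
import Fermat.Agent.S29.Defs
import Fermat.Agent.S29.ESGH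
import Fermat.Agent.S29.SpecCoreS37
import Fermat.Agent.S30.LimLevel
import Fermat.Agent.S30.ModOrbitR
import Fermat.Agent.S30.LevelGlue
import Fermat.Agent.S35.PseudoQ
import Fermat.Agent.S35.NewPlan

set_option autoImplicit false

noncomputable section

open ModularCurve AlgebraicCurve
open scoped TensorProduct

namespace Fermat.Agent.S35.LevelQB2

open Fermat.Agent.S29 (Qb GQ Jp galJp heckeJp mem_Jp_iff)
open Fermat.Agent.S30

/-- `(A² - c)` on a pure tensor, `A = 1 ⊗ φ`, `c` an integer. -/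
theorem sq_sub_tmul {M : Type} [AddCommGroup M] {𝒪 : Type} [CommRing 𝒪] (φ : M →ₗ[ℤ] M) (c : ℤ)
    (a : 𝒪) (m : M) :
    (LinearMap.baseChange 𝒪 φ * LinearMap.baseChange 𝒪 φ -
        (c : 𝒪) • (1 : Module.End 𝒪 (𝒪 ⊗[ℤ] M))) (a ⊗ₜ[ℤ] m) =
      a ⊗ₜ[ℤ] (φ (φ m) - c • m) := by
  rw [LinearMap.sub_apply, Module.End.mul_apply, LinearMap.baseChange_tmul,
    LinearMap.baseChange_tmul, LinearMap.smul_apply, Module.End.one_apply,
    Int.cast_smul_eq_zsmul, TensorProduct.tmul_sub, TensorProduct.tmul_smul]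

/-- The operator `(A² - q²)(A² - 1)²`, `A = 1 ⊗ φ`, on a pure tensor. -/
theorem frobPoly_tmul {M : Type} [AddCommGroup M] {𝒪 : Type} [CommRing 𝒪] (φ : M →ₗ[ℤ] M)
    (q : ℕ) (a : 𝒪) (m : M) :
    (LinearMap.baseChange 𝒪 φ * LinearMap.baseChange 𝒪 φ -
        ((q : 𝒪) ^ 2) • (1 : Module.End 𝒪 (𝒪 ⊗[ℤ] M)))
      ((LinearMap.baseChange 𝒪 φ * LinearMap.baseChange 𝒪 φ - 1)
        ((LinearMap.baseChange 𝒪 φ * LinearMap.baseChange 𝒪 φ - 1) (a ⊗ₜ[ℤ] m))) =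
      a ⊗ₜ[ℤ] (φ (φ (φ (φ (φ (φ m) - m)) - (φ (φ m) - m))) -
        ((q : ℤ) ^ 2) • (φ (φ (φ (φ m) - m)) - (φ (φ m) - m))) := by
  have h1 : ∀ (b : 𝒪) (x : M),
      (LinearMap.baseChange 𝒪 φ * LinearMap.baseChange 𝒪 φ - 1) (b ⊗ₜ[ℤ] x) =
        b ⊗ₜ[ℤ] (φ (φ x) - x) := by
    intro b x
    have h := sq_sub_tmul (𝒪 := 𝒪) φ 1 b x
    rw [Int.cast_one, one_smul, one_smul] at h
    exact h
  have h2 := sq_sub_tmul (𝒪 := 𝒪) φ ((q : ℤ) ^ 2) a (φ (φ (φ (φ m) - m)) - (φ (φ m) - m))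
  rw [Int.cast_pow, Int.cast_natCast] at h2
  rw [h1, h1, h2]

/-- The operator `(A² - q²)(A² - 1)²`, `A = 1 ⊗ φ`, kills the `𝒪`-span of the pure tensors
`1 ⊗ k` with `(φ² - q²)(φ² - 1)² k = 0`. -/
theorem frobPoly_span {M : Type} [AddCommGroup M] {𝒪 : Type} [CommRing 𝒪] (φ : M →ₗ[ℤ] M)
    (q : ℕ) (K : Set M)
    (hK : ∀ k ∈ K, φ (φ (φ (φ (φ (φ k) - k)) - (φ (φ k) - k))) -
        ((q : ℤ) ^ 2) • (φ (φ (φ (φ k) - k)) - (φ (φ k) - k)) = 0)
    (x : 𝒪 ⊗[ℤ] M) (hx : x ∈ Submodule.span 𝒪 {z : 𝒪 ⊗[ℤ] M | ∃ k ∈ K, z = 1 ⊗ₜ[ℤ] k}) :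
    (LinearMap.baseChange 𝒪 φ * LinearMap.baseChange 𝒪 φ -
        ((q : 𝒪) ^ 2) • (1 : Module.End 𝒪 (𝒪 ⊗[ℤ] M)))
      ((LinearMap.baseChange 𝒪 φ * LinearMap.baseChange 𝒪 φ - 1)
        ((LinearMap.baseChange 𝒪 φ * LinearMap.baseChange 𝒪 φ - 1) x)) = 0 := by
  induction hx using Submodule.span_induction with
  | mem z hz =>
    obtain ⟨k, hk, rfl⟩ := hz
    rw [frobPoly_tmul, hK k hk, TensorProduct.tmul_zero]
  | zero => simp only [map_zero]
  | add x y _ _ hx hy => simp only [map_add, hx, hy, add_zero]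
  | smul a x _ hx => simp only [map_smul, hx, smul_zero]

/-- Transport of `(s² - c)(s² - 1)² w = 0` along an injective intertwiner. -/
theorem frobQ_of_embedding {𝒪 : Type} [CommRing 𝒪] {V X : Type} [AddCommGroup V] [Module 𝒪 V]
    [AddCommGroup X] [Module 𝒪 X] (ι : V →ₗ[𝒪] X) (hι : Function.Injective ι)
    (s : Module.End 𝒪 V) (B : Module.End 𝒪 X) (hs : ∀ x : V, ι (s x) = B (ι x)) (c : 𝒪) (w : V)
    (h : (B * B - c • (1 : Module.End 𝒪 X)) ((B * B - 1) ((B * B - 1) (ι w))) = 0) :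
    (s * s - c • (1 : Module.End 𝒪 V)) ((s * s - 1) ((s * s - 1) w)) = 0 := by
  have h1 : ∀ x : V, ι ((s * s - 1) x) = (B * B - 1) (ι x) := by
    intro x
    rw [LinearMap.sub_apply, Module.End.mul_apply, Module.End.one_apply, map_sub, hs, hs,
      LinearMap.sub_apply, Module.End.mul_apply, Module.End.one_apply]
  have h2 : ∀ x : V, ι ((s * s - c • (1 : Module.End 𝒪 V)) x) =
      (B * B - c • (1 : Module.End 𝒪 X)) (ι x) := by
    intro x
    rw [LinearMap.sub_apply, Module.End.mul_apply, LinearMap.smul_apply, Module.End.one_apply,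
      map_sub, hs, hs, map_smul, LinearMap.sub_apply, Module.End.mul_apply,
      LinearMap.smul_apply, Module.End.one_apply]
  apply hι
  rw [map_zero, h2, h1, h1]
  exact h

/-- **[B], with the special primes**: the level-`n` datum from an eigenvector
`v ∈ 𝒪 ⊗ J₀(N)[pⁿ]`, with `FrobQ` at every `q` for which `v` lies in the span of a set of
torsion points killed by `(σ² - q²)(σ² - 1)²`. -/
theorem levelQ_of_vector (N p : ℕ) [NeZero N] (hp : p.Prime) (S : Set ℕ) (hpS : p ∈ S)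
    {𝒪 : Type} [CommRing 𝒪] (χ : CuspForm.heckeAlgebra N 2 S →+* 𝒪) (n : ℕ)
    (v : 𝒪 ⊗[ℤ] (Jp N (p ^ n)))
    (hann : ∀ a : 𝒪, a • v = 0 → (p : 𝒪) ^ n ∣ a)
    (hv : ∀ (ℓ : ℕ) (hℓ : ℓ.Prime) (hℓN : ¬ ℓ ∣ N) (hℓS : ℓ ∉ S),
      (heckeJp N (p ^ n) ⟨ℓ, hℓ⟩).baseChange 𝒪 v = χ (CuspForm.heckeAlgebra.T hℓ hℓN hℓS) • v) :
    ∃ Lv : LimLevel.Level 𝒪 p n (LimLevel.goodPrime N S) (LimLevel.heckeEig N S χ)
        (LimLevel.unrPrime N p),
      ∀ (q : ℕ) (Kq : Set (Jp N (p ^ n))),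
        v ∈ Submodule.span 𝒪 {z : 𝒪 ⊗[ℤ] (Jp N (p ^ n)) | ∃ k ∈ Kq, z = 1 ⊗ₜ[ℤ] k} →
        (∀ k ∈ Kq, ∀ A : ValuationSubring Qb, A.LiesOverPrime q → ∀ σ : GQ,
          A.IsFrobeniusAt σ q →
            NewPlan.frobPoly q σ ((k : Jp N (p ^ n)) : JZero N) = 0) →
        PseudoQ.FrobQ Lv q 1 := by
  classical
  have hIn := Fermat.Agent.S29.inertiaStatement_of_specCore N (p ^ n)
    (Fermat.Agent.S29.specCoreStatement N (p ^ n))
  have hES := Fermat.Agent.S29.esStatement_of_specCore N (p ^ n)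
    (Fermat.Agent.S29.specCoreStatement N (p ^ n))
  have hGH := Fermat.Agent.S29.ghStatement N (p ^ n)
  have hFL := Fermat.Agent.S29.flStatement N (p ^ n) (pow_ne_zero n hp.ne_zero)
  -- the action by additive maps
  let act : GQ →* AddMonoid.End (Jp N (p ^ n)) :=
    { toFun := fun σ => (galJp N (p ^ n) σ).toAddMonoidHom
      map_one' := by rw [map_one]; rfl
      map_mul' := fun σ τ => by rw [map_mul]; rfl }
  have hact : ∀ (σ : GQ) (m : Jp N (p ^ n)),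
      ((act σ m : Jp N (p ^ n)) : JZero N) = σ • (m : JZero N) := fun _ _ => rfl
  have hm : ∀ m : Jp N (p ^ n), p ^ n • (m : JZero N) = 0 :=
    fun m => (mem_Jp_iff N (p ^ n) _).mp m.2
  -- index set: the good primes
  let I : Type := {ℓ : ℕ // LimLevel.goodPrime N S ℓ}
  have hIp : ∀ i : I, i.1 ≠ p := fun i h => i.2.2.2 (h ▸ hpS)
  have hIdvd : ∀ i : I, ¬ i.1 ∣ N * p ^ n := fun i =>
    LevelGlue.not_dvd_mul_pow hp i.2.1 i.2.2.1 (hIp i) n
  let TM : I → (Jp N (p ^ n) →+ Jp N (p ^ n)) :=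
    fun i => (heckeJp N (p ^ n) ⟨i.1, i.2.1⟩).toAddMonoidHom
  have hTM : ∀ (i : I) (m : Jp N (p ^ n)),
      ((TM i m : Jp N (p ^ n)) : JZero N) = heckeOperatorBar N ⟨i.1, i.2.1⟩ (m : JZero N) :=
    fun _ _ => rfl
  obtain ⟨V, i1, i2, -, r, w, ι, hι, hιw, hιr, -, hfin, htriv, hquad⟩ :=
    ModOrbitR.exists_orbit_module act
      (fun m => by
        obtain ⟨L, hL, hfix⟩ := hFL (m : JZero N) (hm m)
        exact ⟨L, hL, fun σ hσ => Subtype.ext (hfix σ hσ)⟩)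
      TM (fun i : I => χ (CuspForm.heckeAlgebra.T i.2.1 i.2.2.1 i.2.2.2))
      (fun i σ m => Subtype.ext (by
        rw [hact, hTM, hTM, hact]
        exact (hGH i.1 i.2.1 (hIdvd i) σ (m : JZero N) (hm m)).symm))
      v
      (fun i => by
        have e : (TM i).toIntLinearMap = heckeJp N (p ^ n) ⟨i.1, i.2.1⟩ :=
          LinearMap.ext fun _ => rfl
        rw [e]
        exact hv i.1 i.2.1 i.2.2.1 i.2.2.2)
  have htors : ∀ c : ℤ, (∀ m : Jp N (p ^ n), c • m = 0) → ∀ x : V, (c : 𝒪) • x = 0 := by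
    intro c hc x
    apply hι
    rw [map_smul, map_zero]
    exact ModOrbitR.intCast_smul_eq_zero 𝒪 c hc (ι x)
  refine ⟨{ V := V, r := r, w := w, tors := ?_, ann := ?_, level := hfin, frob := ?_,
            inert := ?_ }, ?_⟩
  · intro x
    have h := htors ((p : ℤ) ^ n) (fun m => Subtype.ext (by
      have h1 := hm m
      rw [Submodule.coe_smul, ZeroMemClass.coe_zero]
      rw [← h1]
      norm_cast)) x
    rw [← h]
    norm_cast
  · intro c hc
    apply hann c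
    rw [← hιw, ← map_smul, hc, map_zero]
  · intro ℓ hℓg A hA σ hσ
    let i : I := ⟨ℓ, hℓg⟩
    have h := hquad σ i (ℓ : ℤ) (fun m => Subtype.ext (by
      have h1 := hES ℓ hℓg.1 (hIdvd i) A hA σ hσ (m : JZero N) (hm m)
      rw [Submodule.coe_add, Submodule.coe_sub, Submodule.coe_smul, hact, hact, hTM, hact,
        natCast_zsmul]
      exact h1))
    rw [Int.cast_natCast] at h
    rw [LimLevel.heckeEig_eq N S χ hℓg.1 hℓg.2.1 hℓg.2.2]
    exact h
  · intro q hq P hP τ hτ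
    refine htriv τ (fun m => Subtype.ext ?_)
    rw [hact]
    exact hIn q hq.1 (LevelGlue.not_dvd_mul_pow hp hq.1 hq.2.1 hq.2.2 n) P hP τ hτ
      (m : JZero N) (hm m)
  · -- the special primes
    intro q Kq hspan hK A hA σ hσ
    show (r σ * r σ - ((q : 𝒪) ^ 2) • (1 : Module.End 𝒪 V))
      ((r σ * r σ - 1) ((r σ * r σ - 1) ((1 : 𝒪) • w))) = 0
    rw [one_smul]
    refine frobQ_of_embedding ι hι (r σ) (LinearMap.baseChange 𝒪 (act σ).toIntLinearMap)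
      (fun x => hιr σ x) ((q : 𝒪) ^ 2) w ?_
    rw [hιw]
    refine frobPoly_span (act σ).toIntLinearMap q Kq ?_ v hspan
    intro k hk
    apply Subtype.ext
    have h3 := hK k hk A hA σ hσ
    unfold NewPlan.frobPoly at h3
    rw [← natCast_zsmul, Nat.cast_pow] at h3
    exact h3

end Fermat.Agent.S35.LevelQB2
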