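/-
S35 — URoutePlan.lean (helper93).  BINDING interface of the `[U]`-route: the hedge for the bridge
block [D] of the S35 blueprint, which replaces "`θ c ∈ ker α_* ∩ ker β_*`" by "`U_q² c = c`".

Picture (level `N = M q`, `q` prime, `q ∤ M`; torsion order `m`):

  * a new class `c ∈ Lpar (M q)` (`tr₁ c = tr₂ c = 0`) satisfies `U_q (U_q c) = c`
    (`S41.IwahoriU.heckeU_sq_of_tr_eq_zero`, on main);
  * **[UWit]** (`UWitStatement`): a witness `y` of `u` gives a witness `y'` of `U_q u` with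
    `y'(Q^q) = ∏_{i<q} y(ζ^i Q)` (`IsU q y y'`) — the `U_q`-twin of `S29.KPlan.WHStatement`, only
    the `q` upper-triangular cosets;
  * **[UCond]** (`KUStatement`): hence, by uniqueness of witnesses, every Kummer generator
    `f = y ^ m` of `θ c` satisfies `UCond`: `𝒰 𝒰 f = g ^ m · f` with `g ∈ F̄_{M q}`;
  * **[GNormU]/[E]** (`FrobNewUStatement`): for such `f` the function
    `f̃ = τ f / f ^ (q²)` (`τ = σ²`, `σ` a Frobenius lift at `q`) has a Frobenius model
    (`ModelFPlan.ModelF`), so `(σ² - q²)(σ² - 1)²` kills the class of `τ D - q² D`, i.e.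
    `(σ² - q²)² (σ² - 1)² x = 0` for `x = [D]`, `m • D = div f`  (`frobPolyU`);
  * `frobU_theta_eq_zero` — pure logic: what block [B] consumes at one special prime.

Definitions and `Prop`s, plus the two pieces of pure logic.  The twin of `S35/NewPlan.lean`
(`KTrStatement`, `FrobNewStatement`, `frob_theta_eq_zero`).
-/
import Mathlib
import Fermat.Agent.S16.HeckeHom
import Fermat.Agent.S29.Defs
import Fermat.Agent.S29.KPlanDefs
import Fermat.Agent.S34.UPlan
import Fermat.Agent.S41.Defs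
import Fermat.Agent.S35.NewPlan

set_option autoImplicit false

open ModularCurve AlgebraicCurve CongruenceSubgroup HahnSeries

namespace Fermat.Agent.S35.URoutePlan

open Fermat.Agent.S29 (Qb GQ)
open Fermat.Agent.S41 (Lpar tr₁ tr₂)
open Fermat.Agent.S16 (heckeUHom)
open Fermat.Agent.S24 (rotHom)

noncomputable section

/-! ### The formal operator `𝒰` -/

/-- `y' = 𝒰 y`: `y'(Q^q) = ∏_{i<q} y(ζ^i Q)` for a primitive `q`-th root of unity `ζ` (the
product does not depend on the choice of `ζ`). -/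
def IsU (q : ℕ) [NeZero q] (y y' : LaurentSeries Qb) : Prop :=
  ∃ (ζ : Qb) (_ : IsPrimitiveRoot ζ q) (hz : ∀ i : ℕ, ζ ^ i ≠ 0),
    qExpand Qb q y' = ∏ i ∈ Finset.range q, rotHom (ζ ^ i) (hz i) y

/-- **[UWit]** = the `U_q`-twin of (WH)/(K6): for `q ∣ N`, a witness `y` of `u ∈ Lpar N` at
torsion order `m` yields a witness `y'` of `U_q u` with `y' = 𝒰 y`. -/
def UWitStatement (N m q : ℕ) [NeZero q] (hqN : q ∣ N) : Prop :=
  ∀ (u : Lpar N) (y : LaurentSeries Qb),
    Fermat.Agent.S29.KPlan.Wit N m (u : Additive (Gamma0 N) →+ ℤ) y →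
    ∃ y' : LaurentSeries Qb,
      Fermat.Agent.S29.KPlan.Wit N m (heckeUHom N q hqN (u : Additive (Gamma0 N) →+ ℤ)) y' ∧
        IsU q y y'

/-- **The `U`-condition** on a function `f ∈ F̄_N`: `𝒰 𝒰 f = g ^ m · f` for some `g ∈ F̄_N`, with
`𝒰 f` and `𝒰 𝒰 f` in `F̄_N`. -/
def UCond (N q m : ℕ) [NeZero q] (f : modularFunctionFieldBar N) : Prop :=
  ∃ f₁ f₂ g : modularFunctionFieldBar N, g ≠ 0 ∧
    IsU q (f : LaurentSeries Qb) (f₁ : LaurentSeries Qb) ∧
    IsU q (f₁ : LaurentSeries Qb) (f₂ : LaurentSeries Qb) ∧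
    f₂ = g ^ m * f

/-- **[UCond]** = the `U`-twin of `NewPlan.KTrStatement`: for a witness `y` of a class
`u ∈ Lpar (M q)` killed by both transfers and `f ∈ F̄_{M q}` with `f = y ^ m`, the function `f`
satisfies the `U`-condition. -/
def KUStatement (M q m : ℕ) [NeZero M] [NeZero q] : Prop :=
  ∀ (u : Lpar (M * q)) (y : LaurentSeries Qb),
    Fermat.Agent.S29.KPlan.Wit (M * q) m (u : Additive (Gamma0 (M * q)) →+ ℤ) y →
    ∀ f : modularFunctionFieldBar (M * q), (f : LaurentSeries Qb) = y ^ m →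
      tr₁ M q (u : Additive (Gamma0 (M * q)) →+ ℤ) = 0 →
      tr₂ M q (u : Additive (Gamma0 (M * q)) →+ ℤ) = 0 →
      UCond (M * q) q m f

/-- **(D-out), `U`-form, pure logic**: a graph point `(u, x)` of `θ` with `u` killed by both
transfers has a Kummer generator satisfying the `U`-condition. -/
theorem theta_uCond {M q m : ℕ} [NeZero M] [NeZero q] (hK : KUStatement M q m)
    {u : Lpar (M * q)} {x : JZero (M * q)}
    (hθ : Fermat.Agent.S29.KPlan.Theta (M * q) m (u : Additive (Gamma0 (M * q)) →+ ℤ) x)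
    (h1 : tr₁ M q (u : Additive (Gamma0 (M * q)) →+ ℤ) = 0)
    (h2 : tr₂ M q (u : Additive (Gamma0 (M * q)) →+ ℤ) = 0) :
    ∃ (f : modularFunctionFieldBar (M * q))
      (D : Divisor.degZero (K := Qb) (F := modularFunctionFieldBar (M * q))),
      f ≠ 0 ∧
      (∀ P : Place Qb (modularFunctionFieldBar (M * q)),
        (m : ℤ) * (D : Divisor Qb (modularFunctionFieldBar (M * q))) P = P.ord f) ∧
      x = Pic0.mk D ∧ UCond (M * q) q m f := by
  obtain ⟨y, f, D, hy, hf, hD, hx⟩ := hθ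
  have hf0 : f ≠ 0 := by
    intro h0
    apply pow_ne_zero m hy.1
    rw [← hf, h0]
    rfl
  exact ⟨f, D, hf0, hD, hx, hK u y hy f hf h1 h2⟩

/-! ### The consumer side -/

/-- The condition fed to the (condition-generic) assembly of `ModelFPlan.ModelF`: the function
is `f̃ = τ f / f ^ (q²)`, `τ = σs²`, for an `f ≠ 0` satisfying the `U`-condition. -/
def CondU (M q m : ℕ) [NeZero q] (σs : GQ) (ft : modularFunctionFieldBar (M * q)) : Prop :=
  ∃ f : modularFunctionFieldBar (M * q), f ≠ 0 ∧ UCond (M * q) q m f ∧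
    ft = (Fermat.Agent.S34.UPlan.gal (M * q) (σs * σs) • f) / f ^ (q ^ 2)

/-- `(σ² - q²)² (σ² - 1)² x` for `x ∈ J₀(N)`: `NewPlan.frobPoly` applied to `σ² x - q² x`. -/
def frobPolyU {N : ℕ} (q : ℕ) (σ : GQ) (x : JZero N) : JZero N :=
  NewPlan.frobPoly q σ (σ • σ • x - (q ^ 2) • x)

/-- **(E-out), `U`-form**, consumed by [B]: for `q` prime, `q ∤ M`, a prime `p ≠ q` and
`m = p ^ n`, the class of a degree-zero divisor `D` with `m • D = div f`, where `f` satisfies the
`U`-condition, is killed by `(σ² - q²)² (σ² - 1)²` for every Frobenius lift `σ` at `q`. -/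
def FrobNewUStatement : Prop :=
  ∀ (M q : ℕ) [NeZero M] [NeZero q], q.Prime → ¬ q ∣ M → ∀ (p n : ℕ), p.Prime → p ≠ q →
    ∀ (f : modularFunctionFieldBar (M * q))
      (D : Divisor.degZero (K := Qb) (F := modularFunctionFieldBar (M * q))),
      f ≠ 0 →
      (∀ P : Place Qb (modularFunctionFieldBar (M * q)),
        ((p ^ n : ℕ) : ℤ) * (D : Divisor Qb (modularFunctionFieldBar (M * q))) P = P.ord f) →
      UCond (M * q) q (p ^ n) f →
      ∀ A : ValuationSubring Qb, A.LiesOverPrime q → ∀ σ : GQ, A.IsFrobeniusAt σ q →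
        frobPolyU q σ (Pic0.mk D : JZero (M * q)) = 0

/-- **[C]+[UCond]+[E] ⇒ what [B] needs at one special prime** (pure logic): for a new class `c`
of level `M * q`, `θ c` is killed by `(σ² - q²)² (σ² - 1)²`. -/
theorem frobU_theta_eq_zero (hE : FrobNewUStatement) {M q : ℕ} [NeZero M] [NeZero q]
    (hq : q.Prime) (hqM : ¬ q ∣ M) {p n : ℕ} (hp : p.Prime) (hpq : p ≠ q)
    (hK : KUStatement M q (p ^ n)) {c : Lpar (M * q)} {x : JZero (M * q)}
    (hθ : Fermat.Agent.S29.KPlan.Theta (M * q) (p ^ n)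
      (c : Additive (Gamma0 (M * q)) →+ ℤ) x)
    (hc : NewPlan.IsNewAt (M * q) c)
    (A : ValuationSubring Qb) (hA : A.LiesOverPrime q) (σ : GQ) (hσ : A.IsFrobeniusAt σ q) :
    frobPolyU q σ x = 0 := by
  obtain ⟨h1, h2⟩ := hc.tr hq hqM
  obtain ⟨f, D, hf0, hD, hx, hN⟩ := theta_uCond hK hθ h1 h2
  rw [hx]
  exact hE M q hq hqM p n hp hpq f D hf0 (by simpa using hD) hN A hA σ hσ

end

end Fermat.Agent.S35.URoutePlan
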