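/-
S35, [U]-route, row [LevelQ-U] — LevelQU.lean (helper74).

The block [B] of the S35 blueprint for the `[U]`-route (`S35/URoutePlan.lean`, helper93), and the
final glue of that route in hypothesis form.

* `frobPolyU_reorder`            — `(σ² − q²)((σ² − q²)((σ² − 1)((σ² − 1) x))) = frobPolyU q σ x`
                                   on `J₀(N)` (the factors commute);
* `exists_levelU_of_vector`      — the level-`n` datum (`S30.LimLevel.Level`, the `𝒪`-span of the
                                   Galois orbit of an eigenvector `v ∈ 𝒪 ⊗ J₀(N)[pⁿ]`, as in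
                                   `S30/LevelGlue.lean`) TOGETHER WITH `PseudoQ2.FrobQPow Lv q 1 2 2`
                                   at every prime `q` for which `v` lies in the `𝒪`-span of the
                                   `1 ⊗ k`, `k ∈ J₀(N)[pⁿ]` killed by `frobPolyU q σ` for all
                                   Frobenius elements `σ` at `q`;
* `frobPolyU_theta_eq_zero_of_tr`— pure logic ([UCond] + (E-out), `U`-form): `frobPolyU q σ (θ c) = 0`
                                   for a class `c` of level `N = M' q` killed by both transfers;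
* `exists_vectorU`               — the eigenvector `v_n = ∑ x_i ⊗ θ_n (b_i)` for the NEW primitive
                                   eigen-coordinates `x` of [C] (`NewVecClosed.exists_newCoord_all`)
                                   and the graph-keeping `θ_n` of [K] (`KGraph.kGraphStatement`);
* `levelQPowStatement_of_U`      — `DetQ2.LevelQPowStatement lam M S O' χ 2 2` (constants `1`);
* `result_of_U`                  — the frozen conclusion of S35 from
                                   `URoutePlan.FrobNewUStatement` and `URoutePlan.KUStatement`.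
-/
import Mathlib
import Fermat.Agent.S29.Defs
import Fermat.Agent.S29.ESGH
import Fermat.Agent.S29.SpecCoreS37
import Fermat.Agent.S29.FD
import Fermat.Agent.S30.LimLevel
import Fermat.Agent.S30.ModOrbitR
import Fermat.Agent.S30.Defs
import Fermat.Agent.S30.EigLevel
import Fermat.Agent.S30.LevelGlue
import Fermat.Agent.S30.OddRepB
import Fermat.Agent.S35.URoutePlan
import Fermat.Agent.S35.KGraph
import Fermat.Agent.S35.NewVecClosed
import Fermat.Agent.S35.PseudoQ2
import Fermat.Agent.S35.DetQ2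

set_option autoImplicit false

noncomputable section

open ModularCurve AlgebraicCurve CongruenceSubgroup Polynomial
open scoped TensorProduct

namespace Fermat.Agent.S35.LevelQU

open Fermat.Agent.S29 (Qb GQ Jp galJp heckeJp mem_Jp_iff heckeLpar)
open Fermat.Agent.S30
open Fermat.Agent.S41 (Lpar tr₁ tr₂)
open Fermat.Agent.S35.NewVecB (castHom)
open Fermat.Agent.S35.URoutePlan (frobPolyU FrobNewUStatement KUStatement)

/-! ### The polynomial `(σ² − q²)² (σ² − 1)²` on `J₀(N)` -/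

/-- The factors of `frobPolyU` commute: `(σ² − q²)((σ² − q²)((σ² − 1)((σ² − 1) x)))` is
`frobPolyU q σ x`. -/
theorem frobPolyU_reorder {N : ℕ} (q : ℕ) (σ : GQ) (x : JZero N) :
    σ • σ • (σ • σ • (σ • σ • (σ • σ • x - x) - (σ • σ • x - x))
        - (q ^ 2) • (σ • σ • (σ • σ • x - x) - (σ • σ • x - x)))
      - (q ^ 2) • (σ • σ • (σ • σ • (σ • σ • x - x) - (σ • σ • x - x))
        - (q ^ 2) • (σ • σ • (σ • σ • x - x) - (σ • σ • x - x)))
      = frobPolyU q σ x := by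
  unfold URoutePlan.frobPolyU NewPlan.frobPoly
  generalize q ^ 2 = Q
  simp only [smul_sub, smul_comm σ Q, nsmul_sub]
  abel

/-! ### Transport of the polynomial along an equivariant embedding into `R ⊗ M` -/

section Transport

variable {M : Type} [AddCommGroup M] {R : Type} [CommRing R] {V : Type} [AddCommGroup V]
  [Module R V]

/-- `a² − Q` on an abelian group. -/
def opQ (a : M →+ M) (Q : ℕ) (k : M) : M := a (a k) - Q • k

/-- `a² − 1` on an abelian group. -/
def opOne (a : M →+ M) (k : M) : M := a (a k) - k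

theorem baseChange_opOne_tmul (a : M →+ M) (k : M) :
    (LinearMap.baseChange R a.toIntLinearMap * LinearMap.baseChange R a.toIntLinearMap - 1)
      ((1 : R) ⊗ₜ[ℤ] k) = (1 : R) ⊗ₜ[ℤ] opOne a k := by
  rw [LinearMap.sub_apply, Module.End.mul_apply, Module.End.one_apply,
    LinearMap.baseChange_tmul, LinearMap.baseChange_tmul, opOne, TensorProduct.tmul_sub]
  rfl

theorem baseChange_opQ_tmul (a : M →+ M) (Q : ℕ) (k : M) :
    (LinearMap.baseChange R a.toIntLinearMap * LinearMap.baseChange R a.toIntLinearMap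
        - (Q : R) • (1 : Module.End R (R ⊗[ℤ] M)))
      ((1 : R) ⊗ₜ[ℤ] k) = (1 : R) ⊗ₜ[ℤ] opQ a Q k := by
  rw [LinearMap.sub_apply, Module.End.mul_apply, LinearMap.smul_apply, Module.End.one_apply,
    LinearMap.baseChange_tmul, LinearMap.baseChange_tmul, opQ, TensorProduct.tmul_sub]
  congr 1
  rw [TensorProduct.smul_tmul', smul_eq_mul, mul_one]
  have hQ : (Q : R) = Q • (1 : R) := by rw [nsmul_eq_mul, mul_one]
  rw [hQ, TensorProduct.smul_tmul]

/-- **Transport of `(s² − Q)² (s² − 1)²`** along an equivariant embedding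
`ι : V → R ⊗ M`: if `ι w` is an `R`-combination of pure tensors `1 ⊗ k` with
`(a² − Q)² (a² − 1)² k = 0`, then `(s² − Q)² (s² − 1)² w = 0`. -/
theorem apply_eq_zero_of_mem_span (a : M →+ M) (s : Module.End R V) (ι : V →ₗ[R] R ⊗[ℤ] M)
    (hι : Function.Injective ι)
    (hιs : ∀ x : V, ι (s x) = LinearMap.baseChange R a.toIntLinearMap (ι x))
    (Q : ℕ) (w : V) (P : M → Prop)
    (hP : ∀ k : M, P k → opQ a Q (opQ a Q (opOne a (opOne a k))) = 0)
    (hw : ι w ∈ Submodule.span R {z : R ⊗[ℤ] M | ∃ k : M, P k ∧ z = (1 : R) ⊗ₜ[ℤ] k}) :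
    (s * s - (Q : R) • (1 : Module.End R V))
      ((s * s - (Q : R) • (1 : Module.End R V)) ((s * s - 1) ((s * s - 1) w))) = 0 := by
  have h1 : ∀ y : V, ι ((s * s - (Q : R) • (1 : Module.End R V)) y)
      = (LinearMap.baseChange R a.toIntLinearMap * LinearMap.baseChange R a.toIntLinearMap
        - (Q : R) • (1 : Module.End R (R ⊗[ℤ] M))) (ι y) := by
    intro y
    rw [LinearMap.sub_apply, LinearMap.sub_apply, map_sub, Module.End.mul_apply,
      Module.End.mul_apply, LinearMap.smul_apply, LinearMap.smul_apply, Module.End.one_apply,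
      Module.End.one_apply, map_smul, hιs, hιs]
  have h2 : ∀ y : V, ι ((s * s - (1 : Module.End R V)) y)
      = (LinearMap.baseChange R a.toIntLinearMap * LinearMap.baseChange R a.toIntLinearMap
        - 1) (ι y) := by
    intro y
    rw [LinearMap.sub_apply, LinearMap.sub_apply, map_sub, Module.End.mul_apply,
      Module.End.mul_apply, Module.End.one_apply, Module.End.one_apply, hιs, hιs]
  apply hι
  rw [map_zero, h1, h1, h2, h2]
  have hle : Submodule.span R {z : R ⊗[ℤ] M | ∃ k : M, P k ∧ z = (1 : R) ⊗ₜ[ℤ] k}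
      ≤ LinearMap.ker
        ((LinearMap.baseChange R a.toIntLinearMap * LinearMap.baseChange R a.toIntLinearMap
            - (Q : R) • (1 : Module.End R (R ⊗[ℤ] M))) *
          (LinearMap.baseChange R a.toIntLinearMap * LinearMap.baseChange R a.toIntLinearMap
            - (Q : R) • (1 : Module.End R (R ⊗[ℤ] M))) *
          (LinearMap.baseChange R a.toIntLinearMap * LinearMap.baseChange R a.toIntLinearMap
            - 1) *
          (LinearMap.baseChange R a.toIntLinearMap * LinearMap.baseChange R a.toIntLinearMap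
            - 1)) := by
    rw [Submodule.span_le]
    rintro _ ⟨k, hk, rfl⟩
    rw [SetLike.mem_coe, LinearMap.mem_ker, Module.End.mul_apply, Module.End.mul_apply,
      Module.End.mul_apply, baseChange_opOne_tmul, baseChange_opOne_tmul, baseChange_opQ_tmul,
      baseChange_opQ_tmul, hP k hk, TensorProduct.tmul_zero]
  have h3 := hle hw
  rw [LinearMap.mem_ker, Module.End.mul_apply, Module.End.mul_apply, Module.End.mul_apply] at h3
  exact h3

end Transport

/-- On `J₀(N)[m]`, `(σ² − q²)² (σ² − 1)²` is `frobPolyU q σ`. -/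
theorem coe_opQ_opOne (N m : ℕ) (q : ℕ) (σ : GQ) (k : Jp N m) :
    ((opQ (galJp N m σ).toAddMonoidHom (q ^ 2) (opQ (galJp N m σ).toAddMonoidHom (q ^ 2)
        (opOne (galJp N m σ).toAddMonoidHom (opOne (galJp N m σ).toAddMonoidHom k))) : Jp N m) :
      JZero N) = frobPolyU q σ (k : JZero N) := by
  rw [← frobPolyU_reorder]
  rfl

/-! ### The level with its datum at the special primes -/

/-- **[B], `U`-form: the level-`n` datum with `FrobQPow … 2 2`.**  The `𝒪`-span of the Galois orbit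
of an eigenvector `v ∈ 𝒪 ⊗ J₀(N)[pⁿ]` (annihilator in `pⁿ 𝒪`) is a `LimLevel.Level`; and at every
prime `q` (`spec q`) for which `v` is an `𝒪`-combination of pure tensors `1 ⊗ k` with
`frobPolyU q σ k = 0` for all Frobenius elements `σ` at `q`, its distinguished vector is killed by
`(σ² − q²)² (σ² − 1)²`. -/
theorem exists_levelU_of_vector (N p : ℕ) [NeZero N] (hp : p.Prime) (S : Set ℕ) (hpS : p ∈ S)
    {𝒪 : Type} [CommRing 𝒪] (χ : CuspForm.heckeAlgebra N 2 S →+* 𝒪) (n : ℕ)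
    (v : 𝒪 ⊗[ℤ] (Jp N (p ^ n)))
    (hann : ∀ a : 𝒪, a • v = 0 → (p : 𝒪) ^ n ∣ a)
    (hv : ∀ (ℓ : ℕ) (hℓ : ℓ.Prime) (hℓN : ¬ ℓ ∣ N) (hℓS : ℓ ∉ S),
      (heckeJp N (p ^ n) ⟨ℓ, hℓ⟩).baseChange 𝒪 v = χ (CuspForm.heckeAlgebra.T hℓ hℓN hℓS) • v)
    (spec : ℕ → Prop)
    (hspec : ∀ q : ℕ, spec q → v ∈ Submodule.span 𝒪 {z : 𝒪 ⊗[ℤ] (Jp N (p ^ n)) |
      ∃ k : Jp N (p ^ n), (∀ A : ValuationSubring Qb, A.LiesOverPrime q → ∀ σ : GQ,
        A.IsFrobeniusAt σ q → frobPolyU q σ (k : JZero N) = 0) ∧ z = (1 : 𝒪) ⊗ₜ[ℤ] k}) :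
    ∃ Lv : LimLevel.Level 𝒪 p n (LimLevel.goodPrime N S) (LimLevel.heckeEig N S χ)
        (LimLevel.unrPrime N p),
      ∀ q : ℕ, spec q → Fermat.Agent.S35.PseudoQ2.FrobQPow Lv q 1 2 2 := by
  classical
  have hIn := Fermat.Agent.S29.inertiaStatement_of_specCore N (p ^ n)
    (Fermat.Agent.S29.specCoreStatement N (p ^ n))
  have hES := Fermat.Agent.S29.esStatement_of_specCore N (p ^ n)
    (Fermat.Agent.S29.specCoreStatement N (p ^ n))
  have hGH := Fermat.Agent.S29.ghStatement N (p ^ n)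
  have hFL := Fermat.Agent.S29.flStatement N (p ^ n) (pow_ne_zero n hp.ne_zero)
  -- the action by additive maps
  let act : GQ →* AddMonoid.End (Jp N (p ^ n)) :=
    { toFun := fun σ => (galJp N (p ^ n) σ).toAddMonoidHom
      map_one' := by rw [map_one]; rfl
      map_mul' := fun σ τ => by rw [map_mul]; rfl }
  have hact : ∀ (σ : GQ) (m : Jp N (p ^ n)),
      ((act σ m : Jp N (p ^ n)) : JZero N) = σ • (m : JZero N) := fun _ _ => rfl
  have hm : ∀ m : Jp N (p ^ n), p ^ n • (m : JZero N) = 0 :=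
    fun m => (mem_Jp_iff N (p ^ n) _).mp m.2
  -- index set: the good primes
  let I : Type := {ℓ : ℕ // LimLevel.goodPrime N S ℓ}
  have hIp : ∀ i : I, i.1 ≠ p := fun i h => i.2.2.2 (h ▸ hpS)
  have hIdvd : ∀ i : I, ¬ i.1 ∣ N * p ^ n := fun i =>
    LevelGlue.not_dvd_mul_pow hp i.2.1 i.2.2.1 (hIp i) n
  let TM : I → (Jp N (p ^ n) →+ Jp N (p ^ n)) :=
    fun i => (heckeJp N (p ^ n) ⟨i.1, i.2.1⟩).toAddMonoidHom
  have hTM : ∀ (i : I) (m : Jp N (p ^ n)),
      ((TM i m : Jp N (p ^ n)) : JZero N) = heckeOperatorBar N ⟨i.1, i.2.1⟩ (m : JZero N) :=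
    fun _ _ => rfl
  obtain ⟨V, i1, i2, -, r, w, ι, hι, hιw, hιr, -, hfin, htriv, hquad⟩ :=
    ModOrbitR.exists_orbit_module act
      (fun m => by
        obtain ⟨L, hL, hfix⟩ := hFL (m : JZero N) (hm m)
        exact ⟨L, hL, fun σ hσ => Subtype.ext (hfix σ hσ)⟩)
      TM (fun i : I => χ (CuspForm.heckeAlgebra.T i.2.1 i.2.2.1 i.2.2.2))
      (fun i σ m => Subtype.ext (by
        rw [hact, hTM, hTM, hact]
        exact (hGH i.1 i.2.1 (hIdvd i) σ (m : JZero N) (hm m)).symm))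
      v
      (fun i => by
        have e : (TM i).toIntLinearMap = heckeJp N (p ^ n) ⟨i.1, i.2.1⟩ :=
          LinearMap.ext fun _ => rfl
        rw [e]
        exact hv i.1 i.2.1 i.2.2.1 i.2.2.2)
  refine ⟨{ V := V, r := r, w := w, tors := ?_, ann := ?_, level := hfin, frob := ?_,
            inert := ?_ }, ?_⟩
  · intro x
    apply hι
    rw [map_smul, map_zero]
    have h := ModOrbitR.intCast_smul_eq_zero 𝒪 ((p : ℤ) ^ n) (fun m => Subtype.ext (by
      have h1 := hm m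
      rw [Submodule.coe_smul, ZeroMemClass.coe_zero]
      rw [← h1]
      norm_cast)) (ι x)
    rw [← h]
    norm_cast
  · intro c hc
    apply hann c
    rw [← hιw, ← map_smul, hc, map_zero]
  · intro ℓ hℓg A hA σ hσ
    let i : I := ⟨ℓ, hℓg⟩
    have h := hquad σ i (ℓ : ℤ) (fun m => Subtype.ext (by
      have h1 := hES ℓ hℓg.1 (hIdvd i) A hA σ hσ (m : JZero N) (hm m)
      rw [Submodule.coe_add, Submodule.coe_sub, Submodule.coe_smul, hact, hact, hTM, hact,
        natCast_zsmul]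
      exact h1))
    rw [Int.cast_natCast] at h
    rw [LimLevel.heckeEig_eq N S χ hℓg.1 hℓg.2.1 hℓg.2.2]
    exact h
  · intro q hq P hP τ hτ
    refine htriv τ (fun m => Subtype.ext ?_)
    rw [hact]
    exact hIn q hq.1 (LevelGlue.not_dvd_mul_pow hp hq.1 hq.2.1 hq.2.2 n) P hP τ hτ
      (m : JZero N) (hm m)
  · -- the datum at the special primes
    intro q hq
    rw [Fermat.Agent.S35.PseudoQ2.frobQPow_two_two_iff]
    intro A hA σ hσ
    show (r σ * r σ - ((q : 𝒪) ^ 2) • (1 : Module.End 𝒪 V))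
      ((r σ * r σ - ((q : 𝒪) ^ 2) • (1 : Module.End 𝒪 V))
        ((r σ * r σ - 1) ((r σ * r σ - 1) ((1 : 𝒪) • w)))) = 0
    rw [one_smul, ← Nat.cast_pow]
    refine apply_eq_zero_of_mem_span (act σ) (r σ) ι hι (hιr σ) (q ^ 2) w
      (fun k : Jp N (p ^ n) => ∀ A : ValuationSubring Qb, A.LiesOverPrime q → ∀ σ : GQ,
        A.IsFrobeniusAt σ q → frobPolyU q σ (k : JZero N) = 0) ?_ ?_
    · intro k hk
      exact Subtype.ext ((coe_opQ_opOne N (p ^ n) q σ k).trans (hk A hA σ hσ))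
    · rw [hιw]
      exact hspec q hq

/-! ### The new eigenvector at level `pⁿ` -/

/-- **[UCond] + (E-out), `U`-form, at one factorisation** (pure logic; the body of
`URoutePlan.frobU_theta_eq_zero` with the level transported): if `N = M' q` (`q` prime,
`q ∤ M'`) and `c ∈ Lpar N` is killed by both transfers to level `M'`, then every graph point
`(c, x)` of `θ` at torsion order `pⁿ` (`p ≠ q`) is killed by `(σ² − q²)² (σ² − 1)²`. -/
theorem frobPolyU_theta_eq_zero_of_tr (hE : FrobNewUStatement)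
    (hKU : ∀ (M' q : ℕ) [NeZero M'] [NeZero q], q.Prime → ¬ q ∣ M' → ∀ m : ℕ, m ≠ 0 →
      KUStatement M' q m)
    {N M' q : ℕ} [NeZero N] (h : N = M' * q) (hq : q.Prime) (hqM : ¬ q ∣ M')
    {p n : ℕ} (hp : p.Prime) (hpq : p ≠ q) {c : Lpar N} {x : JZero N}
    (hθ : Fermat.Agent.S29.KPlan.Theta N (p ^ n) (c : Additive (Gamma0 N) →+ ℤ) x)
    (h1 : tr₁ M' q (castHom h c.1) = 0) (h2 : tr₂ M' q (castHom h c.1) = 0)
    (A : ValuationSubring Qb) (hA : A.LiesOverPrime q) (σ : GQ) (hσ : A.IsFrobeniusAt σ q) :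
    frobPolyU q σ x = 0 := by
  subst h
  have : NeZero M' := ⟨fun h0 => NeZero.ne (M' * q) (by rw [h0, zero_mul])⟩
  have : NeZero q := ⟨hq.ne_zero⟩
  rw [Fermat.Agent.S35.NewVecB.castHom_rfl] at h1 h2
  obtain ⟨f, D, hf0, hD, hx, hN⟩ :=
    URoutePlan.theta_uCond (hKU M' q hq hqM (p ^ n) (pow_ne_zero n hp.ne_zero)) hθ h1 h2
  rw [hx]
  exact hE M' q hq hqM p n hp hpq f D hf0 hD hN A hA σ hσ

/-- **The new eigenvector at level `pⁿ`**: `v = ∑ x_i ⊗ θ_n (b_i)` for the primitive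
eigen-coordinates `x` of a newform `g` satisfying the transfer constraints of every `q ∥ N`
([C], `NewVecClosed.exists_newCoord_all`) and the graph-keeping Kummer map `θ_n` of [K]
(`KGraph.kGraphStatement`).  Its annihilator is contained in `pⁿ 𝒪`, it is an eigenvector of the
`T_ℓ` (`ℓ ∤ N`, `ℓ ∉ S`), and for every special prime `q` (`q ≠ p`, `q ∥ N`) it is an
`𝒪`-combination of pure tensors `1 ⊗ k` with `frobPolyU q σ k = 0` for every Frobenius element
`σ` at `q`. -/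
theorem exists_vectorU (hE : FrobNewUStatement)
    (hKU : ∀ (M' q : ℕ) [NeZero M'] [NeZero q], q.Prime → ¬ q ∣ M' → ∀ m : ℕ, m ≠ 0 →
      KUStatement M' q m)
    (N : ℕ) [NeZero N] (g : CuspForm (Gamma0 N) 2) (hg : g.IsNewform) (S : Set ℕ)
    (chig : CuspForm.heckeAlgebra N 2 S →+* ℂ)
    (hchig : ∀ (ℓ : ℕ) (hℓ : ℓ.Prime) (hℓN : ¬ ℓ ∣ N) (hℓS : ℓ ∉ S),
      chig (CuspForm.heckeAlgebra.T hℓ hℓN hℓS) = ModularFormClass.qCoeff g ℓ)
    (p : ℕ) (hp : p.Prime) (hpS : p ∈ S)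
    {𝒪 : Type} [CommRing 𝒪] [IsDomain 𝒪] [ValuationRing 𝒪] [CharZero 𝒪]
    (iota : chig.range →+* 𝒪) (n : ℕ) :
    ∃ v : 𝒪 ⊗[ℤ] (Jp N (p ^ n)), (∀ a : 𝒪, a • v = 0 → (p : 𝒪) ^ n ∣ a) ∧
      (∀ (ℓ : ℕ) (hℓ : ℓ.Prime) (hℓN : ¬ ℓ ∣ N) (hℓS : ℓ ∉ S),
        (heckeJp N (p ^ n) ⟨ℓ, hℓ⟩).baseChange 𝒪 v
          = (iota.comp chig.rangeRestrict) (CuspForm.heckeAlgebra.T hℓ hℓN hℓS) • v) ∧
      ∀ q : ℕ, Fermat.Agent.S35.DetQ.specPrime N p q →
        v ∈ Submodule.span 𝒪 {z : 𝒪 ⊗[ℤ] (Jp N (p ^ n)) |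
          ∃ k : Jp N (p ^ n), (∀ A : ValuationSubring Qb, A.LiesOverPrime q → ∀ σ : GQ,
            A.IsFrobeniusAt σ q → frobPolyU q σ (k : JZero N) = 0) ∧ z = (1 : 𝒪) ⊗ₜ[ℤ] k} := by
  classical
  have hfin : Module.Finite ℤ (Lpar N) := Fermat.Agent.S41.LparFree.lpar_finite N
  have hfree : Module.Free ℤ (Lpar N) := Fermat.Agent.S41.LparFree.lpar_free N
  set b := Module.finBasis ℤ (Lpar N) with hb
  obtain ⟨x, hx1, hx, hxtr⟩ :=
    Fermat.Agent.S35.NewVecClosed.exists_newCoord_all N S g hg chig hchig iota b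
  have hpn : p ^ n ≠ 0 := pow_ne_zero n hp.ne_zero
  obtain ⟨θ, hθ1, hθ2, hθ3, hθ4⟩ := Fermat.Agent.S35.KGraph.kGraphStatement N (p ^ n) hpn
  -- the graph of `θ`
  have hgraph : ∀ u : Lpar N,
      Fermat.Agent.S29.KPlan.Theta N (p ^ n) (u : Additive (Gamma0 N) →+ ℤ) (θ u) := by
    intro u
    obtain ⟨y, f, hy, hf, -⟩ := Fermat.Agent.S35.KGraph.exists_wit N (p ^ n) hpn u
    obtain ⟨D, hD, hu⟩ := hθ4 u y hy f hf
    exact ⟨y, f, D, hy, hf, hD, hu⟩
  -- corestriction of `θ` to the `pⁿ`-torsion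
  let θ' : Lpar N →+ Jp N (p ^ n) :=
    { toFun := fun u => ⟨θ u, (mem_Jp_iff N (p ^ n) (θ u)).mpr (hθ1 u)⟩
      map_zero' := Subtype.ext (map_zero θ)
      map_add' := fun u v => Subtype.ext (map_add θ u v) }
  have hker : ∀ u, θ'.toIntLinearMap u = 0 → ∃ z, u = ((p ^ n : ℕ) : ℤ) • z := by
    intro u hu
    apply hθ2 u
    have h : ((θ' u : Jp N (p ^ n)) : JZero N) = 0 := congrArg Subtype.val hu
    exact h
  have hheck : ∀ (ℓ : ℕ) (hℓ : ℓ.Prime) (hℓN : ¬ ℓ ∣ N), ℓ ≠ p → ∀ u,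
      heckeJp N (p ^ n) ⟨ℓ, hℓ⟩ (θ' u) = θ' (heckeLpar N ℓ hℓ hℓN u) := by
    intro ℓ hℓ hℓN hℓp u
    apply Subtype.ext
    change heckeOperatorBar N ⟨ℓ, hℓ⟩ (θ u) = θ (heckeLpar N ℓ hℓ hℓN u)
    refine (hθ3 ℓ hℓ hℓN ?_ u).symm
    intro hℓpn
    rcases Nat.eq_zero_or_pos n with hn | hn
    · rw [hn, pow_zero] at hℓpn
      exact hℓ.one_lt.ne' hℓpn
    · have hdvd : p ∣ ℓ := hℓpn ▸ dvd_pow_self p hn.ne'
      exact hℓp ((Nat.prime_dvd_prime_iff_eq hp hℓ).mp hdvd).symm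
  refine ⟨∑ i, x i ⊗ₜ[ℤ] θ' (b i), ?_, ?_, ?_⟩
  · intro a ha
    have h := EigLevel.dvd_of_smul_sum_tmul_eq_zero b θ'.toIntLinearMap (p ^ n) hker x hx1 a ha
    rwa [Nat.cast_pow] at h
  · intro ℓ hℓ hℓN hℓS
    have hℓp : ℓ ≠ p := fun h => hℓS (h ▸ hpS)
    rw [map_sum]
    simp_rw [LinearMap.baseChange_tmul, hheck ℓ hℓ hℓN hℓp]
    exact EigLevel.sum_tmul_map_eq_smul b (heckeLpar N ℓ hℓ hℓN)
      θ'.toIntLinearMap x _ (fun k => hx ℓ hℓ hℓN hℓS k)
  · rintro q ⟨hq, hqp, hqN, hq2⟩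
    obtain ⟨M', hM'⟩ : ∃ M' : ℕ, N = M' * q := ⟨N / q, (Nat.div_mul_cancel hqN).symm⟩
    have hqM' : ¬ q ∣ M' := by
      rintro ⟨k, hk⟩
      exact hq2 ⟨k, by rw [hM', hk]; ring⟩
    obtain ⟨hx1', hx2'⟩ := hxtr M' q hM' hq hqM'
    have h1 := Fermat.Agent.S35.NewVecB.sum_tmul_map_mem_span_tr hM' (fun i => b i) x hx1' hx2' θ'
    refine Submodule.span_mono ?_ h1
    rintro _ ⟨c, hc1, hc2, rfl⟩
    refine ⟨θ' c, fun A hA σ hσ => ?_, rfl⟩
    exact frobPolyU_theta_eq_zero_of_tr hE hKU hM' hq hqM' hp (Ne.symm hqp) (hgraph c) hc1 hc2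
      A hA σ hσ

/-! ### The levels and the frozen conclusion -/

/-- **[LevelQ-U]**: from (E-out) in `U`-form and [UCond], the levels of a newform `g` carry the
datum `PseudoQ2.FrobQPow … 2 2` at every special prime — `DetQ2.LevelQPowStatement` with
exponents `(2, 2)` (constants `1`). -/
theorem levelQPowStatement_of_U (hE : FrobNewUStatement)
    (hKU : ∀ (M' q : ℕ) [NeZero M'] [NeZero q], q.Prime → ¬ q ∣ M' → ∀ m : ℕ, m ≠ 0 →
      KUStatement M' q m)
    {M : ℕ} [NeZero M] {g : CuspForm (Gamma0 M) 2} (hg : g.IsNewform)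
    (lam : ℕ) [Fact lam.Prime] (S : Finset ℕ)
    (O' : Type) [CommRing O'] [IsDomain O'] [IsDiscreteValuationRing O'] [CharZero O']
    (chig : CuspForm.heckeAlgebra M 2 (↑S : Set ℕ) →+* ℂ)
    (hchig : ∀ (ℓ : ℕ) (hℓ : ℓ.Prime) (hℓM : ¬ ℓ ∣ M) (hℓS : ℓ ∉ (↑S : Set ℕ)),
      chig (CuspForm.heckeAlgebra.T hℓ hℓM hℓS) = ModularFormClass.qCoeff g ℓ)
    (iota : chig.range →+* O') (hlamS : lam ∈ S) :
    Fermat.Agent.S35.DetQ2.LevelQPowStatement lam M S O' (iota.comp chig.rangeRestrict) 2 2 := by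
  have hp : lam.Prime := Fact.out
  refine ⟨fun _ => 1, fun _ _ => one_ne_zero, fun n => ?_⟩
  obtain ⟨v, hann, hv, hspan⟩ := exists_vectorU hE hKU M g hg (↑S : Set ℕ) chig hchig lam hp
    (Finset.mem_coe.mpr hlamS) iota n
  exact exists_levelU_of_vector M lam hp (↑S : Set ℕ) (Finset.mem_coe.mpr hlamS)
    (iota.comp chig.rangeRestrict) n v hann hv (Fermat.Agent.S35.DetQ.specPrime M lam) hspan

/-- **S35 through the `[U]`-route, hypothesis form**: the frozen conclusion of S35 from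
(E-out) in `U`-form (`URoutePlan.FrobNewUStatement`) and [UCond] (`URoutePlan.KUStatement`). -/
theorem result_of_U (hE : FrobNewUStatement)
    (hKU : ∀ (M' q : ℕ) [NeZero M'] [NeZero q], q.Prime → ¬ q ∣ M' → ∀ m : ℕ, m ≠ 0 →
      KUStatement M' q m)
    {M : ℕ} [NeZero M] {g : CuspForm (Gamma0 M) 2} (hg : g.IsNewform)
    (lam : ℕ) [Fact lam.Prime]
    (S : Finset ℕ)
    (O' : Type) [CommRing O'] [IsDomain O'] [IsDiscreteValuationRing O']
    [IsAdicComplete (IsLocalRing.maximalIdeal O') O'] [Finite (IsLocalRing.ResidueField O')]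
    [CharZero O'] (hlamO' : (lam : O') ∈ IsLocalRing.maximalIdeal O')
    (chig : CuspForm.heckeAlgebra M 2 (↑S : Set ℕ) →+* ℂ)
    (hchig : ∀ (ℓ : ℕ) (hℓ : ℓ.Prime) (hℓM : ¬ ℓ ∣ M) (hℓS : ℓ ∉ (↑S : Set ℕ)),
      chig (CuspForm.heckeAlgebra.T hℓ hℓM hℓS) = ModularFormClass.qCoeff g ℓ)
    (iota : chig.range →+* O')
    (hlamS : lam ∈ S) (hMS : ∀ q : ℕ, q.Prime → q ∣ M → q ∈ S) :
    ∃ (O'' : Type) (_ : CommRing O'') (_ : IsDomain O'') (_ : IsDiscreteValuationRing O'')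
      (_ : IsAdicComplete (IsLocalRing.maximalIdeal O'') O'')
      (_ : Finite (IsLocalRing.ResidueField O'')) (_ : CharZero O'')
      (_ : Algebra O' O'') (_ : Module.Finite O' O'') (_ : IsLocalHom (algebraMap O' O'')),
      Function.Injective (algebraMap O' O'') ∧
      ∃ ρ : GaloisRepAdic O'',
        (∀ (ℓ : ℕ) (hℓ : ℓ.Prime) (hℓM : ¬ ℓ ∣ M) (hℓS : ℓ ∉ (↑S : Set ℕ)),
          ∀ A : ValuationSubring (AlgebraicClosure ℚ), A.LiesOverPrime ℓ →
            ∀ σ : AlgebraicClosure ℚ ≃ₐ[ℚ] AlgebraicClosure ℚ, A.IsFrobeniusAt σ ℓ →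
              LinearMap.charpoly (ρ.ρ σ) =
                X ^ 2 - C (algebraMap O' O''
                  ((iota.comp chig.rangeRestrict) (CuspForm.heckeAlgebra.T hℓ hℓM hℓS))) * X
                  + C ((ℓ : O''))) ∧
        (∀ q : ℕ, q.Prime → q ≠ lam → q ∣ M → ¬ q ^ 2 ∣ M →
          ∀ A : ValuationSubring (AlgebraicClosure ℚ), A.LiesOverPrime q →
            ∀ σ : AlgebraicClosure ℚ ≃ₐ[ℚ] AlgebraicClosure ℚ, A.IsFrobeniusAt σ q →
              LinearMap.charpoly (ρ.ρ σ) = X ^ 2 - C ((q : O'') + 1) * X + C ((q : O'')) ∨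
              LinearMap.charpoly (ρ.ρ σ) = X ^ 2 + C ((q : O'') + 1) * X + C ((q : O''))) :=
  Fermat.Agent.S35.DetQ2.result_of_levelQPow Fermat.Agent.S30.OddRepB.oddRepStatement
    Fermat.Agent.S29.FD.fdStatement lam S O' hlamO' (iota.comp chig.rangeRestrict) hlamS hMS
    2 2 (by norm_num)
    (levelQPowStatement_of_U hE hKU hg lam S O' chig hchig iota hlamS)

end Fermat.Agent.S35.LevelQU
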