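/-
S35 — UWitK.lean (helper12).  Leaf **[UWit]** of the [U]-route (board #2697 / #2714): the
`U_q`-analogue of block [K]'s leaf (K6) = (WH) (`S29/K6Hecke.lean`), i.e. the Hecke product of
witnesses over the `q` upper-triangular cosets only (no `∞`-coset), for a prime `q ∣ N`.

For a witness `y` of `u ∈ Lpar N` (`KPlan.Wit N p u y`: `y ≠ 0` is a `ℚ̄`-rational quotient
`A / B`, `A` a form with multiplier `χ_u`, `B ≠ 0` a form with trivial multiplier), the series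
`y' := kronU ζ q y`, `y'(Q^q) = ∏_{i<q} y(ζ^i Q)`, is a witness of `U_q u = heckeUHom N q hq u`.

* `kronU ζ ℓ y`                : the formal operator `qContract ℓ (∏_{i<ℓ} twist (ζ^i) y)`;
* `prod_slash_heckeMatrix_mem`  : (K6a-U) `A ∈ MFchi N w χ ⇒ ∏_{x : ZMod q} A ∣[w] α_x ∈
                                  MFchi N (w q) χ'`, `χ' γ = ∏_x χ (γ'_x)` (coset data `S16.uData`);
* `qx_prod_slash_heckeMatrix`   : (K6b-U) `qx (∏_x A ∣[w] α_x) = q^(-q) • kronU ζ₀ q (qx A)`;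
* `kronU_mem_Mchi`              : `x ∈ Mchi N χ ⇒ kronU ζ q x ∈ Mchi N χ'`;
* `uWit_of_char`, `uWit_of_TG`, `uWit_zeta`, `uWitLpar`, `uWit_twice` : [UWit] for a given `ζ`;
* `uWit`                        : **`URoutePlan.UWitStatement N m q hqN`** (the plan target);
* `uWit_isU_twice`              : two steps, in the plan's `IsU` vocabulary (input of [UCond]).
-/
import Mathlib
import Fermat.Agent.S29.K6Hecke
import Fermat.Agent.S41.ParMem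
import Fermat.Agent.S35.URoutePlan

set_option autoImplicit false

noncomputable section

namespace Fermat.Agent.S35.UWitK

open CongruenceSubgroup Matrix.SpecialLinearGroup UpperHalfPlane ModularCurve HahnSeries
open scoped MatrixGroups ModularForm Manifold
open P2MW.S_ModularForm_heckeT_slash_eq_self_of_mem_Gamma0.ModularForm.HeckeSlashInvariance
open Fermat.Agent.S16 Fermat.Agent.S37 Fermat.Agent.S24 Fermat.Agent.S29

local notation "Qb" => AlgebraicClosure ℚ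

/-! ### The formal operator `kronU` -/

section Formal

variable {R : Type*} [CommRing R]

/-- The formal `U_ℓ`-product: `kronU ζ ℓ y (Q^ℓ) = ∏_{i<ℓ} y (ζ^i Q)`. -/
def kronU (ζ : Rˣ) (ℓ : ℕ) [NeZero ℓ] (y : LaurentSeries R) : LaurentSeries R :=
  KC.qContract ℓ (∏ i ∈ Finset.range ℓ, KC.twist (ζ ^ i) y)

theorem coeffMap_kronU {S : Type*} [CommRing S] (f : R →+* S) (ζ : Rˣ) (ℓ : ℕ) [NeZero ℓ]
    (y : LaurentSeries R) :
    coeffMap f (kronU ζ ℓ y) = kronU (Units.map (f : R →* S) ζ) ℓ (coeffMap f y) := by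
  unfold kronU
  rw [KC.coeffMap_qContract, map_prod]
  congr 1
  refine Finset.prod_congr rfl fun i _ => ?_
  rw [KC.coeffMap_twist, map_pow]

variable [IsDomain R]

theorem qExpand_kronU {ζ : Rˣ} {ℓ : ℕ} [NeZero ℓ] (hζ : IsPrimitiveRoot (ζ : R) ℓ)
    (y : LaurentSeries R) :
    qExpand R ℓ (kronU ζ ℓ y) = ∏ i ∈ Finset.range ℓ, KC.twist (ζ ^ i) y :=
  KC.qExpand_qContract_prod_twist hζ y

/-- `kronU ζ ℓ` does not depend on the primitive `ℓ`-th root of unity `ζ`. -/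
theorem kronU_eq_of_isPrimitiveRoot {ζ ζ' : Rˣ} {ℓ : ℕ} [NeZero ℓ]
    (hζ : IsPrimitiveRoot (ζ : R) ℓ) (hζ' : IsPrimitiveRoot (ζ' : R) ℓ) (y : LaurentSeries R) :
    kronU ζ ℓ y = kronU ζ' ℓ y := by
  unfold kronU
  rw [K6Hecke.prod_pow_eq_of_isPrimitiveRoot hζ hζ' (fun ξ => KC.twist ξ y)]

/-- `kronU` is multiplicative. -/
theorem kronU_mul {ζ : Rˣ} {ℓ : ℕ} [NeZero ℓ] (hζ : IsPrimitiveRoot (ζ : R) ℓ)
    (x y : LaurentSeries R) : kronU ζ ℓ (x * y) = kronU ζ ℓ x * kronU ζ ℓ y := by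
  apply qExpand_injective (R := R) (N := ℓ)
  rw [map_mul, qExpand_kronU hζ, qExpand_kronU hζ, qExpand_kronU hζ]
  simp only [map_mul, Finset.prod_mul_distrib]

end Formal

section FormalField

variable {F : Type*} [Field F]

/-- `kronU` of a nonzero series is nonzero. -/
theorem kronU_ne_zero {ζ : Fˣ} {ℓ : ℕ} [NeZero ℓ] (hζ : IsPrimitiveRoot (ζ : F) ℓ)
    {y : LaurentSeries F} (hy : y ≠ 0) : kronU ζ ℓ y ≠ 0 := by
  intro h
  have h1 := qExpand_kronU hζ y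
  rw [h, map_zero] at h1
  have h3 : ∏ i ∈ Finset.range ℓ, KC.twist (ζ ^ i) y ≠ 0 := by
    refine Finset.prod_ne_zero_iff.mpr fun i _ h0 => hy ?_
    exact KC.twist_injective (ζ ^ i) (by rw [h0, map_zero])
  exact h3 h1.symm

end FormalField

/-! ### (K6a-U): the `U_q`-product of a multiplier form -/

section Mem

variable {N q : ℕ} [Fact q.Prime]

/-- Slashing a product over the `q` upper-triangular coset representatives by an element of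
`SL₂(ℤ)`. -/
theorem prod_slash_SL_zmod (w : ℤ) (f : ZMod q → ℍ → ℂ) (g : SL(2, ℤ)) :
    (∏ x : ZMod q, f x) ∣[w * (q : ℤ)] g = ∏ x : ZMod q, (f x) ∣[w] g := by
  have : NeZero q := ⟨(Fact.out : q.Prime).ne_zero⟩
  have h := ModularForm.prod_slash (k := w) (g := (mapGL ℝ g)) (f := f)
    (s := (Finset.univ : Finset (ZMod q)))
  rw [Finset.card_univ, ZMod.card] at h
  change (∏ x : ZMod q, f x) ∣[w * (q : ℤ)] (mapGL ℝ g) =
    ∏ x : ZMod q, (f x) ∣[w] (mapGL ℝ g)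
  rw [h]
  simp

omit [Fact q.Prime] in
/-- Moving `γ ∈ Γ₀(N)` through `α_x = heckeMatrix q x` at the level of slashes (`q ∣ N`). -/
theorem slash_heckeMatrix_slash [NeZero q] (hq : q ∣ N) (w : ℤ) (A : ℍ → ℂ) (γ : ↥(Gamma0 N))
    (x : ZMod q) :
    (A ∣[w] heckeRep q (x : OnePoint (ZMod q))) ∣[w] (γ : SL(2, ℤ)) =
      (A ∣[w] (((uData N q hq).part γ x : ↥(Gamma0 N)) : SL(2, ℤ))) ∣[w]
        heckeRep q (((uData N q hq).perm γ x : ZMod q) : OnePoint (ZMod q)) := by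
  change (A ∣[w] ModularForm.heckeMatrix q x.val) ∣[w] (mapGL ℝ (γ : SL(2, ℤ))) = _
  rw [← SlashAction.slash_mul, uData_spec hq γ x, SlashAction.slash_mul]
  rfl

/-- **(K6a-U)**: the `U_q`-product `∏_{x : ZMod q} A ∣[w] α_x` of a form `A` of weight `w` and
multiplier `χ` on `Γ₀(N)`, `q ∣ N`, is a form of weight `w q` with multiplier
`χ' γ = ∏_x χ (γ'_x)` (holomorphic, bounded at all cusps). -/
theorem prod_slash_heckeMatrix_mem [NeZero q] (hq : q ∣ N) {w : ℤ} {χ χ' : ↥(Gamma0 N) →* ℂˣ}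
    {A : ℍ → ℂ}
    (hχ : ∀ γ : ↥(Gamma0 N), χ' γ = ∏ x : ZMod q, χ ((uData N q hq).part γ x))
    (hA : A ∈ K.MFchi N w χ) :
    (∏ x : ZMod q, A ∣[w] heckeRep q (x : OnePoint (ZMod q))) ∈ K.MFchi N (w * (q : ℤ)) χ' := by
  obtain ⟨hA1, hA2, hA3⟩ := hA
  refine ⟨?_, fun γ => ?_, fun g => ?_⟩
  · exact MDifferentiable.prod (fun x _ => hA1.slash w _)
  · rw [prod_slash_SL_zmod]
    have h1 : ∀ x : ZMod q, (A ∣[w] heckeRep q (x : OnePoint (ZMod q))) ∣[w] (γ : SL(2, ℤ)) =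
        ((χ ((uData N q hq).part γ x) : ℂˣ) : ℂ) •
          (A ∣[w] heckeRep q (((uData N q hq).perm γ x : ZMod q) : OnePoint (ZMod q))) := by
      intro x
      rw [slash_heckeMatrix_slash hq, hA2, HeckeProdMem.smul_slash_heckeRep]
    simp only [h1]
    rw [Finset.prod_smul, hχ γ, Units.coe_prod]
    congr 1
    exact Equiv.prod_comp ((uData N q hq).perm γ)
      (fun x : ZMod q => A ∣[w] heckeRep q (x : OnePoint (ZMod q)))
  · rw [prod_slash_SL_zmod]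
    refine Filter.BoundedAtFilter.prod _ (fun x _ => ?_)
    obtain ⟨g', hg'⟩ := HeckeProd.exists_heckeRep_mul q g (x : OnePoint (ZMod q))
    change IsBoundedAtImInfty ((A ∣[w] heckeRep q (x : OnePoint (ZMod q))) ∣[w] (mapGL ℝ g))
    rw [← SlashAction.slash_mul, hg', SlashAction.slash_mul]
    exact (hA3 g').slash w (heckeRep_apply_one_zero' q _)

end Mem

/-! ### (K6b-U): the q-expansion of the `U_q`-product -/

section Qx

open Fermat.Agent.S29.K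

/-- The slash `U`-product in terms of the plain `U`-product `HeckeProdQxB.uProd`. -/
theorem prod_slash_heckeMatrix_eq (ℓ : ℕ) [NeZero ℓ] (w : ℤ) (A : ℍ → ℂ) :
    (∏ x : ZMod ℓ, A ∣[w] heckeRep ℓ (x : OnePoint (ZMod ℓ))) =
      (((ℓ : ℂ)⁻¹) ^ ℓ) • HeckeProdQxB.uProd ℓ A := by
  funext z
  rw [Finset.prod_apply, Pi.smul_apply, smul_eq_mul]
  have h2 : ∀ j : ZMod ℓ, (A ∣[w] heckeRep ℓ (j : OnePoint (ZMod ℓ))) z =
      (ℓ : ℂ)⁻¹ * A (ModularForm.heckeMatrix ℓ j.val • z) := by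
    intro j
    show (A ∣[w] ModularForm.heckeMatrix ℓ j.val) z = _
    rw [ModularForm.slash_heckeMatrix_apply w (NeZero.ne ℓ)]
  simp only [h2, Finset.prod_mul_distrib, Finset.prod_const, Finset.card_univ, ZMod.card]
  rfl

/-- **(K6b-U)**: the q-expansion of the slash `U`-product of a nice function. -/
theorem qx_prod_slash_heckeMatrix (ℓ : ℕ) [NeZero ℓ] (w : ℤ) {A : ℍ → ℂ}
    (hA : A ∈ S23.niceSub) :
    qx (∏ x : ZMod ℓ, A ∣[w] heckeRep ℓ (x : OnePoint (ZMod ℓ))) =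
      (((ℓ : ℂ)⁻¹) ^ ℓ) • kronU (HeckeProdQxB.zetaUnit ℓ) ℓ (qx A) := by
  have hP := HeckeProdQxB.uProd_mem_niceSub ℓ hA
  rw [prod_slash_heckeMatrix_eq, qx_smul _ hP, HeckeProdQxB.qx_uProd ℓ hA]
  rfl

theorem invPow_ne_zero (ℓ : ℕ) [NeZero ℓ] : (((ℓ : ℂ)⁻¹) ^ ℓ) ≠ 0 :=
  pow_ne_zero _ (inv_ne_zero (Nat.cast_ne_zero.mpr (NeZero.ne ℓ)))

end Qx

/-! ### The witness class is stable under the `U_q`-product -/

section Glue

variable {N q : ℕ} [NeZero N] [Fact q.Prime] [NeZero q]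

/-- **[UWit], ℂ-form.**  If `x ∈ Mchi N χ` (`χ (T) = 1`) then `kronU ζ q x ∈ Mchi N χ'`, where
`χ' γ = ∏_{x : ZMod q} χ (γ'_x)` is the `U_q`-transform of the multiplier (`q ∣ N`). -/
theorem kronU_mem_Mchi (hq : q ∣ N) {χ χ' : ↥(Gamma0 N) →* ℂˣ} (hT : χ (K.TG N) = 1)
    (hχ : ∀ γ : ↥(Gamma0 N), χ' γ = ∏ x : ZMod q, χ ((uData N q hq).part γ x))
    {ζ : ℂˣ} (hζ : IsPrimitiveRoot (ζ : ℂ) q) {x : LaurentSeries ℂ} (hx : x ∈ K.Mchi N χ) :
    kronU ζ q x ∈ K.Mchi N χ' := by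
  obtain ⟨w, A, B, hA, hB, hB0, hxAB⟩ := hx
  have hζ₀ := HeckeProdQxB.isPrimitiveRoot_zetaUnit q
  have hc := invPow_ne_zero q
  have hAn : A ∈ S23.niceSub := K.mem_niceSub_of_mem_MFchi hT hA
  have hBn : B ∈ S23.niceSub := K.mem_niceSub_of_mem_MF hB
  have hA' := prod_slash_heckeMatrix_mem hq hχ hA
  have hB' := prod_slash_heckeMatrix_mem hq (χ := 1) (χ' := 1) (fun γ => by simp)
    (K.mem_MFchi_one_iff.mpr hB)
  have hB'MF := K.mem_MFchi_one_iff.mp hB'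
  have hqA := qx_prod_slash_heckeMatrix q w hAn
  have hqB := qx_prod_slash_heckeMatrix q w hBn
  have hB'0 : (∏ x : ZMod q, B ∣[w] heckeRep q (x : OnePoint (ZMod q))) ≠ 0 := by
    intro h0
    rw [h0, K.qx_zero, ← HahnSeries.C_mul_eq_smul] at hqB
    rcases mul_eq_zero.mp hqB.symm with h | h
    · exact HahnSeries.C_ne_zero hc h
    · exact kronU_ne_zero hζ₀ (K.qx_ne_zero hBn hB0) h
  refine ⟨w * (q : ℤ), _, _, hA', hB'MF, hB'0, ?_⟩
  rw [hqA, hqB, kronU_eq_of_isPrimitiveRoot hζ hζ₀, ← HahnSeries.C_mul_eq_smul,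
    ← HahnSeries.C_mul_eq_smul, ← hxAB, kronU_mul hζ₀]
  ring

omit [NeZero N] [Fact q.Prime] in
/-- The `U_q`-transform of the multiplier `γ ↦ ζ_p ^ (u γ)` is `γ ↦ ζ_p ^ ((U_q u) γ)`. -/
theorem char_heckeU_of_zpow (hq : q ∣ N) (ζp : ℂˣ) (u : Additive (Gamma0 N) →+ ℤ)
    {χ χ' : ↥(Gamma0 N) →* ℂˣ} (h : ∀ γ : ↥(Gamma0 N), χ γ = ζp ^ u (Additive.ofMul γ))
    (h' : ∀ γ : ↥(Gamma0 N), χ' γ = ζp ^ (heckeUHom N q hq u) (Additive.ofMul γ))
    (γ : ↥(Gamma0 N)) :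
    χ' γ = ∏ x : ZMod q, χ ((uData N q hq).part γ x) := by
  rw [h', heckeUHom_apply, K6Hecke.zpow_finset_sum_eq]
  exact Finset.prod_congr rfl fun x _ => (h _).symm

/-- **[UWit], `ℚ̄`-form for a general multiplier.**  If `y ≠ 0` is a `ℚ̄`-rational witness for the
multiplier `χ` (`χ (T) = 1`), then `y' := kronU ζ q y` is a nonzero `ℚ̄`-rational witness for
`χ' = U_q χ`, and `y' (Q^q) = ∏_{i<q} y (ζ^i Q)`. -/
theorem uWit_of_char (hq : q ∣ N) {χ χ' : ↥(Gamma0 N) →* ℂˣ} (hT : χ (K.TG N) = 1)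
    (hχ : ∀ γ : ↥(Gamma0 N), χ' γ = ∏ x : ZMod q, χ ((uData N q hq).part γ x))
    (ζ : Qb) (hζ : IsPrimitiveRoot ζ q) (hz : ∀ i : ℕ, ζ ^ i ≠ 0)
    {y : LaurentSeries Qb} (hy : y ≠ 0) (hmem : coeffMap embC y ∈ K.Mchi N χ) :
    ∃ y' : LaurentSeries Qb, y' ≠ 0 ∧ coeffMap embC y' ∈ K.Mchi N χ' ∧
      qExpand Qb q y' = ∏ i ∈ Finset.range q, rotHom (ζ ^ i) (hz i) y := by
  have hζ0 : ζ ≠ 0 := by simpa using hz 1
  set ζu : Qbˣ := Units.mk0 ζ hζ0 with hζu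
  have hζu' : IsPrimitiveRoot ((ζu : Qbˣ) : Qb) q := hζ
  refine ⟨kronU ζu q y, kronU_ne_zero hζu' hy, ?_, ?_⟩
  · rw [coeffMap_kronU]
    refine kronU_mem_Mchi hq hT hχ ?_ hmem
    have : ((Units.map (embC : Qb →* ℂ) ζu : ℂˣ) : ℂ) = embC ζ := rfl
    rw [this]
    exact hζ.map_of_injective embC.injective
  · rw [qExpand_kronU hζu']
    refine Finset.prod_congr rfl fun i _ => ?_
    rw [KC.twist_eq_rotHom]
    congr 1

/-- **[UWit], general `u`**: for a prime `q ∣ N`, a primitive `q`-th root of unity `ζ ∈ ℚ̄` and a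
witness `y` of a homomorphism `u : Γ₀(N) → ℤ` with `χ_u (T) = 1` (any torsion order `p`), there
is a witness `y'` of `U_q u` with `y' (Q^q) = ∏_{i<q} y (ζ^i Q)`. -/
theorem uWit_of_TG (p : ℕ) (hq : q ∣ N) (ζ : Qb) (hζ : IsPrimitiveRoot ζ q)
    (hz : ∀ i : ℕ, ζ ^ i ≠ 0) (u : Additive (Gamma0 N) →+ ℤ)
    (hT : KPlan.chiU p u (K.TG N) = 1) (y : LaurentSeries Qb) (hW : KPlan.Wit N p u y) :
    ∃ y' : LaurentSeries Qb,
      KPlan.Wit N p (heckeUHom N q hq u) y' ∧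
      qExpand Qb q y' = ∏ i ∈ Finset.range q, rotHom (ζ ^ i) (hz i) y := by
  obtain ⟨hy, hmem⟩ := hW
  obtain ⟨y', hy', hmem', hqx⟩ := uWit_of_char hq
    (χ := KPlan.chiU p u) (χ' := KPlan.chiU p (heckeUHom N q hq u)) hT
    (char_heckeU_of_zpow hq (KPlan.zetaU p) u (fun _ => rfl) (fun _ => rfl))
    ζ hζ hz hy hmem
  exact ⟨y', ⟨hy', hmem'⟩, hqx⟩

/-- **[UWit]**: for a prime `q ∣ N`, a primitive `q`-th root of unity `ζ ∈ ℚ̄` and a witness `y`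
of `u ∈ Lpar N` (any torsion order `p`), there is a witness `y'` of `U_q u` with
`y' (Q^q) = ∏_{i<q} y (ζ^i Q)`. -/
theorem uWit_zeta (p : ℕ) (hq : q ∣ N) (ζ : Qb) (hζ : IsPrimitiveRoot ζ q) (hz : ∀ i : ℕ, ζ ^ i ≠ 0)
    (u : Fermat.Agent.S41.Lpar N) (y : LaurentSeries Qb)
    (hW : KPlan.Wit N p (u : Additive (Gamma0 N) →+ ℤ) y) :
    ∃ y' : LaurentSeries Qb,
      KPlan.Wit N p (heckeUHom N q hq (u : Additive (Gamma0 N) →+ ℤ)) y' ∧
      qExpand Qb q y' = ∏ i ∈ Finset.range q, rotHom (ζ ^ i) (hz i) y :=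
  uWit_of_TG p hq ζ hζ hz u (KPlan.chiU_TG p u) y hW

omit [NeZero N] [Fact q.Prime] in
/-- `U_q u` as an element of the parabolic lattice. -/
def uLpar (hq : q ∣ N) (u : Fermat.Agent.S41.Lpar N) : Fermat.Agent.S41.Lpar N :=
  ⟨heckeUHom N q hq (u : Additive (Gamma0 N) →+ ℤ),
    Fermat.Agent.S41.ParMem.isParabolicHom_heckeUHom hq u.2⟩

omit [NeZero N] [Fact q.Prime] in
@[simp] theorem coe_uLpar (hq : q ∣ N) (u : Fermat.Agent.S41.Lpar N) :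
    ((uLpar hq u : Fermat.Agent.S41.Lpar N) : Additive (Gamma0 N) →+ ℤ) =
      heckeUHom N q hq (u : Additive (Gamma0 N) →+ ℤ) := rfl

/-- **[UWit], lattice form**: a witness `y` of `u ∈ Lpar N` yields a witness `y'` of
`uLpar hq u = U_q u ∈ Lpar N` with `y' (Q^q) = ∏_{i<q} y (ζ^i Q)`. -/
theorem uWitLpar (p : ℕ) (hq : q ∣ N) (ζ : Qb) (hζ : IsPrimitiveRoot ζ q)
    (hz : ∀ i : ℕ, ζ ^ i ≠ 0) (u : Fermat.Agent.S41.Lpar N) (y : LaurentSeries Qb)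
    (hW : KPlan.Wit N p (u : Additive (Gamma0 N) →+ ℤ) y) :
    ∃ y' : LaurentSeries Qb,
      KPlan.Wit N p ((uLpar hq u : Fermat.Agent.S41.Lpar N) : Additive (Gamma0 N) →+ ℤ) y' ∧
      qExpand Qb q y' = ∏ i ∈ Finset.range q, rotHom (ζ ^ i) (hz i) y :=
  uWit_zeta p hq ζ hζ hz u y hW

/-- **[UWit] twice**: witnesses `y₁` of `U_q u` and `y₂` of `U_q (U_q u)` with
`y₁ (Q^q) = ∏_{i<q} y (ζ^i Q)`, `y₂ (Q^q) = ∏_{i<q} y₁ (ζ^i Q)`. -/
theorem uWit_twice (p : ℕ) (hq : q ∣ N) (ζ : Qb) (hζ : IsPrimitiveRoot ζ q)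
    (hz : ∀ i : ℕ, ζ ^ i ≠ 0) (u : Fermat.Agent.S41.Lpar N) (y : LaurentSeries Qb)
    (hW : KPlan.Wit N p (u : Additive (Gamma0 N) →+ ℤ) y) :
    ∃ y₁ y₂ : LaurentSeries Qb,
      KPlan.Wit N p (heckeUHom N q hq (u : Additive (Gamma0 N) →+ ℤ)) y₁ ∧
      KPlan.Wit N p
        (heckeUHom N q hq (heckeUHom N q hq (u : Additive (Gamma0 N) →+ ℤ))) y₂ ∧
      qExpand Qb q y₁ = ∏ i ∈ Finset.range q, rotHom (ζ ^ i) (hz i) y ∧
      qExpand Qb q y₂ = ∏ i ∈ Finset.range q, rotHom (ζ ^ i) (hz i) y₁ := by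
  obtain ⟨y₁, h1, hq1⟩ := uWitLpar p hq ζ hζ hz u y hW
  obtain ⟨y₂, h2, hq2⟩ := uWit_zeta p hq ζ hζ hz (uLpar hq u) y₁ h1
  exact ⟨y₁, y₂, h1, h2, hq1, hq2⟩

end Glue

/-! ### The target of the [U]-route plan -/

/-- Primitive roots of unity exist in `ℚ̄`. -/
theorem exists_zeta (q : ℕ) [NeZero q] :
    ∃ ζ : Qb, IsPrimitiveRoot ζ q ∧ ∀ i : ℕ, ζ ^ i ≠ 0 := by
  have : NeZero ((q : ℕ) : ℚ) := ⟨by exact_mod_cast NeZero.ne q⟩
  obtain ⟨ζ, hζ⟩ := HasEnoughRootsOfUnity.exists_primitiveRoot Qb q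
  exact ⟨ζ, hζ, fun i => pow_ne_zero i (hζ.ne_zero (NeZero.ne q))⟩

/-- **[UWit]** = `URoutePlan.UWitStatement N m q hqN`, for every level `N ≠ 0`, every torsion
order `m` and every prime `q ∣ N`. -/
theorem uWit (N m q : ℕ) [NeZero N] [NeZero q] (hq : q.Prime) (hqN : q ∣ N) :
    URoutePlan.UWitStatement N m q hqN := by
  intro u y hW
  have : Fact q.Prime := ⟨hq⟩
  obtain ⟨ζ, hζ, hz⟩ := exists_zeta q
  obtain ⟨y', hy', hqx⟩ := uWit_zeta m hqN ζ hζ hz u y hW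
  exact ⟨y', hy', ζ, hζ, hz, hqx⟩

/-- **[UWit] twice**, plan form: witnesses `y₁` of `U_q u` and `y₂` of `U_q (U_q u)` with
`y₁ = 𝒰 y`, `y₂ = 𝒰 y₁`. -/
theorem uWit_isU_twice (N m q : ℕ) [NeZero N] [NeZero q] (hq : q.Prime) (hqN : q ∣ N)
    (u : Fermat.Agent.S41.Lpar N) (y : LaurentSeries Qb)
    (hW : KPlan.Wit N m (u : Additive (Gamma0 N) →+ ℤ) y) :
    ∃ y₁ y₂ : LaurentSeries Qb,
      KPlan.Wit N m (heckeUHom N q hqN (u : Additive (Gamma0 N) →+ ℤ)) y₁ ∧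
      KPlan.Wit N m
        (heckeUHom N q hqN (heckeUHom N q hqN (u : Additive (Gamma0 N) →+ ℤ))) y₂ ∧
      URoutePlan.IsU q y y₁ ∧ URoutePlan.IsU q y₁ y₂ := by
  have : Fact q.Prime := ⟨hq⟩
  obtain ⟨ζ, hζ, hz⟩ := exists_zeta q
  obtain ⟨y₁, y₂, h1, h2, hq1, hq2⟩ := uWit_twice m hqN ζ hζ hz u y hW
  exact ⟨y₁, y₂, h1, h2, ⟨ζ, hζ, hz, hq1⟩, ⟨ζ, hζ, hz, hq2⟩⟩

end Fermat.Agent.S35.UWitK
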