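/-
S35 — UCond.lean (helper24): row [UCond] of the [U]-route (board #2697 / #2714, plan file
`S35/URoutePlan.lean`).

For `u ∈ Lpar (M q)` with `tr₁ u = tr₂ u = 0` (`q` prime, `q ∤ M`) one has `U_q (U_q u) = u`
(`S41.IwahoriU.heckeU_sq_of_tr_eq_zero`, on main).  Given the witness statement [UWit]
(`URoutePlan.UWitStatement`: a witness `y` of `u` yields a witness `y'` of `U_q u` with
`y'(Q^q) = ∏_{i<q} y(ζ^i Q)`), two applications and uniqueness of witnesses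
(`KTheta.Inputs.unique`, on main through `KGraph.inputs`) give, for every witness `y` of `u` and
`f = y ^ m ∈ F̄_{M q}`, the `U`-condition `URoutePlan.UCond`:

  `∃ f₁ f₂ g ∈ F̄_{M q}`, `g ≠ 0`, `f₁ = 𝒰 f`, `f₂ = 𝒰 f₁`, `f₂ = g ^ m * f`.

Main statements:
* `kU : URoutePlan.UWitStatement (M * q) m q _ → URoutePlan.KUStatement M q m` (hypothesis form);
* `kUStatement : URoutePlan.KUStatement M q m` (CLOSED, with `UWitK.uWit` of helper12, on main).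
Also: formal facts on `URoutePlan.IsU` (independence of the root of unity, powers, products).
-/
import Mathlib
import Fermat.Agent.S29.KPlanDefs
import Fermat.Agent.S29.K6Hecke
import Fermat.Agent.S41.Defs
import Fermat.Agent.S41.IwahoriU
import Fermat.Agent.S41.ParMem
import Fermat.Agent.S35.KGraph
import Fermat.Agent.S35.URoutePlan
import Fermat.Agent.S35.UWitK

set_option autoImplicit false

open ModularCurve AlgebraicCurve CongruenceSubgroup HahnSeries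
open scoped MatrixGroups

namespace Fermat.Agent.S35.UCond

open Fermat.Agent.S29 Fermat.Agent.S41
open Fermat.Agent.S24 (rotHom)
open Fermat.Agent.S16 (heckeUHom)
open Fermat.Agent.S35.URoutePlan (IsU)

noncomputable section

local notation "Qb" => AlgebraicClosure ℚ

set_option synthInstance.maxHeartbeats 400000

/-! ### The formal `U`-product and its independence of the root of unity -/

/-- The formal `U`-product `∏_{i<q} y(ζ^i Q)`. -/
def uProd (q : ℕ) (ζ : Qb) (hz : ∀ i : ℕ, ζ ^ i ≠ 0) (y : LaurentSeries Qb) : LaurentSeries Qb :=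
  ∏ i ∈ Finset.range q, rotHom (ζ ^ i) (hz i) y

theorem uProd_def (q : ℕ) (ζ : Qb) (hz : ∀ i : ℕ, ζ ^ i ≠ 0) (y : LaurentSeries Qb) :
    uProd q ζ hz y = ∏ i ∈ Finset.range q, rotHom (ζ ^ i) (hz i) y := rfl

theorem rotHom_congr {ξ ξ' : Qb} (h : ξ = ξ') (hξ : ξ ≠ 0) (hξ' : ξ' ≠ 0) (y : LaurentSeries Qb) :
    rotHom ξ hξ y = rotHom ξ' hξ' y := by
  subst h
  rfl

/-- The `U`-product does not depend on the primitive `q`-th root of unity. -/
theorem uProd_eq_of_isPrimitiveRoot (q : ℕ) [NeZero q] {ζ ζ' : Qb}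
    (hζ : IsPrimitiveRoot ζ q) (hζ' : IsPrimitiveRoot ζ' q)
    (hz : ∀ i : ℕ, ζ ^ i ≠ 0) (hz' : ∀ i : ℕ, ζ' ^ i ≠ 0) (y : LaurentSeries Qb) :
    uProd q ζ hz y = uProd q ζ' hz' y := by
  have h0 : ζ ≠ 0 := by simpa using hz 1
  have h0' : ζ' ≠ 0 := by simpa using hz' 1
  have key := K6Hecke.prod_pow_eq_of_isPrimitiveRoot (R := Qb) (ζ := Units.mk0 ζ h0)
    (ζ' := Units.mk0 ζ' h0') (ℓ := q) (by simpa using hζ) (by simpa using hζ')
    (fun ξ : Qbˣ => rotHom (ξ : Qb) ξ.ne_zero y)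
  have e : ∀ (ξ : Qb) (hξ : ξ ≠ 0) (hpow : ∀ i : ℕ, ξ ^ i ≠ 0) (i : ℕ),
      rotHom (ξ ^ i) (hpow i) y
        = rotHom (((Units.mk0 ξ hξ) ^ i : Qbˣ) : Qb) ((Units.mk0 ξ hξ) ^ i).ne_zero y := by
    intro ξ hξ hpow i
    exact rotHom_congr (by rw [Units.val_pow_eq_pow_val, Units.val_mk0]) _ _ y
  unfold uProd
  rw [Finset.prod_congr rfl (fun i _ => e ζ h0 hz i),
    Finset.prod_congr rfl (fun i _ => e ζ' h0' hz' i)]
  exact key

theorem uProd_pow (q : ℕ) (ζ : Qb) (hz : ∀ i : ℕ, ζ ^ i ≠ 0) (y : LaurentSeries Qb) (m : ℕ) :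
    uProd q ζ hz (y ^ m) = uProd q ζ hz y ^ m := by
  unfold uProd
  rw [← Finset.prod_pow]
  exact Finset.prod_congr rfl (fun i _ => map_pow _ _ _)

theorem uProd_mul (q : ℕ) (ζ : Qb) (hz : ∀ i : ℕ, ζ ^ i ≠ 0) (x y : LaurentSeries Qb) :
    uProd q ζ hz (x * y) = uProd q ζ hz x * uProd q ζ hz y := by
  unfold uProd
  rw [← Finset.prod_mul_distrib]
  exact Finset.prod_congr rfl (fun i _ => map_mul _ _ _)

theorem uProd_one (q : ℕ) (ζ : Qb) (hz : ∀ i : ℕ, ζ ^ i ≠ 0) :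
    uProd q ζ hz 1 = 1 := by
  unfold uProd
  exact Finset.prod_eq_one (fun i _ => map_one _)

/-! ### Formal facts on `URoutePlan.IsU` -/

/-- `IsU q y y'` in terms of `uProd`. -/
theorem isU_iff_exists (q : ℕ) [NeZero q] (y y' : LaurentSeries Qb) :
    IsU q y y' ↔ ∃ (ζ : Qb) (_ : IsPrimitiveRoot ζ q) (hz : ∀ i : ℕ, ζ ^ i ≠ 0),
      qExpand Qb q y' = uProd q ζ hz y := Iff.rfl

/-- `IsU q y y'` holds for EVERY primitive `q`-th root of unity once it holds for one. -/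
theorem isU_forall {q : ℕ} [NeZero q] {y y' : LaurentSeries Qb} (h : IsU q y y')
    (ζ : Qb) (hζ : IsPrimitiveRoot ζ q) (hz : ∀ i : ℕ, ζ ^ i ≠ 0) :
    qExpand Qb q y' = ∏ i ∈ Finset.range q, rotHom (ζ ^ i) (hz i) y := by
  obtain ⟨ζ₁, hζ₁, hz₁, h1⟩ := h
  rw [h1]
  exact uProd_eq_of_isPrimitiveRoot q hζ₁ hζ hz₁ hz y

/-- Conversely, the formula for one primitive root of unity gives `IsU`. -/
theorem isU_of_eq {q : ℕ} [NeZero q] {y y' : LaurentSeries Qb}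
    (ζ : Qb) (hζ : IsPrimitiveRoot ζ q) (hz : ∀ i : ℕ, ζ ^ i ≠ 0)
    (h : qExpand Qb q y' = ∏ i ∈ Finset.range q, rotHom (ζ ^ i) (hz i) y) : IsU q y y' :=
  ⟨ζ, hζ, hz, h⟩

/-- `𝒰 (y ^ m) = (𝒰 y) ^ m`. -/
theorem isU_pow {q : ℕ} [NeZero q] {y y' : LaurentSeries Qb} (h : IsU q y y') (m : ℕ) :
    IsU q (y ^ m) (y' ^ m) := by
  obtain ⟨ζ, hζ, hz, h1⟩ := h
  refine ⟨ζ, hζ, hz, ?_⟩
  rw [map_pow, h1, ← uProd_def, ← uProd_def, uProd_pow]

/-- `𝒰 (x * y) = 𝒰 x * 𝒰 y`. -/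
theorem isU_mul {q : ℕ} [NeZero q] {x x' y y' : LaurentSeries Qb} (hx : IsU q x x')
    (hy : IsU q y y') : IsU q (x * y) (x' * y') := by
  obtain ⟨ζ, hζ, hz, h1⟩ := hx
  have h2 := isU_forall hy ζ hζ hz
  refine ⟨ζ, hζ, hz, ?_⟩
  rw [map_mul, h1, h2, ← uProd_def, ← uProd_def, ← uProd_def, uProd_mul]

/-- `𝒰 y` is unique. -/
theorem isU_unique {q : ℕ} [NeZero q] {y y' y'' : LaurentSeries Qb} (h : IsU q y y')
    (h' : IsU q y y'') : y' = y'' := by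
  obtain ⟨ζ, hζ, hz, h1⟩ := h
  have h2 := isU_forall h' ζ hζ hz
  exact qExpand_injective (R := Qb) (N := q) (h1.trans h2.symm)

/-! ### `U_q` on `Lpar` -/

/-- `U_q u` as an element of `Lpar N` (`q ∣ N`). -/
def uLpar (N q : ℕ) [NeZero q] (hq : q ∣ N) (u : Lpar N) : Lpar N :=
  ⟨heckeUHom N q hq (u : Additive (Gamma0 N) →+ ℤ), ParMem.isParabolicHom_heckeUHom hq u.2⟩

theorem coe_uLpar (N q : ℕ) [NeZero q] (hq : q ∣ N) (u : Lpar N) :
    ((uLpar N q hq u : Lpar N) : Additive (Gamma0 N) →+ ℤ)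
      = heckeUHom N q hq (u : Additive (Gamma0 N) →+ ℤ) := rfl

/-- `U_q (U_q u) = u` on `ker tr₁ ∩ ker tr₂` (`q` prime, `q ∤ M`), in `Lpar (M q)`. -/
theorem uLpar_uLpar (M q : ℕ) [NeZero q] (hq : q.Prime) (hqM : ¬ q ∣ M) (hd : q ∣ M * q)
    (u : Lpar (M * q))
    (h₁ : tr₁ M q (u : Additive (Gamma0 (M * q)) →+ ℤ) = 0)
    (h₂ : tr₂ M q (u : Additive (Gamma0 (M * q)) →+ ℤ) = 0) :
    uLpar (M * q) q hd (uLpar (M * q) q hd u) = u := by
  have : Fact q.Prime := ⟨hq⟩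
  apply Subtype.ext
  rw [coe_uLpar, coe_uLpar]
  exact IwahoriU.heckeU_sq_of_tr_eq_zero M q hqM hd _ h₁ h₂

/-! ### [UCond] -/

/-- **[UCond], direct form**: for `u ∈ Lpar (M q)` killed by both transfers, a witness `y` of `u`
and `f = y ^ m ∈ F̄_{M q}`: there are a witness `y₁` of `U_q u` and `h ∈ F̄_{M q}`, `h ≠ 0`, with
`y₁ = 𝒰 y` and `h * y = 𝒰 y₁`. -/
theorem exists_wit_sq (M q m : ℕ) [NeZero M] [NeZero q] (hq : q.Prime) (hqM : ¬ q ∣ M)
    (hm : m ≠ 0) (hd : q ∣ M * q) (hW : URoutePlan.UWitStatement (M * q) m q hd)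
    (u : Lpar (M * q))
    (h₁ : tr₁ M q (u : Additive (Gamma0 (M * q)) →+ ℤ) = 0)
    (h₂ : tr₂ M q (u : Additive (Gamma0 (M * q)) →+ ℤ) = 0)
    (y : LaurentSeries Qb) (hy : KPlan.Wit (M * q) m (u : Additive (Gamma0 (M * q)) →+ ℤ) y) :
    ∃ (y₁ : LaurentSeries Qb) (h : ↥(modularFunctionFieldBar (M * q))),
      KPlan.Wit (M * q) m (heckeUHom (M * q) q hd (u : Additive (Gamma0 (M * q)) →+ ℤ)) y₁ ∧
      h ≠ 0 ∧ IsU q y y₁ ∧ IsU q y₁ ((h : LaurentSeries Qb) * y) := by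
  have hin := KGraph.inputs (M * q) m hm
  -- first application: a witness `y₁` of `U u`
  obtain ⟨y₁, hy₁, hU₁⟩ := hW u y hy
  have hy₁' : KPlan.Wit (M * q) m
      ((uLpar (M * q) q hd u : Lpar (M * q)) : Additive (Gamma0 (M * q)) →+ ℤ) y₁ := hy₁
  -- second application: a witness `y₂` of `U (U u) = u`
  obtain ⟨y₂, hy₂, hU₂⟩ := hW (uLpar (M * q) q hd u) y₁ hy₁'
  have hy₂' : KPlan.Wit (M * q) m (u : Additive (Gamma0 (M * q)) →+ ℤ) y₂ := by
    have e := uLpar_uLpar M q hq hqM hd u h₁ h₂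
    have e' : heckeUHom (M * q) q hd
        ((uLpar (M * q) q hd u : Lpar (M * q)) : Additive (Gamma0 (M * q)) →+ ℤ)
          = (u : Additive (Gamma0 (M * q)) →+ ℤ) := by
      rw [← coe_uLpar, e]
    rw [e'] at hy₂
    exact hy₂
  -- uniqueness: `y₂ = h * y`
  obtain ⟨h, hh⟩ := hin.unique (u := u) hy hy₂'
  have hh0 : h ≠ 0 := by
    rintro rfl
    apply hy₂.1
    rw [hh]
    simp
  refine ⟨y₁, h, hy₁, hh0, hU₁, ?_⟩
  rw [← hh]
  exact hU₂

/-- **[UCond]** (the row, target of [U]-route DEAL #1): [UWit] at level `M q` implies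
`URoutePlan.KUStatement M q m`. -/
theorem kU (M q m : ℕ) [NeZero M] [NeZero q] (hq : q.Prime) (hqM : ¬ q ∣ M) (hm : m ≠ 0)
    (hW : URoutePlan.UWitStatement (M * q) m q (Dvd.intro_left M rfl)) :
    URoutePlan.KUStatement M q m := by
  intro u y hy f hf h₁ h₂
  obtain ⟨y₁, h, hy₁, hh0, hU₁, hU₂⟩ :=
    exists_wit_sq M q m hq hqM hm (Dvd.intro_left M rfl) hW u h₁ h₂ y hy
  have hy₁' : KPlan.Wit (M * q) m
      ((uLpar (M * q) q (Dvd.intro_left M rfl) u : Lpar (M * q)) :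
        Additive (Gamma0 (M * q)) →+ ℤ) y₁ := hy₁
  have hmem₁ : y₁ ^ m ∈ modularFunctionFieldBar (M * q) :=
    KGraph.pow_mem_of_wit (M * q) m hm (u := uLpar (M * q) q (Dvd.intro_left M rfl) u) hy₁'
  refine ⟨⟨y₁ ^ m, hmem₁⟩, h ^ m * f, h, hh0, ?_, ?_, rfl⟩
  · show IsU q (f : LaurentSeries Qb) (y₁ ^ m)
    rw [hf]
    exact isU_pow hU₁ m
  · show IsU q (y₁ ^ m) ((h ^ m * f : ↥(modularFunctionFieldBar (M * q))) : LaurentSeries Qb)
    have e1 : ((h ^ m * f : ↥(modularFunctionFieldBar (M * q))) : LaurentSeries Qb)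
        = ((h : LaurentSeries Qb) * y) ^ m := by
      rw [mul_pow, ← hf]
      rfl
    rw [e1]
    exact isU_pow hU₂ m

/-- **[UCond], CLOSED**: `URoutePlan.KUStatement M q m` for `q` prime, `q ∤ M`, `m ≠ 0`
([UWit] = `UWitK.uWit`, on main). -/
theorem kUStatement (M q m : ℕ) [NeZero M] [NeZero q] (hq : q.Prime) (hqM : ¬ q ∣ M)
    (hm : m ≠ 0) : URoutePlan.KUStatement M q m :=
  kU M q m hq hqM hm (UWitK.uWit (M * q) m q hq (Dvd.intro_left M rfl))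

end

end Fermat.Agent.S35.UCond
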