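/-
S35 — LevelQUB.lean (helper24): B-copy of the row [LevelQ-U] of the [U]-route (A = helper74,
`S35/LevelQU.lean`), written independently.

Block [B] "Level⁺" for a GENERAL exponent pair `(ea, eb)` and its `U`-route instance `(2, 2)`:

* `Tw`, `polyEnd` — intertwined endomorphisms and the operator `(s² − a) ^ ea (s² − 1) ^ eb`;
* `KilledPow N m q ea eb k` — `k ∈ J₀(N)[m]` is killed by `(σ² − q²) ^ ea (σ² − 1) ^ eb` for
  every Frobenius lift `σ` at `q` (operators in `Module.End ℤ (Jp N m)`);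
* `exists_levelPow_of_vector` — the level datum (`S30.LimLevel.Level`) of the orbit module of an
  eigenvector `v ∈ 𝒪 ⊗ J₀(N)[pⁿ]` carries `PseudoQ2.FrobQPow Lv q 1 ea eb` at every prime `q` for
  which `v` lies in the `𝒪`-span of the pure tensors `1 ⊗ k`, `KilledPow … k`
  (copy of `S30.LevelGlue.nonempty_level_of_vector` on top of `ModOrbitR.exists_orbit_module`,
  which keeps the embedding `ι` of the orbit module into `𝒪 ⊗ J₀(N)[pⁿ]`);
* `killedPow_of_frobPolyU`, `killedPow_of_frobPoly` — the `J`-side expressions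
  `URoutePlan.frobPolyU` (exponents `(2, 2)`) and `NewPlan.frobPoly` (exponents `(1, 2)`);
* `exists_vectorU` — the vector `v = ∑ x_i ⊗ θ_n (b_i)` of the `U`-route (hypothesis
  `URoutePlan.FrobNewUStatement`; [UCond] closed on main);
* `levelQPowStatement_of_U : FrobNewUStatement → DetQ2.LevelQPowStatement … 2 2`;
* `result_of_U : FrobNewUStatement → (frozen conclusion of S35)`.
-/
import Mathlib
import Fermat.Agent.S29.FD
import Fermat.Agent.S30.LevelGlue
import Fermat.Agent.S30.OddRepB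
import Fermat.Agent.S35.NewPlan
import Fermat.Agent.S35.NewVecClosed
import Fermat.Agent.S35.KGraph
import Fermat.Agent.S35.URoutePlan
import Fermat.Agent.S35.UCond
import Fermat.Agent.S35.DetQ2

set_option autoImplicit false

noncomputable section

open ModularCurve AlgebraicCurve CongruenceSubgroup Polynomial
open scoped TensorProduct

namespace Fermat.Agent.S35.LevelQUB

open Fermat.Agent.S29 (Qb GQ Jp galJp heckeJp mem_Jp_iff heckeLpar)
open Fermat.Agent.S41 (Lpar tr₁ tr₂)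
open Fermat.Agent.S30

/-! ### Intertwined endomorphisms -/

section Tw

variable {R : Type*} [CommRing R] {V W : Type*} [AddCommGroup V] [Module R V]
  [AddCommGroup W] [Module R W]

/-- `f` on `V` and `g` on `W` are intertwined by `ι : V → W`. -/
def Tw (ι : V →ₗ[R] W) (f : Module.End R V) (g : Module.End R W) : Prop :=
  ∀ x : V, ι (f x) = g (ι x)

theorem Tw.one (ι : V →ₗ[R] W) : Tw ι 1 1 := fun _ => rfl

theorem Tw.mul {ι : V →ₗ[R] W} {f f' : Module.End R V} {g g' : Module.End R W}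
    (h : Tw ι f g) (h' : Tw ι f' g') : Tw ι (f * f') (g * g') := fun x => by
  rw [Module.End.mul_apply, Module.End.mul_apply, h, h']

theorem Tw.sub {ι : V →ₗ[R] W} {f f' : Module.End R V} {g g' : Module.End R W}
    (h : Tw ι f g) (h' : Tw ι f' g') : Tw ι (f - f') (g - g') := fun x => by
  rw [LinearMap.sub_apply, LinearMap.sub_apply, map_sub, h, h']

theorem Tw.smul {ι : V →ₗ[R] W} {f : Module.End R V} {g : Module.End R W}
    (a : R) (h : Tw ι f g) : Tw ι (a • f) (a • g) := fun x => by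
  rw [LinearMap.smul_apply, LinearMap.smul_apply, map_smul, h]

theorem Tw.pow {ι : V →ₗ[R] W} {f : Module.End R V} {g : Module.End R W}
    (h : Tw ι f g) (k : ℕ) : Tw ι (f ^ k) (g ^ k) := by
  induction k with
  | zero => rw [pow_zero, pow_zero]; exact Tw.one ι
  | succ k ih => rw [pow_succ, pow_succ]; exact ih.mul h

/-- The operator `(s² − a) ^ ea (s² − 1) ^ eb`. -/
def polyEnd {X : Type*} [AddCommGroup X] [Module R X] (s : Module.End R X) (a : R)
    (ea eb : ℕ) : Module.End R X :=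
  (s * s - a • (1 : Module.End R X)) ^ ea * (s * s - 1) ^ eb

theorem Tw.polyEnd {ι : V →ₗ[R] W} {f : Module.End R V} {g : Module.End R W}
    (h : Tw ι f g) (a : R) (ea eb : ℕ) :
    Tw ι (polyEnd f a ea eb) (polyEnd g a ea eb) :=
  (((h.mul h).sub ((Tw.one ι).smul a)).pow ea).mul (((h.mul h).sub (Tw.one ι)).pow eb)

/-- Base change of `polyEnd` from `ℤ` to `R`. -/
theorem baseChange_polyEnd {M : Type*} [AddCommGroup M] (h : Module.End ℤ M) (z : ℤ)
    (ea eb : ℕ) :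
    (polyEnd h z ea eb).baseChange R
      = polyEnd (LinearMap.baseChange R h) (z : R) ea eb := by
  have e : (z : R) • (1 : Module.End R (R ⊗[ℤ] M)) = z • (1 : Module.End R (R ⊗[ℤ] M)) :=
    Int.cast_smul_eq_zsmul R z (1 : Module.End R (R ⊗[ℤ] M))
  unfold polyEnd
  rw [LinearMap.baseChange_mul, LinearMap.baseChange_pow, LinearMap.baseChange_pow,
    LinearMap.baseChange_sub, LinearMap.baseChange_sub, LinearMap.baseChange_mul,
    LinearMap.baseChange_smul, LinearMap.baseChange_one, e]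

/-- A linear map killing a set kills its span. -/
theorem apply_eq_zero_of_mem_span {g : Module.End R W} {s : Set W} (hs : ∀ z ∈ s, g z = 0)
    {v : W} (hv : v ∈ Submodule.span R s) : g v = 0 := by
  have h : Submodule.span R s ≤ LinearMap.ker g :=
    Submodule.span_le.mpr fun z hz => LinearMap.mem_ker.mpr (hs z hz)
  exact LinearMap.mem_ker.mp (h hv)

end Tw

/-! ### The `J`-side condition -/

/-- `k ∈ J₀(N)[m]` is killed by `(σ² − q²) ^ ea (σ² − 1) ^ eb` for every Frobenius lift `σ` at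
`q`. -/
def KilledPow (N m q ea eb : ℕ) [NeZero N] (k : Jp N m) : Prop :=
  ∀ A : ValuationSubring Qb, A.LiesOverPrime q → ∀ σ : GQ, A.IsFrobeniusAt σ q →
    polyEnd (galJp N m σ) ((q : ℤ) ^ 2) ea eb k = 0

section Coe

variable (N m q : ℕ) (σ : GQ)

theorem coe_sq_sub_smul (x : Jp N m) :
    (((galJp N m σ * galJp N m σ - ((q : ℤ) ^ 2) • (1 : Module.End ℤ (Jp N m))) x : Jp N m) :
        JZero N)
      = σ • σ • (x : JZero N) - (q ^ 2) • (x : JZero N) := by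
  rw [LinearMap.sub_apply, Module.End.mul_apply, LinearMap.smul_apply, Module.End.one_apply,
    Submodule.coe_sub, Submodule.coe_smul, Fermat.Agent.S29.coe_galJp_apply,
    Fermat.Agent.S29.coe_galJp_apply, ← Nat.cast_pow, natCast_zsmul]

theorem coe_sq_sub_one (x : Jp N m) :
    (((galJp N m σ * galJp N m σ - 1) x : Jp N m) : JZero N)
      = σ • σ • (x : JZero N) - (x : JZero N) := by
  rw [LinearMap.sub_apply, Module.End.mul_apply, Module.End.one_apply,
    Submodule.coe_sub, Fermat.Agent.S29.coe_galJp_apply, Fermat.Agent.S29.coe_galJp_apply]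

end Coe

/-- The `U`-route expression: `frobPolyU q σ k = 0` for all Frobenius lifts gives
`KilledPow … 2 2`. -/
theorem killedPow_of_frobPolyU (N m q : ℕ) [NeZero N] (k : Jp N m)
    (h : ∀ A : ValuationSubring Qb, A.LiesOverPrime q → ∀ σ : GQ, A.IsFrobeniusAt σ q →
      URoutePlan.frobPolyU q σ (k : JZero N) = 0) :
    KilledPow N m q 2 2 k := by
  intro A hA σ hσ
  have h0 := h A hA σ hσ
  set s : Module.End ℤ (Jp N m) :=
    galJp N m σ * galJp N m σ - ((q : ℤ) ^ 2) • (1 : Module.End ℤ (Jp N m)) with hs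
  set t : Module.End ℤ (Jp N m) := galJp N m σ * galJp N m σ - 1 with ht
  have hc : Commute s t := PseudoQ2.commute_factors (galJp N m σ) ((q : ℤ) ^ 2)
  have e : polyEnd (galJp N m σ) ((q : ℤ) ^ 2) 2 2 = s * (t * (t * s)) := by
    unfold polyEnd
    rw [← hs, ← ht, pow_two, pow_two, mul_assoc, ((hc.mul_right hc).eq), mul_assoc]
  rw [e, Module.End.mul_apply, Module.End.mul_apply, Module.End.mul_apply]
  apply Subtype.ext
  rw [hs, coe_sq_sub_smul, ← hs, ht, coe_sq_sub_one, coe_sq_sub_one, hs, coe_sq_sub_smul,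
    ZeroMemClass.coe_zero]
  exact h0

/-- The norm-route expression: `frobPoly q σ k = 0` for all Frobenius lifts gives
`KilledPow … 1 2`. -/
theorem killedPow_of_frobPoly (N m q : ℕ) [NeZero N] (k : Jp N m)
    (h : ∀ A : ValuationSubring Qb, A.LiesOverPrime q → ∀ σ : GQ, A.IsFrobeniusAt σ q →
      NewPlan.frobPoly q σ (k : JZero N) = 0) :
    KilledPow N m q 1 2 k := by
  intro A hA σ hσ
  have h0 := h A hA σ hσ
  set s : Module.End ℤ (Jp N m) :=
    galJp N m σ * galJp N m σ - ((q : ℤ) ^ 2) • (1 : Module.End ℤ (Jp N m)) with hs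
  set t : Module.End ℤ (Jp N m) := galJp N m σ * galJp N m σ - 1 with ht
  have e : polyEnd (galJp N m σ) ((q : ℤ) ^ 2) 1 2 = s * (t * t) := by
    unfold polyEnd
    rw [← hs, ← ht, pow_one, pow_two]
  rw [e, Module.End.mul_apply, Module.End.mul_apply]
  apply Subtype.ext
  rw [hs, coe_sq_sub_smul, ht, coe_sq_sub_one, coe_sq_sub_one, ZeroMemClass.coe_zero]
  exact h0

/-! ### The level datum with the Frobenius polynomial -/

/-- **[B] Level⁺, general exponents.**  The level-`n` datum from an eigenvector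
`v ∈ 𝒪 ⊗ J₀(N)[pⁿ]`, with `(σ² − q²) ^ ea (σ² − 1) ^ eb w = 0` at every prime `q` (`spec q`) for
which `v` lies in the span of the pure tensors `1 ⊗ k` with `KilledPow … k`. -/
theorem exists_levelPow_of_vector (N p : ℕ) [NeZero N] (hp : p.Prime) (S : Set ℕ) (hpS : p ∈ S)
    {𝒪 : Type} [CommRing 𝒪] (χ : CuspForm.heckeAlgebra N 2 S →+* 𝒪) (n : ℕ)
    (v : 𝒪 ⊗[ℤ] (Jp N (p ^ n)))
    (hann : ∀ a : 𝒪, a • v = 0 → (p : 𝒪) ^ n ∣ a)
    (hv : ∀ (ℓ : ℕ) (hℓ : ℓ.Prime) (hℓN : ¬ ℓ ∣ N) (hℓS : ℓ ∉ S),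
      (heckeJp N (p ^ n) ⟨ℓ, hℓ⟩).baseChange 𝒪 v = χ (CuspForm.heckeAlgebra.T hℓ hℓN hℓS) • v)
    (spec : ℕ → Prop) (ea eb : ℕ)
    (hspec : ∀ q : ℕ, spec q →
      v ∈ Submodule.span 𝒪 {z : 𝒪 ⊗[ℤ] (Jp N (p ^ n)) |
        ∃ k : Jp N (p ^ n), KilledPow N (p ^ n) q ea eb k ∧ z = 1 ⊗ₜ[ℤ] k}) :
    ∃ Lv : LimLevel.Level 𝒪 p n (LimLevel.goodPrime N S) (LimLevel.heckeEig N S χ)
        (LimLevel.unrPrime N p),
      ∀ q : ℕ, spec q → PseudoQ2.FrobQPow Lv q 1 ea eb := by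
  classical
  have hIn := Fermat.Agent.S29.inertiaStatement_of_specCore N (p ^ n)
    (Fermat.Agent.S29.specCoreStatement N (p ^ n))
  have hES := Fermat.Agent.S29.esStatement_of_specCore N (p ^ n)
    (Fermat.Agent.S29.specCoreStatement N (p ^ n))
  have hGH := Fermat.Agent.S29.ghStatement N (p ^ n)
  have hFL := Fermat.Agent.S29.flStatement N (p ^ n) (pow_ne_zero n hp.ne_zero)
  -- the action by additive maps
  let act : GQ →* AddMonoid.End (Jp N (p ^ n)) :=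
    { toFun := fun σ => (galJp N (p ^ n) σ).toAddMonoidHom
      map_one' := by rw [map_one]; rfl
      map_mul' := fun σ τ => by rw [map_mul]; rfl }
  have hact : ∀ (σ : GQ) (m : Jp N (p ^ n)),
      ((act σ m : Jp N (p ^ n)) : JZero N) = σ • (m : JZero N) := fun _ _ => rfl
  have hactL : ∀ σ : GQ, (act σ).toIntLinearMap = galJp N (p ^ n) σ :=
    fun σ => LinearMap.ext fun _ => rfl
  have hm : ∀ m : Jp N (p ^ n), p ^ n • (m : JZero N) = 0 :=
    fun m => (mem_Jp_iff N (p ^ n) _).mp m.2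
  -- index set: the good primes
  let I : Type := {ℓ : ℕ // LimLevel.goodPrime N S ℓ}
  have hIp : ∀ i : I, i.1 ≠ p := fun i h => i.2.2.2 (h ▸ hpS)
  have hIdvd : ∀ i : I, ¬ i.1 ∣ N * p ^ n := fun i =>
    LevelGlue.not_dvd_mul_pow hp i.2.1 i.2.2.1 (hIp i) n
  let TM : I → (Jp N (p ^ n) →+ Jp N (p ^ n)) :=
    fun i => (heckeJp N (p ^ n) ⟨i.1, i.2.1⟩).toAddMonoidHom
  have hTM : ∀ (i : I) (m : Jp N (p ^ n)),
      ((TM i m : Jp N (p ^ n)) : JZero N) = heckeOperatorBar N ⟨i.1, i.2.1⟩ (m : JZero N) :=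
    fun _ _ => rfl
  obtain ⟨V, i1, i2, -, r, w, ι, hι, hιw, hιr, -, hfin, htriv, hquad⟩ :=
    ModOrbitR.exists_orbit_module act
      (fun m => by
        obtain ⟨L, hL, hfix⟩ := hFL (m : JZero N) (hm m)
        exact ⟨L, hL, fun σ hσ => Subtype.ext (hfix σ hσ)⟩)
      TM (fun i : I => χ (CuspForm.heckeAlgebra.T i.2.1 i.2.2.1 i.2.2.2))
      (fun i σ m => Subtype.ext (by
        rw [hact, hTM, hTM, hact]
        exact (hGH i.1 i.2.1 (hIdvd i) σ (m : JZero N) (hm m)).symm))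
      v
      (fun i => by
        have e : (TM i).toIntLinearMap = heckeJp N (p ^ n) ⟨i.1, i.2.1⟩ :=
          LinearMap.ext fun _ => rfl
        rw [e]
        exact hv i.1 i.2.1 i.2.2.1 i.2.2.2)
  -- `r σ` and the base change of `galJp σ` are intertwined by `ι`
  have htw : ∀ σ : GQ, Tw ι (r σ) (LinearMap.baseChange 𝒪 (galJp N (p ^ n) σ)) := by
    intro σ x
    rw [hιr σ x, hactL σ]
  refine ⟨{ V := V, r := r, w := w, tors := ?_, ann := ?_, level := hfin, frob := ?_,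
            inert := ?_ }, ?_⟩
  · intro x
    apply hι
    rw [map_smul, map_zero]
    have h := ModOrbitR.intCast_smul_eq_zero 𝒪 ((p : ℤ) ^ n) (fun m => Subtype.ext (by
      have h1 := hm m
      rw [Submodule.coe_smul, ZeroMemClass.coe_zero]
      rw [← h1]
      norm_cast)) (ι x)
    rw [← h]
    norm_cast
  · intro c hc
    apply hann c
    rw [← hιw, ← map_smul, hc, map_zero]
  · intro ℓ hℓg A hA σ hσ
    let i : I := ⟨ℓ, hℓg⟩
    have h := hquad σ i (ℓ : ℤ) (fun m => Subtype.ext (by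
      have h1 := hES ℓ hℓg.1 (hIdvd i) A hA σ hσ (m : JZero N) (hm m)
      rw [Submodule.coe_add, Submodule.coe_sub, Submodule.coe_smul, hact, hact, hTM, hact,
        natCast_zsmul]
      exact h1))
    rw [Int.cast_natCast] at h
    rw [LimLevel.heckeEig_eq N S χ hℓg.1 hℓg.2.1 hℓg.2.2]
    exact h
  · intro q hq P hP τ hτ
    refine htriv τ (fun m => Subtype.ext ?_)
    rw [hact]
    exact hIn q hq.1 (LevelGlue.not_dvd_mul_pow hp hq.1 hq.2.1 hq.2.2 n) P hP τ hτ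
      (m : JZero N) (hm m)
  · -- the Frobenius polynomial
    intro q hq A hA σ hσ
    show polyEnd (r σ) ((q : 𝒪) ^ 2) ea eb ((1 : 𝒪) • w) = 0
    apply hι
    rw [one_smul, map_zero, (htw σ).polyEnd ((q : 𝒪) ^ 2) ea eb w, hιw]
    have e : polyEnd (LinearMap.baseChange 𝒪 (galJp N (p ^ n) σ)) ((q : 𝒪) ^ 2) ea eb
        = (polyEnd (galJp N (p ^ n) σ) ((q : ℤ) ^ 2) ea eb).baseChange 𝒪 := by
      rw [baseChange_polyEnd]
      push_cast
      rfl
    rw [e]
    refine apply_eq_zero_of_mem_span ?_ (hspec q hq)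
    rintro _ ⟨k, hk, rfl⟩
    rw [LinearMap.baseChange_tmul, hk A hA σ hσ, TensorProduct.tmul_zero]

/-! ### The vector of the `U`-route -/

/-- **[UCond] + [E]-`U` at a level `N` with a special prime `q`**: for the graph-keeping `θ` of
torsion order `pⁿ`, a new class `c` has `θ c` killed by `(σ² − q²)² (σ² − 1)²`. -/
theorem frobPolyU_theta (hE : URoutePlan.FrobNewUStatement) {N p n : ℕ} [NeZero N]
    (hp : p.Prime) (θ : Lpar N →+ JZero N)
    (hθ4 : ∀ (u : Lpar N) (y : LaurentSeries Qb),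
      Fermat.Agent.S29.KPlan.Wit N (p ^ n) (u : Additive (Gamma0 N) →+ ℤ) y →
      ∀ f : ↥(modularFunctionFieldBar N), (f : LaurentSeries Qb) = y ^ (p ^ n) →
        ∃ D : Divisor.degZero (K := Qb) (F := ↥(modularFunctionFieldBar N)),
          (∀ P : Place Qb ↥(modularFunctionFieldBar N),
            ((p ^ n : ℕ) : ℤ) * (D : Divisor Qb ↥(modularFunctionFieldBar N)) P = P.ord f) ∧
          θ u = Pic0.mk D)
    {q : ℕ} (hq : DetQ.specPrime N p q) (c : Lpar N) (hc : NewPlan.IsNewAt N c)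
    (A : ValuationSubring Qb) (hA : A.LiesOverPrime q) (σ : GQ) (hσ : A.IsFrobeniusAt σ q) :
    URoutePlan.frobPolyU q σ (θ c) = 0 := by
  obtain ⟨hqp, hqne, hqN, hq2⟩ := hq
  obtain ⟨M, hM⟩ := hqN
  have hN : N = M * q := by rw [hM, mul_comm]
  subst hN
  have hqM : ¬ q ∣ M := by
    rintro ⟨k, rfl⟩
    exact hq2 ⟨k, by ring⟩
  have hM0 : M ≠ 0 := fun h0 => NeZero.ne (M * q) (by rw [h0, zero_mul])
  have : NeZero M := ⟨hM0⟩
  have : NeZero q := ⟨hqp.ne_zero⟩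
  have hpn : p ^ n ≠ 0 := pow_ne_zero n hp.ne_zero
  have hθ : Fermat.Agent.S29.KPlan.Theta (M * q) (p ^ n)
      (c : Additive (Gamma0 (M * q)) →+ ℤ) (θ c) := by
    obtain ⟨y, f, hy, hf, -⟩ := KGraph.exists_wit (M * q) (p ^ n) hpn c
    obtain ⟨D, hD, hθD⟩ := hθ4 c y hy f hf
    exact ⟨y, f, D, hy, hf, hD, hθD⟩
  exact URoutePlan.frobU_theta_eq_zero hE hqp hqM hp (Ne.symm hqne)
    (UCond.kUStatement M q (p ^ n) hqp hqM hpn) hθ hc A hA σ hσ

/-- **The vector of the level datum, `U`-route** (hypothesis form over [E]-`U`). -/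
theorem exists_vectorU (hE : URoutePlan.FrobNewUStatement) (N p : ℕ) [NeZero N] (hp : p.Prime)
    (S : Set ℕ) (hpS : p ∈ S)
    (g : CuspForm (Gamma0 N) 2) (hg : g.IsNewform)
    (chig : CuspForm.heckeAlgebra N 2 S →+* ℂ)
    (hchig : ∀ (ℓ : ℕ) (hℓ : ℓ.Prime) (hℓN : ¬ ℓ ∣ N) (hℓS : ℓ ∉ S),
      chig (CuspForm.heckeAlgebra.T hℓ hℓN hℓS) = ModularFormClass.qCoeff g ℓ)
    {𝒪 : Type} [CommRing 𝒪] [IsDomain 𝒪] [ValuationRing 𝒪] [CharZero 𝒪]
    (iota : chig.range →+* 𝒪) (n : ℕ) :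
    ∃ v : 𝒪 ⊗[ℤ] (Jp N (p ^ n)),
      (∀ a : 𝒪, a • v = 0 → (p : 𝒪) ^ n ∣ a) ∧
      (∀ (ℓ : ℕ) (hℓ : ℓ.Prime) (hℓN : ¬ ℓ ∣ N) (hℓS : ℓ ∉ S),
        (heckeJp N (p ^ n) ⟨ℓ, hℓ⟩).baseChange 𝒪 v
          = (iota.comp chig.rangeRestrict) (CuspForm.heckeAlgebra.T hℓ hℓN hℓS) • v) ∧
      ∀ q : ℕ, DetQ.specPrime N p q →
        v ∈ Submodule.span 𝒪 {z : 𝒪 ⊗[ℤ] (Jp N (p ^ n)) |
          ∃ k : Jp N (p ^ n), KilledPow N (p ^ n) q 2 2 k ∧ z = 1 ⊗ₜ[ℤ] k} := by
  classical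
  have hfin : Module.Finite ℤ (Lpar N) := Fermat.Agent.S41.LparFree.lpar_finite N
  have hfree : Module.Free ℤ (Lpar N) := Fermat.Agent.S41.LparFree.lpar_free N
  set b := Module.finBasis ℤ (Lpar N) with hb
  obtain ⟨x, hx1, hx, hxnew⟩ := NewVecClosed.newVecStatement N g hg S chig hchig 𝒪 iota b
  have hpn : p ^ n ≠ 0 := pow_ne_zero n hp.ne_zero
  obtain ⟨θ, hθ1, hθ2, hθ3, hθ4⟩ := KGraph.kGraphStatement N (p ^ n) hpn
  -- corestriction of `θ` to the `pⁿ`-torsion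
  let θ' : Lpar N →+ Jp N (p ^ n) :=
    { toFun := fun u => ⟨θ u, (mem_Jp_iff N (p ^ n) (θ u)).mpr (hθ1 u)⟩
      map_zero' := Subtype.ext (map_zero θ)
      map_add' := fun u v => Subtype.ext (map_add θ u v) }
  have hker : ∀ u, θ'.toIntLinearMap u = 0 → ∃ z, u = ((p ^ n : ℕ) : ℤ) • z := by
    intro u hu
    apply hθ2 u
    have h : ((θ' u : Jp N (p ^ n)) : JZero N) = 0 := congrArg Subtype.val hu
    exact h
  have hheck : ∀ (ℓ : ℕ) (hℓ : ℓ.Prime) (hℓN : ¬ ℓ ∣ N), ℓ ≠ p → ∀ u,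
      heckeJp N (p ^ n) ⟨ℓ, hℓ⟩ (θ' u) = θ' (heckeLpar N ℓ hℓ hℓN u) := by
    intro ℓ hℓ hℓN hℓp u
    apply Subtype.ext
    change heckeOperatorBar N ⟨ℓ, hℓ⟩ (θ u) = θ (heckeLpar N ℓ hℓ hℓN u)
    refine (hθ3 ℓ hℓ hℓN ?_ u).symm
    intro hℓpn
    rcases Nat.eq_zero_or_pos n with hn | hn
    · rw [hn, pow_zero] at hℓpn
      exact hℓ.one_lt.ne' hℓpn
    · have hdvd : p ∣ ℓ := hℓpn ▸ dvd_pow_self p hn.ne'
      exact hℓp ((Nat.prime_dvd_prime_iff_eq hp hℓ).mp hdvd).symm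
  have hvsum : (∑ i, x i ⊗ₜ[ℤ] θ' (b i) : 𝒪 ⊗[ℤ] (Jp N (p ^ n)))
      = θ'.toIntLinearMap.baseChange 𝒪 (∑ i, x i ⊗ₜ[ℤ] b i) := by
    rw [map_sum]
    refine Finset.sum_congr rfl fun i _ => ?_
    rw [LinearMap.baseChange_tmul]
    rfl
  refine ⟨∑ i, x i ⊗ₜ[ℤ] θ' (b i), ?_, ?_, ?_⟩
  · intro a ha
    have h := EigLevel.dvd_of_smul_sum_tmul_eq_zero b θ'.toIntLinearMap (p ^ n) hker x hx1 a ha
    rwa [Nat.cast_pow] at h
  · intro ℓ hℓ hℓN hℓS
    have hℓp : ℓ ≠ p := fun h => hℓS (h ▸ hpS)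
    rw [map_sum]
    simp_rw [LinearMap.baseChange_tmul, hheck ℓ hℓ hℓN hℓp]
    exact EigLevel.sum_tmul_map_eq_smul b (heckeLpar N ℓ hℓ hℓN)
      θ'.toIntLinearMap x _ (fun k => hx ℓ hℓ hℓN hℓS k)
  · intro q hq
    rw [hvsum]
    have hmap := Submodule.apply_mem_span_image_of_mem_span
      (θ'.toIntLinearMap.baseChange 𝒪) hxnew
    refine Submodule.span_mono ?_ hmap
    rintro _ ⟨z, ⟨c, hc, rfl⟩, rfl⟩
    refine ⟨θ' c, ?_, ?_⟩
    · exact killedPow_of_frobPolyU N (p ^ n) q (θ' c) (fun A hA σ hσ =>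
        frobPolyU_theta hE hp θ hθ4 hq c hc A hA σ hσ)
    · rw [LinearMap.baseChange_tmul]
      rfl

/-! ### The top of the `U`-route -/

/-- **[LevelQ-U]**: `DetQ2.LevelQPowStatement … 2 2` from [E]-`U`. -/
theorem levelQPowStatement_of_U (hE : URoutePlan.FrobNewUStatement)
    {M : ℕ} [NeZero M] {g : CuspForm (Gamma0 M) 2} (hg : g.IsNewform)
    (lam : ℕ) [Fact lam.Prime] (S : Finset ℕ)
    (O' : Type) [CommRing O'] [IsDomain O'] [IsDiscreteValuationRing O'] [CharZero O']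
    (chig : CuspForm.heckeAlgebra M 2 (↑S : Set ℕ) →+* ℂ)
    (hchig : ∀ (ℓ : ℕ) (hℓ : ℓ.Prime) (hℓM : ¬ ℓ ∣ M) (hℓS : ℓ ∉ (↑S : Set ℕ)),
      chig (CuspForm.heckeAlgebra.T hℓ hℓM hℓS) = ModularFormClass.qCoeff g ℓ)
    (iota : chig.range →+* O') (hlamS : lam ∈ S) :
    DetQ2.LevelQPowStatement lam M S O' (iota.comp chig.rangeRestrict) 2 2 := by
  have hlam : lam.Prime := Fact.out
  refine ⟨fun _ => 1, fun _ _ => one_ne_zero, fun n => ?_⟩
  obtain ⟨v, hann, hv, hspan⟩ := exists_vectorU hE M lam hlam (↑S : Set ℕ)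
    (Finset.mem_coe.mpr hlamS) g hg chig hchig iota n
  exact exists_levelPow_of_vector M lam hlam (↑S : Set ℕ) (Finset.mem_coe.mpr hlamS)
    (iota.comp chig.rangeRestrict) n v hann hv (DetQ.specPrime M lam) 2 2 hspan

/-- **S35 through the `U`-route**: the frozen conclusion of S35 from [E]-`U`
(`URoutePlan.FrobNewUStatement`). -/
theorem result_of_U (hE : URoutePlan.FrobNewUStatement)
    {M : ℕ} [NeZero M] {g : CuspForm (Gamma0 M) 2} (hg : g.IsNewform)
    (lam : ℕ) [Fact lam.Prime] (S : Finset ℕ)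
    (O' : Type) [CommRing O'] [IsDomain O'] [IsDiscreteValuationRing O']
    [IsAdicComplete (IsLocalRing.maximalIdeal O') O'] [Finite (IsLocalRing.ResidueField O')]
    [CharZero O'] (hlamO' : (lam : O') ∈ IsLocalRing.maximalIdeal O')
    (chig : CuspForm.heckeAlgebra M 2 (↑S : Set ℕ) →+* ℂ)
    (hchig : ∀ (ℓ : ℕ) (hℓ : ℓ.Prime) (hℓM : ¬ ℓ ∣ M) (hℓS : ℓ ∉ (↑S : Set ℕ)),
      chig (CuspForm.heckeAlgebra.T hℓ hℓM hℓS) = ModularFormClass.qCoeff g ℓ)
    (iota : chig.range →+* O')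
    (hlamS : lam ∈ S) (hMS : ∀ q : ℕ, q.Prime → q ∣ M → q ∈ S) :
    ∃ (O'' : Type) (_ : CommRing O'') (_ : IsDomain O'') (_ : IsDiscreteValuationRing O'')
      (_ : IsAdicComplete (IsLocalRing.maximalIdeal O'') O'')
      (_ : Finite (IsLocalRing.ResidueField O'')) (_ : CharZero O'')
      (_ : Algebra O' O'') (_ : Module.Finite O' O'') (_ : IsLocalHom (algebraMap O' O'')),
      Function.Injective (algebraMap O' O'') ∧
      ∃ ρ : GaloisRepAdic O'',
        (∀ (ℓ : ℕ) (hℓ : ℓ.Prime) (hℓM : ¬ ℓ ∣ M) (hℓS : ℓ ∉ (↑S : Set ℕ)),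
          ∀ A : ValuationSubring (AlgebraicClosure ℚ), A.LiesOverPrime ℓ →
            ∀ σ : AlgebraicClosure ℚ ≃ₐ[ℚ] AlgebraicClosure ℚ, A.IsFrobeniusAt σ ℓ →
              LinearMap.charpoly (ρ.ρ σ) =
                X ^ 2 - C (algebraMap O' O'' ((iota.comp chig.rangeRestrict)
                  (CuspForm.heckeAlgebra.T hℓ hℓM hℓS))) * X + C ((ℓ : O''))) ∧
        (∀ q : ℕ, q.Prime → q ≠ lam → q ∣ M → ¬ q ^ 2 ∣ M →
          ∀ A : ValuationSubring (AlgebraicClosure ℚ), A.LiesOverPrime q →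
            ∀ σ : AlgebraicClosure ℚ ≃ₐ[ℚ] AlgebraicClosure ℚ, A.IsFrobeniusAt σ q →
              LinearMap.charpoly (ρ.ρ σ) = X ^ 2 - C ((q : O'') + 1) * X + C ((q : O'')) ∨
              LinearMap.charpoly (ρ.ρ σ) = X ^ 2 + C ((q : O'') + 1) * X + C ((q : O''))) :=
  DetQ2.result_of_levelQPow Fermat.Agent.S30.OddRepB.oddRepStatement
    Fermat.Agent.S29.FD.fdStatement lam S O' hlamO' (iota.comp chig.rangeRestrict) hlamS hMS
    2 2 (by norm_num)
    (levelQPowStatement_of_U hE hg lam S O' chig hchig iota hlamS)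

end Fermat.Agent.S35.LevelQUB
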