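/-
S35 — LocF0B.lean (helper87): the leaf **[LocF0]** of the abstract block [E] of S35
(`S35/LocFPlan.lean`), proved from the leaves `[YG]` and `[LocG]`.

Vocabulary of `S34/LocPlan.lean` and `S35/LocFPlan.lean`: `O` a discrete valuation ring with
uniformizer `π`, `R` a chart with fraction field `E`, `V 0`, `V 1` the component valuation rings,
`P i = R ∩ π (V i)`, `Sg` an automorphism of `E` with `FrobHyp`, `G = gFun Sg f H m`,
`w = wFun Sg Q G = Sg G / G ^ Q`.

At a closed point `n` of the special fibre let `n' = Sg⁻¹ n` (`= n` at a crossing point, by the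
field `node` of `LocFHyp`).  `[YG]` + `[LocG]` at `n` and at `n'` give normal forms
`G = g₀ ^ m u₀` (`u₀ ∈ 1 + π R_n`) and `G = g₀' ^ m u₀'` (`u₀' ∈ 1 + π R_{n'}`); then
`a = g₀ ^ Q / Sg g₀'` satisfies `w a ^ m = Sg u₀' / u₀ ^ Q ∈ 1 + π R_n`, and `a ≡ 1` modulo
`π (V i)` on the branches through `n` (`g₀ ≡ γ ≡ g₀'` for a constant `γ` with `γ ^ m ≡ 1`, and
`Sg γ ≡ γ ^ Q` by `FrobHyp.const`).

* `OneAt p n x`       : `x ∈ 1 + p R_n`; closed under products, inverses, powers, and transported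
                        by `Sg` from `n'` to `n`;
* `Cg W ϖ x y`        : `x ≡ y` modulo `ϖ W`;
* `cong_a`            : `g ^ Q / Sg g' ≡ 1` if `g ≡ γ ≡ g'`;
* `locF0_core`        : the statement for given normal forms at `n` and `n'`;
* `locF0_of_leaves`   : `YGStatement → LocGStatement → LocF0Statement`.
-/
import Mathlib
import Fermat.Agent.S34.LocPlan
import Fermat.Agent.S35.LocFPlan
import Fermat.Agent.S35.SmoothFixB

set_option autoImplicit false
set_option linter.unusedSectionVars false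

namespace Fermat.Agent.S35.LocF0B

open Fermat.Agent.S34.LocPlan Fermat.Agent.S35.LocFPlan

/-! ### `1 + p R_n` -/

section OneAt

variable {R : Type*} [CommRing R] [IsDomain R] {E : Type*} [Field E] [Algebra R E]
  [IsFractionRing R E]

/-- `x ∈ 1 + p R_n`. -/
def OneAt (p : R) (n : Ideal R) (x : E) : Prop :=
  ∃ s : R, s ∉ n ∧ ∃ r : R, algebraMap R E s * (x - 1) = algebraMap R E p * algebraMap R E r

variable {p : R} {n : Ideal R} {x y : E}

theorem OneAt.one (hn : n.IsPrime) : OneAt p n (1 : E) :=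
  ⟨1, fun h => hn.ne_top ((Ideal.eq_top_iff_one n).mpr h), 0, by simp⟩

theorem OneAt.ne_zero (hp : p ∈ n) (hx : OneAt p n x) : x ≠ 0 := by
  rintro rfl
  obtain ⟨s, hs, r, h⟩ := hx
  apply hs
  have h' : s = -(p * r) := by
    apply IsFractionRing.injective R E
    rw [map_neg, map_mul]
    linear_combination -h
  rw [h']
  exact n.neg_mem (n.mul_mem_right r hp)

theorem OneAt.mul (hn : n.IsPrime) (hx : OneAt p n x) (hy : OneAt p n y) :
    OneAt p n (x * y) := by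
  obtain ⟨s, hs, r, h⟩ := hx
  obtain ⟨t, ht, r', h'⟩ := hy
  refine ⟨s * t, fun hst => (hn.mem_or_mem hst).elim hs ht, p * r * r' + r * t + s * r', ?_⟩
  simp only [map_mul, map_add]
  linear_combination (algebraMap R E t * (y - 1) + algebraMap R E t) * h +
    (algebraMap R E s + algebraMap R E p * algebraMap R E r) * h'

theorem OneAt.inv (hp : p ∈ n) (hx : OneAt p n x) : OneAt p n x⁻¹ := by
  have hx0 := hx.ne_zero hp
  obtain ⟨s, hs, r, h⟩ := hx
  refine ⟨s + p * r, fun h' => hs ?_, -r, ?_⟩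
  · have h2 := n.sub_mem h' (n.mul_mem_right r hp)
    rwa [add_sub_cancel_right] at h2
  · have h3 : algebraMap R E s + algebraMap R E p * algebraMap R E r = algebraMap R E s * x := by
      linear_combination -h
    rw [map_add, map_mul, map_neg, h3]
    field_simp
    linear_combination -h

theorem OneAt.div (hn : n.IsPrime) (hp : p ∈ n) (hx : OneAt p n x) (hy : OneAt p n y) :
    OneAt p n (x / y) := by
  rw [div_eq_mul_inv]
  exact hx.mul hn (hy.inv hp)

theorem OneAt.pow (hn : n.IsPrime) (hx : OneAt p n x) (k : ℕ) : OneAt p n (x ^ k) := by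
  induction k with
  | zero => rw [pow_zero]; exact OneAt.one hn
  | succ k ih => rw [pow_succ]; exact ih.mul hn hx

/-- Transport along `Sg` from `n' = Sg⁻¹ n` to `n`. -/
theorem OneAt.map {Sg : E ≃+* E} {n' : Ideal R}
    (hR : ∀ r : R, ∃ r' : R, Sg (algebraMap R E r) = algebraMap R E r')
    (hpre : IsPre Sg n' n)
    (hSp : ∃ d : R, Sg (algebraMap R E p) = algebraMap R E p * algebraMap R E d)
    (hx : OneAt p n' x) : OneAt p n (Sg x) := by
  obtain ⟨s, hs, r, h⟩ := hx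
  obtain ⟨s', hs'⟩ := hR s
  obtain ⟨r', hr'⟩ := hR r
  obtain ⟨d, hd⟩ := hSp
  refine ⟨s', fun h' => hs ((hpre s s' hs').mpr h'), d * r', ?_⟩
  have h2 := congrArg Sg h
  rw [map_mul, map_sub, map_one, map_mul, hs', hr', hd] at h2
  rw [h2, map_mul]
  ring

/-- The restriction to `R` of a ring automorphism of `E` mapping `R` into `R`. -/
noncomputable def resF (Sg : E ≃+* E)
    (h : ∀ r : R, ∃ r' : R, Sg (algebraMap R E r) = algebraMap R E r') : R →+* R where
  toFun r := (h r).choose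
  map_one' := IsFractionRing.injective R E (by
    rw [← (h 1).choose_spec]; simp only [map_one])
  map_mul' x y := IsFractionRing.injective R E (by
    rw [← (h (x * y)).choose_spec]
    simp only [map_mul]
    rw [← (h x).choose_spec, ← (h y).choose_spec])
  map_zero' := IsFractionRing.injective R E (by
    rw [← (h 0).choose_spec]; simp only [map_zero])
  map_add' x y := IsFractionRing.injective R E (by
    rw [← (h (x + y)).choose_spec]
    simp only [map_add]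
    rw [← (h x).choose_spec, ← (h y).choose_spec])

theorem algebraMap_resF (Sg : E ≃+* E)
    (h : ∀ r : R, ∃ r' : R, Sg (algebraMap R E r) = algebraMap R E r') (r : R) :
    algebraMap R E (resF Sg h r) = Sg (algebraMap R E r) :=
  (h r).choose_spec.symm

theorem resF_surjective (Sg : E ≃+* E)
    (h : ∀ r : R, ∃ r' : R, Sg (algebraMap R E r) = algebraMap R E r')
    (h' : ∀ r : R, ∃ r' : R, Sg.symm (algebraMap R E r) = algebraMap R E r') :
    Function.Surjective (resF Sg h) := by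
  intro r'
  obtain ⟨r, hr⟩ := h' r'
  refine ⟨r, IsFractionRing.injective R E ?_⟩
  rw [algebraMap_resF, ← hr, RingEquiv.apply_symm_apply]

end OneAt

/-! ### Congruences modulo `ϖ W` -/

section Cg

variable {E : Type*} [Field E]

/-- `x ≡ y` modulo `ϖ W`. -/
def Cg (W : ValuationSubring E) (ϖ x y : E) : Prop := ∃ z ∈ W, x - y = ϖ * z

variable {W : ValuationSubring E} {ϖ x y z x' y' : E}

theorem Cg.symm (h : Cg W ϖ x y) : Cg W ϖ y x := by
  obtain ⟨t, ht, h⟩ := h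
  exact ⟨-t, neg_mem ht, by linear_combination -h⟩

theorem Cg.trans (h : Cg W ϖ x y) (h' : Cg W ϖ y z) : Cg W ϖ x z := by
  obtain ⟨t, ht, h⟩ := h
  obtain ⟨t', ht', h'⟩ := h'
  exact ⟨t + t', add_mem ht ht', by linear_combination h + h'⟩

theorem Cg.mem (hϖ : ϖ ∈ W) (h : Cg W ϖ x y) (hy : y ∈ W) : x ∈ W := by
  obtain ⟨t, ht, h⟩ := h
  have : x = y + ϖ * t := by linear_combination h
  rw [this]
  exact add_mem hy (mul_mem hϖ ht)

theorem Cg.mul (h : Cg W ϖ x y) (h' : Cg W ϖ x' y') (hx' : x' ∈ W) (hy : y ∈ W) :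
    Cg W ϖ (x * x') (y * y') := by
  obtain ⟨t, ht, h⟩ := h
  obtain ⟨t', ht', h'⟩ := h'
  exact ⟨t * x' + y * t', add_mem (mul_mem ht hx') (mul_mem hy ht'),
    by linear_combination x' * h + y * h'⟩

theorem Cg.pow (hϖ : ϖ ∈ W) (h : Cg W ϖ x y) (hy : y ∈ W) (k : ℕ) :
    Cg W ϖ (x ^ k) (y ^ k) := by
  induction k with
  | zero => exact ⟨0, zero_mem _, by simp⟩
  | succ k ih =>
    rw [pow_succ, pow_succ]
    exact ih.mul h (h.mem hϖ hy) (pow_mem hy k)

theorem Cg.map {Sg : E ≃+* E} (hV : ∀ t ∈ W, Sg t ∈ W) (hSϖ : ∃ u ∈ W, Sg ϖ = ϖ * u)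
    (h : Cg W ϖ x y) : Cg W ϖ (Sg x) (Sg y) := by
  obtain ⟨t, ht, h⟩ := h
  obtain ⟨u, hu, hu'⟩ := hSϖ
  refine ⟨u * Sg t, mul_mem hu (hV t ht), ?_⟩
  rw [← map_sub, h, map_mul, hu', mul_assoc]

theorem Cg.inv_mem (h1 : ∀ v ∈ W, (1 + ϖ * v)⁻¹ ∈ W) (h : Cg W ϖ x y) (hy0 : y ≠ 0)
    (hy' : y⁻¹ ∈ W) : x⁻¹ ∈ W := by
  obtain ⟨t, ht, h⟩ := h
  have hx : x = y * (1 + ϖ * (t * y⁻¹)) := by
    field_simp
    linear_combination h
  rw [hx, mul_inv]
  exact mul_mem hy' (h1 _ (mul_mem ht hy'))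

theorem Cg.div_one (h : Cg W ϖ x y) (hy0 : y ≠ 0) (hy' : y⁻¹ ∈ W) : Cg W ϖ (x / y) 1 := by
  obtain ⟨t, ht, h⟩ := h
  refine ⟨t * y⁻¹, mul_mem ht hy', ?_⟩
  field_simp
  linear_combination h

end Cg

/-! ### The chart -/

section Chart

variable {O : Type*} [CommRing O] {R : Type*} [CommRing R] [Algebra O R]
  {E : Type*} [Field E] [Algebra R E]
  {π : O} {V : Fin 2 → ValuationSubring E} {P : Fin 2 → Ideal R} {Sg : E ≃+* E} {Q : ℕ}

/-- `g ^ Q / Sg g' ≡ 1` modulo `π (V i)` if `g ≡ γ ≡ g'` for a constant `γ` with `γ ^ m ≡ 1`. -/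
theorem cong_a (C : ChartHyp π V P) (F : FrobHyp (R := R) π V Sg Q) (i : Fin 2) {m : ℕ}
    (hm : 0 < m) (γ : O) (hγ : ∃ c : O, γ ^ m - 1 = π * c) (g g' : E) (hg' : g' ≠ 0)
    (h : ∃ z ∈ V i, g - algebraMap R E (algebraMap O R γ) =
      algebraMap R E (algebraMap O R π) * z)
    (h' : ∃ z ∈ V i, g' - algebraMap R E (algebraMap O R γ) =
      algebraMap R E (algebraMap O R π) * z) :
    ∃ v ∈ V i, g ^ Q / Sg g' - 1 = algebraMap R E (algebraMap O R π) * v := by
  set ϖ : E := algebraMap R E (algebraMap O R π) with hϖ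
  set c₀ : E := algebraMap R E (algebraMap O R γ) with hc₀
  have hϖV : ϖ ∈ V i := C.le i _
  have hc₀V : c₀ ∈ V i := C.le i _
  have h1 : ∀ v ∈ V i, (1 + ϖ * v)⁻¹ ∈ V i := fun v hv => SmoothFixB.one_add_inv_mem C i hv
  obtain ⟨c, hc⟩ := hγ
  have hpow : c₀ ^ m = 1 + ϖ * algebraMap R E (algebraMap O R c) := by
    have h2 := congrArg (fun t => algebraMap R E (algebraMap O R t)) hc
    simp only [map_sub, map_pow, map_one, map_mul] at h2
    linear_combination h2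
  have hne1 : (1 : E) + ϖ * algebraMap R E (algebraMap O R c) ≠ 0 := by
    intro h0
    apply C.pi_not i
    have h3 : ϖ * (-algebraMap R E (algebraMap O R c)) = 1 := by linear_combination -h0
    rw [← hϖ, inv_eq_of_mul_eq_one_right h3]
    exact neg_mem (C.le i _)
  have hc₀0 : c₀ ≠ 0 := by
    intro h0
    apply hne1
    rw [← hpow, h0, zero_pow hm.ne']
  have hc₀inv : c₀⁻¹ ∈ V i := by
    obtain ⟨k, rfl⟩ : ∃ k, m = k + 1 := ⟨m - 1, by omega⟩
    have h4 : c₀⁻¹ = c₀ ^ k * (1 + ϖ * algebraMap R E (algebraMap O R c))⁻¹ := by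
      rw [← hpow, pow_succ, mul_inv, ← mul_assoc, mul_inv_cancel₀ (pow_ne_zero k hc₀0), one_mul]
    rw [h4]
    exact mul_mem (pow_mem hc₀V k) (h1 _ (C.le i _))
  have hA : Cg (V i) ϖ (g ^ Q) (c₀ ^ Q) := Cg.pow hϖV h hc₀V Q
  have hSϖ : ∃ u ∈ V i, Sg ϖ = ϖ * u := by
    obtain ⟨u, hu, -, hu'⟩ := F.pi i
    exact ⟨u, hu, hu'⟩
  have hB : Cg (V i) ϖ (Sg g') (c₀ ^ Q) :=
    (Cg.map (F.map_V i) hSϖ h').trans (F.const γ i)
  have hQ0 : c₀ ^ Q ≠ 0 := pow_ne_zero Q hc₀0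
  have hQinv : (c₀ ^ Q)⁻¹ ∈ V i := by
    rw [← inv_pow]
    exact pow_mem hc₀inv Q
  have hBinv : (Sg g')⁻¹ ∈ V i := Cg.inv_mem h1 hB hQ0 hQinv
  have hB0 : Sg g' ≠ 0 := Sg.map_ne_zero_iff.mpr hg'
  exact (hA.trans hB.symm).div_one hB0 hBinv

/-- `Sg π ∈ π R`. -/
theorem exists_map_pi (C : ChartHyp π V P) (F : FrobHyp (R := R) π V Sg Q) :
    ∃ d : R, Sg (algebraMap R E (algebraMap O R π)) =
      algebraMap R E (algebraMap O R π) * algebraMap R E d := by
  obtain ⟨r₀, hr₀⟩ := F.map_R (algebraMap O R π)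
  have hP : ∀ i, r₀ ∈ P i := by
    intro i
    obtain ⟨u, hu, -, h⟩ := F.pi i
    exact (C.mem_P i r₀).mpr ⟨u, hu, by rw [← hr₀, h]⟩
  obtain ⟨d, hd⟩ := C.red r₀ hP
  exact ⟨d, by rw [hr₀, hd, map_mul]⟩

/-- `Sg` maps `P i` into `P i`. -/
theorem map_mem_P (C : ChartHyp π V P) (F : FrobHyp (R := R) π V Sg Q) (i : Fin 2) {r r' : R}
    (h : Sg (algebraMap R E r) = algebraMap R E r') (hr : r ∈ P i) : r' ∈ P i := by
  obtain ⟨y, hy, hry⟩ := (C.mem_P i r).mp hr
  obtain ⟨u, hu, -, hu'⟩ := F.pi i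
  refine (C.mem_P i r').mpr ⟨u * Sg y, mul_mem hu (F.map_V i y hy), ?_⟩
  rw [← h, hry, map_mul, hu', mul_assoc]

/-- `Sg⁻¹` maps `P i` into `P i`. -/
theorem symm_mem_P (C : ChartHyp π V P) (F : FrobHyp (R := R) π V Sg Q) (i : Fin 2) {r r' : R}
    (h : Sg (algebraMap R E r) = algebraMap R E r') (hr' : r' ∈ P i) : r ∈ P i := by
  obtain ⟨y, hy, hry⟩ := (C.mem_P i r').mp hr'
  obtain ⟨u, hu, huinv, hu'⟩ := F.pi i
  have hϖ0 : algebraMap R E (algebraMap O R π) ≠ 0 := SmoothFixB.pi_ne_zero C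
  have hu0 : u ≠ 0 := by
    rintro rfl
    rw [mul_zero] at hu'
    exact hϖ0 (Sg.map_eq_zero_iff.mp hu')
  have hsymm : Sg.symm (algebraMap R E (algebraMap O R π)) =
      algebraMap R E (algebraMap O R π) * Sg.symm u⁻¹ := by
    apply Sg.injective
    rw [map_mul, RingEquiv.apply_symm_apply, RingEquiv.apply_symm_apply, hu', mul_assoc,
      mul_inv_cancel₀ hu0, mul_one]
  refine (C.mem_P i r).mpr ⟨Sg.symm u⁻¹ * Sg.symm y,
    mul_mem (F.symm_V i _ huinv) (F.symm_V i y hy), ?_⟩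
  have h5 : algebraMap R E r = Sg.symm (algebraMap R E r') := by
    rw [← h, RingEquiv.symm_apply_apply]
  rw [h5, hry, map_mul, hsymm, mul_assoc]

end Chart

/-! ### The statement for given normal forms -/

section Core

variable {O : Type*} [CommRing O] {R : Type*} [CommRing R] [IsDomain R] [Algebra O R]
  {E : Type*} [Field E] [Algebra R E] [IsFractionRing R E]
  {π : O} {V : Fin 2 → ValuationSubring E} {P : Fin 2 → Ideal R} {Sg : E ≃+* E} {Q : ℕ}

/-- `[LocF0]` for given normal forms `(g₀, γ)` of `G` at `n` and `(g₀', γ')` at `n' = Sg⁻¹ n`,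
with `γ' = γ` if `P 1 ≤ n`. -/
theorem locF0_core (C : ChartHyp π V P) (F : FrobHyp (R := R) π V Sg Q) {n n' : Ideal R}
    (hn : n.IsPrime) (hπn : algebraMap O R π ∈ n) (hpre : IsPre Sg n' n)
    (hP : ∀ i : Fin 2, P i ≤ n → P i ≤ n') {m : ℕ} (hm : 0 < m) (G g₀ g₀' : E) (γ γ' : O)
    (hγγ' : P 1 ≤ n → γ' = γ) (hg₀' : g₀' ≠ 0) (hγ : ∃ c : O, γ ^ m - 1 = π * c)
    (h0 : P 0 ≤ n → ∃ z ∈ V 0, g₀ - 1 = algebraMap R E (algebraMap O R π) * z)
    (h1 : P 1 ≤ n → ∃ z ∈ V 1,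
      g₀ - algebraMap R E (algebraMap O R γ) = algebraMap R E (algebraMap O R π) * z)
    (hone : ∃ s : R, s ∉ n ∧ ∃ r : R, algebraMap R E s * (G / g₀ ^ m - 1) =
      algebraMap R E (algebraMap O R π) * algebraMap R E r)
    (h0' : P 0 ≤ n' → ∃ z ∈ V 0, g₀' - 1 = algebraMap R E (algebraMap O R π) * z)
    (h1' : P 1 ≤ n' → ∃ z ∈ V 1,
      g₀' - algebraMap R E (algebraMap O R γ') = algebraMap R E (algebraMap O R π) * z)
    (hone' : ∃ s : R, s ∉ n' ∧ ∃ r : R, algebraMap R E s * (G / g₀' ^ m - 1) =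
      algebraMap R E (algebraMap O R π) * algebraMap R E r) :
    ∃ a : E, (∀ i : Fin 2, P i ≤ n → ∃ v ∈ V i, a - 1 = algebraMap R E (algebraMap O R π) * v) ∧
      ∃ s : R, s ∉ n ∧ ∃ r : R,
        algebraMap R E s * (wFun Sg Q G * a ^ m - 1) =
          algebraMap R E (algebraMap O R π) * algebraMap R E r := by
  refine ⟨g₀ ^ Q / Sg g₀', ?_, ?_⟩
  · rw [Fin.forall_fin_two]
    constructor
    · intro hi
      have e1 : algebraMap R E (algebraMap O R (1 : O)) = 1 := by rw [map_one, map_one]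
      refine cong_a C F 0 hm (1 : O) ⟨0, by rw [one_pow, sub_self, mul_zero]⟩ g₀ g₀' hg₀' ?_ ?_
      · rw [e1]; exact h0 hi
      · rw [e1]; exact h0' (hP 0 hi)
    · intro hi
      have h1'' := h1' (hP 1 hi)
      rw [hγγ' hi] at h1''
      exact cong_a C F 1 hm γ hγ g₀ g₀' hg₀' (h1 hi) h1''
  · have hone1 : OneAt (algebraMap O R π) n (G / g₀ ^ m) := hone
    have hone2 : OneAt (algebraMap O R π) n' (G / g₀' ^ m) := hone'
    have t1 : OneAt (algebraMap O R π) n (Sg (G / g₀' ^ m)) :=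
      hone2.map F.map_R hpre (exists_map_pi C F)
    have t2 : OneAt (algebraMap O R π) n (Sg (G / g₀' ^ m) / (G / g₀ ^ m) ^ Q) :=
      t1.div hn hπn (hone1.pow hn Q)
    have e : Sg (G / g₀' ^ m) / (G / g₀ ^ m) ^ Q = wFun Sg Q G * (g₀ ^ Q / Sg g₀') ^ m := by
      unfold wFun
      rw [map_div₀, map_pow, div_pow, div_pow, div_div_div_eq, div_mul_div_comm,
        pow_right_comm g₀ m Q, mul_comm (G ^ Q)]
    rw [e] at t2
    exact t2

end Core

/-! ### The leaf -/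

/-- **[LocF0]** from `[YG]` and `[LocG]`. -/
theorem locF0_of_leaves (hYG : YGStatement) (hLocG : LocGStatement) : LocF0Statement := by
  intro O _ _ _ R _ _ _ _ _ E _ _ _ π V P Sg Q f H m n hπ hn hπn hm L
  have hinj : Function.Injective (algebraMap R E) := IsFractionRing.injective R E
  -- the normal form of `G` at every closed point of the special fibre
  have hNF : ∀ n₁ : Ideal R, n₁.IsMaximal → algebraMap O R π ∈ n₁ →
      ∃ (g₀ : E) (γ : O), g₀ ≠ 0 ∧ (∃ c : O, γ ^ m - 1 = π * c) ∧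
        (¬ (P 0 ≤ n₁ ∧ P 1 ≤ n₁) → γ = 1) ∧
        (P 0 ≤ n₁ → ∃ z ∈ V 0, g₀ - 1 = algebraMap R E (algebraMap O R π) * z) ∧
        (P 1 ≤ n₁ → ∃ z ∈ V 1,
          g₀ - algebraMap R E (algebraMap O R γ) = algebraMap R E (algebraMap O R π) * z) ∧
        ∃ s : R, s ∉ n₁ ∧ ∃ r : R,
          algebraMap R E s * (gFun Sg f H m / g₀ ^ m - 1) =
            algebraMap R E (algebraMap O R π) * algebraMap R E r := by
    intro n₁ hn₁ hπn₁
    obtain ⟨g, u, hG, hu⟩ := hYG O R E π V P Sg Q f H m n₁ hπ hn₁ hπn₁ hm L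
    exact hLocG O R E π V P m n₁ (gFun Sg f H m) g u hπ hn₁ hπn₁ hm L.chart
      (L.branch n₁ hn₁ hπn₁) (L.trans n₁ hn₁ hπn₁) (L.root n₁ hn₁ hπn₁) hG hu
      (fun i _ => L.cong i)
  obtain ⟨g₀, γ, hg₀, hγ, hγ1, h0, h1, hone⟩ := hNF n hn hπn
  by_cases hnode : P 0 ≤ n ∧ P 1 ≤ n
  · -- crossing point: `n` is `Sg`-stable
    exact locF0_core L.chart L.frob hn.isPrime hπn (L.node n hn hπn hnode.1 hnode.2)
      (fun i hi => hi) hm _ g₀ g₀ γ γ (fun _ => rfl) hg₀ hγ h0 h1 hone h0 h1 hone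
  · -- one-branch point: `n' = Sg⁻¹ n` is again a one-branch point
    set ρ : R →+* R := resF Sg L.frob.map_R with hρ
    have hρS : ∀ r : R, Sg (algebraMap R E r) = algebraMap R E (ρ r) :=
      fun r => (algebraMap_resF Sg L.frob.map_R r).symm
    have hsurj : Function.Surjective ρ := resF_surjective Sg L.frob.map_R L.frob.symm_R
    have hn' : (Ideal.comap ρ n).IsMaximal := Ideal.comap_isMaximal_of_surjective ρ hsurj
    have hpre : IsPre Sg (Ideal.comap ρ n) n := by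
      intro r r' h
      have h6 : ρ r = r' := hinj (by rw [← hρS, h])
      rw [Ideal.mem_comap, h6]
    have hπn' : algebraMap O R π ∈ Ideal.comap ρ n := by
      obtain ⟨d, hd⟩ := exists_map_pi L.chart L.frob
      have h7 : ρ (algebraMap O R π) = algebraMap O R π * d := hinj (by rw [← hρS, hd, map_mul])
      rw [Ideal.mem_comap, h7]
      exact n.mul_mem_right d hπn
    have hPle : ∀ i : Fin 2, P i ≤ n → P i ≤ Ideal.comap ρ n := by
      intro i hi r hr
      rw [Ideal.mem_comap]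
      exact hi (map_mem_P L.chart L.frob i (hρS r) hr)
    have hPge : ∀ i : Fin 2, P i ≤ Ideal.comap ρ n → P i ≤ n := by
      intro i hi r' hr'
      obtain ⟨r, rfl⟩ := hsurj r'
      exact hi (symm_mem_P L.chart L.frob i (hρS r) hr')
    obtain ⟨g₀', γ', hg₀', -, hγ1', h0', h1', hone'⟩ := hNF (Ideal.comap ρ n) hn' hπn'
    have hnode' : ¬ (P 0 ≤ Ideal.comap ρ n ∧ P 1 ≤ Ideal.comap ρ n) :=
      fun h => hnode ⟨hPge 0 h.1, hPge 1 h.2⟩
    exact locF0_core L.chart L.frob hn.isPrime hπn hpre hPle hm _ g₀ g₀' γ γ'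
      (fun _ => by rw [hγ1 hnode, hγ1' hnode']) hg₀' hγ h0 h1 hone h0' h1' hone'

end Fermat.Agent.S35.LocF0B
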