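/-
S35 abstract block — engine for the local input `[LocF]` of the Čech step (helper46).

Vocabulary of `S34/LocPlan.lean` (`ChartHyp`, `PrincAt`, `UnitAt`, `RegAt`, `Cut`) and the
valuation-unit calculus `VU` of `S34/LocAB.lean`.
-/
import Mathlib
import Fermat.Agent.S34.LocPlan
import Fermat.Agent.S34.LocAB
import Fermat.Agent.S34.HorProd

set_option autoImplicit false
set_option linter.unusedSectionVars false

namespace Fermat.Agent.S35.LocFEngine

open Fermat.Agent.S34 Fermat.Agent.S34.LocPlan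

/-! ### A power of an element of a prime is not a unit there -/

section ZPow

variable {R : Type*} [CommRing R] [IsDomain R] {E : Type*} [Field E] [Algebra R E]
  [IsFractionRing R E]

/-- If `t ∈ n` and `t ^ j = x / y` with `x, y ∉ n`, then `j = 0`. -/
theorem zpow_eq_zero_of_unit {n : Ideal R} {t x y : R} (ht : t ∈ n)
    (hx : x ∉ n) (hy : y ∉ n) {j : ℤ}
    (h : algebraMap R E t ^ j * algebraMap R E y = algebraMap R E x) : j = 0 := by
  have hinj : Function.Injective (algebraMap R E) := IsFractionRing.injective R E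
  by_contra hj
  rcases lt_or_gt_of_ne hj with hneg | hpos
  · obtain ⟨l, hl⟩ := Int.eq_ofNat_of_zero_le (show 0 ≤ -j - 1 by omega)
    have hj' : j = -((l + 1 : ℕ) : ℤ) := by push_cast; omega
    rw [hj', zpow_neg, zpow_natCast] at h
    by_cases ht0 : algebraMap R E t = 0
    · rw [ht0, zero_pow (Nat.succ_ne_zero l), inv_zero, zero_mul] at h
      have : x = 0 := hinj (by rw [← h, map_zero])
      exact hx (this ▸ n.zero_mem)
    · have h' : algebraMap R E y = algebraMap R E (x * t ^ (l + 1)) := by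
        rw [map_mul, map_pow, ← h]
        field_simp
      have : y = x * t ^ (l + 1) := hinj h'
      exact hy (this ▸ n.mul_mem_left _ (n.pow_mem_of_mem ht _ (Nat.succ_pos l)))
  · obtain ⟨l, hl⟩ := Int.eq_ofNat_of_zero_le (show 0 ≤ j - 1 by omega)
    have hj' : j = ((l + 1 : ℕ) : ℤ) := by push_cast; omega
    rw [hj', zpow_natCast, ← map_pow, ← map_mul] at h
    have : t ^ (l + 1) * y = x := hinj h
    exact hx (this ▸ n.mul_mem_right _ (n.pow_mem_of_mem ht _ (Nat.succ_pos l)))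

/-- A field identity used in `branchUnit`. -/
theorem aux_pow {F : Type*} [Field F] {A B T Su Au S' A' : F} {k : ℤ} {m : ℕ} (hB : B ≠ 0)
    (e1 : A ^ m * Au = B ^ m * Su) (hX : A / B * T ^ k * S' = A') :
    T ^ (k * (m : ℤ)) * (Su * S' ^ m) = A' ^ m * Au := by
  have e2 : (A / B) ^ m * Au = Su := by
    rw [div_pow, div_mul_eq_mul_div, div_eq_iff (pow_ne_zero m hB), e1]
    ring
  rw [← hX, zpow_mul, zpow_natCast, mul_pow, mul_pow]
  linear_combination (-(T ^ k) ^ m * S' ^ m) * e2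

end ZPow

section Chart

variable {O : Type} [CommRing O] {R : Type} [CommRing R] [IsDomain R] [Algebra O R]
  {E : Type} [Field E] [Algebra R E] [IsFractionRing R E]
  {π : O} {V : Fin 2 → ValuationSubring E} {P : Fin 2 → Ideal R}

/-- **[BranchUnit]**.  Let `n` be a closed point on the branch `P i`, regular on that branch
(`n / P i` locally principal and nonzero).  If `g` is a unit of `V i` and `g ^ m * u ≡ 1` modulo
`ϖ (V i)` for a unit `u` of `R_n`, then `g` is congruent modulo `ϖ (V i)` to a unit of `R_n`. -/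
theorem branchUnit (hPO : PrincOrdStatement) [IsNoetherianRing R] (H : ChartHyp π V P) (i : Fin 2)
    (hPi : PrincAt (P i)) {n : Ideal R} (hn : n.IsPrime) (hPn : P i ≤ n)
    (hne : ∃ x ∈ n, x ∉ P i)
    (hgen : ∃ u ∈ n, ∀ x ∈ n, ∃ s : R, s ∉ n ∧ ∃ c : R, s * x - c * u ∈ P i)
    {m : ℕ} (hm : m ≠ 0) {g u : E} (hg : LocAB.VU (V i) g) (hu : UnitAt n u)
    (h : ∃ z ∈ V i, g ^ m * u - 1 = algebraMap R E (algebraMap O R π) * z) :
    ∃ a s : R, a ∉ n ∧ s ∉ n ∧ ∃ z ∈ V i,
      g * algebraMap R E s - algebraMap R E a = algebraMap R E (algebraMap O R π) * z := by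
  classical
  have hPp : (P i).IsPrime := LocAB.P_isPrime H i
  obtain ⟨hPne, t, ht, htgen⟩ := hPi
  have hordP : ∀ x : E, x ≠ 0 → ∃ k : ℤ, UnitAt (P i) (x * algebraMap R E t ^ k) :=
    fun x hx => hPO R E (P i) t hPp hPne ht htgen x hx
  -- `g = a / b` with `a, b ∉ P i`
  obtain ⟨a, b, ha, hb, hgab⟩ := LocAB.unitAt_of_vu H i ht hordP hg
  obtain ⟨au, su, hau, hsu, huas⟩ := hu
  have hauP : au ∉ P i := fun hh => hau (hPn hh)
  have hsuP : su ∉ P i := fun hh => hsu (hPn hh)
  obtain ⟨z, hz, hgz⟩ := h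
  -- the relation `a ^ m * au ≡ b ^ m * su` modulo `P i`
  have hrel : a ^ m * au - b ^ m * su ∈ P i := by
    rw [H.mem_P]
    refine ⟨z * algebraMap R E b ^ m * algebraMap R E su,
      mul_mem (mul_mem hz (pow_mem (H.le i b) m)) (H.le i su), ?_⟩
    rw [map_sub, map_mul, map_mul, map_pow, map_pow, ← hgab, ← huas]
    linear_combination (algebraMap R E b ^ m * algebraMap R E su) * hgz
  -- pass to the domain `R / P i`
  let mk : R →+* R ⧸ P i := Ideal.Quotient.mk (P i)
  have hmk : ∀ x : R, mk x = 0 ↔ x ∈ P i := fun x => Ideal.Quotient.eq_zero_iff_mem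
  have hinj' : Function.Injective (algebraMap (R ⧸ P i) (FractionRing (R ⧸ P i))) :=
    IsFractionRing.injective _ _
  have hmem : ∀ x : R, mk x ∈ n.map mk ↔ x ∈ n := fun x => Ideal.mem_quotient_iff_mem hPn
  have hn' : (n.map mk).IsPrime :=
    Ideal.map_isPrime_of_surjective Ideal.Quotient.mk_surjective (by rw [Ideal.mk_ker]; exact hPn)
  obtain ⟨x₀, hx₀n, hx₀P⟩ := hne
  obtain ⟨u₀, hu₀, hu₀gen⟩ := hgen
  have hne' : n.map mk ≠ ⊥ := by
    intro hbot
    have h1 : mk x₀ ∈ n.map mk := (hmem x₀).2 hx₀n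
    rw [hbot, Ideal.mem_bot] at h1
    exact hx₀P ((hmk x₀).1 h1)
  have hgen' : ∀ y ∈ n.map mk, ∃ s : R ⧸ P i, s ∉ n.map mk ∧ ∃ c : R ⧸ P i,
      s * y = c * mk u₀ := by
    intro y hy
    obtain ⟨y, rfl⟩ := Ideal.Quotient.mk_surjective y
    obtain ⟨s, hs, c, hsc⟩ := hu₀gen y ((hmem y).1 hy)
    refine ⟨mk s, fun hh => hs ((hmem s).1 hh), mk c, ?_⟩
    rw [← map_mul, ← map_mul, ← sub_eq_zero, ← map_sub]
    exact (hmk _).2 hsc
  -- the class of `g` in the fraction field of `R / P i`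
  have ha' : algebraMap (R ⧸ P i) (FractionRing (R ⧸ P i)) (mk a) ≠ 0 := fun hh =>
    ha ((hmk a).1 (hinj' (by rw [hh, map_zero])))
  have hb' : algebraMap (R ⧸ P i) (FractionRing (R ⧸ P i)) (mk b) ≠ 0 := fun hh =>
    hb ((hmk b).1 (hinj' (by rw [hh, map_zero])))
  have hau' : algebraMap (R ⧸ P i) (FractionRing (R ⧸ P i)) (mk au) ≠ 0 := fun hh =>
    hauP ((hmk au).1 (hinj' (by rw [hh, map_zero])))
  have hsu' : algebraMap (R ⧸ P i) (FractionRing (R ⧸ P i)) (mk su) ≠ 0 := fun hh =>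
    hsuP ((hmk su).1 (hinj' (by rw [hh, map_zero])))
  have hrel' : mk a ^ m * mk au = mk b ^ m * mk su := by
    rw [← sub_eq_zero, ← map_pow, ← map_pow, ← map_mul, ← map_mul, ← map_sub]
    exact (hmk _).2 hrel
  obtain ⟨k, a', s', ha'n, hs'n, hX⟩ := hPO (R ⧸ P i) (FractionRing (R ⧸ P i)) (n.map mk) (mk u₀)
    hn' hne' ((hmem u₀).2 hu₀) hgen'
    (algebraMap _ (FractionRing (R ⧸ P i)) (mk a) / algebraMap _ (FractionRing (R ⧸ P i)) (mk b))
    (div_ne_zero ha' hb')
  -- the exponent vanishes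
  have hk : k = 0 := by
    have hkm : k * (m : ℤ) = 0 := by
      refine zpow_eq_zero_of_unit (E := FractionRing (R ⧸ P i)) ((hmem u₀).2 hu₀)
        (x := a' ^ m * mk au) (y := mk su * s' ^ m) ?_ ?_ ?_
      · intro hh
        rcases hn'.mem_or_mem hh with h1 | h1
        · exact ha'n (hn'.mem_of_pow_mem m h1)
        · exact hau ((hmem au).1 h1)
      · intro hh
        rcases hn'.mem_or_mem hh with h1 | h1
        · exact hsu ((hmem su).1 h1)
        · exact hs'n (hn'.mem_of_pow_mem m h1)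
      · have e1 : algebraMap _ (FractionRing (R ⧸ P i)) (mk a) ^ m *
            algebraMap _ (FractionRing (R ⧸ P i)) (mk au) =
            algebraMap _ (FractionRing (R ⧸ P i)) (mk b) ^ m *
              algebraMap _ (FractionRing (R ⧸ P i)) (mk su) := by
          have h0 := congrArg (algebraMap (R ⧸ P i) (FractionRing (R ⧸ P i))) hrel'
          simpa only [map_mul, map_pow] using h0
        rw [map_mul, map_mul, map_pow, map_pow]
        exact aux_pow hb' e1 hX
    rcases mul_eq_zero.1 hkm with h1 | h1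
    · exact h1
    · exact absurd (Int.natCast_eq_zero.1 h1) hm
  rw [hk, zpow_zero, mul_one] at hX
  obtain ⟨s, rfl⟩ := Ideal.Quotient.mk_surjective s'
  obtain ⟨a₂, rfl⟩ := Ideal.Quotient.mk_surjective a'
  have hs : s ∉ n := fun hh => hs'n ((hmem s).2 hh)
  have ha₂ : a₂ ∉ n := fun hh => ha'n ((hmem a₂).2 hh)
  have hfin : a * s - a₂ * b ∈ P i := by
    rw [← hmk, map_sub, map_mul, map_mul, sub_eq_zero]
    apply hinj'
    rw [map_mul, map_mul, ← hX]
    field_simp
    rfl
  obtain ⟨y, hy, hyE⟩ := (H.mem_P i _).1 hfin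
  have hbu := LocAB.vu_of_notMem_P H i hb
  refine ⟨a₂, s, ha₂, hs, y * (algebraMap R E b)⁻¹, mul_mem hy hbu.2.2, ?_⟩
  have hb0 : algebraMap R E b ≠ 0 := hbu.1
  rw [map_sub, map_mul, map_mul, ← hgab] at hyE
  field_simp
  linear_combination hyE

end Chart

end Fermat.Agent.S35.LocFEngine
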