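/-
S35 abstract block — leaves `[BranchUnit]` and `[LocG]` of `S35/LocFPlan.lean` (helper46).

* `branchUnitStatement : LocFPlan.BranchUnitStatement` (closed form; adapter on
  `LocFEngine.branchUnit` + `KrullStmt.princOrdStatement`);
* `locG_of_leaves : BranchUnitStatement → VertPrincStatement → LocGStatement`
  (the static normal form `G = g₀ ^ m * u₀` at a closed point of the special fibre).

`OneMod W p x` : `x ≡ 1` modulo `p W` (`W` a valuation subring), with its calculus.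
-/
import Mathlib
import Fermat.Agent.S34.LocPlan
import Fermat.Agent.S34.LocAB
import Fermat.Agent.S34.LocAStmt
import Fermat.Agent.S34.KrullStmt
import Fermat.Agent.S35.LocFPlan
import Fermat.Agent.S35.LocFEngine

set_option autoImplicit false
set_option linter.unusedSectionVars false

namespace Fermat.Agent.S35.LocFDecomp

open Fermat.Agent.S34 Fermat.Agent.S34.LocPlan Fermat.Agent.S35.LocFPlan

/-! ### Congruence to `1` modulo `p W` -/

section OneMod

variable {E : Type*} [Field E] {W : ValuationSubring E} {p x y : E}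

/-- `x ≡ 1` modulo `p W`. -/
def OneMod (W : ValuationSubring E) (p x : E) : Prop := ∃ z ∈ W, x - 1 = p * z

theorem OneMod.one : OneMod W p 1 := ⟨0, zero_mem _, by ring⟩

theorem OneMod.mem (hp : p ∈ W) (hx : OneMod W p x) : x ∈ W := by
  obtain ⟨z, hz, h⟩ := hx
  have hxe : x = 1 + p * z := by linear_combination h
  rw [hxe]
  exact add_mem (one_mem _) (mul_mem hp hz)

theorem OneMod.ne_zero (hp' : p⁻¹ ∉ W) (hx : OneMod W p x) : x ≠ 0 := by
  rintro rfl
  obtain ⟨z, hz, h⟩ := hx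
  apply hp'
  have h1 : p * (-z) = 1 := by linear_combination h
  rw [inv_eq_of_mul_eq_one_right h1]
  exact neg_mem hz

theorem OneMod.mul (hp : p ∈ W) (hx : OneMod W p x) (hy : OneMod W p y) :
    OneMod W p (x * y) := by
  obtain ⟨a, ha, hxa⟩ := hx
  obtain ⟨b, hb, hyb⟩ := hy
  refine ⟨a + b + p * a * b, add_mem (add_mem ha hb) (mul_mem (mul_mem hp ha) hb), ?_⟩
  linear_combination y * hxa + (1 + p * a) * hyb

theorem OneMod.pow (hp : p ∈ W) (hx : OneMod W p x) (k : ℕ) : OneMod W p (x ^ k) := by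
  induction k with
  | zero => rw [pow_zero]; exact OneMod.one
  | succ k ih => rw [pow_succ]; exact ih.mul hp hx

theorem OneMod.inv (hp' : p⁻¹ ∉ W) (hx : OneMod W p x) : OneMod W p x⁻¹ := by
  have hx0 := hx.ne_zero hp'
  obtain ⟨z, hz, h⟩ := hx
  have hxe : x = 1 + p * z := by linear_combination h
  refine ⟨-(z * x⁻¹), neg_mem (mul_mem hz ?_), ?_⟩
  · rw [hxe]
    exact LocAStmt.inv_one_add_mem W hp' hz
  · field_simp
    linear_combination -h

theorem OneMod.div (hp : p ∈ W) (hp' : p⁻¹ ∉ W) (hx : OneMod W p x) (hy : OneMod W p y) :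
    OneMod W p (x / y) := by
  rw [div_eq_mul_inv]
  exact hx.mul hp (hy.inv hp')

theorem OneMod.vu (hp : p ∈ W) (hp' : p⁻¹ ∉ W) (hx : OneMod W p x) : LocAB.VU W x :=
  ⟨hx.ne_zero hp', hx.mem hp, (hx.inv hp').mem hp⟩

theorem oneMod_div_of_sub (hy : LocAB.VU W y) (h : ∃ z ∈ W, x - y = p * z) :
    OneMod W p (x / y) := by
  obtain ⟨z, hz, h⟩ := h
  have hy0 := hy.1
  refine ⟨z * y⁻¹, mul_mem hz hy.2.2, ?_⟩
  field_simp
  linear_combination h

/-- A root of a unit of `W` is a unit of `W`. -/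
theorem vu_of_pow {g : E} {m : ℕ} (hm : 0 < m) (h : LocAB.VU W (g ^ m)) : LocAB.VU W g := by
  have hg0 : g ≠ 0 := by
    rintro rfl
    exact h.1 (zero_pow hm.ne')
  obtain ⟨k, rfl⟩ : ∃ k, m = k + 1 := ⟨m - 1, by omega⟩
  rcases W.mem_or_inv_mem g with hg | hg
  · refine ⟨hg0, hg, ?_⟩
    have e : g⁻¹ = (g ^ (k + 1))⁻¹ * g ^ k := by
      rw [pow_succ]
      field_simp
    rw [e]
    exact mul_mem h.2.2 (pow_mem hg k)
  · refine ⟨hg0, ?_, hg⟩
    have e : g = g ^ (k + 1) * g⁻¹ ^ k := by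
      rw [pow_succ, inv_pow]
      field_simp
    rw [e]
    exact mul_mem h.2.1 (pow_mem hg k)

end OneMod

/-! ### Chart lemmas -/

section Chart

variable {O : Type} [CommRing O] {R : Type} [CommRing R] [IsDomain R] [Algebra O R]
  {E : Type} [Field E] [Algebra R E] [IsFractionRing R E]
  {π : O} {V : Fin 2 → ValuationSubring E} {P : Fin 2 → Ideal R}

theorem forall_fin2 {i j : Fin 2} (hij : i ≠ j) {p : Fin 2 → Prop} (hi : p i) (hj : p j) :
    ∀ l, p l := by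
  intro l
  fin_cases i <;> fin_cases j <;> fin_cases l <;> first | assumption | exact absurd rfl hij

/-- A unit of `R_n` is a unit of `V i` if the branch `P i` passes through `n`. -/
theorem vu_of_unitAt (H : ChartHyp π V P) (i : Fin 2) {n : Ideal R} (hPn : P i ≤ n) {x : E}
    (hx : UnitAt n x) : LocAB.VU (V i) x := by
  obtain ⟨a, s, ha, hs, h⟩ := hx
  have hau := LocAB.vu_of_notMem_P H i (fun hh => ha (hPn hh))
  have hsu := LocAB.vu_of_notMem_P H i (fun hh => hs (hPn hh))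
  have e : x = algebraMap R E a / algebraMap R E s := by
    rw [eq_div_iff hsu.1]
    exact h
  rw [e]
  exact hau.div hsu

/-- If `u₀ = X / Y` is `≡ 1` modulo `ϖ (V i)` then `X - Y ∈ P i`. -/
theorem sub_mem_P (H : ChartHyp π V P) (i : Fin 2) {X Y : R} {u₀ : E}
    (hu : u₀ * algebraMap R E Y = algebraMap R E X)
    (h : OneMod (V i) (algebraMap R E (algebraMap O R π)) u₀) : X - Y ∈ P i := by
  obtain ⟨z, hz, hz'⟩ := h
  rw [H.mem_P]
  refine ⟨z * algebraMap R E Y, mul_mem hz (H.le i Y), ?_⟩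
  rw [map_sub, ← hu]
  linear_combination (algebraMap R E Y) * hz'

/-- `u₀ = X / Y` with `Y ∉ n` and `X - Y ∈ π R` lies in `1 + π R_n`. -/
theorem exists_eq_of_sub {n : Ideal R} {X Y r : R} {p : R} (hY : Y ∉ n) {u₀ : E}
    (hu : u₀ * algebraMap R E Y = algebraMap R E X) (h : X - Y = p * r) :
    ∃ s : R, s ∉ n ∧ ∃ r : R,
      algebraMap R E s * (u₀ - 1) = algebraMap R E p * algebraMap R E r := by
  refine ⟨Y, hY, r, ?_⟩
  have e := congrArg (algebraMap R E) h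
  rw [map_sub, map_mul, ← hu] at e
  linear_combination e

/-- A constant whose image lies in a proper ideal of `R` is divisible by `π`. -/
theorem dvd_of_algebraMap_mem [IsDomain O] [IsDiscreteValuationRing O] (hπ : Irreducible π)
    {n : Ideal R} (hn : n ≠ ⊤) {c : O} (hc : algebraMap O R c ∈ n) : π ∣ c := by
  by_contra hdvd
  have h1 : c ∉ IsLocalRing.maximalIdeal O := by
    rw [hπ.maximalIdeal_eq, Ideal.mem_span_singleton]
    exact hdvd
  have h2 : IsUnit c := IsLocalRing.notMem_maximalIdeal.1 h1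
  exact hn (Ideal.eq_top_of_isUnit_mem _ hc (h2.map (algebraMap O R)))

/-- **[BranchUnit]** (`LocFPlan.BranchUnitStatement`). -/
theorem branchUnitStatement : BranchUnitStatement := by
  intro O _ R _ _ _ _ E _ _ _ π V P i n g u m hn hm H hPn hPi hne hgen hu hcong
  have hϖW := H.le i (algebraMap O R π)
  have huV := vu_of_unitAt H i hPn hu
  have hgm : LocAB.VU (V i) (g ^ m) := by
    have h1 : OneMod (V i) (algebraMap R E (algebraMap O R π)) (g ^ m * u) := hcong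
    have h2 := (h1.vu hϖW (H.pi_not i)).div huV
    rwa [mul_div_assoc, div_self huV.1, mul_one] at h2
  have hg := vu_of_pow hm hgm
  obtain ⟨a, s, ha, hs, z, hz, h⟩ := LocFEngine.branchUnit KrullStmt.princOrdStatement H i hPi
    hn.isPrime hPn hne hgen hm.ne' hg hu hcong
  have hsu := LocAB.vu_of_notMem_P H i (fun hh => hs (hPn hh))
  have hs0 := hsu.1
  refine ⟨algebraMap R E a / algebraMap R E s, ⟨a, s, ha, hs, by field_simp⟩,
    z * (algebraMap R E s)⁻¹, mul_mem hz hsu.2.2, ?_⟩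
  field_simp
  linear_combination h

/-- `[LocG]` at a point with exactly one branch `P i` through it. -/
theorem locG_one (hBU : BranchUnitStatement) [IsNoetherianRing R] (H : ChartHyp π V P)
    {n : Ideal R} (hn : n.IsMaximal) {m : ℕ} (hm : 0 < m) {i j : Fin 2} (hij : i ≠ j)
    (hi : P i ≤ n) (hj : ¬ P j ≤ n) (hPi : PrincAt (P i))
    (hbr : (∃ x ∈ n, x ∉ P i) ∧
      ∃ t ∈ n, ∀ x ∈ n, ∃ s : R, s ∉ n ∧ ∃ c : R, s * x - c * t ∈ P i)
    {G g u : E} (hG : G = g ^ m * u) (hu : UnitAt n u)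
    (hcong : ∃ z ∈ V i, G - 1 = algebraMap R E (algebraMap O R π) * z) :
    ∃ g₀ : E, g₀ ≠ 0 ∧ (∃ z ∈ V i, g₀ - 1 = algebraMap R E (algebraMap O R π) * z) ∧
      ∃ s : R, s ∉ n ∧ ∃ r : R, algebraMap R E s * (G / g₀ ^ m - 1) =
        algebraMap R E (algebraMap O R π) * algebraMap R E r := by
  have hnp := hn.isPrime
  have hϖW := H.le i (algebraMap O R π)
  have hϖ' := H.pi_not i
  have hGo : OneMod (V i) (algebraMap R E (algebraMap O R π)) G := hcong
  obtain ⟨v, hv, hgv⟩ := hBU O R E π V P i n g u m hn hm H hi hPi hbr.1 hbr.2 hu (hG ▸ hcong)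
  have hvV := vu_of_unitAt H i hi hv
  have hv0 := hvV.1
  have hg0 : g ≠ 0 := by
    rintro rfl
    rw [zero_pow hm.ne', zero_mul] at hG
    exact hGo.ne_zero hϖ' hG
  have hg₀ : OneMod (V i) (algebraMap R E (algebraMap O R π)) (g / v) :=
    oneMod_div_of_sub hvV hgv
  have hu₀ : G / (g / v) ^ m = u * v ^ m := by
    rw [hG, div_pow]
    field_simp
  have hu₀V : OneMod (V i) (algebraMap R E (algebraMap O R π)) (u * v ^ m) :=
    hu₀ ▸ hGo.div hϖW hϖ' (hg₀.pow hϖW m)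
  obtain ⟨X, Y, -, hY, hXY⟩ : UnitAt n (u * v ^ m) :=
    HorProd.UnitAt.mul (𝔮 := n) hu (HorProd.UnitAt.pow (𝔮 := n) hv m)
  have hmemP : X - Y ∈ P i := sub_mem_P H i hXY hu₀V
  obtain ⟨xj, hxjP, hxjn⟩ := SetLike.not_le_iff_exists.1 hj
  obtain ⟨r, hr⟩ := H.red ((X - Y) * xj)
    (forall_fin2 hij ((P i).mul_mem_right _ hmemP) ((P j).mul_mem_left _ hxjP))
  refine ⟨g / v, div_ne_zero hg0 hv0, hg₀, Y * xj,
    fun hh => (hnp.mem_or_mem hh).elim hY hxjn, r, ?_⟩
  have e := congrArg (algebraMap R E) hr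
  rw [map_mul, map_sub, map_mul, ← hXY] at e
  rw [hu₀, map_mul]
  linear_combination e

theorem field_XY {F : Type*} [Field F] {g u D N s : F} (m : ℕ) (hg : g ≠ 0) (hD : D ≠ 0)
    (hN : N ≠ 0) :
    g ^ m * u / (g * D / N) ^ m * (s * D ^ m) = u * s * N ^ m := by
  rw [div_pow, mul_pow]
  field_simp

theorem field_gamma {F : Type*} [Field F] {G g₀ γ : F} (m : ℕ) (hγ : γ ≠ 0) :
    G / (g₀ / γ) ^ m / γ ^ m = G / g₀ ^ m := by
  rw [div_pow]
  field_simp

/-- `[LocG]` at a crossing point. -/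
theorem locG_node (hBU : BranchUnitStatement) [IsDomain O] [IsDiscreteValuationRing O]
    [IsNoetherianRing R] (hπ : Irreducible π) (H : ChartHyp π V P)
    {n : Ideal R} (hn : n.IsMaximal) {m : ℕ} (hm : 0 < m)
    (h0 : P 0 ≤ n) (h1 : P 1 ≤ n) (hP0 : PrincAt (P 0)) (hP1 : PrincAt (P 1))
    (hbr : BranchAt P n)
    (htr : ∀ x ∈ n, ∃ s : R, s ∉ n ∧ s * x ∈ P 0 ⊔ P 1)
    (hroot : ∀ x : R, x ^ m - 1 ∈ n → ∃ c : O, x - algebraMap O R c ∈ n)
    {G g u : E} (hG : G = g ^ m * u) (hu : UnitAt n u)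
    (hc0 : ∃ z ∈ V 0, G - 1 = algebraMap R E (algebraMap O R π) * z)
    (hc1 : ∃ z ∈ V 1, G - 1 = algebraMap R E (algebraMap O R π) * z) :
    ∃ (g₀ : E) (γ : O), g₀ ≠ 0 ∧ (∃ c : O, γ ^ m - 1 = π * c) ∧
      (∃ z ∈ V 0, g₀ - 1 = algebraMap R E (algebraMap O R π) * z) ∧
      (∃ z ∈ V 1, g₀ - algebraMap R E (algebraMap O R γ) =
        algebraMap R E (algebraMap O R π) * z) ∧
      ∃ s : R, s ∉ n ∧ ∃ r : R, algebraMap R E s * (G / g₀ ^ m - 1) =
        algebraMap R E (algebraMap O R π) * algebraMap R E r := by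
  classical
  have hnp := hn.isPrime
  have hϖ0 := H.le 0 (algebraMap O R π)
  have hϖ1 := H.le 1 (algebraMap O R π)
  have hϖ0' := H.pi_not 0
  have hϖ1' := H.pi_not 1
  have hG0 : OneMod (V 0) (algebraMap R E (algebraMap O R π)) G := hc0
  have hG1 : OneMod (V 1) (algebraMap R E (algebraMap O R π)) G := hc1
  obtain ⟨v₀, hv₀, hgv₀⟩ := hBU O R E π V P 0 n g u m hn hm H h0 hP0 (hbr 0 h0).1 (hbr 0 h0).2
    hu (hG ▸ hc0)
  obtain ⟨v₁, hv₁, hgv₁⟩ := hBU O R E π V P 1 n g u m hn hm H h1 hP1 (hbr 1 h1).1 (hbr 1 h1).2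
    hu (hG ▸ hc1)
  have hv₀V := vu_of_unitAt H 0 h0 hv₀
  have hv₁V := vu_of_unitAt H 1 h1 hv₁
  have hg0 : g ≠ 0 := by
    rintro rfl
    rw [zero_pow hm.ne', zero_mul] at hG
    exact hG0.ne_zero hϖ0' hG
  obtain ⟨au, su, hau, hsu, hus⟩ := hu
  obtain ⟨a₀, s₀, ha₀, hs₀, hv₀e⟩ := hv₀
  obtain ⟨a₁, s₁, ha₁, hs₁, hv₁e⟩ := hv₁
  -- `v_i ^ m * u ≡ 1` modulo `ϖ (V i)`, hence relations modulo `P i`
  have hrel0 : a₀ ^ m * au - s₀ ^ m * su ∈ P 0 := by
    refine sub_mem_P H 0 (u₀ := v₀ ^ m * u) ?_ ?_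
    · rw [map_mul, map_mul, map_pow, map_pow, ← hv₀e, ← hus]
      ring
    · have h2 := hG0.div hϖ0 hϖ0' ((oneMod_div_of_sub hv₀V hgv₀).pow hϖ0 m)
      have e : G / (g / v₀) ^ m = v₀ ^ m * u := by
        have := hv₀V.1
        rw [hG, div_pow]
        field_simp
      rwa [e] at h2
  have hrel1 : a₁ ^ m * au - s₁ ^ m * su ∈ P 1 := by
    refine sub_mem_P H 1 (u₀ := v₁ ^ m * u) ?_ ?_
    · rw [map_mul, map_mul, map_pow, map_pow, ← hv₁e, ← hus]
      ring
    · have h2 := hG1.div hϖ1 hϖ1' ((oneMod_div_of_sub hv₁V hgv₁).pow hϖ1 m)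
      have e : G / (g / v₁) ^ m = v₁ ^ m * u := by
        have := hv₁V.1
        rw [hG, div_pow]
        field_simp
      rwa [e] at h2
  -- computations in the domain `R / n`
  have hmk : ∀ x : R, Ideal.Quotient.mk n x = 0 ↔ x ∈ n := fun x =>
    Ideal.Quotient.eq_zero_iff_mem
  have e0 : Ideal.Quotient.mk n a₀ ^ m * Ideal.Quotient.mk n au =
      Ideal.Quotient.mk n s₀ ^ m * Ideal.Quotient.mk n su := by
    rw [← sub_eq_zero, ← map_pow, ← map_pow, ← map_mul, ← map_mul, ← map_sub]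
    exact (hmk _).2 (h0 hrel0)
  have e1 : Ideal.Quotient.mk n a₁ ^ m * Ideal.Quotient.mk n au =
      Ideal.Quotient.mk n s₁ ^ m * Ideal.Quotient.mk n su := by
    rw [← sub_eq_zero, ← map_pow, ← map_pow, ← map_mul, ← map_mul, ← map_sub]
    exact (hmk _).2 (h1 hrel1)
  obtain ⟨y, i', hi', hy⟩ := hn.exists_inv (x := s₁ * a₀)
    (fun hh => (hnp.mem_or_mem hh).elim hs₁ ha₀)
  have ey : Ideal.Quotient.mk n y * (Ideal.Quotient.mk n s₁ * Ideal.Quotient.mk n a₀) = 1 := by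
    have e := congrArg (Ideal.Quotient.mk n) hy
    rw [map_add, map_mul, map_mul, (hmk i').2 hi', add_zero, map_one] at e
    exact e
  have ey' : (Ideal.Quotient.mk n y * (Ideal.Quotient.mk n s₁ * Ideal.Quotient.mk n a₀)) ^ m
      = 1 := by rw [ey, one_pow]
  have hs₀' : Ideal.Quotient.mk n s₀ ≠ 0 := fun hh => hs₀ ((hmk _).1 hh)
  have hs₁' : Ideal.Quotient.mk n s₁ ≠ 0 := fun hh => hs₁ ((hmk _).1 hh)
  have hsu' : Ideal.Quotient.mk n su ≠ 0 := fun hh => hsu ((hmk _).1 hh)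
  have hxm : (Ideal.Quotient.mk n a₁ * Ideal.Quotient.mk n s₀ * Ideal.Quotient.mk n y) ^ m
      = 1 := by
    have hZ : (Ideal.Quotient.mk n a₁ * Ideal.Quotient.mk n s₀ * Ideal.Quotient.mk n y) ^ m *
        (Ideal.Quotient.mk n s₁ ^ m * Ideal.Quotient.mk n s₀ ^ m * Ideal.Quotient.mk n su) =
        1 * (Ideal.Quotient.mk n s₁ ^ m * Ideal.Quotient.mk n s₀ ^ m *
          Ideal.Quotient.mk n su) := by
      linear_combination
        (-((Ideal.Quotient.mk n a₁ * Ideal.Quotient.mk n s₀ * Ideal.Quotient.mk n y) ^ m *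
          Ideal.Quotient.mk n s₁ ^ m)) * e0 +
        (Ideal.Quotient.mk n a₁ ^ m * Ideal.Quotient.mk n s₀ ^ m * Ideal.Quotient.mk n au) * ey'
          + Ideal.Quotient.mk n s₀ ^ m * e1
    exact mul_right_cancel₀
      (mul_ne_zero (mul_ne_zero (pow_ne_zero m hs₁') (pow_ne_zero m hs₀')) hsu') hZ
  have hx : (a₁ * s₀ * y) ^ m - 1 ∈ n := by
    rw [← hmk, map_sub, map_pow, map_mul, map_mul, hxm, map_one, sub_self]
  obtain ⟨γ, hγ⟩ := hroot _ hx
  have eγ : Ideal.Quotient.mk n (algebraMap O R γ) =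
      Ideal.Quotient.mk n a₁ * Ideal.Quotient.mk n s₀ * Ideal.Quotient.mk n y := by
    have e := (hmk _).2 hγ
    rw [map_sub, map_mul, map_mul, sub_eq_zero] at e
    exact e.symm
  have hγm : algebraMap O R (γ ^ m - 1) ∈ n := by
    rw [← hmk, map_sub, map_pow, map_one, map_sub, map_pow, eγ, hxm, map_one, sub_self]
  obtain ⟨c, hc⟩ := dvd_of_algebraMap_mem hπ hnp.ne_top hγm
  have hγn : algebraMap O R γ ∉ n := by
    intro hh
    have e := hxm
    rw [← eγ, (hmk _).2 hh, zero_pow hm.ne'] at e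
    exact zero_ne_one e
  have hx' : a₁ * s₀ - algebraMap O R γ * (s₁ * a₀) ∈ n := by
    rw [← hmk, map_sub, map_mul, map_mul, map_mul, eγ]
    linear_combination (-(Ideal.Quotient.mk n a₁ * Ideal.Quotient.mk n s₀)) * ey
  obtain ⟨σ, hσ, hσx⟩ := htr _ hx'
  obtain ⟨p₀, hp₀, p₁, hp₁, hpp⟩ := Submodule.mem_sup.1 hσx
  -- the gluing element `N / D`
  have hNe : σ * a₁ * s₀ - p₁ = algebraMap O R γ * σ * s₁ * a₀ + p₀ := by
    linear_combination -hpp
  have hDn : algebraMap O R γ * σ * s₁ * s₀ ∉ n := fun hh =>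
    (hnp.mem_or_mem hh).elim (fun hh => (hnp.mem_or_mem hh).elim
      (fun hh => (hnp.mem_or_mem hh).elim hγn hσ) hs₁) hs₀
  have hNn : σ * a₁ * s₀ - p₁ ∉ n := by
    intro hh
    rw [hNe] at hh
    have h2 : algebraMap O R γ * σ * s₁ * a₀ ∈ n := by
      have := n.sub_mem hh (h0 hp₀)
      rwa [add_sub_cancel_right] at this
    exact (hnp.mem_or_mem h2).elim (fun hh => (hnp.mem_or_mem hh).elim
      (fun hh => (hnp.mem_or_mem hh).elim hγn hσ) hs₁) ha₀
  have hN0 := LocAB.vu_of_notMem_P H 0 (fun hh => hNn (h0 hh))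
  have hN1 := LocAB.vu_of_notMem_P H 1 (fun hh => hNn (h1 hh))
  have hD0 := LocAB.vu_of_notMem_P H 0 (fun hh => hDn (h0 hh))
  have hγ1 := LocAB.vu_of_notMem_P H 1 (fun hh => hγn (h1 hh))
  have hNE := hN0.1
  have hDE := hD0.1
  obtain ⟨z₀, hz₀, hgz₀⟩ := hgv₀
  obtain ⟨z₁, hz₁, hgz₁⟩ := hgv₁
  obtain ⟨y₀, hy₀, hpy₀⟩ := (H.mem_P 0 p₀).1 hp₀
  obtain ⟨y₁, hy₁, hpy₁⟩ := (H.mem_P 1 p₁).1 hp₁
  have hNE' := congrArg (algebraMap R E) hNe
  simp only [map_sub, map_add, map_mul] at hNE'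
  -- `g₀ := g * D / N`
  have hg₀0 : OneMod (V 0) (algebraMap R E (algebraMap O R π))
      (g * algebraMap R E (algebraMap O R γ * σ * s₁ * s₀) /
        algebraMap R E (σ * a₁ * s₀ - p₁)) := by
    refine ⟨(algebraMap R E (algebraMap O R γ * σ * s₁ * s₀) * z₀ - y₀) *
      (algebraMap R E (σ * a₁ * s₀ - p₁))⁻¹,
      mul_mem (sub_mem (mul_mem (H.le 0 _) hz₀) hy₀) hN0.2.2, ?_⟩
    field_simp
    simp only [map_sub, map_mul]
    linear_combination (algebraMap R E (algebraMap O R γ) * algebraMap R E σ * algebraMap R E s₁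
      * algebraMap R E s₀) * hgz₀ - hNE' - hpy₀
      + (algebraMap R E (algebraMap O R γ) * algebraMap R E σ * algebraMap R E s₁) * hv₀e
  have hg₀1 : ∃ z ∈ V 1, g * algebraMap R E (algebraMap O R γ * σ * s₁ * s₀) /
        algebraMap R E (σ * a₁ * s₀ - p₁) - algebraMap R E (algebraMap O R γ) =
        algebraMap R E (algebraMap O R π) * z := by
    refine ⟨algebraMap R E (algebraMap O R γ) * (algebraMap R E (σ * s₀ * s₁) * z₁ + y₁) *
      (algebraMap R E (σ * a₁ * s₀ - p₁))⁻¹,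
      mul_mem (mul_mem (H.le 1 _) (add_mem (mul_mem (H.le 1 _) hz₁) hy₁)) hN1.2.2, ?_⟩
    field_simp
    simp only [map_sub, map_mul]
    linear_combination (algebraMap R E (algebraMap O R γ) * algebraMap R E σ * algebraMap R E s₀
      * algebraMap R E s₁) * hgz₁ + algebraMap R E (algebraMap O R γ) * hpy₁
      + (algebraMap R E (algebraMap O R γ) * algebraMap R E σ * algebraMap R E s₀) * hv₁e
  have hg₀ne : g * algebraMap R E (algebraMap O R γ * σ * s₁ * s₀) /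
      algebraMap R E (σ * a₁ * s₀ - p₁) ≠ 0 := div_ne_zero (mul_ne_zero hg0 hDE) hNE
  -- `u₀ = G / g₀ ^ m = X / Y`
  have hXY : G / (g * algebraMap R E (algebraMap O R γ * σ * s₁ * s₀) /
      algebraMap R E (σ * a₁ * s₀ - p₁)) ^ m *
      algebraMap R E (su * (algebraMap O R γ * σ * s₁ * s₀) ^ m) =
      algebraMap R E (au * (σ * a₁ * s₀ - p₁) ^ m) := by
    have eX : algebraMap R E (au * (σ * a₁ * s₀ - p₁) ^ m) =
        algebraMap R E au * algebraMap R E (σ * a₁ * s₀ - p₁) ^ m := by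
      rw [map_mul, map_pow]
    have eY : algebraMap R E (su * (algebraMap O R γ * σ * s₁ * s₀) ^ m) =
        algebraMap R E su * algebraMap R E (algebraMap O R γ * σ * s₁ * s₀) ^ m := by
      rw [map_mul, map_pow]
    rw [eX, eY, hG, ← hus]
    exact field_XY m hg0 hDE hNE
  have hu₀0 : OneMod (V 0) (algebraMap R E (algebraMap O R π))
      (G / (g * algebraMap R E (algebraMap O R γ * σ * s₁ * s₀) /
        algebraMap R E (σ * a₁ * s₀ - p₁)) ^ m) := hG0.div hϖ0 hϖ0' (hg₀0.pow hϖ0 m)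
  have hu₀1 : OneMod (V 1) (algebraMap R E (algebraMap O R π))
      (G / (g * algebraMap R E (algebraMap O R γ * σ * s₁ * s₀) /
        algebraMap R E (σ * a₁ * s₀ - p₁)) ^ m) := by
    have h2 := hG1.div hϖ1 hϖ1' ((oneMod_div_of_sub hγ1 hg₀1).pow hϖ1 m)
    have hγm1 : OneMod (V 1) (algebraMap R E (algebraMap O R π))
        (algebraMap R E (algebraMap O R γ) ^ m) := by
      refine ⟨algebraMap R E (algebraMap O R c), H.le 1 _, ?_⟩
      have e := congrArg (fun t => algebraMap R E (algebraMap O R t)) hc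
      simp only [map_sub, map_mul, map_pow, map_one] at e
      exact e
    have h3 := h2.div hϖ1 hϖ1' hγm1
    have e : G / (g * algebraMap R E (algebraMap O R γ * σ * s₁ * s₀) /
        algebraMap R E (σ * a₁ * s₀ - p₁) / algebraMap R E (algebraMap O R γ)) ^ m /
        algebraMap R E (algebraMap O R γ) ^ m =
        G / (g * algebraMap R E (algebraMap O R γ * σ * s₁ * s₀) /
        algebraMap R E (σ * a₁ * s₀ - p₁)) ^ m := by
      exact field_gamma m hγ1.1
    rwa [e] at h3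
  have hm0 := sub_mem_P H 0 hXY hu₀0
  have hm1 := sub_mem_P H 1 hXY hu₀1
  obtain ⟨r, hr⟩ := H.red _ (by
    rw [Fin.forall_fin_two]
    exact ⟨hm0, hm1⟩)
  refine ⟨_, γ, hg₀ne, ⟨c, hc⟩, hg₀0, hg₀1, ?_⟩
  refine exists_eq_of_sub (fun hh => ?_) hXY hr
  exact (hnp.mem_or_mem hh).elim hsu (fun hh => hDn (hnp.mem_of_pow_mem m hh))

/-- **[LocG]** (`LocFPlan.LocGStatement`) from `[BranchUnit]` and `[VertPrinc]`. -/
theorem locG_of_leaves (hBU : BranchUnitStatement) (hVP : VertPrincStatement) :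
    LocGStatement := by
  intro O _ _ _ R _ _ _ _ _ E _ _ _ π V P m n G g u hπ hn hπn hm H hbr htr hroot hG hu hcong
  have hnp := hn.isPrime
  by_cases h0 : P 0 ≤ n
  · by_cases h1 : P 1 ≤ n
    · obtain ⟨g₀, γ, hg₀, hγ, hz0, hz1, hs⟩ := locG_node hBU hπ H hn hm h0 h1
        (hVP O R E π V P n 0 hnp H hbr htr h0) (hVP O R E π V P n 1 hnp H hbr htr h1) hbr
        (htr h0 h1) (hroot h0 h1) hG hu (hcong 0 h0) (hcong 1 h1)
      exact ⟨g₀, γ, hg₀, hγ, fun hnot => absurd ⟨h0, h1⟩ hnot, fun _ => hz0, fun _ => hz1, hs⟩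
    · obtain ⟨g₀, hg₀, hz, hs⟩ := locG_one hBU H hn hm (i := 0) (j := 1) (by decide) h0 h1
        (hVP O R E π V P n 0 hnp H hbr htr h0) (hbr 0 h0) hG hu (hcong 0 h0)
      exact ⟨g₀, 1, hg₀, ⟨0, by rw [one_pow, sub_self, mul_zero]⟩, fun _ => rfl, fun _ => hz,
        fun h => absurd h h1, hs⟩
  · by_cases h1 : P 1 ≤ n
    · obtain ⟨g₀, hg₀, hz, hs⟩ := locG_one hBU H hn hm (i := 1) (j := 0) (by decide) h1 h0
        (hVP O R E π V P n 1 hnp H hbr htr h1) (hbr 1 h1) hG hu (hcong 1 h1)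
      refine ⟨g₀, 1, hg₀, ⟨0, by rw [one_pow, sub_self, mul_zero]⟩, fun _ => rfl,
        fun h => absurd h h0, fun _ => ?_, hs⟩
      obtain ⟨z, hz, h⟩ := hz
      exact ⟨z, hz, by rw [map_one, map_one]; exact h⟩
    · exfalso
      obtain ⟨x₀, hx₀P, hx₀n⟩ := SetLike.not_le_iff_exists.1 h0
      obtain ⟨x₁, hx₁P, hx₁n⟩ := SetLike.not_le_iff_exists.1 h1
      obtain ⟨r, hr⟩ := H.red (x₀ * x₁) (by
        rw [Fin.forall_fin_two]
        exact ⟨(P 0).mul_mem_right _ hx₀P, (P 1).mul_mem_left _ hx₁P⟩)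
      have hmem : x₀ * x₁ ∈ n := hr ▸ n.mul_mem_right _ hπn
      exact (hnp.mem_or_mem hmem).elim hx₀n hx₁n

end Chart

end Fermat.Agent.S35.LocFDecomp
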