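import Mathlib
import Fermat.Agent.S35.LocFPlan

/-!
# S35, ABSTRACT block of [E]: corrections to `S35/LocFPlan.lean`

`LocFPlan.VertUnitStatement` is false as typed (`x = 0` satisfies `x ∈ V i` and `x⁻¹ ∈ V i`;
found by helper89).  The leaf of record is `VertUnit2Statement` below (with `x ≠ 0`).
-/

set_option autoImplicit false

namespace Fermat.Agent.S35.LocFPlan2

open Fermat.Agent.S34.LocPlan

/-- **[VertUnit]** (corrected): a nonzero unit of `V i` is a unit of `R_{P i}`, if `P i` is
locally principal at itself. -/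
def VertUnit2Statement : Prop :=
  ∀ (O : Type) [CommRing O] (R : Type) [CommRing R] [IsDomain R] [IsNoetherianRing R]
    [Algebra O R] (E : Type) [Field E] [Algebra R E] [IsFractionRing R E]
    (π : O) (V : Fin 2 → ValuationSubring E) (P : Fin 2 → Ideal R) (i : Fin 2) (x : E),
    ChartHyp π V P → PrincAt (P i) → x ≠ 0 → x ∈ V i → x⁻¹ ∈ V i → UnitAt (P i) x

end Fermat.Agent.S35.LocFPlan2
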