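/-
S35 — NewDesc.lean (helper68): the linear-algebra descent of block [C] (blueprint #2585).

A homogeneous linear system whose coefficients lie in a subring `R₀` of a field `C` (in the
application `C = ℂ`, `R₀ = chig.range`) and which has a NONZERO solution over `C` has a PRIMITIVE
solution over every valuation ring `𝒪` receiving `R₀` through a ring homomorphism `iota`
(`iota` need not be injective): all `r × r` minors of the system vanish in `C`, hence in `R₀`,
hence in `Frac 𝒪` after `iota`, so there is a common kernel vector over `Frac 𝒪`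
(`S41/FSAlg`), which is scaled to a primitive vector (`S30/EigInf`).

* `exists_primitive_solution` (D1): the abstract statement;
* `exists_coord_of_vector`    (D2): lattice form — a nonzero vector `w` of the complexification
  of a lattice `L` which is an eigenvector of operators `T i` with eigenvalues `c i ∈ R₀` and is
  killed by the complexifications of maps `tr k : L → L'` gives primitive coordinates
  `y : Fin r → 𝒪` with the same properties over `𝒪` (eigenvalues `iota (c i)`);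
* `exists_tensor_of_vector`   (D3): tensor form — `e = ∑ y n ⊗ b n ∈ 𝒪 ⊗ L` is primitive,
  `(1 ⊗ T i) e = iota (c i) • e` and `(1 ⊗ tr k) e = 0`;
* `exists_sum_tmul_of_baseChange_eq_zero` (D4): over a flat `𝒪`, an element of `𝒪 ⊗ L` killed by
  `1 ⊗ f` is a combination `∑ a i ⊗ u i` with all `u i ∈ ker f`.
-/
import Mathlib
import Fermat.Agent.S41.FSAlg
import Fermat.Agent.S29.EigAlgB
import Fermat.Agent.S30.EigInf

set_option autoImplicit false

open scoped TensorProduct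

namespace Fermat.Agent.S35.NewDesc

open Module

/-- **(D1)** Descent of a homogeneous linear system: coefficients in `R₀ ⊆ C`, a nonzero solution
over the field `C` ⟹ a solution over the valuation ring `𝒪` with one coordinate equal to `1`,
for the system transported along ANY ring homomorphism `iota : R₀ → 𝒪`. -/
theorem exists_primitive_solution {R₀ C 𝒪 : Type*} [CommRing R₀] [Field C] [CommRing 𝒪]
    [IsDomain 𝒪] [ValuationRing 𝒪] (incl : R₀ →+* C) (hincl : Function.Injective incl)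
    (iota : R₀ →+* 𝒪) {ι : Type*} {r : ℕ} (a : ι → Fin r → R₀) (x : Fin r → C) (hx : x ≠ 0)
    (hsol : ∀ i, ∑ n, incl (a i n) * x n = 0) :
    ∃ y : Fin r → 𝒪, (∃ n, y n = 1) ∧ ∀ i, ∑ n, iota (a i n) * y n = 0 := by
  classical
  -- all `r × r` minors vanish in `R₀`
  have hminor : ∀ g : Fin r → ι, (Matrix.of fun m n => a (g m) n).det = 0 := by
    intro g
    apply hincl
    rw [map_zero, RingHom.map_det]
    apply Matrix.exists_mulVec_eq_zero_iff.mp
    refine ⟨x, hx, ?_⟩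
    funext m
    simp only [Matrix.mulVec, dotProduct, RingHom.mapMatrix_apply, Matrix.map_apply,
      Matrix.of_apply, Pi.zero_apply]
    exact hsol (g m)
  let K := FractionRing 𝒪
  let φ : R₀ →+* K := (algebraMap 𝒪 K).comp iota
  let R : ι → Fin r → K := fun i n => φ (a i n)
  have hdet : ∀ g : Fin r → ι, (Matrix.of fun m => R (g m)).det = 0 := by
    intro g
    have h1 : (Matrix.of fun m => R (g m)) = φ.mapMatrix (Matrix.of fun m n => a (g m) n) := by
      ext m n
      rfl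
    rw [h1, ← RingHom.map_det, hminor g, map_zero]
  obtain ⟨z, hz0, hz⟩ := Fermat.Agent.S41.FSAlg.exists_ne_zero_dotProduct_eq_zero R hdet
  obtain ⟨i₀, y, hzi, hyi, hy⟩ :=
    Fermat.Agent.S30.EigInf.exists_primitive_of_ne_zero (𝒪 := 𝒪) z hz0
  refine ⟨y, ⟨i₀, hyi⟩, fun i => ?_⟩
  apply IsFractionRing.injective 𝒪 K
  rw [map_zero, map_sum]
  have h1 : ∑ n, φ (a i n) * z n = 0 := hz i
  have h2 : ∑ n, algebraMap 𝒪 K (iota (a i n) * y n) = (∑ n, φ (a i n) * z n) / z i₀ := by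
    rw [Finset.sum_div]
    refine Finset.sum_congr rfl fun n _ => ?_
    rw [map_mul, hy n, mul_div_assoc]
    rfl
  rw [h2, h1, zero_div]

section Lattice

variable {I J : Type*} {L : Type*} [AddCommGroup L] {r : ℕ} (b : Basis (Fin r) ℤ L)
  {W : Type*} [AddCommGroup W] [Module ℂ W] (j : L →+ W)
  (hind : LinearIndependent ℂ (fun n => j (b n)))
  (T : I → L →+ L) (TW : I → W →ₗ[ℂ] W) (hj : ∀ i x, j (T i x) = TW i (j x))
  {L' : Type*} [AddCommGroup L'] {r' : ℕ} (b' : Basis (Fin r') ℤ L')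
  {W' : Type*} [AddCommGroup W'] [Module ℂ W'] (j' : L' →+ W')
  (hind' : LinearIndependent ℂ (fun n => j' (b' n)))
  (tr : J → L →+ L') (trW : J → W →ₗ[ℂ] W') (htr : ∀ k x, j' (tr k x) = trW k (j x))

include hind hj hind' htr in
/-- **(D2)** Lattice form.  `w ≠ 0` in the `ℂ`-span of the lattice `j L`, an eigenvector of the
`TW i` with eigenvalues `c i ∈ R₀` and killed by the `trW k`, gives primitive coordinates over
`𝒪` (in the basis `b`) of an eigenvector of the `T i` with eigenvalues `iota (c i)` killed by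
the `tr k`. -/
theorem exists_coord_of_vector (w : W) (hw : w ∈ Submodule.span ℂ (Set.range j)) (hw0 : w ≠ 0)
    (R₀ : Subring ℂ) (c : I → R₀) (hTw : ∀ i, TW i w = (c i : ℂ) • w)
    (htrw : ∀ k, trW k w = 0)
    {𝒪 : Type*} [CommRing 𝒪] [IsDomain 𝒪] [ValuationRing 𝒪] (iota : R₀ →+* 𝒪) :
    ∃ y : Fin r → 𝒪, (∃ n, y n = 1) ∧
      (∀ i m, ∑ n, ((b.repr (T i (b n)) m : ℤ) : 𝒪) * y n = iota (c i) * y m) ∧
      (∀ k m', ∑ n, ((b'.repr (tr k (b n)) m' : ℤ) : 𝒪) * y n = 0) := by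
  classical
  let e : Fin r → W := fun n => j (b n)
  let e' : Fin r' → W' := fun n => j' (b' n)
  let M : I → Fin r → Fin r → ℤ := fun i m n => b.repr (T i (b n)) m
  let Cm : J → Fin r' → Fin r → ℤ := fun k m' n => b'.repr (tr k (b n)) m'
  have hjx : ∀ x : L, j x = ∑ n, ((b.repr x n : ℤ) : ℂ) • e n := by
    intro x
    conv_lhs => rw [← b.sum_repr x]
    rw [map_sum]
    refine Finset.sum_congr rfl fun n _ => ?_
    rw [map_zsmul, Int.cast_smul_eq_zsmul]
  have hj'x : ∀ x : L', j' x = ∑ n, ((b'.repr x n : ℤ) : ℂ) • e' n := by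
    intro x
    conv_lhs => rw [← b'.sum_repr x]
    rw [map_sum]
    refine Finset.sum_congr rfl fun n _ => ?_
    rw [map_zsmul, Int.cast_smul_eq_zsmul]
  have hspan_le : Submodule.span ℂ (Set.range j) ≤ Submodule.span ℂ (Set.range e) := by
    rw [Submodule.span_le]
    rintro _ ⟨x, rfl⟩
    rw [hjx x]
    exact Submodule.sum_mem _ fun n _ => Submodule.smul_mem _ _ (Submodule.subset_span ⟨n, rfl⟩)
  obtain ⟨x, hx⟩ := (Submodule.mem_span_range_iff_exists_fun ℂ).mp (hspan_le hw)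
  have hx0 : x ≠ 0 := by
    rintro rfl
    apply hw0
    rw [← hx]
    simp
  -- the eigen-equations in coordinates
  have hE : ∀ i m, ∑ n, ((M i m n : ℤ) : ℂ) * x n = (c i : ℂ) * x m := by
    intro i m
    have h1 : TW i w = ∑ m, (∑ n, ((M i m n : ℤ) : ℂ) * x n) • e m := by
      rw [← hx, map_sum]
      have h0 : ∀ n, TW i (x n • e n) = ∑ m, (((M i m n : ℤ) : ℂ) * x n) • e m := by
        intro n
        rw [map_smul, ← hj, hjx, Finset.smul_sum]
        refine Finset.sum_congr rfl fun m _ => ?_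
        rw [smul_smul, mul_comm]
      simp_rw [h0]
      rw [Finset.sum_comm]
      refine Finset.sum_congr rfl fun m _ => ?_
      rw [Finset.sum_smul]
    have h2 : (c i : ℂ) • w = ∑ m, ((c i : ℂ) * x m) • e m := by
      rw [← hx, Finset.smul_sum]
      refine Finset.sum_congr rfl fun m _ => ?_
      rw [smul_smul]
    have h3 : ∑ m, ((∑ n, ((M i m n : ℤ) : ℂ) * x n) - (c i : ℂ) * x m) • e m = 0 := by
      simp_rw [sub_smul]
      rw [Finset.sum_sub_distrib, ← h1, ← h2, hTw i, sub_self]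
    exact sub_eq_zero.mp (Fintype.linearIndependent_iff.mp hind _ h3 m)
  -- the vanishing equations in coordinates
  have hV : ∀ k m', ∑ n, ((Cm k m' n : ℤ) : ℂ) * x n = 0 := by
    intro k m'
    have h1 : trW k w = ∑ m', (∑ n, ((Cm k m' n : ℤ) : ℂ) * x n) • e' m' := by
      rw [← hx, map_sum]
      have h0 : ∀ n, trW k (x n • e n) = ∑ m', (((Cm k m' n : ℤ) : ℂ) * x n) • e' m' := by
        intro n
        rw [map_smul, ← htr, hj'x, Finset.smul_sum]
        refine Finset.sum_congr rfl fun m' _ => ?_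
        rw [smul_smul, mul_comm]
      simp_rw [h0]
      rw [Finset.sum_comm]
      refine Finset.sum_congr rfl fun m' _ => ?_
      rw [Finset.sum_smul]
    rw [htrw k] at h1
    exact Fintype.linearIndependent_iff.mp hind' _ h1.symm m'
  -- the system over `R₀`
  let a : (I × Fin r) ⊕ (J × Fin r') → Fin r → R₀ := fun s n =>
    match s with
    | Sum.inl (i, m) => ((M i m n : ℤ) : R₀) - if m = n then c i else 0
    | Sum.inr (k, m') => ((Cm k m' n : ℤ) : R₀)
  have hsol : ∀ s, ∑ n, R₀.subtype (a s n) * x n = 0 := by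
    rintro (⟨i, m⟩ | ⟨k, m'⟩)
    · have h1 : ∀ n, R₀.subtype (a (Sum.inl (i, m)) n) * x n
          = ((M i m n : ℤ) : ℂ) * x n - if m = n then (c i : ℂ) * x n else 0 := by
        intro n
        simp only [a, map_sub, map_intCast, sub_mul]
        split_ifs with hmn
        · rfl
        · rw [map_zero, zero_mul]
      simp_rw [h1]
      rw [Finset.sum_sub_distrib, Finset.sum_ite_eq, if_pos (Finset.mem_univ _), hE i m,
        sub_self]
    · have h1 : ∀ n, R₀.subtype (a (Sum.inr (k, m')) n) * x n = ((Cm k m' n : ℤ) : ℂ) * x n := by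
        intro n
        simp only [a, map_intCast]
      simp_rw [h1]
      exact hV k m'
  obtain ⟨y, hy1, hy⟩ := exists_primitive_solution R₀.subtype Subtype.val_injective iota a x hx0
    hsol
  refine ⟨y, hy1, ?_, ?_⟩
  · intro i m
    have h1 := hy (Sum.inl (i, m))
    have h2 : ∀ n, iota (a (Sum.inl (i, m)) n) * y n
        = ((M i m n : ℤ) : 𝒪) * y n - if m = n then iota (c i) * y n else 0 := by
      intro n
      simp only [a, map_sub, map_intCast, sub_mul]
      split_ifs with hmn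
      · rfl
      · rw [map_zero, zero_mul]
    simp_rw [h2] at h1
    rw [Finset.sum_sub_distrib, Finset.sum_ite_eq, if_pos (Finset.mem_univ _)] at h1
    exact sub_eq_zero.mp h1
  · intro k m'
    have h1 := hy (Sum.inr (k, m'))
    have h2 : ∀ n, iota (a (Sum.inr (k, m')) n) * y n = ((Cm k m' n : ℤ) : 𝒪) * y n := by
      intro n
      simp only [a, map_intCast]
    simp_rw [h2] at h1
    exact h1

/-- Transport of vanishing equations in coordinates to `𝒪 ⊗[ℤ] L`. -/
theorem baseChange_sum_tmul_eq_zero {𝒪 : Type*} [CommRing 𝒪] (f : L →ₗ[ℤ] L')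
    (y : Fin r → 𝒪)
    (hy : ∀ m', ∑ n, ((b'.repr (f (b n)) m' : ℤ) : 𝒪) * y n = 0) :
    LinearMap.baseChange 𝒪 f (∑ n, y n ⊗ₜ[ℤ] b n) = 0 := by
  classical
  rw [map_sum]
  have h1 : ∀ n, LinearMap.baseChange 𝒪 f (y n ⊗ₜ[ℤ] b n)
      = ∑ m', (((b'.repr (f (b n)) m' : ℤ) : 𝒪) * y n) ⊗ₜ[ℤ] b' m' := by
    intro n
    rw [LinearMap.baseChange_tmul]
    conv_lhs => rw [← b'.sum_repr (f (b n))]
    rw [TensorProduct.tmul_sum]
    refine Finset.sum_congr rfl fun m' _ => ?_
    rw [← TensorProduct.smul_tmul, zsmul_eq_mul]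
  simp_rw [h1]
  rw [Finset.sum_comm]
  refine Finset.sum_eq_zero fun m' _ => ?_
  rw [← TensorProduct.sum_tmul, hy m', TensorProduct.zero_tmul]

include hind hj hind' htr in
/-- **(D3)** Tensor form.  Under the hypotheses of `exists_coord_of_vector` there is a PRIMITIVE
`e ∈ 𝒪 ⊗ L` (if `a • e` is divisible by `c` then `c ∣ a`) with `(1 ⊗ T i) e = iota (c i) • e`
for all `i` and `(1 ⊗ tr k) e = 0` for all `k`. -/
theorem exists_tensor_of_vector (w : W) (hw : w ∈ Submodule.span ℂ (Set.range j)) (hw0 : w ≠ 0)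
    (R₀ : Subring ℂ) (c : I → R₀) (hTw : ∀ i, TW i w = (c i : ℂ) • w)
    (htrw : ∀ k, trW k w = 0)
    {𝒪 : Type*} [CommRing 𝒪] [IsDomain 𝒪] [ValuationRing 𝒪] (iota : R₀ →+* 𝒪) :
    ∃ e : 𝒪 ⊗[ℤ] L,
      (∀ (a c' : 𝒪) (e' : 𝒪 ⊗[ℤ] L), a • e = c' • e' → c' ∣ a) ∧
      (∀ i, LinearMap.baseChange 𝒪 (T i).toIntLinearMap e = iota (c i) • e) ∧
      (∀ k, LinearMap.baseChange 𝒪 (tr k).toIntLinearMap e = 0) := by
  classical
  obtain ⟨y, ⟨i₀, hyi⟩, hyE, hyV⟩ :=
    exists_coord_of_vector b j hind T TW hj b' j' hind' tr trW htr w hw hw0 R₀ c hTw htrw iota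
  refine ⟨∑ n, y n ⊗ₜ[ℤ] (b n), ?_, ?_, ?_⟩
  · intro a c' e' h
    have h1 : (∑ n, y n ⊗ₜ[ℤ] (b n) : 𝒪 ⊗[ℤ] L)
        = ∑ n, y n • (Algebra.TensorProduct.basis 𝒪 b) n := by
      refine Finset.sum_congr rfl fun n _ => ?_
      rw [Algebra.TensorProduct.basis_apply, TensorProduct.smul_tmul', smul_eq_mul, mul_one]
    have h2 := congrArg (fun z => (Algebra.TensorProduct.basis 𝒪 b).repr z i₀) h
    simp only [h1, map_smul, Module.Basis.repr_sum_self, Finsupp.smul_apply, smul_eq_mul, hyi,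
      mul_one] at h2
    exact ⟨_, h2⟩
  · intro i
    exact Fermat.Agent.S29.EigB.baseChange_sum_tmul (k := 𝒪) (AddMonoidHom.id L) b y
      (T i).toIntLinearMap (T i).toIntLinearMap (fun u => rfl)
      (Matrix.of fun n m => b.repr (T i (b n)) m)
      (fun n => (b.sum_repr _).symm)
      (iota (c i))
      (fun m => by
        rw [← hyE i m]
        refine Finset.sum_congr rfl fun n _ => ?_
        rw [mul_comm]
        rfl)
  · intro k
    exact baseChange_sum_tmul_eq_zero b b' (tr k).toIntLinearMap y (hyV k)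

end Lattice

section Flat

variable {L P : Type*} [AddCommGroup L] [AddCommGroup P]

/-- Every element of a tensor product is a finite sum of pure tensors. -/
theorem exists_sum_tmul {𝒪 : Type*} [CommRing 𝒪] {Q : Type*} [AddCommGroup Q]
    (z : 𝒪 ⊗[ℤ] Q) :
    ∃ (s : ℕ) (a : Fin s → 𝒪) (u : Fin s → Q), z = ∑ i, a i ⊗ₜ[ℤ] u i := by
  induction z using TensorProduct.induction_on with
  | zero => exact ⟨0, Fin.elim0, Fin.elim0, by simp⟩
  | tmul a u => exact ⟨1, fun _ => a, fun _ => u, by simp⟩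
  | add z₁ z₂ h₁ h₂ =>
    obtain ⟨s₁, a₁, u₁, rfl⟩ := h₁
    obtain ⟨s₂, a₂, u₂, rfl⟩ := h₂
    refine ⟨s₁ + s₂, Fin.append a₁ a₂, Fin.append u₁ u₂, ?_⟩
    rw [Fin.sum_univ_add]
    simp

/-- **(D4)** Over a flat `ℤ`-algebra `𝒪`, an element of `𝒪 ⊗ L` killed by `1 ⊗ f` is a
combination `∑ a i ⊗ u i` with all `u i` in the kernel of `f`. -/
theorem exists_sum_tmul_of_baseChange_eq_zero {𝒪 : Type*} [CommRing 𝒪] [Module.Flat ℤ 𝒪]
    (f : L →ₗ[ℤ] P) (e : 𝒪 ⊗[ℤ] L) (he : LinearMap.baseChange 𝒪 f e = 0) :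
    ∃ (s : ℕ) (a : Fin s → 𝒪) (u : Fin s → L), (∀ i, f (u i) = 0) ∧
      e = ∑ i, a i ⊗ₜ[ℤ] u i := by
  classical
  have hex : Function.Exact (LinearMap.lTensor 𝒪 (LinearMap.ker f).subtype)
      (LinearMap.lTensor 𝒪 f) :=
    Module.Flat.lTensor_exact 𝒪 (LinearMap.exact_subtype_ker_map f)
  have he' : LinearMap.lTensor 𝒪 f e = 0 := he
  obtain ⟨z, hz⟩ := (hex e).mp he'
  obtain ⟨s, a, u, hz2⟩ := exists_sum_tmul (𝒪 := 𝒪) z
  subst hz2
  refine ⟨s, a, fun i => (u i : L), fun i => (u i).2, ?_⟩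
  rw [← hz, map_sum]
  refine Finset.sum_congr rfl fun i _ => ?_
  rw [LinearMap.lTensor_tmul]
  rfl

/-- **(D4')** The same for two maps: an element of `𝒪 ⊗ L` killed by `1 ⊗ f₁` and `1 ⊗ f₂` is
a combination `∑ a i ⊗ u i` with all `u i ∈ ker f₁ ∩ ker f₂`. -/
theorem exists_sum_tmul_of_baseChange_eq_zero₂ {𝒪 : Type*} [CommRing 𝒪] [Module.Flat ℤ 𝒪]
    {P₁ P₂ : Type*} [AddCommGroup P₁] [AddCommGroup P₂]
    (f₁ : L →ₗ[ℤ] P₁) (f₂ : L →ₗ[ℤ] P₂) (e : 𝒪 ⊗[ℤ] L)
    (h₁ : LinearMap.baseChange 𝒪 f₁ e = 0) (h₂ : LinearMap.baseChange 𝒪 f₂ e = 0) :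
    ∃ (s : ℕ) (a : Fin s → 𝒪) (u : Fin s → L), (∀ i, f₁ (u i) = 0 ∧ f₂ (u i) = 0) ∧
      e = ∑ i, a i ⊗ₜ[ℤ] u i := by
  have h₁' : LinearMap.lTensor 𝒪 f₁ e = 0 := h₁
  have h₂' : LinearMap.lTensor 𝒪 f₂ e = 0 := h₂
  have hz : LinearMap.lTensor 𝒪 (f₁.prod f₂) e = 0 := by
    have hid : (LinearMap.inl ℤ P₁ P₂).comp (LinearMap.fst ℤ P₁ P₂)
        + (LinearMap.inr ℤ P₁ P₂).comp (LinearMap.snd ℤ P₁ P₂) = LinearMap.id := by
      ext x <;> simp
    have h3 : LinearMap.lTensor 𝒪 (f₁.prod f₂) e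
        = LinearMap.lTensor 𝒪 (LinearMap.inl ℤ P₁ P₂) (LinearMap.lTensor 𝒪 f₁ e)
          + LinearMap.lTensor 𝒪 (LinearMap.inr ℤ P₁ P₂) (LinearMap.lTensor 𝒪 f₂ e) := by
      have h4 : f₁.prod f₂ = (LinearMap.inl ℤ P₁ P₂).comp f₁ + (LinearMap.inr ℤ P₁ P₂).comp f₂ := by
        ext x <;> simp
      rw [h4, LinearMap.lTensor_add, LinearMap.add_apply, LinearMap.lTensor_comp,
        LinearMap.lTensor_comp, LinearMap.comp_apply, LinearMap.comp_apply]
    rw [h3, h₁', h₂', map_zero, map_zero, add_zero]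
  obtain ⟨s, a, u, hu, he⟩ := exists_sum_tmul_of_baseChange_eq_zero (𝒪 := 𝒪) (f₁.prod f₂) e hz
  refine ⟨s, a, u, fun i => ?_, he⟩
  have h := hu i
  exact ⟨congrArg Prod.fst h, congrArg Prod.snd h⟩

end Flat

end Fermat.Agent.S35.NewDesc
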