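import Mathlib
import Fermat.Prelude.Def_CuspForm_Newforms
import Fermat.Agent.S21
import Fermat.Agent.S41.NewCore
import Fermat.Agent.S41.Coh
import Fermat.Agent.S41.HeckeComm
import Fermat.Agent.S41.FSEigen

/-!
# S35, block [C], leaf [C1] (B-copy): the period class of a newform is killed by both transfers

Level `M * q`, `q` prime, `q ∤ M`.  For a normalized eigenform `g` of level `M * q` whose good
eigensystem does not occur at level `M` (in particular for a newform), the two transfers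
`tr₁, tr₂ : Hom(Γ₀(Mq), ℂ) → Hom(Γ₀(M), ℂ)` kill the period class `periodHomPair (M q) (g, 0)`.

* `exists_common_eigenvector` : a commuting family of endomorphisms stabilising a nonzero
  finite-dimensional subspace has a common eigenvector in it;
* `eq_zero_of_heckeT_eigen`   : a parabolic class of level `M` which is a `T_ℓ`-eigenclass for all
  primes `ℓ ∤ M q` with eigenvalues `a ℓ` vanishes, unless some normalized eigenform of level `M`
  has `ℓ`-th coefficient `a ℓ` for all `ℓ ∤ M q` (Eichler–Shimura at level `M` + normalization);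
* `tr_periodHomPair_eq_zero`  : the statement above;
* `tr_periodHomPair_eq_zero_of_isNewform` : the same for a newform.
-/

set_option autoImplicit false

namespace Fermat.Agent.S35.NewPerB

open CongruenceSubgroup ModularCurve ModularCurve.Period
open Fermat.Agent.S16 (heckeTHom heckeUHom)
open Fermat.Agent.S41 (tr₁ tr₂)
open Fermat.Agent.S41.NewCore (pairT pairU opSet)

/-! ### A common eigenvector of a commuting family -/

/-- A commuting family `G` of endomorphisms stabilising a nonzero finite-dimensional subspace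
`W` has a common eigenvector in `W`. -/
theorem exists_common_eigenvector {V : Type*} [AddCommGroup V] [Module ℂ V]
    (G : Set (Module.End ℂ V)) (hG : ∀ s ∈ G, ∀ t ∈ G, s * t = t * s) :
    ∀ (n : ℕ) (W : Submodule ℂ V), FiniteDimensional ℂ W → Module.finrank ℂ W = n → W ≠ ⊥ →
      (∀ t ∈ G, ∀ w ∈ W, t w ∈ W) →
      ∃ v ∈ W, v ≠ 0 ∧ ∀ t ∈ G, ∃ μ : ℂ, t v = μ • v := by
  intro n
  induction n using Nat.strong_induction_on with
  | _ n ih =>
    intro W hfin hn hW hstab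
    by_cases hsc : ∀ t ∈ G, ∃ μ : ℂ, ∀ w ∈ W, t w = μ • w
    · obtain ⟨v, hv, hv0⟩ := (Submodule.ne_bot_iff W).mp hW
      refine ⟨v, hv, hv0, fun t ht => ?_⟩
      obtain ⟨μ, hμ⟩ := hsc t ht
      exact ⟨μ, hμ v hv⟩
    · rw [not_forall] at hsc
      obtain ⟨t, hsc⟩ := hsc
      rw [Classical.not_imp] at hsc
      obtain ⟨ht, hnsc⟩ := hsc
      rw [not_exists] at hnsc
      have hnt : Nontrivial W := (Submodule.nontrivial_iff_ne_bot).mpr hW
      obtain ⟨μ, hμ⟩ := Module.End.exists_eigenvalue (t.restrict (hstab t ht))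
      obtain ⟨w0, hw0⟩ := hμ.exists_hasEigenvector
      set W' : Submodule ℂ V := W ⊓ LinearMap.ker (t - μ • LinearMap.id) with hW'
      have hW'le : W' ≤ W := inf_le_left
      have hmem : ∀ w, w ∈ W' ↔ w ∈ W ∧ t w = μ • w := by
        intro w
        rw [hW', Submodule.mem_inf, LinearMap.mem_ker, LinearMap.sub_apply, LinearMap.smul_apply,
          LinearMap.id_apply, sub_eq_zero]
      have hW'ne : W' ≠ ⊥ := by
        rw [Submodule.ne_bot_iff]
        refine ⟨(w0 : V), (hmem _).mpr ⟨w0.2, ?_⟩, ?_⟩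
        · have h1 := hw0.apply_eq_smul
          have h2 := congrArg Subtype.val h1
          exact h2
        · intro h0
          exact hw0.2 (Subtype.ext h0)
      have hW'lt : W' < W := by
        refine lt_of_le_of_ne hW'le ?_
        intro heq
        apply hnsc μ
        intro w hw
        have hw' : w ∈ W' := heq ▸ hw
        exact ((hmem w).mp hw').2
      have hfin' : FiniteDimensional ℂ W' := Submodule.finiteDimensional_of_le hW'le
      have hlt : Module.finrank ℂ W' < n := hn ▸ Submodule.finrank_lt_finrank_of_lt hW'lt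
      have hstab' : ∀ s ∈ G, ∀ w ∈ W', s w ∈ W' := by
        intro s hs w hw
        obtain ⟨hwW, hwt⟩ := (hmem w).mp hw
        refine (hmem _).mpr ⟨hstab s hs w hwW, ?_⟩
        have hc : t (s w) = s (t w) := by
          have h1 := congrArg (fun f : Module.End ℂ V => f w) (hG t ht s hs)
          exact h1
        rw [hc, hwt, map_smul]
      obtain ⟨v, hv, hv0, hveig⟩ := ih _ hlt W' hfin' rfl hW'ne hstab'
      exact ⟨v, hW'le hv, hv0, hveig⟩

/-! ### `ℂ`-linearity of the transfers -/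

section Smul

variable {Γ : Type*} [Group Γ]

theorem smul_eq_comp (c : ℂ) (ψ : Additive Γ →+ ℂ) :
    c • ψ = (AddMonoidHom.mulLeft c).comp ψ := by
  ext γ
  rfl

end Smul

theorem tr₁_smul (M q : ℕ) (c : ℂ) (ψ : Additive (Gamma0 (M * q)) →+ ℂ) :
    tr₁ M q (c • ψ) = c • tr₁ M q ψ := by
  rw [smul_eq_comp, Fermat.Agent.S41.tr₁_comp, ← smul_eq_comp]

theorem tr₂_smul (M q : ℕ) (c : ℂ) (ψ : Additive (Gamma0 (M * q)) →+ ℂ) :
    tr₂ M q (c • ψ) = c • tr₂ M q ψ := by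
  rw [smul_eq_comp, Fermat.Agent.S41.tr₂_comp, ← smul_eq_comp]

/-! ### Eigenclasses of level `M` come from eigenforms -/

/-- A parabolic class `z` of level `M` with `T_ℓ z = a ℓ • z` for all primes `ℓ ∤ M q` is zero,
unless a normalized eigenform of level `M` has coefficients `a ℓ` at all primes `ℓ ∤ M q`. -/
theorem eq_zero_of_heckeT_eigen (M q : ℕ) [NeZero M] (a : ℕ → ℂ)
    (z : Additive (Gamma0 M) →+ ℂ) (hz : z ∈ parabolicHoms ℂ (Gamma0 M) ℂ)
    (heig : ∀ (ℓ : ℕ) [Fact ℓ.Prime] (hℓ : ¬ ℓ ∣ M), ¬ ℓ ∣ M * q →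
      heckeTHom M ℓ hℓ z = a ℓ • z)
    (hno : ¬ ∃ f : CuspForm (Gamma0 M) 2, f.IsNormalizedEigenform ∧
      ∀ ℓ : ℕ, ℓ.Prime → ¬ ℓ ∣ M * q → ModularFormClass.qCoeff f ℓ = a ℓ) : z = 0 := by
  classical
  by_contra hz0
  apply hno
  have hinj := (Fermat.Agent.S21.result M).1
  have hrange := (Fermat.Agent.S21.result M).2
  have hz' : z ∈ LinearMap.range (periodHomPair M) := by rw [hrange]; exact hz
  obtain ⟨s, hs⟩ := hz'
  have hs0 : s ≠ 0 := by
    rintro rfl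
    exact hz0 (by rw [← hs, map_zero])
  -- `s` is a joint eigenvector of the `T_ℓ × T_ℓ`, `ℓ ∤ M q`
  have hseig : ∀ (ℓ : ℕ) (hℓ : ℓ.Prime) (hℓM : ¬ ℓ ∣ M), ¬ ℓ ∣ M * q →
      pairT M hℓ hℓM s = a ℓ • s := by
    intro ℓ hℓ hℓM hℓMq
    have : Fact ℓ.Prime := ⟨hℓ⟩
    apply hinj
    rw [Fermat.Agent.S41.NewCore.period_pairT M hℓ hℓM s, hs, heig ℓ hℓM hℓMq, map_smul, hs]
  -- the joint eigenspace
  let W : Submodule ℂ (CuspForm (Gamma0 M) 2 × CuspForm (Gamma0 M) 2) :=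
    { carrier := {v | ∀ (ℓ : ℕ) (hℓ : ℓ.Prime) (hℓM : ¬ ℓ ∣ M), ¬ ℓ ∣ M * q →
        pairT M hℓ hℓM v = a ℓ • v}
      add_mem' := by
        intro v w hv hw ℓ hℓ hℓM hℓMq
        rw [map_add, hv ℓ hℓ hℓM hℓMq, hw ℓ hℓ hℓM hℓMq, smul_add]
      zero_mem' := by
        intro ℓ hℓ hℓM _
        rw [map_zero, smul_zero]
      smul_mem' := by
        intro c v hv ℓ hℓ hℓM hℓMq
        rw [map_smul, hv ℓ hℓ hℓM hℓMq, smul_comm] }
  have hWmem : ∀ v, v ∈ W ↔ ∀ (ℓ : ℕ) (hℓ : ℓ.Prime) (hℓM : ¬ ℓ ∣ M), ¬ ℓ ∣ M * q →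
      pairT M hℓ hℓM v = a ℓ • v := fun v => Iff.rfl
  have hsW : s ∈ W := hseig
  have hWne : W ≠ ⊥ := (Submodule.ne_bot_iff W).mpr ⟨s, hsW, hs0⟩
  have hfin1 : Module.Finite ℂ (CuspForm (Gamma0 M) 2) :=
    Fermat.Agent.S21.finite_cuspForm_Gamma0 M
  have hfinW : FiniteDimensional ℂ W := inferInstance
  have hstab : ∀ t ∈ opSet M, ∀ w ∈ W, t w ∈ W := by
    intro t ht w hw ℓ hℓ hℓM hℓMq
    have hc : pairT M hℓ hℓM (t w) = t (pairT M hℓ hℓM w) := by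
      have h1 := congrArg
        (fun f : Module.End ℂ (CuspForm (Gamma0 M) 2 × CuspForm (Gamma0 M) 2) => f w)
        (Fermat.Agent.S41.NewCore.opSet_comm M _
          (Fermat.Agent.S41.NewCore.pairT_mem_opSet M hℓ hℓM) t ht)
      exact h1
    rw [hc, hw ℓ hℓ hℓM hℓMq, map_smul]
  obtain ⟨v, hvW, hv0, hveig⟩ := exists_common_eigenvector (opSet M)
    (Fermat.Agent.S41.NewCore.opSet_comm M) _ W hfinW rfl hWne hstab
  choose! μ hμ using hveig
  -- eigenvalues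
  set lam : ℕ → ℂ := fun ℓ =>
    if h : ℓ.Prime then (if hM : ℓ ∣ M then μ (pairU M hM) else μ (pairT M h hM)) else 0
    with hlam
  have hlamT : ∀ (ℓ : ℕ) (hℓ : ℓ.Prime) (hℓM : ¬ ℓ ∣ M), lam ℓ = μ (pairT M hℓ hℓM) := by
    intro ℓ hℓ hℓM
    simp only [hlam, dif_pos hℓ, dif_neg hℓM]
  have hlamU : ∀ (ℓ : ℕ) (_ : ℓ.Prime) (hℓM : ℓ ∣ M), lam ℓ = μ (pairU M hℓM) := by
    intro ℓ hℓ hℓM
    simp only [hlam, dif_pos hℓ, dif_pos hℓM]
  have hTv : ∀ (ℓ : ℕ) (hℓ : ℓ.Prime) (hℓM : ¬ ℓ ∣ M), pairT M hℓ hℓM v = lam ℓ • v := by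
    intro ℓ hℓ hℓM
    rw [hμ _ (Fermat.Agent.S41.NewCore.pairT_mem_opSet M hℓ hℓM), hlamT ℓ hℓ hℓM]
  have hUv : ∀ (ℓ : ℕ) (_ : ℓ.Prime) (hℓM : ℓ ∣ M), pairU M hℓM v = lam ℓ • v := by
    intro ℓ hℓ hℓM
    rw [hμ _ (Fermat.Agent.S41.NewCore.pairU_mem_opSet M hℓ hℓM), hlamU ℓ hℓ hℓM]
  have hlam_a : ∀ ℓ : ℕ, ℓ.Prime → ¬ ℓ ∣ M * q → lam ℓ = a ℓ := by
    intro ℓ hℓ hℓMq
    have hℓM : ¬ ℓ ∣ M := fun h => hℓMq (Dvd.dvd.mul_right h q)
    have h1 := hTv ℓ hℓ hℓM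
    rw [hvW ℓ hℓ hℓM hℓMq] at h1
    have h2 : (a ℓ - lam ℓ) • v = 0 := by rw [sub_smul, h1, sub_self]
    rcases smul_eq_zero.mp h2 with h3 | h3
    · exact (sub_eq_zero.mp h3).symm
    · exact absurd h3 hv0
  -- a nonzero component
  obtain ⟨g', hg'0, hTg', hUg'⟩ : ∃ g' : CuspForm (Gamma0 M) 2, g' ≠ 0 ∧
      (∀ (ℓ : ℕ) (hℓ : ℓ.Prime) (hℓM : ¬ ℓ ∣ M),
        CuspForm.heckeTLin 2 hℓ hℓM g' = lam ℓ • g') ∧
      (∀ (ℓ : ℕ) (_ : ℓ.Prime) (hℓM : ℓ ∣ M), CuspForm.heckeULin 2 hℓM g' = lam ℓ • g') := by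
    by_cases h1 : v.1 = 0
    · have h2 : v.2 ≠ 0 := fun h2 => hv0 (Prod.ext h1 h2)
      exact ⟨v.2, h2, fun ℓ hℓ hℓM => congrArg Prod.snd (hTv ℓ hℓ hℓM),
        fun ℓ hℓ hℓM => congrArg Prod.snd (hUv ℓ hℓ hℓM)⟩
    · exact ⟨v.1, h1, fun ℓ hℓ hℓM => congrArg Prod.fst (hTv ℓ hℓ hℓM),
        fun ℓ hℓ hℓM => congrArg Prod.fst (hUv ℓ hℓ hℓM)⟩
  obtain ⟨f, hf, hfq⟩ :=
    Fermat.Agent.S49.exists_normalizedEigenform_of_eigenvector g' hg'0 lam hTg' hUg'
  exact ⟨f, hf, fun ℓ hℓ hℓMq => by rw [hfq ℓ hℓ, hlam_a ℓ hℓ hℓMq]⟩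

/-! ### The period class of a newform is killed by the transfers -/

/-- **[C1]** Level `M * q`, `q` prime, `q ∤ M`: if the good eigensystem of the normalized
eigenform `g` does not occur at level `M`, both transfers kill its period class. -/
theorem tr_periodHomPair_eq_zero (M q : ℕ) [NeZero M] [Fact q.Prime] (hqM : ¬ q ∣ M)
    (g : CuspForm (Gamma0 (M * q)) 2) (hg : g.IsNormalizedEigenform)
    (hnew : ¬ CuspForm.GoodEigensystemOccursAt g M) :
    tr₁ M q (periodHomPair (M * q) (g, 0)) = 0 ∧ tr₂ M q (periodHomPair (M * q) (g, 0)) = 0 := by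
  have hq : q.Prime := Fact.out
  have : NeZero (M * q) := ⟨Nat.mul_ne_zero (NeZero.ne M) hq.ne_zero⟩
  set P : Additive (Gamma0 (M * q)) →+ ℂ := periodHomPair (M * q) (g, 0) with hP
  have hPpar : P ∈ parabolicHoms ℂ (Gamma0 (M * q)) ℂ := by
    rw [← (Fermat.Agent.S21.result (M * q)).2]
    exact LinearMap.mem_range_self _ _
  have hPeig : ∀ (ℓ : ℕ) [Fact ℓ.Prime] (hℓ' : ¬ ℓ ∣ M * q),
      heckeTHom (M * q) ℓ hℓ' P = ModularFormClass.qCoeff g ℓ • P := by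
    intro ℓ _ hℓ'
    have hℓp : ℓ.Prime := Fact.out
    rw [hP, ← Fermat.Agent.S41.NewCore.period_pairT (M * q) hℓp hℓ' (g, 0),
      Fermat.Agent.S41.NewCore.pairT_apply,
      Fermat.Agent.S41.FSEigen.heckeTLin_eq_smul g hg hℓp hℓ', map_zero, ← map_smul,
      Prod.smul_mk, smul_zero]
  have hno : ¬ ∃ f : CuspForm (Gamma0 M) 2, f.IsNormalizedEigenform ∧
      ∀ ℓ : ℕ, ℓ.Prime → ¬ ℓ ∣ M * q → ModularFormClass.qCoeff f ℓ = ModularFormClass.qCoeff g ℓ :=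
    hnew
  constructor
  · apply eq_zero_of_heckeT_eigen M q (fun ℓ => ModularFormClass.qCoeff g ℓ) _ ?_ ?_ hno
    · exact Fermat.Agent.S41.Coh.isParabolicHom_tr₁ hqM hPpar
    · intro ℓ _ hℓ hℓ'
      rw [← Fermat.Agent.S41.tr₁_heckeT M q hℓ hℓ' P, hPeig ℓ hℓ', tr₁_smul]
  · apply eq_zero_of_heckeT_eigen M q (fun ℓ => ModularFormClass.qCoeff g ℓ) _ ?_ ?_ hno
    · exact Fermat.Agent.S41.Coh.isParabolicHom_tr₂ hqM hPpar
    · intro ℓ _ hℓ hℓ'
      rw [← Fermat.Agent.S41.tr₂_heckeT M q hℓ hℓ' P, hPeig ℓ hℓ', tr₂_smul]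

/-- **[C1]** for a newform of level `M * q`. -/
theorem tr_periodHomPair_eq_zero_of_isNewform (M q : ℕ) [NeZero M] [Fact q.Prime]
    (hqM : ¬ q ∣ M) (g : CuspForm (Gamma0 (M * q)) 2) (hg : g.IsNewform) :
    tr₁ M q (periodHomPair (M * q) (g, 0)) = 0 ∧ tr₂ M q (periodHomPair (M * q) (g, 0)) = 0 := by
  have hq : q.Prime := Fact.out
  refine tr_periodHomPair_eq_zero M q hqM g hg.1 (hg.2 M (Dvd.intro q rfl) ?_)
  intro h
  have h1 : M * 1 = M * q := by rw [mul_one]; exact h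
  have h2 : 1 = q := Nat.eq_of_mul_eq_mul_left (Nat.pos_of_ne_zero (NeZero.ne M)) h1
  exact hq.one_lt.ne h2

end Fermat.Agent.S35.NewPerB
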