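/-
S35 block [D] (bridge `J ↔ Lpar`), the `tr₂` TWIN of the leaves [TrProdMem] + [TrQx] —
Tr2Prod.lean (helper54).

Level `M q`, `q` prime, `q ∤ M`; `α₀ = heckeRep q 0 = [[1,0],[0,q]]`, `rep₂ x`
(`x ∈ ℙ¹(𝔽_q)`) the representatives of `incl₂(Γ₀(Mq)) \ Γ₀(M)` of `S41/TrReps.lean`
(`α₀ · incl₂ h = h · α₀`, `S41/TrResT.heckeRep_zero_mul`).  For a form `A` of weight `w` and
multiplier `χ` on `Γ₀(Mq)` put

    tr2Prod hqM w A = ∏ x, (A ∣[w] α₀) ∣[w] rep₂ x .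

* (a) `tr2Prod_mem_of_char` : `tr2Prod hqM w A ∈ MFchi M (w (q + 1)) χ'` for every `χ'` with
  `χ' γ = ∏ x, χ (part₂ γ x)`; `chiU_tr₂_apply`, `tr2Prod_mem` : `χ = χ_u ⇒ χ' = χ_{tr₂ u}`;
  `tr2Prod_mem_MF_of_tr₂_eq_zero`, `tr2Prod_mem_MF` (trivial multiplier), `tr2Prod_ne_zero`.
* (b) `exists_tr2Prod_eq_smul` : `tr2Prod hqM w A = c • ((fun z => (A ∣[w] γ₀) (q z)) * uProd q A)`,
  `c ≠ 0`, for ANY `γ₀ ∈ SL₂(ℤ)` with `M ∣ γ₀ 1 0`, `q ∣ γ₀ 1 1` (`tr2Prod_eq_of_mem_MF` :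
  `c = slashConst q w` for trivial multiplier); `dil_mem_niceSub` : the dilated Atkin–Lehner
  transform `z ↦ (A ∣[w] γ₀) (q z)` is a nice function; `exists_qx_tr2Prod` :
  `qx (tr2Prod hqM w A) = c • (qx (fun z => (A ∣[w] γ₀) (q z)) * NP (qx A))`,
  `NP X = KC.qContract q (∏ i < q, KC.twist (ζ_q ^ i) X)` the formal coset norm (written out; it
  is `TrQx.NP q X` by `rfl`, and `fun z => (A ∣[w] γ₀) (S23.mulN q z)` is `ALQx.AW γ₀ q w A` by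
  `rfl`).
* (c) `exists_forms` : consumer shape — for `A ∈ MFchi (Mq) w χ_u` (`u ∈ Lpar (Mq)`),
  `B ∈ MF (Mq) w`, `B ≠ 0`: `∃ w' A' B'`, `A' ∈ MFchi M w' χ_{tr₂ u}`, `B' ∈ MF M w'`, `B' ≠ 0`,
  `qx A' = qx (AW A) * NP (qx A)`, `qx B' = qx (AW B) * NP (qx B)`,
  `AW F = fun z => (F ∣[w] γ₀) (q z)`.
-/
import Mathlib
import Fermat.Agent.S29.KDefs
import Fermat.Agent.S29.KBasic
import Fermat.Agent.S29.KPlanDefs
import Fermat.Agent.S29.HeckeProd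
import Fermat.Agent.S29.HeckeProdMem
import Fermat.Agent.S29.HeckeProdQxB
import Fermat.Agent.S41.Defs
import Fermat.Agent.S41.TrReps
import Fermat.Agent.S41.TrResT
import Fermat.Agent.S35.TrProdMem

set_option autoImplicit false

noncomputable section

namespace Fermat.Agent.S35.Tr2Prod

open CongruenceSubgroup UpperHalfPlane Matrix.SpecialLinearGroup Filter OnePoint
open scoped MatrixGroups Manifold ModularForm
open ModularForm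
open P2MW.S_ModularForm_heckeT_slash_eq_self_of_mem_Gamma0.ModularForm.HeckeSlashInvariance
open Fermat.Agent.S29 Fermat.Agent.S41 Fermat.Agent.S16 Fermat.Agent.S37

variable {M q : ℕ} [Fact q.Prime] (hqM : ¬ q ∣ M)

/-- The matrix `α₀ = [[1,0],[0,q]]`. -/
abbrev alpha0 (q : ℕ) : GL (Fin 2) ℝ := heckeRep q ((0 : ZMod q) : OnePoint (ZMod q))

theorem alpha0_eq (q : ℕ) : alpha0 q = heckeMatrix q 0 := by
  rw [alpha0, heckeRep_coe, ZMod.val_zero]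

/-- The `tr₂`-product of `A`: `∏ x, (A ∣[w] α₀) ∣[w] rep₂ x`. -/
def tr2Prod (w : ℤ) (A : ℍ → ℂ) : ℍ → ℂ :=
  ∏ x : OnePoint (ZMod q), (A ∣[w] alpha0 q) ∣[w] ((rep₂ M q hqM x : Gamma0 M) : SL(2, ℤ))

/-! ### (a) the multiplier of the `tr₂`-product -/

/-- Moving `γ ∈ Γ₀(M)` through `α₀ · rep₂ x` at the level of slashes. -/
theorem slash_rep₂_slash (w : ℤ) {χ : ↥(Gamma0 (M * q)) →* ℂˣ} {A : ℍ → ℂ}
    (hA : A ∈ K.MFchi (M * q) w χ) (γ : ↥(Gamma0 M)) (x : OnePoint (ZMod q)) :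
    ((A ∣[w] alpha0 q) ∣[w] ((rep₂ M q hqM x : Gamma0 M) : SL(2, ℤ))) ∣[w] (γ : SL(2, ℤ)) =
      ((χ ((trData₂ M q hqM).part γ x) : ℂˣ) : ℂ) •
        ((A ∣[w] alpha0 q) ∣[w]
          ((rep₂ M q hqM ((trData₂ M q hqM).perm γ x) : Gamma0 M) : SL(2, ℤ))) := by
  have hspec := congrArg (fun g : Gamma0 M => (g : SL(2, ℤ))) (trData₂_spec hqM γ x)
  simp only [Subgroup.coe_mul] at hspec
  have h2 : (A ∣[w] alpha0 q) ∣[w]
        ((incl₂ M q ((trData₂ M q hqM).part γ x) : Gamma0 M) : SL(2, ℤ)) =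
      ((χ ((trData₂ M q hqM).part γ x) : ℂˣ) : ℂ) • (A ∣[w] alpha0 q) := by
    change (A ∣[w] alpha0 q) ∣[w]
        (mapGL ℝ ((incl₂ M q ((trData₂ M q hqM).part γ x) : Gamma0 M) : SL(2, ℤ))) = _
    rw [← SlashAction.slash_mul, TrResT.heckeRep_zero_mul, SlashAction.slash_mul]
    have h1 : A ∣[w] (mapGL ℝ ((incl₁ M q ((trData₂ M q hqM).part γ x) : Gamma0 M) : SL(2, ℤ))) =
        ((χ ((trData₂ M q hqM).part γ x) : ℂˣ) : ℂ) • A := hA.2.1 _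
    rw [h1, HeckeProdMem.smul_slash_heckeRep]
  rw [← SlashAction.slash_mul, hspec, SlashAction.slash_mul, h2, ModularForm.SL_smul_slash]

/-- **(a), definition-free form**: the `tr₂`-product of a form of weight `w` and multiplier `χ`
on `Γ₀(Mq)` is a form of weight `w (q + 1)` on `Γ₀(M)` with multiplier the `tr₂`-transfer of
`χ`. -/
theorem tr2Prod_mem_of_char {w : ℤ} {χ : ↥(Gamma0 (M * q)) →* ℂˣ} (χ' : ↥(Gamma0 M) →* ℂˣ)
    (hχ' : ∀ γ : ↥(Gamma0 M), χ' γ = ∏ x : OnePoint (ZMod q), χ ((trData₂ M q hqM).part γ x))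
    {A : ℍ → ℂ} (hA : A ∈ K.MFchi (M * q) w χ) :
    tr2Prod hqM w A ∈ K.MFchi M (w * ((q : ℤ) + 1)) χ' := by
  have : NeZero q := ⟨(Fact.out : q.Prime).ne_zero⟩
  have hA' := hA
  obtain ⟨hA1, hA2, hA3⟩ := hA
  refine ⟨?_, fun γ => ?_, fun g => ?_⟩
  · exact MDifferentiable.prod (fun x _ => (hA1.slash w _).slash w _)
  · unfold tr2Prod
    rw [HeckeProdMem.prod_slash_SL]
    simp only [slash_rep₂_slash hqM w hA' γ]
    rw [Finset.prod_smul, hχ', Units.coe_prod]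
    congr 1
    exact Equiv.prod_comp ((trData₂ M q hqM).perm γ)
      (fun x => (A ∣[w] alpha0 q) ∣[w] ((rep₂ M q hqM x : Gamma0 M) : SL(2, ℤ)))
  · unfold tr2Prod
    rw [HeckeProdMem.prod_slash_SL]
    refine BoundedAtFilter.prod _ (fun x _ => ?_)
    rw [← SlashAction.slash_mul]
    obtain ⟨g', hg'⟩ := HeckeProd.exists_heckeRep_mul q
      (((rep₂ M q hqM x : Gamma0 M) : SL(2, ℤ)) * g) ((0 : ZMod q) : OnePoint (ZMod q))
    change IsBoundedAtImInfty ((A ∣[w] alpha0 q) ∣[w]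
      (mapGL ℝ (((rep₂ M q hqM x : Gamma0 M) : SL(2, ℤ)) * g)))
    rw [← SlashAction.slash_mul, hg', SlashAction.slash_mul]
    exact (hA3 g').slash w (heckeRep_apply_one_zero' q _)

/-- The `tr₂`-transfer of `χ_u` is `χ_{tr₂ u}`. -/
theorem chiU_tr₂_apply (p : ℕ) (u : Additive (Gamma0 (M * q)) →+ ℤ) (γ : Gamma0 M) :
    KPlan.chiU p (tr₂ M q u) γ =
      ∏ x : OnePoint (ZMod q), KPlan.chiU p u ((trData₂ M q hqM).part γ x) := by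
  rw [KPlan.chiU_apply, tr₂_apply hqM]
  simp only [KPlan.chiU_apply]
  exact (TrProdMem.prod_zpow_eq Finset.univ _ _).symm

/-- **(a)**: multiplier `χ_u` ⇒ multiplier `χ_{tr₂ u}`. -/
theorem tr2Prod_mem (p : ℕ) (u : Additive (Gamma0 (M * q)) →+ ℤ) {w : ℤ} {A : ℍ → ℂ}
    (hA : A ∈ K.MFchi (M * q) w (KPlan.chiU p u)) :
    tr2Prod hqM w A ∈ K.MFchi M (w * ((q : ℤ) + 1)) (KPlan.chiU p (tr₂ M q u)) :=
  tr2Prod_mem_of_char hqM _ (chiU_tr₂_apply hqM p u) hA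

/-- **(a), kernel of the transfer**: if `tr₂ u = 0`, the `tr₂`-product has trivial multiplier. -/
theorem tr2Prod_mem_MF_of_tr₂_eq_zero [NeZero M] (p : ℕ) (u : Additive (Gamma0 (M * q)) →+ ℤ)
    (hu : tr₂ M q u = 0) {w : ℤ} {A : ℍ → ℂ} (hA : A ∈ K.MFchi (M * q) w (KPlan.chiU p u)) :
    tr2Prod hqM w A ∈ S20.MF M (w * ((q : ℤ) + 1)) := by
  have h := tr2Prod_mem hqM p u hA
  rw [hu, KPlan.chiU_zero] at h
  exact HeckeProdMem.mem_MF_iff_mem_MFchi_one.mpr h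

/-- **(a) for the denominators**: trivial multiplier on `Γ₀(Mq)` ⇒ trivial multiplier on
`Γ₀(M)`. -/
theorem tr2Prod_mem_MF [NeZero M] [NeZero (M * q)] {w : ℤ} {B : ℍ → ℂ}
    (hB : B ∈ S20.MF (M * q) w) : tr2Prod hqM w B ∈ S20.MF M (w * ((q : ℤ) + 1)) := by
  have hB' : B ∈ K.MFchi (M * q) w (KPlan.chiU 1 (0 : Additive (Gamma0 (M * q)) →+ ℤ)) := by
    rw [KPlan.chiU_zero]
    exact HeckeProdMem.mem_MF_iff_mem_MFchi_one.mp hB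
  exact tr2Prod_mem_MF_of_tr₂_eq_zero hqM 1 0 (tr₂_zero M q) hB'

/-- The `tr₂`-product of a nonzero holomorphic function is nonzero. -/
theorem tr2Prod_ne_zero (w : ℤ) {B : ℍ → ℂ} (hB : MDiff B) (hB0 : B ≠ 0) :
    tr2Prod hqM w B ≠ 0 := by
  have : NeZero q := ⟨(Fact.out : q.Prime).ne_zero⟩
  have h0 : B ∣[w] alpha0 q ≠ 0 := by
    intro h
    rw [SlashAction.slash_eq_zero_iff] at h
    exact hB0 h
  exact TrProdMem.prod_slash_ne_zero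
    (fun x : OnePoint (ZMod q) => ((rep₂ M q hqM x : Gamma0 M) : SL(2, ℤ))) w (hB.slash w _) h0

/-! ### (b) the `tr₂`-product as a function -/

/-- `α₀ · rep₂ x = g · α_x` with `g ∈ Γ₀(M)`. -/
theorem exists_alpha0_mul_rep₂ (x : OnePoint (ZMod q)) :
    ∃ g : SL(2, ℤ), (M : ℤ) ∣ g 1 0 ∧
      alpha0 q * mapGL ℝ ((rep₂ M q hqM x : Gamma0 M) : SL(2, ℤ)) = mapGL ℝ g * heckeRep q x := by
  obtain ⟨g, hg, h⟩ := heckeRep_mul hqM ((rep₂ M q hqM x : Gamma0 M) : SL(2, ℤ))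
    (mem_Gamma0_iff_dvd.mp (rep₂ M q hqM x).2) ((0 : ZMod q) : OnePoint (ZMod q))
  refine ⟨g, hg, ?_⟩
  have hx : redMatrix q ((rep₂ M q hqM x : Gamma0 M) : SL(2, ℤ)) •
      ((0 : ZMod q) : OnePoint (ZMod q)) = x := p1Act_rep₂ M q hqM x
  rw [hx] at h
  exact h

/-- `α₀ · T^j = α_j`. -/
theorem alpha0_mul_rep₂_coe (j : ZMod q) :
    alpha0 q * mapGL ℝ ((rep₂ M q hqM (j : OnePoint (ZMod q)) : Gamma0 M) : SL(2, ℤ)) =
      heckeRep q (j : OnePoint (ZMod q)) := by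
  have hq : q ≠ 0 := (Fact.out : q.Prime).ne_zero
  have hr : ((rep₂ M q hqM (j : OnePoint (ZMod q)) : Gamma0 M) : SL(2, ℤ)) =
      rep₂Mat (j.val : ℤ) := rfl
  apply Matrix.GeneralLinearGroup.ext
  intro i k
  rw [hr, heckeRep_coe, alpha0_eq]
  simp only [Matrix.GeneralLinearGroup.coe_mul, Matrix.mul_apply, Fin.sum_univ_two,
    ModularForm.val_heckeMatrix hq, mapGL_apply]
  fin_cases i <;> fin_cases k <;> simp [rep₂Mat]

/-- The lower right entry of the `Γ₀(M)`-part of `α₀ · rep₂ ∞` is divisible by `q`. -/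
theorem dvd_of_alpha0_mul_rep₂_infty {g : SL(2, ℤ)}
    (h : alpha0 q * mapGL ℝ ((rep₂ M q hqM (∞ : OnePoint (ZMod q)) : Gamma0 M) : SL(2, ℤ)) =
      mapGL ℝ g * heckeRep q (∞ : OnePoint (ZMod q))) : (q : ℤ) ∣ g 1 1 := by
  have hq : q ≠ 0 := (Fact.out : q.Prime).ne_zero
  have h11 := congrArg (fun X : GL (Fin 2) ℝ => (X : Matrix (Fin 2) (Fin 2) ℝ) 1 1) h
  rw [heckeRep_infty, alpha0_eq] at h11
  simp only [Matrix.GeneralLinearGroup.coe_mul, Matrix.mul_apply, Fin.sum_univ_two,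
    ModularForm.val_heckeMatrix hq, ModularForm.val_heckeDiagMatrix hq, mapGL_apply] at h11
  simp at h11
  refine ⟨((rep₂ M q hqM (∞ : OnePoint (ZMod q)) : Gamma0 M) : SL(2, ℤ)) 1 1, ?_⟩
  exact_mod_cast h11.symm

/-- The `tr₂`-product in terms of the `U`-part `uProd q A` and the dilation of `A ∣[w] γ₂` for a
suitable `γ₂ ∈ Γ₀(M)` with `q ∣ γ₂ 1 1`. -/
theorem exists_tr2Prod_eq :
    ∃ γ₂ : SL(2, ℤ), (M : ℤ) ∣ γ₂ 1 0 ∧ (q : ℤ) ∣ γ₂ 1 1 ∧ ∀ (w : ℤ) (A : ℍ → ℂ),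
      tr2Prod hqM w A = HeckeProdQxB.slashConst q w •
        ((fun z : ℍ => (A ∣[w] γ₂) (S23.mulN q z)) * HeckeProdQxB.uProd q A) := by
  have hq : q ≠ 0 := (Fact.out : q.Prime).ne_zero
  obtain ⟨γ₂, h10, hγ₂⟩ := exists_alpha0_mul_rep₂ hqM (∞ : OnePoint (ZMod q))
  refine ⟨γ₂, h10, dvd_of_alpha0_mul_rep₂_infty hqM hγ₂, fun w A => ?_⟩
  funext z
  unfold tr2Prod
  rw [Finset.prod_apply, Pi.smul_apply, Pi.mul_apply, smul_eq_mul]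
  have h := Fintype.prod_option (fun x : OnePoint (ZMod q) =>
    ((A ∣[w] alpha0 q) ∣[w] ((rep₂ M q hqM x : Gamma0 M) : SL(2, ℤ))) z)
  refine h.trans ?_
  have h1 : ((A ∣[w] alpha0 q) ∣[w]
      ((rep₂ M q hqM (Option.none : OnePoint (ZMod q)) : Gamma0 M) : SL(2, ℤ))) z =
      (q : ℂ) ^ (w - 1) * (A ∣[w] γ₂) (S23.mulN q z) := by
    have e : (A ∣[w] alpha0 q) ∣[w]
        ((rep₂ M q hqM (Option.none : OnePoint (ZMod q)) : Gamma0 M) : SL(2, ℤ)) =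
        (A ∣[w] γ₂) ∣[w] heckeDiagMatrix q := by
      change (A ∣[w] alpha0 q) ∣[w]
        (mapGL ℝ ((rep₂ M q hqM (∞ : OnePoint (ZMod q)) : Gamma0 M) : SL(2, ℤ))) = _
      rw [← SlashAction.slash_mul, hγ₂, SlashAction.slash_mul]
      rfl
    rw [e, slash_heckeDiagMatrix_apply w hq, HeckeProdQxB.heckeDiagMatrix_smul_eq]
  have h2 : ∀ j : ZMod q, ((A ∣[w] alpha0 q) ∣[w]
      ((rep₂ M q hqM (Option.some j : OnePoint (ZMod q)) : Gamma0 M) : SL(2, ℤ))) z =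
      (q : ℂ)⁻¹ * A (heckeMatrix q j.val • z) := by
    intro j
    have e : (A ∣[w] alpha0 q) ∣[w]
        ((rep₂ M q hqM (Option.some j : OnePoint (ZMod q)) : Gamma0 M) : SL(2, ℤ)) =
        A ∣[w] heckeMatrix q j.val := by
      change (A ∣[w] alpha0 q) ∣[w]
        (mapGL ℝ ((rep₂ M q hqM (j : OnePoint (ZMod q)) : Gamma0 M) : SL(2, ℤ))) = _
      rw [← SlashAction.slash_mul, alpha0_mul_rep₂_coe]
      rfl
    rw [e, slash_heckeMatrix_apply w hq]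
  simp only [h1, h2, Finset.prod_mul_distrib, Finset.prod_const, Finset.card_univ, ZMod.card]
  unfold HeckeProdQxB.uProd HeckeProdQxB.slashConst
  ring

/-! ### Changing the Atkin–Lehner matrix -/

include hqM in
/-- Two elements of `SL₂(ℤ)` with `M ∣ c` and `q ∣ d` differ by an element of `Γ₀(Mq)` on the
left. -/
theorem mul_inv_mem_Gamma0 {γ γ' : SL(2, ℤ)} (h10 : (M : ℤ) ∣ γ 1 0) (h11 : (q : ℤ) ∣ γ 1 1)
    (h10' : (M : ℤ) ∣ γ' 1 0) (h11' : (q : ℤ) ∣ γ' 1 1) : γ' * γ⁻¹ ∈ Gamma0 (M * q) := by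
  rw [mem_Gamma0_iff_dvd]
  have hcop : IsCoprime (M : ℤ) (q : ℤ) := (isCoprime_q_N hqM).symm
  have e : (γ' * γ⁻¹) 1 0 = γ' 1 0 * γ 1 1 - γ' 1 1 * γ 1 0 := by
    rw [Matrix.SpecialLinearGroup.coe_mul, Matrix.mul_apply, Fin.sum_univ_two,
      Matrix.SpecialLinearGroup.SL2_inv_expl]
    simp
    ring
  rw [e]
  push_cast
  apply hcop.mul_dvd
  · exact dvd_sub (Dvd.dvd.mul_right h10' _) (Dvd.dvd.mul_left h10 _)
  · exact dvd_sub (Dvd.dvd.mul_left h11 _) (Dvd.dvd.mul_right h11' _)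

include hqM in
/-- Changing the Atkin–Lehner matrix multiplies `A ∣[w] γ` by a value of the multiplier. -/
theorem exists_slash_eq_smul {w : ℤ} {χ : ↥(Gamma0 (M * q)) →* ℂˣ} {A : ℍ → ℂ}
    (hA : A ∈ K.MFchi (M * q) w χ) {γ γ' : SL(2, ℤ)} (h10 : (M : ℤ) ∣ γ 1 0)
    (h11 : (q : ℤ) ∣ γ 1 1) (h10' : (M : ℤ) ∣ γ' 1 0) (h11' : (q : ℤ) ∣ γ' 1 1) :
    ∃ δ : ↥(Gamma0 (M * q)), A ∣[w] γ' = ((χ δ : ℂˣ) : ℂ) • (A ∣[w] γ) := by
  refine ⟨⟨γ' * γ⁻¹, mul_inv_mem_Gamma0 hqM h10 h11 h10' h11'⟩, ?_⟩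
  have e : γ' = (γ' * γ⁻¹) * γ := by rw [inv_mul_cancel_right]
  conv_lhs => rw [e]
  rw [SlashAction.slash_mul]
  have h := hA.2.1 ⟨γ' * γ⁻¹, mul_inv_mem_Gamma0 hqM h10 h11 h10' h11'⟩
  rw [h, ModularForm.SL_smul_slash]

/-! ### The dilated Atkin–Lehner transform is a nice function -/

/-- The parabolic element `γ T^q γ⁻¹` lies in `Γ₀(Mq)` if `M ∣ γ 1 0`. -/
theorem conj_T_pow_mem_Gamma0 (M q : ℕ) {γ : SL(2, ℤ)} (h10 : (M : ℤ) ∣ γ 1 0) :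
    γ * ModularGroup.T ^ (q : ℤ) * γ⁻¹ ∈ Gamma0 (M * q) := by
  rw [mem_Gamma0_iff_dvd]
  have e : (γ * ModularGroup.T ^ (q : ℤ) * γ⁻¹) 1 0 = -((q : ℤ) * (γ 1 0 * γ 1 0)) := by
    rw [Matrix.SpecialLinearGroup.coe_mul, Matrix.SpecialLinearGroup.coe_mul,
      ModularGroup.coe_T_zpow, Matrix.SpecialLinearGroup.SL2_inv_expl]
    rw [Matrix.mul_apply, Fin.sum_univ_two, Matrix.mul_apply, Fin.sum_univ_two, Matrix.mul_apply,
      Fin.sum_univ_two]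
    simp
    ring
  rw [e]
  obtain ⟨c, hc⟩ := h10
  refine ⟨-(c * γ 1 0), ?_⟩
  rw [hc]
  push_cast
  ring

theorem trace_conj_T_pow (q : ℕ) (γ : SL(2, ℤ)) :
    ((γ * ModularGroup.T ^ (q : ℤ) * γ⁻¹ : SL(2, ℤ)) : Matrix (Fin 2) (Fin 2) ℤ).trace = 2 := by
  rw [Matrix.SpecialLinearGroup.coe_mul, Matrix.trace_mul_comm,
    ← Matrix.SpecialLinearGroup.coe_mul, inv_mul_cancel_left, ModularGroup.coe_T_zpow,
    Matrix.trace_fin_two_of]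
  norm_num

omit [Fact q.Prime] in
/-- `A ∣[w] γ` is invariant under `z ↦ q + z` if `M ∣ γ 1 0` and the multiplier of `A` is
trivial on parabolic elements. -/
theorem slash_vadd_q {w : ℤ} {χ : ↥(Gamma0 (M * q)) →* ℂˣ}
    (hχ : ∀ γ : ↥(Gamma0 (M * q)),
      ((γ : SL(2, ℤ)) : Matrix (Fin 2) (Fin 2) ℤ).trace ^ 2 = 4 → χ γ = 1)
    {A : ℍ → ℂ} (hA : A ∈ K.MFchi (M * q) w χ) {γ : SL(2, ℤ)} (h10 : (M : ℤ) ∣ γ 1 0) (z : ℍ) :
    (A ∣[w] γ) ((q : ℝ) +ᵥ z) = (A ∣[w] γ) z := by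
  have hP := conj_T_pow_mem_Gamma0 M q h10
  have h1 : (A ∣[w] γ) ∣[w] (ModularGroup.T ^ (q : ℤ)) = A ∣[w] γ := by
    rw [← SlashAction.slash_mul]
    have e : γ * ModularGroup.T ^ (q : ℤ) = (γ * ModularGroup.T ^ (q : ℤ) * γ⁻¹) * γ := by
      rw [inv_mul_cancel_right]
    rw [e, SlashAction.slash_mul]
    have h := hA.2.1 ⟨_, hP⟩
    have hone : χ ⟨_, hP⟩ = 1 := hχ ⟨_, hP⟩ (by rw [trace_conj_T_pow]; norm_num)
    rw [hone] at h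
    simp only [Units.val_one, one_smul] at h
    rw [h]
  have h2 := congrFun h1 z
  rw [SL_slash_apply, modular_T_zpow_smul] at h2
  have hd : denom ((ModularGroup.T ^ (q : ℤ) : SL(2, ℤ)) : GL (Fin 2) ℝ) z = 1 := by
    rw [ModularGroup.denom_apply, ModularGroup.coe_T_zpow]
    simp
  rw [hd, one_zpow, mul_one] at h2
  rw [← h2]
  congr 2

/-- The dilated Atkin–Lehner transform `z ↦ (A ∣[w] γ) (q z)` is a nice function. -/
theorem dil_mem_niceSub {w : ℤ} {χ : ↥(Gamma0 (M * q)) →* ℂˣ}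
    (hχ : ∀ γ : ↥(Gamma0 (M * q)),
      ((γ : SL(2, ℤ)) : Matrix (Fin 2) (Fin 2) ℤ).trace ^ 2 = 4 → χ γ = 1)
    {A : ℍ → ℂ} (hA : A ∈ K.MFchi (M * q) w χ) {γ : SL(2, ℤ)} (h10 : (M : ℤ) ∣ γ 1 0) :
    (fun z : ℍ => (A ∣[w] γ) (S23.mulN q z)) ∈ S23.niceSub := by
  have e : (fun z : ℍ => (A ∣[w] γ) (S23.mulN q z)) =
      fun z : ℍ => (A ∣[w] γ) (heckeRep q (∞ : OnePoint (ZMod q)) • z) := by
    funext z
    rw [heckeRep_infty, HeckeProdQxB.heckeDiagMatrix_smul_eq]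
  refine ⟨?_, ?_, ?_⟩
  · have h := S24.periodic_comp_ofComplex_of_vadd (N := 1)
      (f := fun z : ℍ => (A ∣[w] γ) (S23.mulN q z)) (fun z => ?_)
    · simpa using h
    · show (A ∣[w] γ) (S23.mulN q (((1 : ℕ) : ℝ) +ᵥ z)) = (A ∣[w] γ) (S23.mulN q z)
      have e1 : S23.mulN q (((1 : ℕ) : ℝ) +ᵥ z) = (q : ℝ) +ᵥ S23.mulN q z := by
        ext
        rw [S23.coe_mulN, UpperHalfPlane.coe_vadd, UpperHalfPlane.coe_vadd, S23.coe_mulN]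
        push_cast
        ring
      rw [e1, slash_vadd_q hχ hA h10]
  · rw [e]
    exact HeckeProd.mdifferentiable_comp_heckeRep q _ _ (hA.1.slash w _)
  · rw [e]
    exact HeckeProdQxB.isBoundedAtImInfty_comp_heckeRep q _ (hA.2.2 γ)

/-! ### (b) the q-expansion of the `tr₂`-product -/

include hqM in
/-- **(b), function form**: for ANY `γ₀ ∈ SL₂(ℤ)` with `M ∣ γ₀ 1 0` and `q ∣ γ₀ 1 1`, the
`tr₂`-product of `A` is a nonzero constant times the product of the dilated Atkin–Lehner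
transform `z ↦ (A ∣[w] γ₀) (q z)` and the `U`-part `uProd q A`. -/
theorem exists_tr2Prod_eq_smul {w : ℤ} {χ : ↥(Gamma0 (M * q)) →* ℂˣ} {A : ℍ → ℂ}
    (hA : A ∈ K.MFchi (M * q) w χ) {γ₀ : SL(2, ℤ)} (h10 : (M : ℤ) ∣ γ₀ 1 0)
    (h11 : (q : ℤ) ∣ γ₀ 1 1) :
    ∃ c : ℂ, c ≠ 0 ∧ tr2Prod hqM w A =
      c • ((fun z : ℍ => (A ∣[w] γ₀) (S23.mulN q z)) * HeckeProdQxB.uProd q A) := by
  obtain ⟨γ₂, h10', h11', h⟩ := exists_tr2Prod_eq hqM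
  obtain ⟨δ, hδ⟩ := exists_slash_eq_smul hqM hA h10 h11 h10' h11'
  refine ⟨HeckeProdQxB.slashConst q w * ((χ δ : ℂˣ) : ℂ),
    mul_ne_zero (HeckeProdQxB.slashConst_ne_zero q w) (Units.ne_zero _), ?_⟩
  rw [h w A, hδ]
  funext z
  simp only [Pi.smul_apply, Pi.mul_apply, smul_eq_mul]
  ring

include hqM in
/-- (b) for trivial multiplier: the constant is `slashConst q w`. -/
theorem tr2Prod_eq_of_mem_MF [NeZero (M * q)] {w : ℤ} {B : ℍ → ℂ} (hB : B ∈ S20.MF (M * q) w)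
    {γ₀ : SL(2, ℤ)} (h10 : (M : ℤ) ∣ γ₀ 1 0) (h11 : (q : ℤ) ∣ γ₀ 1 1) :
    tr2Prod hqM w B = HeckeProdQxB.slashConst q w •
      ((fun z : ℍ => (B ∣[w] γ₀) (S23.mulN q z)) * HeckeProdQxB.uProd q B) := by
  obtain ⟨γ₂, h10', h11', h⟩ := exists_tr2Prod_eq hqM
  have hB' : B ∈ K.MFchi (M * q) w 1 := HeckeProdMem.mem_MF_iff_mem_MFchi_one.mp hB
  obtain ⟨δ, hδ⟩ := exists_slash_eq_smul hqM hB' h10 h11 h10' h11'
  rw [h w B, hδ]
  simp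

/-- **(b), q-expansion**: for a form `A` on `Γ₀(Mq)` whose multiplier is trivial on parabolic
elements, and ANY `γ₀ ∈ SL₂(ℤ)` with `M ∣ γ₀ 1 0`, `q ∣ γ₀ 1 1`:
`qx (tr2Prod A) = c • (qx (AW A) * NP (qx A))`, `c ≠ 0`, where `AW A z = (A ∣[w] γ₀) (q z)` and
`NP X = qContract q (∏ i < q, twist (ζ_q ^ i) X)`. -/
theorem exists_qx_tr2Prod {w : ℤ} {χ : ↥(Gamma0 (M * q)) →* ℂˣ}
    (hχ : ∀ γ : ↥(Gamma0 (M * q)),
      ((γ : SL(2, ℤ)) : Matrix (Fin 2) (Fin 2) ℤ).trace ^ 2 = 4 → χ γ = 1)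
    {A : ℍ → ℂ} (hA : A ∈ K.MFchi (M * q) w χ) {γ₀ : SL(2, ℤ)} (h10 : (M : ℤ) ∣ γ₀ 1 0)
    (h11 : (q : ℤ) ∣ γ₀ 1 1) :
    ∃ c : ℂ, c ≠ 0 ∧ tr2Prod hqM w A ∈ S23.niceSub ∧
      K.qx (tr2Prod hqM w A) =
        c • (K.qx (fun z : ℍ => (A ∣[w] γ₀) (S23.mulN q z)) *
          KC.qContract q (∏ i ∈ Finset.range q,
            KC.twist (HeckeProdQxB.zetaUnit q ^ i) (K.qx A))) := by
  obtain ⟨c, hc, h⟩ := exists_tr2Prod_eq_smul hqM hA h10 h11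
  have hT : χ (K.TG (M * q)) = 1 := hχ _ (by simp [K.TG, ModularGroup.T, Matrix.trace_fin_two])
  have hAn : A ∈ S23.niceSub := K.mem_niceSub_of_mem_MFchi hT hA
  have hF := dil_mem_niceSub hχ hA h10
  have hU := HeckeProdQxB.uProd_mem_niceSub q hAn
  have hFU := S23.niceSub.mul_mem hF hU
  refine ⟨c, hc, ?_, ?_⟩
  · rw [h]
    exact S23.niceSub.smul_mem hFU c
  · rw [h, K.qx_smul c hFU, K.qx_mul hF hU, HeckeProdQxB.qx_uProd q hAn]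

/-! ### (c) consumer shape -/

include hqM in
/-- **(c)**: for a form `A` of multiplier `χ_u` (`u` parabolic) and a nonzero form `B` of trivial
multiplier, both of weight `w` on `Γ₀(Mq)`, and ANY `γ₀ ∈ SL₂(ℤ)` with `M ∣ γ₀ 1 0`,
`q ∣ γ₀ 1 1`: there are forms `A'` of multiplier `χ_{tr₂ u}` and `B' ≠ 0` of trivial multiplier,
of the same weight on `Γ₀(M)`, with `qx A' = qx (AW A) * NP (qx A)` and
`qx B' = qx (AW B) * NP (qx B)`, where `AW F z = (F ∣[w] γ₀) (q z)` and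
`NP X = qContract q (∏ i < q, twist (ζ_q ^ i) X)`.  (The `tr₂` twin of the pair
[TrProdMem] + [TrQx]; the roles of `F` and `AW F` are exchanged.) -/
theorem exists_forms [NeZero M] [NeZero (M * q)] (p : ℕ) (u : Lpar (M * q)) {w : ℤ}
    {A B : ℍ → ℂ} (hA : A ∈ K.MFchi (M * q) w (KPlan.chiU p (u : Additive (Gamma0 (M * q)) →+ ℤ)))
    (hB : B ∈ S20.MF (M * q) w) (hB0 : B ≠ 0) {γ₀ : SL(2, ℤ)} (h10 : (M : ℤ) ∣ γ₀ 1 0)
    (h11 : (q : ℤ) ∣ γ₀ 1 1) :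
    ∃ (w' : ℤ) (A' B' : ℍ → ℂ),
      A' ∈ K.MFchi M w' (KPlan.chiU p (tr₂ M q (u : Additive (Gamma0 (M * q)) →+ ℤ))) ∧
      B' ∈ S20.MF M w' ∧ B' ≠ 0 ∧
      K.qx A' = K.qx (fun z : ℍ => (A ∣[w] γ₀) (S23.mulN q z)) *
        KC.qContract q (∏ i ∈ Finset.range q,
          KC.twist (HeckeProdQxB.zetaUnit q ^ i) (K.qx A)) ∧
      K.qx B' = K.qx (fun z : ℍ => (B ∣[w] γ₀) (S23.mulN q z)) *
        KC.qContract q (∏ i ∈ Finset.range q,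
          KC.twist (HeckeProdQxB.zetaUnit q ^ i) (K.qx B)) := by
  have hB1 : B ∈ K.MFchi (M * q) w 1 := HeckeProdMem.mem_MF_iff_mem_MFchi_one.mp hB
  obtain ⟨cA, hcA, hAn, hAq⟩ :=
    exists_qx_tr2Prod hqM (KPlan.chiU_eq_one_of_trace p u) hA h10 h11
  obtain ⟨cB, hcB, hBn, hBq⟩ :=
    exists_qx_tr2Prod hqM (χ := 1) (fun _ _ => rfl) hB1 h10 h11
  refine ⟨w * ((q : ℤ) + 1), cA⁻¹ • tr2Prod hqM w A, cB⁻¹ • tr2Prod hqM w B, ?_, ?_, ?_, ?_, ?_⟩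
  · exact Submodule.smul_mem _ _ (tr2Prod_mem hqM p _ hA)
  · have h := Submodule.smul_mem _ cB⁻¹
      (HeckeProdMem.mem_MF_iff_mem_MFchi_one.mp (tr2Prod_mem_MF hqM hB))
    exact HeckeProdMem.mem_MF_iff_mem_MFchi_one.mpr h
  · exact smul_ne_zero (inv_ne_zero hcB) (tr2Prod_ne_zero hqM w hB1.1 hB0)
  · rw [K.qx_smul _ hAn, hAq, inv_smul_smul₀ hcA]
  · rw [K.qx_smul _ hBn, hBq, inv_smul_smul₀ hcB]

end Fermat.Agent.S35.Tr2Prod
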