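/-
S35 block [D] (bridge), leaf [TrNorm₂] — TrNormB.lean (helper62): the `β`-half of the transfer
norm, closed, through the `S41.rep₂` form of the `tr₂` product (`Tr2Prod.exists_forms`).

Level `M q`, `q` prime, `q ∤ M`; `u ∈ Lpar (M q)`, `y` a witness of `u` at torsion order `m`
(forms `(A, B)` of level `M q`: `embC y · qx B = qx A`, `A` with multiplier `χ_u`), `f ∈ F̄_{M q}`
with `f = y ^ m`.  If `tr₂ u = 0` then the norm of `f` along `β` is `c · h ^ m` with `h ∈ F̄_M`,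
`c ∈ ℚ̄ˣ`  (`KTrPlan.KTrBetaStatement M q m`).

Proof.  `Tr2Prod.exists_forms` gives forms `A'`, `B'` of level `M` and one weight, `A'` with
multiplier `χ_{tr₂ u} = 1`, `B'` with trivial multiplier, `B' ≠ 0`, with
`qx A' = qx (AW A) · NP (qx A)` and `qx B' = qx (AW B) · NP (qx B)`; so
`hC := qx A' / qx B' ∈ F_ℂ(M)` (`TrDesc.mem_FC_of_forms`), and by the formal core
(`TrNorm.qExpand_div_eq`) `hC(Q^q) = y_W(Q^q) · ∏_{i<q} embC y (ζ^i Q)` with
`y_W = qx (AW A) / qx (AW B)`, `y_W ^ m = embC (wBar f)` (`ALQx.alqx_pow`).  Hence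
`hC ^ m = embC (Nm_β f)` by the norm formula `NormRed.qExpand_norm_beta_w`, and
`TrDesc.exists_root_of_pow_eq` concludes.

* `kTrBeta` : **`KTrPlan.KTrBetaStatement M q m`**;
* `kTr`     : **`KTrPlan.KTrStatement M q m`** (with `TrNorm.kTrAlpha`).
-/
import Mathlib
import Fermat.Prelude.Thm_ModularCurve_coeffMap_qExpand
import Fermat.Agent.S29.KDefs
import Fermat.Agent.S29.KBasic
import Fermat.Agent.S29.KPlanDefs
import Fermat.Agent.S29.HeckeProdQxB
import Fermat.Agent.S37.KC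
import Fermat.Agent.S35.TrDesc
import Fermat.Agent.S35.ALQx
import Fermat.Agent.S35.TrQx
import Fermat.Agent.S35.Tr2Prod
import Fermat.Agent.S35.NormRed
import Fermat.Agent.S35.PushPic
import Fermat.Agent.S35.KTrPlan
import Fermat.Agent.S35.TrNorm

set_option autoImplicit false

noncomputable section

namespace Fermat.Agent.S35.TrNormB

open UpperHalfPlane ModularForm CongruenceSubgroup ModularCurve AlgebraicCurve
open scoped MatrixGroups ModularForm Manifold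
open Fermat.Agent.S29 Fermat.Agent.S37 Fermat.Agent.S24 Fermat.Agent.S41

local notation "Qb" => AlgebraicClosure ℚ

/-- **[K-tr], `β`-half**: for a witness `y` of `u ∈ Lpar (M q)` with `tr₂ u = 0` and `f = y ^ m`,
the norm of `f` along `β` is `c · h ^ m`. -/
theorem kTrBeta (M q m : ℕ) [NeZero M] [NeZero q] (hq : q.Prime) (hqM : ¬ q ∣ M) (hm : m ≠ 0) :
    KTrPlan.KTrBetaStatement M q m := by
  intro u y hy f hf hu
  have : Fact q.Prime := ⟨hq⟩
  obtain ⟨γ₀, a, b, h₀⟩ :=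
    TrNorm.exists_gamma0 M q ((Nat.Prime.coprime_iff_not_dvd hq).mpr hqM)
  have h10 : γ₀ 1 0 = (M : ℤ) := by
    have := congrFun (congrFun h₀ 1) 0
    simpa using this
  have h11 : γ₀ 1 1 = (q : ℤ) := by
    have := congrFun (congrFun h₀ 1) 1
    simpa using this
  have d10 : (M : ℤ) ∣ γ₀ 1 0 := by rw [h10]
  have d11 : (q : ℤ) ∣ γ₀ 1 1 := by rw [h11]
  obtain ⟨hy0, w, A, B, hA, hB, hB0, hyAB⟩ := hy
  -- niceness
  have hχ : ∀ γ : ↥(Gamma0 (M * q)),
      ((γ : SL(2, ℤ)) : Matrix (Fin 2) (Fin 2) ℤ).trace ^ 2 = 4 →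
        KPlan.chiU m (u : Additive (Gamma0 (M * q)) →+ ℤ) γ = 1 :=
    fun γ hγ => KPlan.chiU_eq_one_of_trace m u γ hγ
  have hχ1 : ∀ γ : ↥(Gamma0 (M * q)),
      ((γ : SL(2, ℤ)) : Matrix (Fin 2) (Fin 2) ℤ).trace ^ 2 = 4 →
        (1 : ↥(Gamma0 (M * q)) →* ℂˣ) γ = 1 := fun _ _ => rfl
  have : NeZero (M * q) := ⟨Nat.mul_ne_zero (NeZero.ne M) (NeZero.ne q)⟩
  have hB1 : B ∈ K.MFchi (M * q) w 1 := K.mem_MFchi_one_iff.mpr hB
  have hBn : B ∈ S23.niceSub := K.mem_niceSub_of_mem_MF hB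
  have hBWn : ALQx.AW γ₀ q w B ∈ S23.niceSub := ALQx.AW_mem_niceSub M q γ₀ a b h₀ hχ1 hB1
  -- the transfer products: forms of level `M` with trivial multiplier, and their q-expansions
  obtain ⟨w', A', B', hA'mem, hB'mem, hB'0, hqA, hqB⟩ :=
    Tr2Prod.exists_forms hqM m u hA hB hB0 d10 d11
  rw [hu, KPlan.chiU_zero] at hA'mem
  have hb0 : K.qx B ≠ 0 := K.qx_ne_zero hBn hB0
  have hbW0 : K.qx (ALQx.AW γ₀ q w B) ≠ 0 :=
    K.qx_ne_zero hBWn (ALQx.AW_ne_zero γ₀ q w hB0)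
  have hqA' : K.qx A' = (1 : ℂ) • (K.qx (ALQx.AW γ₀ q w A) * TrQx.NP q (K.qx A)) := by
    rw [one_smul]; exact hqA
  have hqB' : K.qx B' = (1 : ℂ) • (K.qx (ALQx.AW γ₀ q w B) * TrQx.NP q (K.qx B)) := by
    rw [one_smul]; exact hqB
  obtain ⟨hb'0, hcore⟩ := TrNorm.qExpand_div_eq q one_ne_zero hbW0 hb0 hqA' hqB'
    (div_mul_cancel₀ _ hbW0) hyAB
  -- `hC ∈ F_ℂ(M)`
  have hCmem := TrDesc.mem_FC_of_forms hA'mem hB'mem hB'0 (div_mul_cancel₀ _ hb'0)
  -- `y_W ^ m = embC (wBar f)`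
  have hfC : coeffMap embC (f : LaurentSeries Qb) = coeffMap embC y ^ m := by
    rw [hf, map_pow]
  have hW := ALQx.alqx_pow M q hq hqM γ₀ a b h₀ hχ hA hB m (coeffMap embC y) hyAB f hfC
  have hYW : (K.qx (ALQx.AW γ₀ q w A) / K.qx (ALQx.AW γ₀ q w B)) ^ m =
      coeffMap embC ((S34.WK.wBar M q hq hqM f : ↥(modularFunctionFieldBar (M * q))) :
        LaurentSeries Qb) := by
    rw [div_pow, div_eq_iff (pow_ne_zero m hbW0)]
    exact hW.symm
  -- the norm formula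
  obtain ⟨ζ, hζ⟩ := HasEnoughRootsOfUnity.exists_primitiveRoot Qb q
  have hz : ∀ i : ℕ, ζ ^ i ≠ 0 := fun i => pow_ne_zero i (hζ.ne_zero (NeZero.ne q))
  have hnorm := NormRed.qExpand_norm_beta_w M q hq hqM ζ hζ hz f
  have key : (K.qx A' / K.qx B') ^ m =
      coeffMap embC ((PushPic.betaNorm M q f : ↥(modularFunctionFieldBar M)) :
        LaurentSeries Qb) := by
    apply qExpand_injective (R := ℂ) q
    rw [map_pow, hcore, mul_pow, ← map_pow, ← TrNorm.rotProd_pow, hYW, ← hfC, ← coeffMap_qExpand,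
      ← TrNorm.coeffMap_prod_rotHom q ζ hζ hz, ← map_mul, ← coeffMap_qExpand]
    congr 1
    exact hnorm.symm
  have hf0 : f ≠ 0 := by
    intro h0
    apply pow_ne_zero m hy0
    rw [← hf, h0]
    rfl
  exact TrDesc.exists_root_of_pow_eq hm (PushPic.betaNorm M q f)
    (PushPic.normAlong_ne_zero _ (PushPic.beta_finiteAlong M q) hf0) _ hCmem key

/-- **[K-tr]**: both halves (the `α`-half is `TrNorm.kTrAlpha`). -/
theorem kTr (M q m : ℕ) [NeZero M] [NeZero q] (hq : q.Prime) (hqM : ¬ q ∣ M) (hm : m ≠ 0) :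
    KTrPlan.KTrStatement M q m :=
  KTrPlan.kTrStatement_of_halves (TrNorm.kTrAlpha M q m hq hqM hm) (kTrBeta M q m hq hqM hm)

end Fermat.Agent.S35.TrNormB
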