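/-
S35 — NewTopE.lean (helper39).  The all-`q` end-to-end chain of `S35/NewTop.lean` with block [E]
and the `α`-half of block [D] plugged in (both closed on main):

* `frobTorsAll`        : `NewTop.FrobTorsAllStatement`          (block [E], no hypothesis);
* `kTrAll`             : `NewTop.KTrAllStatement`               (block [D], no hypothesis);
* `levelVec`           : `NewTop.LevelVecStatement`             (block [B], no hypothesis);
* `kTrAll_of_beta`     : `NewTop.KTrAllStatement` from the `β`-half of [D];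
* `result_of_B_beta`   : the frozen statement of S35 from block [B] (`NewTop.LevelVecStatement`)
                         and the `β`-half of [D] (`KTrPlan.KTrBetaStatement`, all levels);
* `s35`                : **the frozen statement of S35, no hypothesis** (all-`q` chain).
-/
import Mathlib
import Fermat.Agent.S35.NewTop
import Fermat.Agent.S35.CoreAsmFBTop
import Fermat.Agent.S35.GNormCorr
import Fermat.Agent.S35.TrNorm
import Fermat.Agent.S35.TrNormB
import Fermat.Agent.S35.LevelQB2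

set_option autoImplicit false

noncomputable section

open ModularCurve AlgebraicCurve CongruenceSubgroup Polynomial

namespace Fermat.Agent.S35.NewTopE

/-- **Block [E], closed, in the shape consumed by `NewTop`.** -/
theorem frobTorsAll : NewTop.FrobTorsAllStatement :=
  fun M q m _ _ _ hq hqM _ hqm =>
    CoreAsmFBTop.frobTorsStatement M q m (GNormCorr.modelFStatement M q hq hqM m hqm)

/-- The `β`-half of block [D], all levels and torsion orders. -/
def KTrBetaAllStatement : Prop :=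
  ∀ (M q m : ℕ) [NeZero M] [NeZero q], q.Prime → ¬ q ∣ M → m ≠ 0 →
    KTrPlan.KTrBetaStatement M q m

/-- **Block [D] from its `β`-half** (the `α`-half is `TrNorm.kTrAlpha`). -/
theorem kTrAll_of_beta (hβ : KTrBetaAllStatement) : NewTop.KTrAllStatement :=
  fun M q m _ _ hq hqM hm =>
    KTrPlan.kTrStatement_of_halves (TrNorm.kTrAlpha M q m hq hqM hm) (hβ M q m hq hqM hm)

/-- **S35 from block [B] and the `β`-half of block [D]** (the frozen statement verbatim). -/
theorem result_of_B_beta (hB : NewTop.LevelVecStatement) (hβ : KTrBetaAllStatement)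
    {M : ℕ} [NeZero M] {g : CuspForm (CongruenceSubgroup.Gamma0 M) 2} (hg : g.IsNewform)
    (lam : ℕ) [Fact lam.Prime]
    (S : Finset ℕ)
    (O' : Type) [CommRing O'] [IsDomain O'] [IsDiscreteValuationRing O']
    [IsAdicComplete (IsLocalRing.maximalIdeal O') O'] [Finite (IsLocalRing.ResidueField O')]
    [CharZero O'] (hlamO' : (lam : O') ∈ IsLocalRing.maximalIdeal O')
    (chig : CuspForm.heckeAlgebra M 2 (↑S : Set ℕ) →+* ℂ)
    (hchig : ∀ (ℓ : ℕ) (hℓ : ℓ.Prime) (hℓM : ¬ ℓ ∣ M) (hℓS : ℓ ∉ (↑S : Set ℕ)),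
      chig (CuspForm.heckeAlgebra.T hℓ hℓM hℓS) = ModularFormClass.qCoeff g ℓ)
    (iota : chig.range →+* O')
    (hlamS : lam ∈ S) (hMS : ∀ q : ℕ, q.Prime → q ∣ M → q ∈ S)
    :
    ∃ (O'' : Type) (_ : CommRing O'') (_ : IsDomain O'') (_ : IsDiscreteValuationRing O'')
      (_ : IsAdicComplete (IsLocalRing.maximalIdeal O'') O'') (_ : Finite (IsLocalRing.ResidueField O''))
      (_ : CharZero O'') (_ : Algebra O' O'') (_ : Module.Finite O' O'') (_ : IsLocalHom (algebraMap O' O'')),
      Function.Injective (algebraMap O' O'') ∧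
      ∃ ρ : GaloisRepAdic O'',
        (∀ (ℓ : ℕ) (hℓ : ℓ.Prime) (hℓM : ¬ ℓ ∣ M) (hℓS : ℓ ∉ (↑S : Set ℕ)),
          ∀ A : ValuationSubring (AlgebraicClosure ℚ), A.LiesOverPrime ℓ →
            ∀ σ : AlgebraicClosure ℚ ≃ₐ[ℚ] AlgebraicClosure ℚ, A.IsFrobeniusAt σ ℓ →
              LinearMap.charpoly (ρ.ρ σ) =
                X ^ 2 - C (algebraMap O' O'' ((iota.comp chig.rangeRestrict) (CuspForm.heckeAlgebra.T hℓ hℓM hℓS))) * X
                  + C ((ℓ : O''))) ∧
        (∀ q : ℕ, q.Prime → q ≠ lam → q ∣ M → ¬ q ^ 2 ∣ M →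
          ∀ A : ValuationSubring (AlgebraicClosure ℚ), A.LiesOverPrime q →
            ∀ σ : AlgebraicClosure ℚ ≃ₐ[ℚ] AlgebraicClosure ℚ, A.IsFrobeniusAt σ q →
              LinearMap.charpoly (ρ.ρ σ) = X ^ 2 - C ((q : O'') + 1) * X + C ((q : O'')) ∨
              LinearMap.charpoly (ρ.ρ σ) = X ^ 2 + C ((q : O'') + 1) * X + C ((q : O''))) :=
  NewTop.result_of_leaves hB (kTrAll_of_beta hβ) frobTorsAll hg lam S O' hlamO' chig hchig iota
    hlamS hMS

/-- **Block [D], closed, in the shape consumed by `NewTop`.** -/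
theorem kTrAll : NewTop.KTrAllStatement :=
  fun M q m _ _ hq hqM hm => TrNormB.kTr M q m hq hqM hm

/-- **Block [B], closed, in the shape consumed by `NewTop`.** -/
theorem levelVec : NewTop.LevelVecStatement :=
  fun N p _ hp S hpS _ _ χ n v hann hv => LevelQB2.levelQ_of_vector N p hp S hpS χ n v hann hv

/-- **S35, closed** (the frozen statement verbatim; all special primes at once). -/
theorem s35
    {M : ℕ} [NeZero M] {g : CuspForm (CongruenceSubgroup.Gamma0 M) 2} (hg : g.IsNewform)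
    (lam : ℕ) [Fact lam.Prime]
    (S : Finset ℕ)
    (O' : Type) [CommRing O'] [IsDomain O'] [IsDiscreteValuationRing O']
    [IsAdicComplete (IsLocalRing.maximalIdeal O') O'] [Finite (IsLocalRing.ResidueField O')]
    [CharZero O'] (hlamO' : (lam : O') ∈ IsLocalRing.maximalIdeal O')
    (chig : CuspForm.heckeAlgebra M 2 (↑S : Set ℕ) →+* ℂ)
    (hchig : ∀ (ℓ : ℕ) (hℓ : ℓ.Prime) (hℓM : ¬ ℓ ∣ M) (hℓS : ℓ ∉ (↑S : Set ℕ)),
      chig (CuspForm.heckeAlgebra.T hℓ hℓM hℓS) = ModularFormClass.qCoeff g ℓ)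
    (iota : chig.range →+* O')
    (hlamS : lam ∈ S) (hMS : ∀ q : ℕ, q.Prime → q ∣ M → q ∈ S)
    :
    ∃ (O'' : Type) (_ : CommRing O'') (_ : IsDomain O'') (_ : IsDiscreteValuationRing O'')
      (_ : IsAdicComplete (IsLocalRing.maximalIdeal O'') O'') (_ : Finite (IsLocalRing.ResidueField O''))
      (_ : CharZero O'') (_ : Algebra O' O'') (_ : Module.Finite O' O'') (_ : IsLocalHom (algebraMap O' O'')),
      Function.Injective (algebraMap O' O'') ∧
      ∃ ρ : GaloisRepAdic O'',
        (∀ (ℓ : ℕ) (hℓ : ℓ.Prime) (hℓM : ¬ ℓ ∣ M) (hℓS : ℓ ∉ (↑S : Set ℕ)),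
          ∀ A : ValuationSubring (AlgebraicClosure ℚ), A.LiesOverPrime ℓ →
            ∀ σ : AlgebraicClosure ℚ ≃ₐ[ℚ] AlgebraicClosure ℚ, A.IsFrobeniusAt σ ℓ →
              LinearMap.charpoly (ρ.ρ σ) =
                X ^ 2 - C (algebraMap O' O'' ((iota.comp chig.rangeRestrict) (CuspForm.heckeAlgebra.T hℓ hℓM hℓS))) * X
                  + C ((ℓ : O''))) ∧
        (∀ q : ℕ, q.Prime → q ≠ lam → q ∣ M → ¬ q ^ 2 ∣ M →
          ∀ A : ValuationSubring (AlgebraicClosure ℚ), A.LiesOverPrime q →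
            ∀ σ : AlgebraicClosure ℚ ≃ₐ[ℚ] AlgebraicClosure ℚ, A.IsFrobeniusAt σ q →
              LinearMap.charpoly (ρ.ρ σ) = X ^ 2 - C ((q : O'') + 1) * X + C ((q : O'')) ∨
              LinearMap.charpoly (ρ.ρ σ) = X ^ 2 + C ((q : O'') + 1) * X + C ((q : O''))) :=
  NewTop.result_of_leaves levelVec kTrAll frobTorsAll hg lam S O' hlamO' chig hchig iota
    hlamS hMS

end Fermat.Agent.S35.NewTopE
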