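/-
S35 — NormNP.lean (helper69), block [D] (row [K-tr], captain helper88), leaf [NormNP]:
the norm formula of `S35/NormRed.lean` (helper79) transported to `ℂ((Q))` in the `NP`-form of
`S35/TrQx.lean` (helper23).

For `z ∈ F̄_{Mq}` (`q` prime, `q ∤ M`), `w = WK.wBar` the Atkin–Lehner involution, `N_α`, `N_β`
the norms of `F̄_{Mq}` over `F̄_M` along the two degeneracy maps (`PushPic.alphaNorm`,
`PushPic.betaNorm`) and `NP q X = (∏_{i<q} X(ζ^i Q))(Q^{1/q})` the formal coset norm:

* `coeffMap_alphaNorm` : `(N_α z)^ℂ = z^ℂ · NP q ((w z)^ℂ)`;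
* `coeffMap_betaNorm`  : `(N_β z)^ℂ = (w z)^ℂ · NP q (z^ℂ)`,

where `x^ℂ = coeffMap embC x` is the `q`-expansion with coefficients embedded into `ℂ`.

Auxiliary (pure Laurent series): `coeffMap_prod_rotHom` — the image under `coeffMap embC` of
`∏_{i<q} X(ζ^i Q)` (`ζ` ANY primitive `q`-th root of unity of `ℚ̄`) is
`∏_{i<q} X^ℂ(ζ_q^i Q)` for the standard root `ζ_q = S29.HeckeProdQxB.zetaUnit q` of `ℂ`.
-/
import Mathlib
import Fermat.Agent.S29.K6Hecke
import Fermat.Agent.S35.PushPic
import Fermat.Agent.S35.NormRed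
import Fermat.Agent.S35.TrQx

set_option autoImplicit false

noncomputable section

namespace Fermat.Agent.S35.NormNP

open ModularCurve AlgebraicCurve HahnSeries
open Fermat.Agent.S18 Fermat.Agent.S18.Arith Fermat.Agent.S24 Fermat.Agent.S34
open Fermat.Agent.S37 Fermat.Agent.S35

/-! ### Rotations and twists under `coeffMap embC` -/

/-- `embC` is injective. -/
theorem embC_injective : Function.Injective (embC : Qb →+* ℂ) := embC.injective

/-- A rotation by `ζ ≠ 0` of a series over `ℚ̄` becomes, after `coeffMap embC`, the twist by the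
unit `embC ζ` of `ℂ`. -/
theorem coeffMap_rotHom (u : Qbˣ) (hu : (u : Qb) ≠ 0) (X : LaurentSeries Qb) :
    coeffMap embC (rotHom (u : Qb) hu X)
      = KC.twist (Units.map (embC : Qb →* ℂ) u) (coeffMap embC X) := by
  rw [← KC.coeffMap_twist, KC.twist_eq_rotHom]

/-- The product of the `q` rotations by the powers of a primitive `q`-th root of unity `ζ` of
`ℚ̄`, read in `ℂ((Q))`: it is the product of the twists by the powers of the standard root
`zetaUnit q` of `ℂ` (the product does not depend on the primitive root). -/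
theorem coeffMap_prod_rotHom (q : ℕ) [NeZero q] (ζ : Qb) (hζ : IsPrimitiveRoot ζ q)
    (hz : ∀ i : ℕ, ζ ^ i ≠ 0) (X : LaurentSeries Qb) :
    coeffMap embC (∏ i ∈ Finset.range q, rotHom (ζ ^ i) (hz i) X)
      = ∏ i ∈ Finset.range q,
          KC.twist (Fermat.Agent.S29.HeckeProdQxB.zetaUnit q ^ i) (coeffMap embC X) := by
  have hζ0 : ζ ≠ 0 := hζ.ne_zero (NeZero.ne q)
  let u : Qbˣ := Units.mk0 ζ hζ0
  let v : ℂˣ := Units.map (embC : Qb →* ℂ) u
  have hv : IsPrimitiveRoot ((v : ℂˣ) : ℂ) q := by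
    have h1 : ((v : ℂˣ) : ℂ) = embC ζ := rfl
    rw [h1]
    exact hζ.map_of_injective embC_injective
  have h2 : ∀ i ∈ Finset.range q, coeffMap embC (rotHom (ζ ^ i) (hz i) X)
      = KC.twist (v ^ i) (coeffMap embC X) := by
    intro i _
    have h3 := coeffMap_rotHom (u ^ i) (by rw [Units.val_pow_eq_pow_val]; exact hz i) X
    have h4 : Units.map (embC : Qb →* ℂ) (u ^ i) = v ^ i := map_pow _ _ _
    rw [h4] at h3
    rw [← h3]
    congr 1
  rw [map_prod, Finset.prod_congr rfl h2]
  exact Fermat.Agent.S29.K6Hecke.prod_pow_eq_of_isPrimitiveRoot hv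
    (Fermat.Agent.S29.HeckeProdQxB.isPrimitiveRoot_zetaUnit q)
    (fun ξ => KC.twist ξ (coeffMap embC X))

/-! ### The two norms -/

section Norm

variable (M q : ℕ) [NeZero M] [NeZero q] (hq : q.Prime) (hqM : ¬ q ∣ M)

/-- **[NormNP], along `α`.**  `(N_α z)^ℂ = z^ℂ · NP q ((w z)^ℂ)`. -/
theorem coeffMap_alphaNorm (z : ↥(modularFunctionFieldBar (M * q))) :
    coeffMap embC ((PushPic.alphaNorm M q z : ↥(modularFunctionFieldBar M)) : LaurentSeries Qb)
      = coeffMap embC (z : LaurentSeries Qb) *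
          TrQx.NP q (coeffMap embC
            ((WK.wBar M q hq hqM z : ↥(modularFunctionFieldBar (M * q))) : LaurentSeries Qb)) := by
  obtain ⟨ζ, hζ⟩ := HasEnoughRootsOfUnity.exists_primitiveRoot Qb q
  have hz : ∀ i : ℕ, ζ ^ i ≠ 0 := fun i => pow_ne_zero i (hζ.ne_zero (NeZero.ne q))
  have h : qExpand Qb q
        ((PushPic.alphaNorm M q z : ↥(modularFunctionFieldBar M)) : LaurentSeries Qb)
      = qExpand Qb q (z : LaurentSeries Qb) *
          ∏ i ∈ Finset.range q, rotHom (ζ ^ i) (hz i)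
            ((WK.wBar M q hq hqM z : ↥(modularFunctionFieldBar (M * q))) : LaurentSeries Qb) :=
    NormRed.qExpand_norm_alpha M q hq hqM ζ hζ hz z
  apply qExpand_injective (R := ℂ) (N := q)
  rw [← coeffMap_qExpand, h, map_mul, map_mul, coeffMap_qExpand, TrQx.qExpand_NP,
    coeffMap_prod_rotHom q ζ hζ hz]

/-- **[NormNP], along `β`.**  `(N_β z)^ℂ = (w z)^ℂ · NP q (z^ℂ)`. -/
theorem coeffMap_betaNorm (z : ↥(modularFunctionFieldBar (M * q))) :
    coeffMap embC ((PushPic.betaNorm M q z : ↥(modularFunctionFieldBar M)) : LaurentSeries Qb)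
      = coeffMap embC
            ((WK.wBar M q hq hqM z : ↥(modularFunctionFieldBar (M * q))) : LaurentSeries Qb) *
          TrQx.NP q (coeffMap embC (z : LaurentSeries Qb)) := by
  obtain ⟨ζ, hζ⟩ := HasEnoughRootsOfUnity.exists_primitiveRoot Qb q
  have hz : ∀ i : ℕ, ζ ^ i ≠ 0 := fun i => pow_ne_zero i (hζ.ne_zero (NeZero.ne q))
  have h : qExpand Qb q
        ((PushPic.betaNorm M q z : ↥(modularFunctionFieldBar M)) : LaurentSeries Qb)
      = qExpand Qb q
          ((WK.wBar M q hq hqM z : ↥(modularFunctionFieldBar (M * q))) : LaurentSeries Qb) *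
          ∏ i ∈ Finset.range q, rotHom (ζ ^ i) (hz i) (z : LaurentSeries Qb) :=
    NormRed.qExpand_norm_beta_w M q hq hqM ζ hζ hz z
  apply qExpand_injective (R := ℂ) (N := q)
  rw [← coeffMap_qExpand, h, map_mul, map_mul, coeffMap_qExpand, TrQx.qExpand_NP,
    coeffMap_prod_rotHom q ζ hζ hz]

end Norm

end Fermat.Agent.S35.NormNP

end
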