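/-
S35 block [D] (row [K-tr]), leaf [NormNP], B-copy — NormNPB.lean (helper96).

The norm formulas of `S35/NormRed` (`qExpand_norm_alpha`, `qExpand_norm_beta_w`), read over `ℂ`
through `embC : ℚ̄ → ℂ`, in the `NP`-form of `S35/TrQx`
(`NP q X = (∏_{i<q} X(ζ^i Q))(Q^{1/q})`, `ζ = exp(2πi/q)`): for EVERY `z ∈ F̄_{Mq}`

* `coeffMap_alphaNorm` : `embC (N_α z) = embC z · NP q (embC (w z))`;
* `coeffMap_betaNorm`  : `embC (N_β z) = embC (w z) · NP q (embC z)`,

`w = WK.wBar` the Atkin–Lehner involution, `N_α = PushPic.alphaNorm`, `N_β = PushPic.betaNorm` the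
norms of `F̄_{Mq}` over `F̄_M` along the two degeneracy maps.

* `coeffMap_prod_rot`  : the image under `embC` of the product of the rotations of `X` by the
  powers of ANY primitive `q`-th root of unity of `ℚ̄` is `(NP q (embC X))(Q^q)`.
-/
import Mathlib
import Fermat.Agent.S29.K6Hecke
import Fermat.Agent.S35.PushPic
import Fermat.Agent.S35.NormRed
import Fermat.Agent.S35.TrQx

set_option autoImplicit false

noncomputable section

namespace Fermat.Agent.S35.NormNPB

open ModularCurve AlgebraicCurve HahnSeries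
open Fermat.Agent.S18 Fermat.Agent.S18.Arith Fermat.Agent.S34 Fermat.Agent.S35
open Fermat.Agent.S24 (embC rotHom)
open Fermat.Agent.S37 (KC.twist KC.twist_eq_rotHom KC.coeffMap_twist)

/-- The image under `embC` of the product of the rotations of `X` by the powers of a primitive
`q`-th root of unity of `ℚ̄` is the product of the twists of `embC X` by the powers of
`exp(2πi/q)`, i.e. `(NP q (embC X))(Q^q)`. -/
theorem coeffMap_prod_rot (q : ℕ) [NeZero q] (ζ : Qb) (hζ : IsPrimitiveRoot ζ q)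
    (hz : ∀ i : ℕ, ζ ^ i ≠ 0) (X : LaurentSeries Qb) :
    coeffMap embC (∏ i ∈ Finset.range q, rotHom (ζ ^ i) (hz i) X) =
      qExpand ℂ q (TrQx.NP q (coeffMap embC X)) := by
  have hζ0 : ζ ≠ 0 := by simpa using hz 1
  set ζu : Qbˣ := Units.mk0 ζ hζ0 with hζu
  set ξ : ℂˣ := Units.map (embC : Qb →* ℂ) ζu with hξ
  have hξprim : IsPrimitiveRoot ((ξ : ℂˣ) : ℂ) q := by
    have e : ((ξ : ℂˣ) : ℂ) = embC ζ := rfl
    rw [e]
    exact hζ.map_of_injective embC.injective
  rw [TrQx.qExpand_NP, map_prod,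
    ← Fermat.Agent.S29.K6Hecke.prod_pow_eq_of_isPrimitiveRoot hξprim
      (Fermat.Agent.S29.HeckeProdQxB.isPrimitiveRoot_zetaUnit q)
      (fun v => KC.twist v (coeffMap embC X))]
  refine Finset.prod_congr rfl fun i _ => ?_
  have e : rotHom (ζ ^ i) (hz i) X = KC.twist (ζu ^ i) X := by
    rw [KC.twist_eq_rotHom]
    congr 1
  rw [e, KC.coeffMap_twist, map_pow]

variable (M q : ℕ) [NeZero M] [NeZero q] (hq : q.Prime) (hqM : ¬ q ∣ M)

/-- **[NormNP] along `α`**: `embC (N_α z) = embC z · NP q (embC (w z))`. -/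
theorem coeffMap_alphaNorm (z : ↥(modularFunctionFieldBar (M * q))) :
    coeffMap embC ((PushPic.alphaNorm M q z : ↥(modularFunctionFieldBar M)) : LaurentSeries Qb) =
      coeffMap embC (z : LaurentSeries Qb) *
        TrQx.NP q (coeffMap embC
          ((WK.wBar M q hq hqM z : ↥(modularFunctionFieldBar (M * q))) : LaurentSeries Qb)) := by
  obtain ⟨ζ, hζ⟩ := HasEnoughRootsOfUnity.exists_primitiveRoot Qb q
  have hz : ∀ i : ℕ, ζ ^ i ≠ 0 := fun i => pow_ne_zero i (hζ.ne_zero (NeZero.ne q))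
  apply qExpand_injective (R := ℂ) (N := q)
  rw [map_mul, ← coeffMap_prod_rot q ζ hζ hz, ← ModularCurve.coeffMap_qExpand,
    ← ModularCurve.coeffMap_qExpand, ← map_mul]
  congr 1
  exact NormRed.qExpand_norm_alpha M q hq hqM ζ hζ hz z

/-- **[NormNP] along `β`**: `embC (N_β z) = embC (w z) · NP q (embC z)`. -/
theorem coeffMap_betaNorm (z : ↥(modularFunctionFieldBar (M * q))) :
    coeffMap embC ((PushPic.betaNorm M q z : ↥(modularFunctionFieldBar M)) : LaurentSeries Qb) =
      coeffMap embC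
          ((WK.wBar M q hq hqM z : ↥(modularFunctionFieldBar (M * q))) : LaurentSeries Qb) *
        TrQx.NP q (coeffMap embC (z : LaurentSeries Qb)) := by
  obtain ⟨ζ, hζ⟩ := HasEnoughRootsOfUnity.exists_primitiveRoot Qb q
  have hz : ∀ i : ℕ, ζ ^ i ≠ 0 := fun i => pow_ne_zero i (hζ.ne_zero (NeZero.ne q))
  apply qExpand_injective (R := ℂ) (N := q)
  rw [map_mul, ← coeffMap_prod_rot q ζ hζ hz, ← ModularCurve.coeffMap_qExpand,
    ← ModularCurve.coeffMap_qExpand, ← map_mul]
  congr 1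
  exact NormRed.qExpand_norm_beta_w M q hq hqM ζ hζ hz z

end Fermat.Agent.S35.NormNPB
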