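/-
S35 — NormRedK.lean (helper79): row [NormRed] in the vocabulary of `S35/ModelFPlan.lean`
(`alphaNm`, `betaNm` = the norms of `F̄_{Mq}` over `F̄_M` along the two degeneracy maps).
Thin wrapper of `S35/NormRed.lean`:

* `betaNm_eq` / `alphaNm_eq`     : `betaNm z = alphaNm (w z)`, `alphaNm z = betaNm (w z)`;
* `alphaNm_mul/_inv/_div/_pow/_one` : multiplicativity (same for `betaNm`);
* `alphaNm_gal` / `betaNm_gal`   : equivariance for the coefficientwise Galois action;
* `gRel_alphaNm` / `gRel_betaNm` : `ρ_M(N_α z) = ρ₁(z) · φ(ρ₂(z))`, `ρ_M(N_β z) = φ(ρ₁(z)) · ρ₂(z)`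
  (`GRel` form; `Q^q`-forms `gRel_qExpand_alphaNm` / `_betaNm`; `F_K` forms with
  `GaussV.red1`, `GaussV.red2`).
-/
import Mathlib
import Fermat.Agent.S35.NormRed
import Fermat.Agent.S35.ModelFPlan

set_option autoImplicit false

noncomputable section

namespace Fermat.Agent.S35.NormRedK

open ModularCurve AlgebraicCurve HahnSeries
open Fermat.Agent.S18 Fermat.Agent.S18.Arith Fermat.Agent.S34
open Fermat.Agent.S35.ModelFPlan

section Alg

variable (M q : ℕ) [NeZero M] [NeZero q]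

theorem alphaNm_one : alphaNm M q 1 = 1 := by
  letI := algebraAlong (heckeAlphaBar Qb M q)
  exact map_one (Algebra.norm (↥(modularFunctionFieldBar M)))

theorem alphaNm_mul (x y : ↥(modularFunctionFieldBar (M * q))) :
    alphaNm M q (x * y) = alphaNm M q x * alphaNm M q y := by
  letI := algebraAlong (heckeAlphaBar Qb M q)
  exact map_mul (Algebra.norm (↥(modularFunctionFieldBar M))) x y

theorem alphaNm_pow (x : ↥(modularFunctionFieldBar (M * q))) (n : ℕ) :
    alphaNm M q (x ^ n) = alphaNm M q x ^ n := by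
  letI := algebraAlong (heckeAlphaBar Qb M q)
  exact map_pow (Algebra.norm (↥(modularFunctionFieldBar M))) x n

theorem betaNm_one : betaNm M q 1 = 1 := by
  letI := algebraAlong (heckeBetaBar Qb M q)
  exact map_one (Algebra.norm (↥(modularFunctionFieldBar M)))

theorem betaNm_mul (x y : ↥(modularFunctionFieldBar (M * q))) :
    betaNm M q (x * y) = betaNm M q x * betaNm M q y := by
  letI := algebraAlong (heckeBetaBar Qb M q)
  exact map_mul (Algebra.norm (↥(modularFunctionFieldBar M))) x y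

theorem betaNm_pow (x : ↥(modularFunctionFieldBar (M * q))) (n : ℕ) :
    betaNm M q (x ^ n) = betaNm M q x ^ n := by
  letI := algebraAlong (heckeBetaBar Qb M q)
  exact map_pow (Algebra.norm (↥(modularFunctionFieldBar M))) x n

theorem alphaNm_inv (x : ↥(modularFunctionFieldBar (M * q))) :
    alphaNm M q x⁻¹ = (alphaNm M q x)⁻¹ := by
  by_cases hx : x = 0
  · rw [hx, inv_zero]
    have ha : alphaNm M q 0 * alphaNm M q 0 = alphaNm M q 0 := by
      rw [← alphaNm_mul, mul_zero]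
    by_cases h0 : alphaNm M q 0 = 0
    · rw [h0, inv_zero]
    · have h1 : alphaNm M q 0 = 1 := mul_left_cancel₀ h0 (ha.trans (mul_one _).symm)
      rw [h1, inv_one]
  · have h : alphaNm M q x * alphaNm M q x⁻¹ = 1 := by
      rw [← alphaNm_mul, mul_inv_cancel₀ hx, alphaNm_one]
    exact eq_inv_of_mul_eq_one_right h

theorem alphaNm_div (x y : ↥(modularFunctionFieldBar (M * q))) :
    alphaNm M q (x / y) = alphaNm M q x / alphaNm M q y := by
  rw [div_eq_mul_inv, alphaNm_mul, alphaNm_inv, div_eq_mul_inv]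

theorem betaNm_inv (x : ↥(modularFunctionFieldBar (M * q))) :
    betaNm M q x⁻¹ = (betaNm M q x)⁻¹ := by
  by_cases hx : x = 0
  · rw [hx, inv_zero]
    have ha : betaNm M q 0 * betaNm M q 0 = betaNm M q 0 := by
      rw [← betaNm_mul, mul_zero]
    by_cases h0 : betaNm M q 0 = 0
    · rw [h0, inv_zero]
    · have h1 : betaNm M q 0 = 1 := mul_left_cancel₀ h0 (ha.trans (mul_one _).symm)
      rw [h1, inv_one]
  · have h : betaNm M q x * betaNm M q x⁻¹ = 1 := by
      rw [← betaNm_mul, mul_inv_cancel₀ hx, betaNm_one]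
    exact eq_inv_of_mul_eq_one_right h

theorem betaNm_div (x y : ↥(modularFunctionFieldBar (M * q))) :
    betaNm M q (x / y) = betaNm M q x / betaNm M q y := by
  rw [div_eq_mul_inv, betaNm_mul, betaNm_inv, div_eq_mul_inv]

/-- `N_α (σ • z) = σ • N_α z` for the coefficientwise Galois action. -/
theorem alphaNm_gal (σ : Qb ≃ₐ[ℚ] Qb) (z : ↥(modularFunctionFieldBar (M * q))) :
    alphaNm M q (UPlan.gal (M * q) σ • z) = UPlan.gal M σ • alphaNm M q z :=
  NormRed.norm_alpha_arith M q σ z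

/-- `N_β (σ • z) = σ • N_β z` for the coefficientwise Galois action. -/
theorem betaNm_gal (σ : Qb ≃ₐ[ℚ] Qb) (z : ↥(modularFunctionFieldBar (M * q))) :
    betaNm M q (UPlan.gal (M * q) σ • z) = UPlan.gal M σ • betaNm M q z :=
  NormRed.norm_beta_arith M q σ z

end Alg

section Main

variable (M q : ℕ) [NeZero M] [NeZero q] (hq : q.Prime) (hqM : ¬ q ∣ M)

/-- `N_β z = N_α (w z)`. -/
theorem betaNm_eq (z : ↥(modularFunctionFieldBar (M * q))) :
    betaNm M q z = alphaNm M q (WK.wBar M q hq hqM z) :=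
  NormRed.norm_beta_eq M q hq hqM z

/-- `N_α z = N_β (w z)`. -/
theorem alphaNm_eq (z : ↥(modularFunctionFieldBar (M * q))) :
    alphaNm M q z = betaNm M q (WK.wBar M q hq hqM z) :=
  NormRed.norm_alpha_eq M q hq hqM z

variable {A : ValuationSubring Qb}

/-- `Q^q`-form along `α`: `(N_α z)(Q^q)` reduces to `g1(Q^q) · g2^q`. -/
theorem gRel_qExpand_alphaNm (hA : A.LiesOverPrime q) (z : ↥(modularFunctionFieldBar (M * q)))
    {g1 g2 : LaurentSeries (IsLocalRing.ResidueField A)}
    (h1 : GRel A (z : LaurentSeries Qb) g1)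
    (h2 : GRel A ((WK.wBar M q hq hqM z : ↥(modularFunctionFieldBar (M * q))) :
      LaurentSeries Qb) g2) :
    GRel A (qExpand Qb q ((alphaNm M q z : ↥(modularFunctionFieldBar M)) : LaurentSeries Qb))
      (qExpand (IsLocalRing.ResidueField A) q g1 * g2 ^ q) :=
  NormRed.gRel_qExpand_norm_alpha M q hq hqM hA z h1 h2

/-- `Q^q`-form along `β`: `(N_β z)(Q^q)` reduces to `g2(Q^q) · g1^q`. -/
theorem gRel_qExpand_betaNm (hA : A.LiesOverPrime q) (z : ↥(modularFunctionFieldBar (M * q)))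
    {g1 g2 : LaurentSeries (IsLocalRing.ResidueField A)}
    (h1 : GRel A (z : LaurentSeries Qb) g1)
    (h2 : GRel A ((WK.wBar M q hq hqM z : ↥(modularFunctionFieldBar (M * q))) :
      LaurentSeries Qb) g2) :
    GRel A (qExpand Qb q ((betaNm M q z : ↥(modularFunctionFieldBar M)) : LaurentSeries Qb))
      (qExpand (IsLocalRing.ResidueField A) q g2 * g1 ^ q) :=
  NormRed.gRel_qExpand_norm_beta M q hq hqM hA z h1 h2

/-- **[NormRed] along `α`**: `ρ_M(N_α z) = ρ(z) · φ(ρ(w z))`. -/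
theorem gRel_alphaNm [Fact q.Prime] [CharP (IsLocalRing.ResidueField A) q]
    (hA : A.LiesOverPrime q) (z : ↥(modularFunctionFieldBar (M * q)))
    {g1 g2 : LaurentSeries (IsLocalRing.ResidueField A)}
    (h1 : GRel A (z : LaurentSeries Qb) g1)
    (h2 : GRel A ((WK.wBar M q hq hqM z : ↥(modularFunctionFieldBar (M * q))) :
      LaurentSeries Qb) g2) :
    GRel A ((alphaNm M q z : ↥(modularFunctionFieldBar M)) : LaurentSeries Qb)
      (g1 * coeffMap (frobenius (IsLocalRing.ResidueField A) q) g2) :=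
  NormRed.gRel_norm_alpha M q hq hqM hA z h1 h2

/-- **[NormRed] along `β`**: `ρ_M(N_β z) = φ(ρ(z)) · ρ(w z)`. -/
theorem gRel_betaNm [Fact q.Prime] [CharP (IsLocalRing.ResidueField A) q]
    (hA : A.LiesOverPrime q) (z : ↥(modularFunctionFieldBar (M * q)))
    {g1 g2 : LaurentSeries (IsLocalRing.ResidueField A)}
    (h1 : GRel A (z : LaurentSeries Qb) g1)
    (h2 : GRel A ((WK.wBar M q hq hqM z : ↥(modularFunctionFieldBar (M * q))) :
      LaurentSeries Qb) g2) :
    GRel A ((betaNm M q z : ↥(modularFunctionFieldBar M)) : LaurentSeries Qb)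
      (coeffMap (frobenius (IsLocalRing.ResidueField A) q) g1 * g2) :=
  NormRed.gRel_norm_beta M q hq hqM hA z h1 h2

variable {K : IntermediateField ℚ Qb}

/-- `F_K` form along `α`: for `x ∈ V1 ∩ V2`, `N_α x` reduces to `ρ₁(x) · φ(ρ₂(x))`. -/
theorem gRel_alphaNm_FK [Fact q.Prime] [CharP (IsLocalRing.ResidueField A) q]
    (hA : A.LiesOverPrime q) (hdvr : IsDiscreteValuationRing (OK A K)) (x : FK (M * q) K)
    (h1 : x ∈ GaussV.V1 (M * q) A K hdvr) (h2 : x ∈ GaussV.V2 (WK.wK M q hq hqM K) hdvr) :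
    GRel A ((alphaNm M q (S18.Glob.toBar (M * q) K x) : ↥(modularFunctionFieldBar M)) :
        LaurentSeries Qb)
      (GaussV.red1 hdvr ⟨x, h1⟩ * coeffMap (frobenius (IsLocalRing.ResidueField A) q)
        (GaussV.red2 (WK.wK M q hq hqM K) hdvr ⟨x, h2⟩)) :=
  NormRed.gRel_norm_alpha_FK M q hq hqM hA hdvr x h1 h2

/-- `F_K` form along `β`: for `x ∈ V1 ∩ V2`, `N_β x` reduces to `φ(ρ₁(x)) · ρ₂(x)`. -/
theorem gRel_betaNm_FK [Fact q.Prime] [CharP (IsLocalRing.ResidueField A) q]
    (hA : A.LiesOverPrime q) (hdvr : IsDiscreteValuationRing (OK A K)) (x : FK (M * q) K)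
    (h1 : x ∈ GaussV.V1 (M * q) A K hdvr) (h2 : x ∈ GaussV.V2 (WK.wK M q hq hqM K) hdvr) :
    GRel A ((betaNm M q (S18.Glob.toBar (M * q) K x) : ↥(modularFunctionFieldBar M)) :
        LaurentSeries Qb)
      (coeffMap (frobenius (IsLocalRing.ResidueField A) q) (GaussV.red1 hdvr ⟨x, h1⟩) *
        GaussV.red2 (WK.wK M q hq hqM K) hdvr ⟨x, h2⟩) :=
  NormRed.gRel_norm_beta_FK M q hq hqM hA hdvr x h1 h2

end Main

end Fermat.Agent.S35.NormRedK
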