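/-
S35 bridge [D] ("[K]-compat with transfer"), charpoly route — PrimNorm.lean (owner: helper98).

PURE ALGEBRA (Mathlib only).  `K ⊆ L` a finite separable extension of degree `n`, `K` infinite;
`j₀ : K → K'`, `j : L → L'`, `e' : K' → L'` ring homomorphisms with `j ∘ algebraMap = e' ∘ j₀`,
such that `K`-independent `n`-families of `L` stay `e'(K')`-independent after `j`.

* `coeff_zero_of_adjoin_eq_top` : if `x` is a primitive element of `L / K` and `P ∈ K'[X]` is
  monic of degree `n` with `P(j x) = 0`, then `P = (minpoly K x).map j₀`; in particular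
  `P.coeff 0 = (-1) ^ n * j₀ (Algebra.norm K x)`.
* `norm_eq_of_rel` : a multiplicative relation `R : L → K' → Prop`, total on nonzero elements,
  such that `R f c` produces a monic annihilator of `j f` of degree `n` with constant term
  `(-1) ^ n * c`, is the norm: `R f c → c = j₀ (Algebra.norm K f)`.

Use: `K = F̄_M`, `L = F̄_{Mq}` (along `α` or `β`), `K' = FC M`, `L' = ℂ((q))`, and
`R f c` := "`c` is the quotient of the coset products of a pair of forms representing `f`".
-/
import Mathlib

set_option autoImplicit false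
set_option linter.unusedSectionVars false

namespace Fermat.Agent.S35.PrimNorm

open IntermediateField Polynomial

variable {K L K' L' : Type*} [Field K] [Field L] [Algebra K L] [FiniteDimensional K L]
  [Field K'] [CommRing L']

/-- A primitive element has minimal polynomial of degree `[L : K]`. -/
theorem natDegree_minpoly_of_adjoin_eq_top {x : L} (hx : K⟮x⟯ = ⊤) :
    (minpoly K x).natDegree = Module.finrank K L := by
  have hint : IsIntegral K x := Algebra.IsIntegral.isIntegral x
  rw [← IntermediateField.adjoin.finrank hint, hx, IntermediateField.finrank_top']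

/-- The powers `1, x, …, x ^ (n - 1)` of a primitive element are linearly independent. -/
theorem linearIndependent_pow_of_adjoin_eq_top {x : L} (hx : K⟮x⟯ = ⊤) :
    LinearIndependent K (fun i : Fin (Module.finrank K L) => x ^ (i : ℕ)) := by
  have hint : IsIntegral K x := Algebra.IsIntegral.isIntegral x
  have h := linearIndependent_pow (K := K) x
  rw [natDegree_minpoly_of_adjoin_eq_top hx] at h
  exact h

/-- The norm of a primitive element is `(-1) ^ n` times the constant term of its minimal
polynomial. -/
theorem norm_of_adjoin_eq_top {x : L} (hx : K⟮x⟯ = ⊤) :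
    Algebra.norm K x = (-1) ^ Module.finrank K L * (minpoly K x).coeff 0 := by
  have hint : IsIntegral K x := Algebra.IsIntegral.isIntegral x
  let pb : PowerBasis K L :=
    (IntermediateField.adjoin.powerBasis hint).map
      ((IntermediateField.equivOfEq hx).trans IntermediateField.topEquiv)
  have hgen : pb.gen = x := rfl
  have hdim : pb.dim = Module.finrank K L := by
    rw [← natDegree_minpoly_of_adjoin_eq_top hx]
    rfl
  have h := Algebra.PowerBasis.norm_gen_eq_coeff_zero_minpoly pb
  rw [hgen, hdim] at h
  exact h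

/-- **Primitive case.**  A monic polynomial over `K'` of degree `[L : K]` killing `j x`, `x` a
primitive element, is the image of the minimal polynomial of `x`. -/
theorem eq_map_minpoly_of_adjoin_eq_top
    (j₀ : K →+* K') (j : L →+* L') (e' : K' →+* L')
    (hj : ∀ x : K, j (algebraMap K L x) = e' (j₀ x))
    (hind : ∀ v : Fin (Module.finrank K L) → L, LinearIndependent K v →
      ∀ c : Fin (Module.finrank K L) → K', ∑ i, e' (c i) * j (v i) = 0 → ∀ i, c i = 0)
    {x : L} (hx : K⟮x⟯ = ⊤) {P : Polynomial K'} (hP : P.Monic)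
    (hdeg : P.natDegree = Module.finrank K L) (hroot : P.eval₂ e' (j x) = 0) :
    P = (minpoly K x).map j₀ := by
  have hint : IsIntegral K x := Algebra.IsIntegral.isIntegral x
  set n := Module.finrank K L with hn
  have hnpos : 0 < n := Module.finrank_pos
  set P₀ : Polynomial K' := (minpoly K x).map j₀ with hP₀
  have hP₀m : P₀.Monic := (minpoly.monic hint).map j₀
  have hP₀deg : P₀.natDegree = n := by
    rw [hP₀, Polynomial.natDegree_map, natDegree_minpoly_of_adjoin_eq_top hx]
  have hP₀root : P₀.eval₂ e' (j x) = 0 := by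
    rw [hP₀, Polynomial.eval₂_map]
    have hcomp : e'.comp j₀ = j.comp (algebraMap K L) := by
      ext y
      exact (hj y).symm
    rw [hcomp, ← Polynomial.hom_eval₂, ← Polynomial.aeval_def, minpoly.aeval, map_zero]
  -- the difference has degree `< n` and kills `j x`
  set D : Polynomial K' := P - P₀ with hD
  have hDdeg : D.natDegree < n := by
    by_cases hD0 : D = 0
    · rw [hD0, Polynomial.natDegree_zero]
      exact hnpos
    · have hdeg' : P.degree = P₀.degree := by
        rw [Polynomial.degree_eq_natDegree hP.ne_zero, Polynomial.degree_eq_natDegree hP₀m.ne_zero,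
          hdeg, hP₀deg]
      have hlt : D.degree < P.degree :=
        Polynomial.degree_sub_lt_left hdeg' hP.ne_zero (by rw [hP.leadingCoeff, hP₀m.leadingCoeff])
      have := Polynomial.natDegree_lt_natDegree hD0 hlt
      rwa [hdeg] at this
  have hDroot : D.eval₂ e' (j x) = 0 := by
    rw [hD, Polynomial.eval₂_sub, hroot, hP₀root, sub_zero]
  have hsum : ∑ i : Fin n, e' (D.coeff (i : ℕ)) * j (x ^ (i : ℕ)) = 0 := by
    rw [Polynomial.eval₂_eq_sum_range' e' hDdeg, ← Fin.sum_univ_eq_sum_range
      (fun i => e' (D.coeff i) * j x ^ i) n] at hDroot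
    simpa [map_pow] using hDroot
  have hzero := hind (fun i : Fin n => x ^ (i : ℕ)) (linearIndependent_pow_of_adjoin_eq_top hx)
    (fun i => D.coeff (i : ℕ)) hsum
  have hD0 : D = 0 := by
    ext i
    rw [Polynomial.coeff_zero]
    by_cases hi : i < n
    · exact hzero ⟨i, hi⟩
    · exact Polynomial.coeff_eq_zero_of_natDegree_lt (lt_of_lt_of_le hDdeg (not_lt.mp hi))
  exact sub_eq_zero.mp hD0

/-- **Primitive case, constant term.** -/
theorem coeff_zero_of_adjoin_eq_top
    (j₀ : K →+* K') (j : L →+* L') (e' : K' →+* L')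
    (hj : ∀ x : K, j (algebraMap K L x) = e' (j₀ x))
    (hind : ∀ v : Fin (Module.finrank K L) → L, LinearIndependent K v →
      ∀ c : Fin (Module.finrank K L) → K', ∑ i, e' (c i) * j (v i) = 0 → ∀ i, c i = 0)
    {x : L} (hx : K⟮x⟯ = ⊤) {P : Polynomial K'} (hP : P.Monic)
    (hdeg : P.natDegree = Module.finrank K L) (hroot : P.eval₂ e' (j x) = 0) :
    P.coeff 0 = (-1) ^ Module.finrank K L * j₀ (Algebra.norm K x) := by
  rw [eq_map_minpoly_of_adjoin_eq_top j₀ j e' hj hind hx hP hdeg hroot, Polynomial.coeff_map,
    norm_of_adjoin_eq_top hx, map_mul, map_pow, map_neg, map_one, ← mul_assoc, ← pow_add,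
    Even.neg_one_pow ⟨_, rfl⟩, one_mul]

section General

variable [Algebra.IsSeparable K L] [Infinite K]

/-- A translate `θ + a` (`a ∈ K`) of a primitive element is primitive. -/
theorem adjoin_add_algebraMap_eq_top {θ : L} (hθ : K⟮θ⟯ = ⊤) (a : K) :
    K⟮θ + algebraMap K L a⟯ = ⊤ := by
  rw [eq_top_iff, ← hθ, IntermediateField.adjoin_simple_le_iff]
  have h1 : θ + algebraMap K L a ∈ K⟮θ + algebraMap K L a⟯ :=
    IntermediateField.mem_adjoin_simple_self K _
  have h2 : algebraMap K L a ∈ K⟮θ + algebraMap K L a⟯ := IntermediateField.algebraMap_mem _ a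
  have h3 := sub_mem h1 h2
  rwa [add_sub_cancel_right] at h3

/-- For `f ≠ 0` and a primitive element `θ`, all but finitely many `a ∈ K` make `f * (θ + a)`
primitive. -/
theorem finite_not_primitive {θ : L} (hθ : K⟮θ⟯ = ⊤) {f : L} (hf : f ≠ 0) :
    {a : K | K⟮f * (θ + algebraMap K L a)⟯ ≠ ⊤}.Finite := by
  have : Finite (IntermediateField K L) :=
    Field.finite_intermediateField_of_exists_primitive_element K L ⟨θ, hθ⟩
  apply Set.Finite.of_finite_image (f := fun a : K => K⟮f * (θ + algebraMap K L a)⟯)
    (Set.toFinite _)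
  intro a ha a' _ hEq
  by_contra hne
  apply ha
  -- `E := K⟮f (θ + a)⟯` contains `f (θ + a)` and `f (θ + a')`
  set E : IntermediateField K L := K⟮f * (θ + algebraMap K L a)⟯ with hE
  have h1 : f * (θ + algebraMap K L a) ∈ E := IntermediateField.mem_adjoin_simple_self K _
  have h2 : f * (θ + algebraMap K L a') ∈ E := by
    have hEq' : E = K⟮f * (θ + algebraMap K L a')⟯ := hEq
    rw [hEq']
    exact IntermediateField.mem_adjoin_simple_self K _
  have h3 : f * algebraMap K L (a - a') ∈ E := by
    have := sub_mem h1 h2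
    have e : f * (θ + algebraMap K L a) - f * (θ + algebraMap K L a') =
        f * algebraMap K L (a - a') := by
      rw [map_sub]
      ring
    rwa [e] at this
  have hsub : a - a' ≠ 0 := sub_ne_zero.mpr hne
  have hfE : f ∈ E := by
    have h4 : algebraMap K L (a - a')⁻¹ ∈ E := IntermediateField.algebraMap_mem _ _
    have h5 := mul_mem h3 h4
    have e : f * algebraMap K L (a - a') * algebraMap K L (a - a')⁻¹ = f := by
      rw [mul_assoc, ← map_mul, mul_inv_cancel₀ hsub, map_one, mul_one]
    rwa [e] at h5
  have hθE : θ ∈ E := by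
    have h6 : f⁻¹ * (f * (θ + algebraMap K L a)) ∈ E := mul_mem (inv_mem hfE) h1
    rw [← mul_assoc, inv_mul_cancel₀ hf, one_mul] at h6
    have h7 := sub_mem h6 (IntermediateField.algebraMap_mem E a)
    rwa [add_sub_cancel_right] at h7
  rw [eq_top_iff, ← hθ, IntermediateField.adjoin_simple_le_iff]
  exact hθE

/-- **The norm from monic annihilators.**  Let `R : L → K' → Prop` be multiplicative, total on
nonzero elements, and such that `R f c` yields a monic `P ∈ K'[X]` of degree `[L : K]` with
`P(j f) = 0` and `P.coeff 0 = (-1) ^ [L : K] * c`.  Then `R f c → c = j₀ (N_{L/K} f)`. -/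
theorem norm_eq_of_rel
    (j₀ : K →+* K') (j : L →+* L') (e' : K' →+* L')
    (hj : ∀ x : K, j (algebraMap K L x) = e' (j₀ x))
    (hind : ∀ v : Fin (Module.finrank K L) → L, LinearIndependent K v →
      ∀ c : Fin (Module.finrank K L) → K', ∑ i, e' (c i) * j (v i) = 0 → ∀ i, c i = 0)
    (R : L → K' → Prop)
    (hex : ∀ f : L, f ≠ 0 → ∃ c, R f c)
    (hmul : ∀ f f' c c', R f c → R f' c' → R (f * f') (c * c'))
    (hpoly : ∀ f c, R f c → ∃ P : Polynomial K', P.Monic ∧
      P.natDegree = Module.finrank K L ∧ P.eval₂ e' (j f) = 0 ∧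
      P.coeff 0 = (-1) ^ Module.finrank K L * c)
    {f : L} (hf : f ≠ 0) {c : K'} (hc : R f c) : c = j₀ (Algebra.norm K f) := by
  -- the primitive case
  have hprim : ∀ (x : L) (d : K'), K⟮x⟯ = ⊤ → R x d → d = j₀ (Algebra.norm K x) := by
    intro x d hx hd
    obtain ⟨P, hP, hdeg, hroot, hc0⟩ := hpoly x d hd
    have h := coeff_zero_of_adjoin_eq_top j₀ j e' hj hind hx hP hdeg hroot
    rw [hc0] at h
    have hunit : ((-1 : K') ^ Module.finrank K L) ≠ 0 := pow_ne_zero _ (neg_ne_zero.mpr one_ne_zero)
    exact mul_left_cancel₀ hunit h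
  obtain ⟨θ, hθ⟩ := Field.exists_primitive_element K L
  -- choose `a` with `θ + a ≠ 0` and `f (θ + a)` primitive
  have hfin1 := finite_not_primitive hθ hf
  have hfin2 : {a : K | θ + algebraMap K L a = 0}.Finite := by
    apply Set.Subsingleton.finite
    intro a ha a' ha'
    have h : algebraMap K L a = algebraMap K L a' := by
      have e1 : θ + algebraMap K L a = θ + algebraMap K L a' := by
        have h1 : θ + algebraMap K L a = 0 := ha
        have h2 : θ + algebraMap K L a' = 0 := ha'
        rw [h1, h2]
      exact add_left_cancel e1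
    exact (algebraMap K L).injective h
  obtain ⟨a, ha⟩ := (hfin1.union hfin2).exists_notMem
  have ha1 : K⟮f * (θ + algebraMap K L a)⟯ = ⊤ := by
    by_contra h
    exact ha (Or.inl h)
  have ha2 : θ + algebraMap K L a ≠ 0 := fun h => ha (Or.inr h)
  set t : L := θ + algebraMap K L a with ht
  obtain ⟨ct, hct⟩ := hex t ha2
  have e1 : ct = j₀ (Algebra.norm K t) := hprim t ct (adjoin_add_algebraMap_eq_top hθ a) hct
  have e2 : c * ct = j₀ (Algebra.norm K (f * t)) := hprim (f * t) (c * ct) ha1 (hmul f t c ct hc hct)
  have hct0 : ct ≠ 0 := by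
    rw [e1]
    intro h
    have h' : Algebra.norm K t = 0 := by
      apply j₀.injective
      rw [h, map_zero]
    exact ha2 (Algebra.norm_eq_zero_iff.mp h')
  rw [map_mul, map_mul, ← e1] at e2
  exact mul_right_cancel₀ hct0 e2

end General

end Fermat.Agent.S35.PrimNorm
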