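/-
S35 bridge [D], characteristic-polynomial route — SymPoly.lean (owner: helper98).

PURE ALGEBRA (Mathlib only).  For a finite family of pairs of functions `a x, b x : T → ℂ`
(`x : ι`), the pointwise polynomial `pt a b τ = ∏_x (a x τ - b x τ · X)` and its coefficient
functions `coeffFn a b k : T → ℂ`:

* `coeffFn_mem` : if a `ℂ`-submodule `V` of functions contains `∏_x (a x - c • b x)` for EVERY
  constant `c`, then it contains every coefficient function (Lagrange interpolation);
* `sum_coeffFn_mul_pow` : `∑_{k ≤ n} N_k · (a x₀)^k · (b x₀)^(n - k) = 0` (`n = card ι`): the pair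
  `(a x₀, b x₀)` is a "root" of the homogenised polynomial;
* `coeffFn_zero`, `coeffFn_card` : `N_0 = ∏ a x`, `N_n = (-1)^n ∏ b x`.

Use: `a x = A ∣[w] ρ_x`, `b x = B ∣[w] ρ_x` for coset representatives `ρ_x`; `V` = forms of the
lower level.
-/
import Mathlib

set_option autoImplicit false

namespace Fermat.Agent.S35.SymPoly

open Polynomial

variable {T ι : Type*} [Fintype ι]

/-- The pointwise polynomial `∏_x (a x τ - b x τ · X)`. -/
noncomputable def pt (a b : ι → T → ℂ) (τ : T) : ℂ[X] :=
  ∏ x, (C (a x τ) - C (b x τ) * X)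

/-- The `k`-th coefficient function of `pt`. -/
noncomputable def coeffFn (a b : ι → T → ℂ) (k : ℕ) : T → ℂ :=
  fun τ => (pt a b τ).coeff k

theorem coeffFn_apply (a b : ι → T → ℂ) (k : ℕ) (τ : T) :
    coeffFn a b k τ = (pt a b τ).coeff k := rfl

theorem natDegree_factor_le (u v : ℂ) : (C u - C v * X : ℂ[X]).natDegree ≤ 1 := by
  refine (natDegree_sub_le _ _).trans ?_
  rw [natDegree_C]
  exact max_le (Nat.zero_le _) ((natDegree_C_mul_le v X).trans natDegree_X_le)

theorem natDegree_pt_le (a b : ι → T → ℂ) (τ : T) :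
    (pt a b τ).natDegree ≤ Fintype.card ι := by
  refine (natDegree_prod_le _ _).trans ?_
  calc ∑ x, (C (a x τ) - C (b x τ) * X : ℂ[X]).natDegree
      ≤ ∑ _x : ι, 1 := Finset.sum_le_sum fun x _ => natDegree_factor_le _ _
    _ = Fintype.card ι := by simp

theorem eval_pt (a b : ι → T → ℂ) (τ : T) (c : ℂ) :
    (pt a b τ).eval c = ∏ x, (a x τ - c * b x τ) := by
  rw [pt, eval_prod]
  refine Finset.prod_congr rfl fun x _ => ?_
  rw [eval_sub, eval_C, eval_mul, eval_C, eval_X, mul_comm]

/-- `N_0 = ∏ a x`. -/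
theorem coeffFn_zero (a b : ι → T → ℂ) : coeffFn a b 0 = fun τ => ∏ x, a x τ := by
  funext τ
  rw [coeffFn_apply, coeff_zero_eq_eval_zero, eval_pt]
  refine Finset.prod_congr rfl fun x _ => ?_
  rw [zero_mul, sub_zero]

/-- `N_n = (-1)^n ∏ b x`, `n = card ι`. -/
theorem coeffFn_card (a b : ι → T → ℂ) :
    coeffFn a b (Fintype.card ι) = fun τ => (-1) ^ Fintype.card ι * ∏ x, b x τ := by
  funext τ
  rw [coeffFn_apply, pt]
  have h := coeff_prod_of_natDegree_le (s := (Finset.univ : Finset ι))
    (fun x => (C (a x τ) - C (b x τ) * X : ℂ[X])) 1 (fun x _ => natDegree_factor_le _ _)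
  rw [Finset.card_univ, mul_one] at h
  rw [h]
  have h1 : ∀ x : ι, (C (a x τ) - C (b x τ) * X : ℂ[X]).coeff 1 = -1 * b x τ := by
    intro x
    rw [coeff_sub, coeff_C, coeff_C_mul_X]
    simp
  rw [Finset.prod_congr rfl fun x _ => h1 x, Finset.prod_mul_distrib, Finset.prod_const,
    Finset.card_univ]

/-- **(S1)** A submodule containing all the products `∏_x (a x - c • b x)` contains all the
coefficient functions. -/
theorem coeffFn_mem (a b : ι → T → ℂ) (V : Submodule ℂ (T → ℂ))
    (h : ∀ c : ℂ, (fun τ => ∏ x, (a x τ - c * b x τ)) ∈ V) (k : ℕ) : coeffFn a b k ∈ V := by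
  classical
  set n := Fintype.card ι with hn
  set s : Finset ℕ := Finset.range (n + 1) with hs
  set v : ℕ → ℂ := fun i => (i : ℂ) with hv
  have hinj : Set.InjOn v (s : Set ℕ) := fun i _ j _ hij => Nat.cast_injective hij
  have hdeg : ∀ τ : T, (pt a b τ).degree < (s.card : WithBot ℕ) := by
    intro τ
    rw [hs, Finset.card_range]
    refine lt_of_le_of_lt degree_le_natDegree ?_
    exact_mod_cast Nat.lt_succ_of_le (natDegree_pt_le a b τ)
  have key : coeffFn a b k =
      ∑ i ∈ s, ((Lagrange.basis s v i).coeff k) • (fun τ => ∏ x, (a x τ - v i * b x τ)) := by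
    funext τ
    rw [coeffFn_apply]
    conv_lhs => rw [Lagrange.eq_interpolate hinj (hdeg τ)]
    rw [Lagrange.interpolate_apply, finsetSum_coeff, Finset.sum_apply]
    refine Finset.sum_congr rfl fun i _ => ?_
    rw [coeff_C_mul, eval_pt, Pi.smul_apply, smul_eq_mul, mul_comm]
  rw [key]
  exact Submodule.sum_mem _ fun i _ => Submodule.smul_mem _ _ (h (v i))

/-- **(S2)** `(a x₀ τ, b x₀ τ)` is a root of the homogenised pointwise polynomial. -/
theorem sum_coeffFn_mul_pow (a b : ι → T → ℂ) (x₀ : ι) (τ : T) :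
    ∑ k ∈ Finset.range (Fintype.card ι + 1),
      coeffFn a b k τ * a x₀ τ ^ k * b x₀ τ ^ (Fintype.card ι - k) = 0 := by
  classical
  set n := Fintype.card ι with hn
  by_cases hb : b x₀ τ = 0
  · -- only the top term survives, and it vanishes
    rw [Finset.sum_range_succ]
    have h1 : ∑ k ∈ Finset.range n, coeffFn a b k τ * a x₀ τ ^ k * b x₀ τ ^ (n - k) = 0 := by
      refine Finset.sum_eq_zero fun k hk => ?_
      have hk' : n - k ≠ 0 := Nat.sub_ne_zero_of_lt (Finset.mem_range.mp hk)
      rw [hb, zero_pow hk', mul_zero]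
    have h2 : coeffFn a b n τ = 0 := by
      rw [hn, coeffFn_card]
      have : ∏ x, b x τ = 0 := Finset.prod_eq_zero (Finset.mem_univ x₀) hb
      simp only [this, mul_zero]
    rw [h1, h2, zero_mul, zero_mul, add_zero]
  · have heval : (pt a b τ).eval (a x₀ τ / b x₀ τ) = 0 := by
      rw [eval_pt]
      refine Finset.prod_eq_zero (Finset.mem_univ x₀) ?_
      rw [div_mul_cancel₀ _ hb, sub_self]
    rw [eval_eq_sum_range' (Nat.lt_succ_of_le (natDegree_pt_le a b τ))] at heval
    have hmul : ∑ k ∈ Finset.range (n + 1),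
        coeffFn a b k τ * a x₀ τ ^ k * b x₀ τ ^ (n - k) =
        b x₀ τ ^ n * ∑ k ∈ Finset.range (n + 1), (pt a b τ).coeff k * (a x₀ τ / b x₀ τ) ^ k := by
      rw [Finset.mul_sum]
      refine Finset.sum_congr rfl fun k hk => ?_
      have hk' : k ≤ n := Nat.lt_succ_iff.mp (Finset.mem_range.mp hk)
      rw [coeffFn_apply, div_pow]
      have e : b x₀ τ ^ n = b x₀ τ ^ (n - k) * b x₀ τ ^ k := by
        rw [← pow_add, Nat.sub_add_cancel hk']
      rw [e]
      field_simp
    rw [hmul, heval, mul_zero]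

end Fermat.Agent.S35.SymPoly
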