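/-
S35 bridge [D] ("[K]-compat with transfer"), characteristic-polynomial route, `α`-half —
NormRelA.lean (owner: helper98).

`KTrPlan.KTrAlphaStatement M q m` from the single hypothesis `IndepAlpha M q`
(= [IndepC] for `ε = α`): for a witness `y` of `u ∈ Lpar (M q)` with `tr₁ u = 0` and
`f = y ^ m ∈ F̄_{M q}`, `Nm_α f = c · h ^ m` with `h ∈ F̄_M`.

Route: for a pair of forms `(A, B)` of level `M q` representing `f`, the coset products
`∏_x A ∣ r_x`, `∏_x B ∣ r_x` (`r = S41.rep₁`, representatives of `Γ₀(Mq) \ Γ₀(M)` in `SL₂(ℤ)`)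
are forms of level `M` (`TrProdMem`), the coefficient functions of `∏_x (A∣r_x - B∣r_x · X)` are
forms of level `M` (`SymPoly`), which gives a monic polynomial over `FC M` of degree `q + 1`
killing `f`; `PrimNorm.norm_eq_of_rel` identifies its constant term with the norm, and
`TrDesc.exists_root_of_pow_eq` descends the `m`-th root.
-/
import Mathlib
import Fermat.Agent.S29.KDefs
import Fermat.Agent.S29.KBasic
import Fermat.Agent.S29.KPlanDefs
import Fermat.Agent.S29.K2Div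
import Fermat.Agent.S29.RatDescent
import Fermat.Agent.S37.W.Degree
import Fermat.Agent.S41.TrReps
import Fermat.Agent.S35.TrProdMem
import Fermat.Agent.S35.TrDesc
import Fermat.Agent.S35.PushPic
import Fermat.Agent.S35.PrimNorm
import Fermat.Agent.S35.SymPoly
import Fermat.Agent.S35.KTrPlan
import Fermat.Agent.S35.IndepLD

set_option autoImplicit false
set_option linter.unusedSectionVars false
set_option linter.style.haveILetI false

open CongruenceSubgroup UpperHalfPlane ModularCurve AlgebraicCurve Polynomial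
open scoped MatrixGroups ModularForm Manifold

namespace Fermat.Agent.S35.NormRelA

open Fermat.Agent.S29 Fermat.Agent.S41
open Fermat.Agent.S24 (embC)

local notation "Qb" => AlgebraicClosure ℚ

/-! ### The monic polynomial of a pair of forms -/

section Poly

variable {M q : ℕ} [NeZero M] [NeZero (M * q)] {ι : Type} [Fintype ι] (r : ι → Gamma0 M)

/-- Slash by an element of `SL₂(ℤ)` is compatible with `A - c • B`. -/
theorem sub_smul_slash (w : ℤ) (c : ℂ) (A B : ℍ → ℂ) (g : SL(2, ℤ)) :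
    (A - c • B) ∣[w] g = A ∣[w] g - c • B ∣[w] g := by
  rw [sub_eq_add_neg, SlashAction.add_slash, SlashAction.neg_slash, ModularForm.SL_smul_slash,
    ← sub_eq_add_neg]

/-- The coefficient functions of `∏_x (A∣r_x - B∣r_x · X)` are forms of level `M`. -/
theorem coeffFn_mem_MF
    (hcov : ∀ g : Gamma0 M, ∃ i, ∃ h : Gamma0 (M * q), g = incl₁ M q h * r i)
    (hinj : ∀ i j, (∃ h : Gamma0 (M * q), r i = incl₁ M q h * r j) → i = j)
    {w : ℤ} {A B : ℍ → ℂ} (hA : A ∈ S20.MF (M * q) w) (hB : B ∈ S20.MF (M * q) w) (k : ℕ) :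
    SymPoly.coeffFn (fun i => A ∣[w] ((r i : Gamma0 M) : SL(2, ℤ)))
      (fun i => B ∣[w] ((r i : Gamma0 M) : SL(2, ℤ))) k ∈
        S20.MF M (w * (Fintype.card ι : ℤ)) := by
  apply SymPoly.coeffFn_mem
  intro c
  have h1 : A - c • B ∈ S20.MF (M * q) w := Submodule.sub_mem _ hA (Submodule.smul_mem _ c hB)
  have h2 := TrProdMem.prod_slash_reps_mem_MF r hcov hinj h1
  have e : (∏ i, (A - c • B) ∣[w] ((r i : Gamma0 M) : SL(2, ℤ))) =
      fun τ => ∏ x, ((A ∣[w] ((r x : Gamma0 M) : SL(2, ℤ))) τ -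
        c * (B ∣[w] ((r x : Gamma0 M) : SL(2, ℤ))) τ) := by
    funext τ
    rw [Finset.prod_apply]
    refine Finset.prod_congr rfl fun x _ => ?_
    rw [sub_smul_slash]
    rfl
  rwa [e] at h2

/-- **[SymForms], `α`.**  A pair of forms `(A, B)` of level `M q` representing `g` gives a monic
polynomial over `FC M` of degree `card ι` killing `g`, whose constant term is `(-1)^n` times the
quotient of the coset products. -/
theorem exists_poly
    (hcov : ∀ g : Gamma0 M, ∃ i, ∃ h : Gamma0 (M * q), g = incl₁ M q h * r i)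
    (hinj : ∀ i j, (∃ h : Gamma0 (M * q), r i = incl₁ M q h * r j) → i = j)
    (x₀ : ι) (hx₀ : r x₀ = 1)
    {w : ℤ} {A B : ℍ → ℂ} (hA : A ∈ S20.MF (M * q) w) (hB : B ∈ S20.MF (M * q) w) (hB0 : B ≠ 0)
    {g : LaurentSeries ℂ} (hg : g * K.qx B = K.qx A) (c : ↥(K.FC M))
    (hc : (c : LaurentSeries ℂ) * K.qx (∏ i, B ∣[w] ((r i : Gamma0 M) : SL(2, ℤ))) =
      K.qx (∏ i, A ∣[w] ((r i : Gamma0 M) : SL(2, ℤ)))) :
    ∃ P : Polynomial ↥(K.FC M), P.Monic ∧ P.natDegree = Fintype.card ι ∧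
      P.eval₂ (IndepLD.eAlpha M) g = 0 ∧
      P.coeff 0 = (-1) ^ Fintype.card ι * c := by
  classical
  set n := Fintype.card ι with hn
  set a : ι → ℍ → ℂ := fun i => A ∣[w] ((r i : Gamma0 M) : SL(2, ℤ)) with ha
  set b : ι → ℍ → ℂ := fun i => B ∣[w] ((r i : Gamma0 M) : SL(2, ℤ)) with hb
  set Nk : ℕ → ℍ → ℂ := fun k => SymPoly.coeffFn a b k with hNk
  have hNmem : ∀ k, Nk k ∈ S20.MF M (w * (n : ℤ)) := fun k => coeffFn_mem_MF r hcov hinj hA hB k
  have hNnice : ∀ k, Nk k ∈ S23.niceSub := fun k => K.mem_niceSub_of_mem_MF (hNmem k)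
  have hAn : A ∈ S23.niceSub := K.mem_niceSub_of_mem_MF hA
  have hBn : B ∈ S23.niceSub := K.mem_niceSub_of_mem_MF hB
  have hBd : MDiff B := K.mdiff_of_mem_MFchi (K.mem_MFchi_one_iff.mpr hB)
  have hqB : K.qx B ≠ 0 := K.qx_ne_zero hBn hB0
  -- the base point
  have hax : a x₀ = A := by
    rw [ha]
    simp only [hx₀]
    exact SlashAction.slash_one w A
  have hbx : b x₀ = B := by
    rw [hb]
    simp only [hx₀]
    exact SlashAction.slash_one w B
  -- the functional identity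
  have hid : ∑ k ∈ Finset.range (n + 1), Nk k * A ^ k * B ^ (n - k) = 0 := by
    funext τ
    have h := SymPoly.sum_coeffFn_mul_pow a b x₀ τ
    rw [hax, hbx] at h
    rw [Finset.sum_apply]
    simpa using h
  -- its q-expansion
  have hidq : ∑ k ∈ Finset.range (n + 1), K.qx (Nk k) * K.qx A ^ k * K.qx B ^ (n - k) = 0 := by
    have h1 : (∑ k ∈ Finset.range (n + 1),
        (⟨Nk k, hNnice k⟩ : S23.niceSub) * (⟨A, hAn⟩ : S23.niceSub) ^ k *
          (⟨B, hBn⟩ : S23.niceSub) ^ (n - k)) = 0 := by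
      apply Subtype.ext
      rw [AddSubmonoidClass.coe_finsetSum]
      simpa using hid
    have h2 := congrArg S24.AnBridge.Phi h1
    rw [map_sum, map_zero] at h2
    rw [← h2]
    refine Finset.sum_congr rfl fun k _ => ?_
    rw [map_mul, map_mul, map_pow, map_pow, K.qx_eq_Phi (hNnice k), K.qx_eq_Phi hAn,
      K.qx_eq_Phi hBn]
  -- divide by `qx B ^ n`
  have hsum : ∑ k ∈ Finset.range (n + 1), K.qx (Nk k) * g ^ k = 0 := by
    have h1 : (∑ k ∈ Finset.range (n + 1), K.qx (Nk k) * g ^ k) * K.qx B ^ n = 0 := by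
      rw [Finset.sum_mul, ← hidq]
      refine Finset.sum_congr rfl fun k hk => ?_
      have hk' : k ≤ n := Nat.lt_succ_iff.mp (Finset.mem_range.mp hk)
      rw [← hg, mul_pow]
      have e : K.qx B ^ n = K.qx B ^ k * K.qx B ^ (n - k) := by
        rw [← pow_add, Nat.add_sub_cancel' hk']
      rw [e]
      ring
    rcases mul_eq_zero.mp h1 with h | h
    · exact h
    · exact absurd (pow_eq_zero_iff (n := n) (by
        have : 0 < n := Fintype.card_pos_iff.mpr ⟨x₀⟩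
        omega) |>.mp h) hqB
  -- the top coefficient
  have hNn : Nk n = fun τ => (-1) ^ n * ∏ x, b x τ := SymPoly.coeffFn_card a b
  have hN0 : Nk 0 = fun τ => ∏ x, a x τ := SymPoly.coeffFn_zero a b
  have hprodB : (∏ i, B ∣[w] ((r i : Gamma0 M) : SL(2, ℤ))) ≠ 0 :=
    TrProdMem.prod_slash_ne_zero (fun i => ((r i : Gamma0 M) : SL(2, ℤ))) w hBd hB0
  have hNn' : Nk n = ((-1 : ℂ) ^ n) • ∏ i, B ∣[w] ((r i : Gamma0 M) : SL(2, ℤ)) := by
    rw [hNn]
    funext τ
    rw [Pi.smul_apply, Finset.prod_apply, smul_eq_mul]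
  have hN0' : Nk 0 = ∏ i, A ∣[w] ((r i : Gamma0 M) : SL(2, ℤ)) := by
    rw [hN0]
    funext τ
    rw [Finset.prod_apply]
  have hpm : ((-1 : ℂ) ^ n) ≠ 0 := pow_ne_zero _ (neg_ne_zero.mpr one_ne_zero)
  have hNn0 : Nk n ≠ 0 := by
    rw [hNn']
    exact smul_ne_zero hpm hprodB
  have hqNn : K.qx (Nk n) ≠ 0 := K.qx_ne_zero (hNnice n) hNn0
  -- the coefficients in `FC M`
  have hdmem : ∀ k, K.qx (Nk k) / K.qx (Nk n) ∈ K.FC M := fun k =>
    TrDesc.mem_FC_of_forms (K.mem_MFchi_one_iff.mpr (hNmem k)) (hNmem n) hNn0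
      (div_mul_cancel₀ _ hqNn)
  set D : ℕ → ↥(K.FC M) := fun k => ⟨K.qx (Nk k) / K.qx (Nk n), hdmem k⟩ with hD
  have hDn : D n = 1 := by
    apply Subtype.ext
    show K.qx (Nk n) / K.qx (Nk n) = 1
    exact div_self hqNn
  set P : Polynomial ↥(K.FC M) := ∑ k ∈ Finset.range (n + 1), Polynomial.monomial k (D k) with hP
  have hcoeff : ∀ i, P.coeff i = if i < n + 1 then D i else 0 := by
    intro i
    rw [hP, Polynomial.finsetSum_coeff]
    simp only [Polynomial.coeff_monomial]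
    rw [Finset.sum_ite_eq' (Finset.range (n + 1)) i (fun k => D k)]
    simp only [Finset.mem_range]
  have hdegle : P.natDegree ≤ n := by
    rw [Polynomial.natDegree_le_iff_coeff_eq_zero]
    intro i hi
    rw [hcoeff, if_neg (by omega)]
  have hcn : P.coeff n = 1 := by
    rw [hcoeff, if_pos (Nat.lt_succ_self n), hDn]
  have hnpos : 0 < n := Fintype.card_pos_iff.mpr ⟨x₀⟩
  refine ⟨P, Polynomial.monic_of_natDegree_le_of_coeff_eq_one n hdegle hcn,
    Polynomial.natDegree_eq_of_le_of_coeff_ne_zero hdegle (by rw [hcn]; exact one_ne_zero), ?_, ?_⟩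
  · rw [hP, Polynomial.eval₂_finsetSum]
    have h1 : ∑ k ∈ Finset.range (n + 1),
        (Polynomial.monomial k (D k)).eval₂ (IndepLD.eAlpha M) g =
        (∑ k ∈ Finset.range (n + 1), K.qx (Nk k) * g ^ k) / K.qx (Nk n) := by
      rw [Finset.sum_div]
      refine Finset.sum_congr rfl fun k _ => ?_
      rw [Polynomial.eval₂_monomial]
      show K.qx (Nk k) / K.qx (Nk n) * g ^ k = _
      ring
    rw [h1, hsum, zero_div]
  · rw [hcoeff, if_pos (Nat.succ_pos n)]
    apply Subtype.ext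
    show K.qx (Nk 0) / K.qx (Nk n) = ((-1 : ↥(K.FC M)) ^ n * c : ↥(K.FC M))
    have hcoe : (((-1 : ↥(K.FC M)) ^ n * c : ↥(K.FC M)) : LaurentSeries ℂ) =
        (-1) ^ n * (c : LaurentSeries ℂ) := by
      push_cast
      rfl
    rw [hcoe, div_eq_iff hqNn, hN0', hNn', K.qx_smul _
      (K.mem_niceSub_of_mem_MF (TrProdMem.prod_slash_reps_mem_MF r hcov hinj hB)), ← hc]
    have hsm : ∀ (z : ℂ) (x : LaurentSeries ℂ), z • x = HahnSeries.C z * x := fun z x =>
      RatDescent.smul_eq_C_mul z x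
    rw [hsm]
    have hC : (HahnSeries.C ((-1 : ℂ) ^ n) : LaurentSeries ℂ) = (-1) ^ n := by
      rw [map_pow, map_neg, map_one]
    rw [hC]
    have hsq : ((-1 : LaurentSeries ℂ) ^ n) * (-1) ^ n = 1 := by
      rw [← pow_add]
      exact Even.neg_one_pow (α := LaurentSeries ℂ) ⟨n, rfl⟩
    calc (c : LaurentSeries ℂ) * K.qx (∏ i, B ∣[w] ((r i : Gamma0 M) : SL(2, ℤ)))
        = ((-1 : LaurentSeries ℂ) ^ n * (-1) ^ n) *
            ((c : LaurentSeries ℂ) * K.qx (∏ i, B ∣[w] ((r i : Gamma0 M) : SL(2, ℤ)))) := by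
          rw [hsq, one_mul]
      _ = _ := by ring

end Poly

/-! ### The relation and the norm -/

section Top

variable (M q : ℕ) [NeZero M] [NeZero q] [Fact q.Prime]

/-- The coefficient change `F̄_M → FC M`. -/
noncomputable def j0 : ↥(modularFunctionFieldBar M) →+* ↥(K.FC M) :=
  RingHom.codRestrict ((coeffMap embC).comp (modularFunctionFieldBar M).val.toRingHom) (K.FC M)
    (fun x => RatDescent.coeffMap_mem_laurentBaseChange embC _ x.2)

theorem coe_j0 (x : ↥(modularFunctionFieldBar M)) :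
    ((j0 M x : ↥(K.FC M)) : LaurentSeries ℂ) = coeffMap embC (x : LaurentSeries Qb) := rfl

/-- `Rel f c` : `c` is the quotient of the coset products (over `S41.rep₁`) of SOME pair of forms
of level `M q` representing `f`. -/
def Rel (f : ↥(modularFunctionFieldBar (M * q))) (c : ↥(K.FC M)) : Prop :=
  ∃ (w : ℤ) (A B : ℍ → ℂ), A ∈ S20.MF (M * q) w ∧ B ∈ S20.MF (M * q) w ∧ B ≠ 0 ∧
    IndepLD.jBar M q f * K.qx B = K.qx A ∧
    (c : LaurentSeries ℂ) *
        K.qx (∏ x : OnePoint (ZMod q), B ∣[w] ((rep₁ M q x : Gamma0 M) : SL(2, ℤ))) =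
      K.qx (∏ x : OnePoint (ZMod q), A ∣[w] ((rep₁ M q x : Gamma0 M) : SL(2, ℤ)))

/-- Slash of a power. -/
theorem pow_slash (w : ℤ) (A : ℍ → ℂ) (g : SL(2, ℤ)) (n : ℕ) :
    (A ^ n) ∣[(n : ℤ) * w] g = (A ∣[w] g) ^ n := by
  induction n with
  | zero =>
    rw [pow_zero, pow_zero]
    have e : ((0 : ℕ) : ℤ) * w = 0 := by simp
    rw [e]
    exact ModularForm.is_invariant_one g
  | succ n ih =>
    have e : ((n + 1 : ℕ) : ℤ) * w = (n : ℤ) * w + w := by push_cast; ring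
    rw [pow_succ, pow_succ, e, ModularForm.mul_slash_SL2, ih]

variable {M q}

/-- The coset products of a form of level `M q` (trivial multiplier) over `rep₁`. -/
theorem prod_mem (hqM : ¬ q ∣ M) {w : ℤ} {B : ℍ → ℂ} (hB : B ∈ S20.MF (M * q) w) :
    (∏ x : OnePoint (ZMod q), B ∣[w] ((rep₁ M q x : Gamma0 M) : SL(2, ℤ))) ∈
      S20.MF M (w * (Fintype.card (OnePoint (ZMod q)) : ℤ)) :=
  haveI : NeZero (M * q) := ⟨Nat.mul_ne_zero (NeZero.ne M) (NeZero.ne q)⟩
  TrProdMem.prod_slash_reps_mem_MF (rep₁ M q) (rep₁_cov hqM) (rep₁_dis hqM) hB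

theorem prod_ne_zero {w : ℤ} {B : ℍ → ℂ} (hB : B ∈ S20.MF (M * q) w) (hB0 : B ≠ 0) :
    (∏ x : OnePoint (ZMod q), B ∣[w] ((rep₁ M q x : Gamma0 M) : SL(2, ℤ))) ≠ 0 :=
  haveI : NeZero (M * q) := ⟨Nat.mul_ne_zero (NeZero.ne M) (NeZero.ne q)⟩
  TrProdMem.prod_slash_ne_zero (fun x => ((rep₁ M q x : Gamma0 M) : SL(2, ℤ))) w
    (K.mdiff_of_mem_MFchi (K.mem_MFchi_one_iff.mpr hB)) hB0

/-- (K1) at level `M q`: every element of `F̄_{M q}` is represented by a pair of forms, hence is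
related to some `c`. -/
theorem rel_exists (hqM : ¬ q ∣ M) (f : ↥(modularFunctionFieldBar (M * q))) :
    ∃ c, Rel M q f c := by
  have : NeZero (M * q) := ⟨Nat.mul_ne_zero (NeZero.ne M) (NeZero.ne q)⟩
  have hmem : coeffMap embC (f : LaurentSeries Qb) ∈ K.Mchi (M * q) 1 := by
    rw [K.K2Div.mchi_one_eq_FC (M * q)]
    exact RatDescent.coeffMap_mem_laurentBaseChange embC _ f.2
  obtain ⟨w, A, B, hA, hB, hB0, hx⟩ := hmem
  have hA' : A ∈ S20.MF (M * q) w := K.mem_MFchi_one_iff.mp hA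
  have hPA := prod_mem hqM hA'
  have hPB := prod_mem hqM hB
  have hPB0 := prod_ne_zero hB hB0
  have hq0 : K.qx (∏ x : OnePoint (ZMod q), B ∣[w] ((rep₁ M q x : Gamma0 M) : SL(2, ℤ))) ≠ 0 :=
    K.qx_ne_zero (K.mem_niceSub_of_mem_MF hPB) hPB0
  refine ⟨⟨_, TrDesc.mem_FC_of_forms (K.mem_MFchi_one_iff.mpr hPA) hPB hPB0
    (div_mul_cancel₀ _ hq0)⟩, w, A, B, hA', hB, hB0, hx, div_mul_cancel₀ _ hq0⟩

/-- The relation is multiplicative. -/
theorem rel_mul (hqM : ¬ q ∣ M) {f f' : ↥(modularFunctionFieldBar (M * q))} {c c' : ↥(K.FC M)}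
    (h : Rel M q f c) (h' : Rel M q f' c') : Rel M q (f * f') (c * c') := by
  have : NeZero (M * q) := ⟨Nat.mul_ne_zero (NeZero.ne M) (NeZero.ne q)⟩
  obtain ⟨w, A, B, hA, hB, hB0, hx, hc⟩ := h
  obtain ⟨w', A', B', hA', hB', hB0', hx', hc'⟩ := h'
  have hAn := K.mem_niceSub_of_mem_MF hA
  have hBn := K.mem_niceSub_of_mem_MF hB
  have hAn' := K.mem_niceSub_of_mem_MF hA'
  have hBn' := K.mem_niceSub_of_mem_MF hB'
  have hmulMF : ∀ {X Y : ℍ → ℂ}, X ∈ S20.MF (M * q) w → Y ∈ S20.MF (M * q) w' →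
      X * Y ∈ S20.MF (M * q) (w + w') := by
    intro X Y hX hY
    have h1 := K.mul_mem_MFchi (K.mem_MFchi_one_iff.mpr hX) (K.mem_MFchi_one_iff.mpr hY)
    exact K.mem_MFchi_one_iff.mp (K.MFchi_congr_char (mul_one 1) h1)
  have hprod : ∀ X Y : ℍ → ℂ,
      (∏ x : OnePoint (ZMod q), (X * Y) ∣[w + w'] ((rep₁ M q x : Gamma0 M) : SL(2, ℤ))) =
      (∏ x : OnePoint (ZMod q), X ∣[w] ((rep₁ M q x : Gamma0 M) : SL(2, ℤ))) *
        ∏ x : OnePoint (ZMod q), Y ∣[w'] ((rep₁ M q x : Gamma0 M) : SL(2, ℤ)) := by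
    intro X Y
    rw [← Finset.prod_mul_distrib]
    refine Finset.prod_congr rfl fun x _ => ?_
    exact ModularForm.mul_slash_SL2 w w' _ X Y
  refine ⟨w + w', A * A', B * B', hmulMF hA hA', hmulMF hB hB',
    K.mul_ne_zero_of_mdiff (K.mdiff_of_mem_MFchi (K.mem_MFchi_one_iff.mpr hB))
      (K.mdiff_of_mem_MFchi (K.mem_MFchi_one_iff.mpr hB')) hB0 hB0', ?_, ?_⟩
  · rw [map_mul, K.qx_mul hBn hBn', K.qx_mul hAn hAn', ← hx, ← hx']
    ring
  · rw [hprod, hprod, K.qx_mul (K.mem_niceSub_of_mem_MF (prod_mem hqM hB))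
      (K.mem_niceSub_of_mem_MF (prod_mem hqM hB')),
      K.qx_mul (K.mem_niceSub_of_mem_MF (prod_mem hqM hA))
      (K.mem_niceSub_of_mem_MF (prod_mem hqM hA')), ← hc, ← hc']
    push_cast
    ring

/-- The relation produces monic annihilators of degree `q + 1`. -/
theorem rel_poly (hqM : ¬ q ∣ M) {f : ↥(modularFunctionFieldBar (M * q))} {c : ↥(K.FC M)}
    (h : Rel M q f c) :
    ∃ P : Polynomial ↥(K.FC M), P.Monic ∧ P.natDegree = q + 1 ∧
      P.eval₂ (IndepLD.eAlpha M) (IndepLD.jBar M q f) = 0 ∧ P.coeff 0 = (-1) ^ (q + 1) * c := by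
  have : NeZero (M * q) := ⟨Nat.mul_ne_zero (NeZero.ne M) (NeZero.ne q)⟩
  obtain ⟨w, A, B, hA, hB, hB0, hx, hc⟩ := h
  have hcard : Fintype.card (OnePoint (ZMod q)) = q + 1 := by
    rw [← Finset.card_univ]
    exact HeckeProdMem.card_onePoint_zmod
  obtain ⟨P, hP1, hP2, hP3, hP4⟩ := exists_poly (rep₁ M q) (rep₁_cov hqM) (rep₁_dis hqM)
    (OnePoint.infty) rfl hA hB hB0 hx c hc
  rw [hcard] at hP2 hP4
  exact ⟨P, hP1, hP2, hP3, hP4⟩

/-- `[F̄_{M q} : F̄_M] = q + 1` along `α`. -/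
theorem finrank_alpha (hqM : ¬ q ∣ M) :
    letI : Algebra ↥(modularFunctionFieldBar M) ↥(modularFunctionFieldBar (M * q)) :=
      algebraAlong (heckeAlphaBar Qb M q)
    Module.finrank ↥(modularFunctionFieldBar M) ↥(modularFunctionFieldBar (M * q)) = q + 1 :=
  S37.W.finrankAlong_heckeAlphaBar M q Fact.out hqM

theorem hj_alpha (x : ↥(modularFunctionFieldBar M)) :
    IndepLD.jBar M q (heckeAlphaBar Qb M q x) = IndepLD.eAlpha M (j0 M x) := by
  rw [IndepLD.jBar_apply, IndepLD.eAlpha_apply, coe_j0, coe_heckeAlphaBar]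

theorem fd_alpha :
    letI : Algebra ↥(modularFunctionFieldBar M) ↥(modularFunctionFieldBar (M * q)) :=
      algebraAlong (heckeAlphaBar Qb M q)
    FiniteDimensional ↥(modularFunctionFieldBar M) ↥(modularFunctionFieldBar (M * q)) :=
  PushPic.alpha_finiteAlong M q

theorem sep_alpha :
    letI : Algebra ↥(modularFunctionFieldBar M) ↥(modularFunctionFieldBar (M * q)) :=
      algebraAlong (heckeAlphaBar Qb M q)
    Algebra.IsSeparable ↥(modularFunctionFieldBar M) ↥(modularFunctionFieldBar (M * q)) := by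
  letI : Algebra ↥(modularFunctionFieldBar M) ↥(modularFunctionFieldBar (M * q)) :=
    algebraAlong (heckeAlphaBar Qb M q)
  haveI : FiniteDimensional ↥(modularFunctionFieldBar M) ↥(modularFunctionFieldBar (M * q)) :=
    fd_alpha
  infer_instance

theorem hpoly_alpha (hqM : ¬ q ∣ M) :
    letI : Algebra ↥(modularFunctionFieldBar M) ↥(modularFunctionFieldBar (M * q)) :=
      algebraAlong (heckeAlphaBar Qb M q)
    ∀ (f : ↥(modularFunctionFieldBar (M * q))) (c : ↥(K.FC M)), Rel M q f c →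
      ∃ P : Polynomial ↥(K.FC M), P.Monic ∧
        P.natDegree =
          Module.finrank ↥(modularFunctionFieldBar M) ↥(modularFunctionFieldBar (M * q)) ∧
        P.eval₂ (IndepLD.eAlpha M) (IndepLD.jBar M q f) = 0 ∧
        P.coeff 0 = (-1) ^
          Module.finrank ↥(modularFunctionFieldBar M) ↥(modularFunctionFieldBar (M * q)) * c := by
  intro f c h
  obtain ⟨P, h1, h2, h3, h4⟩ := rel_poly hqM h
  have hfr := finrank_alpha (M := M) (q := q) hqM
  exact ⟨P, h1, by rw [h2, hfr], h3, by rw [h4, hfr]⟩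

theorem hind_alpha :
    letI : Algebra ↥(modularFunctionFieldBar M) ↥(modularFunctionFieldBar (M * q)) :=
      algebraAlong (heckeAlphaBar Qb M q)
    ∀ v : Fin (Module.finrank ↥(modularFunctionFieldBar M)
        ↥(modularFunctionFieldBar (M * q))) → ↥(modularFunctionFieldBar (M * q)),
      LinearIndependent ↥(modularFunctionFieldBar M) v →
      ∀ c : Fin (Module.finrank ↥(modularFunctionFieldBar M)
          ↥(modularFunctionFieldBar (M * q))) → ↥(K.FC M),
        ∑ i, IndepLD.eAlpha M (c i) * IndepLD.jBar M q (v i) = 0 → ∀ i, c i = 0 :=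
  IndepLD.indep_alpha M q

/-- **The norm of a represented element** (`Algebra.norm` form). -/
theorem rel_norm_aux (hqM : ¬ q ∣ M) {f : ↥(modularFunctionFieldBar (M * q))} (hf : f ≠ 0)
    {c : ↥(K.FC M)} (h : Rel M q f c) :
    letI : Algebra ↥(modularFunctionFieldBar M) ↥(modularFunctionFieldBar (M * q)) :=
      algebraAlong (heckeAlphaBar Qb M q)
    c = j0 M (Algebra.norm ↥(modularFunctionFieldBar M) f) := by
  letI : Algebra ↥(modularFunctionFieldBar M) ↥(modularFunctionFieldBar (M * q)) :=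
    algebraAlong (heckeAlphaBar Qb M q)
  haveI : FiniteDimensional ↥(modularFunctionFieldBar M) ↥(modularFunctionFieldBar (M * q)) :=
    fd_alpha
  haveI : Algebra.IsSeparable ↥(modularFunctionFieldBar M) ↥(modularFunctionFieldBar (M * q)) :=
    sep_alpha
  haveI : Infinite ↥(modularFunctionFieldBar M) :=
    Infinite.of_injective _ (algebraMap Qb ↥(modularFunctionFieldBar M)).injective
  exact PrimNorm.norm_eq_of_rel (K := ↥(modularFunctionFieldBar M))
    (L := ↥(modularFunctionFieldBar (M * q))) (j0 M) (IndepLD.jBar M q) (IndepLD.eAlpha M)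
    hj_alpha hind_alpha (Rel M q) (fun f _ => rel_exists hqM f)
    (fun f f' c c' h h' => rel_mul hqM h h') (hpoly_alpha hqM) hf h

/-- `PushPic.alphaNorm` is the norm for `algebraAlong α`. -/
theorem alphaNorm_eq (f : ↥(modularFunctionFieldBar (M * q))) :
    PushPic.alphaNorm M q f =
      (letI : Algebra ↥(modularFunctionFieldBar M) ↥(modularFunctionFieldBar (M * q)) :=
        algebraAlong (heckeAlphaBar Qb M q)
       Algebra.norm ↥(modularFunctionFieldBar M) f) := rfl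

/-- **The norm of a represented element** is the quotient of the coset products. -/
theorem rel_norm (hqM : ¬ q ∣ M) {f : ↥(modularFunctionFieldBar (M * q))} (hf : f ≠ 0)
    {c : ↥(K.FC M)} (h : Rel M q f c) :
    (c : LaurentSeries ℂ) =
      coeffMap embC ((PushPic.alphaNorm M q f : ↥(modularFunctionFieldBar M)) : LaurentSeries Qb) := by
  rw [alphaNorm_eq, ← coe_j0]
  exact congrArg Subtype.val (rel_norm_aux hqM hf h)

/-- **[K-tr], `α`-half.**  For a witness `y` of `u ∈ Lpar (M q)` with `tr₁ u = 0` and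
`f = y ^ m ∈ F̄_{M q}`: `Nm_α f = c · h ^ m` with `h ∈ F̄_M`. -/
theorem kTrAlpha (hqM : ¬ q ∣ M) {m : ℕ} (hm : m ≠ 0) : KTrPlan.KTrAlphaStatement M q m := by
  have : NeZero (M * q) := ⟨Nat.mul_ne_zero (NeZero.ne M) (NeZero.ne q)⟩
  intro u y hy f hf htr
  obtain ⟨hy0, w, A, B, hA, hB, hB0, hx⟩ := hy
  -- `f ≠ 0`
  have hf0 : f ≠ 0 := by
    intro h0
    have h1 : (f : LaurentSeries Qb) = 0 := by rw [h0]; rfl
    rw [hf] at h1
    exact hy0 (pow_eq_zero_iff hm |>.mp h1)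
  have hBd : MDiff B := K.mdiff_of_mem_MFchi (K.mem_MFchi_one_iff.mpr hB)
  have hAn : A ∈ S23.niceSub := K.mem_niceSub_of_mem_MFchi (KPlan.chiU_TG m u) hA
  have hBn : B ∈ S23.niceSub := K.mem_niceSub_of_mem_MF hB
  -- the coset products of the witness pair
  set PA : ℍ → ℂ := ∏ x : OnePoint (ZMod q), A ∣[w] ((rep₁ M q x : Gamma0 M) : SL(2, ℤ)) with hPA
  set PB : ℍ → ℂ := ∏ x : OnePoint (ZMod q), B ∣[w] ((rep₁ M q x : Gamma0 M) : SL(2, ℤ)) with hPB
  have hPAmem : PA ∈ S20.MF M (w * (Fintype.card (OnePoint (ZMod q)) : ℤ)) :=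
    TrProdMem.prod_slash_reps_mem_MF_of_tr₁_eq_zero (rep₁ M q) (rep₁_cov hqM) (rep₁_dis hqM) m
      (u : Additive (Gamma0 (M * q)) →+ ℤ) htr hA
  have hPBmem : PB ∈ S20.MF M (w * (Fintype.card (OnePoint (ZMod q)) : ℤ)) := prod_mem hqM hB
  have hPB0 : PB ≠ 0 := prod_ne_zero hB hB0
  have hPAn : PA ∈ S23.niceSub := K.mem_niceSub_of_mem_MF hPAmem
  have hPBn : PB ∈ S23.niceSub := K.mem_niceSub_of_mem_MF hPBmem
  have hqPB : K.qx PB ≠ 0 := K.qx_ne_zero hPBn hPB0
  set hC : LaurentSeries ℂ := K.qx PA / K.qx PB with hhC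
  have hCmem : hC ∈ K.FC M :=
    TrDesc.mem_FC_of_forms (K.mem_MFchi_one_iff.mpr hPAmem) hPBmem hPB0 (div_mul_cancel₀ _ hqPB)
  -- the pair `(A ^ m, B ^ m)` represents `f`
  have hAm : A ^ m ∈ S20.MF (M * q) ((m : ℤ) * w) := by
    have h1 := K.pow_mem_MFchi hA m
    rw [KPlan.chiU_pow m hm] at h1
    exact K.mem_MFchi_one_iff.mp h1
  have hBm : B ^ m ∈ S20.MF (M * q) ((m : ℤ) * w) := by
    have h1 := K.pow_mem_MFchi (K.mem_MFchi_one_iff.mpr hB) m
    exact K.mem_MFchi_one_iff.mp (K.MFchi_congr_char (one_pow m) h1)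
  have hBm0 : B ^ m ≠ 0 := K.pow_ne_zero_of_mdiff hBd hB0 m
  have hprodpow : ∀ X : ℍ → ℂ,
      (∏ x : OnePoint (ZMod q), (X ^ m) ∣[(m : ℤ) * w] ((rep₁ M q x : Gamma0 M) : SL(2, ℤ))) =
      (∏ x : OnePoint (ZMod q), X ∣[w] ((rep₁ M q x : Gamma0 M) : SL(2, ℤ))) ^ m := by
    intro X
    rw [← Finset.prod_pow]
    refine Finset.prod_congr rfl fun x _ => ?_
    exact pow_slash w X _ m
  have hrel : Rel M q f ⟨hC ^ m, pow_mem hCmem m⟩ := by
    refine ⟨(m : ℤ) * w, A ^ m, B ^ m, hAm, hBm, hBm0, ?_, ?_⟩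
    · rw [IndepLD.jBar_apply, hf, map_pow, K.qx_pow hBn, K.qx_pow hAn, ← mul_pow, hx]
    · show hC ^ m * _ = _
      rw [hprodpow, hprodpow, K.qx_pow hPBn, K.qx_pow hPAn, ← mul_pow, hhC,
        div_mul_cancel₀ _ hqPB]
  have hnorm := rel_norm hqM hf0 hrel
  have hpow : hC ^ m = coeffMap embC
      ((PushPic.alphaNorm M q f : ↥(modularFunctionFieldBar M)) : LaurentSeries Qb) := hnorm
  exact TrDesc.exists_root_of_pow_eq hm (PushPic.alphaNorm M q f)
    (PushPic.normAlong_ne_zero _ (PushPic.alpha_finiteAlong M q) hf0) hC hCmem hpow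

end Top

/-- **[K-tr], `α`-half** with explicit hypotheses (`q` prime, `q ∤ M`, `m ≠ 0`). -/
theorem kTrAlphaStatement (M q m : ℕ) [NeZero M] [NeZero q] (hq : q.Prime) (hqM : ¬ q ∣ M)
    (hm : m ≠ 0) : KTrPlan.KTrAlphaStatement M q m :=
  haveI : Fact q.Prime := ⟨hq⟩
  kTrAlpha hqM hm

end Fermat.Agent.S35.NormRelA
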