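/-
S35 block [D] (bridge), route R1 (characteristic polynomial), leaf [RepPair] — RepPair.lean
(helper51; dealt by helper37).

Generic vocabulary of the route: a finite family `ρ : ι → GL (Fin 2) ℝ` of coset representatives,
an upper level `Nup` and a lower level `Nlow`, such that the coset product `∏ x, A ∣[w] ρ x` of a
form of level `Nup` is a form of level `Nlow` (`hmem`), nonzero if `A ≠ 0` (`hne`).

* `Rel Nup ρ f c` : the series `f` is the `q`-expansion of a quotient `A / B` of two forms of level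
  `Nup` (same weight, trivial multiplier) and `c` is the `q`-expansion of the quotient of the two
  coset products, `(∏ x, A ∣ ρ x) / (∏ x, B ∣ ρ x)` ("`c` is an analytic norm of `f`").
* `rel_mem_FC`      : then `c ∈ F_ℂ(Nlow)`                                   (K1 at level `Nlow`);
* `rel_mul`         : `Rel` is multiplicative;
* `rel_exists`      : every `f ∈ F̄_{Nup}` has an analytic norm            (K1 at level `Nup`);
* `rel_pow_of_char` : for a quotient `y = A / B` with `A` of multiplier `χ`, `χ ^ m = 1`, the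
  `m`-th powers satisfy `Rel (y ^ m) (c₀ ^ m)`, `c₀` the quotient of the coset products.
-/
import Mathlib
import Fermat.Agent.S29.KDefs
import Fermat.Agent.S29.KBasic
import Fermat.Agent.S29.K1
import Fermat.Agent.S29.RatDescent
import Fermat.Agent.S24.AnBridge
import Fermat.Agent.S35.TrDesc

set_option autoImplicit false

namespace Fermat.Agent.S35.RepPair

open UpperHalfPlane ModularForm CongruenceSubgroup ModularCurve
open scoped MatrixGroups ModularForm Manifold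
open Fermat.Agent.S29
open Fermat.Agent.S24 (embC)

local notation "Qb" => AlgebraicClosure ℚ

variable {ι : Type} [Fintype ι]

/-- `c` is an analytic norm of `f` along the coset family `ρ`: `f = qx A / qx B` for two forms
`A`, `B ≠ 0` of level `Nup` and the same weight `w`, and
`c = qx (∏ x, A ∣[w] ρ x) / qx (∏ x, B ∣[w] ρ x)`. -/
def Rel (Nup : ℕ) (ρ : ι → GL (Fin 2) ℝ) (f c : LaurentSeries ℂ) : Prop :=
  ∃ (w : ℤ) (A B : ℍ → ℂ), A ∈ S20.MF Nup w ∧ B ∈ S20.MF Nup w ∧ B ≠ 0 ∧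
    f * K.qx B = K.qx A ∧ c * K.qx (∏ x, B ∣[w] ρ x) = K.qx (∏ x, A ∣[w] ρ x)

variable {Nup Nlow : ℕ} [NeZero Nup] [NeZero Nlow] {ρ : ι → GL (Fin 2) ℝ}

/-! ### Auxiliary slash computations -/

/-- A real scalar on functions `ℍ → ℂ` is the complex scalar. -/
theorem real_smul_eq (r : ℝ) (F : ℍ → ℂ) : r • F = ((r : ℂ)) • F := by
  ext z
  simp [Complex.real_smul]

/-- The slash of a product of two functions, with the determinant factor as a complex scalar. -/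
theorem mul_slash_eq (w w' : ℤ) (g : GL (Fin 2) ℝ) (A A' : ℍ → ℂ) :
    (A * A') ∣[w + w'] g = ((|(g.det : ℝ)| : ℝ) : ℂ) • (A ∣[w] g * A' ∣[w'] g) := by
  rw [ModularForm.mul_slash, real_smul_eq]

/-- The coset product of a product of two functions. -/
theorem prod_mul_slash (ρ : ι → GL (Fin 2) ℝ) (w w' : ℤ) (A A' : ℍ → ℂ) :
    (∏ x, (A * A') ∣[w + w'] ρ x) =
      (∏ x, ((|((ρ x).det : ℝ)| : ℝ) : ℂ)) • ((∏ x, A ∣[w] ρ x) * ∏ x, A' ∣[w'] ρ x) := by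
  simp only [mul_slash_eq]
  rw [Finset.prod_smul, Finset.prod_mul_distrib]

/-- The slash of a power. -/
theorem pow_slash_eq (w : ℤ) (g : GL (Fin 2) ℝ) (A : ℍ → ℂ) (m : ℕ) :
    (A ^ m) ∣[(m : ℤ) * w] g = ((|(g.det : ℝ)| ^ ((m : ℤ) - 1) : ℝ) : ℂ) • (A ∣[w] g) ^ m := by
  have h := ModularForm.prod_slash (k := w) (g := g) (f := fun _ : ℕ => A) (s := Finset.range m)
  rw [Finset.prod_const, Finset.prod_const, Finset.card_range] at h
  rw [mul_comm, h, real_smul_eq]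

/-- The coset product of a power. -/
theorem prod_pow_slash (ρ : ι → GL (Fin 2) ℝ) (w : ℤ) (A : ℍ → ℂ) (m : ℕ) :
    (∏ x, (A ^ m) ∣[(m : ℤ) * w] ρ x) =
      (∏ x, ((|((ρ x).det : ℝ)| ^ ((m : ℤ) - 1) : ℝ) : ℂ)) • (∏ x, A ∣[w] ρ x) ^ m := by
  simp only [pow_slash_eq]
  rw [Finset.prod_smul, Finset.prod_pow]

theorem mdiff_of_mem_MF {w : ℤ} {A : ℍ → ℂ} (hA : A ∈ S20.MF Nup w) : MDiff A :=
  (S20.mem_MF_iff'.mp hA).1

/-! ### The relation -/

omit [NeZero Nup] in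
/-- An analytic norm lies in the function field of the lower level. -/
theorem rel_mem_FC
    (hmem : ∀ (w : ℤ) (A : ℍ → ℂ), A ∈ S20.MF Nup w →
      (∏ x, A ∣[w] ρ x) ∈ S20.MF Nlow (w * (Fintype.card ι : ℤ)))
    (hne : ∀ (w : ℤ) (B : ℍ → ℂ), B ∈ S20.MF Nup w → B ≠ 0 → (∏ x, B ∣[w] ρ x) ≠ 0)
    {f c : LaurentSeries ℂ} (h : Rel Nup ρ f c) : c ∈ K.FC Nlow := by
  obtain ⟨w, A, B, hA, hB, hB0, -, hc⟩ := h
  exact TrDesc.mem_FC_of_forms (K.mem_MFchi_one_iff.mpr (hmem w A hA)) (hmem w B hB)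
    (hne w B hB hB0) hc

/-- Analytic norms are multiplicative. -/
theorem rel_mul (_hdet : ∀ x, 0 < (ρ x).det.val)
    (hmem : ∀ (w : ℤ) (A : ℍ → ℂ), A ∈ S20.MF Nup w →
      (∏ x, A ∣[w] ρ x) ∈ S20.MF Nlow (w * (Fintype.card ι : ℤ)))
    (_hne : ∀ (w : ℤ) (B : ℍ → ℂ), B ∈ S20.MF Nup w → B ≠ 0 → (∏ x, B ∣[w] ρ x) ≠ 0)
    {f c f' c' : LaurentSeries ℂ} (h : Rel Nup ρ f c) (h' : Rel Nup ρ f' c') :
    Rel Nup ρ (f * f') (c * c') := by
  obtain ⟨w, A, B, hA, hB, hB0, hf, hc⟩ := h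
  obtain ⟨w', A', B', hA', hB', hB0', hf', hc'⟩ := h'
  have nA := K.mem_niceSub_of_mem_MF hA
  have nB := K.mem_niceSub_of_mem_MF hB
  have nA' := K.mem_niceSub_of_mem_MF hA'
  have nB' := K.mem_niceSub_of_mem_MF hB'
  have nPA := K.mem_niceSub_of_mem_MF (hmem w A hA)
  have nPB := K.mem_niceSub_of_mem_MF (hmem w B hB)
  have nPA' := K.mem_niceSub_of_mem_MF (hmem w' A' hA')
  have nPB' := K.mem_niceSub_of_mem_MF (hmem w' B' hB')
  refine ⟨w + w', A * A', B * B', S20.mul_mem_MF hA hA', S20.mul_mem_MF hB hB',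
    K.mul_ne_zero_of_mdiff (mdiff_of_mem_MF hB) (mdiff_of_mem_MF hB') hB0 hB0', ?_, ?_⟩
  · rw [K.qx_mul nB nB', K.qx_mul nA nA', ← hf, ← hf']
    ring
  · rw [prod_mul_slash, prod_mul_slash, K.qx_smul _ (S23.niceSub.mul_mem nPB nPB'),
      K.qx_smul _ (S23.niceSub.mul_mem nPA nPA'), K.qx_mul nPB nPB', K.qx_mul nPA nPA', ← hc,
      ← hc', ← HahnSeries.C_mul_eq_smul, ← HahnSeries.C_mul_eq_smul]
    ring

/-- Every element of `F̄_{Nup}` has an analytic norm. -/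
theorem rel_exists
    (hmem : ∀ (w : ℤ) (A : ℍ → ℂ), A ∈ S20.MF Nup w →
      (∏ x, A ∣[w] ρ x) ∈ S20.MF Nlow (w * (Fintype.card ι : ℤ)))
    (hne : ∀ (w : ℤ) (B : ℍ → ℂ), B ∈ S20.MF Nup w → B ≠ 0 → (∏ x, B ∣[w] ρ x) ≠ 0)
    (f : ↥(modularFunctionFieldBar Nup)) :
    ∃ c, Rel Nup ρ (coeffMap embC (f : LaurentSeries Qb)) c := by
  have h1 : coeffMap embC (f : LaurentSeries Qb) ∈ K.FC Nup :=
    (RatDescent.coeffMap_mem_iff_mem_modularFunctionFieldBar embC Nup _).mpr f.2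
  obtain ⟨w, A, B, hA, hB, hB0, hx⟩ := K.mem_Mchi_one_iff.mpr h1
  have hA' : A ∈ S20.MF Nup w := K.mem_MFchi_one_iff.mp hA
  have nPB := K.mem_niceSub_of_mem_MF (hmem w B hB)
  have hq : K.qx (∏ x, B ∣[w] ρ x) ≠ 0 := K.qx_ne_zero nPB (hne w B hB hB0)
  exact ⟨K.qx (∏ x, A ∣[w] ρ x) / K.qx (∏ x, B ∣[w] ρ x), w, A, B, hA', hB, hB0, hx,
    div_mul_cancel₀ _ hq⟩

/-- Powers of a quotient with a multiplier of exponent `m`: if `y = qx A / qx B` with `A` of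
multiplier `χ`, `χ ^ m = 1`, and `c₀` is the quotient of the two coset products, then `c₀ ^ m` is
an analytic norm of `y ^ m`. -/
theorem rel_pow_of_char (_hdet : ∀ x, 0 < (ρ x).det.val)
    (hmem : ∀ (w : ℤ) (A : ℍ → ℂ), A ∈ S20.MF Nup w →
      (∏ x, A ∣[w] ρ x) ∈ S20.MF Nlow (w * (Fintype.card ι : ℤ)))
    (_hne : ∀ (w : ℤ) (B : ℍ → ℂ), B ∈ S20.MF Nup w → B ≠ 0 → (∏ x, B ∣[w] ρ x) ≠ 0)
    {m : ℕ} {w : ℤ} {χ : ↥(Gamma0 Nup) →* ℂˣ} (hχm : χ ^ m = 1) (hT : χ (K.TG Nup) = 1)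
    {A B : ℍ → ℂ} (hA : A ∈ K.MFchi Nup w χ) (hB : B ∈ S20.MF Nup w) (hB0 : B ≠ 0)
    {y c₀ : LaurentSeries ℂ} (hy : y * K.qx B = K.qx A)
    (hc₀ : c₀ * K.qx (∏ x, B ∣[w] ρ x) = K.qx (∏ x, A ∣[w] ρ x))
    (hnice : (∏ x, A ∣[w] ρ x) ∈ S23.niceSub) :
    Rel Nup ρ (y ^ m) (c₀ ^ m) := by
  have nA := K.mem_niceSub_of_mem_MFchi hT hA
  have nB := K.mem_niceSub_of_mem_MF hB
  have nPB := K.mem_niceSub_of_mem_MF (hmem w B hB)
  have hAm : A ^ m ∈ S20.MF Nup ((m : ℤ) * w) := by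
    have h := K.pow_mem_MFchi hA m
    rw [hχm] at h
    exact K.mem_MFchi_one_iff.mp h
  refine ⟨(m : ℤ) * w, A ^ m, B ^ m, hAm, S20.pow_mem_MF hB m,
    K.pow_ne_zero_of_mdiff (mdiff_of_mem_MF hB) hB0 m, ?_, ?_⟩
  · rw [K.qx_pow nB, K.qx_pow nA, ← mul_pow, hy]
  · rw [prod_pow_slash, prod_pow_slash, K.qx_smul _ (S23.niceSub.pow_mem nPB m),
      K.qx_smul _ (S23.niceSub.pow_mem hnice m), K.qx_pow nPB, K.qx_pow hnice, ← hc₀,
      ← HahnSeries.C_mul_eq_smul, ← HahnSeries.C_mul_eq_smul]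
    ring

end Fermat.Agent.S35.RepPair
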