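/-
S35 — ResPtB.lean (helper48).  Row [Res] of helper5's deal #2702 in its EXACT deal shape
(`BaseFacts` form): a three-line wrapper of `S35/ResPt.lean`.

  `res_chart_base` : for a base `K` with `BaseFacts ℓ A K`, every closed point of the special
  fibre of `chart N A K t` (any level `N`, any coordinate `t`) is `O`-rational — the field `res`
  of `ModelFPlan.ChartModelF`.
-/
import Mathlib
import Fermat.Agent.S35.ResPt
import Fermat.Agent.S18.ResOK

set_option autoImplicit false

namespace Fermat.Agent.S35.ResPtB

open Fermat.Agent.S18.Arith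

/-- **[Res]** (deal shape): closed points of the special fibre of a chart are `O`-rational. -/
theorem res_chart_base (N ℓ : ℕ) [Fact ℓ.Prime] {A : ValuationSubring Qb}
    {K : IntermediateField ℚ Qb} (hB : BaseFacts ℓ A K) (t : FK N K)
    (π : OK A K) (hπ : Irreducible π) :
    ∀ n : Ideal (chart N A K t), n.IsMaximal → algebraMap (OK A K) (chart N A K t) π ∈ n →
      ∀ r : chart N A K t, ∃ c : OK A K, r - algebraMap (OK A K) (chart N A K t) c ∈ n := by
  have := hB.dvr
  have := Fermat.Agent.S18.ResOK.isAlgClosed_residueField_OK ℓ A K hB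
  exact fun n hn hπn r => Fermat.Agent.S35.ResPt.res_chart N A K t π hπ n hn hπn r

end Fermat.Agent.S35.ResPtB
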