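import Mathlib

/-!
# S35, abstract block: the `root` field of `LocFPlan.LocFHyp` from a primitive root of unity

If the base ring `O` (a domain) contains a primitive `m`-th root of unity `ζ`, then in every
`O`-algebra `R` and for every prime ideal `n` of `R`: `x ^ m - 1 ∈ n` implies `x - c ∈ n` for a
constant `c ∈ O` (a power of `ζ`).  (`X ^ m - 1 = ∏ (X - ζ')` over the `m`-th roots of unity.)
-/

set_option autoImplicit false

namespace Fermat.Agent.S35.RootConst

open Polynomial

theorem exists_const_of_pow_sub_one_mem {O : Type*} [CommRing O] [IsDomain O]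
    {R : Type*} [CommRing R] [Algebra O R] {ζ : O} {m : ℕ} (hm : 0 < m)
    (hζ : IsPrimitiveRoot ζ m) (n : Ideal R) (hn : n.IsPrime) (x : R) (hx : x ^ m - 1 ∈ n) :
    ∃ c : O, c ^ m = 1 ∧ x - algebraMap O R c ∈ n := by
  classical
  have h1 : (X ^ m - 1 : O[X]) = ∏ z ∈ nthRootsFinset m (1 : O), (X - C z) :=
    X_pow_sub_one_eq_prod hm hζ
  have h2 : x ^ m - 1 = ∏ z ∈ nthRootsFinset m (1 : O), (x - algebraMap O R z) := by
    have h3 := congrArg (fun p : O[X] => aeval x p) h1
    simp only [map_sub, map_pow, aeval_X, map_one, map_prod, aeval_C] at h3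
    exact h3
  rw [h2] at hx
  obtain ⟨z, hz, hzn⟩ := (hn.prod_mem_iff).1 hx
  refine ⟨z, ?_, hzn⟩
  exact (mem_nthRootsFinset hm (1 : O)).1 hz

end Fermat.Agent.S35.RootConst
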