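/-
S35 — SymForms.lean (helper1).  [D] bridge, route R1 (characteristic polynomial), leaf [SymForms]
(dealt by helper37).

For coset representatives `ρ x : GL (Fin 2) ℝ` (positive determinant) such that the product
`∏ x, A ∣[w] ρ x` of a form of the upper level is a form of the lower level (`hmem`, `hne`), and
a distinguished index `x₀` with `(A ∣[w] ρ x₀)(d z) = κ · A z`:  for a quotient of forms
`g = qx A / qx B` of the upper level there is a MONIC polynomial `P` of degree `card ι` over the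
function field `F_ℂ(Nlow)` with `P^ε(g) = 0` (`ε = qExpand d`) and constant term
`(-1)^n qx(∏ A∣ρ) / qx(∏ B∣ρ)`.

Proof: the coefficient functions `N_k` of the pointwise polynomial `∏_x (a_x - b_x X)`
(`a_x = A∣ρ_x`, `b_x = B∣ρ_x`; `S35/SymPoly.lean`, helper98) are forms of the lower level
(Lagrange interpolation in `c` of `∏_x (A - c B)∣ρ_x`), `∑_k N_k(d z) A(z)^k B(z)^(n-k) = 0`,
and `P = ∑_k (qx N_k / qx N_n) X^k`.
-/
import Mathlib
import Fermat.Agent.S29.KDefs
import Fermat.Agent.S29.KBasic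
import Fermat.Agent.S24.AnBridge
import Fermat.Agent.S35.TrDesc
import Fermat.Agent.S35.SymPoly

set_option autoImplicit false

open UpperHalfPlane ModularForm ModularCurve Polynomial
open scoped MatrixGroups ModularForm Manifold

namespace Fermat.Agent.S35.SymForms

open Fermat.Agent Fermat.Agent.S29

noncomputable section

variable {ι : Type} [Fintype ι] (ρ : ι → GL (Fin 2) ℝ)

omit [Fintype ι] in
/-- Scalars pass through the slash by a matrix of positive determinant. -/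
theorem smul_slash_of_pos (hdet : ∀ x, 0 < (ρ x).det.val) (w : ℤ) (c : ℂ) (A : ℍ → ℂ) (x : ι) :
    (c • A) ∣[w] ρ x = c • (A ∣[w] ρ x) := by
  rw [ModularForm.smul_slash]
  have hd : 0 < ((ρ x : GL (Fin 2) ℝ) : Matrix (Fin 2) (Fin 2) ℝ).det := by
    simpa using hdet x
  have h : σ (ρ x) c = c := by
    simp [σ, hd]
  rw [h]

omit [Fintype ι] in
theorem sub_smul_slash (hdet : ∀ x, 0 < (ρ x).det.val) (w : ℤ) (c : ℂ) (A B : ℍ → ℂ) (x : ι) :
    (A - c • B) ∣[w] ρ x = A ∣[w] ρ x - c • (B ∣[w] ρ x) := by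
  rw [sub_eq_add_neg, SlashAction.add_slash, SlashAction.neg_slash, smul_slash_of_pos ρ hdet,
    ← sub_eq_add_neg]

variable {Nup Nlow : ℕ} [NeZero Nup] [NeZero Nlow]

/-- `qx` of the scaled function `z ↦ F (d z)`. -/
theorem qx_scale (d : ℕ) [NeZero d] {F : ℍ → ℂ} (hF : F ∈ S23.niceSub) :
    K.qx (fun z => F (S23.mulN d z)) = qExpand ℂ d (K.qx F) :=
  S24.AnBridge.ofPowerSeries_qExpansion_scale d hF

/-- **[SymForms]**: the monic polynomial of degree `card ι` over `F_ℂ(Nlow)` killing (through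
`qExpand d`) a quotient of forms of the upper level, with its constant term. -/
theorem exists_poly
    (hdet : ∀ x, 0 < (ρ x).det.val)
    (hmem : ∀ (w : ℤ) (A : ℍ → ℂ), A ∈ S20.MF Nup w →
      (∏ x, A ∣[w] ρ x) ∈ S20.MF Nlow (w * (Fintype.card ι : ℤ)))
    (hne : ∀ (w : ℤ) (B : ℍ → ℂ), B ∈ S20.MF Nup w → B ≠ 0 → (∏ x, B ∣[w] ρ x) ≠ 0)
    (x₀ : ι) (d : ℕ) [NeZero d] {w : ℤ} (κ : ℂ) (hκ : κ ≠ 0)
    (hx₀ : ∀ (A : ℍ → ℂ) (z : ℍ), (A ∣[w] ρ x₀) (S23.mulN d z) = κ * A z)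
    {A B : ℍ → ℂ} (hA : A ∈ S20.MF Nup w) (hB : B ∈ S20.MF Nup w) (hB0 : B ≠ 0)
    {g : LaurentSeries ℂ} (hg : g * K.qx B = K.qx A) :
    ∃ P : Polynomial ↥(K.FC Nlow), P.Monic ∧ P.natDegree = Fintype.card ι ∧
      P.eval₂ ((qExpand ℂ d).comp (algebraMap ↥(K.FC Nlow) (LaurentSeries ℂ))) g = 0 ∧
      ((P.coeff 0 : ↥(K.FC Nlow)) : LaurentSeries ℂ) * K.qx (∏ x, B ∣[w] ρ x) =
        (-1) ^ Fintype.card ι * K.qx (∏ x, A ∣[w] ρ x) := by
  classical
  set n := Fintype.card ι with hn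
  have hn0 : 0 < n := Fintype.card_pos_iff.mpr ⟨x₀⟩
  set a : ι → ℍ → ℂ := fun x => A ∣[w] ρ x with ha
  set b : ι → ℍ → ℂ := fun x => B ∣[w] ρ x with hb
  set V : Submodule ℂ (ℍ → ℂ) := S20.MF Nlow (w * (n : ℤ)) with hV
  -- Step 1: the products `∏_x (a_x - c b_x)` are forms of the lower level
  have h1 : ∀ c : ℂ, (fun τ => ∏ x, (a x τ - c * b x τ)) ∈ V := by
    intro c
    have hAc : A - c • B ∈ S20.MF Nup w := Submodule.sub_mem _ hA (Submodule.smul_mem _ c hB)
    have h := hmem w _ hAc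
    have e : (∏ x, (A - c • B) ∣[w] ρ x) = fun τ => ∏ x, (a x τ - c * b x τ) := by
      funext τ
      rw [Finset.prod_apply]
      refine Finset.prod_congr rfl fun x _ => ?_
      rw [sub_smul_slash ρ hdet]
      rfl
    rwa [e] at h
  -- Step 2: the coefficient functions are forms of the lower level
  have hN : ∀ k, SymPoly.coeffFn a b k ∈ V := SymPoly.coeffFn_mem a b V h1
  have hNn : ∀ k, SymPoly.coeffFn a b k ∈ S23.niceSub := fun k => K.mem_niceSub_of_mem_MF (hN k)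
  have hAn : A ∈ S23.niceSub := K.mem_niceSub_of_mem_MF hA
  have hBn : B ∈ S23.niceSub := K.mem_niceSub_of_mem_MF hB
  have hqB : K.qx B ≠ 0 := K.qx_ne_zero hBn hB0
  -- the two extreme coefficients
  have hN0 : SymPoly.coeffFn a b 0 = ∏ x, A ∣[w] ρ x := by
    rw [SymPoly.coeffFn_zero]
    funext τ
    rw [Finset.prod_apply]
  have hNtop : SymPoly.coeffFn a b n = ((-1 : ℂ) ^ n) • ∏ x, B ∣[w] ρ x := by
    rw [hn, SymPoly.coeffFn_card]
    funext τ
    rw [Pi.smul_apply, Finset.prod_apply, smul_eq_mul]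
  have hPB : (∏ x, B ∣[w] ρ x) ≠ 0 := hne w B hB hB0
  have hPBn : (∏ x, B ∣[w] ρ x) ∈ S23.niceSub := K.mem_niceSub_of_mem_MF (hmem w B hB)
  have hPAn : (∏ x, A ∣[w] ρ x) ∈ S23.niceSub := K.mem_niceSub_of_mem_MF (hmem w A hA)
  have hsgn : ((-1 : ℂ) ^ n) ≠ 0 := pow_ne_zero _ (by norm_num)
  have hNtop0 : SymPoly.coeffFn a b n ≠ 0 := by
    rw [hNtop]
    exact smul_ne_zero hsgn hPB
  have hqtop : K.qx (SymPoly.coeffFn a b n) ≠ 0 := K.qx_ne_zero (hNn n) hNtop0
  -- Step 3: the pointwise identity at `d z`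
  have hid : ∀ z : ℍ, ∑ k ∈ Finset.range (n + 1),
      SymPoly.coeffFn a b k (S23.mulN d z) * A z ^ k * B z ^ (n - k) = 0 := by
    intro z
    have h := SymPoly.sum_coeffFn_mul_pow a b x₀ (S23.mulN d z)
    have e1 : a x₀ (S23.mulN d z) = κ * A z := hx₀ A z
    have e2 : b x₀ (S23.mulN d z) = κ * B z := hx₀ B z
    rw [e1, e2] at h
    have h2 : κ ^ n * ∑ k ∈ Finset.range (n + 1),
        SymPoly.coeffFn a b k (S23.mulN d z) * A z ^ k * B z ^ (n - k) = 0 := by
      rw [← h, Finset.mul_sum]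
      refine Finset.sum_congr rfl fun k hk => ?_
      have hk' : k ≤ n := Nat.lt_succ_iff.mp (Finset.mem_range.mp hk)
      have e3 : κ ^ n = κ ^ k * κ ^ (n - k) := by
        rw [← pow_add, Nat.add_sub_cancel' hk']
      rw [e3, mul_pow, mul_pow]
      ring
    exact (mul_eq_zero.mp h2).resolve_left (pow_ne_zero n hκ)
  -- Step 4: the same identity for q-expansions
  have hsc : ∀ k, (fun z => SymPoly.coeffFn a b k (S23.mulN d z)) ∈ S23.niceSub := fun k =>
    S24.AnBridge.scale_mem_niceSub d (hNn k)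
  have hq1 : ∑ k ∈ Finset.range (n + 1),
      qExpand ℂ d (K.qx (SymPoly.coeffFn a b k)) * K.qx A ^ k * K.qx B ^ (n - k) = 0 := by
    have hsum : (∑ k ∈ Finset.range (n + 1),
        (⟨fun z => SymPoly.coeffFn a b k (S23.mulN d z), hsc k⟩ : S23.niceSub) *
          (⟨A, hAn⟩ : S23.niceSub) ^ k * (⟨B, hBn⟩ : S23.niceSub) ^ (n - k)) = 0 := by
      apply Subtype.ext
      rw [AddSubmonoidClass.coe_finsetSum]
      funext z
      rw [Finset.sum_apply]
      exact hid z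
    have h := congrArg S24.AnBridge.Phi hsum
    rw [map_sum, map_zero] at h
    rw [← h]
    refine Finset.sum_congr rfl fun k _ => ?_
    rw [map_mul, map_mul, map_pow, map_pow, ← K.qx_eq_Phi, ← K.qx_eq_Phi, ← K.qx_eq_Phi,
      qx_scale d (hNn k)]
  have hq2 : ∑ k ∈ Finset.range (n + 1),
      qExpand ℂ d (K.qx (SymPoly.coeffFn a b k)) * g ^ k = 0 := by
    have h3 : K.qx B ^ n * ∑ k ∈ Finset.range (n + 1),
        qExpand ℂ d (K.qx (SymPoly.coeffFn a b k)) * g ^ k = 0 := by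
      rw [← hq1, Finset.mul_sum]
      refine Finset.sum_congr rfl fun k hk => ?_
      have hk' : k ≤ n := Nat.lt_succ_iff.mp (Finset.mem_range.mp hk)
      have e3 : K.qx B ^ n = K.qx B ^ k * K.qx B ^ (n - k) := by
        rw [← pow_add, Nat.add_sub_cancel' hk']
      rw [e3, ← hg, mul_pow]
      ring
    exact (mul_eq_zero.mp h3).resolve_left (pow_ne_zero n hqB)
  -- Step 5: the coefficients of the polynomial
  set e : ℕ → LaurentSeries ℂ := fun k =>
    K.qx (SymPoly.coeffFn a b k) / K.qx (SymPoly.coeffFn a b n) with he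
  have hemem : ∀ k, e k ∈ K.FC Nlow := fun k =>
    TrDesc.mem_FC_of_forms (K.mem_MFchi_one_iff.mpr (hN k)) (hN n) hNtop0
      (div_mul_cancel₀ _ hqtop)
  have hen : e n = 1 := div_self hqtop
  have hqEtop : qExpand ℂ d (K.qx (SymPoly.coeffFn a b n)) ≠ 0 :=
    (map_ne_zero (qExpand ℂ d)).mpr hqtop
  have hq3 : ∑ k ∈ Finset.range (n + 1), qExpand ℂ d (e k) * g ^ k = 0 := by
    have h4 : qExpand ℂ d (K.qx (SymPoly.coeffFn a b n)) *
        ∑ k ∈ Finset.range (n + 1), qExpand ℂ d (e k) * g ^ k = 0 := by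
      rw [← hq2, Finset.mul_sum]
      refine Finset.sum_congr rfl fun k _ => ?_
      rw [he, ← mul_assoc, ← map_mul, mul_div_cancel₀ _ hqtop]
    exact (mul_eq_zero.mp h4).resolve_left hqEtop
  set low : Polynomial ↥(K.FC Nlow) :=
    ∑ k ∈ Finset.range n, C (⟨e k, hemem k⟩ : ↥(K.FC Nlow)) * X ^ k with hlow
  have hlowcoeff : ∀ m, low.coeff m = if m < n then (⟨e m, hemem m⟩ : ↥(K.FC Nlow)) else 0 := by
    intro m
    rw [hlow, finsetSum_coeff]
    simp only [coeff_C_mul_X_pow]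
    split_ifs with hm
    · rw [Finset.sum_eq_single m]
      · rw [if_pos rfl]
      · intro k _ hkm
        rw [if_neg (Ne.symm hkm)]
      · intro hm'
        exact absurd (Finset.mem_range.mpr hm) hm'
    · refine Finset.sum_eq_zero fun k hk => ?_
      rw [if_neg]
      rintro rfl
      exact hm (Finset.mem_range.mp hk)
  have hlowdeg : low.degree < (n : WithBot ℕ) := by
    rw [degree_lt_iff_coeff_zero]
    intro m hm
    rw [hlowcoeff, if_neg (not_lt.mpr hm)]
  refine ⟨X ^ n + low, monic_X_pow_add hlowdeg,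
    by rw [natDegree_add_eq_left_of_degree_lt (by rw [degree_X_pow]; exact hlowdeg),
      natDegree_X_pow], ?_, ?_⟩
  · -- the root
    rw [eval₂_add, eval₂_pow, eval₂_X, hlow, eval₂_finsetSum]
    rw [Finset.sum_range_succ, hen, map_one, one_mul] at hq3
    rw [← hq3, add_comm]
    congr 1
    refine Finset.sum_congr rfl fun k _ => ?_
    rw [eval₂_mul, eval₂_C, eval₂_pow, eval₂_X]
    rfl
  · -- the constant term
    rw [coeff_add, coeff_X_pow, if_neg (Nat.ne_of_lt hn0), zero_add, hlowcoeff, if_pos hn0]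
    show e 0 * K.qx (∏ x, B ∣[w] ρ x) = (-1) ^ n * K.qx (∏ x, A ∣[w] ρ x)
    rw [he]
    simp only
    rw [hN0, hNtop, K.qx_smul _ hPBn]
    have hqPB : K.qx (∏ x, B ∣[w] ρ x) ≠ 0 := K.qx_ne_zero hPBn hPB
    have hC : ((-1 : ℂ) ^ n) • K.qx (∏ x, B ∣[w] ρ x) =
        (-1 : LaurentSeries ℂ) ^ n * K.qx (∏ x, B ∣[w] ρ x) := by
      rw [← HahnSeries.C_mul_eq_smul, map_pow, map_neg, map_one]
    have hS : ((-1 : LaurentSeries ℂ) ^ n) ≠ 0 := pow_ne_zero _ (by norm_num)
    have hS2 : ((-1 : LaurentSeries ℂ) ^ n) * (-1) ^ n = 1 := by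
      rw [← mul_pow]
      norm_num
    rw [hC, div_mul_eq_mul_div, div_eq_iff (mul_ne_zero hS hqPB)]
    linear_combination (-(K.qx (∏ x, A ∣[w] ρ x) * K.qx (∏ x, B ∣[w] ρ x))) * hS2

end

end Fermat.Agent.S35.SymForms
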