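/-
S35 block [D] (bridge `J ↔ Lpar`), leaf [TrProdMem₂] — TrProdMem2.lean (helper26; dealt by the
row captain helper88, board #2717): the `tr₂` TWIN of `S35/TrProdMem.lean`.

With `α₀ = ModularForm.heckeMatrix q 0 = diag(1, q)` (`α₀ · ι₂(P) = P · α₀`, `S41/IwahoriU`) and
ANY system of representatives `r : ι → Γ₀(M)` of `ι₂(Γ₀(Mq)) \ Γ₀(M)` (hypotheses of
`S41.tr₂_apply_of_reps`):

* `prod_slash_reps₂_mem` : `A ∈ MFchi (Mq) w χ_u ⇒
      ∏ i, (A ∣[w] α₀) ∣[w] r i ∈ MFchi M (w · card ι) χ_{tr₂ u}`;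
* `prod_slash_reps₂_mem_MF_of_tr₂_eq_zero`, `prod_slash_reps₂_mem_MF` (trivial multiplier);
* `prod_slash_reps₂_ne_zero`;
* `prod_slash_r₂_mem`, `prod_slash_r₂_mem_MF`, … : the instance `r = S41.IwahoriU.r₂ w`
  (`r none = h_w`, `r (some x) = [[1, x],[0, 1]]`), weight `w (q + 1)`.
-/
import Mathlib
import Fermat.Agent.S29.KDefs
import Fermat.Agent.S29.KPlanDefs
import Fermat.Agent.S29.HeckeProd
import Fermat.Agent.S29.HeckeProdMem
import Fermat.Agent.S41.Defs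
import Fermat.Agent.S41.ALConj
import Fermat.Agent.S41.IwahoriU
import Fermat.Agent.S35.TrProdMem

set_option autoImplicit false

noncomputable section

namespace Fermat.Agent.S35.TrProdMem2

open CongruenceSubgroup UpperHalfPlane Matrix.SpecialLinearGroup Filter
open scoped MatrixGroups Manifold ModularForm
open ModularForm
open P2MW.S_ModularForm_heckeT_slash_eq_self_of_mem_Gamma0.ModularForm.HeckeSlashInvariance
open Fermat.Agent.S16 Fermat.Agent.S29 Fermat.Agent.S41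

variable {M q : ℕ}

/-! ### Coset data chosen from a system of representatives of `ι₂(Γ₀(Mq)) \ Γ₀(M)` -/

section Reps

variable {ι : Type} [Fintype ι] (r : ι → Gamma0 M)

/-- the index of the coset of `r i * γ`. -/
def repIdx₂ (hcov : ∀ g : Gamma0 M, ∃ i, ∃ h : Gamma0 (M * q), g = incl₂ M q h * r i)
    (γ : Gamma0 M) (i : ι) : ι := (hcov (r i * γ)).choose

/-- the `Γ₀(Mq)`-part of `r i * γ`. -/
def repPart₂ (hcov : ∀ g : Gamma0 M, ∃ i, ∃ h : Gamma0 (M * q), g = incl₂ M q h * r i)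
    (γ : Gamma0 M) (i : ι) : Gamma0 (M * q) := (hcov (r i * γ)).choose_spec.choose

omit [Fintype ι] in
theorem rep_spec₂ (hcov : ∀ g : Gamma0 M, ∃ i, ∃ h : Gamma0 (M * q), g = incl₂ M q h * r i)
    (γ : Gamma0 M) (i : ι) :
    r i * γ = incl₂ M q (repPart₂ r hcov γ i) * r (repIdx₂ r hcov γ i) :=
  (hcov (r i * γ)).choose_spec.choose_spec

omit [Fintype ι] in
theorem repIdx₂_injective
    (hcov : ∀ g : Gamma0 M, ∃ i, ∃ h : Gamma0 (M * q), g = incl₂ M q h * r i)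
    (hinj : ∀ i j, (∃ h : Gamma0 (M * q), r i = incl₂ M q h * r j) → i = j)
    (γ : Gamma0 M) : Function.Injective (repIdx₂ r hcov γ) := by
  intro i j hij
  apply hinj
  have hi := rep_spec₂ r hcov γ i
  have hj := rep_spec₂ r hcov γ j
  rw [hij] at hi
  refine ⟨repPart₂ r hcov γ i * (repPart₂ r hcov γ j)⁻¹, ?_⟩
  have h1 : r i = incl₂ M q (repPart₂ r hcov γ i) * r (repIdx₂ r hcov γ j) * γ⁻¹ := by
    rw [← hi, mul_inv_cancel_right]
  have h2 : r (repIdx₂ r hcov γ j) * γ⁻¹ = (incl₂ M q (repPart₂ r hcov γ j))⁻¹ * r j := by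
    rw [eq_inv_mul_iff_mul_eq, ← mul_assoc, ← hj, mul_inv_cancel_right]
  rw [h1, mul_assoc, h2, map_mul, map_inv, mul_assoc]

/-- the permutation of the index set induced by right multiplication by `γ`. -/
def repPerm₂ (hcov : ∀ g : Gamma0 M, ∃ i, ∃ h : Gamma0 (M * q), g = incl₂ M q h * r i)
    (hinj : ∀ i j, (∃ h : Gamma0 (M * q), r i = incl₂ M q h * r j) → i = j)
    (γ : Gamma0 M) : Equiv.Perm ι :=
  Equiv.ofBijective (repIdx₂ r hcov γ)
    (Finite.injective_iff_bijective.mp (repIdx₂_injective r hcov hinj γ))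

/-- **Character form**: `χ_{tr₂ u}(γ) = ∏ i, χ_u (part i)`. -/
theorem chiU_tr₂_apply_of_reps (hq : q ≠ 0) (p : ℕ) (u : Additive (Gamma0 (M * q)) →+ ℤ)
    (hcov : ∀ g : Gamma0 M, ∃ i, ∃ h : Gamma0 (M * q), g = incl₂ M q h * r i)
    (hinj : ∀ i j, (∃ h : Gamma0 (M * q), r i = incl₂ M q h * r j) → i = j)
    (γ : Gamma0 M) (σ : ι → ι) (part : ι → Gamma0 (M * q))
    (hspec : ∀ i, r i * γ = incl₂ M q (part i) * r (σ i)) :
    KPlan.chiU p (tr₂ M q u) γ = ∏ i, KPlan.chiU p u (part i) := by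
  rw [KPlan.chiU_apply, tr₂_apply_of_reps M q hq r hcov hinj γ σ part hspec u]
  simp only [KPlan.chiU_apply]
  exact (TrProdMem.prod_zpow_eq Finset.univ _ _).symm

end Reps

/-! ### Slash bookkeeping for `α₀ = diag(1, q)` -/

/-- Scalars pass through the slash by `α₀` (positive determinant). -/
theorem smul_slash_heckeMatrix_zero [Fact q.Prime] (w : ℤ) (c : ℂ) (A : ℍ → ℂ) :
    (c • A) ∣[w] ModularForm.heckeMatrix q 0 = c • (A ∣[w] ModularForm.heckeMatrix q 0) := by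
  have : NeZero q := ⟨(Fact.out : q.Prime).ne_zero⟩
  have h := HeckeProdMem.smul_slash_heckeRep (q := q) w c A ((0 : ZMod q) : OnePoint (ZMod q))
  simpa using h

/-- `(A ∣ α₀) ∣ ι₂(P) = (A ∣ P) ∣ α₀`. -/
theorem slash_heckeMatrix_zero_slash_incl₂ (hq : q ≠ 0) (w : ℤ) (A : ℍ → ℂ)
    (P : Gamma0 (M * q)) :
    (A ∣[w] ModularForm.heckeMatrix q 0) ∣[w] ((incl₂ M q P : Gamma0 M) : SL(2, ℤ)) =
      (A ∣[w] (P : SL(2, ℤ))) ∣[w] ModularForm.heckeMatrix q 0 := by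
  change (A ∣[w] ModularForm.heckeMatrix q 0) ∣[w]
      (mapGL ℝ ((incl₂ M q P : Gamma0 M) : SL(2, ℤ))) = _
  rw [← SlashAction.slash_mul, IwahoriU.heckeMatrix_zero_mul_incl₂ hq, SlashAction.slash_mul]
  rfl

/-- `A ∣ α₀` is bounded at every cusp when `A` is. -/
theorem isBoundedAtImInfty_slash_heckeMatrix_zero [Fact q.Prime] (w : ℤ) {A : ℍ → ℂ}
    (hA3 : ∀ g : SL(2, ℤ), IsBoundedAtImInfty (A ∣[w] g)) (g : SL(2, ℤ)) :
    IsBoundedAtImInfty ((A ∣[w] ModularForm.heckeMatrix q 0) ∣[w] g) := by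
  have : NeZero q := ⟨(Fact.out : q.Prime).ne_zero⟩
  obtain ⟨g', hg'⟩ := HeckeProd.exists_heckeRep_mul q g ((0 : ZMod q) : OnePoint (ZMod q))
  have h0 : heckeRep q ((0 : ZMod q) : OnePoint (ZMod q)) = ModularForm.heckeMatrix q 0 := by
    simp
  rw [h0] at hg'
  change IsBoundedAtImInfty ((A ∣[w] ModularForm.heckeMatrix q 0) ∣[w] (mapGL ℝ g))
  rw [← SlashAction.slash_mul, hg', SlashAction.slash_mul]
  exact (hA3 g').slash w (heckeRep_apply_one_zero' q _)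

/-! ### The transfer product for `tr₂` -/

section Main

variable [Fact q.Prime] {ι : Type} [Fintype ι] (r : ι → Gamma0 M)

/-- **[TrProdMem₂]**: for any system of representatives of `ι₂(Γ₀(Mq)) \ Γ₀(M)`, if `A` is a form
of weight `w` on `Γ₀(Mq)` with multiplier `χ_u`, then `∏ i, (A ∣[w] α₀) ∣[w] r i` is a form of
weight `w · card ι` on `Γ₀(M)` with multiplier `χ_{tr₂ u}`. -/
theorem prod_slash_reps₂_mem
    (hcov : ∀ g : Gamma0 M, ∃ i, ∃ h : Gamma0 (M * q), g = incl₂ M q h * r i)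
    (hinj : ∀ i j, (∃ h : Gamma0 (M * q), r i = incl₂ M q h * r j) → i = j)
    (p : ℕ) (u : Additive (Gamma0 (M * q)) →+ ℤ) {w : ℤ} {A : ℍ → ℂ}
    (hA : A ∈ K.MFchi (M * q) w (KPlan.chiU p u)) :
    (∏ i, (A ∣[w] ModularForm.heckeMatrix q 0) ∣[w] ((r i : Gamma0 M) : SL(2, ℤ))) ∈
      K.MFchi M (w * (Fintype.card ι : ℤ)) (KPlan.chiU p (tr₂ M q u)) := by
  have hq0 : q ≠ 0 := (Fact.out : q.Prime).ne_zero
  have : NeZero q := ⟨hq0⟩
  obtain ⟨hA1, hA2, hA3⟩ := hA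
  refine ⟨?_, fun γ => ?_, fun g => ?_⟩
  · exact MDifferentiable.prod (fun x _ => (hA1.slash w _).slash w _)
  · rw [TrProdMem.prod_slash_SL]
    have h1 : ∀ i, ((A ∣[w] ModularForm.heckeMatrix q 0) ∣[w] ((r i : Gamma0 M) : SL(2, ℤ))) ∣[w]
          (γ : SL(2, ℤ)) =
        ((KPlan.chiU p u (repPart₂ r hcov γ i) : ℂˣ) : ℂ) •
          ((A ∣[w] ModularForm.heckeMatrix q 0) ∣[w]
            ((r (repPerm₂ r hcov hinj γ i) : Gamma0 M) : SL(2, ℤ))) := by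
      intro i
      have hs : ((r i : Gamma0 M) : SL(2, ℤ)) * (γ : SL(2, ℤ)) =
          ((incl₂ M q (repPart₂ r hcov γ i) : Gamma0 M) : SL(2, ℤ)) *
            ((r (repIdx₂ r hcov γ i) : Gamma0 M) : SL(2, ℤ)) :=
        congrArg (fun g : Gamma0 M => (g : SL(2, ℤ))) (rep_spec₂ r hcov γ i)
      rw [← SlashAction.slash_mul, hs, SlashAction.slash_mul,
        slash_heckeMatrix_zero_slash_incl₂ hq0, hA2, smul_slash_heckeMatrix_zero,
        ModularForm.SL_smul_slash]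
      rfl
    simp only [h1]
    rw [Finset.prod_smul,
      chiU_tr₂_apply_of_reps r hq0 p u hcov hinj γ (repIdx₂ r hcov γ) (repPart₂ r hcov γ)
        (rep_spec₂ r hcov γ), Units.coe_prod]
    congr 1
    exact Equiv.prod_comp (repPerm₂ r hcov hinj γ)
      (fun i => (A ∣[w] ModularForm.heckeMatrix q 0) ∣[w] ((r i : Gamma0 M) : SL(2, ℤ)))
  · rw [TrProdMem.prod_slash_SL]
    refine BoundedAtFilter.prod _ (fun i _ => ?_)
    rw [← SlashAction.slash_mul]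
    exact isBoundedAtImInfty_slash_heckeMatrix_zero w hA3 _

/-- **[TrProdMem₂], kernel of the transfer**: if `tr₂ u = 0`, trivial multiplier. -/
theorem prod_slash_reps₂_mem_MF_of_tr₂_eq_zero [NeZero M]
    (hcov : ∀ g : Gamma0 M, ∃ i, ∃ h : Gamma0 (M * q), g = incl₂ M q h * r i)
    (hinj : ∀ i j, (∃ h : Gamma0 (M * q), r i = incl₂ M q h * r j) → i = j)
    (p : ℕ) (u : Additive (Gamma0 (M * q)) →+ ℤ) (hu : tr₂ M q u = 0) {w : ℤ} {A : ℍ → ℂ}
    (hA : A ∈ K.MFchi (M * q) w (KPlan.chiU p u)) :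
    (∏ i, (A ∣[w] ModularForm.heckeMatrix q 0) ∣[w] ((r i : Gamma0 M) : SL(2, ℤ))) ∈
      S20.MF M (w * (Fintype.card ι : ℤ)) := by
  have h := prod_slash_reps₂_mem r hcov hinj p u hA
  rw [hu, KPlan.chiU_zero] at h
  exact HeckeProdMem.mem_MF_iff_mem_MFchi_one.mpr h

/-- **[TrProdMem₂] for the denominators.** -/
theorem prod_slash_reps₂_mem_MF [NeZero M]
    (hcov : ∀ g : Gamma0 M, ∃ i, ∃ h : Gamma0 (M * q), g = incl₂ M q h * r i)
    (hinj : ∀ i j, (∃ h : Gamma0 (M * q), r i = incl₂ M q h * r j) → i = j)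
    {w : ℤ} {B : ℍ → ℂ} (hB : B ∈ S20.MF (M * q) w) :
    (∏ i, (B ∣[w] ModularForm.heckeMatrix q 0) ∣[w] ((r i : Gamma0 M) : SL(2, ℤ))) ∈
      S20.MF M (w * (Fintype.card ι : ℤ)) := by
  have : NeZero q := ⟨(Fact.out : q.Prime).ne_zero⟩
  have : NeZero (M * q) := ⟨Nat.mul_ne_zero (NeZero.ne M) (NeZero.ne q)⟩
  have hB' : B ∈ K.MFchi (M * q) w (KPlan.chiU 1 (0 : Additive (Gamma0 (M * q)) →+ ℤ)) := by
    rw [KPlan.chiU_zero]
    exact HeckeProdMem.mem_MF_iff_mem_MFchi_one.mp hB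
  have h := prod_slash_reps₂_mem r hcov hinj 1 0 hB'
  have h0 : tr₂ M q (0 : Additive (Gamma0 (M * q)) →+ ℤ) = 0 := tr₂_zero M q
  rw [h0, KPlan.chiU_zero] at h
  exact HeckeProdMem.mem_MF_iff_mem_MFchi_one.mpr h

omit [Fact q.Prime] in
/-- The product is nonzero for a nonzero holomorphic function. -/
theorem prod_slash_reps₂_ne_zero (w : ℤ) {B : ℍ → ℂ} (hB : MDiff B) (hB0 : B ≠ 0) :
    (∏ i, (B ∣[w] ModularForm.heckeMatrix q 0) ∣[w] ((r i : Gamma0 M) : SL(2, ℤ))) ≠ 0 := by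
  refine TrProdMem.prod_slash_ne_zero (fun i => ((r i : Gamma0 M) : SL(2, ℤ))) w
    (hB.slash w _) ?_
  intro h
  rw [SlashAction.slash_eq_zero_iff] at h
  exact hB0 h

end Main

/-! ### The representatives `S41.IwahoriU.r₂` -/

section R₂

variable [Fact q.Prime] (wAL : ALConj.ALData M q)

theorem card_option_zmod : (Fintype.card (Option (ZMod q)) : ℤ) = (q : ℤ) + 1 := by
  have : NeZero q := ⟨(Fact.out : q.Prime).ne_zero⟩
  rw [Fintype.card_option, ZMod.card]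
  push_cast
  rfl

/-- **[TrProdMem₂] for `r₂ w = {h_w} ∪ {[[1, x],[0, 1]]}`**: weight `w (q + 1)`, multiplier
`χ_{tr₂ u}`. -/
theorem prod_slash_r₂_mem (p : ℕ) (u : Additive (Gamma0 (M * q)) →+ ℤ) {w : ℤ} {A : ℍ → ℂ}
    (hA : A ∈ K.MFchi (M * q) w (KPlan.chiU p u)) :
    (∏ i : Option (ZMod q), (A ∣[w] ModularForm.heckeMatrix q 0) ∣[w]
        ((IwahoriU.r₂ wAL i : Gamma0 M) : SL(2, ℤ))) ∈
      K.MFchi M (w * ((q : ℤ) + 1)) (KPlan.chiU p (tr₂ M q u)) := by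
  have : NeZero q := ⟨(Fact.out : q.Prime).ne_zero⟩
  have h := prod_slash_reps₂_mem (IwahoriU.r₂ wAL) (IwahoriU.r₂_cov wAL Fact.out)
    (IwahoriU.r₂_inj wAL Fact.out) p u hA
  rwa [card_option_zmod] at h

theorem prod_slash_r₂_mem_MF_of_tr₂_eq_zero [NeZero M] (p : ℕ)
    (u : Additive (Gamma0 (M * q)) →+ ℤ) (hu : tr₂ M q u = 0) {w : ℤ} {A : ℍ → ℂ}
    (hA : A ∈ K.MFchi (M * q) w (KPlan.chiU p u)) :
    (∏ i : Option (ZMod q), (A ∣[w] ModularForm.heckeMatrix q 0) ∣[w]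
        ((IwahoriU.r₂ wAL i : Gamma0 M) : SL(2, ℤ))) ∈ S20.MF M (w * ((q : ℤ) + 1)) := by
  have : NeZero q := ⟨(Fact.out : q.Prime).ne_zero⟩
  have h := prod_slash_reps₂_mem_MF_of_tr₂_eq_zero (IwahoriU.r₂ wAL)
    (IwahoriU.r₂_cov wAL Fact.out) (IwahoriU.r₂_inj wAL Fact.out) p u hu hA
  rwa [card_option_zmod] at h

theorem prod_slash_r₂_mem_MF [NeZero M] {w : ℤ} {B : ℍ → ℂ} (hB : B ∈ S20.MF (M * q) w) :
    (∏ i : Option (ZMod q), (B ∣[w] ModularForm.heckeMatrix q 0) ∣[w]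
        ((IwahoriU.r₂ wAL i : Gamma0 M) : SL(2, ℤ))) ∈ S20.MF M (w * ((q : ℤ) + 1)) := by
  have : NeZero q := ⟨(Fact.out : q.Prime).ne_zero⟩
  have h := prod_slash_reps₂_mem_MF (IwahoriU.r₂ wAL)
    (IwahoriU.r₂_cov wAL Fact.out) (IwahoriU.r₂_inj wAL Fact.out) hB
  rwa [card_option_zmod] at h

end R₂

end Fermat.Agent.S35.TrProdMem2
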