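/-
S35 — URed.lean (helper67): row [URed] of the `[U]`-route (`S35/URoutePlan.lean`).

The formal operator `𝒰` (`y' = 𝒰 y` iff `y'(Q^q) = ∏_{i<q} y(ζ^i Q)`, `URoutePlan.IsU`):

* pure Laurent-series facts: the product does not depend on the primitive root (`prod_rot_eq`,
  `isU_iff`), uniqueness (`isU_unique`), multiplicativity (`isU_one`, `isU_mul`, `isU_inv`,
  `isU_div`, `isU_pow`), compatibility with the coefficientwise Galois action (`isU_coeffMap`,
  `isU_gal`);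
* **(R1)** `gRel_isU_one` : if `y` reduces to `g1` then `𝒰 y` reduces to `φ(g1)`
  (`φ` the coefficientwise `q`-Frobenius);
* the algebraic form at level `M q` (`q` prime, `q ∤ M`): `uBar z = α(N_β z) / w z`, with
  `isU_uBar`, `eq_uBar_of_isU`, `uBar_mul`, `uBar_gal`, `wBar_uBar`;
* **(R2)** `gRel_isU_two` : if `z` reduces to `g1 ≠ 0` and `w z` to `g2`, then `w (𝒰 z)` reduces
  to `g2(Q^q) · g1^(q-1)`;
* the `F_K` forms for the two Gauss valuation rings `V1`, `V2 = V1 ∘ w_K`.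
-/
import Mathlib
import Fermat.Agent.S29.K6Hecke
import Fermat.Agent.S35.NormRed
import Fermat.Agent.S35.URoutePlan

set_option autoImplicit false

noncomputable section

namespace Fermat.Agent.S35.URed

open ModularCurve AlgebraicCurve HahnSeries
open Fermat.Agent.S18 Fermat.Agent.S18.Arith Fermat.Agent.S18.ModelPlan Fermat.Agent.S24
open Fermat.Agent.S37.W Fermat.Agent.S34
open Fermat.Agent.S35.URoutePlan (IsU)

/-! ### Pure Laurent-series facts -/

section Series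

theorem rotHom_congr {ζ ζ' : Qb} (h : ζ = ζ') (hζ : ζ ≠ 0) (hζ' : ζ' ≠ 0)
    (y : LaurentSeries Qb) : rotHom ζ hζ y = rotHom ζ' hζ' y := by
  subst h
  rfl

/-- The product of the rotations over the powers of a primitive root does not depend on the
primitive root. -/
theorem prod_rot_eq (q : ℕ) [NeZero q] {ζ ζ' : Qb} (hζ : IsPrimitiveRoot ζ q)
    (hζ' : IsPrimitiveRoot ζ' q) (hz : ∀ i : ℕ, ζ ^ i ≠ 0) (hz' : ∀ i : ℕ, ζ' ^ i ≠ 0)
    (y : LaurentSeries Qb) :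
    ∏ i ∈ Finset.range q, rotHom (ζ ^ i) (hz i) y
      = ∏ i ∈ Finset.range q, rotHom (ζ' ^ i) (hz' i) y := by
  have h0 : ζ ≠ 0 := hζ.ne_zero (NeZero.ne q)
  have h0' : ζ' ≠ 0 := hζ'.ne_zero (NeZero.ne q)
  have h := Fermat.Agent.S29.K6Hecke.prod_pow_eq_of_isPrimitiveRoot (R := Qb)
    (ζ := Units.mk0 ζ h0) (ζ' := Units.mk0 ζ' h0') (ℓ := q) hζ hζ'
    (fun u : Qbˣ => rotHom (u : Qb) u.ne_zero y)
  refine Eq.trans (Finset.prod_congr rfl fun i _ => ?_)
    (h.trans (Finset.prod_congr rfl fun i _ => ?_))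
  · exact rotHom_congr (by rw [Units.val_pow_eq_pow_val, Units.val_mk0]) _ _ y
  · exact rotHom_congr (by rw [Units.val_pow_eq_pow_val, Units.val_mk0]) _ _ y

variable (q : ℕ) [NeZero q]

/-- `IsU` can be tested on any primitive root. -/
theorem isU_iff {ζ : Qb} (hζ : IsPrimitiveRoot ζ q) (hz : ∀ i : ℕ, ζ ^ i ≠ 0)
    (y y' : LaurentSeries Qb) :
    IsU q y y' ↔ qExpand Qb q y' = ∏ i ∈ Finset.range q, rotHom (ζ ^ i) (hz i) y := by
  constructor
  · rintro ⟨ζ', hζ', hz', h⟩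
    rw [h]
    exact prod_rot_eq q hζ' hζ hz' hz y
  · intro h
    exact ⟨ζ, hζ, hz, h⟩

/-- A primitive `q`-th root of unity of `ℚ̄`. -/
theorem exists_root : ∃ ζ : Qb, IsPrimitiveRoot ζ q ∧ ∀ i : ℕ, ζ ^ i ≠ 0 := by
  obtain ⟨ζ, hζ⟩ := HasEnoughRootsOfUnity.exists_primitiveRoot Qb q
  exact ⟨ζ, hζ, fun i => pow_ne_zero i (hζ.ne_zero (NeZero.ne q))⟩

variable {q}

/-- **(R5)** `𝒰 y` is unique. -/
theorem isU_unique {y x x' : LaurentSeries Qb} (h : IsU q y x) (h' : IsU q y x') : x = x' := by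
  obtain ⟨ζ, hζ, hz, h1⟩ := h
  have h2 := (isU_iff q hζ hz y x').mp h'
  exact qExpand_injective (R := Qb) (N := q) (h1.trans h2.symm)

theorem isU_one : IsU q (1 : LaurentSeries Qb) 1 := by
  obtain ⟨ζ, hζ, hz⟩ := exists_root q
  refine ⟨ζ, hζ, hz, ?_⟩
  rw [map_one]
  exact (Finset.prod_eq_one fun i _ => map_one _).symm

theorem isU_zero : IsU q (0 : LaurentSeries Qb) 0 := by
  obtain ⟨ζ, hζ, hz⟩ := exists_root q
  refine ⟨ζ, hζ, hz, ?_⟩
  rw [map_zero]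
  exact (Finset.prod_eq_zero (i := 0)
    (Finset.mem_range.mpr (Nat.pos_of_ne_zero (NeZero.ne q)))
    (map_zero (rotHom (ζ ^ 0) (hz 0)))).symm

/-- **(R4)** `𝒰` is multiplicative. -/
theorem isU_mul {y₁ y₁' y₂ y₂' : LaurentSeries Qb} (h₁ : IsU q y₁ y₁') (h₂ : IsU q y₂ y₂') :
    IsU q (y₁ * y₂) (y₁' * y₂') := by
  obtain ⟨ζ, hζ, hz, e1⟩ := h₁
  have e2 := (isU_iff q hζ hz y₂ y₂').mp h₂
  refine ⟨ζ, hζ, hz, ?_⟩
  rw [map_mul, e1, e2, ← Finset.prod_mul_distrib]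
  exact Finset.prod_congr rfl fun i _ => (map_mul _ _ _).symm

theorem isU_inv {y y' : LaurentSeries Qb} (h : IsU q y y') : IsU q y⁻¹ y'⁻¹ := by
  obtain ⟨ζ, hζ, hz, e1⟩ := h
  refine ⟨ζ, hζ, hz, ?_⟩
  rw [map_inv₀, e1, ← Finset.prod_inv_distrib]
  exact Finset.prod_congr rfl fun i _ => (map_inv₀ _ _).symm

theorem isU_div {y₁ y₁' y₂ y₂' : LaurentSeries Qb} (h₁ : IsU q y₁ y₁') (h₂ : IsU q y₂ y₂') :
    IsU q (y₁ / y₂) (y₁' / y₂') := by
  rw [div_eq_mul_inv, div_eq_mul_inv]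
  exact isU_mul h₁ (isU_inv h₂)

theorem isU_pow {y y' : LaurentSeries Qb} (h : IsU q y y') (n : ℕ) : IsU q (y ^ n) (y' ^ n) := by
  induction n with
  | zero =>
    rw [pow_zero, pow_zero]
    exact isU_one
  | succ n ih =>
    rw [pow_succ, pow_succ]
    exact isU_mul ih h

theorem coeffMap_rotHom (τ : Qb ≃ₐ[ℚ] Qb) {ξ : Qb} (hξ : ξ ≠ 0) (hξ' : τ ξ ≠ 0)
    (y : LaurentSeries Qb) :
    coeffMap (τ : Qb →+* Qb) (rotHom ξ hξ y) = rotHom (τ ξ) hξ' (coeffMap (τ : Qb →+* Qb) y) := by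
  ext n
  rw [coeffMap_coeff, rotHom_coeff, rotHom_coeff, coeffMap_coeff, map_mul]
  congr 1
  exact map_zpow₀ (τ : Qb →+* Qb) ξ n

/-- **(R3)** `𝒰` commutes with the coefficientwise Galois action. -/
theorem isU_coeffMap (τ : Qb ≃ₐ[ℚ] Qb) {y y' : LaurentSeries Qb} (h : IsU q y y') :
    IsU q (coeffMap (τ : Qb →+* Qb) y) (coeffMap (τ : Qb →+* Qb) y') := by
  obtain ⟨ζ, hζ, hz, e1⟩ := h
  have hζ' : IsPrimitiveRoot (τ ζ) q := hζ.map_of_injective τ.injective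
  have hz' : ∀ i : ℕ, (τ ζ) ^ i ≠ 0 := fun i => pow_ne_zero i (hζ'.ne_zero (NeZero.ne q))
  refine ⟨τ ζ, hζ', hz', ?_⟩
  rw [← ModularCurve.coeffMap_qExpand, e1, map_prod]
  refine Finset.prod_congr rfl fun i _ => ?_
  rw [coeffMap_rotHom τ (hz i) (by rw [map_pow]; exact hz' i)]
  exact rotHom_congr (map_pow τ ζ i) _ _ _

end Series

/-! ### (R1): the first reduction -/

section RedOne

variable {A : ValuationSubring Qb}

/-- **(R1)** If `y` reduces to `g1`, then `𝒰 y` reduces to `φ(g1)`, `φ` the coefficientwise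
`q`-Frobenius (`ζ ≡ 1`). -/
theorem gRel_isU_one (q : ℕ) [NeZero q] [Fact q.Prime] [CharP (IsLocalRing.ResidueField A) q]
    (hA : A.LiesOverPrime q) {y x : LaurentSeries Qb}
    {g1 : LaurentSeries (IsLocalRing.ResidueField A)} (hU : IsU q y x) (h1 : GRel A y g1) :
    GRel A x (coeffMap (frobenius (IsLocalRing.ResidueField A) q) g1) := by
  obtain ⟨ζ, hζ, hz, hx⟩ := hU
  have h := NormRed.gRel_prod_rot q hA hζ.pow_eq_one hz h1
  rw [← hx] at h
  have h' := ConjMod.gRel_of_qExpand q h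
  rwa [S37.KC.pow_char_eq_qExpand_frobenius q g1, S37.KC.qContract_qExpand] at h'

end RedOne

/-! ### The algebraic form at level `M q` and (R2) -/

section Level

variable (M q : ℕ) [NeZero M] [NeZero q] (hq : q.Prime) (hqM : ¬ q ∣ M)

/-- The norm `N_β : F̄_{Mq} → F̄_M` along the degeneracy map `β`. -/
def normBeta (z : ↥(modularFunctionFieldBar (M * q))) : ↥(modularFunctionFieldBar M) :=
  letI := algebraAlong (heckeBetaBar Qb M q)
  Algebra.norm ↥(modularFunctionFieldBar M) z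

/-- `𝒰 z = α(N_β z) / w z`, an element of `F̄_{Mq}`. -/
def uBar (z : ↥(modularFunctionFieldBar (M * q))) : ↥(modularFunctionFieldBar (M * q)) :=
  heckeAlphaBar Qb M q (normBeta M q z) / WK.wBar M q hq hqM z

theorem uBar_zero : uBar M q hq hqM 0 = 0 := by
  unfold uBar
  rw [map_zero, div_zero]

/-- `uBar z` is `𝒰 z`: `(uBar z)(Q^q) = ∏_{i<q} z(ζ^i Q)`. -/
theorem isU_uBar (z : ↥(modularFunctionFieldBar (M * q))) :
    IsU q (z : LaurentSeries Qb)
      ((uBar M q hq hqM z : ↥(modularFunctionFieldBar (M * q))) : LaurentSeries Qb) := by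
  by_cases h0 : z = 0
  · subst h0
    rw [uBar_zero]
    exact isU_zero
  · obtain ⟨ζ, hζ, hz⟩ := exists_root q
    refine ⟨ζ, hζ, hz, ?_⟩
    have hw : WK.wBar M q hq hqM z ≠ 0 :=
      (EmbeddingLike.map_ne_zero_iff (f := WK.wBar M q hq hqM)).mpr h0
    have hw1 : ((WK.wBar M q hq hqM z : ↥(modularFunctionFieldBar (M * q))) :
        LaurentSeries Qb) ≠ 0 := fun h => hw (Subtype.ext h)
    have hw' : qExpand Qb q ((WK.wBar M q hq hqM z : ↥(modularFunctionFieldBar (M * q))) :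
        LaurentSeries Qb) ≠ 0 := fun h => hw1 (qExpand_injective (R := Qb) (N := q)
          (h.trans (map_zero _).symm))
    have e : ((uBar M q hq hqM z : ↥(modularFunctionFieldBar (M * q))) : LaurentSeries Qb)
        = ((normBeta M q z : ↥(modularFunctionFieldBar M)) : LaurentSeries Qb)
          / ((WK.wBar M q hq hqM z : ↥(modularFunctionFieldBar (M * q))) :
              LaurentSeries Qb) := by
      unfold uBar
      rw [IntermediateField.coe_div, coe_heckeAlphaBar]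
    have hN : qExpand Qb q ((normBeta M q z : ↥(modularFunctionFieldBar M)) : LaurentSeries Qb)
        = qExpand Qb q
            ((WK.wBar M q hq hqM z : ↥(modularFunctionFieldBar (M * q))) : LaurentSeries Qb) *
          ∏ i ∈ Finset.range q, rotHom (ζ ^ i) (hz i) (z : LaurentSeries Qb) :=
      NormRed.qExpand_norm_beta_w M q hq hqM ζ hζ hz z
    rw [e, map_div₀, hN, mul_div_cancel_left₀ _ hw']

variable {M q}

/-- Uniqueness: an element of `F̄_{Mq}` which is `𝒰 z` is `uBar z`. -/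
theorem eq_uBar_of_isU {z x : ↥(modularFunctionFieldBar (M * q))}
    (h : IsU q (z : LaurentSeries Qb) (x : LaurentSeries Qb)) : x = uBar M q hq hqM z :=
  Subtype.ext (isU_unique h (isU_uBar M q hq hqM z))

variable (M q)

theorem uBar_one : uBar M q hq hqM 1 = 1 :=
  (eq_uBar_of_isU hq hqM (z := 1) (x := 1) isU_one).symm

theorem uBar_mul (z z' : ↥(modularFunctionFieldBar (M * q))) :
    uBar M q hq hqM (z * z') = uBar M q hq hqM z * uBar M q hq hqM z' :=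
  (eq_uBar_of_isU hq hqM (z := z * z') (x := uBar M q hq hqM z * uBar M q hq hqM z')
    (isU_mul (isU_uBar M q hq hqM z) (isU_uBar M q hq hqM z'))).symm

/-- `𝒰` as a multiplicative map of `F̄_{Mq}`. -/
def uHom : ↥(modularFunctionFieldBar (M * q)) →*₀ ↥(modularFunctionFieldBar (M * q)) where
  toFun := uBar M q hq hqM
  map_zero' := uBar_zero M q hq hqM
  map_one' := uBar_one M q hq hqM
  map_mul' := uBar_mul M q hq hqM

theorem uHom_apply (z : ↥(modularFunctionFieldBar (M * q))) :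
    uHom M q hq hqM z = uBar M q hq hqM z := rfl

theorem uBar_inv (z : ↥(modularFunctionFieldBar (M * q))) :
    uBar M q hq hqM z⁻¹ = (uBar M q hq hqM z)⁻¹ :=
  map_inv₀ (uHom M q hq hqM) z

theorem uBar_div (z z' : ↥(modularFunctionFieldBar (M * q))) :
    uBar M q hq hqM (z / z') = uBar M q hq hqM z / uBar M q hq hqM z' :=
  map_div₀ (uHom M q hq hqM) z z'

theorem uBar_pow (z : ↥(modularFunctionFieldBar (M * q))) (n : ℕ) :
    uBar M q hq hqM (z ^ n) = uBar M q hq hqM z ^ n :=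
  map_pow (uHom M q hq hqM) z n

theorem uBar_ne_zero {z : ↥(modularFunctionFieldBar (M * q))} (hz : z ≠ 0) :
    uBar M q hq hqM z ≠ 0 :=
  (map_ne_zero (uHom M q hq hqM)).mpr hz

omit [NeZero M] in
/-- **(R3)**, `F̄`-form: `𝒰` commutes with the coefficientwise Galois action. -/
theorem isU_gal (N : ℕ) (τ : Qb ≃ₐ[ℚ] Qb) {z x : ↥(modularFunctionFieldBar N)}
    (h : IsU q (z : LaurentSeries Qb) (x : LaurentSeries Qb)) :
    IsU q ((UPlan.gal N τ • z : ↥(modularFunctionFieldBar N)) : LaurentSeries Qb)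
      ((UPlan.gal N τ • x : ↥(modularFunctionFieldBar N)) : LaurentSeries Qb) :=
  isU_coeffMap τ h

theorem uBar_gal (τ : Qb ≃ₐ[ℚ] Qb) (z : ↥(modularFunctionFieldBar (M * q))) :
    uBar M q hq hqM (UPlan.gal (M * q) τ • z) = UPlan.gal (M * q) τ • uBar M q hq hqM z :=
  (eq_uBar_of_isU hq hqM (isU_gal q (M * q) τ (isU_uBar M q hq hqM z))).symm

variable {M q}

/-- `↑(N_β z) = ↑(w z) · ↑x` when `x = 𝒰 z`. -/
theorem coe_normBeta_of_isU {z x : ↥(modularFunctionFieldBar (M * q))}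
    (hU : IsU q (z : LaurentSeries Qb) (x : LaurentSeries Qb)) :
    ((normBeta M q z : ↥(modularFunctionFieldBar M)) : LaurentSeries Qb)
      = ((WK.wBar M q hq hqM z : ↥(modularFunctionFieldBar (M * q))) : LaurentSeries Qb)
        * (x : LaurentSeries Qb) := by
  obtain ⟨ζ, hζ, hz, hx⟩ := hU
  apply qExpand_injective (R := Qb) (N := q)
  rw [map_mul, hx]
  exact NormRed.qExpand_norm_beta_w M q hq hqM ζ hζ hz z

/-- `α(N_β z) = w z · 𝒰 z`. -/
theorem alpha_normBeta_of_isU {z x : ↥(modularFunctionFieldBar (M * q))}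
    (hU : IsU q (z : LaurentSeries Qb) (x : LaurentSeries Qb)) :
    heckeAlphaBar Qb M q (normBeta M q z) = WK.wBar M q hq hqM z * x :=
  Subtype.ext (by rw [coe_heckeAlphaBar]; exact coe_normBeta_of_isU hq hqM hU)

/-- `β(N_β z) = z · w (𝒰 z)`. -/
theorem beta_normBeta_of_isU {z x : ↥(modularFunctionFieldBar (M * q))}
    (hU : IsU q (z : LaurentSeries Qb) (x : LaurentSeries Qb)) :
    heckeBetaBar Qb M q (normBeta M q z) = z * WK.wBar M q hq hqM x := by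
  have h := congrArg (WK.wBar M q hq hqM) (alpha_normBeta_of_isU hq hqM hU)
  rwa [WK.wBar_alpha, map_mul, WK.wBar_wBar] at h

variable (M q)

/-- `w (𝒰 z) = β(N_β z) / z`. -/
theorem wBar_uBar {z : ↥(modularFunctionFieldBar (M * q))} (hz : z ≠ 0) :
    WK.wBar M q hq hqM (uBar M q hq hqM z) = heckeBetaBar Qb M q (normBeta M q z) / z := by
  rw [beta_normBeta_of_isU hq hqM (isU_uBar M q hq hqM z), mul_div_cancel_left₀ _ hz]

variable {A : ValuationSubring Qb}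

/-- **(R2)** If `z` reduces to `g1 ≠ 0` and `w z` reduces to `g2`, then `w (𝒰 z)` reduces to
`g2(Q^q) · g1^(q-1)`. -/
theorem gRel_isU_two (hA : A.LiesOverPrime q) {z x : ↥(modularFunctionFieldBar (M * q))}
    {g1 g2 : LaurentSeries (IsLocalRing.ResidueField A)}
    (hU : IsU q (z : LaurentSeries Qb) (x : LaurentSeries Qb))
    (h1 : GRel A (z : LaurentSeries Qb) g1)
    (h2 : GRel A ((WK.wBar M q hq hqM z : ↥(modularFunctionFieldBar (M * q))) :
      LaurentSeries Qb) g2) (hg1 : g1 ≠ 0) :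
    GRel A ((WK.wBar M q hq hqM x : ↥(modularFunctionFieldBar (M * q))) : LaurentSeries Qb)
      (qExpand (IsLocalRing.ResidueField A) q g2 * g1 ^ (q - 1)) := by
  have hz0 : (z : LaurentSeries Qb) ≠ 0 := by
    intro h0
    rw [h0] at h1
    exact hg1 ((GRel.gRelStatement A).unique _ _ _ h1
      (ModelRed.gRel_zero (GRel.gRelStatement A)))
  have hβ := beta_normBeta_of_isU hq hqM hU
  have e : ((WK.wBar M q hq hqM x : ↥(modularFunctionFieldBar (M * q))) : LaurentSeries Qb)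
      = qExpand Qb q ((normBeta M q z : ↥(modularFunctionFieldBar M)) : LaurentSeries Qb)
        * (z : LaurentSeries Qb)⁻¹ := by
    have h : qExpand Qb q ((normBeta M q z : ↥(modularFunctionFieldBar M)) : LaurentSeries Qb)
        = (z : LaurentSeries Qb)
          * ((WK.wBar M q hq hqM x : ↥(modularFunctionFieldBar (M * q))) : LaurentSeries Qb) :=
      congrArg (fun y : ↥(modularFunctionFieldBar (M * q)) => (y : LaurentSeries Qb)) hβ
    rw [h, mul_comm (z : LaurentSeries Qb), mul_assoc, mul_inv_cancel₀ hz0, mul_one]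
  rw [e]
  have hN : GRel A
      (qExpand Qb q ((normBeta M q z : ↥(modularFunctionFieldBar M)) : LaurentSeries Qb))
      (qExpand (IsLocalRing.ResidueField A) q g2 * g1 ^ q) :=
    NormRed.gRel_qExpand_norm_beta M q hq hqM hA z h1 h2
  have hinv := (GRel.gRelStatement A).inv _ _ h1 hg1
  have hm := (GRel.gRelStatement A).mul _ _ _ _ hN hinv
  have e3 : g1 ^ q = g1 ^ (q - 1) * g1 := by
    rw [← pow_succ, Nat.sub_add_cancel (Nat.one_le_iff_ne_zero.mpr (NeZero.ne q))]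
  have e2 : qExpand (IsLocalRing.ResidueField A) q g2 * g1 ^ q * g1⁻¹
      = qExpand (IsLocalRing.ResidueField A) q g2 * g1 ^ (q - 1) := by
    rw [e3, mul_assoc, mul_assoc, mul_inv_cancel₀ hg1, mul_one]
  rwa [e2] at hm

/-- (R1) for `uBar`: `ρ(𝒰 z) = φ(ρ z)`. -/
theorem gRel_uBar [Fact q.Prime] [CharP (IsLocalRing.ResidueField A) q]
    (hA : A.LiesOverPrime q) (z : ↥(modularFunctionFieldBar (M * q)))
    {g1 : LaurentSeries (IsLocalRing.ResidueField A)} (h1 : GRel A (z : LaurentSeries Qb) g1) :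
    GRel A ((uBar M q hq hqM z : ↥(modularFunctionFieldBar (M * q))) : LaurentSeries Qb)
      (coeffMap (frobenius (IsLocalRing.ResidueField A) q) g1) :=
  gRel_isU_one q hA (isU_uBar M q hq hqM z) h1

/-- (R2) for `uBar`: `ρ(w (𝒰 z)) = ρ(w z)(Q^q) · ρ(z)^(q-1)`. -/
theorem gRel_wBar_uBar (hA : A.LiesOverPrime q) (z : ↥(modularFunctionFieldBar (M * q)))
    {g1 g2 : LaurentSeries (IsLocalRing.ResidueField A)}
    (h1 : GRel A (z : LaurentSeries Qb) g1)
    (h2 : GRel A ((WK.wBar M q hq hqM z : ↥(modularFunctionFieldBar (M * q))) :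
      LaurentSeries Qb) g2) (hg1 : g1 ≠ 0) :
    GRel A ((WK.wBar M q hq hqM (uBar M q hq hqM z) : ↥(modularFunctionFieldBar (M * q))) :
        LaurentSeries Qb)
      (qExpand (IsLocalRing.ResidueField A) q g2 * g1 ^ (q - 1)) :=
  gRel_isU_two M q hq hqM hA (isU_uBar M q hq hqM z) h1 h2 hg1

end Level

/-! ### The `F_K` forms -/

section FKForm

variable (M q : ℕ) [NeZero M] [NeZero q] (hq : q.Prime) (hqM : ¬ q ∣ M)
variable {A : ValuationSubring Qb} {K : IntermediateField ℚ Qb}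

/-- (R2) on `F_K(Mq)`, with `w_K`. -/
theorem gRel_isU_two_FK (hA : A.LiesOverPrime q) {z x : FK (M * q) K}
    {g1 g2 : LaurentSeries (IsLocalRing.ResidueField A)}
    (hU : IsU q (z : LaurentSeries Qb) (x : LaurentSeries Qb))
    (h1 : GRel A (z : LaurentSeries Qb) g1)
    (h2 : GRel A ((WK.wK M q hq hqM K z : FK (M * q) K) : LaurentSeries Qb) g2) (hg1 : g1 ≠ 0) :
    GRel A ((WK.wK M q hq hqM K x : FK (M * q) K) : LaurentSeries Qb)
      (qExpand (IsLocalRing.ResidueField A) q g2 * g1 ^ (q - 1)) := by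
  rw [WK.coe_wK] at h2 ⊢
  exact gRel_isU_two M q hq hqM hA (z := S18.Glob.toBar (M * q) K z)
    (x := S18.Glob.toBar (M * q) K x) hU h1 h2 hg1

/-- `𝒰` preserves the Gauss valuation ring `V1`. -/
theorem isU_mem_V1 [Fact q.Prime] [CharP (IsLocalRing.ResidueField A) q]
    (hA : A.LiesOverPrime q) (hdvr : IsDiscreteValuationRing (OK A K)) {z x : FK (M * q) K}
    (hU : IsU q (z : LaurentSeries Qb) (x : LaurentSeries Qb))
    (hz : z ∈ GaussV.V1 (M * q) A K hdvr) : x ∈ GaussV.V1 (M * q) A K hdvr :=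
  (GaussV.mem_V1_iff hdvr).mpr ⟨_, gRel_isU_one q hA hU (GaussV.gRel_red1 hdvr ⟨z, hz⟩)⟩

/-- `ρ₁(𝒰 z) = φ(ρ₁ z)`. -/
theorem red1_isU [Fact q.Prime] [CharP (IsLocalRing.ResidueField A) q]
    (hA : A.LiesOverPrime q) (hdvr : IsDiscreteValuationRing (OK A K)) {z x : FK (M * q) K}
    (hU : IsU q (z : LaurentSeries Qb) (x : LaurentSeries Qb))
    (hz : z ∈ GaussV.V1 (M * q) A K hdvr) (hx : x ∈ GaussV.V1 (M * q) A K hdvr) :
    GaussV.red1 hdvr ⟨x, hx⟩
      = coeffMap (frobenius (IsLocalRing.ResidueField A) q) (GaussV.red1 hdvr ⟨z, hz⟩) :=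
  GaussV.red1_eq_of_gRel hdvr ⟨x, hx⟩ (gRel_isU_one q hA hU (GaussV.gRel_red1 hdvr ⟨z, hz⟩))

/-- A unit of `V1` has a nonzero reduction. -/
theorem red1_ne_zero_of_inv_mem (hdvr : IsDiscreteValuationRing (OK A K)) {z : FK (M * q) K}
    (hz0 : z ≠ 0) (hz : z ∈ GaussV.V1 (M * q) A K hdvr)
    (hz' : z⁻¹ ∈ GaussV.V1 (M * q) A K hdvr) : GaussV.red1 hdvr ⟨z, hz⟩ ≠ 0 := by
  intro h0
  have h1 : (⟨z, hz⟩ : GaussV.V1 (M * q) A K hdvr) * ⟨z⁻¹, hz'⟩ = 1 :=
    Subtype.ext (mul_inv_cancel₀ hz0)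
  have h2 := congrArg (GaussV.red1 hdvr) h1
  rw [map_mul, h0, zero_mul, map_one] at h2
  exact zero_ne_one h2

/-- `𝒰` maps `V1ˣ ∩ V2` into `V2`. -/
theorem isU_mem_V2 (hA : A.LiesOverPrime q) (hdvr : IsDiscreteValuationRing (OK A K))
    {z x : FK (M * q) K} (hU : IsU q (z : LaurentSeries Qb) (x : LaurentSeries Qb))
    (hz0 : z ≠ 0) (hz1 : z ∈ GaussV.V1 (M * q) A K hdvr)
    (hz1' : z⁻¹ ∈ GaussV.V1 (M * q) A K hdvr)
    (hz2 : z ∈ GaussV.V2 (WK.wK M q hq hqM K) hdvr) :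
    x ∈ GaussV.V2 (WK.wK M q hq hqM K) hdvr :=
  (GaussV.mem_V2_iff (WK.wK M q hq hqM K) hdvr).mpr ((GaussV.mem_V1_iff hdvr).mpr
    ⟨_, gRel_isU_two_FK M q hq hqM hA hU (GaussV.gRel_red1 hdvr ⟨z, hz1⟩)
      (GaussV.gRel_red2 (WK.wK M q hq hqM K) hdvr ⟨z, hz2⟩)
      (red1_ne_zero_of_inv_mem M q hdvr hz0 hz1 hz1')⟩)

/-- `ρ₂(𝒰 z) = ρ₂(z)(Q^q) · ρ₁(z)^(q-1)`. -/
theorem red2_isU (hA : A.LiesOverPrime q) (hdvr : IsDiscreteValuationRing (OK A K))
    {z x : FK (M * q) K} (hU : IsU q (z : LaurentSeries Qb) (x : LaurentSeries Qb))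
    (hz0 : z ≠ 0) (hz1 : z ∈ GaussV.V1 (M * q) A K hdvr)
    (hz1' : z⁻¹ ∈ GaussV.V1 (M * q) A K hdvr)
    (hz2 : z ∈ GaussV.V2 (WK.wK M q hq hqM K) hdvr)
    (hx2 : x ∈ GaussV.V2 (WK.wK M q hq hqM K) hdvr) :
    GaussV.red2 (WK.wK M q hq hqM K) hdvr ⟨x, hx2⟩
      = qExpand (IsLocalRing.ResidueField A) q
          (GaussV.red2 (WK.wK M q hq hqM K) hdvr ⟨z, hz2⟩)
        * GaussV.red1 hdvr ⟨z, hz1⟩ ^ (q - 1) :=
  GaussV.red1_eq_of_gRel hdvr ⟨WK.wK M q hq hqM K x, hx2⟩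
    (gRel_isU_two_FK M q hq hqM hA hU (GaussV.gRel_red1 hdvr ⟨z, hz1⟩)
      (GaussV.gRel_red2 (WK.wK M q hq hqM K) hdvr ⟨z, hz2⟩)
      (red1_ne_zero_of_inv_mem M q hdvr hz0 hz1 hz1'))

/-- `𝒰` preserves the units of `V1 ∩ V2`. -/
theorem isU_unit [Fact q.Prime] [CharP (IsLocalRing.ResidueField A) q]
    (hA : A.LiesOverPrime q) (hdvr : IsDiscreteValuationRing (OK A K))
    {z x : FK (M * q) K} (hU : IsU q (z : LaurentSeries Qb) (x : LaurentSeries Qb))
    (hz0 : z ≠ 0) (hz1 : z ∈ GaussV.V1 (M * q) A K hdvr)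
    (hz1' : z⁻¹ ∈ GaussV.V1 (M * q) A K hdvr)
    (hz2 : z ∈ GaussV.V2 (WK.wK M q hq hqM K) hdvr)
    (hz2' : z⁻¹ ∈ GaussV.V2 (WK.wK M q hq hqM K) hdvr) :
    (x ∈ GaussV.V1 (M * q) A K hdvr ∧ x⁻¹ ∈ GaussV.V1 (M * q) A K hdvr) ∧
      (x ∈ GaussV.V2 (WK.wK M q hq hqM K) hdvr ∧
        x⁻¹ ∈ GaussV.V2 (WK.wK M q hq hqM K) hdvr) := by
  have hU' : IsU q ((z⁻¹ : FK (M * q) K) : LaurentSeries Qb)
      ((x⁻¹ : FK (M * q) K) : LaurentSeries Qb) := isU_inv hU
  refine ⟨⟨isU_mem_V1 M q hA hdvr hU hz1, isU_mem_V1 M q hA hdvr hU' hz1'⟩,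
    isU_mem_V2 M q hq hqM hA hdvr hU hz0 hz1 hz1' hz2,
    isU_mem_V2 M q hq hqM hA hdvr hU' (inv_ne_zero hz0) hz1' ?_ hz2'⟩
  rwa [inv_inv]

end FKForm

end Fermat.Agent.S35.URed
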