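/-
S35 — UNorm.lean (helper93).  `[U]`-route, row [GNormU]: the corrector for
`f̃ = τ f / f ^ (q²)` (`τ = σs²`, `σs` a Frobenius lift at `q`) when `f` satisfies the
`U`-condition `𝒰 𝒰 f = g ^ m · f` (`URoutePlan.UCond`).

* `alg_one`, `alg_two`  — the pure algebra on the two branches: from
      `φ² r₁ = a₁^m r₁`,   `E(E r₂ · r₁^(q-1)) · (φ r₁)^(q-1) = a₂^m r₂`
    (`E ∘ φ = (·)^q`, `E`, `φ` commuting ring endomorphisms of a field) the elements
    `t_i = φ² r_i / r_i^(q²)` satisfy `φ² t_i / t_i = c_i ^ m` with explicit `c_i`;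
* `exists_H_gRel`       — the corrector `H` at the level of Gauss reductions (`ApproxK.approx`
    applied to two explicit Galois translates of `g₁ = Σ g / g`);
* `exists_H`            — in the vocabulary of `ModelFPlan.ModelF` (`H_unit`, `H_cong`);
* `corrU`               — `ModelFAsm.CorrStatement M q hq hqM m (URoutePlan.CondU M q m)`;
* `modelFU`             — `FCorePlanG.ModelFStatementOf M q m (URoutePlan.CondU M q m)`.
-/
import Mathlib
import Fermat.Agent.S18.DescCoeff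
import Fermat.Agent.S35.GNorm
import Fermat.Agent.S35.BaseF
import Fermat.Agent.S35.ModelFAsm
import Fermat.Agent.S35.ModelFTop
import Fermat.Agent.S35.URoutePlan
import Fermat.Agent.S35.URed

set_option autoImplicit false

noncomputable section

namespace Fermat.Agent.S35.UNorm

open ModularCurve AlgebraicCurve HahnSeries Fermat.Agent.S18 Fermat.Agent.S18.Arith
open Fermat.Agent.S34 Fermat.Agent.S34.TauAct
open Fermat.Agent.S35.URoutePlan (IsU UCond CondU)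

/-! ### Pure algebra on the two branches -/

section Alg


variable {L : Type*} [Field L] (φ E : L →+* L) (q m : ℕ)

theorem alg_one {r a : L} (hr : r ≠ 0) (ha : a ≠ 0) (h1 : φ (φ r) = a ^ m * r) :
    φ (φ (φ (φ r) / r ^ (q ^ 2))) / (φ (φ r) / r ^ (q ^ 2))
      = (φ (φ a) / a ^ (q ^ 2)) ^ m := by
  have hb : φ (φ a) ≠ 0 := (map_ne_zero _).mpr ((map_ne_zero _).mpr ha)
  rw [map_div₀, map_div₀, map_pow, map_pow, h1, map_mul, map_mul, map_pow, map_pow, h1, div_pow]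
  field_simp
  ring

theorem alg_fin {R2 R4 r2 b2 b4 u z : L} (Q n : ℕ) (hR2 : R2 ≠ 0) (hr2 : r2 ≠ 0)
    (hb4 : b4 ≠ 0) (hu : u ≠ 0)
    (hB : r2 ^ Q * u = b2 ^ m * R2) (hD : R2 ^ Q * ((z ^ n) ^ m * u) = b4 ^ m * R4) :
    R4 / R2 ^ Q / (R2 / r2 ^ Q) = (b2 / b4 * z ^ n) ^ m := by
  have hb4m : b4 ^ m ≠ 0 := pow_ne_zero _ hb4
  have hR2Q : R2 ^ Q ≠ 0 := pow_ne_zero _ hR2
  have hr2Q : r2 ^ Q ≠ 0 := pow_ne_zero _ hr2
  calc R4 / R2 ^ Q / (R2 / r2 ^ Q)
      = (b4 ^ m * R4) * (r2 ^ Q * u) / (b4 ^ m * u * R2 ^ Q * R2) := by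
        field_simp
    _ = (R2 ^ Q * ((z ^ n) ^ m * u)) * (b2 ^ m * R2) / (b4 ^ m * u * R2 ^ Q * R2) := by
        rw [hD, hB]
    _ = (b2 / b4 * z ^ n) ^ m := by
        rw [mul_pow, div_pow]
        field_simp

theorem alg_two (hE : ∀ g : L, E (φ g) = g ^ q) (hc : ∀ g : L, φ (E g) = E (φ g))
    {r1 r2 a1 a2 : L} (hr1 : r1 ≠ 0) (hr2 : r2 ≠ 0) (ha1 : a1 ≠ 0) (ha2 : a2 ≠ 0)
    (h1 : φ (φ r1) = a1 ^ m * r1)
    (h2 : E (E r2 * r1 ^ (q - 1)) * φ r1 ^ (q - 1) = a2 ^ m * r2) :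
    φ (φ (φ (φ r2) / r2 ^ (q ^ 2))) / (φ (φ r2) / r2 ^ (q ^ 2))
      = (φ (φ a2) / φ (φ (φ (φ a2))) * (φ a1 ^ q * φ (φ (φ a1))) ^ (q - 1)) ^ m := by
  have hcc : ∀ g : L, φ (φ (E g)) = E (φ (φ g)) := fun g => by rw [hc, hc]
  have hEE : ∀ g : L, E (E (φ (φ g))) = g ^ (q ^ 2) := fun g => by
    rw [hE, map_pow, hE, ← pow_mul, pow_two]
  have hne : ∀ g : L, g ≠ 0 → φ g ≠ 0 := fun g hg => (map_ne_zero _).mpr hg
  have hneE : ∀ g : L, g ≠ 0 → E g ≠ 0 := fun g hg => (map_ne_zero _).mpr hg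
  -- apply `φ²` to `h2`
  have hB : r2 ^ (q ^ 2) * ((E a1 ^ m * E r1) ^ (q - 1) * (φ a1 ^ m * φ r1) ^ (q - 1))
      = φ (φ a2) ^ m * φ (φ r2) := by
    have h := congrArg (fun x => φ (φ x)) h2
    simp only [map_mul, map_pow] at h
    rw [hcc (E r2), hcc r2, hEE, hcc r1, h1] at h
    simp only [map_mul, map_pow] at h
    rw [← h]
    ring
  -- apply `φ²` once more
  have hD : φ (φ r2) ^ (q ^ 2) * (((φ a1 ^ q * φ (φ (φ a1))) ^ (q - 1)) ^ m *
      ((E a1 ^ m * E r1) ^ (q - 1) * (φ a1 ^ m * φ r1) ^ (q - 1)))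
      = φ (φ (φ (φ a2))) ^ m * φ (φ (φ (φ r2))) := by
    have h := congrArg (fun x => φ (φ x)) hB
    simp only [map_mul, map_pow] at h
    rw [hcc, hcc, h1] at h
    simp only [map_mul, map_pow] at h
    have e : E (φ (φ a1)) = φ a1 ^ q := hE (φ a1)
    rw [e] at h
    rw [← h]
    ring
  have hu0 : (E a1 ^ m * E r1) ^ (q - 1) * (φ a1 ^ m * φ r1) ^ (q - 1) ≠ 0 :=
    mul_ne_zero (pow_ne_zero _ (mul_ne_zero (pow_ne_zero _ (hneE _ ha1)) (hneE _ hr1)))
      (pow_ne_zero _ (mul_ne_zero (pow_ne_zero _ (hne _ ha1)) (hne _ hr1)))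
  rw [map_div₀, map_div₀, map_pow, map_pow]
  exact alg_fin m (q ^ 2) (q - 1) (hne _ (hne _ hr2)) hr2 (hne _ (hne _ (hne _ (hne _ ha2)))) hu0
    hB hD

end Alg

/-! ### `GRel` on `F_K` -/

section Basic

variable {A : ValuationSubring Qb} {N : ℕ} {K : IntermediateField ℚ Qb}

theorem gRel_mul_FK {x x' : FK N K} {y y' : LaurentSeries (IsLocalRing.ResidueField A)}
    (h : GRel A ((x : FK N K) : LaurentSeries Qb) y)
    (h' : GRel A ((x' : FK N K) : LaurentSeries Qb) y') :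
    GRel A ((x * x' : FK N K) : LaurentSeries Qb) (y * y') := by
  rw [Subfield.coe_mul]
  exact (V12Rel.gFacts A).mul _ _ _ _ h h'

theorem gRel_inv_FK {x : FK N K} {y : LaurentSeries (IsLocalRing.ResidueField A)}
    (h : GRel A ((x : FK N K) : LaurentSeries Qb) y) (hy : y ≠ 0) :
    GRel A ((x⁻¹ : FK N K) : LaurentSeries Qb) y⁻¹ := by
  rw [Subfield.coe_inv]
  exact (V12Rel.gFacts A).inv _ _ h hy

theorem gRel_div_FK {x x' : FK N K} {y y' : LaurentSeries (IsLocalRing.ResidueField A)}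
    (h : GRel A ((x : FK N K) : LaurentSeries Qb) y)
    (h' : GRel A ((x' : FK N K) : LaurentSeries Qb) y') (hy' : y' ≠ 0) :
    GRel A ((x / x' : FK N K) : LaurentSeries Qb) (y / y') := by
  rw [div_eq_mul_inv, div_eq_mul_inv]
  exact gRel_mul_FK h (gRel_inv_FK h' hy')

theorem gRel_pow_FK {x : FK N K} {y : LaurentSeries (IsLocalRing.ResidueField A)}
    (h : GRel A ((x : FK N K) : LaurentSeries Qb) y) (n : ℕ) :
    GRel A ((x ^ n : FK N K) : LaurentSeries Qb) (y ^ n) := by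
  rw [SubmonoidClass.coe_pow]
  exact V12Rel.gRel_pow A h n

variable {q : ℕ} [Fact q.Prime] [CharP (IsLocalRing.ResidueField A) q]

theorem gRel_frob_FK {σs : GQ} (hσ : A.IsFrobeniusAt σs q) (hKσ : Stable K σs) {x : FK N K}
    {y : LaurentSeries (IsLocalRing.ResidueField A)}
    (h : GRel A ((x : FK N K) : LaurentSeries Qb) y) :
    GRel A ((tauE N hKσ x : FK N K) : LaurentSeries Qb)
      (coeffMap (frobenius (IsLocalRing.ResidueField A) q) y) := by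
  rw [coe_tauE]
  exact FrobAct.gRel_coeffMap_frob A hσ h

theorem gRel_frob_sq_FK {σs : GQ} (hσ : A.IsFrobeniusAt σs q) (hK : Stable K (σs * σs))
    {x : FK N K} {y : LaurentSeries (IsLocalRing.ResidueField A)}
    (h : GRel A ((x : FK N K) : LaurentSeries Qb) y) :
    GRel A ((tauE N hK x : FK N K) : LaurentSeries Qb)
      (coeffMap (frobenius (IsLocalRing.ResidueField A) q)
        (coeffMap (frobenius (IsLocalRing.ResidueField A) q) y)) := by
  rw [coe_tauE, coeffMap_coeffMap]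
  exact FrobAct.gRel_coeffMap_frob_sq A hσ h

end Basic

/-! ### The corrector -/

section Main

variable (M q : ℕ) [NeZero M] [NeZero q] (hq : q.Prime) (hqM : ¬ q ∣ M)
variable {A : ValuationSubring Qb} {K : IntermediateField ℚ Qb}

set_option maxHeartbeats 1600000 in
/-- **[GNormU]** at the level of Gauss reductions. -/
theorem exists_H_gRel (hB : BaseFacts q A K) (hA : A.LiesOverPrime q) {σs : GQ}
    (hσ : A.IsFrobeniusAt σs q) (hKσ : Stable K σs) (hK : Stable K (σs * σs))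
    (m : ℕ) (f0 g : FK (M * q) K) (hf0 : f0 ≠ 0) (hg : g ≠ 0)
    (f₁ f₂ : modularFunctionFieldBar (M * q))
    (hU1 : IsU q ((f0 : FK (M * q) K) : LaurentSeries Qb) (f₁ : LaurentSeries Qb))
    (hU2 : IsU q (f₁ : LaurentSeries Qb) (f₂ : LaurentSeries Qb))
    (h2 : (f₂ : LaurentSeries Qb) =
      ((g : FK (M * q) K) : LaurentSeries Qb) ^ m * ((f0 : FK (M * q) K) : LaurentSeries Qb)) :
    ∃ H : FK (M * q) K,
      (∃ y₁ : LaurentSeries (IsLocalRing.ResidueField A), y₁ ≠ 0 ∧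
        GRel A ((H : FK (M * q) K) : LaurentSeries Qb) y₁) ∧
      (∃ y₂ : LaurentSeries (IsLocalRing.ResidueField A), y₂ ≠ 0 ∧
        GRel A ((WK.wK M q hq hqM K H : FK (M * q) K) : LaurentSeries Qb) y₂) ∧
      GRel A ((LocPlan.secondDiff (tauE (M * q) hK) (tauE (M * q) hK)
          (tauE (M * q) hK f0 / f0 ^ (q ^ 2)) * H ^ m : FK (M * q) K) : LaurentSeries Qb) 1 ∧
      GRel A ((WK.wK M q hq hqM K (LocPlan.secondDiff (tauE (M * q) hK) (tauE (M * q) hK)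
          (tauE (M * q) hK f0 / f0 ^ (q ^ 2)) * H ^ m) : FK (M * q) K) : LaurentSeries Qb) 1 := by
  classical
  have hG := V12Rel.gFacts A
  haveI : Fact q.Prime := ⟨hq⟩
  haveI : CharP (IsLocalRing.ResidueField A) q := BaseRes.charP_residueField q A hA
  have hdvr := hB.dvr
  have hσd := hσ.mem_decompositionSubgroup
  have hτd : σs * σs ∈ A.decompositionSubgroup ℚ := mul_mem hσd hσd
  set S := tauE (M * q) hK with hSdef
  set s := tauE (M * q) hKσ with hsdef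
  set w := WK.wK M q hq hqM K with hwdef
  set φ : LaurentSeries (IsLocalRing.ResidueField A) →+* LaurentSeries (IsLocalRing.ResidueField A)
    := coeffMap (frobenius (IsLocalRing.ResidueField A) q) with hφdef
  set E : LaurentSeries (IsLocalRing.ResidueField A) →+* LaurentSeries (IsLocalRing.ResidueField A)
    := qExpand (IsLocalRing.ResidueField A) q with hEdef
  have hφ0 : ∀ y : LaurentSeries (IsLocalRing.ResidueField A), y ≠ 0 → φ y ≠ 0 :=
    fun y hy => (map_ne_zero_iff _ (RingHom.injective _)).mpr hy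
  have hEφ : ∀ y : LaurentSeries (IsLocalRing.ResidueField A), E (φ y) = y ^ q := fun y =>
    (Fermat.Agent.S37.KC.pow_char_eq_qExpand_frobenius q y).symm
  have hφE : ∀ y : LaurentSeries (IsLocalRing.ResidueField A), φ (E y) = E (φ y) := fun y =>
    ModularCurve.coeffMap_qExpand (frobenius (IsLocalRing.ResidueField A) q) q y
  -- transport of reductions by `S`, `s`, `w`
  have hS : ∀ {x : FK (M * q) K} {y : LaurentSeries (IsLocalRing.ResidueField A)},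
      GRel A ((x : FK (M * q) K) : LaurentSeries Qb) y →
      GRel A ((S x : FK (M * q) K) : LaurentSeries Qb) (φ (φ y)) :=
    fun h => gRel_frob_sq_FK hσ hK h
  have hs : ∀ {x : FK (M * q) K} {y : LaurentSeries (IsLocalRing.ResidueField A)},
      GRel A ((x : FK (M * q) K) : LaurentSeries Qb) y →
      GRel A ((s x : FK (M * q) K) : LaurentSeries Qb) (φ y) :=
    fun h => gRel_frob_FK hσ hKσ h
  have hwS : ∀ x : FK (M * q) K, w (S x) = S (w x) := WKInst.wK_tauE M q hq hqM hK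
  have hww : ∀ x : FK (M * q) K, w (w x) = x := WK.wK_wK M q hq hqM K
  -- the first differences and their reductions
  set G1 : FK (M * q) K := S f0 / f0 with hG1
  set g1 : FK (M * q) K := S g / g with hg1
  have hwf0 : w f0 ≠ 0 := (map_ne_zero w).mpr hf0
  have hwg : w g ≠ 0 := (map_ne_zero w).mpr hg
  obtain ⟨r1, hr1, R11⟩ := GNorm.exists_gRel_tauE_div hdvr hτd hK f0 hf0
  obtain ⟨r2, hr2, R12'⟩ := GNorm.exists_gRel_tauE_div hdvr hτd hK (w f0) hwf0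
  obtain ⟨a1, ha1, A11⟩ := GNorm.exists_gRel_tauE_div hdvr hτd hK g hg
  obtain ⟨a2, ha2, A12'⟩ := GNorm.exists_gRel_tauE_div hdvr hτd hK (w g) hwg
  have ewG1 : w G1 = S (w f0) / w f0 := by rw [hG1, map_div₀, hwS]
  have ewg1 : w g1 = S (w g) / w g := by rw [hg1, map_div₀, hwS]
  have R12 : GRel A ((w G1 : FK (M * q) K) : LaurentSeries Qb) r2 := by rw [ewG1]; exact R12'
  have A12 : GRel A ((w g1 : FK (M * q) K) : LaurentSeries Qb) a2 := by rw [ewg1]; exact A12'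
  -- the `𝒰`-relations for the first differences, in `F̄`
  set τ : GQ := σs * σs with hτdef
  set f0b : modularFunctionFieldBar (M * q) := Glob.toBar (M * q) K f0 with hf0b
  set x1 : modularFunctionFieldBar (M * q) := (UPlan.gal (M * q) τ • f₁) / f₁ with hx1
  set x2 : modularFunctionFieldBar (M * q) := (UPlan.gal (M * q) τ • f₂) / f₂ with hx2
  have cgal : ∀ z : modularFunctionFieldBar (M * q),
      ((UPlan.gal (M * q) τ • z : modularFunctionFieldBar (M * q)) : LaurentSeries Qb)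
        = coeffMap (τ : Qb →+* Qb) (z : LaurentSeries Qb) := fun z =>
    coe_arithmeticGalois_smul (F₀ := modularFunctionFieldFull (M * q)) τ z
  have cG1 : ((Glob.toBar (M * q) K G1 : modularFunctionFieldBar (M * q)) : LaurentSeries Qb)
      = coeffMap (τ : Qb →+* Qb) ((f0 : FK (M * q) K) : LaurentSeries Qb)
        / ((f0 : FK (M * q) K) : LaurentSeries Qb) := by
    rw [Glob.coe_toBar, hG1, Subfield.coe_div]
    rfl
  have cx1 : (x1 : LaurentSeries Qb) = coeffMap (τ : Qb →+* Qb) (f₁ : LaurentSeries Qb)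
      / (f₁ : LaurentSeries Qb) := by
    rw [hx1, IntermediateField.coe_div, cgal]
  have cx2 : (x2 : LaurentSeries Qb) = coeffMap (τ : Qb →+* Qb) (f₂ : LaurentSeries Qb)
      / (f₂ : LaurentSeries Qb) := by
    rw [hx2, IntermediateField.coe_div, cgal]
  have hUa : IsU q ((Glob.toBar (M * q) K G1 : modularFunctionFieldBar (M * q)) : LaurentSeries Qb)
      (x1 : LaurentSeries Qb) := by
    rw [cG1, cx1]
    exact URed.isU_div (URed.isU_coeffMap τ hU1) hU1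
  have hUb : IsU q (x1 : LaurentSeries Qb) (x2 : LaurentSeries Qb) := by
    rw [cx1, cx2]
    exact URed.isU_div (URed.isU_coeffMap τ hU2) hU2
  -- reductions of `x1`, `x2` through `𝒰`
  have P1 : GRel A (x1 : LaurentSeries Qb) (φ r1) := URed.gRel_isU_one q hA hUa R11
  have P2 : GRel A ((WK.wBar M q hq hqM x1 : modularFunctionFieldBar (M * q)) : LaurentSeries Qb)
      (E r2 * r1 ^ (q - 1)) := URed.gRel_isU_two M q hq hqM hA hUa R11 R12 hr1
  have P3 : GRel A (x2 : LaurentSeries Qb) (φ (φ r1)) := URed.gRel_isU_one q hA hUb P1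
  have P4 : GRel A ((WK.wBar M q hq hqM x2 : modularFunctionFieldBar (M * q)) : LaurentSeries Qb)
      (E (E r2 * r1 ^ (q - 1)) * φ r1 ^ (q - 1)) :=
    URed.gRel_isU_two M q hq hqM hA hUb P1 P2 (hφ0 _ hr1)
  -- `x2 = g1 ^ m * G1`
  have ex2 : x2 = Glob.toBar (M * q) K (g1 ^ m * G1) := by
    apply Subtype.ext
    rw [cx2, Glob.coe_toBar, h2, hg1, hG1]
    simp only [map_mul, map_pow, Subfield.coe_mul, Subfield.coe_div, SubmonoidClass.coe_pow,
      coe_tauE, hSdef]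
    rw [div_pow, div_mul_div_comm]
  have Q3 : GRel A (x2 : LaurentSeries Qb) (a1 ^ m * r1) := by
    rw [ex2]
    exact gRel_mul_FK (gRel_pow_FK A11 m) R11
  have Q4 : GRel A ((WK.wBar M q hq hqM x2 : modularFunctionFieldBar (M * q)) : LaurentSeries Qb)
      (a2 ^ m * r2) := by
    rw [ex2]
    have h5 : GRel A ((w (g1 ^ m * G1) : FK (M * q) K) : LaurentSeries Qb) (a2 ^ m * r2) := by
      rw [map_mul, map_pow]
      exact gRel_mul_FK (gRel_pow_FK A12 m) R12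
    exact h5
  have hI : φ (φ r1) = a1 ^ m * r1 := hG.unique _ _ _ P3 Q3
  have hII : E (E r2 * r1 ^ (q - 1)) * φ r1 ^ (q - 1) = a2 ^ m * r2 := hG.unique _ _ _ P4 Q4
  -- the reductions of `T = S G1 / G1 ^ (q²)` and of the second difference
  set c1 : LaurentSeries (IsLocalRing.ResidueField A) := φ (φ a1) / a1 ^ (q ^ 2) with hc1
  set c2 : LaurentSeries (IsLocalRing.ResidueField A) :=
    φ (φ a2) / φ (φ (φ (φ a2))) * (φ a1 ^ q * φ (φ (φ a1))) ^ (q - 1) with hc2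
  have hc10 : c1 ≠ 0 := div_ne_zero (hφ0 _ (hφ0 _ ha1)) (pow_ne_zero _ ha1)
  have hc20 : c2 ≠ 0 := mul_ne_zero (div_ne_zero (hφ0 _ (hφ0 _ ha2))
    (hφ0 _ (hφ0 _ (hφ0 _ (hφ0 _ ha2)))))
    (pow_ne_zero _ (mul_ne_zero (pow_ne_zero _ (hφ0 _ ha1)) (hφ0 _ (hφ0 _ (hφ0 _ ha1)))))
  set T : FK (M * q) K := S G1 / G1 ^ (q ^ 2) with hT
  have hG10 : G1 ≠ 0 := div_ne_zero ((map_ne_zero S).mpr hf0) hf0
  have hT0 : T ≠ 0 := div_ne_zero ((map_ne_zero S).mpr hG10) (pow_ne_zero _ hG10)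
  have T1 : GRel A ((T : FK (M * q) K) : LaurentSeries Qb) (φ (φ r1) / r1 ^ (q ^ 2)) :=
    gRel_div_FK (hS R11) (gRel_pow_FK R11 _) (pow_ne_zero _ hr1)
  have ewT : w T = S (w G1) / w G1 ^ (q ^ 2) := by rw [hT, map_div₀, map_pow, hwS]
  have T2 : GRel A ((w T : FK (M * q) K) : LaurentSeries Qb) (φ (φ r2) / r2 ^ (q ^ 2)) := by
    rw [ewT]
    exact gRel_div_FK (hS R12) (gRel_pow_FK R12 _) (pow_ne_zero _ hr2)
  have ht10 : φ (φ r1) / r1 ^ (q ^ 2) ≠ 0 :=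
    div_ne_zero (hφ0 _ (hφ0 _ hr1)) (pow_ne_zero _ hr1)
  have ht20 : φ (φ r2) / r2 ^ (q ^ 2) ≠ 0 :=
    div_ne_zero (hφ0 _ (hφ0 _ hr2)) (pow_ne_zero _ hr2)
  have D1 : GRel A ((S T / T : FK (M * q) K) : LaurentSeries Qb) (c1 ^ m) := by
    have h5 := gRel_div_FK (hS T1) T1 ht10
    rwa [alg_one φ q m hr1 ha1 hI] at h5
  have ewD : w (S T / T) = S (w T) / w T := by rw [map_div₀, hwS]
  have D2 : GRel A ((w (S T / T) : FK (M * q) K) : LaurentSeries Qb) (c2 ^ m) := by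
    rw [ewD]
    have h5 := gRel_div_FK (hS T2) T2 ht20
    rwa [alg_two φ E q m hEφ hφE hr1 hr2 ha1 ha2 hI hII] at h5
  -- the second difference of `f̃ = S f0 / f0 ^ (q²)` is `S T / T`
  have hSf0 : S f0 ≠ 0 := (map_ne_zero S).mpr hf0
  have hSSf0 : S (S f0) ≠ 0 := (map_ne_zero S).mpr hSf0
  have hsd : LocPlan.secondDiff S S (S f0 / f0 ^ (q ^ 2)) = S T / T := by
    rw [LocPlan.secondDiff, hT, hG1]
    simp only [map_div₀, map_pow, div_pow]
    have hSSSf0 : S (S (S f0)) ≠ 0 := (map_ne_zero S).mpr hSSf0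
    field_simp
  -- the two explicit elements for weak approximation
  have X1 : GRel A (((S g1 / g1 ^ (q ^ 2))⁻¹ : FK (M * q) K) : LaurentSeries Qb) c1⁻¹ :=
    gRel_inv_FK (gRel_div_FK (hS A11) (gRel_pow_FK A11 _) (pow_ne_zero _ ha1)) hc10
  have Y2 : GRel A (((S (w g1) / S (S (w g1)) * (s g1 ^ q * s (s (s g1))) ^ (q - 1))⁻¹ :
      FK (M * q) K) : LaurentSeries Qb) c2⁻¹ := by
    refine gRel_inv_FK ?_ hc20
    exact gRel_mul_FK (gRel_div_FK (hS A12) (hS (hS A12)) (hφ0 _ (hφ0 _ (hφ0 _ (hφ0 _ ha2)))))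
      (gRel_pow_FK (gRel_mul_FK (gRel_pow_FK (hs A11) q) (hs (hs (hs A11)))) _)
  have X2 : GRel A ((w (w (S (w g1) / S (S (w g1)) * (s g1 ^ q * s (s (s g1))) ^ (q - 1))⁻¹) :
      FK (M * q) K) : LaurentSeries Qb) c2⁻¹ := by
    rw [hww]
    exact Y2
  obtain ⟨H, RH1, RH2⟩ := ApproxK.approx M q hq hqM hdvr hA _ _ _ _ X1 X2
  refine ⟨H, ⟨c1⁻¹, inv_ne_zero hc10, RH1⟩, ⟨c2⁻¹, inv_ne_zero hc20, RH2⟩, ?_, ?_⟩
  · rw [hsd]
    have h5 := gRel_mul_FK D1 (gRel_pow_FK RH1 m)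
    rwa [← mul_pow, mul_inv_cancel₀ hc10, one_pow] at h5
  · rw [hsd]
    have h5 : GRel A ((w (S T / T * H ^ m) : FK (M * q) K) : LaurentSeries Qb)
        (c2 ^ m * c2⁻¹ ^ m) := by
      rw [map_mul, map_pow]
      exact gRel_mul_FK D2 (gRel_pow_FK RH2 m)
    rwa [← mul_pow, mul_inv_cancel₀ hc20, one_pow] at h5

/-- **[GNormU]**, in the vocabulary of `ModelFPlan.ModelF` (`H_unit`, `H_cong`). -/
theorem exists_H (hB : BaseFacts q A K) (hA : A.LiesOverPrime q) {π : OK A K}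
    (hπ : Irreducible π) {σs : GQ}
    (hσ : A.IsFrobeniusAt σs q) (hKσ : Stable K σs) (hK : Stable K (σs * σs))
    (m : ℕ) (f0 g : FK (M * q) K) (hf0 : f0 ≠ 0) (hg : g ≠ 0)
    (f₁ f₂ : modularFunctionFieldBar (M * q))
    (hU1 : IsU q ((f0 : FK (M * q) K) : LaurentSeries Qb) (f₁ : LaurentSeries Qb))
    (hU2 : IsU q (f₁ : LaurentSeries Qb) (f₂ : LaurentSeries Qb))
    (h2 : (f₂ : LaurentSeries Qb) =
      ((g : FK (M * q) K) : LaurentSeries Qb) ^ m * ((f0 : FK (M * q) K) : LaurentSeries Qb)) :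
    ∃ H : FK (M * q) K,
      (∀ i : Fin 2, H ∈ ChartHypInst.Vfam (WK.wK M q hq hqM K) hB.dvr i ∧
        H⁻¹ ∈ ChartHypInst.Vfam (WK.wK M q hq hqM K) hB.dvr i) ∧
      ∀ i : Fin 2, ∃ z ∈ ChartHypInst.Vfam (WK.wK M q hq hqM K) hB.dvr i,
        LocPlan.secondDiff (tauE (M * q) hK) (tauE (M * q) hK)
          (tauE (M * q) hK f0 / f0 ^ (q ^ 2)) * H ^ m - 1 =
          algebraMap (OK A K) (FK (M * q) K) π * z := by
  have hG := V12Rel.gFacts A
  have hdvr := hB.dvr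
  obtain ⟨H, ⟨y₁, hy₁, R1⟩, ⟨y₂, hy₂, R2⟩, RG1, RG2⟩ :=
    exists_H_gRel M q hq hqM hB hA hσ hKσ hK m f0 g hf0 hg f₁ f₂ hU1 hU2 h2
  refine ⟨H, Fin.forall_fin_two.mpr ⟨⟨?_, ?_⟩, ⟨?_, ?_⟩⟩, Fin.forall_fin_two.mpr ⟨?_, ?_⟩⟩
  · exact (GaussV.mem_V1_iff hdvr).mpr ⟨y₁, R1⟩
  · refine (GaussV.mem_V1_iff hdvr).mpr ⟨y₁⁻¹, ?_⟩
    rw [Subfield.coe_inv]
    exact hG.inv _ _ R1 hy₁
  · exact (GaussV.mem_V2_iff (WK.wK M q hq hqM K) hdvr).mpr
      ((GaussV.mem_V1_iff hdvr).mpr ⟨y₂, R2⟩)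
  · refine (GaussV.mem_V2_iff (WK.wK M q hq hqM K) hdvr).mpr
      ((GaussV.mem_V1_iff hdvr).mpr ⟨y₂⁻¹, ?_⟩)
    rw [map_inv₀, Subfield.coe_inv]
    exact hG.inv _ _ R2 hy₂
  · have hsub : LocPlan.secondDiff (tauE (M * q) hK) (tauE (M * q) hK)
        (tauE (M * q) hK f0 / f0 ^ (q ^ 2)) * H ^ m - 1 ∈ GaussV.V1 (M * q) A K hdvr := by
      refine (GaussV.mem_V1_iff hdvr).mpr ⟨1 - 1, ?_⟩
      rw [Subfield.coe_sub]
      exact V12Rel.gRel_sub A RG1 (ModelRed.gRel_one hG)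
    have hred : GaussV.red1 hdvr ⟨_, hsub⟩ = 0 := by
      apply GaussV.red1_eq_of_gRel
      show GRel A ((LocPlan.secondDiff (tauE (M * q) hK) (tauE (M * q) hK)
        (tauE (M * q) hK f0 / f0 ^ (q ^ 2)) * H ^ m - 1 : FK (M * q) K) : LaurentSeries Qb) 0
      rw [Subfield.coe_sub]
      have h5 := V12Rel.gRel_sub A RG1 (ModelRed.gRel_one hG)
      rwa [sub_self] at h5
    obtain ⟨z, hz, hzeq⟩ := (GaussV.red1_eq_zero_iff hdvr hπ ⟨_, hsub⟩).mp hred
    exact ⟨z, hz, hzeq⟩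
  · have hw1 : GRel A ((WK.wK M q hq hqM K
        (LocPlan.secondDiff (tauE (M * q) hK) (tauE (M * q) hK)
          (tauE (M * q) hK f0 / f0 ^ (q ^ 2)) * H ^ m - 1) :
          FK (M * q) K) : LaurentSeries Qb) 0 := by
      rw [map_sub, map_one, Subfield.coe_sub]
      have h5 := V12Rel.gRel_sub A RG2 (ModelRed.gRel_one hG)
      rwa [sub_self] at h5
    have hsub : LocPlan.secondDiff (tauE (M * q) hK) (tauE (M * q) hK)
        (tauE (M * q) hK f0 / f0 ^ (q ^ 2)) * H ^ m - 1 ∈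
        GaussV.V2 (WK.wK M q hq hqM K) hdvr :=
      (GaussV.mem_V2_iff (WK.wK M q hq hqM K) hdvr).mpr ((GaussV.mem_V1_iff hdvr).mpr ⟨0, hw1⟩)
    have hred : GaussV.red2 (WK.wK M q hq hqM K) hdvr ⟨_, hsub⟩ = 0 := by
      rw [GaussV.red2_apply]
      exact GaussV.red1_eq_of_gRel hdvr _ hw1
    obtain ⟨z, hz, hzeq⟩ := (GaussV.red2_eq_zero_iff (WK.wK M q hq hqM K)
      (WK.wK_algebraMap_OK M q hq hqM K A) hdvr hπ ⟨_, hsub⟩).mp hred
    exact ⟨z, hz, hzeq⟩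

/-- **[GNormU], in the shape consumed by the assembly**: the corrector statement for the
condition `CondU` of the `[U]`-route. -/
theorem corrU (m : ℕ) : ModelFAsm.CorrStatement M q hq hqM m (CondU M q m) := by
  classical
  intro A hA σs hσ ft _ _ hC
  obtain ⟨f0, hf0, ⟨f₁, f₂, g, hg, hU1, hU2, h2⟩, hft⟩ := hC
  obtain ⟨S₁, hS₁⟩ := (DescCoeff.descStatement (M * q)).1 (f0 : LaurentSeries Qb) f0.2
  obtain ⟨S₂, hS₂⟩ := (DescCoeff.descStatement (M * q)).1 (g : LaurentSeries Qb) g.2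
  refine ⟨S₁ ∪ S₂, fun K hSK hB hst hK π hπ fK hfK => ?_⟩
  have hSK₁ : ↑S₁ ⊆ (K : Set Qb) := fun x hx => hSK (Finset.mem_coe.mpr
    (Finset.mem_union_left _ (Finset.mem_coe.mp hx)))
  have hSK₂ : ↑S₂ ⊆ (K : Set Qb) := fun x hx => hSK (Finset.mem_coe.mpr
    (Finset.mem_union_right _ (Finset.mem_coe.mp hx)))
  have hf0K : (f0 : LaurentSeries Qb) ∈ FK (M * q) K := hS₁ K hSK₁
  have hgK : (g : LaurentSeries Qb) ∈ FK (M * q) K := hS₂ K hSK₂
  have hf0K0 : (⟨(f0 : LaurentSeries Qb), hf0K⟩ : FK (M * q) K) ≠ 0 := by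
    intro h0
    have h1 : (f0 : LaurentSeries Qb) = 0 := congrArg Subtype.val h0
    exact hf0 (Subtype.ext h1)
  have hgK0 : (⟨(g : LaurentSeries Qb), hgK⟩ : FK (M * q) K) ≠ 0 := by
    intro h0
    have h1 : (g : LaurentSeries Qb) = 0 := congrArg Subtype.val h0
    exact hg (Subtype.ext h1)
  have efK : fK = tauE (M * q) hK ⟨(f0 : LaurentSeries Qb), hf0K⟩ /
      (⟨(f0 : LaurentSeries Qb), hf0K⟩ : FK (M * q) K) ^ (q ^ 2) := by
    apply Subtype.ext
    have h1 : ((fK : FK (M * q) K) : LaurentSeries Qb) = (ft : LaurentSeries Qb) := by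
      rw [← hfK]
      rfl
    rw [h1, hft, IntermediateField.coe_div, Subfield.coe_div, SubmonoidClass.coe_pow,
      SubmonoidClass.coe_pow, coe_tauE]
    congr 1
  rw [efK]
  exact exists_H M q hq hqM hB hA hπ hσ (BaseF.tauStable_of_stable hst σs) hK m
    ⟨(f0 : LaurentSeries Qb), hf0K⟩ ⟨(g : LaurentSeries Qb), hgK⟩ hf0K0 hgK0 f₁ f₂ hU1 hU2
    (by rw [h2]; rfl)

include hq hqM in
/-- **[ModelFU]**: the Frobenius model for `f̃ = τ f / f ^ (q²)`, `f` satisfying the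
`U`-condition — no hypothesis left. -/
theorem modelFU [NeZero (M * q)] (m : ℕ) (hqm : ¬ q ∣ m) :
    FCorePlanG.ModelFStatementOf M q m (CondU M q m) :=
  ModelFTop.modelFStatementOf M q hq hqM m (CondU M q m) hqm (corrU M q hq hqM m)

end Main

end Fermat.Agent.S35.UNorm
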