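/-
S35, [U]-route — UNormC.lean (helper48).  Row [GNormU], B-copy (dealt by helper93; A = helper93,
`S35/UNorm.lean`): the corrector `H` of `ModelFPlan.ModelF` for the functions
`f̃ = τ f / f ^ (q²)` (`τ = σs²`, `σs` a Frobenius lift at `A | q`), `f` satisfying the
`U`-condition `𝒰 𝒰 f = g ^ m · f` (`URoutePlan.UCond`).

  `corrU : ModelFAsm.CorrStatement M q hq hqM m (URoutePlan.CondU M q m)`

CLOSED (no hypothesis): the two reduction formulas of `𝒰` are `URed.gRel_isU_one`,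
`URed.gRel_isU_two` (helper67, on main).

Proof.  `D x = Σ x / x`, `E x = Σ x / x ^ (q²)` (`Σ` = the action of `τ` on `F_K`);
`secondDiff Σ Σ f̃ = E (D² f)`.  With `r₁, r₂` the two reductions of `G₁ = D f` and `a₁, a₂` those
of `g₁ = D g`, the relation `𝒰 𝒰 G₁ = g₁ ^ m · G₁` and the formulas `ρ₁(𝒰 z) = φ(ρ₁ z)`,
`ρ₂(𝒰 z) = F(ρ₂ z) · ρ₁(z)^(q-1)` give `φ² r₁ = a₁^m r₁` and
`F² r₂ · (F r₁ · φ r₁)^(q-1) = a₂^m r₂`; hence (`alg_key`) both reductions of `E (D² f)` are exact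
`m`-th powers of reductions of explicit functions (`Σ`- and `σs`-translates of `g₁`, `w g₁`), and
weak approximation (`ApproxK.approx`) gives the corrector.  No root of a constant is needed.
-/
import Mathlib
import Fermat.Agent.S35.GNorm
import Fermat.Agent.S35.CorrAdapt
import Fermat.Agent.S35.URoutePlan
import Fermat.Agent.S35.URed

set_option autoImplicit false

noncomputable section

namespace Fermat.Agent.S35.UNormC

open ModularCurve AlgebraicCurve HahnSeries Fermat.Agent.S18 Fermat.Agent.S18.Arith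
open Fermat.Agent.S34 Fermat.Agent.S34.TauAct
open Fermat.Agent.S35.URoutePlan (IsU)
open Fermat.Agent.S24 (rotHom)

/-! ### The algebra of the two `U`-relations -/

theorem aux_ratio {κ : Type*} [Field κ] {t4 t2 t2Q r2Q X Y c2m c4m : κ}
    (_ht2 : t2 ≠ 0) (hc2 : c2m ≠ 0) (hc4 : c4m ≠ 0) (hX : X ≠ 0) (hr : r2Q ≠ 0) (htQ : t2Q ≠ 0)
    (e3 : r2Q * X = c2m * t2) (e4 : t2Q * Y = c4m * t4) :
    t4 / t2 / (t2Q / r2Q) = (Y / X) * (c2m / c4m) := by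
  have h4 : t4 = t2Q * Y / c4m := by
    rw [eq_div_iff hc4]
    linear_combination -e4
  have h2 : t2 = r2Q * X / c2m := by
    rw [eq_div_iff hc2]
    linear_combination -e3
  rw [h4, h2]
  field_simp

theorem aux_base {κ : Type*} [Field κ] {u1 u3 u5 b1 b3 : κ} (q m : ℕ)
    (hu1 : u1 ≠ 0) (hb1 : b1 ≠ 0) (e1 : u3 = b1 ^ m * u1) (e2 : u5 = b3 ^ m * u3) :
    (u3 ^ q * u5) / (u1 ^ q * u3) = (b1 ^ q * b3) ^ m := by
  have hu3 : u3 ≠ 0 := by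
    rw [e1]
    exact mul_ne_zero (pow_ne_zero _ hb1) hu1
  rw [e2, e1]
  have h1 : (b1 ^ m * u1) ^ q * (b3 ^ m * (b1 ^ m * u1)) =
      (b1 ^ q * b3) ^ m * (u1 ^ q * (b1 ^ m * u1)) := by ring
  rw [h1, mul_div_assoc, div_self, mul_one]
  exact mul_ne_zero (pow_ne_zero _ hu1) (mul_ne_zero (pow_ne_zero _ hb1) hu1)

/-- **The algebra of the `U`-route.**  `φ` = coefficientwise Frobenius, `F` = `Q ↦ Q^q`
(`F ∘ φ = (·)^q`, `φ ∘ F = F ∘ φ`).  From `φ² r₁ = a₁^m r₁` and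
`F² r₂ · (F r₁ · φ r₁)^n = a₂^m r₂`, the element `s = φ² r₂ / r₂` satisfies
`φ² s / s^(q²) = (explicit)^m`. -/
theorem alg_key {κ : Type*} [Field κ] (φ F : κ →+* κ) (q n Q m : ℕ) (hQ : Q = q * q)
    (hFφ : ∀ y, F (φ y) = y ^ q) (hφF : ∀ y, φ (F y) = F (φ y))
    {r1 r2 a1 a2 : κ} (hr1 : r1 ≠ 0) (hr2 : r2 ≠ 0) (ha1 : a1 ≠ 0) (ha2 : a2 ≠ 0)
    (h1 : φ (φ r1) = a1 ^ m * r1)
    (h2 : F (F r2) * (F r1 * φ r1) ^ n = a2 ^ m * r2) :
    φ (φ (φ (φ r2) / r2)) / (φ (φ r2) / r2) ^ Q =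
      (((φ a1) ^ q * φ (φ (φ a1))) ^ n * (φ (φ a2) / φ (φ (φ (φ a2))))) ^ m := by
  have hφ0 : ∀ {y : κ}, y ≠ 0 → φ y ≠ 0 := fun hy => (map_ne_zero φ).mpr hy
  -- the relations
  have e1 : φ (φ (φ r1)) = (φ a1) ^ m * φ r1 := by
    have h := congrArg (fun y => φ y) h1
    simp only [map_mul, map_pow] at h
    exact h
  have e2 : φ (φ (φ (φ (φ r1)))) = (φ (φ (φ a1))) ^ m * φ (φ (φ r1)) := by
    have h := congrArg (fun y => φ (φ (φ y))) h1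
    simp only [map_mul, map_pow] at h
    exact h
  have hFF : φ (φ (F (F r2))) = r2 ^ Q := by
    rw [hφF (F r2), hφF r2, hφF (F (φ r2)), hφF (φ r2), hFφ (φ r2), map_pow, hFφ r2, ← pow_mul, hQ]
  have hF1 : φ (φ (F r1)) = (φ r1) ^ q := by
    rw [hφF r1, hFφ r1, map_pow]
  have e3 : r2 ^ Q * ((φ r1) ^ q * φ (φ (φ r1))) ^ n = (φ (φ a2)) ^ m * φ (φ r2) := by
    have h := congrArg (fun y => φ (φ y)) h2
    simp only [map_mul, map_pow] at h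
    rw [hFF, hF1] at h
    exact h
  have e4 : (φ (φ r2)) ^ Q * ((φ (φ (φ r1))) ^ q * φ (φ (φ (φ (φ r1))))) ^ n =
      (φ (φ (φ (φ a2)))) ^ m * φ (φ (φ (φ r2))) := by
    have h := congrArg (fun y => φ (φ y)) e3
    simp only [map_mul, map_pow] at h
    exact h
  have hX : ((φ r1) ^ q * φ (φ (φ r1))) ^ n ≠ 0 :=
    pow_ne_zero _ (mul_ne_zero (pow_ne_zero _ (hφ0 hr1)) (hφ0 (hφ0 (hφ0 hr1))))
  have hratio := aux_ratio (t4 := φ (φ (φ (φ r2)))) (t2 := φ (φ r2)) (t2Q := (φ (φ r2)) ^ Q)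
    (r2Q := r2 ^ Q) (hφ0 (hφ0 hr2)) (pow_ne_zero m (hφ0 (hφ0 ha2)))
    (pow_ne_zero m (hφ0 (hφ0 (hφ0 (hφ0 ha2))))) hX (pow_ne_zero Q hr2)
    (pow_ne_zero Q (hφ0 (hφ0 hr2))) e3 e4
  have hbase := aux_base (u1 := φ r1) (u3 := φ (φ (φ r1))) (u5 := φ (φ (φ (φ (φ r1)))))
    (b1 := φ a1) (b3 := φ (φ (φ a1))) q m (hφ0 hr1) (hφ0 ha1) e1 e2
  rw [map_div₀, map_div₀, div_pow, hratio, ← div_pow, hbase, ← div_pow, ← pow_mul, mul_comm m n,
    pow_mul, ← mul_pow]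


/-! ### From `GRel` to `H_unit`, `H_cong` -/

section Main

variable (M q : ℕ) [NeZero M] [NeZero q] (hq : q.Prime) (hqM : ¬ q ∣ M)
variable {A : ValuationSubring Qb} {K : IntermediateField ℚ Qb}

/-- The ending of the corrector statement: if `H` is a Gauss unit on both branches and both
reductions of `X · H ^ m` are `1`, then `H` is a unit of `V 0`, `V 1` and `X · H ^ m ≡ 1` modulo
`π (V i)` (the fields `H_unit`, `H_cong` of `ModelFPlan.ModelF`). -/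
theorem unit_cong_of_gRel (hB : BaseFacts q A K) {π : OK A K} (hπ : Irreducible π)
    (X H : FK (M * q) K) (m : ℕ)
    (h1 : ∃ y₁ : LaurentSeries (IsLocalRing.ResidueField A), y₁ ≠ 0 ∧
      GRel A ((H : FK (M * q) K) : LaurentSeries Qb) y₁)
    (h2 : ∃ y₂ : LaurentSeries (IsLocalRing.ResidueField A), y₂ ≠ 0 ∧
      GRel A ((WK.wK M q hq hqM K H : FK (M * q) K) : LaurentSeries Qb) y₂)
    (RG1 : GRel A ((X * H ^ m : FK (M * q) K) : LaurentSeries Qb) 1)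
    (RG2 : GRel A ((WK.wK M q hq hqM K (X * H ^ m) : FK (M * q) K) : LaurentSeries Qb) 1) :
    (∀ i : Fin 2, H ∈ ChartHypInst.Vfam (WK.wK M q hq hqM K) hB.dvr i ∧
        H⁻¹ ∈ ChartHypInst.Vfam (WK.wK M q hq hqM K) hB.dvr i) ∧
      ∀ i : Fin 2, ∃ z ∈ ChartHypInst.Vfam (WK.wK M q hq hqM K) hB.dvr i,
        X * H ^ m - 1 = algebraMap (OK A K) (FK (M * q) K) π * z := by
  have hG := V12Rel.gFacts A
  have hdvr := hB.dvr
  obtain ⟨y₁, hy₁, R1⟩ := h1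
  obtain ⟨y₂, hy₂, R2⟩ := h2
  refine ⟨Fin.forall_fin_two.mpr ⟨⟨?_, ?_⟩, ⟨?_, ?_⟩⟩, Fin.forall_fin_two.mpr ⟨?_, ?_⟩⟩
  · exact (GaussV.mem_V1_iff hdvr).mpr ⟨y₁, R1⟩
  · refine (GaussV.mem_V1_iff hdvr).mpr ⟨y₁⁻¹, ?_⟩
    rw [Subfield.coe_inv]
    exact hG.inv _ _ R1 hy₁
  · exact (GaussV.mem_V2_iff (WK.wK M q hq hqM K) hdvr).mpr
      ((GaussV.mem_V1_iff hdvr).mpr ⟨y₂, R2⟩)
  · refine (GaussV.mem_V2_iff (WK.wK M q hq hqM K) hdvr).mpr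
      ((GaussV.mem_V1_iff hdvr).mpr ⟨y₂⁻¹, ?_⟩)
    rw [map_inv₀, Subfield.coe_inv]
    exact hG.inv _ _ R2 hy₂
  · have hsub : X * H ^ m - 1 ∈ GaussV.V1 (M * q) A K hdvr := by
      refine (GaussV.mem_V1_iff hdvr).mpr ⟨1 - 1, ?_⟩
      rw [Subfield.coe_sub]
      exact V12Rel.gRel_sub A RG1 (ModelRed.gRel_one hG)
    have hred : GaussV.red1 hdvr ⟨_, hsub⟩ = 0 := by
      apply GaussV.red1_eq_of_gRel
      show GRel A ((X * H ^ m - 1 : FK (M * q) K) : LaurentSeries Qb) 0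
      rw [Subfield.coe_sub]
      have h5 := V12Rel.gRel_sub A RG1 (ModelRed.gRel_one hG)
      rwa [sub_self] at h5
    obtain ⟨z, hz, hzeq⟩ := (GaussV.red1_eq_zero_iff hdvr hπ ⟨_, hsub⟩).mp hred
    exact ⟨z, hz, hzeq⟩
  · have hw1 : GRel A ((WK.wK M q hq hqM K (X * H ^ m - 1) : FK (M * q) K) :
        LaurentSeries Qb) 0 := by
      rw [map_sub, map_one, Subfield.coe_sub]
      have h5 := V12Rel.gRel_sub A RG2 (ModelRed.gRel_one hG)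
      rwa [sub_self] at h5
    have hsub : X * H ^ m - 1 ∈ GaussV.V2 (WK.wK M q hq hqM K) hdvr :=
      (GaussV.mem_V2_iff (WK.wK M q hq hqM K) hdvr).mpr ((GaussV.mem_V1_iff hdvr).mpr ⟨0, hw1⟩)
    have hred : GaussV.red2 (WK.wK M q hq hqM K) hdvr ⟨_, hsub⟩ = 0 := by
      rw [GaussV.red2_apply]
      exact GaussV.red1_eq_of_gRel hdvr _ hw1
    obtain ⟨z, hz, hzeq⟩ := (GaussV.red2_eq_zero_iff (WK.wK M q hq hqM K)
      (WK.wK_algebraMap_OK M q hq hqM K A) hdvr hπ ⟨_, hsub⟩).mp hred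
    exact ⟨z, hz, hzeq⟩

/-- The second difference of `E f = Σ f / f ^ Q` is `E` of the second difference of `f`
(`a = f`, `b = Σ f`, `c = Σ² f`, `d = Σ³ f`). -/
theorem sd_identity {E : Type*} [Field E] (a b c d : E) (Q : ℕ) (ha : a ≠ 0) (hb : b ≠ 0)
    (hc : c ≠ 0) :
    (d / c ^ Q) * (b / a ^ Q) / ((c / b ^ Q) * (c / b ^ Q)) =
      (d / c / (c / b)) / ((c / b) / (b / a)) ^ Q := by
  have haQ : a ^ Q ≠ 0 := pow_ne_zero _ ha
  have hbQ : b ^ Q ≠ 0 := pow_ne_zero _ hb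
  have hcQ : c ^ Q ≠ 0 := pow_ne_zero _ hc
  rw [div_pow, div_pow, div_pow]
  field_simp

/-- **[GNormU]**: the corrector statement for the `U`-condition. -/
theorem corrU (m : ℕ) : ModelFAsm.CorrStatement M q hq hqM m (URoutePlan.CondU M q m) := by
  intro A hA σs hσ ft _hft _hdiv hC
  obtain ⟨f, hf0, ⟨f₁, f₂, g, hg0, hU1, hU2, hf2⟩, hfteq⟩ := hC
  classical
  obtain ⟨S, hS⟩ := CorrAdapt.exists_finset_level (M * q)
    ({f, g} : Finset (modularFunctionFieldBar (M * q)))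
  refine ⟨S, fun K hSK hB hst hK π hπ fK hfK => ?_⟩
  have hG := V12Rel.gFacts A
  have hdvr := hB.dvr
  have : Fact q.Prime := ⟨hq⟩
  have : CharP (IsLocalRing.ResidueField A) q := BaseRes.charP_residueField q A hA
  have hσd := hσ.mem_decompositionSubgroup
  have hτd : σs * σs ∈ A.decompositionSubgroup ℚ := mul_mem hσd hσd
  have hKσ : Stable K σs := ⟨fun c hc => hst σs c hc, fun c hc => hst σs.symm c hc⟩
  -- the two operators on `k((Q))`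
  obtain ⟨Φ, hΦ⟩ : ∃ Φ : LaurentSeries (IsLocalRing.ResidueField A) →+*
      LaurentSeries (IsLocalRing.ResidueField A),
      Φ = coeffMap (frobenius (IsLocalRing.ResidueField A) q) := ⟨_, rfl⟩
  obtain ⟨F, hF⟩ : ∃ F : LaurentSeries (IsLocalRing.ResidueField A) →+*
      LaurentSeries (IsLocalRing.ResidueField A),
      F = (qExpand (IsLocalRing.ResidueField A) q : LaurentSeries (IsLocalRing.ResidueField A) →+*
        LaurentSeries (IsLocalRing.ResidueField A)) := ⟨_, rfl⟩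
  have hFΦ : ∀ y, F (Φ y) = y ^ q := fun y => by
    rw [hF, hΦ]
    exact (Fermat.Agent.S37.KC.pow_char_eq_qExpand_frobenius q y).symm
  have hΦF : ∀ y, Φ (F y) = F (Φ y) := fun y => by
    rw [hF, hΦ]
    exact ModularCurve.coeffMap_qExpand _ q y
  have hΦ0 : ∀ {y : LaurentSeries (IsLocalRing.ResidueField A)}, y ≠ 0 → Φ y ≠ 0 :=
    fun hy => (map_ne_zero Φ).mpr hy
  -- the two actions on `F_K`, with the facts used below
  obtain ⟨Sg, hSg⟩ : ∃ Sg : FK (M * q) K ≃+* FK (M * q) K, Sg = tauE (M * q) hK := ⟨_, rfl⟩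
  obtain ⟨sg, hsg⟩ : ∃ sg : FK (M * q) K ≃+* FK (M * q) K, sg = tauE (M * q) hKσ := ⟨_, rfl⟩
  have hSτ : ∀ (x : FK (M * q) K) (y : LaurentSeries (IsLocalRing.ResidueField A)),
      GRel A ((x : FK (M * q) K) : LaurentSeries Qb) y →
      GRel A ((Sg x : FK (M * q) K) : LaurentSeries Qb) (Φ (Φ y)) := by
    intro x y hxy
    rw [hSg, coe_tauE, hΦ, coeffMap_coeffMap]
    exact FrobAct.gRel_coeffMap_frob_sq A hσ hxy
  have hsσ : ∀ (x : FK (M * q) K) (y : LaurentSeries (IsLocalRing.ResidueField A)),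
      GRel A ((x : FK (M * q) K) : LaurentSeries Qb) y →
      GRel A ((sg x : FK (M * q) K) : LaurentSeries Qb) (Φ y) := by
    intro x y hxy
    rw [hsg, coe_tauE, hΦ]
    exact FrobAct.gRel_coeffMap_frob A hσ hxy
  have hSw : ∀ x : FK (M * q) K,
      WK.wK M q hq hqM K (Sg x) = Sg (WK.wK M q hq hqM K x) := by
    intro x
    rw [hSg]
    exact WKInst.wK_tauE M q hq hqM hK x
  have hSbar : ∀ x : FK (M * q) K, Glob.toBar (M * q) K (Sg x) =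
      UPlan.gal (M * q) (σs * σs) • Glob.toBar (M * q) K x := by
    intro x
    rw [hSg]
    exact GNorm.toBar_tauE hK x
  have hSdiff : ∀ x : FK (M * q) K, x ≠ 0 →
      ∃ r : LaurentSeries (IsLocalRing.ResidueField A), r ≠ 0 ∧
        GRel A ((Sg x / x : FK (M * q) K) : LaurentSeries Qb) r := by
    intro x hx
    rw [hSg]
    exact GNorm.exists_gRel_tauE_div hdvr hτd hK x hx
  have hSne : ∀ {x : FK (M * q) K}, x ≠ 0 → Sg x ≠ 0 := fun hx => (map_ne_zero Sg).mpr hx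
  -- `f`, `g` descended to `F_K`
  have hfmem : (f : LaurentSeries Qb) ∈ FK (M * q) K :=
    hS K hSK f (Finset.mem_insert_self _ _)
  have hgmem : (g : LaurentSeries Qb) ∈ FK (M * q) K :=
    hS K hSK g (Finset.mem_insert_of_mem (Finset.mem_singleton_self _))
  obtain ⟨f0, hf0K⟩ : ∃ f0 : FK (M * q) K, Glob.toBar (M * q) K f0 = f :=
    ⟨⟨_, hfmem⟩, Subtype.ext rfl⟩
  obtain ⟨g0, hg0K⟩ : ∃ g0 : FK (M * q) K, Glob.toBar (M * q) K g0 = g :=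
    ⟨⟨_, hgmem⟩, Subtype.ext rfl⟩
  have hf0' : f0 ≠ 0 := fun h => hf0 (by rw [← hf0K, h, map_zero])
  have hg0' : g0 ≠ 0 := fun h => hg0 (by rw [← hg0K, h, map_zero])
  have hinj : Function.Injective (Glob.toBar (M * q) K) := (Glob.toBar (M * q) K).injective
  have hfKeq : fK = Sg f0 / f0 ^ (q ^ 2) := by
    apply hinj
    rw [hfK, hfteq, map_div₀, map_pow, hSbar, hf0K]
  -- the first differences `G₁ = Σ f / f`, `g₁ = Σ g / g` and their reductions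
  obtain ⟨G1, hG1⟩ : ∃ G1 : FK (M * q) K, G1 = Sg f0 / f0 := ⟨_, rfl⟩
  obtain ⟨g1, hg1⟩ : ∃ g1 : FK (M * q) K, g1 = Sg g0 / g0 := ⟨_, rfl⟩
  have hG1ne : G1 ≠ 0 := by
    rw [hG1]
    exact div_ne_zero (hSne hf0') hf0'
  have hg1ne : g1 ≠ 0 := by
    rw [hg1]
    exact div_ne_zero (hSne hg0') hg0'
  obtain ⟨r1, hr1, R1⟩ := hSdiff f0 hf0'
  rw [← hG1] at R1
  obtain ⟨r2, hr2, R2⟩ := hSdiff (WK.wK M q hq hqM K f0) ((map_ne_zero _).mpr hf0')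
  have hwG : WK.wK M q hq hqM K G1 =
      Sg (WK.wK M q hq hqM K f0) / WK.wK M q hq hqM K f0 := by
    rw [hG1, map_div₀, hSw]
  rw [← hwG] at R2
  obtain ⟨a1, ha1, Ra1⟩ := hSdiff g0 hg0'
  rw [← hg1] at Ra1
  obtain ⟨a2, ha2, Ra2⟩ := hSdiff (WK.wK M q hq hqM K g0) ((map_ne_zero _).mpr hg0')
  have hwg : WK.wK M q hq hqM K g1 =
      Sg (WK.wK M q hq hqM K g0) / WK.wK M q hq hqM K g0 := by
    rw [hg1, map_div₀, hSw]
  rw [← hwg] at Ra2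
  -- the `U`-relations in `F̄`
  obtain ⟨x1, hx1⟩ : ∃ x1 : modularFunctionFieldBar (M * q),
      x1 = UPlan.gal (M * q) (σs * σs) • f₁ / f₁ := ⟨_, rfl⟩
  obtain ⟨x2, hx2⟩ : ∃ x2 : modularFunctionFieldBar (M * q),
      x2 = UPlan.gal (M * q) (σs * σs) • f₂ / f₂ := ⟨_, rfl⟩
  have hz : Glob.toBar (M * q) K G1 = UPlan.gal (M * q) (σs * σs) • f / f := by
    rw [hG1, map_div₀, hSbar, hf0K]
  have hUz : IsU q ((Glob.toBar (M * q) K G1 : modularFunctionFieldBar (M * q)) :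
      LaurentSeries Qb) (x1 : LaurentSeries Qb) := by
    rw [hz, hx1]
    exact URed.isU_div (URed.isU_gal q (M * q) (σs * σs) hU1) hU1
  have hUx : IsU q (x1 : LaurentSeries Qb) (x2 : LaurentSeries Qb) := by
    rw [hx1, hx2]
    exact URed.isU_div (URed.isU_gal q (M * q) (σs * σs) hU2) hU2
  have hx2K : x2 = Glob.toBar (M * q) K (g1 ^ m * G1) := by
    have hf2K : f₂ = Glob.toBar (M * q) K (g0 ^ m * f0) := by
      rw [map_mul, map_pow, hg0K, hf0K]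
      exact hf2
    rw [hx2, hf2K, ← hSbar, ← map_div₀]
    congr 1
    rw [map_mul, map_pow, hg1, hG1, div_pow, mul_div_mul_comm]
  -- reductions of `𝒰 G₁`, `𝒰 𝒰 G₁`
  have Rz1 : GRel A ((Glob.toBar (M * q) K G1 : modularFunctionFieldBar (M * q)) :
      LaurentSeries Qb) r1 := R1
  have Rz2 : GRel A ((WK.wBar M q hq hqM (Glob.toBar (M * q) K G1) :
      modularFunctionFieldBar (M * q)) : LaurentSeries Qb) r2 := by
    rw [← WK.toBar_wK]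
    exact R2
  have P1 : GRel A (x1 : LaurentSeries Qb) (Φ r1) := by
    rw [hΦ]
    exact URed.gRel_isU_one q hA hUz Rz1
  have P2 : GRel A ((WK.wBar M q hq hqM x1 : modularFunctionFieldBar (M * q)) :
      LaurentSeries Qb) (F r2 * r1 ^ (q - 1)) := by
    rw [hF]
    exact URed.gRel_isU_two M q hq hqM hA hUz Rz1 Rz2 hr1
  have Q1 : GRel A (x2 : LaurentSeries Qb) (Φ (Φ r1)) := by
    have h := URed.gRel_isU_one q hA hUx P1
    rwa [← hΦ] at h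
  have Q2 : GRel A ((WK.wBar M q hq hqM x2 : modularFunctionFieldBar (M * q)) :
      LaurentSeries Qb) (F (F r2 * r1 ^ (q - 1)) * (Φ r1) ^ (q - 1)) := by
    have h := URed.gRel_isU_two M q hq hqM hA hUx P1 P2 (hΦ0 hr1)
    rwa [← hF] at h
  have Q1' : GRel A (x2 : LaurentSeries Qb) (a1 ^ m * r1) := by
    rw [hx2K, Glob.coe_toBar, Subfield.coe_mul, SubmonoidClass.coe_pow]
    exact hG.mul _ _ _ _ (V12Rel.gRel_pow A Ra1 m) R1
  have Q2' : GRel A ((WK.wBar M q hq hqM x2 : modularFunctionFieldBar (M * q)) :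
      LaurentSeries Qb) (a2 ^ m * r2) := by
    rw [hx2K, ← WK.toBar_wK, Glob.coe_toBar, map_mul, map_pow, Subfield.coe_mul,
      SubmonoidClass.coe_pow]
    exact hG.mul _ _ _ _ (V12Rel.gRel_pow A Ra2 m) R2
  have E1 : Φ (Φ r1) = a1 ^ m * r1 := hG.unique _ _ _ Q1 Q1'
  have E2 : F (F r2) * (F r1 * Φ r1) ^ (q - 1) = a2 ^ m * r2 := by
    have h := hG.unique _ _ _ Q2 Q2'
    rw [map_mul, map_pow, mul_assoc, ← mul_pow] at h
    exact h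
  have key := alg_key Φ F q (q - 1) (q ^ 2) m (sq q) hFΦ hΦF hr1 hr2 ha1 ha2 E1 E2
  -- the second difference `G₂` of `f` and the function `G₃ = Σ G₂ / G₂ ^ (q²)`
  obtain ⟨G2, hG2⟩ : ∃ G2 : FK (M * q) K, G2 = Sg G1 / G1 := ⟨_, rfl⟩
  have hsd : LocPlan.secondDiff Sg Sg fK = Sg G2 / G2 ^ (q ^ 2) := by
    rw [hfKeq, hG2, hG1]
    unfold LocPlan.secondDiff
    simp only [map_div₀, map_pow]
    exact sd_identity f0 (Sg f0) (Sg (Sg f0)) (Sg (Sg (Sg f0))) (q ^ 2) hf0' (hSne hf0')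
      (hSne (hSne hf0'))
  have RG2a : GRel A ((G2 : FK (M * q) K) : LaurentSeries Qb) (Φ (Φ r1) / r1) := by
    rw [hG2, div_eq_mul_inv, Subfield.coe_mul, Subfield.coe_inv, div_eq_mul_inv]
    exact hG.mul _ _ _ _ (hSτ _ _ R1) (hG.inv _ _ R1 hr1)
  have RG2b : GRel A ((WK.wK M q hq hqM K G2 : FK (M * q) K) : LaurentSeries Qb)
      (Φ (Φ r2) / r2) := by
    rw [hG2, map_div₀, hSw, div_eq_mul_inv, Subfield.coe_mul, Subfield.coe_inv, div_eq_mul_inv]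
    exact hG.mul _ _ _ _ (hSτ _ _ R2) (hG.inv _ _ R2 hr2)
  have hs1 : Φ (Φ r1) / r1 ≠ 0 := div_ne_zero (hΦ0 (hΦ0 hr1)) hr1
  have hs2 : Φ (Φ r2) / r2 ≠ 0 := div_ne_zero (hΦ0 (hΦ0 hr2)) hr2
  have RG3a : GRel A ((Sg G2 / G2 ^ (q ^ 2) : FK (M * q) K) : LaurentSeries Qb)
      (Φ (Φ (Φ (Φ r1) / r1)) / (Φ (Φ r1) / r1) ^ (q ^ 2)) := by
    rw [div_eq_mul_inv, Subfield.coe_mul, Subfield.coe_inv, SubmonoidClass.coe_pow,
      div_eq_mul_inv (Φ (Φ (Φ (Φ r1) / r1)))]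
    exact hG.mul _ _ _ _ (hSτ _ _ RG2a)
      (hG.inv _ _ (V12Rel.gRel_pow A RG2a _) (pow_ne_zero _ hs1))
  have RG3b : GRel A ((WK.wK M q hq hqM K (Sg G2 / G2 ^ (q ^ 2)) : FK (M * q) K) :
      LaurentSeries Qb) (Φ (Φ (Φ (Φ r2) / r2)) / (Φ (Φ r2) / r2) ^ (q ^ 2)) := by
    rw [map_div₀, map_pow, hSw, div_eq_mul_inv, Subfield.coe_mul, Subfield.coe_inv,
      SubmonoidClass.coe_pow, div_eq_mul_inv (Φ (Φ (Φ (Φ r2) / r2)))]
    exact hG.mul _ _ _ _ (hSτ _ _ RG2b)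
      (hG.inv _ _ (V12Rel.gRel_pow A RG2b _) (pow_ne_zero _ hs2))
  have hc1 : Φ (Φ (Φ (Φ r1) / r1)) / (Φ (Φ r1) / r1) ^ (q ^ 2) =
      (Φ (Φ a1) / a1 ^ (q ^ 2)) ^ m := by
    have hs : Φ (Φ r1) / r1 = a1 ^ m := by
      rw [E1, mul_div_assoc, div_self hr1, mul_one]
    rw [hs, map_pow, map_pow, ← pow_mul, mul_comm m, pow_mul, ← div_pow]
  rw [hc1] at RG3a
  rw [key] at RG3b
  -- the two correcting functions
  have hΦΦa1 : Φ (Φ a1) ≠ 0 := hΦ0 (hΦ0 ha1)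
  have RX1 : GRel A ((g1 ^ (q ^ 2) / Sg g1 : FK (M * q) K) : LaurentSeries Qb)
      (a1 ^ (q ^ 2) / Φ (Φ a1)) := by
    rw [div_eq_mul_inv, Subfield.coe_mul, Subfield.coe_inv, SubmonoidClass.coe_pow,
      div_eq_mul_inv (a1 ^ (q ^ 2))]
    exact hG.mul _ _ _ _ (V12Rel.gRel_pow A Ra1 _) (hG.inv _ _ (hSτ _ _ Ra1) hΦΦa1)
  obtain ⟨w1, hw1⟩ : ∃ w1 : FK (M * q) K, w1 = WK.wK M q hq hqM K g1 := ⟨_, rfl⟩
  rw [← hw1] at Ra2
  have hc2 : ((Φ a1) ^ q * Φ (Φ (Φ a1))) ^ (q - 1) * (Φ (Φ a2) / Φ (Φ (Φ (Φ a2)))) ≠ 0 :=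
    mul_ne_zero (pow_ne_zero _ (mul_ne_zero (pow_ne_zero _ (hΦ0 ha1)) (hΦ0 (hΦ0 (hΦ0 ha1)))))
      (div_ne_zero (hΦ0 (hΦ0 ha2)) (hΦ0 (hΦ0 (hΦ0 (hΦ0 ha2)))))
  have RE0 : GRel A ((((sg g1) ^ q * sg (Sg g1)) ^ (q - 1) * (Sg w1 / Sg (Sg w1)) :
      FK (M * q) K) : LaurentSeries Qb)
      (((Φ a1) ^ q * Φ (Φ (Φ a1))) ^ (q - 1) * (Φ (Φ a2) / Φ (Φ (Φ (Φ a2))))) := by
    rw [Subfield.coe_mul, SubmonoidClass.coe_pow, Subfield.coe_mul, SubmonoidClass.coe_pow,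
      div_eq_mul_inv, Subfield.coe_mul, Subfield.coe_inv, div_eq_mul_inv (Φ (Φ a2))]
    exact hG.mul _ _ _ _
      (V12Rel.gRel_pow A (hG.mul _ _ _ _ (V12Rel.gRel_pow A (hsσ _ _ Ra1) q)
        (hsσ _ _ (hSτ _ _ Ra1))) (q - 1))
      (hG.mul _ _ _ _ (hSτ _ _ Ra2)
        (hG.inv _ _ (hSτ _ _ (hSτ _ _ Ra2)) (hΦ0 (hΦ0 (hΦ0 (hΦ0 ha2))))))
  have RE : GRel A ((WK.wK M q hq hqM K (WK.wK M q hq hqM K
      (((sg g1) ^ q * sg (Sg g1)) ^ (q - 1) * (Sg w1 / Sg (Sg w1)))⁻¹) : FK (M * q) K) :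
        LaurentSeries Qb)
      ((((Φ a1) ^ q * Φ (Φ (Φ a1))) ^ (q - 1) * (Φ (Φ a2) / Φ (Φ (Φ (Φ a2)))))⁻¹) := by
    rw [WK.wK_wK, Subfield.coe_inv]
    exact hG.inv _ _ RE0 hc2
  obtain ⟨H, RH1, RH2⟩ := ApproxK.approx M q hq hqM hdvr hA _ _ _ _ RX1 RE
  have hfin1 : (Φ (Φ a1) / a1 ^ (q ^ 2)) ^ m * (a1 ^ (q ^ 2) / Φ (Φ a1)) ^ m = 1 := by
    rw [← mul_pow, div_mul_div_comm, mul_comm (Φ (Φ a1)), div_self
      (mul_ne_zero (pow_ne_zero _ ha1) hΦΦa1), one_pow]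
  have hfin2 : (((Φ a1) ^ q * Φ (Φ (Φ a1))) ^ (q - 1) * (Φ (Φ a2) / Φ (Φ (Φ (Φ a2))))) ^ m *
      ((((Φ a1) ^ q * Φ (Φ (Φ a1))) ^ (q - 1) * (Φ (Φ a2) / Φ (Φ (Φ (Φ a2)))))⁻¹) ^ m = 1 := by
    rw [← mul_pow, mul_inv_cancel₀ hc2, one_pow]
  have hfinal := unit_cong_of_gRel M q hq hqM hB hπ (LocPlan.secondDiff Sg Sg fK) H m
    ⟨_, div_ne_zero (pow_ne_zero _ ha1) hΦΦa1, RH1⟩ ⟨_, inv_ne_zero hc2, RH2⟩
    (by
      rw [hsd, Subfield.coe_mul, SubmonoidClass.coe_pow]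
      have h5 := hG.mul _ _ _ _ RG3a (V12Rel.gRel_pow A RH1 m)
      rwa [hfin1] at h5)
    (by
      rw [hsd, map_mul, map_pow, Subfield.coe_mul, SubmonoidClass.coe_pow]
      have h5 := hG.mul _ _ _ _ RG3b (V12Rel.gRel_pow A RH2 m)
      rwa [hfin2] at h5)
  rw [hSg] at hfinal
  exact ⟨H, hfinal⟩

end Main

end Fermat.Agent.S35.UNormC
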