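/-
S35 — UOp.lean (helper91).  [U]-route of the bridge [D] (board #2697 / #2714): the ALGEBRAIC
`U_q`-operator on functions.

Level `M * q`, `q` a prime not dividing `M`; `α = heckeAlphaBar`, `β = heckeBetaBar : F̄_M → F̄_{Mq}`
the two degeneracy maps, `N_β = PushPic.betaNorm` the norm of `F̄_{Mq}` over `β(F̄_M)`,
`w = WK.wBar` the Atkin–Lehner involution of `F̄_{Mq}`.

* `uOp M q hq hqM : F̄_{Mq} →*₀ F̄_{Mq}`,  `𝒰 z := α(N_β z) / w z`;
* `qExpand_uOp`        : `(𝒰 z)(Q^q) = ∏_{i<q} z(ζ^i Q)`  (`ζ` a primitive `q`-th root of unity);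
* `coe_uOp_eq_of_qExpand`, `eq_uOp_of_qExpand` : `𝒰 z` is the ONLY series with that `q`-expansion;
* `coe_uOp_of_pow`     : if `f = y ^ m` and `y'(Q^q) = ∏_{i<q} y(ζ^i Q)` then `𝒰 f = y' ^ m`
                         (the formal `U_q`-image of a witness computes `𝒰` of its `m`-th power);
* `uOp_arith`, `uOp_gal` : `𝒰` commutes with the coefficientwise action of `Gal(ℚ̄/ℚ)`;
* `alpha_betaNorm_eq`  : `α(N_β z) = 𝒰 z · w z`;
* `isU_uOp`, `eq_uOp_of_isU`, `isU_iff_eq_uOp` : in the vocabulary of `S35/URoutePlan.lean`,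
                         `IsU q z x ↔ x = 𝒰 z` for `z, x ∈ F̄_{Mq}`;
* `uCond_iff`          : `URoutePlan.UCond (M q) q m f ↔ ∃ g ≠ 0, 𝒰 (𝒰 f) = g ^ m · f`.
-/
import Mathlib
import Fermat.Agent.S35.NormRed
import Fermat.Agent.S35.PushPic
import Fermat.Agent.S35.URoutePlan

set_option autoImplicit false
set_option linter.style.haveILetI false

noncomputable section

namespace Fermat.Agent.S35.UOp

open ModularCurve AlgebraicCurve HahnSeries
open Fermat.Agent.S24 Fermat.Agent.S34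

local notation "Qb" => AlgebraicClosure ℚ

variable (M q : ℕ) [NeZero M] [NeZero q] (hq : q.Prime) (hqM : ¬ q ∣ M)

/-- **The algebraic `U_q`-operator on functions**: `𝒰 z = α(N_β z) / w z`. -/
def uOp : ↥(modularFunctionFieldBar (M * q)) →*₀ ↥(modularFunctionFieldBar (M * q)) where
  toFun z := heckeAlphaBar Qb M q (PushPic.betaNorm M q z) / WK.wBar M q hq hqM z
  map_zero' := by rw [map_zero (WK.wBar M q hq hqM), div_zero]
  map_one' := by rw [map_one, map_one, map_one, div_one]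
  map_mul' x y := by rw [map_mul, map_mul, map_mul, mul_div_mul_comm]

theorem uOp_apply (z : ↥(modularFunctionFieldBar (M * q))) :
    uOp M q hq hqM z
      = heckeAlphaBar Qb M q (PushPic.betaNorm M q z) / WK.wBar M q hq hqM z := rfl

/-- The norm of `0` along `β` is `0`. -/
theorem betaNorm_zero' :
    PushPic.betaNorm M q (0 : ↥(modularFunctionFieldBar (M * q))) = 0 := by
  letI := algebraAlong (heckeBetaBar Qb M q)
  haveI : Module.Finite ↥(modularFunctionFieldBar M) ↥(modularFunctionFieldBar (M * q)) :=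
    PushPic.beta_finiteAlong M q
  haveI : Module.Free ↥(modularFunctionFieldBar M) ↥(modularFunctionFieldBar (M * q)) :=
    Module.Free.of_divisionRing _ _
  exact Algebra.norm_zero

/-- `α(N_β z) = 𝒰 z · w z`. -/
theorem alpha_betaNorm_eq (z : ↥(modularFunctionFieldBar (M * q))) :
    heckeAlphaBar Qb M q (PushPic.betaNorm M q z)
      = uOp M q hq hqM z * WK.wBar M q hq hqM z := by
  by_cases hz : z = 0
  · subst hz
    rw [map_zero (WK.wBar M q hq hqM), mul_zero, betaNorm_zero', map_zero]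
  · have hw : WK.wBar M q hq hqM z ≠ 0 := fun h =>
      hz ((WK.wBar M q hq hqM).injective (by rw [h, map_zero]))
    rw [uOp_apply, div_mul_cancel₀ _ hw]

theorem coe_uOp (z : ↥(modularFunctionFieldBar (M * q))) :
    ((uOp M q hq hqM z : ↥(modularFunctionFieldBar (M * q))) : LaurentSeries Qb)
      = ((PushPic.betaNorm M q z : ↥(modularFunctionFieldBar M)) : LaurentSeries Qb)
        / ((WK.wBar M q hq hqM z : ↥(modularFunctionFieldBar (M * q))) : LaurentSeries Qb) := by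
  rw [uOp_apply, IntermediateField.coe_div, coe_heckeAlphaBar]

/-- **`q`-expansion of `𝒰`**: `(𝒰 z)(Q^q) = ∏_{i<q} z(ζ^i Q)`. -/
theorem qExpand_uOp (ζ : Qb) (hζ : IsPrimitiveRoot ζ q) (hz : ∀ i : ℕ, ζ ^ i ≠ 0)
    (z : ↥(modularFunctionFieldBar (M * q))) :
    qExpand Qb q ((uOp M q hq hqM z : ↥(modularFunctionFieldBar (M * q))) : LaurentSeries Qb)
      = ∏ i ∈ Finset.range q, rotHom (ζ ^ i) (hz i) (z : LaurentSeries Qb) := by
  by_cases hz0 : z = 0
  · subst hz0
    rw [map_zero (uOp M q hq hqM), ZeroMemClass.coe_zero, map_zero]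
    symm
    apply Finset.prod_eq_zero (Finset.mem_range.mpr (Nat.pos_of_ne_zero (NeZero.ne q)))
    rw [map_zero]
  · have hw : WK.wBar M q hq hqM z ≠ 0 := fun h =>
      hz0 ((WK.wBar M q hq hqM).injective (by rw [h, map_zero]))
    have hw' : qExpand Qb q
        ((WK.wBar M q hq hqM z : ↥(modularFunctionFieldBar (M * q))) : LaurentSeries Qb) ≠ 0 := by
      intro h
      apply hw
      apply Subtype.ext
      apply qExpand_injective (R := Qb) q
      rw [h, ZeroMemClass.coe_zero, map_zero]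
    have h : qExpand Qb q
        ((PushPic.betaNorm M q z : ↥(modularFunctionFieldBar M)) : LaurentSeries Qb)
        = qExpand Qb q
            ((WK.wBar M q hq hqM z : ↥(modularFunctionFieldBar (M * q))) : LaurentSeries Qb) *
          ∏ i ∈ Finset.range q, rotHom (ζ ^ i) (hz i) (z : LaurentSeries Qb) :=
      Fermat.Agent.S35.NormRed.qExpand_norm_beta_w M q hq hqM ζ hζ hz z
    rw [coe_uOp, map_div₀, h, mul_div_cancel_left₀ _ hw']

/-- A series with the `q`-expansion of `𝒰 z` is `𝒰 z`. -/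
theorem coe_uOp_eq_of_qExpand (ζ : Qb) (hζ : IsPrimitiveRoot ζ q) (hz : ∀ i : ℕ, ζ ^ i ≠ 0)
    (z : ↥(modularFunctionFieldBar (M * q))) (Y : LaurentSeries Qb)
    (hY : qExpand Qb q Y = ∏ i ∈ Finset.range q, rotHom (ζ ^ i) (hz i) (z : LaurentSeries Qb)) :
    ((uOp M q hq hqM z : ↥(modularFunctionFieldBar (M * q))) : LaurentSeries Qb) = Y := by
  apply qExpand_injective (R := Qb) q
  rw [qExpand_uOp M q hq hqM ζ hζ hz, hY]

theorem eq_uOp_of_qExpand (ζ : Qb) (hζ : IsPrimitiveRoot ζ q) (hz : ∀ i : ℕ, ζ ^ i ≠ 0)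
    (z x : ↥(modularFunctionFieldBar (M * q)))
    (hx : qExpand Qb q (x : LaurentSeries Qb)
      = ∏ i ∈ Finset.range q, rotHom (ζ ^ i) (hz i) (z : LaurentSeries Qb)) :
    x = uOp M q hq hqM z :=
  Subtype.ext (coe_uOp_eq_of_qExpand M q hq hqM ζ hζ hz z _ hx).symm

/-- If `f = y ^ m` and `y'(Q^q) = ∏_{i<q} y(ζ^i Q)` then `𝒰 f = y' ^ m`. -/
theorem coe_uOp_of_pow (ζ : Qb) (hζ : IsPrimitiveRoot ζ q) (hz : ∀ i : ℕ, ζ ^ i ≠ 0)
    (f : ↥(modularFunctionFieldBar (M * q))) (y y' : LaurentSeries Qb) (m : ℕ)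
    (hf : (f : LaurentSeries Qb) = y ^ m)
    (hy' : qExpand Qb q y' = ∏ i ∈ Finset.range q, rotHom (ζ ^ i) (hz i) y) :
    ((uOp M q hq hqM f : ↥(modularFunctionFieldBar (M * q))) : LaurentSeries Qb) = y' ^ m := by
  apply coe_uOp_eq_of_qExpand M q hq hqM ζ hζ hz
  rw [map_pow, hy', hf, ← Finset.prod_pow]
  exact Finset.prod_congr rfl fun i _ => (map_pow _ _ _).symm

theorem uOp_ne_zero {z : ↥(modularFunctionFieldBar (M * q))} (hz : z ≠ 0) :
    uOp M q hq hqM z ≠ 0 :=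
  (map_ne_zero (uOp M q hq hqM)).mpr hz

/-- `𝒰` commutes with the coefficientwise action of `Gal(ℚ̄/ℚ)`. -/
theorem uOp_arith (σ : Qb ≃ₐ[ℚ] Qb) (z : ↥(modularFunctionFieldBar (M * q))) :
    uOp M q hq hqM (arithmeticRingAut (modularFunctionFieldFull (M * q)) σ z)
      = arithmeticRingAut (modularFunctionFieldFull (M * q)) σ (uOp M q hq hqM z) := by
  have hN : PushPic.betaNorm M q (arithmeticRingAut (modularFunctionFieldFull (M * q)) σ z)
      = arithmeticRingAut (modularFunctionFieldFull M) σ (PushPic.betaNorm M q z) :=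
    Fermat.Agent.S35.NormRed.norm_beta_arith M q σ z
  rw [uOp_apply, uOp_apply, map_div₀, hN, Fermat.Agent.S35.NormRed.alpha_arith, WK.wBar_arith]

/-- `𝒰` commutes with the Galois action, in the `SemilinearAut` form of the `J`-side files. -/
theorem uOp_gal (σ : Qb ≃ₐ[ℚ] Qb) (z : ↥(modularFunctionFieldBar (M * q))) :
    uOp M q hq hqM (arithmeticGalois (modularFunctionFieldFull (M * q)) σ • z)
      = arithmeticGalois (modularFunctionFieldFull (M * q)) σ • uOp M q hq hqM z :=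
  uOp_arith M q hq hqM σ z

/-! ### The vocabulary of `URoutePlan` -/

open Fermat.Agent.S35.URoutePlan in
/-- `𝒰 z` is the `U`-image of `z` in the sense of `URoutePlan.IsU`. -/
theorem isU_uOp (z : ↥(modularFunctionFieldBar (M * q))) :
    IsU q (z : LaurentSeries Qb)
      ((uOp M q hq hqM z : ↥(modularFunctionFieldBar (M * q))) : LaurentSeries Qb) := by
  have : NeZero ((q : ℕ) : ℚ) := ⟨by exact_mod_cast NeZero.ne q⟩
  obtain ⟨ζ, hζ⟩ := HasEnoughRootsOfUnity.exists_primitiveRoot Qb q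
  have hz : ∀ i : ℕ, ζ ^ i ≠ 0 := fun i => pow_ne_zero i (hζ.ne_zero (NeZero.ne q))
  exact ⟨ζ, hζ, hz, qExpand_uOp M q hq hqM ζ hζ hz z⟩

open Fermat.Agent.S35.URoutePlan in
/-- A series which is a `U`-image of `z ∈ F̄_{Mq}` is `𝒰 z`. -/
theorem coe_uOp_eq_of_isU (z : ↥(modularFunctionFieldBar (M * q))) (Y : LaurentSeries Qb)
    (h : IsU q (z : LaurentSeries Qb) Y) :
    ((uOp M q hq hqM z : ↥(modularFunctionFieldBar (M * q))) : LaurentSeries Qb) = Y := by
  obtain ⟨ζ, hζ, hz, hY⟩ := h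
  exact coe_uOp_eq_of_qExpand M q hq hqM ζ hζ hz z Y hY

open Fermat.Agent.S35.URoutePlan in
theorem eq_uOp_of_isU (z x : ↥(modularFunctionFieldBar (M * q)))
    (h : IsU q (z : LaurentSeries Qb) (x : LaurentSeries Qb)) : x = uOp M q hq hqM z :=
  Subtype.ext (coe_uOp_eq_of_isU M q hq hqM z _ h).symm

open Fermat.Agent.S35.URoutePlan in
theorem isU_iff_eq_uOp (z x : ↥(modularFunctionFieldBar (M * q))) :
    IsU q (z : LaurentSeries Qb) (x : LaurentSeries Qb) ↔ x = uOp M q hq hqM z :=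
  ⟨eq_uOp_of_isU M q hq hqM z x, fun h => h ▸ isU_uOp M q hq hqM z⟩

open Fermat.Agent.S35.URoutePlan in
/-- **The `U`-condition in algebraic form**: `𝒰 (𝒰 f) = g ^ m · f`. -/
theorem uCond_iff (m : ℕ) (f : ↥(modularFunctionFieldBar (M * q))) :
    UCond (M * q) q m f ↔
      ∃ g : ↥(modularFunctionFieldBar (M * q)), g ≠ 0 ∧
        uOp M q hq hqM (uOp M q hq hqM f) = g ^ m * f := by
  constructor
  · rintro ⟨f₁, f₂, g, hg, h1, h2, h3⟩
    have e1 : f₁ = uOp M q hq hqM f := eq_uOp_of_isU M q hq hqM f f₁ h1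
    have e2 : f₂ = uOp M q hq hqM f₁ := eq_uOp_of_isU M q hq hqM f₁ f₂ h2
    exact ⟨g, hg, by rw [← e1, ← e2, h3]⟩
  · rintro ⟨g, hg, h⟩
    exact ⟨uOp M q hq hqM f, uOp M q hq hqM (uOp M q hq hqM f), g, hg,
      isU_uOp M q hq hqM f, isU_uOp M q hq hqM (uOp M q hq hqM f), h⟩

end Fermat.Agent.S35.UOp
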