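/-
S35 — UOut.lean (helper82).  Row [UOut] of the `[U]`-route (owner helper93, plan
`S35/URoutePlan.lean`): the consumer side `URoutePlan.FrobNewUStatement`, in hypothesis form over
the shared block [E].

For a Kummer pair `(f, D)` (`div f = m • D`) whose function satisfies the `U`-condition and a
Frobenius lift `σ` at `q`, put `τ = σ²`, `Q = q²` and

    `f̃ = τ f / f ^ Q`,      `D̃ = τ D - Q • D`      (`div f̃ = m • D̃`).

The modular block supplies a Frobenius model `ModelFPlan.ModelF` for `f̃` (condition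
`URoutePlan.CondU`, which holds by `rfl`), the assembly `[CoreAsmF]` turns it into a Čech-bis
setting (`FCorePlanG.FrobCoreAt`), `[FJSide]` makes `(τ - Q)(τ - 1)² D̃` principal, and the `Pic⁰`
bookkeeping gives `(σ² - q²)² (σ² - 1)² [D] = 0`, i.e. `URoutePlan.frobPolyU q σ [D] = 0`.

* `fTilde N τ Q f`, `dTilde N τ Q D`, `ord_fTilde`, `fTilde_ne_zero`, `dvd_ord_fTilde`;
* `condU_fTilde`            — `CondU M q m σ (fTilde (M q) (σσ) (q²) f)`;
* `frobU_mk_eq_zero`        — GENERIC `Pic⁰` step: `fDiv N τ Q (τ D - Q D)` principal ⟹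
                              `(τ - Q)(τ - 1)² (τ x - Q x) = 0`, `x = [D]`;
* `frobPolyU_mk_eq_zero`    — the same in the `frobPolyU` vocabulary (`τ = σ σ`, `Q = q²`);
* `frobPolyU_of_divAt`      — one pair `(f, D)`: `FCorePlanG.FrobDivAt` for `f̃` ⟹ the conclusion;
* `frobPolyU_of_coreAt`     — … from `FCorePlanG.FrobCoreAt` for `f̃` + `Cech2Statement`;
* `frobPolyU_of_modelF`     — … from a `ModelFPlan.ModelF` for `f̃` + the abstract leaves;
* `frobNewU_of_divAt`, `frobNewU_of_coreAt`, `frobNewU_of_modelF`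
                            — `URoutePlan.FrobNewUStatement` from the corresponding family;
* `frobNewU`                — **the row**: `Cech2Statement → CutAtStatement → LocFStatement →
                              HwFStatement → LocAdapterStatement →
                              (∀ M q p n, … → ModelFStatementOf M q (p ^ n) (CondU M q (p ^ n))) →
                              URoutePlan.FrobNewUStatement`;
* `frobNewU_of_models`      — **closed form**: the five leaves are theorems on main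
                              (`S34.Cech2.cech2Statement`, `S34.CutAtTop.cutAtStatement`,
                              `S35.LocFAll.locFStatement`, `S35.LocFAll.hwFStatement`,
                              `S34.LocHw.locAdapter`), so
                              `ModelFUStatement → URoutePlan.FrobNewUStatement`;
* `frobPolyU_of_model`      — closed per-pair form: a `ModelFPlan.ModelF` of `f̃` kills `[D]`.
-/
import Mathlib
import Fermat.Agent.S35.URoutePlan
import Fermat.Agent.S35.FCorePlanG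
import Fermat.Agent.S35.FJSide
import Fermat.Agent.S35.CoreAsmF
import Fermat.Agent.S35.LocFAll
import Fermat.Agent.S34.Cech2
import Fermat.Agent.S34.CutAtTop
import Fermat.Agent.S34.LocHw

set_option autoImplicit false

open ModularCurve AlgebraicCurve HahnSeries

namespace Fermat.Agent.S35.UOut

open Fermat.Agent.S18.Arith Fermat.Agent.S34 Fermat.Agent.S35.FCorePlan
open Fermat.Agent.S29 (GQ)

noncomputable section

set_option synthInstance.maxHeartbeats 400000

/-! ### The function `f̃ = τ f / f ^ Q` and the divisor `D̃ = τ D - Q • D` -/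

section Tilde

variable {N : ℕ}

/-- `f̃ = τ f / f ^ Q`. -/
def fTilde (N : ℕ) (τ : Qb ≃ₐ[ℚ] Qb) (Q : ℕ) (f : modularFunctionFieldBar N) :
    modularFunctionFieldBar N :=
  (UPlan.gal N τ • f) / f ^ Q

/-- `D̃ = τ D - Q • D`. -/
def dTilde (N : ℕ) (τ : Qb ≃ₐ[ℚ] Qb) (Q : ℕ) (D : Divisor Qb (modularFunctionFieldBar N)) :
    Divisor Qb (modularFunctionFieldBar N) :=
  UPlan.gal N τ • D - Q • D

theorem fTilde_ne_zero (τ : Qb ≃ₐ[ℚ] Qb) (Q : ℕ) {f : modularFunctionFieldBar N} (hf : f ≠ 0) :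
    fTilde N τ Q f ≠ 0 := by
  unfold fTilde
  exact div_ne_zero (UPlan.gal_smul_ne_zero τ hf) (pow_ne_zero Q hf)

theorem dTilde_apply (τ : Qb ≃ₐ[ℚ] Qb) (Q : ℕ) (D : Divisor Qb (modularFunctionFieldBar N))
    (P : Place Qb (modularFunctionFieldBar N)) :
    (dTilde N τ Q D) P = D ((UPlan.gal N τ)⁻¹ • P) - (Q : ℤ) * D P := by
  unfold dTilde
  rw [Finsupp.sub_apply, SemilinearAut.divisor_smul_apply, Finsupp.smul_apply, nsmul_eq_mul]

/-- `div f̃ = m • D̃` if `div f = m • D`. -/
theorem ord_fTilde (τ : Qb ≃ₐ[ℚ] Qb) (Q : ℕ) {m : ℕ} {f : modularFunctionFieldBar N}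
    (hf : f ≠ 0) {D : Divisor Qb (modularFunctionFieldBar N)}
    (hD : ∀ P : Place Qb (modularFunctionFieldBar N), (m : ℤ) * D P = P.ord f)
    (P : Place Qb (modularFunctionFieldBar N)) :
    (m : ℤ) * (dTilde N τ Q D) P = P.ord (fTilde N τ Q f) := by
  unfold fTilde
  rw [Fermat.Agent.S24.ord_div P (UPlan.gal_smul_ne_zero τ hf) (pow_ne_zero Q hf),
    Fermat.Agent.S24.ord_pow, UPlan.ord_gal_smul, dTilde_apply, ← hD, ← hD]
  ring

theorem dvd_ord_fTilde (τ : Qb ≃ₐ[ℚ] Qb) (Q : ℕ) {m : ℕ} {f : modularFunctionFieldBar N}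
    (hf : f ≠ 0) {D : Divisor Qb (modularFunctionFieldBar N)}
    (hD : ∀ P : Place Qb (modularFunctionFieldBar N), (m : ℤ) * D P = P.ord f)
    (P : Place Qb (modularFunctionFieldBar N)) :
    (m : ℤ) ∣ P.ord (fTilde N τ Q f) :=
  ⟨(dTilde N τ Q D) P, (ord_fTilde τ Q hf hD P).symm⟩

/-- The condition of the `[U]`-route holds for `f̃` by definition. -/
theorem condU_fTilde (M q m : ℕ) [NeZero q] (σ : GQ) {f : modularFunctionFieldBar (M * q)}
    (hf : f ≠ 0) (hU : URoutePlan.UCond (M * q) q m f) :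
    URoutePlan.CondU M q m σ (fTilde (M * q) (σ * σ) (q ^ 2) f) :=
  ⟨f, hf, hU, rfl⟩

end Tilde

/-! ### From divisors to `Pic⁰` -/

/-- **Generic `Pic⁰` step of the `[U]`-route** (any level, any `τ`, `Q`): if
`fDiv N τ Q (τ D - Q • D)` is principal for a degree-zero divisor `D`, then
`(τ - Q)(τ - 1)²` kills `τ x - Q x`, `x = [D]`. -/
theorem frobU_mk_eq_zero (N : ℕ) (τ : Qb ≃ₐ[ℚ] Qb) (Q : ℕ)
    (D : Divisor.degZero (K := Qb) (F := modularFunctionFieldBar N))
    (hprin : Divisor.IsPrincipal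
      (fDiv N τ Q (dTilde N τ Q (D : Divisor Qb (modularFunctionFieldBar N))))) :
    τ • (τ • τ • (τ • (Pic0.mk D : JZero N) - Q • Pic0.mk D)
        + (τ • (Pic0.mk D : JZero N) - Q • Pic0.mk D)
        - (τ • (τ • (Pic0.mk D : JZero N) - Q • Pic0.mk D)
          + τ • (τ • (Pic0.mk D : JZero N) - Q • Pic0.mk D))) -
      Q • (τ • τ • (τ • (Pic0.mk D : JZero N) - Q • Pic0.mk D)
        + (τ • (Pic0.mk D : JZero N) - Q • Pic0.mk D)
        - (τ • (τ • (Pic0.mk D : JZero N) - Q • Pic0.mk D)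
          + τ • (τ • (Pic0.mk D : JZero N) - Q • Pic0.mk D))) = 0 := by
  -- the degree-zero divisor `D̃ = τ D - Q • D`
  set Dt : Divisor.degZero (K := Qb) (F := modularFunctionFieldBar N) :=
    SemilinearAut.degZeroSMulHom (UPlan.gal N τ) D - Q • D with hDt
  have hcoe : (Dt : Divisor Qb (modularFunctionFieldBar N)) =
      dTilde N τ Q (D : Divisor Qb (modularFunctionFieldBar N)) := by
    rw [hDt, AddSubgroup.coe_sub, SemilinearAut.coe_degZeroSMulHom, AddSubgroup.coe_nsmul]
    rfl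
  have hmk : τ • (Pic0.mk D : JZero N) - Q • Pic0.mk D = Pic0.mk Dt := by
    have h1 : (Pic0.mk (Q • D) : JZero N) = Q • Pic0.mk D :=
      map_nsmul (QuotientAddGroup.mk' _) Q D
    rw [hDt, ← h1]
    rfl
  rw [hmk]
  refine FJSide.frob_mk_eq_zero N τ Q Dt ?_
  rw [hcoe]
  exact hprin

/-- The same in the vocabulary of `URoutePlan.frobPolyU`: `τ = σ σ`, `Q = q²`. -/
theorem frobPolyU_mk_eq_zero (N q : ℕ) (σ : GQ)
    (D : Divisor.degZero (K := Qb) (F := modularFunctionFieldBar N))
    (hprin : Divisor.IsPrincipal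
      (fDiv N (σ * σ) (q ^ 2)
        (dTilde N (σ * σ) (q ^ 2) (D : Divisor Qb (modularFunctionFieldBar N))))) :
    URoutePlan.frobPolyU q σ (Pic0.mk D : JZero N) = 0 := by
  have h := FJSide.frobTors_nested (σ * σ) (q ^ 2)
    ((σ * σ) • (Pic0.mk D : JZero N) - (q ^ 2) • Pic0.mk D)
    (frobU_mk_eq_zero N (σ * σ) (q ^ 2) D hprin)
  unfold URoutePlan.frobPolyU NewPlan.frobPoly
  simp only [mul_smul] at h
  exact h

/-! ### One Kummer pair -/

section One

variable {N : ℕ} [NeZero N]

omit [NeZero N] in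
/-- One pair `(f, D)`, from the conclusion of `[FJSide]` (i) for `f̃`. -/
theorem frobPolyU_of_divAt (q m : ℕ) (σ : GQ) {f : modularFunctionFieldBar N} (hf : f ≠ 0)
    (D : Divisor.degZero (K := Qb) (F := modularFunctionFieldBar N))
    (hD : ∀ P : Place Qb (modularFunctionFieldBar N),
      (m : ℤ) * (D : Divisor Qb (modularFunctionFieldBar N)) P = P.ord f)
    (hdiv : FCorePlanG.FrobDivAt N (σ * σ) (q ^ 2) m (fTilde N (σ * σ) (q ^ 2) f)) :
    URoutePlan.frobPolyU q σ (Pic0.mk D : JZero N) = 0 :=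
  frobPolyU_mk_eq_zero N q σ D
    (hdiv (dTilde N (σ * σ) (q ^ 2) (D : Divisor Qb (modularFunctionFieldBar N)))
      (ord_fTilde (σ * σ) (q ^ 2) hf hD))

/-- `[FJSide]` (i) for one function, from the conclusion of `[CoreAsmF]` for that function. -/
theorem frobDivAt_of_coreAt (hCech : Cech2Plan.Cech2Statement) {A : ValuationSubring Qb}
    {τ : Qb ≃ₐ[ℚ] Qb} {Q m : ℕ} (hm : m ≠ 0) {f : modularFunctionFieldBar N} (hf : f ≠ 0)
    (hcore : FCorePlanG.FrobCoreAt N A τ Q m f) : FCorePlanG.FrobDivAt N τ Q m f :=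
  fun D hD => FJSide.isPrincipal_fDiv_of_exists N τ Q m hm hCech A f hf hcore D hD

/-- One pair `(f, D)`, from the conclusion of `[CoreAsmF]` for `f̃`. -/
theorem frobPolyU_of_coreAt (hCech : Cech2Plan.Cech2Statement) (A : ValuationSubring Qb)
    (q m : ℕ) (hm : m ≠ 0) (σ : GQ) {f : modularFunctionFieldBar N} (hf : f ≠ 0)
    (D : Divisor.degZero (K := Qb) (F := modularFunctionFieldBar N))
    (hD : ∀ P : Place Qb (modularFunctionFieldBar N),
      (m : ℤ) * (D : Divisor Qb (modularFunctionFieldBar N)) P = P.ord f)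
    (hcore : FCorePlanG.FrobCoreAt N A (σ * σ) (q ^ 2) m (fTilde N (σ * σ) (q ^ 2) f)) :
    URoutePlan.frobPolyU q σ (Pic0.mk D : JZero N) = 0 :=
  frobPolyU_of_divAt q m σ hf D hD
    (frobDivAt_of_coreAt hCech hm (fTilde_ne_zero (σ * σ) (q ^ 2) hf) hcore)

/-- One pair `(f, D)`, from a Frobenius model of `f̃` and the abstract leaves of block [E]. -/
theorem frobPolyU_of_modelF (hCech : Cech2Plan.Cech2Statement)
    (hCut : LocPlan.CutAtStatement) (hLocF : LocFPlan.LocFStatement)
    (hHwF : LocFPlan.HwFStatement) (hAd : LocPlan.LocAdapterStatement)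
    (A : ValuationSubring Qb) (q m : ℕ) (σ : GQ) {f : modularFunctionFieldBar N} (hf : f ≠ 0)
    (D : Divisor.degZero (K := Qb) (F := modularFunctionFieldBar N))
    (hD : ∀ P : Place Qb (modularFunctionFieldBar N),
      (m : ℤ) * (D : Divisor Qb (modularFunctionFieldBar N)) P = P.ord f)
    (hM : Nonempty (ModelFPlan.ModelF N A m (q ^ 2) (σ * σ) (fTilde N (σ * σ) (q ^ 2) f))) :
    URoutePlan.frobPolyU q σ (Pic0.mk D : JZero N) = 0 := by
  have hft := fTilde_ne_zero (σ * σ) (q ^ 2) hf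
  have hm : m ≠ 0 := by
    obtain ⟨Md⟩ := hM
    exact CoreAsmF.m_ne_zero Md
  exact frobPolyU_of_coreAt hCech A q m hm σ hf D hD
    (CoreAsmF.frobCore_of_modelF hCut hLocF hHwF hAd hft hM)

end One

/-! ### The statement of the row -/

/-- `FrobNewUStatement` from `[FJSide]` (i) for the functions `f̃`. -/
theorem frobNewU_of_divAt
    (h : ∀ (M q : ℕ) [NeZero M] [NeZero q], q.Prime → ¬ q ∣ M → ∀ (p n : ℕ), p.Prime → p ≠ q →
      ∀ f : modularFunctionFieldBar (M * q), f ≠ 0 →
        (∀ P : Place Qb (modularFunctionFieldBar (M * q)), ((p ^ n : ℕ) : ℤ) ∣ P.ord f) →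
        URoutePlan.UCond (M * q) q (p ^ n) f →
        ∀ A : ValuationSubring Qb, A.LiesOverPrime q → ∀ σ : GQ, A.IsFrobeniusAt σ q →
          FCorePlanG.FrobDivAt (M * q) (σ * σ) (q ^ 2) (p ^ n)
            (fTilde (M * q) (σ * σ) (q ^ 2) f)) :
    URoutePlan.FrobNewUStatement := by
  intro M q _ _ hq hqM p n hp hpq f D hf hD hU A hA σ hσ
  exact frobPolyU_of_divAt q (p ^ n) σ hf D hD
    (h M q hq hqM p n hp hpq f hf (fun P => ⟨_, (hD P).symm⟩) hU A hA σ hσ)

/-- `FrobNewUStatement` from `[CoreAsmF]` for the functions `f̃` (+ the Čech-bis lemma). -/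
theorem frobNewU_of_coreAt (hCech : Cech2Plan.Cech2Statement)
    (h : ∀ (M q : ℕ) [NeZero M] [NeZero q] [NeZero (M * q)], q.Prime → ¬ q ∣ M →
      ∀ (p n : ℕ), p.Prime → p ≠ q →
      ∀ f : modularFunctionFieldBar (M * q), f ≠ 0 →
        (∀ P : Place Qb (modularFunctionFieldBar (M * q)), ((p ^ n : ℕ) : ℤ) ∣ P.ord f) →
        URoutePlan.UCond (M * q) q (p ^ n) f →
        ∀ A : ValuationSubring Qb, A.LiesOverPrime q → ∀ σ : GQ, A.IsFrobeniusAt σ q →
          FCorePlanG.FrobCoreAt (M * q) A (σ * σ) (q ^ 2) (p ^ n)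
            (fTilde (M * q) (σ * σ) (q ^ 2) f)) :
    URoutePlan.FrobNewUStatement := by
  refine frobNewU_of_divAt ?_
  intro M q _ _ hq hqM p n hp hpq f hf hdvd hU A hA σ hσ
  have : NeZero (M * q) := ⟨mul_ne_zero (NeZero.ne M) (NeZero.ne q)⟩
  exact frobDivAt_of_coreAt hCech (pow_ne_zero n hp.ne_zero)
    (fTilde_ne_zero (σ * σ) (q ^ 2) hf) (h M q hq hqM p n hp hpq f hf hdvd hU A hA σ hσ)

/-- The hypothesis on the modular block consumed by the row: Frobenius models for the functions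
`f̃ = σ² f / f ^ (q²)`, `f` with the `U`-condition (the weakest form: `q` prime, `q ∤ M`,
`m = p ^ n` with `p ≠ q` prime). -/
def ModelFUStatement : Prop :=
  ∀ (M q : ℕ) [NeZero M] [NeZero q] [NeZero (M * q)], q.Prime → ¬ q ∣ M →
    ∀ (p n : ℕ), p.Prime → p ≠ q →
      FCorePlanG.ModelFStatementOf M q (p ^ n) (URoutePlan.CondU M q (p ^ n))

/-- `FrobNewUStatement` from the Frobenius models of the functions `f̃`, in the per-function
form of the assembly (`core` = `CoreAsmF.frobCore_of_modelF` with its four leaves). -/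
theorem frobNewU_of_modelF (hCech : Cech2Plan.Cech2Statement)
    (core : ∀ (N : ℕ) [NeZero N] (A : ValuationSubring Qb) (m Q : ℕ) (τ : Qb ≃ₐ[ℚ] Qb)
      (f : modularFunctionFieldBar N), f ≠ 0 → Nonempty (ModelFPlan.ModelF N A m Q τ f) →
      FCorePlanG.FrobCoreAt N A τ Q m f)
    (hModel : ModelFUStatement) : URoutePlan.FrobNewUStatement := by
  refine frobNewU_of_coreAt hCech ?_
  intro M q _ _ _ hq hqM p n hp hpq f hf hdvd hU A hA σ hσ
  have hft := fTilde_ne_zero (σ * σ) (q ^ 2) hf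
  have hdvd' : ∀ P : Place Qb (modularFunctionFieldBar (M * q)),
      ((p ^ n : ℕ) : ℤ) ∣ P.ord (fTilde (M * q) (σ * σ) (q ^ 2) f) := by
    intro P
    unfold fTilde
    rw [Fermat.Agent.S24.ord_div P (UPlan.gal_smul_ne_zero (σ * σ) hf) (pow_ne_zero _ hf),
      Fermat.Agent.S24.ord_pow, UPlan.ord_gal_smul]
    exact dvd_sub (hdvd _) (Dvd.dvd.mul_left (hdvd P) _)
  exact core (M * q) A (p ^ n) (q ^ 2) (σ * σ) _ hft
    (hModel M q hq hqM p n hp hpq A hA σ hσ _ hft hdvd' (condU_fTilde M q (p ^ n) σ hf hU))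

/-- **Row [UOut]**: `URoutePlan.FrobNewUStatement` from the Čech-bis lemma, the four abstract
leaves of the assembly `[CoreAsmF]` and the Frobenius models of the `[U]`-route. -/
theorem frobNewU (hCech : Cech2Plan.Cech2Statement) (hCut : LocPlan.CutAtStatement)
    (hLocF : LocFPlan.LocFStatement) (hHwF : LocFPlan.HwFStatement)
    (hAd : LocPlan.LocAdapterStatement) (hModel : ModelFUStatement) :
    URoutePlan.FrobNewUStatement :=
  frobNewU_of_modelF hCech
    (fun _ _ _ _ _ _ _ hf hM => CoreAsmF.frobCore_of_modelF hCut hLocF hHwF hAd hf hM) hModel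

/-- **Row [UOut], closed form**: the only remaining input is the family of Frobenius models of
the functions `f̃` (the modular block of the `[U]`-route). -/
theorem frobNewU_of_models (hModel : ModelFUStatement) : URoutePlan.FrobNewUStatement :=
  frobNewU Cech2.cech2Statement CutAtTop.cutAtStatement LocFAll.locFStatement
    LocFAll.hwFStatement LocHw.locAdapter hModel

/-- Closed per-pair form: a Frobenius model of `f̃ = σ² f / f ^ (q²)` kills the class of `D`
(`div f = m • D`) by `(σ² - q²)² (σ² - 1)²`; any level, no condition on `f`. -/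
theorem frobPolyU_of_model {N : ℕ} [NeZero N] (A : ValuationSubring Qb) (q m : ℕ) (σ : GQ)
    {f : modularFunctionFieldBar N} (hf : f ≠ 0)
    (D : Divisor.degZero (K := Qb) (F := modularFunctionFieldBar N))
    (hD : ∀ P : Place Qb (modularFunctionFieldBar N),
      (m : ℤ) * (D : Divisor Qb (modularFunctionFieldBar N)) P = P.ord f)
    (hM : Nonempty (ModelFPlan.ModelF N A m (q ^ 2) (σ * σ) (fTilde N (σ * σ) (q ^ 2) f))) :
    URoutePlan.frobPolyU q σ (Pic0.mk D : JZero N) = 0 :=
  frobPolyU_of_modelF Cech2.cech2Statement CutAtTop.cutAtStatement LocFAll.locFStatement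
    LocFAll.hwFStatement LocHw.locAdapter A q m σ hf D hD hM

end

end Fermat.Agent.S35.UOut
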