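/-
S35 — UOutB.lean (helper76).  Row [UOut] (B-copy) of the `[U]`-route (helper93, deal #2758):
the consumer form (E-out, `U`-form) `URoutePlan.FrobNewUStatement` from the modular assembly for
the condition `URoutePlan.CondU`.

For `f ≠ 0` with `div f = m • D` and `τ = σ * σ`, `Q = q ^ 2` put

    `f̃ = τ f / f ^ Q`,        `D̃ = τ D - Q • D`      (`div f̃ = m • D̃`).

`URoutePlan.CondU M q m σ f̃` holds by definition as soon as `f` satisfies `URoutePlan.UCond`,
so a per-function divisor statement for the condition `CondU` (`FCorePlanG.FrobDivAt`) makes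
`(τ - Q)(τ - 1)² D̃` principal, which is `frobPolyU q σ [D] = 0` in `J₀(M q)`.

* `fTilde`, `fTilde_ne_zero`, `ord_fTilde`, `dvd_ord_fTilde` — the function `f̃`;
* `frobPolyU_mk_eq_zero`   — `frobPolyU q σ [D] = 0` if `(τ - q²)(τ - 1)² (τ D - q² D)` is
                             principal;
* `frobNewU_of_divAt`      — `FrobNewUStatement` from the per-function divisor statement for
                             `CondU`;
* `frobNewU_of_coreAt`     — the same from the per-function Čech-bis statement (`FrobCoreAt`)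
                             and `Cech2Statement`;
* `frobNewU_of_modelF'`    — the same from `ModelFStatementOf … CondU` and the per-function
                             implications `ModelF → FrobCoreAt → FrobDivAt` as hypotheses;
* `frobNewU_of_modelF`     — CLOSED form: `FrobNewUStatement` from
                             `∀ M q m, ModelFStatementOf M q m (CondU M q m)` alone.
-/
import Mathlib
import Fermat.Agent.S35.URoutePlan
import Fermat.Agent.S35.FCorePlanG
import Fermat.Agent.S35.FrobNew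
import Fermat.Agent.S35.FJSideG
import Fermat.Agent.S35.CoreAsmFBTop

set_option autoImplicit false

open ModularCurve AlgebraicCurve HahnSeries

namespace Fermat.Agent.S35.UOutB

open Fermat.Agent.S18.Arith Fermat.Agent.S34

noncomputable section

set_option synthInstance.maxHeartbeats 400000

/-! ### The function `f̃ = τ f / f ^ Q` -/

section Fun

variable {N : ℕ}

/-- `f̃ = τ f / f ^ Q`. -/
def fTilde (N : ℕ) (τ : Qb ≃ₐ[ℚ] Qb) (Q : ℕ) (f : modularFunctionFieldBar N) :
    modularFunctionFieldBar N :=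
  (UPlan.gal N τ • f) / f ^ Q

theorem fTilde_ne_zero (τ : Qb ≃ₐ[ℚ] Qb) (Q : ℕ) {f : modularFunctionFieldBar N} (hf : f ≠ 0) :
    fTilde N τ Q f ≠ 0 :=
  div_ne_zero (UPlan.gal_smul_ne_zero τ hf) (pow_ne_zero Q hf)

/-- `div f̃ = m • (τ D - Q • D)` if `div f = m • D`. -/
theorem ord_fTilde (τ : Qb ≃ₐ[ℚ] Qb) (Q : ℕ) {m : ℕ} {f : modularFunctionFieldBar N}
    (hf : f ≠ 0) {D : Divisor Qb (modularFunctionFieldBar N)}
    (hD : ∀ P : Place Qb (modularFunctionFieldBar N), (m : ℤ) * D P = P.ord f)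
    (P : Place Qb (modularFunctionFieldBar N)) :
    (m : ℤ) * (UPlan.gal N τ • D - Q • D) P = P.ord (fTilde N τ Q f) := by
  have h1 := UPlan.ord_gal_of_div τ hD P
  unfold fTilde
  rw [Fermat.Agent.S24.ord_div P (UPlan.gal_smul_ne_zero τ hf) (pow_ne_zero Q hf),
    Fermat.Agent.S24.ord_pow, ← h1, ← hD P]
  simp only [Finsupp.coe_sub, Pi.sub_apply, Finsupp.smul_apply, nsmul_eq_mul]
  ring

/-- `m ∣ ord_P f̃` at every place if `m ∣ ord_P f` at every place. -/
theorem dvd_ord_fTilde (τ : Qb ≃ₐ[ℚ] Qb) (Q : ℕ) {m : ℕ} {f : modularFunctionFieldBar N}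
    (hf : f ≠ 0) (h : ∀ P : Place Qb (modularFunctionFieldBar N), (m : ℤ) ∣ P.ord f)
    (P : Place Qb (modularFunctionFieldBar N)) : (m : ℤ) ∣ P.ord (fTilde N τ Q f) := by
  unfold fTilde
  rw [Fermat.Agent.S24.ord_div P (UPlan.gal_smul_ne_zero τ hf) (pow_ne_zero Q hf),
    Fermat.Agent.S24.ord_pow]
  exact dvd_sub (UPlan.dvd_ord_gal τ h P) (Dvd.dvd.mul_left (h P) _)

end Fun

/-! ### The `J`-side: `frobPolyU` -/

/-- `(σ² - q²)² (σ² - 1)² [D] = 0` in `J₀(N)` if the divisor `(τ - q²)(τ - 1)² (τ D - q² D)`,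
`τ = σ * σ`, is principal. -/
theorem frobPolyU_mk_eq_zero {N : ℕ} (q : ℕ) (σ : Qb ≃ₐ[ℚ] Qb)
    (D : Divisor.degZero (K := Qb) (F := modularFunctionFieldBar N))
    (h : Divisor.IsPrincipal
      (FCorePlan.fDiv N (σ * σ) (q ^ 2)
        (UPlan.gal N (σ * σ) • (D : Divisor Qb (modularFunctionFieldBar N))
          - (q ^ 2) • (D : Divisor Qb (modularFunctionFieldBar N))))) :
    URoutePlan.frobPolyU q σ (Pic0.mk D : JZero N) = 0 := by
  set τ : Qb ≃ₐ[ℚ] Qb := σ * σ with hτ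
  -- `τ D - q² D`, as a degree-zero divisor
  set Dt : Divisor.degZero (K := Qb) (F := modularFunctionFieldBar N) :=
    SemilinearAut.degZeroSMulHom (UPlan.gal N τ) D - (q ^ 2) • D with hDt
  have h1 : (Pic0.mk Dt : JZero N) =
      τ • (Pic0.mk D : JZero N) - (q ^ 2) • (Pic0.mk D : JZero N) := rfl
  have h2 : NewPlan.frobPoly q σ (Pic0.mk Dt : JZero N) = 0 :=
    FrobNew.frobPoly_mk_eq_zero q σ Dt h
  unfold URoutePlan.frobPolyU
  rw [(mul_smul σ σ (Pic0.mk D : JZero N)).symm, ← h1]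
  exact h2

/-! ### The glue -/

/-- **[UOut], from the per-function divisor statement**: `URoutePlan.FrobNewUStatement` if
`(τ - q²)(τ - 1)² D'` is principal (`FCorePlanG.FrobDivAt`) for every function satisfying
`URoutePlan.CondU`, `τ = σs²` for a Frobenius lift `σs` at `q`. -/
theorem frobNewU_of_divAt
    (hDiv : ∀ (M q m : ℕ) [NeZero M] [NeZero q] [NeZero (M * q)], q.Prime → ¬ q ∣ M → ¬ q ∣ m →
      ∀ A : ValuationSubring Qb, A.LiesOverPrime q →
      ∀ σs : Qb ≃ₐ[ℚ] Qb, A.IsFrobeniusAt σs q →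
      ∀ ft : modularFunctionFieldBar (M * q), ft ≠ 0 →
        (∀ P : Place Qb (modularFunctionFieldBar (M * q)), (m : ℤ) ∣ P.ord ft) →
        URoutePlan.CondU M q m σs ft →
        FCorePlanG.FrobDivAt (M * q) (σs * σs) (q ^ 2) m ft) :
    URoutePlan.FrobNewUStatement := by
  intro M q _ _ hq hqM p n hp hpq f D hf hD hU A hA σ hσ
  have : NeZero (M * q) := ⟨mul_ne_zero (NeZero.ne M) (NeZero.ne q)⟩
  have hqm : ¬ q ∣ p ^ n := fun h =>
    hpq ((Nat.prime_dvd_prime_iff_eq hq hp).1 (hq.dvd_of_dvd_pow h)).symm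
  have hdvd : ∀ P : Place Qb (modularFunctionFieldBar (M * q)),
      ((p ^ n : ℕ) : ℤ) ∣ P.ord f := fun P => ⟨_, (hD P).symm⟩
  have hft0 : fTilde (M * q) (σ * σ) (q ^ 2) f ≠ 0 := fTilde_ne_zero (σ * σ) (q ^ 2) hf
  have hcond : URoutePlan.CondU M q (p ^ n) σ (fTilde (M * q) (σ * σ) (q ^ 2) f) :=
    ⟨f, hf, hU, rfl⟩
  exact frobPolyU_mk_eq_zero q σ D
    (hDiv M q (p ^ n) hq hqM hqm A hA σ hσ _ hft0
      (dvd_ord_fTilde (σ * σ) (q ^ 2) hf hdvd) hcond _
      (ord_fTilde (σ * σ) (q ^ 2) hf hD))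

/-- **[UOut], from the per-function Čech-bis statement** (`FCorePlanG.FrobCoreAt`) for the
functions satisfying `URoutePlan.CondU`, and `Cech2Statement`. -/
theorem frobNewU_of_coreAt (hCech : Cech2Plan.Cech2Statement)
    (hCore : ∀ (M q m : ℕ) [NeZero M] [NeZero q] [NeZero (M * q)], q.Prime → ¬ q ∣ M →
      ¬ q ∣ m →
      ∀ A : ValuationSubring Qb, A.LiesOverPrime q →
      ∀ σs : Qb ≃ₐ[ℚ] Qb, A.IsFrobeniusAt σs q →
      ∀ ft : modularFunctionFieldBar (M * q), ft ≠ 0 →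
        (∀ P : Place Qb (modularFunctionFieldBar (M * q)), (m : ℤ) ∣ P.ord ft) →
        URoutePlan.CondU M q m σs ft →
        FCorePlanG.FrobCoreAt (M * q) A (σs * σs) (q ^ 2) m ft) :
    URoutePlan.FrobNewUStatement := by
  refine frobNewU_of_divAt ?_
  intro M q m _ _ _ hq hqM hqm A hA σs hσs ft hft hdvd hcond
  have hm : m ≠ 0 := fun h0 => hqm (h0 ▸ dvd_zero q)
  exact FJSideG.frobDiv_at hm hCech hft (hCore M q m hq hqM hqm A hA σs hσs ft hft hdvd hcond)

/-- **[UOut], hypothesis form of deal #2758**: `URoutePlan.FrobNewUStatement` from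
(i) the modular assembly `FCorePlanG.ModelFStatementOf M q m (URoutePlan.CondU M q m)`,
(ii) `[CoreAsmF]` per function (`ModelF → FrobCoreAt`), (iii) `[FJSide]` (i) per function
(`FrobCoreAt → FrobDivAt`). -/
theorem frobNewU_of_modelF'
    (hModel : ∀ (M q m : ℕ) [NeZero M] [NeZero q] [NeZero (M * q)], q.Prime → ¬ q ∣ M →
      ¬ q ∣ m → FCorePlanG.ModelFStatementOf M q m (URoutePlan.CondU M q m))
    (hCoreAsm : ∀ (N : ℕ) [NeZero N] (A : ValuationSubring Qb) (m Q : ℕ) (τ : Qb ≃ₐ[ℚ] Qb)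
      (f : modularFunctionFieldBar N), f ≠ 0 → ModelFPlan.ModelF N A m Q τ f →
      FCorePlanG.FrobCoreAt N A τ Q m f)
    (hFJ : ∀ (N : ℕ) [NeZero N] (A : ValuationSubring Qb) (τ : Qb ≃ₐ[ℚ] Qb) (Q m : ℕ)
      (f : modularFunctionFieldBar N), m ≠ 0 → f ≠ 0 → FCorePlanG.FrobCoreAt N A τ Q m f →
      FCorePlanG.FrobDivAt N τ Q m f) :
    URoutePlan.FrobNewUStatement := by
  refine frobNewU_of_divAt ?_
  intro M q m _ _ _ hq hqM hqm A hA σs hσs ft hft hdvd hcond
  have hm : m ≠ 0 := fun h0 => hqm (h0 ▸ dvd_zero q)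
  obtain ⟨Mo⟩ := hModel M q m hq hqM hqm A hA σs hσs ft hft hdvd hcond
  exact hFJ (M * q) A (σs * σs) (q ^ 2) m ft hm hft
    (hCoreAsm (M * q) A m (q ^ 2) (σs * σs) ft hft Mo)

/-- **[UOut], CLOSED over the modular assembly**: `URoutePlan.FrobNewUStatement` from
`FCorePlanG.ModelFStatementOf M q m (URoutePlan.CondU M q m)` for all `M`, `q` prime not
dividing `M`, `q ∤ m` (the abstract leaves `CutAt`, `LocAdapter`, `LocF`, `Cech2` and the
`J`-side are discharged by `S35/CoreAsmFBTop.lean`). -/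
theorem frobNewU_of_modelF
    (hModel : ∀ (M q m : ℕ) [NeZero M] [NeZero q] [NeZero (M * q)], q.Prime → ¬ q ∣ M →
      ¬ q ∣ m → FCorePlanG.ModelFStatementOf M q m (URoutePlan.CondU M q m)) :
    URoutePlan.FrobNewUStatement := by
  refine frobNewU_of_divAt ?_
  intro M q m _ _ _ hq hqM hqm A hA σs hσs ft hft hdvd hcond
  exact CoreAsmFBTop.frobDivAt_of_statementOf M q m (URoutePlan.CondU M q m)
    (hModel M q m hq hqM hqm) A hA σs hσs ft hft hdvd hcond

end

end Fermat.Agent.S35.UOutB
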