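/-
S35 — UTop.lean (helper12; dealt by helper93).  END-TO-END glue of the `[U]`-route (the hedge for
the bridge block [D] of the S35 blueprint).

The frozen conclusion of S35 from TWO hypotheses, each in its shape of record:

* `CorrUStatement`   — **[GNormU]** (+ **[URed]**): the corrector
                        `ModelFAsm.CorrStatement M q hq hqM m (URoutePlan.CondU M q m)` for all
                        `q` prime, `q ∤ M`, `m ≠ 0`;
* `LevelQUStatement` — **[LevelQ-U]**: `DetQ2.LevelQPowStatement lam M S O' χ 2 2` from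
                        `URoutePlan.FrobNewUStatement` and the family of `URoutePlan.KUStatement`s
                        (helper74's `LevelQU.levelQPowStatement_of_U`, verbatim).

Everything else is closed on main and plugged in here:

* **[UWit]** + **[UCond]**  : `UCond.kUStatement` (`kUAll` below);
* **[ModelF]** (condition-generic) : `ModelFTop.modelFStatementOf`;
* **[UOut]**                : `UOut.frobNewU_of_models` (Čech, cut, localisation, Pic⁰ bookkeeping);
* **[A']**                  : `DetQ2.result_of_levelQPow` with `S30.OddRepB.oddRepStatement` and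
                              `S29.FD.fdStatement`.
-/
import Mathlib
import Fermat.Agent.S30.OddRepB
import Fermat.Agent.S29.FD
import Fermat.Agent.S35.DetQ2
import Fermat.Agent.S35.ModelFTop
import Fermat.Agent.S35.UCond
import Fermat.Agent.S35.UOut

set_option autoImplicit false

noncomputable section

open ModularCurve AlgebraicCurve CongruenceSubgroup Polynomial

namespace Fermat.Agent.S35.UTop

open Fermat.Agent.S29 (Qb GQ)

/-- **[GNormU]** in the shape of record: the corrector for the `U`-condition, for every prime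
`q ∤ M` and every torsion order `m ≠ 0`. -/
def CorrUStatement : Prop :=
  ∀ (M q : ℕ) [NeZero M] [NeZero q] (hq : q.Prime) (hqM : ¬ q ∣ M) (m : ℕ), m ≠ 0 →
    ModelFAsm.CorrStatement M q hq hqM m (URoutePlan.CondU M q m)

/-- The family of **[UCond]** statements, in the shape consumed by **[LevelQ-U]**. -/
def KUAllStatement : Prop :=
  ∀ (M' q : ℕ) [NeZero M'] [NeZero q], q.Prime → ¬ q ∣ M' → ∀ m : ℕ, m ≠ 0 →
    URoutePlan.KUStatement M' q m

/-- **[UWit]** + **[UCond]**, closed (helper12's `UWitK.uWit` through helper24's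
`UCond.kUStatement`). -/
theorem kUAll : KUAllStatement :=
  fun M' q _ _ hq hqM m hm => UCond.kUStatement M' q m hq hqM hm

/-- **[LevelQ-U]** in the shape of record (helper74's `levelQPowStatement_of_U`): block [B] + [C]
+ `θ` for the `U`-route, i.e. the pseudo-representation level with the `(2, 2)` Frobenius power
relation at the special primes, from (E-out, `U`-form) and the `U`-conditions. -/
def LevelQUStatement : Prop :=
  URoutePlan.FrobNewUStatement → KUAllStatement →
  ∀ {M : ℕ} [NeZero M] {g : CuspForm (CongruenceSubgroup.Gamma0 M) 2}, g.IsNewform →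
  ∀ (lam : ℕ) [Fact lam.Prime] (S : Finset ℕ)
    (O' : Type) [CommRing O'] [IsDomain O'] [IsDiscreteValuationRing O'] [CharZero O']
    (chig : CuspForm.heckeAlgebra M 2 (↑S : Set ℕ) →+* ℂ),
    (∀ (ℓ : ℕ) (hℓ : ℓ.Prime) (hℓM : ¬ ℓ ∣ M) (hℓS : ℓ ∉ (↑S : Set ℕ)),
      chig (CuspForm.heckeAlgebra.T hℓ hℓM hℓS) = ModularFormClass.qCoeff g ℓ) →
    ∀ (iota : chig.range →+* O'), lam ∈ S →
      DetQ2.LevelQPowStatement lam M S O' (iota.comp chig.rangeRestrict) 2 2

/-- **[GNormU] ⇒ [ModelF] for the `U`-condition** (`UOut.ModelFUStatement`), through the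
condition-generic assembly `ModelFTop.modelFStatementOf`. -/
theorem modelFU_of_corrU (hCorr : CorrUStatement) : UOut.ModelFUStatement := by
  intro M q _ _ _ hq hqM p n hp hpq
  have hqm : ¬ q ∣ p ^ n := fun h =>
    hpq ((Nat.prime_dvd_prime_iff_eq hq hp).mp (hq.dvd_of_dvd_pow h)).symm
  exact ModelFTop.modelFStatementOf M q hq hqM (p ^ n) (URoutePlan.CondU M q (p ^ n)) hqm
    (hCorr M q hq hqM (p ^ n) (pow_ne_zero n hp.ne_zero))

/-- **[GNormU] ⇒ (E-out), `U`-form** (`URoutePlan.FrobNewUStatement`). -/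
theorem frobNewU_of_corrU (hCorr : CorrUStatement) : URoutePlan.FrobNewUStatement :=
  UOut.frobNewU_of_models (modelFU_of_corrU hCorr)

/-- **[GNormU] + [LevelQ-U] ⇒ the level statement consumed by [A']**. -/
theorem levelQPow_of_corrU (hLev : LevelQUStatement) (hCorr : CorrUStatement)
    {M : ℕ} [NeZero M] {g : CuspForm (CongruenceSubgroup.Gamma0 M) 2} (hg : g.IsNewform)
    (lam : ℕ) [Fact lam.Prime] (S : Finset ℕ)
    (O' : Type) [CommRing O'] [IsDomain O'] [IsDiscreteValuationRing O'] [CharZero O']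
    (chig : CuspForm.heckeAlgebra M 2 (↑S : Set ℕ) →+* ℂ)
    (hchig : ∀ (ℓ : ℕ) (hℓ : ℓ.Prime) (hℓM : ¬ ℓ ∣ M) (hℓS : ℓ ∉ (↑S : Set ℕ)),
      chig (CuspForm.heckeAlgebra.T hℓ hℓM hℓS) = ModularFormClass.qCoeff g ℓ)
    (iota : chig.range →+* O') (hlamS : lam ∈ S) :
    DetQ2.LevelQPowStatement lam M S O' (iota.comp chig.rangeRestrict) 2 2 :=
  hLev (frobNewU_of_corrU hCorr) kUAll hg lam S O' chig hchig iota hlamS

/-- **The frozen statement of S35 through the `[U]`-route**, from [LevelQ-U] and [GNormU]. -/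
theorem result_of_corrU (hLev : LevelQUStatement) (hCorr : CorrUStatement)
    {M : ℕ} [NeZero M] {g : CuspForm (CongruenceSubgroup.Gamma0 M) 2} (hg : g.IsNewform)
    (lam : ℕ) [Fact lam.Prime]
    (S : Finset ℕ)
    (O' : Type) [CommRing O'] [IsDomain O'] [IsDiscreteValuationRing O']
    [IsAdicComplete (IsLocalRing.maximalIdeal O') O'] [Finite (IsLocalRing.ResidueField O')]
    [CharZero O'] (hlamO' : (lam : O') ∈ IsLocalRing.maximalIdeal O')
    (chig : CuspForm.heckeAlgebra M 2 (↑S : Set ℕ) →+* ℂ)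
    (hchig : ∀ (ℓ : ℕ) (hℓ : ℓ.Prime) (hℓM : ¬ ℓ ∣ M) (hℓS : ℓ ∉ (↑S : Set ℕ)),
      chig (CuspForm.heckeAlgebra.T hℓ hℓM hℓS) = ModularFormClass.qCoeff g ℓ)
    (iota : chig.range →+* O')
    (hlamS : lam ∈ S) (hMS : ∀ q : ℕ, q.Prime → q ∣ M → q ∈ S)
    :
    ∃ (O'' : Type) (_ : CommRing O'') (_ : IsDomain O'') (_ : IsDiscreteValuationRing O'')
      (_ : IsAdicComplete (IsLocalRing.maximalIdeal O'') O'') (_ : Finite (IsLocalRing.ResidueField O''))
      (_ : CharZero O'') (_ : Algebra O' O'') (_ : Module.Finite O' O'') (_ : IsLocalHom (algebraMap O' O'')),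
      Function.Injective (algebraMap O' O'') ∧
      ∃ ρ : GaloisRepAdic O'',
        (∀ (ℓ : ℕ) (hℓ : ℓ.Prime) (hℓM : ¬ ℓ ∣ M) (hℓS : ℓ ∉ (↑S : Set ℕ)),
          ∀ A : ValuationSubring (AlgebraicClosure ℚ), A.LiesOverPrime ℓ →
            ∀ σ : AlgebraicClosure ℚ ≃ₐ[ℚ] AlgebraicClosure ℚ, A.IsFrobeniusAt σ ℓ →
              LinearMap.charpoly (ρ.ρ σ) =
                X ^ 2 - C (algebraMap O' O'' ((iota.comp chig.rangeRestrict) (CuspForm.heckeAlgebra.T hℓ hℓM hℓS))) * X
                  + C ((ℓ : O''))) ∧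
        (∀ q : ℕ, q.Prime → q ≠ lam → q ∣ M → ¬ q ^ 2 ∣ M →
          ∀ A : ValuationSubring (AlgebraicClosure ℚ), A.LiesOverPrime q →
            ∀ σ : AlgebraicClosure ℚ ≃ₐ[ℚ] AlgebraicClosure ℚ, A.IsFrobeniusAt σ q →
              LinearMap.charpoly (ρ.ρ σ) = X ^ 2 - C ((q : O'') + 1) * X + C ((q : O'')) ∨
              LinearMap.charpoly (ρ.ρ σ) = X ^ 2 + C ((q : O'') + 1) * X + C ((q : O''))) :=
  DetQ2.result_of_levelQPow Fermat.Agent.S30.OddRepB.oddRepStatement
    Fermat.Agent.S29.FD.fdStatement lam S O' hlamO' (iota.comp chig.rangeRestrict) hlamS hMS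
    2 2 (by decide)
    (levelQPow_of_corrU hLev hCorr hg lam S O' chig hchig iota hlamS)

end Fermat.Agent.S35.UTop
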