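/-
S35, [U]-route (helper93 #2697, architect ruling #2714), leaf [UWit] — UWit.lean (helper16).

`U_q`-products of witnesses: the twin of `S29/K6Hecke` (leaf (WH) = (K6)) for a prime `q ∣ N`,
i.e. with the `∞`-coset dropped.  Only the upper triangular representatives
`heckeMatrix q j = [[1, j], [0, q]]`, `j : ZMod q`, occur (coset data `S16.uData N q hq`).

* `kronU ζ q y := (∏_{i<q} y(ζ^i Q))(Q^{1/q})` — the formal `U_q`-product;
* `prod_slash_heckeMatrix_mem` : (K6a-twin) `A ∈ MFchi N w χ ⇒ ∏_j A ∣[w] α_j ∈ MFchi N (w q) χ'`,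
  `χ' γ = ∏_j χ (γ'_j)`;
* `qx_prod_slash_heckeMatrix` : (K6b-twin) `qx (∏_j A ∣[w] α_j) = c • kronU ζ q (qx A)`, `c ≠ 0`;
* `kronU_mem_Mchi`, `u_wit`   : the witness class is stable under `kronU`;
* `uWit`                      : **[UWit]** `Wit N p u y ⇒ ∃ y', Wit N p (U_q u) y' ∧
                                 y'(Q^q) = ∏_{i<q} y(ζ^i Q)`.
-/
import Mathlib
import Fermat.Agent.S29.K6Hecke
import Fermat.Agent.S41.ParMem
import Fermat.Agent.S35.URoutePlan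

set_option autoImplicit false

noncomputable section

namespace Fermat.Agent.S35.UWit

open CongruenceSubgroup Matrix.SpecialLinearGroup UpperHalfPlane ModularCurve HahnSeries Filter
open scoped MatrixGroups ModularForm Manifold
open P2MW.S_ModularForm_heckeT_slash_eq_self_of_mem_Gamma0.ModularForm.HeckeSlashInvariance
open ModularForm
open Fermat.Agent.S16 Fermat.Agent.S37 Fermat.Agent.S24 Fermat.Agent.S29

local notation "Qb" => AlgebraicClosure ℚ

/-! ### The formal `U`-product -/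

section Formal

variable {R : Type*} [CommRing R]

/-- `U' y := (∏_{i<q} y(ζ^i Q))(Q^{1/q})`. -/
def kronU (ζ : Rˣ) (q : ℕ) [NeZero q] (y : LaurentSeries R) : LaurentSeries R :=
  KC.qContract q (∏ i ∈ Finset.range q, KC.twist (ζ ^ i) y)

theorem coeffMap_kronU {S : Type*} [CommRing S] (f : R →+* S) (ζ : Rˣ) (q : ℕ) [NeZero q]
    (y : LaurentSeries R) :
    coeffMap f (kronU ζ q y) = kronU (Units.map (f : R →* S) ζ) q (coeffMap f y) := by
  rw [kronU, kronU, KC.coeffMap_qContract, map_prod]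
  congr 1
  refine Finset.prod_congr rfl fun i _ => ?_
  rw [KC.coeffMap_twist, map_pow]

variable [IsDomain R]

/-- `(U' y)(Q^q) = ∏_{i<q} y(ζ^i Q)` for a primitive `q`-th root of unity `ζ`. -/
theorem qExpand_kronU {ζ : Rˣ} {q : ℕ} [NeZero q] (hζ : IsPrimitiveRoot (ζ : R) q)
    (y : LaurentSeries R) :
    qExpand R q (kronU ζ q y) = ∏ i ∈ Finset.range q, KC.twist (ζ ^ i) y := by
  rw [kronU, KC.qExpand_qContract_prod_twist hζ]

/-- `kronU ζ q` does not depend on the primitive `q`-th root of unity `ζ`. -/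
theorem kronU_eq_of_isPrimitiveRoot {ζ ζ' : Rˣ} {q : ℕ} [NeZero q]
    (hζ : IsPrimitiveRoot (ζ : R) q) (hζ' : IsPrimitiveRoot (ζ' : R) q) (y : LaurentSeries R) :
    kronU ζ q y = kronU ζ' q y := by
  unfold kronU
  rw [K6Hecke.prod_pow_eq_of_isPrimitiveRoot hζ hζ' (fun ξ => KC.twist ξ y)]

/-- `kronU` is multiplicative. -/
theorem kronU_mul {ζ : Rˣ} {q : ℕ} [NeZero q] (hζ : IsPrimitiveRoot (ζ : R) q)
    (x y : LaurentSeries R) : kronU ζ q (x * y) = kronU ζ q x * kronU ζ q y := by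
  apply qExpand_injective (R := R) (N := q)
  rw [map_mul, qExpand_kronU hζ, qExpand_kronU hζ, qExpand_kronU hζ]
  simp only [map_mul, Finset.prod_mul_distrib]

end Formal

section FormalField

variable {F : Type*} [Field F]

/-- `kronU` of a nonzero series is nonzero. -/
theorem kronU_ne_zero {ζ : Fˣ} {q : ℕ} [NeZero q] (hζ : IsPrimitiveRoot (ζ : F) q)
    {y : LaurentSeries F} (hy : y ≠ 0) : kronU ζ q y ≠ 0 := by
  intro h
  have h1 := qExpand_kronU hζ y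
  rw [h, map_zero] at h1
  have h3 : ∏ i ∈ Finset.range q, KC.twist (ζ ^ i) y ≠ 0 := by
    refine Finset.prod_ne_zero_iff.mpr fun i _ h0 => hy ?_
    exact KC.twist_injective (ζ ^ i) (by rw [h0, map_zero])
  exact h3 h1.symm

end FormalField

/-! ### (K6a)-twin: the `U_q`-product of a multiplier form -/

section Mem

variable {N q : ℕ} [Fact q.Prime] [NeZero q] (hqN : q ∣ N)

omit [Fact q.Prime] in
/-- Slashing a product over the `q` upper triangular representatives by an element of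
`SL₂(ℤ)`. -/
theorem prod_slash_SL (w : ℤ) (f : ZMod q → ℍ → ℂ) (g : SL(2, ℤ)) :
    (∏ x : ZMod q, f x) ∣[w * (q : ℤ)] g = ∏ x : ZMod q, (f x) ∣[w] g := by
  have h := ModularForm.prod_slash (k := w) (g := (mapGL ℝ g)) (f := f)
    (s := (Finset.univ : Finset (ZMod q)))
  rw [Finset.card_univ, ZMod.card] at h
  change (∏ x : ZMod q, f x) ∣[w * (q : ℤ)] (mapGL ℝ g) =
    ∏ x : ZMod q, (f x) ∣[w] (mapGL ℝ g)
  rw [h]
  simp

omit [Fact q.Prime] in
/-- Moving `γ ∈ Γ₀(N)` through `α_j` at the level of slashes. -/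
theorem slash_heckeMatrix_slash (w : ℤ) (A : ℍ → ℂ) (γ : ↥(Gamma0 N)) (x : ZMod q) :
    (A ∣[w] heckeMatrix q x.val) ∣[w] (γ : SL(2, ℤ)) =
      (A ∣[w] (((uData N q hqN).part γ x : ↥(Gamma0 N)) : SL(2, ℤ))) ∣[w]
        heckeMatrix q ((uData N q hqN).perm γ x).val := by
  change (A ∣[w] heckeMatrix q x.val) ∣[w] (mapGL ℝ (γ : SL(2, ℤ))) = _
  rw [← SlashAction.slash_mul, uData_spec hqN γ x, SlashAction.slash_mul]
  rfl

omit [Fact q.Prime] [NeZero q] in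
/-- Scalars pass through the slash by an upper triangular representative. -/
theorem smul_slash_heckeMatrix (w : ℤ) (c : ℂ) (A : ℍ → ℂ) (j : ℕ) :
    (c • A) ∣[w] heckeMatrix q j = c • (A ∣[w] heckeMatrix q j) := by
  rw [ModularForm.smul_slash, σ_heckeMatrix]
  rfl

/-- **(K6a)-twin**: the `U_q`-product `∏ j, A ∣[w] α_j` of a form `A` of weight `w` and
multiplier `χ` on `Γ₀(N)`, `q ∣ N`, is a form of weight `w q` with multiplier
`χ' γ = ∏ j, χ (γ'_j)`. -/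
theorem prod_slash_heckeMatrix_mem {w : ℤ} {χ χ' : ↥(Gamma0 N) →* ℂˣ} {A : ℍ → ℂ}
    (hχ : ∀ γ : ↥(Gamma0 N), χ' γ = ∏ x : ZMod q, χ ((uData N q hqN).part γ x))
    (hA : A ∈ K.MFchi N w χ) :
    (∏ x : ZMod q, A ∣[w] heckeMatrix q x.val) ∈ K.MFchi N (w * (q : ℤ)) χ' := by
  obtain ⟨hA1, hA2, hA3⟩ := hA
  refine ⟨?_, fun γ => ?_, fun g => ?_⟩
  · exact MDifferentiable.prod (fun x _ => hA1.slash w _)
  · rw [prod_slash_SL]
    have h1 : ∀ x : ZMod q, (A ∣[w] heckeMatrix q x.val) ∣[w] (γ : SL(2, ℤ)) =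
        ((χ ((uData N q hqN).part γ x) : ℂˣ) : ℂ) •
          (A ∣[w] heckeMatrix q ((uData N q hqN).perm γ x).val) := by
      intro x
      rw [slash_heckeMatrix_slash hqN, hA2, smul_slash_heckeMatrix]
    simp only [h1]
    rw [Finset.prod_smul, hχ γ, Units.coe_prod]
    congr 1
    exact Equiv.prod_comp ((uData N q hqN).perm γ) (fun x => A ∣[w] heckeMatrix q x.val)
  · rw [prod_slash_SL]
    refine BoundedAtFilter.prod _ (fun x _ => ?_)
    obtain ⟨g', hg'⟩ := HeckeProd.exists_heckeRep_mul q g (x : OnePoint (ZMod q))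
    change IsBoundedAtImInfty ((A ∣[w] heckeRep q (x : OnePoint (ZMod q))) ∣[w] (mapGL ℝ g))
    rw [← SlashAction.slash_mul, hg', SlashAction.slash_mul]
    exact (hA3 g').slash w (heckeRep_apply_one_zero' q _)

end Mem

/-! ### (K6b)-twin: the q-expansion of the `U_q`-product -/

section Qx

open Fermat.Agent.S29.K

/-- The constant `q^(-q)` relating the slash `U`-product to the plain product. -/
def uConst (q : ℕ) : ℂ := ((q : ℂ)⁻¹) ^ q

theorem uConst_ne_zero (q : ℕ) [NeZero q] : uConst q ≠ 0 :=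
  pow_ne_zero _ (inv_ne_zero (Nat.cast_ne_zero.mpr (NeZero.ne q)))

/-- The slash `U`-product in terms of the plain `U`-part. -/
theorem prod_slash_heckeMatrix_eq (q : ℕ) [NeZero q] (w : ℤ) (A : ℍ → ℂ) :
    (∏ x : ZMod q, A ∣[w] heckeMatrix q x.val) = uConst q • HeckeProdQxB.uProd q A := by
  funext z
  rw [Finset.prod_apply, Pi.smul_apply, smul_eq_mul]
  have h2 : ∀ j : ZMod q, (A ∣[w] heckeMatrix q j.val) z =
      (q : ℂ)⁻¹ * A (heckeMatrix q j.val • z) := by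
    intro j
    rw [slash_heckeMatrix_apply w (NeZero.ne q)]
  simp only [h2, Finset.prod_mul_distrib, Finset.prod_const, Finset.card_univ, ZMod.card]
  rfl

/-- **(K6b)-twin**: the q-expansion of the slash `U`-product of a nice function. -/
theorem qx_prod_slash_heckeMatrix (q : ℕ) [NeZero q] (w : ℤ) {A : ℍ → ℂ}
    (hA : A ∈ S23.niceSub) :
    qx (∏ x : ZMod q, A ∣[w] heckeMatrix q x.val) =
      uConst q • kronU (HeckeProdQxB.zetaUnit q) q (qx A) := by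
  have hP := HeckeProdQxB.uProd_mem_niceSub q hA
  rw [prod_slash_heckeMatrix_eq, qx_smul _ hP, HeckeProdQxB.qx_uProd q hA]
  rfl

end Qx

/-! ### The witness class is stable under the `U`-product -/

section Glue

variable {N q : ℕ} [NeZero N] [Fact q.Prime] [NeZero q] {hqN : q ∣ N}

/-- **ℂ-form.**  If `x ∈ Mchi N χ` (`χ (T) = 1`) then `kronU ζ q x ∈ Mchi N χ'`, where
`χ' γ = ∏_j χ (γ'_j)` is the `U_q`-transform of the multiplier. -/
theorem kronU_mem_Mchi {χ χ' : ↥(Gamma0 N) →* ℂˣ} (hT : χ (K.TG N) = 1)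
    (hχ : ∀ γ : ↥(Gamma0 N), χ' γ = ∏ x : ZMod q, χ ((uData N q hqN).part γ x))
    {ζ : ℂˣ} (hζ : IsPrimitiveRoot (ζ : ℂ) q) {x : LaurentSeries ℂ} (hx : x ∈ K.Mchi N χ) :
    kronU ζ q x ∈ K.Mchi N χ' := by
  obtain ⟨w, A, B, hA, hB, hB0, hxAB⟩ := hx
  have hζ₀ := HeckeProdQxB.isPrimitiveRoot_zetaUnit q
  have hc := uConst_ne_zero q
  have hAn : A ∈ S23.niceSub := K.mem_niceSub_of_mem_MFchi hT hA
  have hBn : B ∈ S23.niceSub := K.mem_niceSub_of_mem_MF hB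
  have hA' := prod_slash_heckeMatrix_mem hqN hχ hA
  have hB' := prod_slash_heckeMatrix_mem hqN (χ := 1) (χ' := 1) (fun γ => by simp)
    (K.mem_MFchi_one_iff.mpr hB)
  have hB'MF := K.mem_MFchi_one_iff.mp hB'
  have hqA := qx_prod_slash_heckeMatrix q w hAn
  have hqB := qx_prod_slash_heckeMatrix q w hBn
  have hB'0 : (∏ x : ZMod q, B ∣[w] heckeMatrix q x.val) ≠ 0 := by
    intro h0
    rw [h0, K.qx_zero, ← HahnSeries.C_mul_eq_smul] at hqB
    rcases mul_eq_zero.mp hqB.symm with h | h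
    · exact HahnSeries.C_ne_zero hc h
    · exact kronU_ne_zero hζ₀ (K.qx_ne_zero hBn hB0) h
  refine ⟨w * (q : ℤ), _, _, hA', hB'MF, hB'0, ?_⟩
  rw [hqA, hqB, kronU_eq_of_isPrimitiveRoot hζ hζ₀, ← HahnSeries.C_mul_eq_smul,
    ← HahnSeries.C_mul_eq_smul, ← hxAB, kronU_mul hζ₀]
  ring

omit [NeZero N] [Fact q.Prime] in
/-- The `U_q`-transform of the multiplier `γ ↦ ζ_p ^ (u γ)` is `γ ↦ ζ_p ^ ((U_q u) γ)`. -/
theorem char_heckeU_of_zpow (ζp : ℂˣ) (u : Additive (Gamma0 N) →+ ℤ)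
    {χ χ' : ↥(Gamma0 N) →* ℂˣ} (h : ∀ γ : ↥(Gamma0 N), χ γ = ζp ^ u (Additive.ofMul γ))
    (h' : ∀ γ : ↥(Gamma0 N), χ' γ = ζp ^ (heckeUHom N q hqN u) (Additive.ofMul γ))
    (γ : ↥(Gamma0 N)) :
    χ' γ = ∏ x : ZMod q, χ ((uData N q hqN).part γ x) := by
  rw [h', heckeUHom_apply, K6Hecke.zpow_finset_sum_eq]
  exact Finset.prod_congr rfl fun x _ => (h _).symm

/-- **`ℚ̄`-form.**  If `y ≠ 0` is a `ℚ̄`-rational witness for the multiplier `χ` (`χ (T) = 1`),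
then `y' := kronU ζ q y` is a nonzero `ℚ̄`-rational witness for `χ' = U_q χ`, and
`y' (Q^q) = ∏_{i<q} y (ζ^i Q)`. -/
theorem u_wit {χ χ' : ↥(Gamma0 N) →* ℂˣ} (hT : χ (K.TG N) = 1)
    (hχ : ∀ γ : ↥(Gamma0 N), χ' γ = ∏ x : ZMod q, χ ((uData N q hqN).part γ x))
    (ζ : Qb) (hζ : IsPrimitiveRoot ζ q) (hz : ∀ i : ℕ, ζ ^ i ≠ 0)
    {y : LaurentSeries Qb} (hy : y ≠ 0) (hmem : coeffMap embC y ∈ K.Mchi N χ) :
    ∃ y' : LaurentSeries Qb, y' ≠ 0 ∧ coeffMap embC y' ∈ K.Mchi N χ' ∧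
      qExpand Qb q y' = ∏ i ∈ Finset.range q, rotHom (ζ ^ i) (hz i) y := by
  have hζ0 : ζ ≠ 0 := by simpa using hz 1
  set ζu : Qbˣ := Units.mk0 ζ hζ0 with hζu
  have hζu' : IsPrimitiveRoot ((ζu : Qbˣ) : Qb) q := hζ
  refine ⟨kronU ζu q y, kronU_ne_zero hζu' hy, ?_, ?_⟩
  · rw [coeffMap_kronU]
    refine kronU_mem_Mchi (hqN := hqN) hT hχ ?_ hmem
    have : ((Units.map (embC : Qb →* ℂ) ζu : ℂˣ) : ℂ) = embC ζ := rfl
    rw [this]
    exact hζ.map_of_injective embC.injective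
  · rw [qExpand_kronU hζu']
    refine Finset.prod_congr rfl fun i _ => ?_
    rw [KC.twist_eq_rotHom]
    congr 1

end Glue

/-! ### The leaf [UWit] -/

/-- **[UWit]**: `U_q`-products of witnesses (`q ∣ N` prime, any torsion order `p`).  For a
primitive `q`-th root of unity `ζ ∈ ℚ̄`, a witness `y` for `u ∈ Lpar N` yields a witness `y'`
for `U_q u` with `y'(Q^q) = ∏_{i<q} y(ζ^i Q)`. -/
theorem uWit (N q p : ℕ) [NeZero N] [NeZero q] (hqp : q.Prime) (hq : q ∣ N)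
    (ζ : Qb) (hζ : IsPrimitiveRoot ζ q) (hz : ∀ i : ℕ, ζ ^ i ≠ 0)
    (u : Fermat.Agent.S41.Lpar N) (y : LaurentSeries Qb)
    (hy : KPlan.Wit N p (u : Additive (Gamma0 N) →+ ℤ) y) :
    ∃ y' : LaurentSeries Qb,
      KPlan.Wit N p (heckeUHom N q hq (u : Additive (Gamma0 N) →+ ℤ)) y' ∧
      qExpand Qb q y' = ∏ i ∈ Finset.range q, rotHom (ζ ^ i) (hz i) y := by
  obtain ⟨hy0, hmem⟩ := hy
  have : Fact q.Prime := ⟨hqp⟩
  obtain ⟨y', hy', hmem', hqx⟩ := u_wit (hqN := hq)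
    (χ := KPlan.chiU p (u : Additive (Gamma0 N) →+ ℤ))
    (χ' := KPlan.chiU p (heckeUHom N q hq (u : Additive (Gamma0 N) →+ ℤ)))
    (KPlan.chiU_TG p u)
    (char_heckeU_of_zpow (KPlan.zetaU p) (u : Additive (Gamma0 N) →+ ℤ)
      (fun _ => rfl) (fun _ => rfl))
    ζ hζ hz hy0 hmem
  exact ⟨y', ⟨hy', hmem'⟩, hqx⟩

/-- **[UWit], `Lpar`-valued form**: the same with `U_q u` as an element of `Lpar N`. -/
theorem uWit_lpar (N q p : ℕ) [NeZero N] [NeZero q] (hqp : q.Prime) (hq : q ∣ N)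
    (ζ : Qb) (hζ : IsPrimitiveRoot ζ q) (hz : ∀ i : ℕ, ζ ^ i ≠ 0)
    (u : Fermat.Agent.S41.Lpar N) (y : LaurentSeries Qb)
    (hy : KPlan.Wit N p (u : Additive (Gamma0 N) →+ ℤ) y) :
    ∃ (u' : Fermat.Agent.S41.Lpar N) (y' : LaurentSeries Qb),
      (u' : Additive (Gamma0 N) →+ ℤ) = heckeUHom N q hq (u : Additive (Gamma0 N) →+ ℤ) ∧
      KPlan.Wit N p (u' : Additive (Gamma0 N) →+ ℤ) y' ∧
      qExpand Qb q y' = ∏ i ∈ Finset.range q, rotHom (ζ ^ i) (hz i) y := by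
  obtain ⟨y', hW, hqx⟩ := uWit N q p hqp hq ζ hζ hz u y hy
  exact ⟨⟨heckeUHom N q hq (u : Additive (Gamma0 N) →+ ℤ),
    Fermat.Agent.S41.ParMem.isParabolicHom_heckeUHom hq u.2⟩, y', rfl, hW, hqx⟩

/-- **[UWit], the target of `S35/URoutePlan.lean`** (`ζ` existential inside `IsU`). -/
theorem uWitStatement (N m q : ℕ) [NeZero N] [NeZero q] (hq : q.Prime) (hqN : q ∣ N) :
    Fermat.Agent.S35.URoutePlan.UWitStatement N m q hqN := by
  intro u y hy
  obtain ⟨ζ, hζ⟩ := HasEnoughRootsOfUnity.exists_primitiveRoot Qb q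
  have hz : ∀ i : ℕ, ζ ^ i ≠ 0 := fun i => pow_ne_zero i (hζ.ne_zero (NeZero.ne q))
  obtain ⟨y', hW, hqx⟩ := uWit N q m hq hqN ζ hζ hz u y hy
  exact ⟨y', hW, ζ, hζ, hz, hqx⟩

end Fermat.Agent.S35.UWit
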