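/-
S35, `[U]`-route (owner of the route: helper93), leaf (K6a-U) — UWitMem.lean (helper81):
the MEMBERSHIP half of `[UWit]`, the `U_q`-twin of `S29/HeckeProdMem.lean` (K6a).

For `q` prime, `q ∣ N`, the `q` upper-triangular coset representatives
`α_x = ModularForm.heckeMatrix q x.val` (`x : ZMod q`; NO `∞`-coset) and a character
`χ : Γ₀(N) →* ℂˣ`:

* `heckeCharU N q hqN χ`        : the `U_q`-transform of `χ`, `γ ↦ ∏ x, χ (γ'_x)`
                                  (`α_x γ = γ'_x α_{σ x}` = the coset data `S16.uData`);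
                                  for `χ = ζ ^ u` it is `ζ ^ (S16.heckeUHom N q hqN u)`;
* `prod_slash_heckeMatrix_mem`  : `A ∈ MFchi N w χ ⇒ ∏ x, A ∣[w] α_x ∈ MFchi N (w * q) (U_q χ)`;
* `UProdMemStatement`, `uProdMemStatement` : the definition-free consumer shape
                                  (twin of `K6Hecke.ProdMemStatement`);
* `prod_slash_heckeMatrix_mem_chiU` : `χ = chiU p u ⇒` multiplier `chiU p (heckeUHom N q hqN u)`;
* `prod_slash_heckeMatrix_mem_MF`   : the same for `χ = 1`, in `S20.MF`;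
* `prod_slash_heckeMatrix_ne_zero`  : the product is nonzero if `A` is holomorphic and nonzero.
-/
import Mathlib
import Fermat.Agent.S16.HeckeHom
import Fermat.Agent.S29.KDefs
import Fermat.Agent.S29.KPlanDefs
import Fermat.Agent.S29.HeckeProd
import Fermat.Agent.S29.HeckeProdMem
import Fermat.Agent.S29.HolIC

set_option autoImplicit false

noncomputable section

namespace Fermat.Agent.S35.UWitMem

open CongruenceSubgroup UpperHalfPlane Matrix.SpecialLinearGroup Fermat.Agent.S16 Filter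
open scoped MatrixGroups Manifold ModularForm
open P2MW.S_ModularForm_heckeT_slash_eq_self_of_mem_Gamma0.ModularForm.HeckeSlashInvariance
open ModularForm
open Fermat.Agent.S29

/-! ### The `U_q`-transform of a character -/

section Char

variable (N q : ℕ) [NeZero q] (hqN : q ∣ N)

/-- The `U_q`-transform of a character of `Γ₀(N)`: `γ ↦ ∏ x, χ (γ'_x)`, where
`α_x γ = γ'_x α_{σ x}` is the coset data `S16.uData N q hqN`. -/
def heckeCharU (χ : ↥(Gamma0 N) →* ℂˣ) : ↥(Gamma0 N) →* ℂˣ :=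
  MonoidHom.mk' (fun γ => ∏ x : ZMod q, χ ((uData N q hqN).part γ x)) (by
    intro γ δ
    have h : ∀ x : ZMod q, χ ((uData N q hqN).part (γ * δ) x) =
        χ ((uData N q hqN).part γ x) * χ ((uData N q hqN).part δ ((uData N q hqN).perm γ x)) := by
      intro x
      rw [(uData N q hqN).part_mul, map_mul]
    simp only [h, Finset.prod_mul_distrib]
    congr 1
    exact Equiv.prod_comp ((uData N q hqN).perm γ) (fun x => χ ((uData N q hqN).part δ x)))

theorem heckeCharU_apply (χ : ↥(Gamma0 N) →* ℂˣ) (γ : ↥(Gamma0 N)) :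
    heckeCharU N q hqN χ γ = ∏ x : ZMod q, χ ((uData N q hqN).part γ x) := rfl

theorem heckeCharU_one : heckeCharU N q hqN (1 : ↥(Gamma0 N) →* ℂˣ) = 1 := by
  ext γ
  simp [heckeCharU_apply]

theorem heckeCharU_mul (χ χ' : ↥(Gamma0 N) →* ℂˣ) :
    heckeCharU N q hqN (χ * χ') = heckeCharU N q hqN χ * heckeCharU N q hqN χ' := by
  ext γ
  simp [heckeCharU_apply, Finset.prod_mul_distrib]

/-- **Character form.**  If `χ = ζ ^ u` for an additive `u : Γ₀(N) → ℤ`, then
`U_q χ = ζ ^ (U_q u)`, `U_q u = S16.heckeUHom N q hqN u`. -/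
theorem heckeCharU_apply_of_zpow (χ : ↥(Gamma0 N) →* ℂˣ) (ζ : ℂˣ) (u : Additive (Gamma0 N) →+ ℤ)
    (hχ : ∀ γ : ↥(Gamma0 N), χ γ = ζ ^ u (Additive.ofMul γ)) (γ : ↥(Gamma0 N)) :
    heckeCharU N q hqN χ γ = ζ ^ heckeUHom N q hqN u (Additive.ofMul γ) := by
  rw [heckeCharU_apply, heckeUHom_apply]
  simp only [hχ]
  exact HeckeProdMem.prod_zpow_sum Finset.univ ζ _

/-- The `U_q`-transform of the multiplier `χ_u = ζ_p ^ u` is `χ_{U_q u}`. -/
theorem heckeCharU_chiU (p : ℕ) (u : Additive (Gamma0 N) →+ ℤ) :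
    heckeCharU N q hqN (KPlan.chiU p u) = KPlan.chiU p (heckeUHom N q hqN u) := by
  ext γ
  rw [heckeCharU_apply_of_zpow N q hqN (KPlan.chiU p u) (KPlan.zetaU p) u (fun _ => rfl) γ]
  rfl

/-- The multiplier `χ_{U_q u}` in product form (the hypothesis of `UProdMemStatement`). -/
theorem chiU_heckeUHom_apply (p : ℕ) (u : Additive (Gamma0 N) →+ ℤ) (γ : ↥(Gamma0 N)) :
    KPlan.chiU p (heckeUHom N q hqN u) γ =
      ∏ x : ZMod q, KPlan.chiU p u ((uData N q hqN).part γ x) := by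
  rw [← heckeCharU_chiU, heckeCharU_apply]

end Char

/-! ### The slash action through the coset representatives -/

section Slash

variable {N q : ℕ} [NeZero q]

/-- Slashing a product over the `q` upper-triangular coset representatives by an element of
`SL₂(ℤ)`. -/
theorem prod_slash_SL (w : ℤ) (f : ZMod q → ℍ → ℂ) (g : SL(2, ℤ)) :
    (∏ x : ZMod q, f x) ∣[w * (q : ℤ)] g = ∏ x : ZMod q, (f x) ∣[w] g := by
  have h := ModularForm.prod_slash (k := w) (g := (mapGL ℝ g)) (f := f)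
    (s := (Finset.univ : Finset (ZMod q)))
  rw [Finset.card_univ, ZMod.card] at h
  change (∏ x : ZMod q, f x) ∣[w * (q : ℤ)] (mapGL ℝ g) = ∏ x : ZMod q, (f x) ∣[w] (mapGL ℝ g)
  rw [h]
  simp

/-- Moving `γ ∈ Γ₀(N)` through `α_x` at the level of slashes. -/
theorem slash_heckeMatrix_slash (hqN : q ∣ N) (w : ℤ) (A : ℍ → ℂ) (γ : ↥(Gamma0 N))
    (x : ZMod q) :
    (A ∣[w] heckeMatrix q x.val) ∣[w] (γ : SL(2, ℤ)) =
      (A ∣[w] (((uData N q hqN).part γ x : ↥(Gamma0 N)) : SL(2, ℤ))) ∣[w]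
        heckeMatrix q ((uData N q hqN).perm γ x).val := by
  change (A ∣[w] heckeMatrix q x.val) ∣[w] (mapGL ℝ (γ : SL(2, ℤ))) = _
  rw [← SlashAction.slash_mul, uData_spec hqN γ x, SlashAction.slash_mul]
  rfl

/-- Scalars pass through the slash by a coset representative (positive determinant). -/
theorem smul_slash_heckeMatrix (w : ℤ) (c : ℂ) (A : ℍ → ℂ) (x : ZMod q) :
    (c • A) ∣[w] heckeMatrix q x.val = c • (A ∣[w] heckeMatrix q x.val) := by
  rw [ModularForm.smul_slash]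
  have hd : 0 < (heckeMatrix q x.val : Matrix (Fin 2) (Fin 2) ℝ).det := by
    simpa using HeckeProd.det_heckeRep_pos q (x : OnePoint (ZMod q))
  have h : σ (heckeMatrix q x.val) c = c := by
    simp [σ, hd]
  rw [h]

end Slash

/-! ### The `U_q`-product of a multiplier form -/

section Mem

variable {N q : ℕ} [NeZero q]

/-- **(K6a-U)**: the `U_q`-product `∏ x, A ∣[w] α_x` (`x : ZMod q`) of a form `A` of weight `w`
and multiplier `χ` on `Γ₀(N)`, `q ∣ N` prime, is a form of weight `w q` with multiplier `U_q χ`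
(holomorphic, bounded at all cusps). -/
theorem prod_slash_heckeMatrix_mem (hq : q.Prime) (hqN : q ∣ N) {w : ℤ}
    {χ : ↥(Gamma0 N) →* ℂˣ} {A : ℍ → ℂ} (hA : A ∈ K.MFchi N w χ) :
    (∏ x : ZMod q, A ∣[w] heckeMatrix q x.val) ∈
      K.MFchi N (w * (q : ℤ)) (heckeCharU N q hqN χ) := by
  have : Fact q.Prime := ⟨hq⟩
  obtain ⟨hA1, hA2, hA3⟩ := hA
  refine ⟨?_, fun γ => ?_, fun g => ?_⟩
  · exact MDifferentiable.prod (fun x _ => hA1.slash w _)
  · rw [prod_slash_SL]
    have h1 : ∀ x : ZMod q, (A ∣[w] heckeMatrix q x.val) ∣[w] (γ : SL(2, ℤ)) =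
        ((χ ((uData N q hqN).part γ x) : ℂˣ) : ℂ) •
          (A ∣[w] heckeMatrix q ((uData N q hqN).perm γ x).val) := by
      intro x
      rw [slash_heckeMatrix_slash hqN, hA2, smul_slash_heckeMatrix]
    simp only [h1]
    rw [Finset.prod_smul, heckeCharU_apply, Units.coe_prod]
    congr 1
    exact Equiv.prod_comp ((uData N q hqN).perm γ) (fun x => A ∣[w] heckeMatrix q x.val)
  · rw [prod_slash_SL]
    refine BoundedAtFilter.prod _ (fun x _ => ?_)
    obtain ⟨g', hg'⟩ := HeckeProd.exists_heckeRep_mul q g (x : OnePoint (ZMod q))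
    change IsBoundedAtImInfty ((A ∣[w] heckeRep q (x : OnePoint (ZMod q))) ∣[w] (mapGL ℝ g))
    rw [← SlashAction.slash_mul, hg', SlashAction.slash_mul]
    exact (hA3 g').slash w (heckeRep_apply_one_zero' q _)

/-- Consumer shape of (K6a-U) (twin of `S29.K6Hecke.ProdMemStatement`): the slash-product over
the `q` upper-triangular coset representatives of `U_q` of a form with multiplier `χ` is a form
with multiplier `χ' = U_q χ`, of weight `w q`. -/
def UProdMemStatement (N q : ℕ) [NeZero q] (hqN : q ∣ N) : Prop :=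
  ∀ (w : ℤ) (χ χ' : ↥(Gamma0 N) →* ℂˣ) (A : ℍ → ℂ),
    (∀ γ : ↥(Gamma0 N), χ' γ = ∏ x : ZMod q, χ ((uData N q hqN).part γ x)) →
    A ∈ K.MFchi N w χ →
    (∏ x : ZMod q, A ∣[w] heckeMatrix q x.val) ∈ K.MFchi N (w * (q : ℤ)) χ'

/-- **(K6a-U), definition-free consumer shape**: any character `χ'` with
`χ' γ = ∏ x, χ (γ'_x)` will do. -/
theorem uProdMemStatement (N q : ℕ) [NeZero q] (hq : q.Prime) (hqN : q ∣ N) :
    UProdMemStatement N q hqN := by
  intro w χ χ' A hχ hA
  have h : χ' = heckeCharU N q hqN χ := by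
    ext γ
    rw [hχ γ, heckeCharU_apply]
  rw [h]
  exact prod_slash_heckeMatrix_mem hq hqN hA

/-- **(K6a-U), witness form**: `χ = χ_u = ζ_p ^ u`, `χ' = χ_{U_q u}`. -/
theorem prod_slash_heckeMatrix_mem_chiU (hq : q.Prime) (hqN : q ∣ N) (p : ℕ)
    (u : Additive (Gamma0 N) →+ ℤ) {w : ℤ} {A : ℍ → ℂ}
    (hA : A ∈ K.MFchi N w (KPlan.chiU p u)) :
    (∏ x : ZMod q, A ∣[w] heckeMatrix q x.val) ∈
      K.MFchi N (w * (q : ℤ)) (KPlan.chiU p (heckeUHom N q hqN u)) := by
  rw [← heckeCharU_chiU]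
  exact prod_slash_heckeMatrix_mem hq hqN hA

/-- The same product written with the prelude representatives `heckeRep q ↑x`. -/
theorem prod_slash_heckeRep_coe_eq (w : ℤ) (A : ℍ → ℂ) :
    (∏ x : ZMod q, A ∣[w] heckeRep q (x : OnePoint (ZMod q))) =
      ∏ x : ZMod q, A ∣[w] heckeMatrix q x.val := rfl

/-! ### Trivial multiplier: `S20.MF` -/

/-- **(K6a-U) for the denominators**: the `U_q`-product of a form with trivial multiplier is a
form with trivial multiplier. -/
theorem prod_slash_heckeMatrix_mem_MF [NeZero N] (hq : q.Prime) (hqN : q ∣ N) {w : ℤ}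
    {B : ℍ → ℂ} (hB : B ∈ S20.MF N w) :
    (∏ x : ZMod q, B ∣[w] heckeMatrix q x.val) ∈ S20.MF N (w * (q : ℤ)) := by
  rw [HeckeProdMem.mem_MF_iff_mem_MFchi_one] at hB ⊢
  have h := prod_slash_heckeMatrix_mem hq hqN hB
  rwa [heckeCharU_one] at h

/-! ### Nonvanishing -/

/-- The `U_q`-product of a nonzero holomorphic function is nonzero. -/
theorem prod_slash_heckeMatrix_ne_zero (q : ℕ) [NeZero q] (w : ℤ) {B : ℍ → ℂ} (hB : MDiff B)
    (hB0 : B ≠ 0) : (∏ x : ZMod q, B ∣[w] heckeMatrix q x.val) ≠ 0 := by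
  classical
  have := HolIC.isDomain_holSub
  have hmem : ∀ x : ZMod q, B ∣[w] heckeMatrix q x.val ∈ S24.holSub := fun x =>
    S24.mem_holSub.mpr (hB.slash w _)
  have hne : ∀ x : ZMod q, (⟨B ∣[w] heckeMatrix q x.val, hmem x⟩ : S24.holSub) ≠ 0 := by
    intro x h
    have h' : B ∣[w] heckeMatrix q x.val = 0 := congrArg Subtype.val h
    rw [SlashAction.slash_eq_zero_iff] at h'
    exact hB0 h'
  have hprod : (∏ x : ZMod q, (⟨B ∣[w] heckeMatrix q x.val, hmem x⟩ : S24.holSub)) ≠ 0 :=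
    Finset.prod_ne_zero_iff.mpr (fun x _ => hne x)
  intro h
  apply hprod
  apply Subtype.ext
  rw [SubmonoidClass.coe_finsetProd]
  exact h

/-- The `U_q`-product of a nonzero form with trivial multiplier is nonzero. -/
theorem prod_slash_heckeMatrix_ne_zero_of_mem_MF (N q : ℕ) [NeZero N] [NeZero q] {w : ℤ}
    {B : ℍ → ℂ} (hB : B ∈ S20.MF N w) (hB0 : B ≠ 0) :
    (∏ x : ZMod q, B ∣[w] heckeMatrix q x.val) ≠ 0 :=
  prod_slash_heckeMatrix_ne_zero q w (S20.mem_MF_iff'.mp hB).1 hB0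

end Mem

end Fermat.Agent.S35.UWitMem
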