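/-
S35, [U]-route, leaf [UWit], q-expansion half (K6b-U) + formal facts — UWitQx.lean (helper104;
dealt by the route owner helper93, DEAL #1).

* `kronU ζ q y = (∏_{i<q} y(ζ^i Q))(Q^{1/q})` — the formal operator `𝒰` (the `U`-part of
  `S37.KC.kronT`), with its formal properties: `qExpand_kronU`, independence of the primitive
  root, multiplicativity, `kronU_ne_zero`, compatibility with `coeffMap`;
* `IsU` (of `S35/URoutePlan.lean`) in terms of `kronU`: `isU_kronU`, `isU_iff`, `IsU` is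
  functional, multiplicative, compatible with powers, preserves `≠ 0`;
* **(K6b-U)** `prodQxUStatement`: for a nice function `A` on `ℍ` and the `q` upper-triangular
  coset representatives `heckeMatrix q j` (`j : ZMod q`) of `U_q`,
  `qx (∏ j, A ∣[w] heckeMatrix q j) = c • kronU ζ q (qx A)`, `ζ = exp (2πi/q)`, `c = q^(-q) ≠ 0`
  (everything analytic is `S29.HeckeProdQxB.qx_uProd`, on main);
* the GLUE (twin of `S29/K6Hecke.lean`): `uWitStatement_of_prodMemU` — the leaf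
  `URoutePlan.UWitStatement N m q hqN` from the membership half (K6a-U) `ProdMemUStatement`
  (`A ∈ MFchi N w χ ⇒ ∏ j, A ∣[w] heckeMatrix q j ∈ MFchi N (w q) χ'`, `χ' γ = ∏ j, χ (γ'_j)`).
-/
import Mathlib
import Fermat.Agent.S29.KDefs
import Fermat.Agent.S29.KBasic
import Fermat.Agent.S29.KPlanDefs
import Fermat.Agent.S29.HeckeProdQxB
import Fermat.Agent.S29.K6Hecke
import Fermat.Agent.S37.KC
import Fermat.Agent.S16.HeckeHom
import Fermat.Agent.S24.AnDefs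
import Fermat.Agent.S35.URoutePlan

set_option autoImplicit false

noncomputable section

namespace Fermat.Agent.S35.UWitQx

open CongruenceSubgroup Matrix.SpecialLinearGroup UpperHalfPlane ModularForm ModularCurve HahnSeries
open scoped MatrixGroups ModularForm Manifold
open P2MW.S_ModularForm_heckeT_slash_eq_self_of_mem_Gamma0.ModularForm.HeckeSlashInvariance
open Fermat.Agent.S16 Fermat.Agent.S37 Fermat.Agent.S24 Fermat.Agent.S29

local notation "Qb" => AlgebraicClosure ℚ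

/-! ### The formal operator `𝒰` -/

section Formal

variable {R S : Type*} [CommRing R] [CommRing S]

/-- `𝒰 y := (∏_{i<q} y(ζ^i Q))(Q^{1/q})`. -/
def kronU (ζ : Rˣ) (q : ℕ) [NeZero q] (y : LaurentSeries R) : LaurentSeries R :=
  KC.qContract q (∏ i ∈ Finset.range q, KC.twist (ζ ^ i) y)

theorem coeffMap_kronU (f : R →+* S) (ζ : Rˣ) (q : ℕ) [NeZero q] (y : LaurentSeries R) :
    coeffMap f (kronU ζ q y) = kronU (Units.map (f : R →* S) ζ) q (coeffMap f y) := by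
  rw [kronU, kronU, KC.coeffMap_qContract, map_prod]
  congr 1
  refine Finset.prod_congr rfl fun i _ => ?_
  rw [KC.coeffMap_twist, map_pow]

variable [IsDomain R]

/-- `(𝒰 y)(Q^q) = ∏_{i<q} y(ζ^i Q)` for a primitive `q`-th root of unity `ζ`. -/
theorem qExpand_kronU {ζ : Rˣ} {q : ℕ} [NeZero q] (hζ : IsPrimitiveRoot (ζ : R) q)
    (y : LaurentSeries R) :
    qExpand R q (kronU ζ q y) = ∏ i ∈ Finset.range q, KC.twist (ζ ^ i) y :=
  KC.qExpand_qContract_prod_twist hζ y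

/-- `𝒰 y` is characterised by `(𝒰 y)(Q^q) = ∏_{i<q} y(ζ^i Q)`. -/
theorem eq_kronU_of_qExpand_eq {ζ : Rˣ} {q : ℕ} [NeZero q] (hζ : IsPrimitiveRoot (ζ : R) q)
    {y y' : LaurentSeries R}
    (h : qExpand R q y' = ∏ i ∈ Finset.range q, KC.twist (ζ ^ i) y) : y' = kronU ζ q y :=
  qExpand_injective (R := R) (N := q) (h.trans (qExpand_kronU hζ y).symm)

/-- `kronU ζ q` does not depend on the primitive `q`-th root of unity `ζ`. -/
theorem kronU_eq_of_isPrimitiveRoot {ζ ζ' : Rˣ} {q : ℕ} [NeZero q]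
    (hζ : IsPrimitiveRoot (ζ : R) q) (hζ' : IsPrimitiveRoot (ζ' : R) q) (y : LaurentSeries R) :
    kronU ζ q y = kronU ζ' q y := by
  unfold kronU
  rw [K6Hecke.prod_pow_eq_of_isPrimitiveRoot hζ hζ' (fun ξ => KC.twist ξ y)]

/-- `kronU` is multiplicative. -/
theorem kronU_mul {ζ : Rˣ} {q : ℕ} [NeZero q] (hζ : IsPrimitiveRoot (ζ : R) q)
    (x y : LaurentSeries R) : kronU ζ q (x * y) = kronU ζ q x * kronU ζ q y := by
  apply qExpand_injective (R := R) (N := q)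
  rw [map_mul, qExpand_kronU hζ, qExpand_kronU hζ, qExpand_kronU hζ]
  simp only [map_mul, Finset.prod_mul_distrib]

theorem kronU_one {ζ : Rˣ} {q : ℕ} [NeZero q] (hζ : IsPrimitiveRoot (ζ : R) q) :
    kronU ζ q (1 : LaurentSeries R) = 1 := by
  apply qExpand_injective (R := R) (N := q)
  rw [qExpand_kronU hζ]
  simp only [map_one, Finset.prod_const_one]

theorem kronU_pow {ζ : Rˣ} {q : ℕ} [NeZero q] (hζ : IsPrimitiveRoot (ζ : R) q)
    (y : LaurentSeries R) (n : ℕ) : kronU ζ q (y ^ n) = kronU ζ q y ^ n := by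
  induction n with
  | zero => rw [pow_zero, pow_zero, kronU_one hζ]
  | succ n ih => rw [pow_succ, pow_succ, kronU_mul hζ, ih]

end Formal

section FormalField

variable {F : Type*} [Field F]

/-- `kronU` of a nonzero series is nonzero. -/
theorem kronU_ne_zero {ζ : Fˣ} {q : ℕ} [NeZero q] (hζ : IsPrimitiveRoot (ζ : F) q)
    {y : LaurentSeries F} (hy : y ≠ 0) : kronU ζ q y ≠ 0 := by
  intro h
  have h1 := qExpand_kronU hζ y
  rw [h, map_zero] at h1
  have h3 : ∏ i ∈ Finset.range q, KC.twist (ζ ^ i) y ≠ 0 := by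
    refine Finset.prod_ne_zero_iff.mpr fun i _ h0 => hy ?_
    exact KC.twist_injective (ζ ^ i) (by rw [h0, map_zero])
  exact h3 h1.symm

end FormalField

/-! ### `IsU` in terms of `kronU` -/

section IsU

variable {q : ℕ} [NeZero q]

/-- The `rotHom`-form of `qExpand_kronU` over `ℚ̄`. -/
theorem qExpand_kronU_mk0 (ζ : Qb) (hζ : IsPrimitiveRoot ζ q) (hz : ∀ i : ℕ, ζ ^ i ≠ 0)
    (hζ0 : ζ ≠ 0) (y : LaurentSeries Qb) :
    qExpand Qb q (kronU (Units.mk0 ζ hζ0) q y) =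
      ∏ i ∈ Finset.range q, rotHom (ζ ^ i) (hz i) y := by
  have hζu' : IsPrimitiveRoot (((Units.mk0 ζ hζ0 : Qbˣ)) : Qb) q := hζ
  rw [qExpand_kronU hζu']
  refine Finset.prod_congr rfl fun i _ => ?_
  rw [KC.twist_eq_rotHom]
  congr 1

/-- `𝒰 y` (any primitive root) satisfies `IsU`. -/
theorem isU_kronU {ζ : Qbˣ} (hζ : IsPrimitiveRoot (ζ : Qb) q) (y : LaurentSeries Qb) :
    URoutePlan.IsU q y (kronU ζ q y) := by
  have hz : ∀ i : ℕ, (ζ : Qb) ^ i ≠ 0 := fun i => pow_ne_zero i ζ.ne_zero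
  refine ⟨(ζ : Qb), hζ, hz, ?_⟩
  have h := qExpand_kronU_mk0 (ζ : Qb) hζ hz ζ.ne_zero y
  have e : Units.mk0 (ζ : Qb) ζ.ne_zero = ζ := Units.ext rfl
  rwa [e] at h

/-- `IsU q y y'` iff `y' = 𝒰 y` (for any primitive `q`-th root of unity). -/
theorem isU_iff {ζ : Qbˣ} (hζ : IsPrimitiveRoot (ζ : Qb) q) {y y' : LaurentSeries Qb} :
    URoutePlan.IsU q y y' ↔ y' = kronU ζ q y := by
  constructor
  · rintro ⟨ζ₀, hζ₀, hz, h⟩
    have hζ00 : ζ₀ ≠ 0 := by simpa using hz 1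
    have hζu' : IsPrimitiveRoot (((Units.mk0 ζ₀ hζ00 : Qbˣ)) : Qb) q := hζ₀
    have h1 : y' = kronU (Units.mk0 ζ₀ hζ00) q y :=
      qExpand_injective (R := Qb) (N := q) (h.trans (qExpand_kronU_mk0 ζ₀ hζ₀ hz hζ00 y).symm)
    rw [h1, kronU_eq_of_isPrimitiveRoot hζu' hζ]
  · rintro rfl
    exact isU_kronU hζ y

/-- A primitive `q`-th root of unity of `ℚ̄`, as a unit. -/
theorem exists_primitiveRoot_unit (q : ℕ) [NeZero q] : ∃ ζ : Qbˣ, IsPrimitiveRoot (ζ : Qb) q := by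
  have : NeZero ((q : ℕ) : Qb) := NeZero.charZero
  obtain ⟨ζ, hζ⟩ := HasEnoughRootsOfUnity.exists_primitiveRoot Qb q
  exact ⟨Units.mk0 ζ (hζ.ne_zero (NeZero.ne q)), hζ⟩

/-- Every series has a `𝒰`-transform. -/
theorem exists_isU (y : LaurentSeries Qb) : ∃ y' : LaurentSeries Qb, URoutePlan.IsU q y y' := by
  obtain ⟨ζ, hζ⟩ := exists_primitiveRoot_unit q
  exact ⟨kronU ζ q y, isU_kronU hζ y⟩

/-- `IsU` is functional. -/
theorem isU_unique {y y₁ y₂ : LaurentSeries Qb} (h₁ : URoutePlan.IsU q y y₁)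
    (h₂ : URoutePlan.IsU q y y₂) : y₁ = y₂ := by
  obtain ⟨ζ, hζ⟩ := exists_primitiveRoot_unit q
  rw [(isU_iff hζ).mp h₁, (isU_iff hζ).mp h₂]

/-- `IsU` is multiplicative. -/
theorem isU_mul {x x' y y' : LaurentSeries Qb} (hx : URoutePlan.IsU q x x')
    (hy : URoutePlan.IsU q y y') : URoutePlan.IsU q (x * y) (x' * y') := by
  obtain ⟨ζ, hζ⟩ := exists_primitiveRoot_unit q
  rw [isU_iff hζ] at hx hy ⊢
  rw [hx, hy, kronU_mul hζ]

theorem isU_one : URoutePlan.IsU q (1 : LaurentSeries Qb) 1 := by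
  obtain ⟨ζ, hζ⟩ := exists_primitiveRoot_unit q
  rw [isU_iff hζ, kronU_one hζ]

/-- `IsU` is compatible with powers. -/
theorem isU_pow {y y' : LaurentSeries Qb} (hy : URoutePlan.IsU q y y') (n : ℕ) :
    URoutePlan.IsU q (y ^ n) (y' ^ n) := by
  obtain ⟨ζ, hζ⟩ := exists_primitiveRoot_unit q
  rw [isU_iff hζ] at hy ⊢
  rw [hy, kronU_pow hζ]

/-- The `𝒰`-transform of a nonzero series is nonzero. -/
theorem isU_ne_zero {y y' : LaurentSeries Qb} (hy : URoutePlan.IsU q y y') (h0 : y ≠ 0) :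
    y' ≠ 0 := by
  obtain ⟨ζ, hζ⟩ := exists_primitiveRoot_unit q
  rw [(isU_iff hζ).mp hy]
  exact kronU_ne_zero hζ h0

end IsU

/-! ### (K6b-U): the q-expansion of the slash product over the `U_q` cosets -/

section Analytic

open Fermat.Agent.S29.K Fermat.Agent.S29.HeckeProdQxB

/-- The constant `q^(-q)` relating the slash product over the `U_q` cosets to the plain
product. -/
def uConst (q : ℕ) : ℂ := ((q : ℂ)⁻¹) ^ q

theorem uConst_ne_zero (q : ℕ) [NeZero q] : uConst q ≠ 0 :=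
  pow_ne_zero _ (inv_ne_zero (Nat.cast_ne_zero.mpr (NeZero.ne q)))

/-- The slash product over the `U_q` coset representatives is `q^(-q)` times the plain product
`z ↦ ∏_{j mod q} A ((z + j)/q)` (for every weight `w`). -/
theorem prod_slash_heckeMatrix_eq (q : ℕ) [NeZero q] (w : ℤ) (A : ℍ → ℂ) :
    (∏ x : ZMod q, A ∣[w] heckeMatrix q x.val) = uConst q • uProd q A := by
  funext z
  rw [Finset.prod_apply, Pi.smul_apply, smul_eq_mul]
  have h2 : ∀ j : ZMod q, (A ∣[w] heckeMatrix q j.val) z =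
      (q : ℂ)⁻¹ * A (heckeMatrix q j.val • z) := by
    intro j
    rw [slash_heckeMatrix_apply w (NeZero.ne q)]
  simp only [h2, Finset.prod_mul_distrib, Finset.prod_const, Finset.card_univ, ZMod.card]
  rfl

/-- The slash product over the `U_q` coset representatives of a nice function is nice. -/
theorem prod_slash_heckeMatrix_mem_niceSub (q : ℕ) [NeZero q] (w : ℤ) {A : ℍ → ℂ}
    (hA : A ∈ S23.niceSub) : (∏ x : ZMod q, A ∣[w] heckeMatrix q x.val) ∈ S23.niceSub := by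
  rw [prod_slash_heckeMatrix_eq]
  exact S23.niceSub.smul_mem (uProd_mem_niceSub q hA) _

/-- **(K6b-U)**, explicit form: the q-expansion of the slash product over the `U_q` coset
representatives of a nice function. -/
theorem qx_prod_slash_heckeMatrix (q : ℕ) [NeZero q] (w : ℤ) {A : ℍ → ℂ}
    (hA : A ∈ S23.niceSub) :
    qx (∏ x : ZMod q, A ∣[w] heckeMatrix q x.val) = uConst q • kronU (zetaUnit q) q (qx A) := by
  rw [prod_slash_heckeMatrix_eq, qx_smul _ (uProd_mem_niceSub q hA), qx_uProd q hA]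
  rfl

/-- Consumer shape of (K6b-U) (the `ProdQxStatement` of `S29/K6Hecke.lean` with the `∞`-coset
dropped). -/
def ProdQxUStatement (q : ℕ) [NeZero q] : Prop :=
  ∀ w : ℤ, ∃ (c : ℂ) (ζ : ℂˣ), c ≠ 0 ∧ IsPrimitiveRoot (ζ : ℂ) q ∧
    ∀ A ∈ S23.niceSub,
      qx (∏ x : ZMod q, A ∣[w] heckeMatrix q x.val) = c • kronU ζ q (qx A)

/-- **(K6b-U)** holds, for every `q ≠ 0`. -/
theorem prodQxUStatement (q : ℕ) [NeZero q] : ProdQxUStatement q :=
  fun w => ⟨uConst q, zetaUnit q, uConst_ne_zero q, isPrimitiveRoot_zetaUnit q,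
    fun _ hA => qx_prod_slash_heckeMatrix q w hA⟩

end Analytic

/-! ### The glue: `[UWit]` from the membership half (K6a-U) -/

section Glue

variable {N q : ℕ} [NeZero q] {hqN : q ∣ N}

/-- Consumer shape of (K6a-U): the slash product over the coset representatives of `U_q`
(`q ∣ N`) of a form with multiplier `χ` is a form with multiplier `χ' = U_q χ`, of weight
`w q`. -/
def ProdMemUStatement (N q : ℕ) [NeZero q] (hqN : q ∣ N) : Prop :=
  ∀ (w : ℤ) (χ χ' : ↥(Gamma0 N) →* ℂˣ) (A : ℍ → ℂ),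
    (∀ γ : ↥(Gamma0 N), χ' γ = ∏ x : ZMod q, χ ((uData N q hqN).part γ x)) →
    A ∈ K.MFchi N w χ →
    (∏ x : ZMod q, A ∣[w] heckeMatrix q x.val) ∈ K.MFchi N (w * q) χ'

/-- **[UWit], ℂ-form.**  If `x ∈ Mchi N χ` (`χ (T) = 1`) then `kronU ζ q x ∈ Mchi N χ'`, where
`χ' γ = ∏_j χ (γ'_j)` is the `U_q`-transform of the multiplier. -/
theorem kronU_mem_Mchi [NeZero N] (hMem : ProdMemUStatement N q hqN) (hQx : ProdQxUStatement q)
    {χ χ' : ↥(Gamma0 N) →* ℂˣ} (hT : χ (K.TG N) = 1)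
    (hχ : ∀ γ : ↥(Gamma0 N), χ' γ = ∏ x : ZMod q, χ ((uData N q hqN).part γ x))
    {ζ : ℂˣ} (hζ : IsPrimitiveRoot (ζ : ℂ) q) {x : LaurentSeries ℂ} (hx : x ∈ K.Mchi N χ) :
    kronU ζ q x ∈ K.Mchi N χ' := by
  obtain ⟨w, A, B, hA, hB, hB0, hxAB⟩ := hx
  obtain ⟨c, ζ₀, hc, hζ₀, hq⟩ := hQx w
  have hAn : A ∈ S23.niceSub := K.mem_niceSub_of_mem_MFchi hT hA
  have hBn : B ∈ S23.niceSub := K.mem_niceSub_of_mem_MF hB
  have hA' := hMem w χ χ' A hχ hA
  have hB' := hMem w 1 1 B (fun γ => by simp) (K.mem_MFchi_one_iff.mpr hB)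
  have hB'MF := K.mem_MFchi_one_iff.mp hB'
  have hqA := hq A hAn
  have hqB := hq B hBn
  have hB'0 : (∏ x : ZMod q, B ∣[w] heckeMatrix q x.val) ≠ 0 := by
    intro h0
    rw [h0, K.qx_zero, ← HahnSeries.C_mul_eq_smul] at hqB
    rcases mul_eq_zero.mp hqB.symm with h | h
    · exact HahnSeries.C_ne_zero hc h
    · exact kronU_ne_zero hζ₀ (K.qx_ne_zero hBn hB0) h
  refine ⟨w * q, _, _, hA', hB'MF, hB'0, ?_⟩
  rw [hqA, hqB, kronU_eq_of_isPrimitiveRoot hζ hζ₀, ← HahnSeries.C_mul_eq_smul,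
    ← HahnSeries.C_mul_eq_smul, ← hxAB, kronU_mul hζ₀]
  ring

/-- The `U_q`-transform of the multiplier `γ ↦ ζ_m ^ (u γ)` is `γ ↦ ζ_m ^ ((U_q u) γ)`. -/
theorem char_heckeU_of_zpow (ζm : ℂˣ) (u : Additive (Gamma0 N) →+ ℤ)
    {χ χ' : ↥(Gamma0 N) →* ℂˣ} (h : ∀ γ : ↥(Gamma0 N), χ γ = ζm ^ u (Additive.ofMul γ))
    (h' : ∀ γ : ↥(Gamma0 N), χ' γ = ζm ^ (heckeUHom N q hqN u) (Additive.ofMul γ))
    (γ : ↥(Gamma0 N)) :
    χ' γ = ∏ x : ZMod q, χ ((uData N q hqN).part γ x) := by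
  rw [h', heckeUHom_apply, K6Hecke.zpow_finset_sum_eq]
  exact Finset.prod_congr rfl fun x _ => (h _).symm

/-- **[UWit], `ℚ̄`-form.**  If `y ≠ 0` is a `ℚ̄`-rational witness for the multiplier `χ`
(`χ (T) = 1`), then `y' := kronU ζ q y` is a nonzero `ℚ̄`-rational witness for `χ' = U_q χ`. -/
theorem heckeU_wit [NeZero N] (hMem : ProdMemUStatement N q hqN) (hQx : ProdQxUStatement q)
    {χ χ' : ↥(Gamma0 N) →* ℂˣ} (hT : χ (K.TG N) = 1)
    (hχ : ∀ γ : ↥(Gamma0 N), χ' γ = ∏ x : ZMod q, χ ((uData N q hqN).part γ x))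
    {ζ : Qbˣ} (hζ : IsPrimitiveRoot (ζ : Qb) q)
    {y : LaurentSeries Qb} (hy : y ≠ 0) (hmem : coeffMap embC y ∈ K.Mchi N χ) :
    kronU ζ q y ≠ 0 ∧ coeffMap embC (kronU ζ q y) ∈ K.Mchi N χ' := by
  refine ⟨kronU_ne_zero hζ hy, ?_⟩
  rw [coeffMap_kronU]
  refine kronU_mem_Mchi hMem hQx hT hχ ?_ hmem
  have : ((Units.map (embC : Qb →* ℂ) ζ : ℂˣ) : ℂ) = embC (ζ : Qb) := rfl
  rw [this]
  exact hζ.map_of_injective embC.injective

/-- **[UWit] from (K6a-U)**: the leaf `URoutePlan.UWitStatement N m q hqN` (every torsion order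
`m`, every `q ≠ 0` dividing `N`) from the membership half `ProdMemUStatement N q hqN`. -/
theorem uWitStatement_of_prodMemU (N m q : ℕ) [NeZero N] [NeZero q] (hqN : q ∣ N)
    (hMem : ProdMemUStatement N q hqN) : URoutePlan.UWitStatement N m q hqN := by
  intro u y hW
  obtain ⟨hy, hmem⟩ := hW
  obtain ⟨ζ, hζ⟩ := exists_primitiveRoot_unit q
  obtain ⟨hy', hmem'⟩ := heckeU_wit (hqN := hqN) hMem (prodQxUStatement q)
    (χ := KPlan.chiU m (u : Additive (Gamma0 N) →+ ℤ))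
    (χ' := KPlan.chiU m (heckeUHom N q hqN (u : Additive (Gamma0 N) →+ ℤ)))
    (KPlan.chiU_TG m u)
    (char_heckeU_of_zpow (KPlan.zetaU m) (u : Additive (Gamma0 N) →+ ℤ)
      (fun _ => rfl) (fun _ => rfl))
    hζ hy hmem
  exact ⟨kronU ζ q y, ⟨hy', hmem'⟩, isU_kronU hζ y⟩

end Glue

end Fermat.Agent.S35.UWitQx
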