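/-
S35, abstract block of [E] — Vert.lean (helper54): the two leaves on the VERTICAL primes of the
plan `S35/LocFPlan.lean`.

* `vertPrincStatement : LocFPlan.VertPrincStatement` — a vertical prime `P i` through a point `n`
  with regular branches (transversal if both pass) is locally principal at itself, generated by
  `π`.  (Take `s ∈ P j ∖ P i`, `j` the other index: for `y ∈ P i`, `s y ∈ P 0 ∩ P 1 = π R`.
  Such an `s` exists: `P j ≤ P i` would give `P 0 ⊔ P 1 = P i`, and then transversality at `n`
  contradicts `∃ x ∈ n, x ∉ P i`.)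
* `vertUnit2Statement : LocFPlan2.VertUnit2Statement` — the corrected leaf [VertUnit] (with the
  binder `x ≠ 0`; `LocFPlan.VertUnitStatement` itself fails at `x = 0`): a nonzero unit of `V i`
  is a unit at `P i` if `P i` is locally principal at itself (`S34/LocAB.unitAt_of_vu` + the
  order function of `S34/KrullStmt`).
* direct forms (universe polymorphic, implicit binders): `vertPrinc`, `vertUnit`,
  `vertUnit_of_branch`; also `P_ne_bot`, `exists_eq_pi_mul`, `not_le_of_branch`.
-/
import Mathlib
import Fermat.Agent.S34.LocPlan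
import Fermat.Agent.S34.LocAB
import Fermat.Agent.S34.KrullStmt
import Fermat.Agent.S35.LocFPlan
import Fermat.Agent.S35.LocFPlan2

set_option autoImplicit false

namespace Fermat.Agent.S35.Vert

open Fermat.Agent.S34 Fermat.Agent.S34.LocPlan Fermat.Agent.S35.LocFPlan

section Princ

variable {O : Type*} [CommRing O] {R : Type*} [CommRing R] [Algebra O R]
  {E : Type*} [Field E] [Algebra R E]
  {π : O} {V : Fin 2 → ValuationSubring E} {P : Fin 2 → Ideal R}

/-- The vertical prime `P i` is not zero. -/
theorem P_ne_bot (H : ChartHyp π V P) (i : Fin 2) : P i ≠ ⊥ := by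
  intro h
  have hπ : algebraMap O R π ∈ P i := LocAB.pi_mem_P H i
  rw [h, Ideal.mem_bot] at hπ
  apply LocAB.pi_ne_zero H
  rw [hπ, map_zero]

/-- If two distinct branch indices `i ≠ j` are given, an element of `P i ∩ P j` is a multiple of
`π`. -/
theorem exists_eq_pi_mul (H : ChartHyp π V P) {i j : Fin 2} (hij : i ≠ j) {r : R}
    (hi : r ∈ P i) (hj : r ∈ P j) : ∃ r' : R, r = algebraMap O R π * r' := by
  apply H.red r
  intro k
  have hk : k = i ∨ k = j := by
    fin_cases i <;> fin_cases j <;> fin_cases k <;> simp_all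
  rcases hk with rfl | rfl
  · exact hi
  · exact hj

/-- The other branch is not contained in a branch through a point with regular transversal
branches. -/
theorem not_le_of_branch (H : ChartHyp π V P) {n : Ideal R} (hB : BranchAt P n)
    (hT : TransAt P n) {i j : Fin 2} (hij : i ≠ j) (hi : P i ≤ n) : ¬ P j ≤ P i := by
  intro hji
  have hj : P j ≤ n := hji.trans hi
  have hsup : P 0 ⊔ P 1 ≤ P i := by
    have h0 : P 0 ≤ P i := by
      fin_cases i <;> fin_cases j <;> first | exact le_rfl | exact hji | exact absurd rfl hij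
    have h1 : P 1 ≤ P i := by
      fin_cases i <;> fin_cases j <;> first | exact le_rfl | exact hji | exact absurd rfl hij
    exact sup_le h0 h1
  have hP0 : P 0 ≤ n := by
    fin_cases i <;> fin_cases j <;> first | exact hi | exact hj | exact absurd rfl hij
  have hP1 : P 1 ≤ n := by
    fin_cases i <;> fin_cases j <;> first | exact hi | exact hj | exact absurd rfl hij
  obtain ⟨⟨x, hxn, hxP⟩, -⟩ := hB i hi
  obtain ⟨s, hs, hsx⟩ := hT hP0 hP1 x hxn
  have hprime : (P i).IsPrime := LocAB.P_isPrime H i
  rcases hprime.mem_or_mem (hsup hsx) with h | h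
  · exact hs (hi h)
  · exact hxP h

/-- **[VertPrinc]**, direct form: `P i` is locally principal at itself, generated by `π`. -/
theorem vertPrinc (H : ChartHyp π V P) {n : Ideal R} (hB : BranchAt P n) (hT : TransAt P n)
    {i : Fin 2} (hi : P i ≤ n) : PrincAt (P i) := by
  refine ⟨P_ne_bot H i, algebraMap O R π, LocAB.pi_mem_P H i, fun y hy => ?_⟩
  obtain ⟨j, hij⟩ : ∃ j : Fin 2, i ≠ j := by
    fin_cases i
    · exact ⟨1, by decide⟩
    · exact ⟨0, by decide⟩
  have hnot := not_le_of_branch H hB hT hij hi
  obtain ⟨s, hsj, hsi⟩ := SetLike.not_le_iff_exists.mp hnot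
  obtain ⟨r', hr'⟩ := exists_eq_pi_mul H hij (r := s * y) ((P i).mul_mem_left s hy)
    ((P j).mul_mem_right y hsj)
  exact ⟨s, hsi, r', by rw [hr', mul_comm]⟩

end Princ

section Unit

variable {O : Type*} [CommRing O] {R : Type*} [CommRing R] [IsDomain R] [IsNoetherianRing R]
  [Algebra O R] {E : Type*} [Field E] [Algebra R E] [IsFractionRing R E]
  {π : O} {V : Fin 2 → ValuationSubring E} {P : Fin 2 → Ideal R}

/-- **[VertUnit]**, direct form: a nonzero unit of `V i` is a unit at the vertical prime `P i`,
if `P i` is locally principal at itself. -/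
theorem vertUnit (H : ChartHyp π V P) {i : Fin 2} (hP : PrincAt (P i)) {x : E} (hx0 : x ≠ 0)
    (hx : x ∈ V i) (hx' : x⁻¹ ∈ V i) : UnitAt (P i) x := by
  obtain ⟨hne, t, ht, hgen⟩ := hP
  have : (P i).IsPrime := LocAB.P_isPrime H i
  exact LocAB.unitAt_of_vu H i ht
    (fun y hy => KrullStmt.exists_zpow_unitAt hne ht hgen hy) ⟨hx0, hx, hx'⟩

/-- [VertUnit] at a branch through a point with regular transversal branches. -/
theorem vertUnit_of_branch (H : ChartHyp π V P) {n : Ideal R} (hB : BranchAt P n)
    (hT : TransAt P n) {i : Fin 2} (hi : P i ≤ n) {x : E} (hx0 : x ≠ 0)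
    (hx : x ∈ V i) (hx' : x⁻¹ ∈ V i) : UnitAt (P i) x :=
  vertUnit H (vertPrinc H hB hT hi) hx0 hx hx'

end Unit

/-- **[VertPrinc]** (`LocFPlan.VertPrincStatement`). -/
theorem vertPrincStatement : VertPrincStatement := by
  intro O _ R _ _ _ E _ _ _ π V P n i _ H hB hT hi
  exact vertPrinc H hB hT hi

/-- **[VertUnit]** (`LocFPlan2.VertUnit2Statement`, the corrected leaf of record). -/
theorem vertUnit2Statement : LocFPlan2.VertUnit2Statement := by
  intro O _ R _ _ _ _ E _ _ _ π V P i x H hP hx0 hx hx'
  exact vertUnit H hP hx0 hx hx'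

end Fermat.Agent.S35.Vert
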