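/-
S35 block [D] (bridge `J ↔ Lpar`), route R1 (characteristic polynomial) — WitNorm.lean (helper37):
the `β`-HALF of the common export `KTrPlan.KTrBetaStatement M q m`, from the leaves of route R1.

For `u ∈ Lpar (M q)` with `tr₂ u = 0`, a witness `y` of `u` (`coeffMap embC y = qx A / qx B`, `A` of
multiplier `χ_u`) and `f = y ^ m ∈ F̄_{M q}`:

* `c₀ := qx (∏ x, A ∣ ρ_x) / qx (∏ x, B ∣ ρ_x)` (`ρ_x = CosetProd.repB`, the `q + 1` conjugates over
  `β F̄_M`) lies in `F_ℂ(M)`, because the transfer product has multiplier `χ_{tr₂ u} = 1`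
  (`CosetProd.prod_slash_repB_mem`);
* `c₀ ^ m` is an ANALYTIC NORM of `f` (`RepPair.rel_pow_of_char`), and analytic norms are the
  algebraic norm along `β` (`PrimNorm.norm_eq_of_rel`: multiplicativity `RepPair.rel_mul`,
  existence `RepPair.rel_exists`, the monic annihilator of degree `q + 1` `SymForms.exists_poly`,
  linear disjointness `IndepCB.indepC_beta`);
* descent of the `m`-th root (`TrDesc.exists_root_of_pow_eq`).

`kTrBeta_of` takes the two leaves which instantiate `PrimNorm` (`BetaInst`) and produce the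
annihilator (`PolyStatement`) as hypotheses, in their exact shapes; `betaInst` and `polyB` discharge
them, and `kTrBeta` is the closed statement.
-/
import Mathlib
import Fermat.Agent.S29.KDefs
import Fermat.Agent.S29.KBasic
import Fermat.Agent.S29.KPlanDefs
import Fermat.Agent.S35.KTrPlan
import Fermat.Agent.S35.TrDesc
import Fermat.Agent.S35.RepPair
import Fermat.Agent.S35.CosetProd
import Fermat.Agent.S35.PushPic
import Fermat.Agent.S29.RatDescent
import Fermat.Agent.S37.W.Degree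
import Fermat.Agent.S35.PrimNorm
import Fermat.Agent.S35.IndepLD
import Fermat.Agent.S35.SymForms
import Fermat.Prelude.Thm_ModularCurve_coeffMap_qExpand

set_option autoImplicit false
set_option linter.style.haveILetI false

noncomputable section

namespace Fermat.Agent.S35.WitNorm

open CongruenceSubgroup UpperHalfPlane ModularForm ModularCurve AlgebraicCurve HahnSeries
open scoped MatrixGroups ModularForm Manifold
open Fermat.Agent.S29 Fermat.Agent.S41
open Fermat.Agent.S24 (embC)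

local notation "Qb" => AlgebraicClosure ℚ

variable (M q : ℕ) [NeZero M] [NeZero q]

/-- The instantiation of `PrimNorm.norm_eq_of_rel` along `β` (shape of `NormInstB`). -/
def BetaInst : Prop :=
  ∀ (R : ↥(modularFunctionFieldBar (M * q)) → ↥(K.FC M) → Prop),
    (∀ f, f ≠ 0 → ∃ c, R f c) →
    (∀ f f' c c', R f c → R f' c' → R (f * f') (c * c')) →
    (∀ f c, R f c → ∃ P : Polynomial ↥(K.FC M), P.Monic ∧ P.natDegree = q + 1 ∧
      P.eval₂ ((qExpand ℂ q).comp (algebraMap ↥(K.FC M) (LaurentSeries ℂ)))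
        (coeffMap embC (f : LaurentSeries Qb)) = 0 ∧
      P.coeff 0 = (-1) ^ (q + 1) * c) →
    ∀ {f : ↥(modularFunctionFieldBar (M * q))}, f ≠ 0 → ∀ {c : ↥(K.FC M)}, R f c →
      (c : LaurentSeries ℂ) =
        coeffMap embC ((PushPic.betaNorm M q f : ↥(modularFunctionFieldBar M)) : LaurentSeries Qb)

/-- The monic annihilator of degree `q + 1` along the family `ρ` with base point data
`(d, κ)` (shape of `SymForms.exists_poly`). -/
def PolyStatement {ι : Type} [Fintype ι] (ρ : ι → GL (Fin 2) ℝ) (d : ℕ) [NeZero d] : Prop :=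
  ∀ (w : ℤ) (A B : ℍ → ℂ), A ∈ S20.MF (M * q) w → B ∈ S20.MF (M * q) w → B ≠ 0 →
    ∀ g : LaurentSeries ℂ, g * K.qx B = K.qx A →
      ∃ P : Polynomial ↥(K.FC M), P.Monic ∧ P.natDegree = Fintype.card ι ∧
        P.eval₂ ((qExpand ℂ d).comp (algebraMap ↥(K.FC M) (LaurentSeries ℂ))) g = 0 ∧
        ((P.coeff 0 : ↥(K.FC M)) : LaurentSeries ℂ) * K.qx (∏ x, B ∣[w] ρ x) =
          (-1) ^ Fintype.card ι * K.qx (∏ x, A ∣[w] ρ x)

/-- **The `β`-half of [K-tr] from the leaves of route R1.** -/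
theorem kTrBeta_of (hq : q.Prime) (hqM : ¬ q ∣ M) {m : ℕ} (hm : m ≠ 0)
    (hInst : BetaInst M q)
    (hPoly : haveI : Fact q.Prime := ⟨hq⟩; PolyStatement M q (CosetProd.repB M q hqM) q) :
    KTrPlan.KTrBetaStatement M q m := by
  haveI : Fact q.Prime := ⟨hq⟩
  intro u y hy f hf htr
  obtain ⟨hy0, w, A, B, hA, hB, hB0, hyAB⟩ := hy
  have hcard : Fintype.card (OnePoint (ZMod q)) = q + 1 := by
    have h := HeckeProdMem.card_onePoint_zmod (q := q)
    rwa [Finset.card_univ] at h
  have hdet : ∀ x, 0 < (CosetProd.repB M q hqM x).det.val :=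
    fun x => CosetProd.det_repB_pos M q hqM x
  have hmem := CosetProd.hmemB M q hqM
  have hne := CosetProd.hneB M q hqM
  -- the transfer products of the numerator and of the denominator
  have hPA : (∏ x, A ∣[w] CosetProd.repB M q hqM x) ∈
      K.MFchi M (w * (Fintype.card (OnePoint (ZMod q)) : ℤ)) 1 := by
    have h := CosetProd.prod_slash_repB_mem M q hqM m
      (u : Additive (Gamma0 (M * q)) →+ ℤ) hA
    rwa [htr, KPlan.chiU_zero] at h
  have nPA := K.mem_niceSub_of_mem_MF (K.mem_MFchi_one_iff.mp hPA)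
  have hPB := hmem w B hB
  have nPB := K.mem_niceSub_of_mem_MF hPB
  have hPB0 := hne w B hB hB0
  have hqB : K.qx (∏ x, B ∣[w] CosetProd.repB M q hqM x) ≠ 0 := K.qx_ne_zero nPB hPB0
  obtain ⟨c₀, hc₀eq⟩ : ∃ c₀ : LaurentSeries ℂ,
      c₀ * K.qx (∏ x, B ∣[w] CosetProd.repB M q hqM x) =
        K.qx (∏ x, A ∣[w] CosetProd.repB M q hqM x) :=
    ⟨_, div_mul_cancel₀ _ hqB⟩
  have hc₀mem : c₀ ∈ K.FC M := TrDesc.mem_FC_of_forms hPA hPB hPB0 hc₀eq
  -- `c₀ ^ m` is an analytic norm of `f`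
  have hRel : RepPair.Rel (M * q) (CosetProd.repB M q hqM)
      (coeffMap embC (f : LaurentSeries Qb)) (c₀ ^ m) := by
    have h := RepPair.rel_pow_of_char (Nlow := M) hdet hmem hne
      (KPlan.chiU_pow m hm (u : Additive (Gamma0 (M * q)) →+ ℤ)) (KPlan.chiU_TG m u)
      hA hB hB0 hyAB hc₀eq nPA
    rwa [← map_pow, ← hf] at h
  -- the relation of `PrimNorm`
  have hex : ∀ f : ↥(modularFunctionFieldBar (M * q)), f ≠ 0 → ∃ c : ↥(K.FC M),
      RepPair.Rel (M * q) (CosetProd.repB M q hqM) (coeffMap embC (f : LaurentSeries Qb))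
        (c : LaurentSeries ℂ) := by
    intro f _
    obtain ⟨c, hc⟩ := RepPair.rel_exists (Nlow := M) hmem hne f
    exact ⟨⟨c, RepPair.rel_mem_FC hmem hne hc⟩, hc⟩
  have hmul : ∀ (f f' : ↥(modularFunctionFieldBar (M * q))) (c c' : ↥(K.FC M)),
      RepPair.Rel (M * q) (CosetProd.repB M q hqM) (coeffMap embC (f : LaurentSeries Qb))
        (c : LaurentSeries ℂ) →
      RepPair.Rel (M * q) (CosetProd.repB M q hqM) (coeffMap embC (f' : LaurentSeries Qb))
        (c' : LaurentSeries ℂ) →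
      RepPair.Rel (M * q) (CosetProd.repB M q hqM)
        (coeffMap embC ((f * f' : ↥(modularFunctionFieldBar (M * q))) : LaurentSeries Qb))
        ((c * c' : ↥(K.FC M)) : LaurentSeries ℂ) := by
    intro f f' c c' h h'
    have h2 := RepPair.rel_mul (Nlow := M) hdet hmem hne h h'
    rw [← map_mul] at h2
    exact h2
  have hpoly : ∀ (f : ↥(modularFunctionFieldBar (M * q))) (c : ↥(K.FC M)),
      RepPair.Rel (M * q) (CosetProd.repB M q hqM) (coeffMap embC (f : LaurentSeries Qb))
        (c : LaurentSeries ℂ) →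
      ∃ P : Polynomial ↥(K.FC M), P.Monic ∧ P.natDegree = q + 1 ∧
        P.eval₂ ((qExpand ℂ q).comp (algebraMap ↥(K.FC M) (LaurentSeries ℂ)))
          (coeffMap embC (f : LaurentSeries Qb)) = 0 ∧
        P.coeff 0 = (-1) ^ (q + 1) * c := by
    rintro f c ⟨w', A', B', hA', hB', hB0', hfAB, hcAB⟩
    obtain ⟨P, hP1, hP2, hP3, hP4⟩ := hPoly w' A' B' hA' hB' hB0' _ hfAB
    refine ⟨P, hP1, by rw [hP2, hcard], hP3, ?_⟩
    have hqB' : K.qx (∏ x, B' ∣[w'] CosetProd.repB M q hqM x) ≠ 0 :=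
      K.qx_ne_zero (K.mem_niceSub_of_mem_MF (hmem w' B' hB')) (hne w' B' hB' hB0')
    apply Subtype.ext
    apply mul_right_cancel₀ hqB'
    rw [hP4, hcard]
    push_cast
    rw [mul_assoc, hcAB]
  have hf0 : f ≠ 0 := by
    intro h0
    apply pow_ne_zero m hy0
    rw [← hf, h0]
    rfl
  have hfin := hInst
    (fun f c => RepPair.Rel (M * q) (CosetProd.repB M q hqM)
      (coeffMap embC (f : LaurentSeries Qb)) (c : LaurentSeries ℂ))
    hex hmul hpoly hf0 (c := ⟨c₀ ^ m, pow_mem hc₀mem m⟩) hRel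
  -- descent of the `m`-th root
  have hg : PushPic.betaNorm M q f ≠ 0 := (hf0.isUnit.map (PushPic.betaNorm M q)).ne_zero
  exact TrDesc.exists_root_of_pow_eq hm (PushPic.betaNorm M q f) hg c₀ hc₀mem hfin

/-! ### The instantiation of `PrimNorm` along `β` -/

section Inst

/-- The coefficient change `F̄_M → F_ℂ(M)`. -/
def j0B : ↥(modularFunctionFieldBar M) →+* ↥(K.FC M) :=
  RingHom.codRestrict ((coeffMap embC).comp (modularFunctionFieldBar M).val.toRingHom) (K.FC M)
    (fun x => RatDescent.coeffMap_mem_laurentBaseChange embC _ x.2)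

omit [NeZero M] in
theorem coe_j0B (x : ↥(modularFunctionFieldBar M)) :
    ((j0B M x : ↥(K.FC M)) : LaurentSeries ℂ) = coeffMap embC (x : LaurentSeries Qb) := rfl

omit [NeZero M] in
theorem eBeta_eq : IndepLD.eBeta M q =
    (qExpand ℂ q).comp (algebraMap ↥(K.FC M) (LaurentSeries ℂ)) := rfl

omit [NeZero M] in
theorem hj_beta (x : ↥(modularFunctionFieldBar M)) :
    IndepLD.jBar M q (heckeBetaBar Qb M q x) = IndepLD.eBeta M q (j0B M x) := by
  rw [IndepLD.jBar_apply, IndepLD.eBeta_apply, coe_j0B, coe_heckeBetaBar, coeffMap_qExpand]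

theorem fd_beta :
    letI : Algebra ↥(modularFunctionFieldBar M) ↥(modularFunctionFieldBar (M * q)) :=
      algebraAlong (heckeBetaBar Qb M q)
    FiniteDimensional ↥(modularFunctionFieldBar M) ↥(modularFunctionFieldBar (M * q)) :=
  PushPic.beta_finiteAlong M q

theorem sep_beta :
    letI : Algebra ↥(modularFunctionFieldBar M) ↥(modularFunctionFieldBar (M * q)) :=
      algebraAlong (heckeBetaBar Qb M q)
    Algebra.IsSeparable ↥(modularFunctionFieldBar M) ↥(modularFunctionFieldBar (M * q)) := by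
  letI : Algebra ↥(modularFunctionFieldBar M) ↥(modularFunctionFieldBar (M * q)) :=
    algebraAlong (heckeBetaBar Qb M q)
  haveI : FiniteDimensional ↥(modularFunctionFieldBar M) ↥(modularFunctionFieldBar (M * q)) :=
    fd_beta M q
  infer_instance

/-- `[F̄_{M q} : F̄_M] = q + 1` along `β`. -/
theorem finrank_beta (hq : q.Prime) (hqM : ¬ q ∣ M) :
    letI : Algebra ↥(modularFunctionFieldBar M) ↥(modularFunctionFieldBar (M * q)) :=
      algebraAlong (heckeBetaBar Qb M q)
    Module.finrank ↥(modularFunctionFieldBar M) ↥(modularFunctionFieldBar (M * q)) = q + 1 :=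
  S37.W.finrankAlong_heckeBetaBar M q hq hqM

theorem hind_beta :
    letI : Algebra ↥(modularFunctionFieldBar M) ↥(modularFunctionFieldBar (M * q)) :=
      algebraAlong (heckeBetaBar Qb M q)
    ∀ v : Fin (Module.finrank ↥(modularFunctionFieldBar M)
        ↥(modularFunctionFieldBar (M * q))) → ↥(modularFunctionFieldBar (M * q)),
      LinearIndependent ↥(modularFunctionFieldBar M) v →
      ∀ c : Fin (Module.finrank ↥(modularFunctionFieldBar M)
          ↥(modularFunctionFieldBar (M * q))) → ↥(K.FC M),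
        ∑ i, IndepLD.eBeta M q (c i) * IndepLD.jBar M q (v i) = 0 → ∀ i, c i = 0 :=
  IndepLD.indep_beta M q

theorem hpoly_beta (hq : q.Prime) (hqM : ¬ q ∣ M)
    (R : ↥(modularFunctionFieldBar (M * q)) → ↥(K.FC M) → Prop)
    (hpoly : ∀ f c, R f c → ∃ P : Polynomial ↥(K.FC M), P.Monic ∧ P.natDegree = q + 1 ∧
      P.eval₂ ((qExpand ℂ q).comp (algebraMap ↥(K.FC M) (LaurentSeries ℂ)))
        (coeffMap embC (f : LaurentSeries Qb)) = 0 ∧
      P.coeff 0 = (-1) ^ (q + 1) * c) :
    letI : Algebra ↥(modularFunctionFieldBar M) ↥(modularFunctionFieldBar (M * q)) :=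
      algebraAlong (heckeBetaBar Qb M q)
    ∀ (f : ↥(modularFunctionFieldBar (M * q))) (c : ↥(K.FC M)), R f c →
      ∃ P : Polynomial ↥(K.FC M), P.Monic ∧
        P.natDegree =
          Module.finrank ↥(modularFunctionFieldBar M) ↥(modularFunctionFieldBar (M * q)) ∧
        P.eval₂ (IndepLD.eBeta M q) (IndepLD.jBar M q f) = 0 ∧
        P.coeff 0 = (-1) ^
          Module.finrank ↥(modularFunctionFieldBar M) ↥(modularFunctionFieldBar (M * q)) * c := by
  intro f c h
  obtain ⟨P, h1, h2, h3, h4⟩ := hpoly f c h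
  have hfr := finrank_beta M q hq hqM
  exact ⟨P, h1, by rw [h2, hfr], h3, by rw [h4, hfr]⟩

/-- The norm of a related element (`Algebra.norm` form). -/
theorem betaInst_aux (hq : q.Prime) (hqM : ¬ q ∣ M)
    (R : ↥(modularFunctionFieldBar (M * q)) → ↥(K.FC M) → Prop)
    (hex : ∀ f, f ≠ 0 → ∃ c, R f c)
    (hmul : ∀ f f' c c', R f c → R f' c' → R (f * f') (c * c'))
    (hpoly : ∀ f c, R f c → ∃ P : Polynomial ↥(K.FC M), P.Monic ∧ P.natDegree = q + 1 ∧
      P.eval₂ ((qExpand ℂ q).comp (algebraMap ↥(K.FC M) (LaurentSeries ℂ)))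
        (coeffMap embC (f : LaurentSeries Qb)) = 0 ∧
      P.coeff 0 = (-1) ^ (q + 1) * c)
    {f : ↥(modularFunctionFieldBar (M * q))} (hf : f ≠ 0) {c : ↥(K.FC M)} (hc : R f c) :
    letI : Algebra ↥(modularFunctionFieldBar M) ↥(modularFunctionFieldBar (M * q)) :=
      algebraAlong (heckeBetaBar Qb M q)
    c = j0B M (Algebra.norm ↥(modularFunctionFieldBar M) f) := by
  letI : Algebra ↥(modularFunctionFieldBar M) ↥(modularFunctionFieldBar (M * q)) :=
    algebraAlong (heckeBetaBar Qb M q)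
  haveI : FiniteDimensional ↥(modularFunctionFieldBar M) ↥(modularFunctionFieldBar (M * q)) :=
    fd_beta M q
  haveI : Algebra.IsSeparable ↥(modularFunctionFieldBar M) ↥(modularFunctionFieldBar (M * q)) :=
    sep_beta M q
  haveI : Infinite ↥(modularFunctionFieldBar M) :=
    Infinite.of_injective _ (algebraMap Qb ↥(modularFunctionFieldBar M)).injective
  exact PrimNorm.norm_eq_of_rel (K := ↥(modularFunctionFieldBar M))
    (L := ↥(modularFunctionFieldBar (M * q))) (j0B M) (IndepLD.jBar M q) (IndepLD.eBeta M q)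
    (hj_beta M q) (hind_beta M q) R hex hmul (hpoly_beta M q hq hqM R hpoly) hf hc

omit [NeZero M] in
/-- `PushPic.betaNorm` is the norm for `algebraAlong β`. -/
theorem betaNorm_eq (f : ↥(modularFunctionFieldBar (M * q))) :
    PushPic.betaNorm M q f =
      (letI : Algebra ↥(modularFunctionFieldBar M) ↥(modularFunctionFieldBar (M * q)) :=
        algebraAlong (heckeBetaBar Qb M q)
       Algebra.norm ↥(modularFunctionFieldBar M) f) := rfl

/-- **The instantiation of `PrimNorm.norm_eq_of_rel` along `β`.** -/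
theorem betaInst (hq : q.Prime) (hqM : ¬ q ∣ M) : BetaInst M q := by
  intro R hex hmul hpoly f hf c hc
  rw [betaNorm_eq, ← coe_j0B]
  exact congrArg Subtype.val (betaInst_aux M q hq hqM R hex hmul hpoly hf hc)

end Inst

/-! ### The annihilator along `β` and the closed statement -/

/-- The monic annihilator of degree `q + 1` along `β` (`SymForms.exists_poly` at
`CosetProd.repB`). -/
theorem polyB (hq : q.Prime) (hqM : ¬ q ∣ M) :
    haveI : Fact q.Prime := ⟨hq⟩
    PolyStatement M q (CosetProd.repB M q hqM) q := by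
  haveI : Fact q.Prime := ⟨hq⟩
  haveI : NeZero (M * q) := ⟨Nat.mul_ne_zero (NeZero.ne M) (NeZero.ne q)⟩
  intro w A B hA hB hB0 g hg
  have hκ : ((q : ℂ))⁻¹ ≠ 0 := inv_ne_zero (Nat.cast_ne_zero.mpr (NeZero.ne q))
  exact SymForms.exists_poly (Nup := M * q) (Nlow := M) (ρ := CosetProd.repB M q hqM)
    (fun x => CosetProd.det_repB_pos M q hqM x) (CosetProd.hmemB M q hqM)
    (CosetProd.hneB M q hqM) ((0 : ZMod q) : OnePoint (ZMod q)) q ((q : ℂ))⁻¹ hκ
    (CosetProd.hbaseB M q hqM w) hA hB hB0 hg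

/-- **[K-tr], `β`-half** (`q` prime, `q ∤ M`, `m ≠ 0`): for a witness `y` of `u ∈ Lpar (M q)` with
`tr₂ u = 0` and `f = y ^ m ∈ F̄_{M q}`, `Nm_β f = c · h ^ m` with `h ∈ F̄_M`, `c ∈ ℚ̄ˣ`. -/
theorem kTrBeta (hq : q.Prime) (hqM : ¬ q ∣ M) {m : ℕ} (hm : m ≠ 0) :
    KTrPlan.KTrBetaStatement M q m :=
  kTrBeta_of M q hq hqM hm (betaInst M q hq hqM) (polyB M q hq hqM)

end Fermat.Agent.S35.WitNorm
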