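import Mathlib
import Fermat.Agent.S34.LocPlan
import Fermat.Agent.S35.LocFPlan

/-!
# S35, abstract block of [E], leaf (4) [YG] — B-copy (helper75)

`yg_of_decomp : DecompStatement → YGStatement` (Props of `S35/LocFPlan.lean`, helper25).

At a closed point `n` of the special fibre put `n₁ = Σ⁻¹ n`, `n₂ = Σ⁻¹ n₁` (preimages under the
restriction of `Σ = Sg` to the chart `R`; they are closed points of the special fibre because
`Σ π ∈ P 0 ∩ P 1 = π R`).  `[Decomp]` at `(n, n₁)` and at `(n₁, n₂)` gives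
`Σ f / f = g₁ ^ m * ε₁` with `ε₁ ∈ R_nˣ` and `Σ f / f = g₂ ^ m * ε₂` with `ε₂ ∈ R_{n₁}ˣ`, hence

  `G = Σ(Σf/f) / (Σf/f) · H ^ m = (Σ g₂ / g₁ · H) ^ m · (Σ ε₂ / ε₁)`,

and `Σ ε₂ / ε₁ ∈ R_nˣ` since `Σ` maps `R_{n₁}ˣ` to `R_nˣ`.

Contents: `unitAt_mul`, `unitAt_inv`, `unitAt_map` (elementary calculus of `UnitAt`), `resHom`
(the restriction of `Sg` to `R`), `preIdeal` (`Σ⁻¹ n`) with `isPre_preIdeal`,
`preIdeal_isMaximal`, `pi_mem_preIdeal`, `preIdeal_eq_of_fixedBy`, the identity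
`gFun_eq_of_firstDiff`, and the leaf `yg_of_decomp`.
-/

set_option autoImplicit false

namespace Fermat.Agent.S35.YGB

open Fermat.Agent.S34.LocPlan Fermat.Agent.S35.LocFPlan

/-! ### Calculus of `UnitAt` -/

section Units

variable {R : Type*} [CommRing R] {E : Type*} [Field E] [Algebra R E]

/-- Units of `R_n` are closed under products. -/
theorem unitAt_mul {n : Ideal R} (hn : n.IsPrime) {x y : E} (hx : UnitAt n x)
    (hy : UnitAt n y) : UnitAt n (x * y) := by
  obtain ⟨a, s, ha, hs, h⟩ := hx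
  obtain ⟨a', s', ha', hs', h'⟩ := hy
  refine ⟨a * a', s * s', ?_, ?_, ?_⟩
  · exact fun hmem => (hn.mem_or_mem hmem).elim ha ha'
  · exact fun hmem => (hn.mem_or_mem hmem).elim hs hs'
  · rw [map_mul, map_mul, ← h, ← h']
    ring

/-- Units of `R_n` are closed under inverses. -/
theorem unitAt_inv (hinj : Function.Injective (algebraMap R E)) {n : Ideal R} {x : E}
    (hx : UnitAt n x) : UnitAt n x⁻¹ := by
  obtain ⟨a, s, ha, hs, h⟩ := hx
  have ha0 : algebraMap R E a ≠ 0 := by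
    intro h0
    have : a = 0 := hinj (by rw [h0, map_zero])
    exact ha (this ▸ n.zero_mem)
  have hx0 : x ≠ 0 := by
    rintro rfl
    rw [zero_mul] at h
    exact ha0 h.symm
  refine ⟨s, a, hs, ha, ?_⟩
  rw [← h]
  field_simp

/-- `Σ` maps the units of `R_{n'}` to units of `R_n` if `n' = Σ⁻¹ n`. -/
theorem unitAt_map {Sg : E ≃+* E}
    (hmap : ∀ r : R, ∃ r' : R, Sg (algebraMap R E r) = algebraMap R E r') {n' n : Ideal R}
    (hpre : IsPre Sg n' n) {x : E} (hx : UnitAt n' x) : UnitAt n (Sg x) := by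
  obtain ⟨a, s, ha, hs, h⟩ := hx
  obtain ⟨a', ha'⟩ := hmap a
  obtain ⟨s', hs'⟩ := hmap s
  refine ⟨a', s', fun hmem => ha ((hpre a a' ha').mpr hmem),
    fun hmem => hs ((hpre s s' hs').mpr hmem), ?_⟩
  rw [← ha', ← hs', ← map_mul, h]

end Units

/-! ### The restriction of `Σ` to the chart and the preimage of a closed point -/

section Pre

variable {R : Type*} [CommRing R] {E : Type*} [Field E] [Algebra R E]

/-- The restriction of `Sg` to `R`, as a function. -/
noncomputable def resFun (Sg : E ≃+* E)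
    (hmap : ∀ r : R, ∃ r' : R, Sg (algebraMap R E r) = algebraMap R E r') (r : R) : R :=
  (hmap r).choose

theorem algebraMap_resFun (Sg : E ≃+* E)
    (hmap : ∀ r : R, ∃ r' : R, Sg (algebraMap R E r) = algebraMap R E r') (r : R) :
    algebraMap R E (resFun Sg hmap r) = Sg (algebraMap R E r) :=
  (hmap r).choose_spec.symm

/-- The restriction of `Sg` to `R`. -/
noncomputable def resHom (hinj : Function.Injective (algebraMap R E)) (Sg : E ≃+* E)
    (hmap : ∀ r : R, ∃ r' : R, Sg (algebraMap R E r) = algebraMap R E r') : R →+* R where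
  toFun := resFun Sg hmap
  map_one' := hinj (by rw [algebraMap_resFun, map_one, map_one])
  map_mul' a b := hinj (by
    rw [algebraMap_resFun, map_mul, map_mul, map_mul, algebraMap_resFun, algebraMap_resFun])
  map_zero' := hinj (by rw [algebraMap_resFun, map_zero, map_zero])
  map_add' a b := hinj (by
    rw [algebraMap_resFun, map_add, map_add, map_add, algebraMap_resFun, algebraMap_resFun])

theorem algebraMap_resHom (hinj : Function.Injective (algebraMap R E)) (Sg : E ≃+* E)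
    (hmap : ∀ r : R, ∃ r' : R, Sg (algebraMap R E r) = algebraMap R E r') (r : R) :
    algebraMap R E (resHom hinj Sg hmap r) = Sg (algebraMap R E r) :=
  algebraMap_resFun Sg hmap r

theorem resHom_surjective (hinj : Function.Injective (algebraMap R E)) (Sg : E ≃+* E)
    (hmap : ∀ r : R, ∃ r' : R, Sg (algebraMap R E r) = algebraMap R E r')
    (hsymm : ∀ r : R, ∃ r' : R, Sg.symm (algebraMap R E r) = algebraMap R E r') :
    Function.Surjective (resHom hinj Sg hmap) := by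
  intro r
  obtain ⟨r', hr'⟩ := hsymm r
  refine ⟨r', hinj ?_⟩
  rw [algebraMap_resHom, ← hr', RingEquiv.apply_symm_apply]

/-- `Σ⁻¹ n`, as an ideal of `R`. -/
noncomputable def preIdeal (hinj : Function.Injective (algebraMap R E)) (Sg : E ≃+* E)
    (hmap : ∀ r : R, ∃ r' : R, Sg (algebraMap R E r) = algebraMap R E r') (n : Ideal R) :
    Ideal R :=
  n.comap (resHom hinj Sg hmap)

theorem isPre_preIdeal (hinj : Function.Injective (algebraMap R E)) (Sg : E ≃+* E)
    (hmap : ∀ r : R, ∃ r' : R, Sg (algebraMap R E r) = algebraMap R E r') (n : Ideal R) :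
    IsPre Sg (preIdeal hinj Sg hmap n) n := by
  intro r r' h
  have e : resHom hinj Sg hmap r = r' := hinj (by rw [algebraMap_resHom, h])
  show resHom hinj Sg hmap r ∈ n ↔ r' ∈ n
  rw [e]

theorem preIdeal_isMaximal (hinj : Function.Injective (algebraMap R E)) (Sg : E ≃+* E)
    (hmap : ∀ r : R, ∃ r' : R, Sg (algebraMap R E r) = algebraMap R E r')
    (hsymm : ∀ r : R, ∃ r' : R, Sg.symm (algebraMap R E r) = algebraMap R E r')
    {n : Ideal R} (hn : n.IsMaximal) : (preIdeal hinj Sg hmap n).IsMaximal :=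
  Ideal.comap_isMaximal_of_surjective _ (resHom_surjective hinj Sg hmap hsymm)

/-- A `Σ`-stable closed point is its own preimage. -/
theorem preIdeal_eq_of_fixedBy (hinj : Function.Injective (algebraMap R E)) (Sg : E ≃+* E)
    (hmap : ∀ r : R, ∃ r' : R, Sg (algebraMap R E r) = algebraMap R E r') {n : Ideal R}
    (hfix : FixedBy Sg n) : preIdeal hinj Sg hmap n = n := by
  ext r
  exact ((hfix r _ (algebraMap_resHom hinj Sg hmap r).symm)).symm

end Pre

section Chart

variable {O : Type*} [CommRing O] {R : Type*} [CommRing R] [Algebra O R]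
  {E : Type*} [Field E] [Algebra R E]

/-- `Σ π ∈ π R`: the preimage of a closed point of the special fibre lies on the special
fibre. -/
theorem pi_mem_preIdeal (hinj : Function.Injective (algebraMap R E)) {π : O}
    {V : Fin 2 → ValuationSubring E} {P : Fin 2 → Ideal R} {Sg : E ≃+* E} {Q : ℕ}
    (hC : ChartHyp π V P) (hF : FrobHyp (R := R) π V Sg Q) {n : Ideal R}
    (hπ : algebraMap O R π ∈ n) :
    algebraMap O R π ∈ preIdeal hinj Sg hF.map_R n := by
  show resHom hinj Sg hF.map_R (algebraMap O R π) ∈ n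
  have hP : ∀ i : Fin 2, resHom hinj Sg hF.map_R (algebraMap O R π) ∈ P i := by
    intro i
    obtain ⟨u, hu, -, hSg⟩ := hF.pi i
    exact (hC.mem_P i _).mpr ⟨u, hu, by rw [algebraMap_resHom, hSg]⟩
  obtain ⟨r', hr'⟩ := hC.red _ hP
  rw [hr']
  exact n.mul_mem_right _ hπ

end Chart

/-! ### The identity for `G` -/

/-- If `Σ f / f = g₁ ^ m * ε₁ = g₂ ^ m * ε₂` then
`G = (Σ g₂ / g₁ * H) ^ m * (Σ ε₂ * ε₁⁻¹)`. -/
theorem gFun_eq_of_firstDiff {E : Type*} [Field E] (Sg : E ≃+* E) {f : E} (hf : f ≠ 0) (H : E)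
    (m : ℕ) {g₁ ε₁ g₂ ε₂ : E} (hg₁ : g₁ ≠ 0)
    (h₁ : firstDiff Sg f = g₁ ^ m * ε₁) (h₂ : firstDiff Sg f = g₂ ^ m * ε₂) :
    gFun Sg f H m = (Sg g₂ / g₁ * H) ^ m * (Sg ε₂ * ε₁⁻¹) := by
  have hSf : Sg f ≠ 0 := (map_ne_zero_iff _ Sg.injective).mpr hf
  have hfd : firstDiff Sg f ≠ 0 := div_ne_zero hSf hf
  have hε₁ : ε₁ ≠ 0 := by
    rintro rfl
    rw [mul_zero] at h₁
    exact hfd h₁
  have e : secondDiff Sg Sg f = Sg (g₂ ^ m * ε₂) / (g₁ ^ m * ε₁) := by
    rw [← h₂, ← h₁]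
    unfold secondDiff firstDiff
    rw [map_div₀]
    field_simp
  unfold gFun
  rw [e, map_mul, map_pow, mul_pow, div_pow]
  field_simp

/-! ### The leaf -/

/-- **[YG]** from **[Decomp]**. -/
theorem yg_of_decomp (hD : DecompStatement) : YGStatement := by
  intro O _ _ _ R _ _ _ _ _ E _ _ _ π V P Sg Q f H m n hπ hn hπn hm hL
  have hinj : Function.Injective (algebraMap R E) := IsFractionRing.injective R E
  have hC := hL.chart
  have hF := hL.frob
  -- the two preimages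
  set n₁ : Ideal R := preIdeal hinj Sg hF.map_R n with hn₁
  set n₂ : Ideal R := preIdeal hinj Sg hF.map_R n₁ with hn₂
  have hn₁max : n₁.IsMaximal := preIdeal_isMaximal hinj Sg hF.map_R hF.symm_R hn
  have hn₂max : n₂.IsMaximal := preIdeal_isMaximal hinj Sg hF.map_R hF.symm_R hn₁max
  have hπn₁ : algebraMap O R π ∈ n₁ := pi_mem_preIdeal hinj hC hF hπn
  have hπn₂ : algebraMap O R π ∈ n₂ := pi_mem_preIdeal hinj hC hF hπn₁
  have hpre₁ : IsPre Sg n₁ n := isPre_preIdeal hinj Sg hF.map_R n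
  have hpre₂ : IsPre Sg n₂ n₁ := isPre_preIdeal hinj Sg hF.map_R n₁
  -- [Decomp] at `(n, n₁)` and at `(n₁, n₂)`
  obtain ⟨g₁, ε₁, hg₁, h₁, hε₁⟩ := hD O R E π V P Sg Q f m n n₁ hπ hn hn₁max hπn hL.f_ne hm hC hF
    hpre₁ (fun h0 h1 => preIdeal_eq_of_fixedBy hinj Sg hF.map_R (hL.node n hn hπn h0 h1))
    (hL.hor n hn hπn) (hL.hor n₁ hn₁max hπn₁)
  obtain ⟨g₂, ε₂, -, h₂, hε₂⟩ := hD O R E π V P Sg Q f m n₁ n₂ hπ hn₁max hn₂max hπn₁ hL.f_ne hm
    hC hF hpre₂
    (fun h0 h1 => preIdeal_eq_of_fixedBy hinj Sg hF.map_R (hL.node n₁ hn₁max hπn₁ h0 h1))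
    (hL.hor n₁ hn₁max hπn₁) (hL.hor n₂ hn₂max hπn₂)
  exact ⟨Sg g₂ / g₁ * H, Sg ε₂ * ε₁⁻¹, gFun_eq_of_firstDiff Sg hL.f_ne H m hg₁ h₁ h₂,
    unitAt_mul hn.isPrime (unitAt_map hF.map_R hpre₁ hε₂) (unitAt_inv hinj hε₁)⟩

end Fermat.Agent.S35.YGB
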